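import Mathlib
import Fermat.Prelude.Def_ModularCurve_JqCoeff
import Fermat.Prelude.Def_ModularCurve_LaurentCoeff

/-!
# S24, modular layer (C): bridge between the Prelude's formal `q`-series and Mathlib's analytic
modular forms

* `qExpansion_E4_eq` : `qExpansion 1 E₄ = eisenstein4.map (Int.castRingHom ℂ)`
* `qExpansion_discriminant_eq` : `qExpansion 1 Δ = X * dedekindEtaUnit.map (Int.castRingHom ℂ)`
* `jqModC_mul_qExpansion_discriminant` : in `LaurentSeries ℂ`,
  `jqModC ℂ * ofPowerSeries (qExpansion 1 Δ) = ofPowerSeries (qExpansion 1 E₄) ^ 3`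
-/

set_option autoImplicit false

namespace Fermat.Agent.S24.JBridge80

open PowerSeries

noncomputable section

/-! ### Evaluation of absolutely convergent power series -/

/-- `p` evaluates (absolutely convergently) at `q` to `v`. -/
structure EvalsTo (p : PowerSeries ℂ) (q : ℂ) (v : ℂ) : Prop where
  summable_norm : Summable fun m : ℕ => ‖coeff m p * q ^ m‖
  hasSum : HasSum (fun m : ℕ => coeff m p * q ^ m) v

namespace EvalsTo

variable {p p' : PowerSeries ℂ} {q v v' : ℂ}

theorem of_single (k : ℕ) (c : ℂ) (h : ∀ m : ℕ, coeff m p * q ^ m = if m = k then c else 0) :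
    EvalsTo p q c := by
  have h1 : (fun m : ℕ => coeff m p * q ^ m) = fun m => if m = k then c else 0 := funext h
  have h2 : (fun m : ℕ => ‖coeff m p * q ^ m‖) = fun m => if m = k then ‖c‖ else 0 := by
    funext m
    rw [h m]
    split_ifs <;> simp
  refine ⟨?_, ?_⟩
  · rw [h2]
    exact (hasSum_ite_eq k ‖c‖).summable
  · rw [h1]
    exact hasSum_ite_eq k c

theorem one (q : ℂ) : EvalsTo 1 q 1 := by
  refine of_single 0 1 fun m => ?_
  rw [coeff_one]
  split_ifs with h
  · subst h; simp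
  · simp

theorem X (q : ℂ) : EvalsTo PowerSeries.X q q := by
  refine of_single 1 q fun m => ?_
  rw [coeff_X]
  split_ifs with h
  · subst h; simp
  · simp

theorem mul (h : EvalsTo p q v) (h' : EvalsTo p' q v') : EvalsTo (p * p') q (v * v') := by
  have key : ∀ n : ℕ, coeff n (p * p') * q ^ n
      = ∑ kl ∈ Finset.HasAntidiagonal.antidiagonal n,
          (coeff kl.1 p * q ^ kl.1) * (coeff kl.2 p' * q ^ kl.2) := by
    intro n
    rw [coeff_mul, Finset.sum_mul]
    refine Finset.sum_congr rfl fun kl hkl => ?_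
    have : kl.1 + kl.2 = n := Finset.HasAntidiagonal.mem_antidiagonal.mp hkl
    rw [← this, pow_add]
    ring
  have key1 : (fun n : ℕ => coeff n (p * p') * q ^ n)
      = fun n => ∑ kl ∈ Finset.HasAntidiagonal.antidiagonal n,
          (coeff kl.1 p * q ^ kl.1) * (coeff kl.2 p' * q ^ kl.2) := funext key
  have key2 : (fun n : ℕ => ‖coeff n (p * p') * q ^ n‖)
      = fun n => ‖∑ kl ∈ Finset.HasAntidiagonal.antidiagonal n,
          (coeff kl.1 p * q ^ kl.1) * (coeff kl.2 p' * q ^ kl.2)‖ :=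
    funext fun n => by rw [key n]
  have hs := summable_norm_sum_mul_antidiagonal_of_summable_norm h.summable_norm h'.summable_norm
  refine ⟨?_, ?_⟩
  · rw [key2]
    exact hs
  · rw [key1]
    have := tsum_mul_tsum_eq_tsum_sum_antidiagonal_of_summable_norm h.summable_norm
      h'.summable_norm
    rw [h.hasSum.tsum_eq, h'.hasSum.tsum_eq] at this
    rw [this]
    exact hs.of_norm.hasSum

theorem pow (h : EvalsTo p q v) (n : ℕ) : EvalsTo (p ^ n) q (v ^ n) := by
  induction n with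
  | zero => simpa using one q
  | succ n ih => simpa [pow_succ] using ih.mul h

theorem add (h : EvalsTo p q v) (h' : EvalsTo p' q v') : EvalsTo (p + p') q (v + v') := by
  have key : ∀ m : ℕ, coeff m (p + p') * q ^ m = coeff m p * q ^ m + coeff m p' * q ^ m := by
    intro m; rw [map_add, add_mul]
  refine ⟨?_, ?_⟩
  · refine Summable.of_nonneg_of_le (fun m => norm_nonneg _) (fun m => ?_)
      (h.summable_norm.add h'.summable_norm)
    rw [key m]
    exact norm_add_le _ _
  · rw [show (fun m : ℕ => coeff m (p + p') * q ^ m)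
        = fun m => coeff m p * q ^ m + coeff m p' * q ^ m from funext key]
    exact h.hasSum.add h'.hasSum

theorem neg (h : EvalsTo p q v) : EvalsTo (-p) q (-v) := by
  have key : ∀ m : ℕ, coeff m (-p) * q ^ m = -(coeff m p * q ^ m) := by
    intro m; rw [map_neg, neg_mul]
  refine ⟨?_, ?_⟩
  · rw [show (fun m : ℕ => ‖coeff m (-p) * q ^ m‖) = fun m => ‖coeff m p * q ^ m‖ from
      funext fun m => by rw [key m, norm_neg]]
    exact h.summable_norm
  · rw [show (fun m : ℕ => coeff m (-p) * q ^ m) = fun m => -(coeff m p * q ^ m) from funext key]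
    exact h.hasSum.neg

theorem sub (h : EvalsTo p q v) (h' : EvalsTo p' q v') : EvalsTo (p - p') q (v - v') := by
  simpa [sub_eq_add_neg] using h.add h'.neg

theorem X_pow (q : ℂ) (k : ℕ) : EvalsTo (PowerSeries.X ^ k) q (q ^ k) := (X q).pow k

theorem prod {ι : Type*} (s : Finset ι) {P : ι → PowerSeries ℂ} {V : ι → ℂ}
    (h : ∀ i ∈ s, EvalsTo (P i) q (V i)) : EvalsTo (∏ i ∈ s, P i) q (∏ i ∈ s, V i) := by
  classical
  induction s using Finset.induction_on with
  | empty => simpa using one q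
  | insert a s ha ih =>
    rw [Finset.prod_insert ha, Finset.prod_insert ha]
    exact (h a (Finset.mem_insert_self a s)).mul
      (ih fun i hi => h i (Finset.mem_insert_of_mem hi))

end EvalsTo

/-! ### Uniqueness of coefficients, Taylor expansions -/

theorem hasFPowerSeriesOnBall_of_hasSum {c : ℕ → ℂ} {F : ℂ → ℂ}
    (h : ∀ q : ℂ, ‖q‖ < 1 → HasSum (fun m : ℕ => c m * q ^ m) (F q)) :
    HasFPowerSeriesOnBall F (FormalMultilinearSeries.ofScalars ℂ c) 0 1 := by
  constructor
  · refine le_of_forall_lt_imp_le_of_dense fun r hr => ?_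
    lift r to NNReal using hr.ne_top
    apply FormalMultilinearSeries.le_radius_of_summable
    have hr1 : ‖((r : ℝ) : ℂ)‖ < 1 := by
      rw [Complex.norm_real, Real.norm_eq_abs, NNReal.abs_eq]
      exact_mod_cast hr
    have := (h (r : ℝ) hr1).summable.norm
    simpa [FormalMultilinearSeries.ofScalars_norm, norm_mul, norm_pow] using this
  · simp
  · intro y hy
    rw [← ENNReal.coe_one, Metric.eball_coe, NNReal.coe_one, mem_ball_zero_iff] at hy
    have := h y hy
    simpa [FormalMultilinearSeries.ofScalars_apply_eq, mul_comm] using this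

theorem coeff_eq_of_hasSum_ball {c c' : ℕ → ℂ} {F : ℂ → ℂ}
    (h : ∀ q : ℂ, ‖q‖ < 1 → HasSum (fun m : ℕ => c m * q ^ m) (F q))
    (h' : ∀ q : ℂ, ‖q‖ < 1 → HasSum (fun m : ℕ => c' m * q ^ m) (F q)) : c = c' := by
  have h1 := (hasFPowerSeriesOnBall_of_hasSum h).hasFPowerSeriesAt
  have h2 := (hasFPowerSeriesOnBall_of_hasSum h').hasFPowerSeriesAt
  have := h1.eq_formalMultilinearSeries h2
  exact FormalMultilinearSeries.ofScalars_series_injective (𝕜 := ℂ) (E := ℂ) this

theorem summable_norm_of_hasSum_ball {c : ℕ → ℂ} {F : ℂ → ℂ}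
    (h : ∀ q : ℂ, ‖q‖ < 1 → HasSum (fun m : ℕ => c m * q ^ m) (F q)) {q : ℂ} (hq : ‖q‖ < 1) :
    Summable fun m : ℕ => ‖c m * q ^ m‖ := by
  have hball := hasFPowerSeriesOnBall_of_hasSum h
  have hr : ((‖q‖₊ : NNReal) : ENNReal) < (FormalMultilinearSeries.ofScalars ℂ c).radius := by
    refine lt_of_lt_of_le ?_ hball.r_le
    exact_mod_cast hq
  have := (FormalMultilinearSeries.ofScalars ℂ c).summable_norm_mul_pow hr
  simpa [FormalMultilinearSeries.ofScalars_norm, norm_mul, norm_pow] using this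

/-- Taylor expansion on the unit ball. -/
theorem exists_hasSum_of_differentiableOn {V : ℂ → ℂ}
    (hV : DifferentiableOn ℂ V (Metric.ball 0 1)) :
    ∃ t : ℕ → ℂ, ∀ q : ℂ, ‖q‖ < 1 → HasSum (fun m : ℕ => t m * q ^ m) (V q) := by
  refine ⟨fun n => ((n.factorial : ℂ))⁻¹ * iteratedDeriv n V 0, fun q hq => ?_⟩
  have := Complex.hasSum_taylorSeries_on_ball hV (z := q) (by simpa using hq)
  have h2 : (fun n : ℕ => ((n.factorial : ℂ))⁻¹ • (q - 0) ^ n • iteratedDeriv n V 0)
      = fun m : ℕ => (fun n : ℕ => ((n.factorial : ℂ))⁻¹ * iteratedDeriv n V 0) m * q ^ m := by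
    funext m
    simp only [sub_zero, smul_eq_mul]
    ring
  rw [h2] at this
  exact this

/-! ### Norm sums -/

/-- The sum of the norms of the terms of `p` at `q`. -/
def normSum (p : PowerSeries ℂ) (q : ℂ) : ℝ := ∑' m : ℕ, ‖coeff m p * q ^ m‖

namespace EvalsTo

variable {p p' : PowerSeries ℂ} {q v v' : ℂ}

theorem term_le_normSum (h : EvalsTo p q v) (m : ℕ) : ‖coeff m p * q ^ m‖ ≤ normSum p q :=
  h.summable_norm.le_tsum m fun _ _ => norm_nonneg _

theorem normSum_nonneg (p : PowerSeries ℂ) (q : ℂ) : 0 ≤ normSum p q :=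
  tsum_nonneg fun _ => norm_nonneg _

theorem normSum_mul_le (h : EvalsTo p q v) (h' : EvalsTo p' q v') :
    normSum (p * p') q ≤ normSum p q * normSum p' q := by
  have hn : Summable fun m : ℕ => ‖‖coeff m p * q ^ m‖‖ := by simpa using h.summable_norm
  have hn' : Summable fun m : ℕ => ‖‖coeff m p' * q ^ m‖‖ := by simpa using h'.summable_norm
  have hprod := tsum_mul_tsum_eq_tsum_sum_antidiagonal_of_summable_norm hn hn'
  have hsumm := summable_norm_sum_mul_antidiagonal_of_summable_norm hn hn'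
  unfold normSum
  rw [hprod]
  refine Summable.tsum_le_tsum (fun n => ?_) (h.mul h').summable_norm ?_
  · rw [coeff_mul, Finset.sum_mul]
    refine (norm_sum_le _ _).trans (Finset.sum_le_sum fun kl hkl => ?_)
    have : kl.1 + kl.2 = n := Finset.HasAntidiagonal.mem_antidiagonal.mp hkl
    rw [← this, pow_add, ← norm_mul]
    exact le_of_eq (by ring_nf)
  · refine hsumm.of_norm.congr fun n => ?_
    rfl

theorem normSum_add_le (h : EvalsTo p q v) (h' : EvalsTo p' q v') :
    normSum (p + p') q ≤ normSum p q + normSum p' q := by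
  unfold normSum
  rw [← h.summable_norm.tsum_add h'.summable_norm]
  refine Summable.tsum_le_tsum (fun m => ?_) (h.add h').summable_norm
    (h.summable_norm.add h'.summable_norm)
  rw [map_add, add_mul]
  exact norm_add_le _ _

theorem normSum_neg (p : PowerSeries ℂ) (q : ℂ) : normSum (-p) q = normSum p q := by
  unfold normSum
  congr 1
  funext m
  rw [map_neg, neg_mul, norm_neg]

theorem normSum_of_single (k : ℕ) (c : ℂ)
    (h : ∀ m : ℕ, coeff m p * q ^ m = if m = k then c else 0) : normSum p q = ‖c‖ := by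
  unfold normSum
  rw [show (fun m : ℕ => ‖coeff m p * q ^ m‖) = fun m => if m = k then ‖c‖ else 0 from
    funext fun m => by rw [h m]; split_ifs <;> simp]
  exact (hasSum_ite_eq k ‖c‖).tsum_eq

theorem normSum_one (q : ℂ) : normSum 1 q = 1 := by
  rw [normSum_of_single 0 1 fun m => ?_, norm_one]
  rw [coeff_one]
  split_ifs with h
  · subst h; simp
  · simp

theorem normSum_X_pow (q : ℂ) (k : ℕ) : normSum (PowerSeries.X ^ k) q = ‖q‖ ^ k := by
  rw [normSum_of_single k (q ^ k) fun m => ?_, norm_pow]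
  rw [coeff_X_pow]
  split_ifs with h
  · subst h; simp
  · simp

end EvalsTo

/-! ### The Euler product -/

/-- The partial products of `∏ (1 - X^(i+1))`. -/
def partialEta (M : ℕ) : PowerSeries ℂ := ∏ i ∈ Finset.range M, (1 - PowerSeries.X ^ (i + 1))

theorem evalsTo_factor (q : ℂ) (i : ℕ) :
    EvalsTo (1 - PowerSeries.X ^ (i + 1)) q (1 - q ^ (i + 1)) :=
  (EvalsTo.one q).sub (EvalsTo.X_pow q (i + 1))

theorem normSum_factor_le (q : ℂ) (i : ℕ) :
    normSum (1 - PowerSeries.X ^ (i + 1)) q ≤ 1 + ‖q‖ ^ (i + 1) := by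
  have := EvalsTo.normSum_add_le (EvalsTo.one q) (EvalsTo.X_pow q (i + 1)).neg
  rwa [EvalsTo.normSum_neg, EvalsTo.normSum_one, EvalsTo.normSum_X_pow, ← sub_eq_add_neg] at this

theorem evalsTo_partialEta (M : ℕ) (q : ℂ) :
    EvalsTo (partialEta M) q (∏ i ∈ Finset.range M, (1 - q ^ (i + 1))) :=
  EvalsTo.prod _ fun i _ => evalsTo_factor q i

theorem normSum_partialEta_le (M : ℕ) (q : ℂ) :
    normSum (partialEta M) q ≤ ∏ i ∈ Finset.range M, (1 + ‖q‖ ^ (i + 1)) := by
  induction M with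
  | zero => simp [partialEta, EvalsTo.normSum_one]
  | succ M ih =>
    have h1 : partialEta (M + 1) = partialEta M * (1 - PowerSeries.X ^ (M + 1)) := by
      simp [partialEta, Finset.prod_range_succ]
    rw [h1, Finset.prod_range_succ]
    refine (EvalsTo.normSum_mul_le (evalsTo_partialEta M q) (evalsTo_factor q M)).trans ?_
    exact mul_le_mul ih (normSum_factor_le q M) (EvalsTo.normSum_nonneg _ _)
      (Finset.prod_nonneg fun i _ => by positivity)

theorem prod_one_add_pow_le_exp {r : ℝ} (hr0 : 0 ≤ r) (hr1 : r < 1) (M : ℕ) :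
    ∏ i ∈ Finset.range M, (1 + r ^ (i + 1)) ≤ Real.exp (r / (1 - r)) := by
  have h1 : ∏ i ∈ Finset.range M, (1 + r ^ (i + 1))
      ≤ ∏ i ∈ Finset.range M, Real.exp (r ^ (i + 1)) :=
    Finset.prod_le_prod (fun i _ => by positivity) fun i _ => by
      have := Real.add_one_le_exp (r ^ (i + 1)); linarith
  rw [← Real.exp_sum] at h1
  refine h1.trans (Real.exp_le_exp.mpr ?_)
  have hgeo : ∑ i ∈ Finset.range M, r ^ (i + 1) = r * ∑ i ∈ Finset.range M, r ^ i := by
    rw [Finset.mul_sum]; exact Finset.sum_congr rfl fun i _ => by ring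
  rw [hgeo, div_eq_mul_inv]
  have hsum : ∑ i ∈ Finset.range M, r ^ i ≤ (1 - r)⁻¹ := by
    have := (hasSum_geometric_of_lt_one hr0 hr1)
    exact sum_le_hasSum _ (fun i _ => by positivity) this
  exact mul_le_mul_of_nonneg_left hsum hr0

theorem coeff_partialEta_eventually (n : ℕ) :
    ∀ᶠ M in Filter.atTop, coeff n (partialEta M) = coeff n (pentagonalSeries ℂ) :=
  Filter.tendsto_finset_range.eventually (PowerSeries.coeff_prod_one_sub_X_pow_eventually_eq ℂ n)

/-- **Evaluation of the Euler product**: for `‖q‖ < 1` the formal series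
`∏ (1 - X^(i+1)) = pentagonalSeries` evaluates at `q` to the analytic product. -/
theorem evalsTo_pentagonalSeries {q : ℂ} (hq : ‖q‖ < 1) :
    EvalsTo (pentagonalSeries ℂ) q (∏' i : ℕ, (1 - q ^ (i + 1))) := by
  have hq0 : 0 ≤ ‖q‖ := norm_nonneg q
  obtain ⟨r, hr0, hqr, hr1⟩ : ∃ r : ℝ, 0 < r ∧ ‖q‖ < r ∧ r < 1 :=
    ⟨(1 + ‖q‖) / 2, by linarith, by linarith, by linarith⟩
  obtain ⟨C, hC⟩ : ∃ C : ℝ, C = Real.exp (r / (1 - r)) := ⟨_, rfl⟩
  obtain ⟨ρ, hρ⟩ : ∃ ρ : ℝ, ρ = ‖q‖ / r := ⟨_, rfl⟩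
  have hρ0 : 0 ≤ ρ := hρ ▸ div_nonneg hq0 hr0.le
  have hρ1 : ρ < 1 := hρ ▸ (div_lt_one hr0).mpr hqr
  have hnr : ‖(r : ℂ)‖ = r := by rw [Complex.norm_real, Real.norm_eq_abs, abs_of_pos hr0]
  have hbound : ∀ (M m : ℕ), ‖coeff m (partialEta M) * q ^ m‖ ≤ C * ρ ^ m := by
    intro M m
    have h1 := (evalsTo_partialEta M (r : ℂ)).term_le_normSum m
    have h2 : normSum (partialEta M) (r : ℂ) ≤ C := by
      refine (normSum_partialEta_le M (r : ℂ)).trans ?_
      rw [hnr, hC]
      exact prod_one_add_pow_le_exp hr0.le hr1 M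
    have h3 : ‖coeff m (partialEta M)‖ * r ^ m ≤ C := by
      have := h1.trans h2
      rwa [norm_mul, norm_pow, hnr] at this
    have h4 : ‖coeff m (partialEta M) * q ^ m‖ = ‖coeff m (partialEta M)‖ * r ^ m * ρ ^ m := by
      have : r ^ m * ρ ^ m = ‖q‖ ^ m := by
        rw [← mul_pow, hρ, mul_div_cancel₀ _ hr0.ne']
      rw [norm_mul, norm_pow, mul_assoc, this]
    rw [h4]
    exact mul_le_mul_of_nonneg_right h3 (pow_nonneg hρ0 m)
  have hsb : Summable fun m : ℕ => C * ρ ^ m :=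
    (summable_geometric_of_lt_one hρ0 hρ1).mul_left C
  have hlim : ∀ m : ℕ, Filter.Tendsto (fun M => coeff m (partialEta M) * q ^ m) Filter.atTop
      (nhds (coeff m (pentagonalSeries ℂ) * q ^ m)) := fun m =>
    tendsto_nhds_of_eventually_eq ((coeff_partialEta_eventually m).mono fun M h => by rw [h])
  have hT := tendsto_tsum_of_dominated_convergence hsb hlim (Filter.Eventually.of_forall hbound)
  have hP : Filter.Tendsto (fun M => ∏ i ∈ Finset.range M, (1 - q ^ (i + 1))) Filter.atTop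
      (nhds (∏' i : ℕ, (1 - q ^ (i + 1)))) :=
    (ModularForm.multipliable_one_sub_pow hq).hasProd.tendsto_prod_nat
  have heq : ∀ M : ℕ, ∑' m : ℕ, coeff m (partialEta M) * q ^ m
      = ∏ i ∈ Finset.range M, (1 - q ^ (i + 1)) := fun M =>
    (evalsTo_partialEta M q).hasSum.tsum_eq
  have hval : ∑' m : ℕ, coeff m (pentagonalSeries ℂ) * q ^ m = ∏' i : ℕ, (1 - q ^ (i + 1)) :=
    tendsto_nhds_unique (hT.congr heq) hP
  have hg : ∀ m : ℕ, ‖coeff m (pentagonalSeries ℂ) * q ^ m‖ ≤ C * ρ ^ m := fun m =>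
    le_of_tendsto (hlim m).norm (Filter.Eventually.of_forall fun M => hbound M m)
  have hsn : Summable fun m : ℕ => ‖coeff m (pentagonalSeries ℂ) * q ^ m‖ :=
    Summable.of_nonneg_of_le (fun _ => norm_nonneg _) hg hsb
  refine ⟨hsn, ?_⟩
  rw [← hval]
  exact hsn.of_norm.hasSum

/-! ### The Prelude's formal series -/

open ModularCurve

theorem etaProd_eq_pentagonalSeries : etaProd = pentagonalSeries ℤ :=
  PowerSeries.WithPiTopology.tprod_one_sub_X_pow ℤ

theorem map_pentagonalSeries :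
    (pentagonalSeries ℤ).map (Int.castRingHom ℂ) = pentagonalSeries ℂ := by
  ext n
  rw [coeff_map]
  by_cases h : n ∈ Set.range pentagonal
  · obtain ⟨k, rfl⟩ := h
    rw [coeff_pentagonalSeries_pentagonal, coeff_pentagonalSeries_pentagonal]
    simp
  · rw [coeff_pentagonalSeries_eq_zero ℤ h, coeff_pentagonalSeries_eq_zero ℂ h, map_zero]

/-- The Prelude's `etaProd`, with complex coefficients, evaluates to the Euler product. -/
theorem evalsTo_etaProd {q : ℂ} (hq : ‖q‖ < 1) :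
    EvalsTo (etaProd.map (Int.castRingHom ℂ)) q (∏' i : ℕ, (1 - q ^ (i + 1))) := by
  rw [etaProd_eq_pentagonalSeries, map_pentagonalSeries]
  exact evalsTo_pentagonalSeries hq

theorem evalsTo_X_mul_dedekindEtaUnit {q : ℂ} (hq : ‖q‖ < 1) :
    EvalsTo (PowerSeries.X * dedekindEtaUnit.map (Int.castRingHom ℂ)) q
      (q * (∏' i : ℕ, (1 - q ^ (i + 1))) ^ 24) := by
  rw [dedekindEtaUnit, map_pow]
  exact (EvalsTo.X q).mul ((evalsTo_etaProd hq).pow 24)

end

/-! ### `q`-expansions of `E₄` and `Δ` -/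

open UpperHalfPlane ModularForm EisensteinSeries ModularCurve Matrix MatrixGroups CongruenceSubgroup
open scoped Real ModularForm

local notation "𝕢" => Function.Periodic.qParam

theorem qExpansion_E4_eq :
    qExpansion 1 E₄ = eisenstein4.map (Int.castRingHom ℂ) := by
  ext m
  rw [E_qExpansion_coeff _ ⟨2, rfl⟩ m, show bernoulli 4 = -1 / 30 by decide +kernel]
  simp only [coeff_map, eisenstein4, coeff_mk]
  split_ifs with h
  · simp
  · simp [ArithmeticFunction.sigma_apply]
    norm_num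

theorem qExpansion_discriminant_eq :
    qExpansion 1 ModularForm.discriminant
      = PowerSeries.X * dedekindEtaUnit.map (Int.castRingHom ℂ) := by
  ext m
  symm
  rw [← CuspForm.coe_discriminant]
  refine ModularFormClass.qExpansion_coeff_unique (c := fun m =>
    coeff m (PowerSeries.X * dedekindEtaUnit.map (Int.castRingHom ℂ))) one_pos
    one_mem_strictPeriods_SL (fun τ => ?_) m
  have hq : ‖𝕢 1 (τ : ℂ)‖ < 1 := Function.Periodic.norm_qParam_lt_one one_pos τ.im_pos
  have h := (evalsTo_X_mul_dedekindEtaUnit hq).hasSum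
  rw [CuspForm.coe_discriminant, discriminant_eq_q_prod,
    ← (ModularForm.multipliable_one_sub_pow hq).tprod_pow 24] at *
  simpa [smul_eq_mul] using h

/-! ### The `j`-function as a Laurent series -/

theorem jNum_mul_dedekindEtaUnit : jNum * dedekindEtaUnit = eisenstein4 ^ 3 := by
  rw [jNum, mul_assoc, mul_comm dedekindEtaUnitInv, dedekindEtaUnit_mul_inv, mul_one]

/-- In `ℂ((q))`: `j · Δ = E₄³`, where `j` is the Prelude's formal `jqModC ℂ` and `Δ`, `E₄` are
the `q`-expansions of Mathlib's analytic modular forms. -/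
theorem jqModC_mul_qExpansion_discriminant :
    jqModC ℂ * HahnSeries.ofPowerSeries ℤ ℂ (qExpansion 1 ModularForm.discriminant)
      = HahnSeries.ofPowerSeries ℤ ℂ (qExpansion 1 E₄) ^ 3 := by
  rw [qExpansion_discriminant_eq, qExpansion_E4_eq, jqModC, map_mul, HahnSeries.ofPowerSeries_X,
    ← map_pow, ← map_pow, ← jNum_mul_dedekindEtaUnit, map_mul, map_mul]
  have h1 : (HahnSeries.single (-1 : ℤ) (1 : ℂ)) * HahnSeries.single (1 : ℤ) (1 : ℂ) = 1 := by
    rw [HahnSeries.single_mul_single]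
    simp
  calc HahnSeries.single (-1 : ℤ) (1 : ℂ)
          * HahnSeries.ofPowerSeries ℤ ℂ (jNum.map (Int.castRingHom ℂ))
          * (HahnSeries.single (1 : ℤ) (1 : ℂ)
          * HahnSeries.ofPowerSeries ℤ ℂ (dedekindEtaUnit.map (Int.castRingHom ℂ)))
      = (HahnSeries.single (-1 : ℤ) (1 : ℂ) * HahnSeries.single (1 : ℤ) (1 : ℂ))
          * (HahnSeries.ofPowerSeries ℤ ℂ (jNum.map (Int.castRingHom ℂ))
          * HahnSeries.ofPowerSeries ℤ ℂ (dedekindEtaUnit.map (Int.castRingHom ℂ))) := by ring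
    _ = _ := by rw [h1, one_mul]

theorem ofPowerSeries_qExpansion_discriminant_ne_zero :
    HahnSeries.ofPowerSeries ℤ ℂ (qExpansion 1 ModularForm.discriminant) ≠ 0 := by
  intro h
  have h0 : qExpansion 1 ModularForm.discriminant = 0 :=
    HahnSeries.ofPowerSeries_injective (by rw [h, map_zero])
  have := discriminant_qExpansion_coeff_one
  rw [h0] at this
  simp at this

/-- `jqModC ℂ = E₄³ / Δ` in the field `ℂ((q))`. -/
theorem jqModC_eq_div :
    jqModC ℂ = HahnSeries.ofPowerSeries ℤ ℂ (qExpansion 1 E₄) ^ 3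
      / HahnSeries.ofPowerSeries ℤ ℂ (qExpansion 1 ModularForm.discriminant) := by
  rw [eq_div_iff ofPowerSeries_qExpansion_discriminant_ne_zero]
  exact jqModC_mul_qExpansion_discriminant

/-! ### Pointwise convergence of the formal `j`-series -/

/-- `HasSum` on the whole ball gives `EvalsTo`. -/
theorem evalsTo_of_hasSum_ball {p : PowerSeries ℂ} {F : ℂ → ℂ}
    (h : ∀ q : ℂ, ‖q‖ < 1 → HasSum (fun m : ℕ => coeff m p * q ^ m) (F q)) {q : ℂ}
    (hq : ‖q‖ < 1) : EvalsTo p q (F q) :=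
  ⟨summable_norm_of_hasSum_ball h hq, h q hq⟩

/-- Two power series evaluating to the same function on the unit ball are equal. -/
theorem eq_of_evalsTo_ball {p p' : PowerSeries ℂ} {F : ℂ → ℂ}
    (h : ∀ q : ℂ, ‖q‖ < 1 → EvalsTo p q (F q)) (h' : ∀ q : ℂ, ‖q‖ < 1 → EvalsTo p' q (F q)) :
    p = p' := by
  ext m
  exact congrFun (coeff_eq_of_hasSum_ball (fun q hq => (h q hq).hasSum)
    (fun q hq => (h' q hq).hasSum)) m

/-- The analytic function `(∏ (1 - q^(n+1)))^24`. -/
noncomputable def etaU (q : ℂ) : ℂ := (∏' i : ℕ, (1 - q ^ (i + 1))) ^ 24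

theorem etaU_ne_zero {q : ℂ} (hq : ‖q‖ < 1) : etaU q ≠ 0 := by
  refine pow_ne_zero _ ?_
  have hs : Summable fun n : ℕ => ‖-(q ^ (n + 1))‖ := by
    simpa using (summable_nat_add_iff 1).mpr (summable_geometric_of_lt_one (norm_nonneg q) hq)
  refine tprod_one_add_ne_zero_of_summable (f := fun n : ℕ => -(q ^ (n + 1))) (fun i => ?_) hs
  intro h0
  have h1 : q ^ (i + 1) = 1 := by linear_combination -h0
  have h2 : ‖q‖ ^ (i + 1) = 1 := by rw [← norm_pow, h1, norm_one]
  have h3 : ‖q‖ ^ (i + 1) < 1 := pow_lt_one₀ (norm_nonneg q) hq (Nat.succ_ne_zero i)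
  linarith

theorem differentiableOn_etaU_inv :
    DifferentiableOn ℂ (fun q => (etaU q)⁻¹) (Metric.ball (0 : ℂ) 1) := by
  refine DifferentiableOn.inv ?_ fun q hq => etaU_ne_zero (by simpa using hq)
  exact ModularForm.differentiableOn_tprod_one_sub_pow.pow 24

theorem evalsTo_dedekindEtaUnit {q : ℂ} (hq : ‖q‖ < 1) :
    EvalsTo (dedekindEtaUnit.map (Int.castRingHom ℂ)) q (etaU q) := by
  rw [dedekindEtaUnit, map_pow]
  exact (evalsTo_etaProd hq).pow 24

theorem evalsTo_dedekindEtaUnitInv {q : ℂ} (hq : ‖q‖ < 1) :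
    EvalsTo (dedekindEtaUnitInv.map (Int.castRingHom ℂ)) q (etaU q)⁻¹ := by
  obtain ⟨t, ht⟩ := exists_hasSum_of_differentiableOn differentiableOn_etaU_inv
  have hT : ∀ q : ℂ, ‖q‖ < 1 → EvalsTo (PowerSeries.mk t) q (etaU q)⁻¹ := fun q hq =>
    evalsTo_of_hasSum_ball (p := PowerSeries.mk t) (F := fun q => (etaU q)⁻¹)
      (fun q hq => by simpa [coeff_mk] using ht q hq) hq
  have h1 : PowerSeries.mk t * dedekindEtaUnit.map (Int.castRingHom ℂ) = 1 := by
    refine eq_of_evalsTo_ball (F := fun _ => 1) (fun q hq => ?_) (fun q _ => EvalsTo.one q)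
    have := (hT q hq).mul (evalsTo_dedekindEtaUnit hq)
    rwa [inv_mul_cancel₀ (etaU_ne_zero hq)] at this
  have h2 : dedekindEtaUnit.map (Int.castRingHom ℂ) * dedekindEtaUnitInv.map (Int.castRingHom ℂ)
      = 1 := by
    rw [← map_mul, dedekindEtaUnit_mul_inv, map_one]
  have h3 : PowerSeries.mk t = dedekindEtaUnitInv.map (Int.castRingHom ℂ) := by
    calc PowerSeries.mk t = PowerSeries.mk t * (dedekindEtaUnit.map (Int.castRingHom ℂ)
          * dedekindEtaUnitInv.map (Int.castRingHom ℂ)) := by rw [h2, mul_one]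
      _ = dedekindEtaUnitInv.map (Int.castRingHom ℂ) := by rw [← mul_assoc, h1, one_mul]
  rw [← h3]
  exact hT q hq

/-- The `q`-expansion of a level one modular form evaluates absolutely convergently. -/
theorem evalsTo_qExpansion_levelOne {k : ℤ} (f : ModularForm 𝒮ℒ k) (τ : ℍ) :
    EvalsTo (qExpansion 1 f) (𝕢 1 (τ : ℂ)) (f τ) := by
  have hper := SlashInvariantFormClass.periodic_comp_ofComplex f one_mem_strictPeriods_SL
  have hball : ∀ q : ℂ, ‖q‖ < 1 → HasSum (fun m : ℕ => coeff m (qExpansion 1 f) * q ^ m)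
      (cuspFunction 1 f q) := fun q hq => by
    simpa [smul_eq_mul] using UpperHalfPlane.hasSum_qExpansion_of_norm_lt one_pos hper
      (ModularFormClass.holo f) (ModularFormClass.bdd_at_infty f) hq
  have hq : ‖𝕢 1 (τ : ℂ)‖ < 1 := Function.Periodic.norm_qParam_lt_one one_pos τ.im_pos
  have := evalsTo_of_hasSum_ball (F := cuspFunction 1 f) hball hq
  rwa [UpperHalfPlane.eq_cuspFunction τ one_ne_zero hper] at this

/-- The Prelude's `jNum` (complex coefficients) converges at `q = exp(2πiτ)` to `q · j(τ)`. -/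
theorem evalsTo_jNum (τ : ℍ) :
    EvalsTo (jNum.map (Int.castRingHom ℂ)) (𝕢 1 (τ : ℂ))
      (𝕢 1 (τ : ℂ) * (E₄ τ ^ 3 / ModularForm.discriminant τ)) := by
  have hq : ‖𝕢 1 (τ : ℂ)‖ < 1 := Function.Periodic.norm_qParam_lt_one one_pos τ.im_pos
  have hq0 : 𝕢 1 (τ : ℂ) ≠ 0 := Function.Periodic.qParam_ne_zero _
  have h4 := (evalsTo_qExpansion_levelOne E₄ τ).pow 3
  rw [qExpansion_E4_eq] at h4
  have h := h4.mul (evalsTo_dedekindEtaUnitInv hq)
  rw [← map_pow, ← map_mul, ← jNum] at h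
  have hΔ : ModularForm.discriminant τ = 𝕢 1 (τ : ℂ) * etaU (𝕢 1 (τ : ℂ)) := by
    rw [discriminant_eq_q_prod, etaU, ← (ModularForm.multipliable_one_sub_pow hq).tprod_pow 24]
  have hval : E₄ τ ^ 3 * (etaU (𝕢 1 (τ : ℂ)))⁻¹
      = 𝕢 1 (τ : ℂ) * (E₄ τ ^ 3 / ModularForm.discriminant τ) := by
    rw [hΔ]
    field_simp [etaU_ne_zero hq]
  rwa [hval] at h

theorem coeff_jqModC_sub_one (n : ℕ) :
    (jqModC ℂ).coeff ((n : ℤ) - 1) = coeff n (jNum.map (Int.castRingHom ℂ)) := by
  rw [jqModC, HahnSeries.coeff_single_mul, one_mul, sub_neg_eq_add, sub_add_cancel,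
    HahnSeries.ofPowerSeries_apply_coeff]

theorem coeff_jqModC_of_lt {m : ℤ} (hm : m < -1) : (jqModC ℂ).coeff m = 0 := by
  rw [jqModC, HahnSeries.coeff_single_mul, one_mul]
  exact ofPowerSeries_coeff_of_neg _ (by omega)

/-- **Bridge, level one**: the Prelude's formal `j`-series (complex coefficients) converges on
all of `ℍ` to the analytic `j = E₄³/Δ`, as a `ℤ`-indexed sum in `q = exp(2πiτ)`. -/
theorem hasSum_jqModC (τ : ℍ) :
    HasSum (fun m : ℤ => (jqModC ℂ).coeff m * 𝕢 1 (τ : ℂ) ^ m)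
      (E₄ τ ^ 3 / ModularForm.discriminant τ) := by
  have hq0 : 𝕢 1 (τ : ℂ) ≠ 0 := Function.Periodic.qParam_ne_zero _
  have hι : Function.Injective fun n : ℕ => (n : ℤ) - 1 := fun a b h => by
    have : (a : ℤ) = b := by linarith
    exact_mod_cast this
  rw [← hι.hasSum_iff]
  · have h := (evalsTo_jNum τ).hasSum.mul_left (𝕢 1 (τ : ℂ))⁻¹
    rw [← mul_assoc, inv_mul_cancel₀ hq0, one_mul] at h
    refine h.congr_fun fun n => ?_
    simp only [Function.comp_apply]
    rw [coeff_jqModC_sub_one, zpow_sub₀ hq0, zpow_natCast, zpow_one]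
    field_simp
  · intro m hm
    have hm' : m < -1 := by
      by_contra hcon
      rw [not_lt] at hcon
      exact hm ⟨(m + 1).toNat, by simp only; omega⟩
    rw [coeff_jqModC_of_lt hm', zero_mul]

/-! ### `HasQExp`-shaped statements (unfolded; `qN N τ = exp (2πiτ/N)`) -/

theorem coeffMap_jq : coeffMap (algebraMap ℚ ℂ) jq = jqModC ℂ := by
  rw [← jqModC_rat]
  exact map_jqModC (algebraMap ℚ ℂ)

theorem qParam_one_eq (τ : ℍ) :
    𝕢 1 (τ : ℂ) = Complex.exp (2 * π * Complex.I * τ / ((1 : ℕ) : ℂ)) := by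
  simp [Function.Periodic.qParam]

/-- **MOD-JQ, final form**: `HasQExp 1 jFun (coeffMap (algebraMap ℚ ℂ) jq)` unfolded. -/
theorem hasSum_jq (τ : ℍ) :
    HasSum (fun m : ℤ => (coeffMap (algebraMap ℚ ℂ) jq).coeff m
        * Complex.exp (2 * π * Complex.I * τ / ((1 : ℕ) : ℂ)) ^ m)
      (E₄ τ ^ 3 / ModularForm.discriminant τ) := by
  rw [coeffMap_jq, ← qParam_one_eq]
  exact hasSum_jqModC τ

/-- **Level change**: a `q_N`-expansion `E` of `f` is a `q_{Nk}`-expansion `qExpand k E`. -/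
theorem hasSum_levelChange {N k : ℕ} [NeZero k] {f : ℍ → ℂ} {E : LaurentSeries ℂ}
    (h : ∀ τ : ℍ, HasSum (fun m : ℤ => E.coeff m
      * Complex.exp (2 * π * Complex.I * τ / (N : ℂ)) ^ m) (f τ)) (τ : ℍ) :
    HasSum (fun m : ℤ => (qExpand ℂ k E).coeff m
      * Complex.exp (2 * π * Complex.I * τ / ((N * k : ℕ) : ℂ)) ^ m) (f τ) := by
  have hk : (k : ℤ) ≠ 0 := by exact_mod_cast NeZero.ne k
  have hkc : (k : ℂ) ≠ 0 := by exact_mod_cast NeZero.ne k
  have hι : Function.Injective fun m : ℤ => (k : ℤ) * m := mul_right_injective₀ hk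
  rw [← hι.hasSum_iff]
  · refine (h τ).congr_fun fun m => ?_
    simp only [Function.comp_apply]
    rw [qExpand_coeff_mul, _root_.zpow_mul, ← Complex.exp_int_mul, ← Complex.exp_int_mul,
      ← Complex.exp_int_mul]
    congr 2
    push_cast
    by_cases hN : (N : ℂ) = 0
    · simp [hN]
    · field_simp
  · intro m hm
    rw [qExpand_coeff_of_not_dvd k E (fun ⟨c, hc⟩ => hm ⟨c, hc.symm⟩), zero_mul]

/-- **Substitution `τ ↦ dτ`**: a `q`-expansion `E` of `f` gives the `q`-expansion `qExpand d E`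
of `τ ↦ f (dτ)`. -/
theorem hasSum_scale {d : ℕ} [NeZero d] {f : ℍ → ℂ} {E : LaurentSeries ℂ}
    (h : ∀ τ : ℍ, HasSum (fun m : ℤ => E.coeff m
      * Complex.exp (2 * π * Complex.I * τ / ((1 : ℕ) : ℂ)) ^ m) (f τ))
    (τ τ' : ℍ) (hτ : (τ' : ℂ) = (d : ℂ) * τ) :
    HasSum (fun m : ℤ => (qExpand ℂ d E).coeff m
      * Complex.exp (2 * π * Complex.I * τ / ((1 : ℕ) : ℂ)) ^ m) (f τ') := by
  have hd : (d : ℤ) ≠ 0 := by exact_mod_cast NeZero.ne d
  have hι : Function.Injective fun m : ℤ => (d : ℤ) * m := mul_right_injective₀ hd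
  rw [← hι.hasSum_iff]
  · refine (h τ').congr_fun fun m => ?_
    simp only [Function.comp_apply]
    rw [qExpand_coeff_mul, _root_.zpow_mul, ← Complex.exp_int_mul, ← Complex.exp_int_mul,
      ← Complex.exp_int_mul, hτ]
    congr 2
    push_cast
    ring
  · intro m hm
    rw [qExpand_coeff_of_not_dvd d E (fun ⟨c, hc⟩ => hm ⟨c, hc.symm⟩), zero_mul]

/-- **Bridge, level `d`**: `τ ↦ j(dτ)` has `q`-expansion `jqNModC ℂ d = qExpand d jq`. -/
theorem hasSum_jqN (d : ℕ) [NeZero d] (τ τ' : ℍ) (hτ : (τ' : ℂ) = (d : ℂ) * τ) :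
    HasSum (fun m : ℤ => (jqNModC ℂ d).coeff m
        * Complex.exp (2 * π * Complex.I * τ / ((1 : ℕ) : ℂ)) ^ m)
      (E₄ τ' ^ 3 / ModularForm.discriminant τ') := by
  have := hasSum_scale (d := d) (f := fun τ => E₄ τ ^ 3 / ModularForm.discriminant τ)
    (E := coeffMap (algebraMap ℚ ℂ) jq) hasSum_jq τ τ' hτ
  rwa [coeffMap_jq] at this

end Fermat.Agent.S24.JBridge80
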