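import Mathlib
import Fermat.Prelude.Def_AlgebraicCurve_CanonicalDivisor

/-!
# S24, layer (A), local part: orders of differentials at a place

Everything is stated with the Prelude's own `AlgebraicCurve.Place`, `Place.ord`, `Place.dCoord`,
`Place.ordDifferential`.  Main results:

* `exists_dCoord_eq` : `v.dCoord = d π` for a uniformizer `π`;
* `mem_iff_ord_nonneg`, `ord_pos_iff_mem_maximalIdeal`, `ord_algebraMap`, `le_ord_add` : `ord` toolkit;
* `span_D_irreducible_eq_top`, `exists_D_eq_smul` : Nakayama, `d (O_v) ⊆ O_v d π`;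
* `ordDifferential_D_of_ord_ne_zero` : `ord_v (d y) = ord_v y - 1` when `ord_v y ≠ 0` (char 0);
* `ordDifferential_D_of_ord_sub_const`, `ordDifferential_D_of_ord_neg` : the two cases used in
  Riemann-Hurwitz.
-/

set_option autoImplicit false

open KaehlerDifferential AlgebraicCurve

namespace Fermat.Agent.S24.PlaceLocal

variable {K F : Type*} [Field K] [Field F] [Algebra K F]

theorem exists_dCoord_eq (v : Place K F) :
    ∃ π : v.toValuationSubring, Irreducible π ∧ v.ord (π : F) = 1 ∧
      v.dCoord = KaehlerDifferential.D K F (π : F) :=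
  ⟨(IsDiscreteValuationRing.exists_irreducible v.toValuationSubring).choose,
    (IsDiscreteValuationRing.exists_irreducible v.toValuationSubring).choose_spec,
    v.ord_coe_irreducible (IsDiscreteValuationRing.exists_irreducible v.toValuationSubring).choose_spec,
    rfl⟩

/-- (PL3a) Nakayama: the differentials of the local ring of a place with residue field `K`
are generated by `d π`. -/
theorem span_D_irreducible_eq_top (v : Place K F)
    (hres : Function.Surjective (algebraMap K v.ResidueField))
    [Module.Finite v.toValuationSubring Ω[v.toValuationSubring⁄K]]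
    {π : v.toValuationSubring} (hπ : Irreducible π) :
    Submodule.span v.toValuationSubring {KaehlerDifferential.D K v.toValuationSubring π} = ⊤ := by
  have hfg : (⊤ : Submodule v.toValuationSubring Ω[v.toValuationSubring⁄K]).FG :=
    Module.finite_def.mp inferInstance
  have key : (⊤ : Submodule v.toValuationSubring Ω[v.toValuationSubring⁄K]) ≤
      Submodule.span v.toValuationSubring {KaehlerDifferential.D K v.toValuationSubring π} ⊔
        IsLocalRing.maximalIdeal v.toValuationSubring • ⊤ := by
    conv_lhs => rw [← KaehlerDifferential.span_range_derivation K v.toValuationSubring]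
    rw [Submodule.span_le]
    rintro _ ⟨u, rfl⟩
    obtain ⟨a, ha⟩ := hres (IsLocalRing.residue v.toValuationSubring u)
    have hmem : u - algebraMap K v.toValuationSubring a ∈
        IsLocalRing.maximalIdeal v.toValuationSubring := by
      rw [← IsLocalRing.residue_eq_zero_iff, map_sub, ← ha]
      exact sub_self _
    rw [hπ.maximalIdeal_eq, Ideal.mem_span_singleton'] at hmem
    obtain ⟨u1, hu1⟩ := hmem
    have hu : u = algebraMap K v.toValuationSubring a + u1 * π := by rw [hu1]; ring
    have hD : KaehlerDifferential.D K v.toValuationSubring u =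
        u1 • KaehlerDifferential.D K v.toValuationSubring π +
          π • KaehlerDifferential.D K v.toValuationSubring u1 := by
      conv_lhs => rw [hu]
      rw [map_add, Derivation.map_algebraMap, zero_add, Derivation.leibniz]
    rw [SetLike.mem_coe, hD]
    refine Submodule.add_mem_sup (Submodule.smul_mem _ _ (Submodule.subset_span rfl)) ?_
    refine Submodule.smul_mem_smul ?_ Submodule.mem_top
    rw [hπ.maximalIdeal_eq]
    exact Ideal.mem_span_singleton_self π
  exact top_le_iff.mp (Submodule.le_of_le_smul_of_le_jacobson_bot hfg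
    (IsLocalRing.maximalIdeal_le_jacobson ⊥) key)

/-- (PL3b) For `u ∈ O_v`, `d u ∈ O_v · d π` inside `Ω[F⁄K]`. -/
theorem exists_D_eq_smul (v : Place K F)
    (hres : Function.Surjective (algebraMap K v.ResidueField))
    [Module.Finite v.toValuationSubring Ω[v.toValuationSubring⁄K]]
    {π : v.toValuationSubring} (hπ : Irreducible π) (u : v.toValuationSubring) :
    ∃ u' : v.toValuationSubring,
      KaehlerDifferential.D K F (u : F) = (u' : F) • KaehlerDifferential.D K F (π : F) := by
  have hmem : KaehlerDifferential.D K v.toValuationSubring u ∈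
      Submodule.span v.toValuationSubring {KaehlerDifferential.D K v.toValuationSubring π} := by
    rw [span_D_irreducible_eq_top v hres hπ]; exact Submodule.mem_top
  obtain ⟨u', hu'⟩ := Submodule.mem_span_singleton.mp hmem
  refine ⟨u', ?_⟩
  have h := congrArg (KaehlerDifferential.map K K v.toValuationSubring F) hu'
  rw [map_smul, KaehlerDifferential.map_D, KaehlerDifferential.map_D] at h
  exact h.symm


theorem ord_nonneg_of_mem (v : Place K F) {f : F} (hf : f ∈ v.toValuationSubring) :
    0 ≤ v.ord f := by
  rcases eq_or_ne f 0 with rfl | hf0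
  · simp
  obtain ⟨π, hπ⟩ := IsDiscreteValuationRing.exists_irreducible v.toValuationSubring
  have hx0 : (⟨f, hf⟩ : v.toValuationSubring) ≠ 0 := by
    intro h; exact hf0 (congrArg Subtype.val h)
  obtain ⟨n, u, hu⟩ := IsDiscreteValuationRing.eq_unit_mul_pow_irreducible hx0 hπ
  have hfe : f = ((u : v.toValuationSubring) : F) * ((π : F) ^ (n : ℤ)) := by
    have := congrArg Subtype.val hu
    simpa using this
  rw [hfe, v.ord_unit_smul_zpow u hπ]
  exact Int.natCast_nonneg n

theorem mem_of_ord_nonneg (v : Place K F) {f : F} (hf : 0 ≤ v.ord f) :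
    f ∈ v.toValuationSubring := by
  rcases eq_or_ne f 0 with rfl | hf0
  · exact v.toValuationSubring.zero_mem
  obtain ⟨π, hπ⟩ := IsDiscreteValuationRing.exists_irreducible v.toValuationSubring
  obtain ⟨u, hu⟩ := v.exists_unit_mul_zpow hf0 hπ
  rw [hu]
  obtain ⟨n, hn⟩ := Int.eq_ofNat_of_zero_le hf
  rw [hn, zpow_natCast]
  exact mul_mem (u : v.toValuationSubring).2 (pow_mem π.2 n)

theorem mem_iff_ord_nonneg (v : Place K F) {f : F} :
    f ∈ v.toValuationSubring ↔ 0 ≤ v.ord f :=
  ⟨fun h => ord_nonneg_of_mem v h, fun h => mem_of_ord_nonneg v h⟩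




/-- `ord` of a nonzero element of the local ring is positive iff it lies in the maximal ideal. -/
theorem ord_pos_iff_mem_maximalIdeal (v : Place K F) {u : v.toValuationSubring} (hu : u ≠ 0) :
    0 < v.ord (u : F) ↔ u ∈ IsLocalRing.maximalIdeal v.toValuationSubring := by
  obtain ⟨π, hπ⟩ := IsDiscreteValuationRing.exists_irreducible v.toValuationSubring
  obtain ⟨n, w, hw⟩ := IsDiscreteValuationRing.eq_unit_mul_pow_irreducible hu hπ
  have hfe : (u : F) = ((w : v.toValuationSubring) : F) * ((π : F) ^ (n : ℤ)) := by
    have := congrArg Subtype.val hw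
    simpa using this
  rw [hfe, v.ord_unit_smul_zpow w hπ, hw]
  constructor
  · intro hn
    have hn' : n ≠ 0 := by rintro rfl; simp at hn
    obtain ⟨m, rfl⟩ := Nat.exists_eq_succ_of_ne_zero hn'
    rw [pow_succ, ← mul_assoc]
    exact Ideal.mul_mem_left _ _ (by rw [hπ.maximalIdeal_eq]; exact Ideal.mem_span_singleton_self π)
  · intro hmem
    rcases Nat.eq_zero_or_pos n with rfl | hn
    · exfalso
      rw [pow_zero, mul_one] at hmem
      exact (IsLocalRing.notMem_maximalIdeal.mpr w.isUnit) hmem
    · exact_mod_cast hn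

theorem ord_algebraMap (v : Place K F) (a : K) : v.ord (algebraMap K F a) = 0 := by
  rcases eq_or_ne a 0 with rfl | ha
  · simp
  have hunit : IsUnit (algebraMap K v.toValuationSubring a) := (IsUnit.mk0 a ha).map _
  have := v.ord_coe_unit hunit.unit
  rwa [IsUnit.unit_spec, v.coe_algebraMap] at this

/-- ultrametric inequality for `ord` -/
theorem le_ord_add (v : Place K F) {f g : F} (hfg : f + g ≠ 0) {n : ℤ}
    (hf : f = 0 ∨ n ≤ v.ord f) (hg : g = 0 ∨ n ≤ v.ord g) : n ≤ v.ord (f + g) := by
  obtain ⟨π, hπ⟩ := IsDiscreteValuationRing.exists_irreducible v.toValuationSubring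
  have hπ0 : (π : F) ≠ 0 := fun h => hπ.ne_zero (Subtype.ext h)
  have key : ∀ h : F, (h = 0 ∨ n ≤ v.ord h) → h * (π : F) ^ (-n) ∈ v.toValuationSubring := by
    intro h hh
    rcases eq_or_ne h 0 with rfl | h0
    · simp
    · apply mem_of_ord_nonneg
      rw [v.ord_mul h0 (zpow_ne_zero _ hπ0), v.ord_zpow, v.ord_coe_irreducible hπ]
      have := hh.resolve_left h0
      omega
  have hsum : (f + g) * (π : F) ^ (-n) ∈ v.toValuationSubring := by
    rw [add_mul]; exact add_mem (key f hf) (key g hg)
  have := ord_nonneg_of_mem v hsum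
  rw [v.ord_mul hfg (zpow_ne_zero _ hπ0), v.ord_zpow, v.ord_coe_irreducible hπ] at this
  omega

/-- if the residue field is `K`, every element of the local ring is congruent to a constant -/
theorem exists_sub_algebraMap_mem_maximalIdeal (v : Place K F)
    (hres : Function.Surjective (algebraMap K v.ResidueField)) (u : v.toValuationSubring) :
    ∃ c : K, u - algebraMap K v.toValuationSubring c ∈
      IsLocalRing.maximalIdeal v.toValuationSubring := by
  obtain ⟨a, ha⟩ := hres (IsLocalRing.residue v.toValuationSubring u)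
  refine ⟨a, ?_⟩
  rw [← IsLocalRing.residue_eq_zero_iff, map_sub, ← ha]
  exact sub_self _




/-- (PL4) In characteristic zero, if `ord_v y = k ≠ 0` then `ord_v (d y) = k - 1`. -/
theorem ordDifferential_D_of_ord_ne_zero (v : Place K F) [v.DCoordGenerates] [Nontrivial Ω[F⁄K]]
    [CharZero K]
    (hres : Function.Surjective (algebraMap K v.ResidueField))
    [Module.Finite v.toValuationSubring Ω[v.toValuationSubring⁄K]]
    {y : F} (hy : v.ord y ≠ 0) :
    v.ordDifferential (KaehlerDifferential.D K F y) = v.ord y - 1 := by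
  obtain ⟨π, hπ, -, hdc⟩ := exists_dCoord_eq v
  have hy0 : y ≠ 0 := by rintro rfl; exact hy v.ord_zero
  obtain ⟨u, hu⟩ := v.exists_unit_mul_zpow hy0 hπ
  obtain ⟨u', hu'⟩ := exists_D_eq_smul v hres hπ (u : v.toValuationSubring)
  have hπ0 : (π : F) ≠ 0 := by
    intro h
    exact hπ.ne_zero (Subtype.ext h)
  -- the unit `w = k u + π u'`
  have hkK : ((v.ord y : ℤ) : K) ≠ 0 := by exact_mod_cast hy
  have hkunit : IsUnit (algebraMap K v.toValuationSubring ((v.ord y : ℤ) : K)) :=
    (IsUnit.mk0 _ hkK).map _
  have hwunit : IsUnit (algebraMap K v.toValuationSubring ((v.ord y : ℤ) : K) *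
      (u : v.toValuationSubring) + π * u') := by
    rw [← IsLocalRing.notMem_maximalIdeal]
    intro hmem
    have h1 : π * u' ∈ IsLocalRing.maximalIdeal v.toValuationSubring :=
      Ideal.mul_mem_right _ _ (by rw [hπ.maximalIdeal_eq]; exact Ideal.mem_span_singleton_self π)
    have h2 := (Ideal.add_mem_iff_left _ h1).mp hmem
    exact (IsLocalRing.notMem_maximalIdeal.mpr (hkunit.mul u.isUnit)) h2
  have hcoe : ((algebraMap K v.toValuationSubring ((v.ord y : ℤ) : K) *
      (u : v.toValuationSubring) + π * u' : v.toValuationSubring) : F) =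
      ((v.ord y : ℤ) : F) * ((u : v.toValuationSubring) : F) + (π : F) * (u' : F) := by
    push_cast
    rw [v.coe_algebraMap, map_intCast]
  have hDy : KaehlerDifferential.D K F y =
      (((hwunit.unit : v.toValuationSubring) : F) * (π : F) ^ (v.ord y - 1)) •
        KaehlerDifferential.D K F (π : F) := by
    conv_lhs => rw [hu]
    rw [Derivation.leibniz, Derivation.leibniz_zpow, hu', IsUnit.unit_spec, hcoe,
      ← Int.cast_smul_eq_zsmul F]
    simp only [smul_smul, ← add_smul]
    congr 1
    have : (π : F) ^ (v.ord y) = (π : F) ^ (v.ord y - 1) * (π : F) := by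
      rw [← zpow_add_one₀ hπ0, sub_add_cancel]
    rw [this]
    ring
  rw [Place.ordDifferential, v.differentialCoeff_unique (hdc ▸ hDy),
    v.ord_unit_smul_zpow hwunit.unit hπ]


/-- finite place: if `ord_v (x - c) = e ≠ 0` then `ord_v (d x) = e - 1`. -/
theorem ordDifferential_D_of_ord_sub_const (v : Place K F) [v.DCoordGenerates]
    [Nontrivial Ω[F⁄K]] [CharZero K]
    (hres : Function.Surjective (algebraMap K v.ResidueField))
    [Module.Finite v.toValuationSubring Ω[v.toValuationSubring⁄K]]
    {x : F} {c : K} (hx : v.ord (x - algebraMap K F c) ≠ 0) :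
    v.ordDifferential (KaehlerDifferential.D K F x) = v.ord (x - algebraMap K F c) - 1 := by
  have h := ordDifferential_D_of_ord_ne_zero v hres hx
  rwa [map_sub, Derivation.map_algebraMap, sub_zero] at h

/-- pole: if `ord_v x = -e` with `e ≠ 0` then `ord_v (d x) = -e - 1`. -/
theorem ordDifferential_D_of_ord_neg (v : Place K F) [v.DCoordGenerates]
    [Nontrivial Ω[F⁄K]] [CharZero K]
    (hres : Function.Surjective (algebraMap K v.ResidueField))
    [Module.Finite v.toValuationSubring Ω[v.toValuationSubring⁄K]]
    {x : F} {e : ℤ} (he : e ≠ 0) (hx : v.ord x = -e) :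
    v.ordDifferential (KaehlerDifferential.D K F x) = -e - 1 := by
  have h := ordDifferential_D_of_ord_ne_zero v hres (y := x) (by rw [hx]; simpa using he)
  rwa [hx] at h

end Fermat.Agent.S24.PlaceLocal
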