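/-
S24 team blueprint: shared definitions (NO sorry in this file).
Everything lives in namespace `Fermat.Agent.S24`.
-/
import Mathlib
import Fermat.Prelude.Def_AlgebraicCurve_CanonicalDivisor
import Fermat.Prelude.Def_ModularCurve_ArithmeticGalois
import Fermat.Prelude.Def_ModularCurve_GenusNumerics

set_option autoImplicit false

open AlgebraicCurve KaehlerDifferential IntermediateField

namespace Fermat.Agent.S24

section FunctionField

variable {K F : Type*} [Field K] [Field F] [Algebra K F]

/-- Places of `F/K` lying over the finite point `x = c` of the `x`-line. -/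
def placesOver (x : F) (c : K) : Set (Place K F) :=
  {v | 0 < v.ord (x - algebraMap K F c)}

/-- Places of `F/K` lying over the point `x = ∞` of the `x`-line. -/
def placesOverInfty (K : Type*) {F : Type*} [Field K] [Field F] [Algebra K F] (x : F) :
    Set (Place K F) :=
  {v | v.ord x < 0}

/-- `F` is a function field in one variable over `K` with separating variable `x`. -/
structure IsFunctionFieldOver (K : Type*) {F : Type*} [Field K] [Field F] [Algebra K F]
    (x : F) : Prop where
  transcendental : Transcendental K x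
  finite : FiniteDimensional (↥K⟮x⟯) F

/-- The degree `[F : K(x)]`. -/
noncomputable def degOver (K : Type*) {F : Type*} [Field K] [Field F] [Algebra K F] (x : F) : ℕ :=
  Module.finrank (↥K⟮x⟯) F

end FunctionField

end Fermat.Agent.S24

namespace Fermat.Agent.S24

section Galois

variable {K L : Type*} [Field K] [Field L] [Algebra K L]

/-- The subgroup of `G ≤ Aut_K(L)` fixing the image of `F` pointwise. -/
def fixingSub (F : Type*) [Field F] [Algebra F L] (G : Subgroup (L ≃ₐ[K] L)) : Subgroup G where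
  carrier := {g | ∀ f : F, (g : L ≃ₐ[K] L) (algebraMap F L f) = algebraMap F L f}
  one_mem' := fun f => rfl
  mul_mem' := by
    intro a b ha hb f
    show (a : L ≃ₐ[K] L) ((b : L ≃ₐ[K] L) (algebraMap F L f)) = algebraMap F L f
    rw [hb f, ha f]
  inv_mem' := by
    intro a ha f
    have h := ha f
    show (a : L ≃ₐ[K] L)⁻¹ (algebraMap F L f) = algebraMap F L f
    rw [AlgEquiv.aut_inv]
    exact (AlgEquiv.symm_apply_eq _).mpr h.symm

/-- The stabiliser in `G ≤ Aut_K(L)` of a place `w` of `L`. -/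
def stabSub (G : Subgroup (L ≃ₐ[K] L)) (w : AlgebraicCurve.Place K L) : Subgroup G where
  carrier := {g | (g : L ≃ₐ[K] L) • w = w}
  one_mem' := one_smul _ w
  mul_mem' := by
    intro a b ha hb
    show ((a : L ≃ₐ[K] L) * (b : L ≃ₐ[K] L)) • w = w
    rw [mul_smul, hb, ha]
  inv_mem' := by
    intro a ha
    show (a : L ≃ₐ[K] L)⁻¹ • w = w
    rw [inv_smul_eq_iff]
    exact ha.symm

end Galois

end Fermat.Agent.S24

namespace Fermat.Agent.S24

open scoped MatrixGroups
open ModularCurve

section Counting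

/-- Number of orbits of the cyclic group generated by `g` acting on `X`. -/
noncomputable def numOrbits {G : Type*} (X : Type*) [Group G] [MulAction G X] (g : G) : ℕ :=
  Nat.card (MulAction.orbitRel.Quotient (Subgroup.zpowers g) X)

/-- The coset space `SL(2,ℤ) / Γ₀(N)` with the left-multiplication action of `SL(2,ℤ)`. -/
abbrev X0Cosets (N : ℕ) : Type := SL(2, ℤ) ⧸ CongruenceSubgroup.Gamma0 N

end Counting

section Modular

/-- The constant field `ℚ̄`. -/
abbrev Kbar : Type := AlgebraicClosure ℚ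

/-- The function field of `X₀(N)` over `ℚ̄` (Prelude definition). -/
abbrev FN (N : ℕ) : Type := ↥(modularFunctionFieldBar N)

theorem coeffEmb_jq_mem (N : ℕ) [NeZero N] :
    coeffEmb Kbar jq ∈ modularFunctionFieldBar N := by
  refine coeffEmb_mem_laurentBaseChange Kbar ?_
  have h := jqd_mem_full N (one_dvd N)
  rwa [qExpand_one_apply] at h

/-- The `j`-function as an element of the function field of `X₀(N)`. -/
noncomputable def jF (N : ℕ) [NeZero N] : FN N := ⟨coeffEmb Kbar jq, coeffEmb_jq_mem N⟩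

/-- Bound for the vanishing order of `j - c` at a point of the upper half plane. -/
noncomputable def ellOrder (c : Kbar) : ℤ :=
  letI := Classical.propDecidable
  if c = 0 then 3 else if c = 1728 then 2 else 1

/-- Output of the modular packages: a finite Galois tower `ℚ̄(j) ⊆ F_N ⊆ L` with an action of
`SL(2,ℤ)` and enough valuations. -/
structure ModularTower (N : ℕ) [NeZero N] where
  L : Type
  [instField : Field L]
  [instAlgK : Algebra Kbar L]
  [instAlgF : Algebra (FN N) L]
  [instTower : IsScalarTower Kbar (FN N) L]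
  ρ : SL(2, ℤ) →* (L ≃ₐ[Kbar] L)
  finite_range : Finite ρ.range
  ρ_neg_one : ρ (-1) = 1
  fixes_j : ∀ g, ρ g (algebraMap (FN N) L (jF N)) = algebraMap (FN N) L (jF N)
  fixed : ∀ y : L, (∀ g, ρ g y = y) → y ∈ IntermediateField.adjoin Kbar {algebraMap (FN N) L (jF N)}
  fixes_F_iff : ∀ g, (∀ f : FN N, ρ g (algebraMap (FN N) L f) = algebraMap (FN N) L f) ↔
    g ∈ CongruenceSubgroup.Gamma0 N
  T_zpow : ∀ k : ℤ, ρ (ModularGroup.T ^ k) = 1 → (N : ℤ) ∣ k
  val_fin : ∀ c : Kbar, ∃ (V : ValuationSubring L) (ν : L → ℤ),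
    (∀ a : Kbar, algebraMap Kbar L a ∈ V) ∧
    (∀ y z : L, y ≠ 0 → z ≠ 0 → ν (y * z) = ν y + ν z) ∧
    (∀ y : L, y ≠ 0 → (y ∈ V ↔ 0 ≤ ν y)) ∧
    0 < ν (algebraMap (FN N) L (jF N) - algebraMap Kbar L c) ∧
    ν (algebraMap (FN N) L (jF N) - algebraMap Kbar L c) ≤ ellOrder c ∧
    (c = 1728 → ∀ y ∈ V, ρ ModularGroup.S y ∈ V) ∧
    (c = 0 → ∀ y ∈ V, ρ (ModularGroup.S * ModularGroup.T) y ∈ V)
  val_inf : ∃ (V : ValuationSubring L) (ν : L → ℤ),
    (∀ a : Kbar, algebraMap Kbar L a ∈ V) ∧
    (∀ y z : L, y ≠ 0 → z ≠ 0 → ν (y * z) = ν y + ν z) ∧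
    (∀ y : L, y ≠ 0 → (y ∈ V ↔ 0 ≤ ν y)) ∧
    ν (algebraMap (FN N) L (jF N)) < 0 ∧
    -(N : ℤ) ≤ ν (algebraMap (FN N) L (jF N)) ∧
    (∀ y ∈ V, ρ ModularGroup.T y ∈ V)

attribute [instance] ModularTower.instField ModularTower.instAlgK ModularTower.instAlgF
  ModularTower.instTower

end Modular

end Fermat.Agent.S24
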