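import Mathlib
import Fermat.Prelude.Def_AlgebraicCurve_DivisorClassGroup
import Fermat.Prelude.Def_AlgebraicCurve_IsCurveOver

/-!
# S24 project, layer (A1): places of a function field coming from a Dedekind domain

`R` a Dedekind domain, a `K`-algebra, with fraction field `F`.  We study the map
`AlgebraicCurve.Place.ofHeightOneSpectrum : HeightOneSpectrum R → Place K F` of the Prelude:

* `ord_ofHeightOneSpectrum` : the order function of the place is the `w`-adic order;
* `ofHeightOneSpectrum_injective`;
* `exists_ofHeightOneSpectrum_eq` : every place whose valuation ring contains `R` comes from a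
  (unique) height one prime of `R`;
* `residueEquiv` : the residue field of the place is `R ⧸ w`.
-/

set_option autoImplicit false

open IsDedekindDomain WithZero AlgebraicCurve

namespace Fermat.Agent.S24.PlaceDedekind

section general

variable {F : Type*} [Field F]

/-- In `ℤᵐ⁰`, an element `< 1` is `≤ exp (-1)`. -/
theorem le_exp_neg_one_of_lt_one {x : ℤᵐ⁰} (hx : x < 1) : x ≤ exp (-1 : ℤ) := by
  rcases eq_or_ne x 0 with rfl | h0
  · exact zero_le'
  · rw [← log_le_iff_le_exp h0]
    have : log x < 0 := by
      rw [log_lt_iff_lt_exp h0, exp_zero]; exact hx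
    omega

/-- For a valuation `val` on a field, elements of the valuation subring which are units have
valuation one. -/
theorem val_eq_one_of_isUnit {Γ : Type*} [LinearOrderedCommGroupWithZero Γ] (val : Valuation F Γ)
    {a : val.valuationSubring} (ha : IsUnit a) : val (a : F) = 1 := by
  by_contra hne
  have hlt : val (a : F) < 1 := lt_of_le_of_ne a.2 hne
  have : a ∈ IsLocalRing.maximalIdeal val.valuationSubring := (Valuation.mem_maximalIdeal_iff (v := val)).mpr hlt
  exact (IsLocalRing.mem_maximalIdeal _).mp this ha

theorem val_lt_one_of_not_isUnit {Γ : Type*} [LinearOrderedCommGroupWithZero Γ]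
    (val : Valuation F Γ) {a : val.valuationSubring} (ha : ¬ IsUnit a) : val (a : F) < 1 := by
  have : a ∈ IsLocalRing.maximalIdeal val.valuationSubring := (IsLocalRing.mem_maximalIdeal _).mpr ha
  exact (Valuation.mem_maximalIdeal_iff (v := val)).mp this

end general

variable {K F : Type*} [Field K] [Field F] [Algebra K F]
variable {R : Type*} [CommRing R] [IsDedekindDomain R] [Algebra R F] [IsFractionRing R F]
variable [Algebra K R] [IsScalarTower K R F]

theorem mem_ofHeightOneSpectrum_iff (w : HeightOneSpectrum R) (f : F) :
    f ∈ (Place.ofHeightOneSpectrum (K := K) w).toValuationSubring ↔ w.valuation F f ≤ 1 :=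
  Iff.rfl

/-- The valuation ring of a height one prime is a discrete valuation ring. -/
theorem isDiscreteValuationRing_valuationSubring (w : HeightOneSpectrum R) :
    IsDiscreteValuationRing (w.valuation F).valuationSubring := by
  have h1 : IsPrincipalIdealRing (w.valuation F).valuationSubring :=
    Place.isPrincipalIdealRing_valuationSubring w
  have hne : (w.valuation F).valuationSubring ≠ ⊤ := by
    simp only [ne_eq, Valuation.valuationSubring_eq_top_iff, not_not]
    infer_instance
  exact
    { not_a_field' := by
        rw [ne_eq, ← IsLocalRing.isField_iff_maximalIdeal_eq]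
        exact ValuationSubring.not_isField_of_ne_top F hne }

/-- An irreducible element of the valuation ring of `w` has valuation `exp (-1)`. -/
theorem valuation_irreducible (w : HeightOneSpectrum R)
    {π : (w.valuation F).valuationSubring} (hπ : Irreducible π) :
    w.valuation F (π : F) = exp (-1 : ℤ) := by
  have hlt : w.valuation F (π : F) < 1 := val_lt_one_of_not_isUnit _ hπ.not_isUnit
  refine le_antisymm (le_exp_neg_one_of_lt_one hlt) ?_
  -- a uniformizer of `w`
  obtain ⟨ϖ, hϖ⟩ := w.valuation_exists_uniformizer F
  have hϖmem : ϖ ∈ (w.valuation F).valuationSubring := by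
    rw [Valuation.mem_valuationSubring_iff, hϖ, ← exp_zero, exp_le_exp]; omega
  have hϖnu : ¬ IsUnit (⟨ϖ, hϖmem⟩ : (w.valuation F).valuationSubring) := by
    intro hu
    have := val_eq_one_of_isUnit _ hu
    rw [hϖ] at this
    simp at this
  -- `π ∣ ϖ`
  have hdvr : IsDiscreteValuationRing (w.valuation F).valuationSubring :=
    isDiscreteValuationRing_valuationSubring w
  have hmem : (⟨ϖ, hϖmem⟩ : (w.valuation F).valuationSubring) ∈
      IsLocalRing.maximalIdeal (w.valuation F).valuationSubring :=
    (IsLocalRing.mem_maximalIdeal _).mpr hϖnu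
  rw [hπ.maximalIdeal_eq, Ideal.mem_span_singleton] at hmem
  obtain ⟨a, ha⟩ := hmem
  have h1 : ϖ = (π : F) * (a : F) := by
    have := congrArg Subtype.val ha
    simpa using this
  calc exp (-1 : ℤ) = w.valuation F ϖ := hϖ.symm
    _ = w.valuation F (π : F) * w.valuation F (a : F) := by rw [h1, map_mul]
    _ ≤ w.valuation F (π : F) * 1 := by gcongr; exact a.2
    _ = w.valuation F (π : F) := mul_one _

/-- **The order function of the place attached to a height one prime `w` is the `w`-adic order.** -/
theorem ord_ofHeightOneSpectrum (w : HeightOneSpectrum R) (f : F) :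
    (Place.ofHeightOneSpectrum (K := K) w).ord f = -WithZero.log (w.valuation F f) := by
  set v := Place.ofHeightOneSpectrum (K := K) (F := F) w with hv
  rcases eq_or_ne f 0 with rfl | hf
  · simp
  obtain ⟨π, hπ⟩ := IsDiscreteValuationRing.exists_irreducible v.toValuationSubring
  obtain ⟨u, hu⟩ := v.exists_unit_mul_zpow hf hπ
  have hu1 : w.valuation F ((u : v.toValuationSubring) : F) = 1 :=
    val_eq_one_of_isUnit (w.valuation F) (a := (u : v.toValuationSubring)) u.isUnit
  have hπ1 : w.valuation F (π : F) = exp (-1 : ℤ) := valuation_irreducible w hπ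
  have key : w.valuation F f = exp (-(v.ord f)) := by
    conv_lhs => rw [hu]
    rw [map_mul, map_zpow₀, hu1, hπ1, one_mul, ← exp_zsmul]
    simp
  rw [key, log_exp, neg_neg]

/-- Distinct height one primes give distinct places. -/
theorem ofHeightOneSpectrum_injective :
    Function.Injective (Place.ofHeightOneSpectrum (K := K) (F := F) (R := R)) := by
  intro w w' h
  have h' : (w.valuation F).valuationSubring = (w'.valuation F).valuationSubring :=
    congrArg Place.toValuationSubring h
  apply HeightOneSpectrum.eq_of_valuation_isEquiv_valuation (K := F)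
  rw [Valuation.isEquiv_iff_valuationSubring]
  exact h'

/-- Every place of `F` whose valuation ring contains `R` comes from a height one prime of `R`. -/
theorem exists_ofHeightOneSpectrum_eq (v : Place K F)
    (h : ∀ r : R, algebraMap R F r ∈ v.toValuationSubring) :
    ∃ w : HeightOneSpectrum R, Place.ofHeightOneSpectrum (K := K) w = v := by
  classical
  let φ : R →+* v.toValuationSubring := (algebraMap R F).codRestrict v.toValuationSubring.toSubring h
  have hφ : ∀ r, ((φ r : v.toValuationSubring) : F) = algebraMap R F r := fun r => rfl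
  let P : Ideal R := (IsLocalRing.maximalIdeal v.toValuationSubring).comap φ
  have hPprime : P.IsPrime := Ideal.comap_isPrime φ _
  have hPmem : ∀ r, r ∈ P ↔ ¬ IsUnit (φ r) := fun r => by
    simp only [P, Ideal.mem_comap, IsLocalRing.mem_maximalIdeal, mem_nonunits_iff]
  have hPne : P ≠ ⊥ := by
    intro hbot
    apply v.ne_top'
    refine SetLike.ext fun f => ⟨fun _ => ValuationSubring.mem_top f, fun _ => ?_⟩
    obtain ⟨a, b, hb, rfl⟩ := IsFractionRing.div_surjective (A := R) f
    have hb0 : b ≠ 0 := nonZeroDivisors.ne_zero hb
    have hbu : IsUnit (φ b) := by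
      by_contra hnu
      have : b ∈ P := (hPmem b).mpr hnu
      rw [hbot, Ideal.mem_bot] at this
      exact hb0 this
    obtain ⟨u, hu⟩ := hbu
    have hinv : (algebraMap R F b)⁻¹ = ((u⁻¹ : v.toValuationSubringˣ) : v.toValuationSubring) := by
      rw [← hφ b, ← hu]
      have h1 : ((u : v.toValuationSubring) : F) * (((u⁻¹ : v.toValuationSubringˣ) :
          v.toValuationSubring) : F) = 1 := congrArg Subtype.val u.mul_inv
      exact (eq_inv_of_mul_eq_one_right h1).symm
    rw [div_eq_mul_inv, hinv]
    exact v.toValuationSubring.mul_mem _ _ (h a) (SetLike.coe_mem _)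
  let w : HeightOneSpectrum R := ⟨P, hPprime, hPne⟩
  refine ⟨w, ?_⟩
  apply Place.ext
  have hdvr := isDiscreteValuationRing_valuationSubring (F := F) w
  change (w.valuation F).valuationSubring = v.toValuationSubring
  refine ValuationSubring.eq_of_le_of_ne_top _ ?_ v.ne_top'
  intro f hf
  obtain ⟨n, d, hnd⟩ := w.exists_primeCompl_mul_eq_of_integer f hf
  have hdu : IsUnit (φ d) := by
    by_contra hnu
    exact d.2 ((hPmem d).mpr hnu)
  obtain ⟨u, hu⟩ := hdu
  have hd0 : algebraMap R F (d : R) ≠ 0 := by
    intro h0
    have : (φ d : v.toValuationSubring) = 0 := Subtype.ext (by rw [hφ, h0]; rfl)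
    rw [← hu] at this
    exact u.ne_zero this
  have hinv : (algebraMap R F d)⁻¹ = ((u⁻¹ : v.toValuationSubringˣ) : v.toValuationSubring) := by
    rw [← hφ d, ← hu]
    have h1 : ((u : v.toValuationSubring) : F) * (((u⁻¹ : v.toValuationSubringˣ) :
        v.toValuationSubring) : F) = 1 := congrArg Subtype.val u.mul_inv
    exact (eq_inv_of_mul_eq_one_right h1).symm
  have hf' : f = algebraMap R F n * (algebraMap R F d)⁻¹ := by
    rw [← hnd, mul_assoc, mul_inv_cancel₀ hd0, mul_one]
  rw [hf', hinv]
  exact v.toValuationSubring.mul_mem _ _ (h n) (SetLike.coe_mem _)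

/-! ### The residue field -/

/-- The map `R → O_v` for `v` the place attached to `w`. -/
noncomputable def toValuationSubringHom (w : HeightOneSpectrum R) :
    R →+* (Place.ofHeightOneSpectrum (K := K) (F := F) w).toValuationSubring :=
  (algebraMap R F).codRestrict
    (Place.ofHeightOneSpectrum (K := K) (F := F) w).toValuationSubring.toSubring
    (fun r => w.valuation_le_one r)

@[simp]
theorem coe_toValuationSubringHom (w : HeightOneSpectrum R) (r : R) :
    ((toValuationSubringHom (K := K) (F := F) w r :
      (Place.ofHeightOneSpectrum (K := K) (F := F) w).toValuationSubring) : F) = algebraMap R F r :=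
  rfl

/-- The residue map `R → κ(v)` as a `K`-algebra homomorphism. -/
noncomputable def residueHom (w : HeightOneSpectrum R) :
    R →ₐ[K] (Place.ofHeightOneSpectrum (K := K) (F := F) w).ResidueField where
  __ := (IsLocalRing.residue _).comp (toValuationSubringHom (K := K) (F := F) w)
  commutes' k := by
    show IsLocalRing.residue _ (toValuationSubringHom (K := K) (F := F) w (algebraMap K R k)) =
      IsLocalRing.residue _ (algebraMap K _ k)
    congr 1
    apply Subtype.ext
    rw [coe_toValuationSubringHom, Place.coe_algebraMap, ← IsScalarTower.algebraMap_apply]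

theorem residueHom_apply (w : HeightOneSpectrum R) (r : R) :
    residueHom (K := K) (F := F) w r =
      IsLocalRing.residue _ (toValuationSubringHom (K := K) (F := F) w r) := rfl

theorem residueHom_eq_zero_iff (w : HeightOneSpectrum R) (r : R) :
    residueHom (K := K) (F := F) w r = 0 ↔ r ∈ w.asIdeal := by
  rw [residueHom_apply, IsLocalRing.residue_eq_zero_iff]
  have h1 := Valuation.mem_maximalIdeal_iff (v := w.valuation F)
    (a := (⟨algebraMap R F r, w.valuation_le_one r⟩ : (w.valuation F).valuationSubring))
  exact h1.trans (w.valuation_lt_one_iff_mem r)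

theorem ker_residueHom (w : HeightOneSpectrum R) :
    RingHom.ker (residueHom (K := K) (F := F) w) = w.asIdeal := by
  ext r
  rw [RingHom.mem_ker, residueHom_eq_zero_iff]

theorem residueHom_surjective (w : HeightOneSpectrum R) :
    Function.Surjective (residueHom (K := K) (F := F) w) := by
  intro x
  obtain ⟨a, rfl⟩ := IsLocalRing.residue_surjective x
  obtain ⟨n, d, hnd⟩ := w.exists_primeCompl_mul_eq_of_integer (a : F) a.2
  obtain ⟨y, i, hi, hyi⟩ := w.isMaximal.exists_inv d.2
  refine ⟨n * y, ?_⟩
  rw [residueHom_apply, ← sub_eq_zero, ← map_sub, IsLocalRing.residue_eq_zero_iff]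
  have hi' : toValuationSubringHom (K := K) (F := F) w i ∈
      IsLocalRing.maximalIdeal (Place.ofHeightOneSpectrum (K := K) (F := F) w).toValuationSubring := by
    rw [← IsLocalRing.residue_eq_zero_iff, ← residueHom_apply, residueHom_eq_zero_iff]
    exact hi
  have key : toValuationSubringHom (K := K) (F := F) w (n * y) - a =
      -(a * toValuationSubringHom (K := K) (F := F) w i) := by
    apply Subtype.ext
    have h1 : algebraMap R F (y * d + i) = 1 := by rw [hyi, map_one]
    simp only [map_mul, map_add] at h1
    have h2 : ((toValuationSubringHom (K := K) (F := F) w (n * y) - a :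
        (Place.ofHeightOneSpectrum (K := K) (F := F) w).toValuationSubring) : F) =
        algebraMap R F n * algebraMap R F y - (a : F) := by
      rw [map_mul]; rfl
    have h3 : ((-(a * toValuationSubringHom (K := K) (F := F) w i) :
        (Place.ofHeightOneSpectrum (K := K) (F := F) w).toValuationSubring) : F) =
        -((a : F) * algebraMap R F i) := rfl
    rw [h2, h3, ← hnd]
    linear_combination (a : F) * h1
  rw [key]
  exact neg_mem (Ideal.mul_mem_left _ _ hi')

/-- **The residue field of the place attached to `w` is `R ⧸ w`.** -/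
noncomputable def residueEquiv (w : HeightOneSpectrum R) :
    (R ⧸ w.asIdeal) ≃ₐ[K] (Place.ofHeightOneSpectrum (K := K) (F := F) w).ResidueField :=
  (Ideal.quotientEquivAlgOfEq K (ker_residueHom (K := K) (F := F) w).symm).trans
    (Ideal.quotientKerAlgEquivOfSurjective (residueHom_surjective (K := K) (F := F) w))

theorem deg_ofHeightOneSpectrum (w : HeightOneSpectrum R) :
    (Place.ofHeightOneSpectrum (K := K) (F := F) w).deg = Module.finrank K (R ⧸ w.asIdeal) :=
  ((residueEquiv (K := K) (F := F) w).toLinearEquiv.finrank_eq).symm

theorem finite_residueField_ofHeightOneSpectrum (w : HeightOneSpectrum R)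
    [Module.Finite K (R ⧸ w.asIdeal)] :
    Module.Finite K (Place.ofHeightOneSpectrum (K := K) (F := F) w).ResidueField :=
  Module.Finite.equiv (residueEquiv (K := K) (F := F) w).toLinearEquiv

end Fermat.Agent.S24.PlaceDedekind
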