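import Mathlib
import Fermat.Agent.S24.Defs
import Fermat.Agent.S24.PlaceDedekind

/-!
# S24 project, function-field base: the coordinate ring `K[x]` and its integral closure in `F`

For `x : F` with `hF : IsFunctionFieldOver K x` and `K` of characteristic zero:
`A K x := Algebra.adjoin K {x}` is a PID with fraction field `K⟮x⟯`,
`B K x := integralClosure (A K x) F` is a Dedekind domain, finite over `A K x`, with fraction
field `F`.  `Ax hF`, `Bx hF` are type synonyms indexed by the proof `hF`, so that all these facts
are available to instance resolution.
-/

set_option autoImplicit false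

open AlgebraicCurve IntermediateField IsDedekindDomain
open scoped IntermediateField.algebraAdjoinAdjoin

namespace Fermat.Agent.S24.FFBase

variable {K F : Type*} [Field K] [Field F] [Algebra K F]

/-- The polynomial ring `K[x] ⊆ F`. -/
abbrev A (K : Type*) {F : Type*} [Field K] [Field F] [Algebra K F] (x : F) : Subalgebra K F :=
  Algebra.adjoin K {x}

/-- `x` as an element of `K[x]`. -/
def gen (K : Type*) {F : Type*} [Field K] [Field F] [Algebra K F] (x : F) : A K x :=
  ⟨x, Algebra.self_mem_adjoin_singleton K x⟩

@[simp] theorem coe_gen (x : F) : ((gen K x : A K x) : F) = x := rfl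

theorem isPrincipalIdealRing_A {x : F} (hx : Transcendental K x) :
    IsPrincipalIdealRing (A K x) :=
  IsPrincipalIdealRing.of_surjective
    (Polynomial.algEquivOfTranscendental K x hx).toRingEquiv.toRingHom
    (Polynomial.algEquivOfTranscendental K x hx).surjective

theorem isDedekindDomain_A {x : F} (hx : Transcendental K x) : IsDedekindDomain (A K x) := by
  have := isPrincipalIdealRing_A hx
  infer_instance

/-- The integral closure of `K[x]` in `F`. -/
abbrev B (K : Type*) {F : Type*} [Field K] [Field F] [Algebra K F] (x : F) :
    Subalgebra (A K x) F :=
  integralClosure (A K x) F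

section

variable [CharZero K] {x : F} (hF : IsFunctionFieldOver K x)

include hF in
theorem isSeparable : Algebra.IsSeparable (↥K⟮x⟯) F := by
  have := hF.finite
  have : CharZero (↥K⟮x⟯) := charZero_of_injective_algebraMap (algebraMap K (↥K⟮x⟯)).injective
  infer_instance

include hF in
theorem isDedekindDomain_B : IsDedekindDomain (B K x) := by
  have := hF.finite
  have := isSeparable hF
  have := isDedekindDomain_A hF.transcendental
  exact IsIntegralClosure.isDedekindDomain (A K x) (↥K⟮x⟯) F (B K x)

include hF in
theorem isFractionRing_B : IsFractionRing (B K x) F := by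
  have := hF.finite
  exact integralClosure.isFractionRing_of_finite_extension (↥K⟮x⟯) F

include hF in
theorem finite_B : Module.Finite (A K x) (B K x) := by
  have := hF.finite
  have := isSeparable hF
  have := isDedekindDomain_A hF.transcendental
  exact IsIntegralClosure.finite (A K x) (↥K⟮x⟯) F (B K x)

/-! ### proof-indexed synonyms -/

/-- `K[x]`, indexed by `hF`. -/
def Ax {x : F} (_hF : IsFunctionFieldOver K x) : Type _ := A K x

/-- The integral closure of `K[x]` in `F`, indexed by `hF`. -/
def Bx {x : F} (_hF : IsFunctionFieldOver K x) : Type _ := B K x

noncomputable instance : CommRing (Ax hF) := inferInstanceAs (CommRing (A K x))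
noncomputable instance : Algebra K (Ax hF) := inferInstanceAs (Algebra K (A K x))
noncomputable instance : Algebra (Ax hF) F := inferInstanceAs (Algebra (A K x) F)
instance : IsScalarTower K (Ax hF) F := inferInstanceAs (IsScalarTower K (A K x) F)
instance : IsDomain (Ax hF) := inferInstanceAs (IsDomain (A K x))
instance : IsPrincipalIdealRing (Ax hF) := isPrincipalIdealRing_A hF.transcendental
instance : IsDedekindDomain (Ax hF) := isDedekindDomain_A hF.transcendental

noncomputable instance : CommRing (Bx hF) := inferInstanceAs (CommRing (B K x))
noncomputable instance : Algebra K (Bx hF) := inferInstanceAs (Algebra K (B K x))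
noncomputable instance : Algebra (Bx hF) F := inferInstanceAs (Algebra (B K x) F)
noncomputable instance : Algebra (Ax hF) (Bx hF) := inferInstanceAs (Algebra (A K x) (B K x))
instance : IsScalarTower K (Bx hF) F := inferInstanceAs (IsScalarTower K (B K x) F)
instance : IsScalarTower (Ax hF) (Bx hF) F := inferInstanceAs (IsScalarTower (A K x) (B K x) F)
instance : IsScalarTower K (Ax hF) (Bx hF) := inferInstanceAs (IsScalarTower K (A K x) (B K x))
instance : IsDomain (Bx hF) := inferInstanceAs (IsDomain (B K x))
instance : IsDedekindDomain (Bx hF) := isDedekindDomain_B hF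
instance : IsFractionRing (Bx hF) F := isFractionRing_B hF
instance : Module.Finite (Ax hF) (Bx hF) := finite_B hF

end

end Fermat.Agent.S24.FFBase
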