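import Mathlib
import Fermat.Agent.S24.Defs
import Fermat.Agent.S24.PlaceDedekind
import Fermat.Agent.S24.FFBase

/-!
# S24 project, package FF1 (part a): valuation subrings of a function field

`K` algebraically closed of characteristic zero, `F/K(x)` finite.  Every valuation subring
`V ≠ ⊤` of `F` containing `K` is the valuation ring of a height one prime of the integral closure
of `K[x]` (if `x ∈ V`) or of `K[x⁻¹]` (if `x ∉ V`).  Consequences: `V` is a PID (so it is a
`Place`), residue fields are `K`, every place has a centre.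
-/

set_option autoImplicit false

open AlgebraicCurve IntermediateField IsDedekindDomain
open scoped IntermediateField.algebraAdjoinAdjoin

namespace Fermat.Agent.S24.FF86

open Fermat.Agent.S24.FFBase Fermat.Agent.S24.PlaceDedekind

variable {K F : Type*} [Field K] [Field F] [Algebra K F]

/-- A valuation subring containing a subalgebra contains its integral closure. -/
theorem mem_of_isIntegral_of_le (V : ValuationSubring F) (S : Subalgebra K F)
    (hS : ∀ a ∈ S, a ∈ V) {b : F} (hb : IsIntegral S b) : b ∈ V := by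
  obtain ⟨p, hp, hpb⟩ := hb
  let ι : S →+* V := (S.val : S →+* F).codRestrict V.toSubring (fun a => hS a a.2)
  have hint : IsIntegral V b := by
    refine ⟨p.map ι, hp.map ι, ?_⟩
    rw [Polynomial.eval₂_map]
    exact hpb
  obtain ⟨y, hy⟩ := IsIntegrallyClosed.algebraMap_eq_of_integral (R := V) (K := F) hint
  rw [← hy]
  exact y.2

/-- Generalisation of `PlaceDedekind.exists_ofHeightOneSpectrum_eq` to valuation subrings. -/
theorem exists_valuationSubring_eq {R : Type*} [CommRing R] [IsDedekindDomain R] [Algebra R F]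
    [IsFractionRing R F] (V : ValuationSubring F) (hV : V ≠ ⊤)
    (h : ∀ r : R, algebraMap R F r ∈ V) :
    ∃ w : HeightOneSpectrum R, (w.valuation F).valuationSubring = V := by
  classical
  let φ : R →+* V := (algebraMap R F).codRestrict V.toSubring h
  have hφ : ∀ r, ((φ r : V) : F) = algebraMap R F r := fun r => rfl
  let P : Ideal R := (IsLocalRing.maximalIdeal V).comap φ
  have hPprime : P.IsPrime := Ideal.comap_isPrime φ _
  have hPmem : ∀ r, r ∈ P ↔ ¬ IsUnit (φ r) := fun r => by
    simp only [P, Ideal.mem_comap, IsLocalRing.mem_maximalIdeal, mem_nonunits_iff]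
  have hinvmem : ∀ d : R, IsUnit (φ d) → (algebraMap R F d)⁻¹ ∈ V := by
    intro d hd
    obtain ⟨u, hu⟩ := hd
    have h1 : ((u : V) : F) * (((u⁻¹ : Vˣ) : V) : F) = 1 := congrArg Subtype.val u.mul_inv
    have : (algebraMap R F d)⁻¹ = (((u⁻¹ : Vˣ) : V) : F) := by
      rw [← hφ d, ← hu]
      exact (eq_inv_of_mul_eq_one_right h1).symm
    rw [this]
    exact SetLike.coe_mem _
  have hPne : P ≠ ⊥ := by
    intro hbot
    apply hV
    refine SetLike.ext fun f => ⟨fun _ => ValuationSubring.mem_top f, fun _ => ?_⟩
    obtain ⟨a, b, hb, rfl⟩ := IsFractionRing.div_surjective (A := R) f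
    have hb0 : b ≠ 0 := nonZeroDivisors.ne_zero hb
    have hbu : IsUnit (φ b) := by
      by_contra hnu
      have : b ∈ P := (hPmem b).mpr hnu
      rw [hbot, Ideal.mem_bot] at this
      exact hb0 this
    rw [div_eq_mul_inv]
    exact V.mul_mem _ _ (h a) (hinvmem b hbu)
  let w : HeightOneSpectrum R := ⟨P, hPprime, hPne⟩
  refine ⟨w, ?_⟩
  have hdvr := isDiscreteValuationRing_valuationSubring (F := F) w
  refine ValuationSubring.eq_of_le_of_ne_top _ ?_ hV
  intro f hf
  obtain ⟨n, d, hnd⟩ := w.exists_primeCompl_mul_eq_of_integer f hf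
  have hdu : IsUnit (φ d) := by
    by_contra hnu
    exact d.2 ((hPmem d).mpr hnu)
  have hd0 : algebraMap R F (d : R) ≠ 0 := by
    intro h0
    obtain ⟨u, hu⟩ := hdu
    have : (φ d : V) = 0 := Subtype.ext (by rw [hφ, h0]; rfl)
    rw [← hu] at this
    exact u.ne_zero this
  have hf' : f = algebraMap R F n * (algebraMap R F d)⁻¹ := by
    rw [← hnd, mul_assoc, mul_inv_cancel₀ hd0, mul_one]
  rw [hf']
  exact V.mul_mem _ _ (h n) (hinvmem d hdu)

/-! ### `x ↦ x⁻¹` -/

theorem adjoin_inv_eq (x : F) : K⟮x⁻¹⟯ = K⟮x⟯ := by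
  apply le_antisymm
  · rw [adjoin_simple_le_iff]
    exact inv_mem (mem_adjoin_simple_self K x)
  · rw [adjoin_simple_le_iff]
    have := inv_mem (mem_adjoin_simple_self K x⁻¹)
    rwa [inv_inv] at this

theorem isFunctionFieldOver_inv {x : F} (hF : IsFunctionFieldOver K x) :
    IsFunctionFieldOver K x⁻¹ where
  transcendental := by
    have := hF.transcendental
    rw [Transcendental] at this ⊢
    rwa [IsAlgebraic.inv_iff]
  finite := by
    have h := hF.finite
    have e : K⟮x⁻¹⟯ = K⟮x⟯ := adjoin_inv_eq x
    exact e ▸ h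

theorem degOver_inv (x : F) : degOver K x⁻¹ = degOver K x := by
  unfold degOver
  have e : K⟮x⁻¹⟯ = K⟮x⟯ := adjoin_inv_eq x
  rw [e]

/-! ### valuation subrings containing `x` -/

section

variable [CharZero K] {x : F} (hF : IsFunctionFieldOver K x)

/-- A valuation subring containing `K` and `x` contains the integral closure of `K[x]`. -/
theorem B_le (V : ValuationSubring F) (hK : ∀ a : K, algebraMap K F a ∈ V) (hx : x ∈ V)
    (b : Bx hF) : algebraMap (Bx hF) F b ∈ V := by
  let SV : Subalgebra K F := { V.toSubring with algebraMap_mem' := hK }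
  have hA : A K x ≤ SV := Algebra.adjoin_le (by
    intro y hy
    rw [Set.mem_singleton_iff] at hy
    subst hy
    exact hx)
  exact mem_of_isIntegral_of_le V (A K x) (fun a ha => hA ha) (b : B K x).2

/-- A valuation subring `≠ ⊤` containing `K` and `x` is the valuation ring of a height one prime
of the integral closure of `K[x]`. -/
theorem exists_prime_of_mem (V : ValuationSubring F) (hK : ∀ a : K, algebraMap K F a ∈ V)
    (hV : V ≠ ⊤) (hx : x ∈ V) :
    ∃ w : HeightOneSpectrum (Bx hF), (w.valuation F).valuationSubring = V :=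
  exists_valuationSubring_eq V hV (B_le hF V hK hx)

include hF in
/-- **Package FF1, statement 1.** -/
theorem isPrincipalIdealRing_of_valuationSubring (V : ValuationSubring F)
    (hK : ∀ a : K, algebraMap K F a ∈ V) (hV : V ≠ ⊤) : IsPrincipalIdealRing V := by
  by_cases hx : x ∈ V
  · obtain ⟨w, hw⟩ := exists_prime_of_mem hF V hK hV hx
    rw [← hw]
    exact Place.isPrincipalIdealRing_valuationSubring w
  · have hx' : x⁻¹ ∈ V := (V.mem_or_inv_mem x).resolve_left hx
    obtain ⟨w, hw⟩ := exists_prime_of_mem (isFunctionFieldOver_inv hF) V hK hV hx'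
    rw [← hw]
    exact Place.isPrincipalIdealRing_valuationSubring w

/-- Every place with `x ∈ O_v` comes from a height one prime of the integral closure of `K[x]`. -/
theorem exists_ofHeightOneSpectrum_eq_of_mem (v : Place K F) (hx : x ∈ v.toValuationSubring) :
    ∃ w : HeightOneSpectrum (Bx hF), Place.ofHeightOneSpectrum (K := K) w = v := by
  obtain ⟨w, hw⟩ := exists_prime_of_mem hF v.toValuationSubring v.algebraMap_mem' v.ne_top' hx
  exact ⟨w, Place.ext hw⟩

end

end Fermat.Agent.S24.FF86
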