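import Mathlib
import Fermat.Prelude.Def_ModularCurve_CanonicalDivisor

/-!
# S24 / layer (A), local part: differentials at a place

`v : Place K F` whose residue field is `K` (`hres`) and whose ring `𝒪_v` has a finitely generated
module of differentials over `K` (automatic when `𝒪_v` is essentially of finite type over `K`).

* `span_D_irreducible_eq_top` : `Ω[𝒪_v⁄K] = 𝒪_v · dt` for every uniformizer `t` (Nakayama);
* `exists_D_eq_smul` : `d g ∈ 𝒪_v · dt` inside `Ω[F⁄K]` for `g ∈ 𝒪_v`;
* `span_D_irreducible_eq_top_field`, `dCoordGenerates` : `dt` spans `Ω[F⁄K]`, i.e. the Prelude class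
  `Place.DCoordGenerates` holds;
* `ordDifferential_D` : `ord_v (d f) = ord_v (f - c) - 1` as soon as `ord_v (f - c) ≠ 0` in `K`
  (zeros of `f - c` and poles of `f`), for the Prelude's `Place.ordDifferential`.
-/

set_option autoImplicit false

open KaehlerDifferential AlgebraicCurve IsLocalRing

namespace Fermat.Agent.S24.LocalDiff

variable {K F : Type*} [Field K] [Field F] [Algebra K F] (v : Place K F)

/-- Step 1: Nakayama. `Ω[𝒪_v⁄K]` is generated by `d t` for a uniformizer `t`. -/
theorem span_D_irreducible_eq_top
    (hres : Function.Surjective (algebraMap K v.ResidueField))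
    [Module.Finite v.toValuationSubring Ω[v.toValuationSubring⁄K]]
    {t : v.toValuationSubring} (ht : Irreducible t) :
    Submodule.span v.toValuationSubring {D K v.toValuationSubring t} = ⊤ := by
  have key : ∀ g : v.toValuationSubring, D K v.toValuationSubring g ∈
      Submodule.span v.toValuationSubring {D K v.toValuationSubring t} ⊔
        maximalIdeal v.toValuationSubring •
          (⊤ : Submodule v.toValuationSubring Ω[v.toValuationSubring⁄K]) := by
    intro g
    obtain ⟨c, hc⟩ := hres (residue v.toValuationSubring g)
    have hmem : g - algebraMap K v.toValuationSubring c ∈ maximalIdeal v.toValuationSubring := by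
      rw [← residue_eq_zero_iff, map_sub, ← hc]
      exact sub_eq_zero.mpr rfl
    rw [ht.maximalIdeal_eq, Ideal.mem_span_singleton'] at hmem
    obtain ⟨h, hh⟩ := hmem
    have hg : g = algebraMap K v.toValuationSubring c + h * t := by rw [hh]; ring
    have hD : D K v.toValuationSubring g
        = h • D K v.toValuationSubring t + t • D K v.toValuationSubring h := by
      rw [hg, map_add, Derivation.map_algebraMap, zero_add, Derivation.leibniz]
    rw [hD]
    refine Submodule.add_mem_sup ?_ ?_
    · exact Submodule.smul_mem _ _ (Submodule.subset_span rfl)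
    · refine Submodule.smul_mem_smul ?_ Submodule.mem_top
      rw [ht.maximalIdeal_eq]
      exact Ideal.subset_span rfl
  rw [eq_top_iff]
  apply Submodule.le_of_le_smul_of_le_jacobson_bot (I := maximalIdeal v.toValuationSubring)
    Module.Finite.fg_top (maximalIdeal_le_jacobson _)
  conv_lhs => rw [← span_range_derivation K v.toValuationSubring]
  rw [Submodule.span_le]
  rintro _ ⟨g, rfl⟩
  exact key g

/-- Step 2: the differential of an integral element is an integral multiple of `d t`. -/
theorem exists_D_eq_smul
    (hres : Function.Surjective (algebraMap K v.ResidueField))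
    [Module.Finite v.toValuationSubring Ω[v.toValuationSubring⁄K]]
    {t : v.toValuationSubring} (ht : Irreducible t) (g : v.toValuationSubring) :
    ∃ a : v.toValuationSubring, D K F (g : F) = (a : F) • D K F (t : F) := by
  have hg : D K v.toValuationSubring g ∈
      Submodule.span v.toValuationSubring {D K v.toValuationSubring t} := by
    rw [span_D_irreducible_eq_top v hres ht]; exact Submodule.mem_top
  obtain ⟨a, ha⟩ := Submodule.mem_span_singleton.mp hg
  refine ⟨a, ?_⟩
  have := congrArg (KaehlerDifferential.map K K v.toValuationSubring F) ha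
  rw [map_smul, KaehlerDifferential.map_D, KaehlerDifferential.map_D] at this
  exact this.symm

/-- Step 3: `d t` spans `Ω[F⁄K]` over `F`. -/
theorem span_D_irreducible_eq_top_field
    (hres : Function.Surjective (algebraMap K v.ResidueField))
    [Module.Finite v.toValuationSubring Ω[v.toValuationSubring⁄K]]
    {t : v.toValuationSubring} (ht : Irreducible t) :
    Submodule.span F {D K F (t : F)} = ⊤ := by
  rw [eq_top_iff, ← span_range_derivation K F, Submodule.span_le]
  rintro _ ⟨f, rfl⟩
  obtain ⟨a, b, hb, rfl⟩ : ∃ a b : v.toValuationSubring, b ≠ 0 ∧ f = (a : F) / (b : F) := by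
    obtain ⟨a, b, hb, h⟩ := IsFractionRing.div_surjective (A := v.toValuationSubring) f
    exact ⟨a, b, nonZeroDivisors.ne_zero hb, h.symm⟩
  obtain ⟨a', ha'⟩ := exists_D_eq_smul v hres ht a
  obtain ⟨b', hb'⟩ := exists_D_eq_smul v hres ht b
  rw [SetLike.mem_coe, Derivation.leibniz_div, ha', hb', Submodule.mem_span_singleton]
  refine ⟨((b : F)⁻¹ ^ 2) * ((b : F) * (a' : F) - (a : F) * (b' : F)), ?_⟩
  simp only [smul_sub, smul_smul, mul_sub, sub_smul]

/-- The uniformizer chosen by the Prelude (`Place.dCoord = d (unif v)`). -/
noncomputable def unif : v.toValuationSubring :=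
  (IsDiscreteValuationRing.exists_irreducible v.toValuationSubring).choose

theorem unif_irreducible : Irreducible (unif v) :=
  (IsDiscreteValuationRing.exists_irreducible v.toValuationSubring).choose_spec

theorem dCoord_eq : v.dCoord = D K F ((unif v : v.toValuationSubring) : F) := rfl

theorem ord_unif : v.ord ((unif v : v.toValuationSubring) : F) = 1 :=
  v.ord_coe_irreducible (unif_irreducible v)

/-- The Prelude class `DCoordGenerates` holds. -/
theorem dCoordGenerates
    (hres : Function.Surjective (algebraMap K v.ResidueField))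
    [Module.Finite v.toValuationSubring Ω[v.toValuationSubring⁄K]] : v.DCoordGenerates :=
  ⟨by rw [dCoord_eq]; exact span_D_irreducible_eq_top_field v hres (unif_irreducible v)⟩

/-- In a local ring, unit plus element of the maximal ideal is a unit. -/
theorem isUnit_add_of_mem_maximalIdeal {R : Type*} [CommRing R] [IsLocalRing R] {x y : R}
    (hx : IsUnit x) (hy : y ∈ maximalIdeal R) : IsUnit (x + y) := by
  by_contra h
  have h' : x + y ∈ maximalIdeal R := (mem_maximalIdeal _).mpr h
  have : x ∈ maximalIdeal R := by
    have := (maximalIdeal R).sub_mem h' hy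
    simpa using this
  exact (mem_maximalIdeal _).mp this hx

/-- Explicit form of `d f` at `v`: if `n = ord_v (f - c)` is nonzero in `K`, then
`d f = (w * t ^ (n - 1)) • dCoord` with `w` a unit of `𝒪_v` and `t` the Prelude's uniformizer. -/
theorem exists_unit_D_eq
    (hres : Function.Surjective (algebraMap K v.ResidueField))
    [Module.Finite v.toValuationSubring Ω[v.toValuationSubring⁄K]]
    (f : F) (c : K) (hn : ((v.ord (f - algebraMap K F c) : ℤ) : K) ≠ 0) :
    ∃ w : v.toValuationSubringˣ, D K F f =
      (((w : v.toValuationSubring) : F) * ((unif v : v.toValuationSubring) : F)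
        ^ (v.ord (f - algebraMap K F c) - 1)) • v.dCoord := by
  have ht : Irreducible (unif v) := unif_irreducible v
  have hf0 : f - algebraMap K F c ≠ 0 := by
    intro h
    rw [h, v.ord_zero] at hn
    exact hn (by simp)
  obtain ⟨u, hu⟩ := v.exists_unit_mul_zpow hf0 ht
  obtain ⟨a, ha⟩ := exists_D_eq_smul v hres ht (u : v.toValuationSubring)
  have hnK : IsUnit (algebraMap K v.toValuationSubring
      ((v.ord (f - algebraMap K F c) : ℤ) : K)) := (IsUnit.mk0 _ hn).map _
  have hw : IsUnit (algebraMap K v.toValuationSubring ((v.ord (f - algebraMap K F c) : ℤ) : K)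
      * (u : v.toValuationSubring) + unif v * a) := by
    refine isUnit_add_of_mem_maximalIdeal (hnK.mul u.isUnit) ?_
    rw [ht.maximalIdeal_eq]
    exact Ideal.mul_mem_right _ _ (Ideal.subset_span rfl)
  refine ⟨hw.unit, ?_⟩
  have h1 : D K F f = D K F (f - algebraMap K F c) := by
    rw [map_sub, Derivation.map_algebraMap, sub_zero]
  have htF : ((unif v : v.toValuationSubring) : F) ≠ 0 := by
    simpa [ne_eq, ZeroMemClass.coe_eq_zero] using ht.ne_zero
  generalize hn_def : v.ord (f - algebraMap K F c) = n at *
  have hpow : ((unif v : v.toValuationSubring) : F) ^ n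
      = ((unif v : v.toValuationSubring) : F) ^ (n - 1) * ((unif v : v.toValuationSubring) : F) := by
    rw [← zpow_add_one₀ htF, sub_add_cancel]
  have hcast : algebraMap K F ((n : ℤ) : K) = ((n : ℤ) : F) := by simp
  rw [h1, hu, Derivation.leibniz, Derivation.leibniz_zpow, ha, dCoord_eq, IsUnit.unit_spec,
    ← Int.cast_smul_eq_zsmul F n]
  simp only [smul_smul, ← add_smul]
  congr 1
  push_cast
  rw [hpow, Place.coe_algebraMap, hcast]
  ring

/-- Main local formula: `ord_v(df) = ord_v(f - c) - 1` whenever `ord_v(f - c)` is nonzero in `K`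
(a zero of `f - c` if positive, a pole of `f` if negative). -/
theorem ordDifferential_D [Nontrivial Ω[F⁄K]]
    (hres : Function.Surjective (algebraMap K v.ResidueField))
    [Module.Finite v.toValuationSubring Ω[v.toValuationSubring⁄K]]
    (f : F) (c : K) (hn : ((v.ord (f - algebraMap K F c) : ℤ) : K) ≠ 0) :
    v.ordDifferential (D K F f) = v.ord (f - algebraMap K F c) - 1 := by
  have := dCoordGenerates v hres
  obtain ⟨w, hw⟩ := exists_unit_D_eq v hres f c hn
  rw [Place.ordDifferential, v.differentialCoeff_unique hw,
    v.ord_unit_smul_zpow w (unif_irreducible v)]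

/-- `d f ≠ 0` under the same hypothesis. -/
theorem D_ne_zero [Nontrivial Ω[F⁄K]]
    (hres : Function.Surjective (algebraMap K v.ResidueField))
    [Module.Finite v.toValuationSubring Ω[v.toValuationSubring⁄K]]
    (f : F) (c : K) (hn : ((v.ord (f - algebraMap K F c) : ℤ) : K) ≠ 0) :
    D K F f ≠ 0 := by
  have := dCoordGenerates v hres
  obtain ⟨w, hw⟩ := exists_unit_D_eq v hres f c hn
  rw [hw]
  refine smul_ne_zero (mul_ne_zero ?_ (zpow_ne_zero _ ?_)) v.dCoord_ne_zero
  · simp [ne_eq, ZeroMemClass.coe_eq_zero]
  · simpa [ne_eq, ZeroMemClass.coe_eq_zero] using (unif_irreducible v).ne_zero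

end Fermat.Agent.S24.LocalDiff
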