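import Fermat.Agent.S24.PlaceDedekind
import Fermat.Agent.S24.LocalDiff

/-!
# S24 / layer (A): places coming from a finite-type Dedekind `K`-algebra

For `R` a Dedekind domain of finite type over `K` with fraction field `F`, and `w` a height one
prime of `R`, the place `v = Place.ofHeightOneSpectrum w` satisfies all the hypotheses of
`LocalDiff`: its ring is essentially of finite type over `K`, and (for `K` algebraically closed)
its residue field is `K`.  Hence `ord_v (d f) = ord_v (f - c) - 1`.
-/

set_option autoImplicit false
set_option linter.style.haveILetI false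

open IsDedekindDomain AlgebraicCurve KaehlerDifferential

namespace Fermat.Agent.S24.PlaceEssFinite

open Fermat.Agent.S24.PlaceDedekind

variable {K F : Type*} [Field K] [Field F] [Algebra K F]
variable {R : Type*} [CommRing R] [IsDedekindDomain R] [Algebra R F] [IsFractionRing R F]
variable [Algebra K R] [IsScalarTower K R F]

/-- The map `R → O_v` as a `K`-algebra homomorphism. -/
noncomputable def toValuationSubringAlgHom (w : HeightOneSpectrum R) :
    R →ₐ[K] (Place.ofHeightOneSpectrum (K := K) (F := F) w).toValuationSubring where
  __ := toValuationSubringHom (K := K) (F := F) w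
  commutes' k := by
    apply Subtype.ext
    show algebraMap R F (algebraMap K R k) = algebraMap K F k
    rw [← IsScalarTower.algebraMap_apply]

@[simp]
theorem coe_toValuationSubringAlgHom (w : HeightOneSpectrum R) (r : R) :
    ((toValuationSubringAlgHom (K := K) (F := F) w r :
      (Place.ofHeightOneSpectrum (K := K) (F := F) w).toValuationSubring) : F) = algebraMap R F r :=
  rfl

theorem isUnit_toValuationSubringAlgHom (w : HeightOneSpectrum R) {d : R} (hd : d ∉ w.asIdeal) :
    IsUnit (toValuationSubringAlgHom (K := K) (F := F) w d) := by
  by_contra hnu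
  apply hd
  rw [← residueHom_eq_zero_iff (K := K) (F := F) w d, residueHom_apply,
    IsLocalRing.residue_eq_zero_iff]
  exact (IsLocalRing.mem_maximalIdeal _).mpr hnu

/-- The ring of the place attached to a height one prime of a finite-type Dedekind `K`-algebra is
essentially of finite type over `K`. -/
theorem essFiniteType_ofHeightOneSpectrum [Algebra.FiniteType K R] (w : HeightOneSpectrum R) :
    Algebra.EssFiniteType K (Place.ofHeightOneSpectrum (K := K) (F := F) w).toValuationSubring := by
  classical
  obtain ⟨s, hs⟩ := (Algebra.FiniteType.out : (⊤ : Subalgebra K R).FG)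
  rw [Algebra.essFiniteType_iff]
  refine ⟨s.image (toValuationSubringAlgHom (K := K) (F := F) w), ?_⟩
  have hadj : Algebra.adjoin K ((s.image (toValuationSubringAlgHom (K := K) (F := F) w) : Finset _) :
      Set (Place.ofHeightOneSpectrum (K := K) (F := F) w).toValuationSubring) =
      (toValuationSubringAlgHom (K := K) (F := F) w).range := by
    rw [Finset.coe_image, ← AlgHom.map_adjoin, hs, Algebra.map_top]
  rw [hadj]
  intro a
  obtain ⟨n, d, hnd⟩ := w.exists_primeCompl_mul_eq_of_integer (a : F) a.2
  refine ⟨toValuationSubringAlgHom (K := K) (F := F) w d, ⟨d, rfl⟩,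
    isUnit_toValuationSubringAlgHom w d.2, ⟨n, ?_⟩⟩
  apply Subtype.ext
  show algebraMap R F n = (a : F) * algebraMap R F (d : R)
  exact hnd.symm

/-- Zariski's lemma: the residue field of such a place is finite over `K`. -/
theorem finite_residueField [Algebra.FiniteType K R] (w : HeightOneSpectrum R) :
    Module.Finite K (Place.ofHeightOneSpectrum (K := K) (F := F) w).ResidueField := by
  haveI : w.asIdeal.IsMaximal := w.isMaximal
  letI : Field (R ⧸ w.asIdeal) := Ideal.Quotient.field w.asIdeal
  haveI : Module.Finite K (R ⧸ w.asIdeal) :=
    finite_of_finite_type_of_isJacobsonRing K (R ⧸ w.asIdeal)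
  exact finite_residueField_ofHeightOneSpectrum w

/-- For `K` algebraically closed, the residue field of such a place is `K`. -/
theorem residue_surjective [IsAlgClosed K] [Algebra.FiniteType K R] (w : HeightOneSpectrum R) :
    Function.Surjective
      (algebraMap K (Place.ofHeightOneSpectrum (K := K) (F := F) w).ResidueField) := by
  haveI := finite_residueField (K := K) (F := F) w
  haveI : Algebra.IsIntegral K (Place.ofHeightOneSpectrum (K := K) (F := F) w).ResidueField :=
    Algebra.IsIntegral.of_finite K _
  exact (IsAlgClosed.algebraMap_bijective_of_isIntegral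
    (k := K) (K := (Place.ofHeightOneSpectrum (K := K) (F := F) w).ResidueField)).2

theorem deg_eq_one [IsAlgClosed K] [Algebra.FiniteType K R] (w : HeightOneSpectrum R) :
    (Place.ofHeightOneSpectrum (K := K) (F := F) w).deg = 1 := by
  haveI := finite_residueField (K := K) (F := F) w
  exact Place.deg_eq_one_of_isAlgClosed_of_finite _

theorem dCoordGenerates [IsAlgClosed K] [Algebra.FiniteType K R] (w : HeightOneSpectrum R) :
    (Place.ofHeightOneSpectrum (K := K) (F := F) w).DCoordGenerates := by
  haveI := essFiniteType_ofHeightOneSpectrum (K := K) (F := F) w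
  exact LocalDiff.dCoordGenerates _ (residue_surjective w)

/-- `ord_v (d f) = ord_v (f - c) - 1` at the place attached to `w`. -/
theorem ordDifferential_D [IsAlgClosed K] [CharZero K] [Algebra.FiniteType K R] [Nontrivial Ω[F⁄K]]
    (w : HeightOneSpectrum R) (f : F) (c : K)
    (hn : (Place.ofHeightOneSpectrum (K := K) (F := F) w).ord (f - algebraMap K F c) ≠ 0) :
    (Place.ofHeightOneSpectrum (K := K) (F := F) w).ordDifferential (D K F f) =
      (Place.ofHeightOneSpectrum (K := K) (F := F) w).ord (f - algebraMap K F c) - 1 := by
  haveI := essFiniteType_ofHeightOneSpectrum (K := K) (F := F) w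
  exact LocalDiff.ordDifferential_D _ (residue_surjective w) f c (Int.cast_ne_zero.mpr hn)

end Fermat.Agent.S24.PlaceEssFinite
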