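import Mathlib
import Fermat.Agent.S24.Defs
import Fermat.Agent.S24.PlaceDedekind
import Fermat.Agent.S24.FFBase
import Fermat.Agent.S24.FFPlaces86
import Fermat.Agent.S24.PlaceEssFinite
import Fermat.Agent.S24.PlaceLocal

/-!
# S24 project, packages FF1 (b) and FF3 (local part made global)

Every place of a function field `F/K` (`K` algebraically closed of characteristic zero,
`F/K(x)` finite) comes from a height one prime of the integral closure of `K[x]` or `K[x⁻¹]`,
which are Dedekind domains of finite type over `K`.  Hence: `deg v = 1`, the residue field is `K`,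
every place has a centre, `DCoordGenerates`, and `ord_v (d f) = ord_v (f - c) - 1`.
-/

set_option autoImplicit false

open AlgebraicCurve IntermediateField IsDedekindDomain KaehlerDifferential
open scoped IntermediateField.algebraAdjoinAdjoin

namespace Fermat.Agent.S24.FF86

open Fermat.Agent.S24.FFBase Fermat.Agent.S24.PlaceDedekind

variable {K F : Type*} [Field K] [Field F] [Algebra K F]

section

variable [CharZero K] {x : F} (hF : IsFunctionFieldOver K x)

instance : Algebra.FiniteType K (Ax hF) :=
  Algebra.FiniteType.equiv (inferInstanceAs (Algebra.FiniteType K (Polynomial K)))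
    (Polynomial.algEquivOfTranscendental K x hF.transcendental)

instance : Algebra.FiniteType K (Bx hF) :=
  Algebra.FiniteType.trans (R := K) (S := Ax hF) (A := Bx hF) inferInstance inferInstance

/-- Every place comes from a height one prime of the integral closure of `K[x]` or of
`K[x⁻¹]`. -/
theorem exists_prime (v : Place K F) :
    (x ∈ v.toValuationSubring ∧
      ∃ w : HeightOneSpectrum (Bx hF), Place.ofHeightOneSpectrum (K := K) w = v) ∨
    (x ∉ v.toValuationSubring ∧
      ∃ w : HeightOneSpectrum (Bx (isFunctionFieldOver_inv hF)),
        Place.ofHeightOneSpectrum (K := K) w = v) := by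
  by_cases hx : x ∈ v.toValuationSubring
  · exact Or.inl ⟨hx, exists_ofHeightOneSpectrum_eq_of_mem hF v hx⟩
  · have hx' : x⁻¹ ∈ v.toValuationSubring := (v.toValuationSubring.mem_or_inv_mem x).resolve_left hx
    exact Or.inr ⟨hx, exists_ofHeightOneSpectrum_eq_of_mem (isFunctionFieldOver_inv hF) v hx'⟩

include hF in
theorem finite_residueField (v : Place K F) : Module.Finite K v.ResidueField := by
  rcases exists_prime hF v with ⟨_, w, rfl⟩ | ⟨_, w, rfl⟩
  · exact PlaceEssFinite.finite_residueField w
  · exact PlaceEssFinite.finite_residueField w

include hF in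
theorem essFiniteType (v : Place K F) : Algebra.EssFiniteType K v.toValuationSubring := by
  rcases exists_prime hF v with ⟨_, w, rfl⟩ | ⟨_, w, rfl⟩
  · exact PlaceEssFinite.essFiniteType_ofHeightOneSpectrum w
  · exact PlaceEssFinite.essFiniteType_ofHeightOneSpectrum w

variable [IsAlgClosed K]

include hF in
/-- The residue field of every place is `K`. -/
theorem residue_surjective (v : Place K F) :
    Function.Surjective (algebraMap K v.ResidueField) := by
  rcases exists_prime hF v with ⟨_, w, rfl⟩ | ⟨_, w, rfl⟩
  · exact PlaceEssFinite.residue_surjective w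
  · exact PlaceEssFinite.residue_surjective w

include hF in
/-- **Package FF1, statement 2.** -/
theorem place_deg_eq_one (v : Place K F) : v.deg = 1 := by
  have := finite_residueField hF v
  exact Place.deg_eq_one_of_isAlgClosed_of_finite _

include hF in
/-- **Package FF1, statement 3**: every place has a centre on the `x`-line. -/
theorem exists_center (v : Place K F) :
    v ∈ placesOverInfty K x ∨ ∃ c : K, v ∈ placesOver x c := by
  by_cases hx : x ∈ v.toValuationSubring
  · right
    obtain ⟨c, hc⟩ := PlaceLocal.exists_sub_algebraMap_mem_maximalIdeal v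
      (residue_surjective hF v) ⟨x, hx⟩
    refine ⟨c, ?_⟩
    have hne : (⟨x, hx⟩ - algebraMap K v.toValuationSubring c : v.toValuationSubring) ≠ 0 := by
      intro h0
      have h1 : x - algebraMap K F c = 0 := by
        have := congrArg Subtype.val h0
        simpa using this
      have hx' : x = algebraMap K F c := sub_eq_zero.mp h1
      exact hF.transcendental (hx' ▸ isAlgebraic_algebraMap c)
    have := (PlaceLocal.ord_pos_iff_mem_maximalIdeal v hne).mpr hc
    simpa [placesOver] using this
  · left
    show v.ord x < 0
    by_contra hn
    push Not at hn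
    exact hx (PlaceLocal.mem_of_ord_nonneg v hn)

include hF in
/-- **Package FF3**: `DCoordGenerates` for every place. -/
theorem dCoordGenerates (v : Place K F) : v.DCoordGenerates := by
  have := essFiniteType hF v
  exact LocalDiff.dCoordGenerates _ (residue_surjective hF v)

include hF in
/-- **Package FF3** (given `Nontrivial Ω[F⁄K]`): `ord_v (dx) = ord_v (x - c) - 1` at a place over
`x = c`. -/
theorem ordDifferential_D_of_pos [Nontrivial Ω[F⁄K]] (v : Place K F) (c : K)
    (hv : v ∈ placesOver x c) :
    v.ordDifferential (D K F x) = v.ord (x - algebraMap K F c) - 1 := by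
  have := essFiniteType hF v
  have hpos : 0 < v.ord (x - algebraMap K F c) := hv
  exact LocalDiff.ordDifferential_D v (residue_surjective hF v) x c
    (Int.cast_ne_zero.mpr hpos.ne')

include hF in
/-- **Package FF3** (given `Nontrivial Ω[F⁄K]`): `ord_v (dx) = ord_v x - 1` at a pole of `x`. -/
theorem ordDifferential_D_of_neg [Nontrivial Ω[F⁄K]] (v : Place K F)
    (hv : v ∈ placesOverInfty K x) :
    v.ordDifferential (D K F x) = v.ord x - 1 := by
  have := essFiniteType hF v
  have hneg : v.ord x < 0 := hv
  have h := LocalDiff.ordDifferential_D v (residue_surjective hF v) x 0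
    (by rw [map_zero, sub_zero]; exact Int.cast_ne_zero.mpr hneg.ne)
  rwa [map_zero, sub_zero] at h

end

end Fermat.Agent.S24.FF86
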