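import Fermat.Agent.S24.Defs
import Fermat.Agent.S24.FFPlaces86
import Fermat.Agent.S24.FFGlobal86

/-!
# S24 package FF1a (final deliverable, exact Skeleton statements)

`isPrincipalIdealRing_of_valuationSubring`, `place_deg_eq_one`, `exists_center`.
-/

set_option autoImplicit false
set_option linter.unusedSectionVars false

open AlgebraicCurve KaehlerDifferential IntermediateField

namespace Fermat.Agent.S24

section FF1a

variable {K F : Type*} [Field K] [Field F] [Algebra K F] [IsAlgClosed K] [CharZero K]
variable {x : F} (hF : IsFunctionFieldOver K x)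
include hF

theorem isPrincipalIdealRing_of_valuationSubring (V : ValuationSubring F)
    (hK : ∀ a : K, algebraMap K F a ∈ V) (hV : V ≠ ⊤) : IsPrincipalIdealRing V :=
  FF86.isPrincipalIdealRing_of_valuationSubring hF V hK hV

theorem place_deg_eq_one (v : Place K F) : v.deg = 1 :=
  FF86.place_deg_eq_one hF v

theorem exists_center (v : Place K F) : v ∈ placesOverInfty K x ∨ ∃ c : K, v ∈ placesOver x c :=
  FF86.exists_center hF v

end FF1a

end Fermat.Agent.S24
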