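import Mathlib
import Fermat.Prelude.Def_AlgebraicCurve_CanonicalDivisor

set_option autoImplicit false

open KaehlerDifferential IntermediateField IntermediateField.algebraAdjoinAdjoin AlgebraicCurve

namespace Fermat.Agent.S24.Diff

section Span

variable {K F : Type*} [Field K] [Field F] [Algebra K F]

/-- `Ω[K⟮x⟯⁄K]` is spanned by `D x`. -/
theorem span_D_gen (x : F) :
    Submodule.span K⟮x⟯ {D K K⟮x⟯ (AdjoinSimple.gen K x)} = ⊤ := by
  rw [eq_top_iff, ← span_range_derivation, Submodule.span_le]
  rintro _ ⟨⟨y, hy⟩, rfl⟩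
  induction hy using IntermediateField.adjoin_induction with
  | mem y hy =>
    have : (⟨y, subset_adjoin K {x} hy⟩ : K⟮x⟯) = AdjoinSimple.gen K x := by
      ext; simpa using hy
    rw [this]
    exact Submodule.subset_span rfl
  | algebraMap c =>
    have : (⟨algebraMap K F c, IntermediateField.algebraMap_mem _ _⟩ : K⟮x⟯) = algebraMap K K⟮x⟯ c := rfl
    rw [this, Derivation.map_algebraMap]
    exact Submodule.zero_mem _
  | add a b ha hb iha ihb =>
    have : (⟨a + b, add_mem ha hb⟩ : K⟮x⟯) = ⟨a, ha⟩ + ⟨b, hb⟩ := rfl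
    rw [this, map_add]
    exact Submodule.add_mem _ iha ihb
  | inv a ha iha =>
    have : (⟨a⁻¹, inv_mem ha⟩ : K⟮x⟯) = (⟨a, ha⟩ : K⟮x⟯)⁻¹ := rfl
    rw [this, Derivation.leibniz_inv]
    exact Submodule.smul_mem _ _ iha
  | mul a b ha hb iha ihb =>
    have : (⟨a * b, mul_mem ha hb⟩ : K⟮x⟯) = ⟨a, ha⟩ * ⟨b, hb⟩ := rfl
    rw [this, Derivation.leibniz]
    exact Submodule.add_mem _ (Submodule.smul_mem _ _ ihb) (Submodule.smul_mem _ _ iha)

/-- If `F` is separable algebraic over `K⟮x⟯`, then `Ω[F⁄K]` is spanned by `D x`. -/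
theorem span_D_eq_top_of_isSeparable (x : F) [Algebra.IsSeparable K⟮x⟯ F] :
    Submodule.span F {D K F x} = ⊤ := by
  have : Algebra.FormallyUnramified K⟮x⟯ F := Algebra.FormallyUnramified.of_isSeparable K⟮x⟯ F
  rw [eq_top_iff]
  rintro ω -
  have hker : ω ∈ LinearMap.ker (KaehlerDifferential.map K K⟮x⟯ F F) := by
    rw [LinearMap.mem_ker]; exact Subsingleton.elim _ _
  rw [← KaehlerDifferential.range_mapBaseChange] at hker
  obtain ⟨z, rfl⟩ := hker
  induction z using TensorProduct.induction_on with
  | zero => simp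
  | tmul b m =>
    rw [KaehlerDifferential.mapBaseChange_tmul]
    refine Submodule.smul_mem _ _ ?_
    have hm : m ∈ Submodule.span K⟮x⟯ {D K K⟮x⟯ (AdjoinSimple.gen K x)} := by
      rw [span_D_gen]; trivial
    obtain ⟨c, rfl⟩ := Submodule.mem_span_singleton.mp hm
    rw [map_smul, KaehlerDifferential.map_D]
    have : algebraMap K⟮x⟯ F (AdjoinSimple.gen K x) = x := rfl
    rw [this]
    show (algebraMap K⟮x⟯ F c) • D K F x ∈ _
    exact Submodule.smul_mem _ _ (Submodule.subset_span rfl)
  | add a b ha hb => rw [map_add]; exact Submodule.add_mem _ ha hb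

/-- For `x` transcendental over `K`, `D x ≠ 0` in `Ω[K⟮x⟯⁄K]`. -/
theorem D_gen_ne_zero {x : F} (hx : Transcendental K x) :
    D K K⟮x⟯ (AdjoinSimple.gen K x) ≠ 0 := by
  intro h0
  have htop := span_D_gen (K := K) x
  rw [h0, Submodule.span_zero_singleton] at htop
  have hsub : Subsingleton Ω[K⟮x⟯⁄K] := by
    refine ⟨fun a b => ?_⟩
    have ha : a ∈ (⊥ : Submodule K⟮x⟯ Ω[K⟮x⟯⁄K]) := htop ▸ Submodule.mem_top
    have hb : b ∈ (⊥ : Submodule K⟮x⟯ Ω[K⟮x⟯⁄K]) := htop ▸ Submodule.mem_top
    rw [Submodule.mem_bot] at ha hb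
    rw [ha, hb]
  have hunr : Algebra.FormallyUnramified K K⟮x⟯ := ⟨hsub⟩
  have hfg : Algebra.EssFiniteType K K⟮x⟯ :=
    IntermediateField.essFiniteType_iff.mpr ⟨{x}, by simp⟩
  have hsep : Algebra.IsSeparable K K⟮x⟯ :=
    (Algebra.FormallyUnramified.iff_isSeparable (K := K) K⟮x⟯).mp hunr
  have halg : IsAlgebraic K (AdjoinSimple.gen K x) :=
    (Algebra.IsSeparable.isIntegral K (AdjoinSimple.gen K x)).isAlgebraic
  apply hx
  have := halg.algebraMap (A := F)
  simpa using this

/-- For `x` transcendental over `K` and `F` separable algebraic over `K⟮x⟯`,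
`D x ≠ 0` in `Ω[F⁄K]`. -/
theorem D_ne_zero_of_transcendental {x : F} (hx : Transcendental K x)
    [Algebra.IsSeparable K⟮x⟯ F] : D K F x ≠ 0 := by
  have hét : Algebra.FormallyEtale K⟮x⟯ F := Algebra.FormallyEtale.of_isSeparable K⟮x⟯ F
  intro h0
  apply D_gen_ne_zero hx
  have h1 : (KaehlerDifferential.tensorKaehlerEquivOfFormallyEtale K K⟮x⟯ F)
      ((1 : F) ⊗ₜ[K⟮x⟯] D K K⟮x⟯ (AdjoinSimple.gen K x)) = 0 := by
    rw [KaehlerDifferential.tensorKaehlerEquivOfFormallyEtale_apply,
      KaehlerDifferential.mapBaseChange_tmul, one_smul, KaehlerDifferential.map_D]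
    exact h0
  have h2 : (1 : F) ⊗ₜ[K⟮x⟯] D K K⟮x⟯ (AdjoinSimple.gen K x) = 0 :=
    (LinearEquiv.map_eq_zero_iff _).mp h1
  have hinj := Module.Flat.tensorProduct_mk_injective (R := K⟮x⟯) (S := F) (M := Ω[K⟮x⟯⁄K])
  apply hinj
  simpa using h2

end Span

section Exchange

variable {K F : Type*} [Field K] [Field F] [Algebra K F]

/-- Transcendence degree one: if `F` is algebraic over `K⟮x⟯` and `t` is transcendental over `K`
then `F` is algebraic over `K⟮t⟯`. -/
theorem isAlgebraic_adjoin_of_transcendental {x t : F}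
    [halg : Algebra.IsAlgebraic K⟮x⟯ F] (ht : Transcendental K t) :
    Algebra.IsAlgebraic K⟮t⟯ F := by
  have h1 : Algebra.IsAlgebraic (Algebra.adjoin K {x}) F :=
    (IsFractionRing.comap_isAlgebraic_iff (A := Algebra.adjoin K {x}) (K := K⟮x⟯) (C := F)).mpr halg
  have h2 : Algebra.trdeg K F ≤ Cardinal.mk ({x} : Set F) :=
    Algebra.IsAlgebraic.trdeg_le_cardinalMk K {x}
  have h3 : AlgebraicIndependent K (fun _ : PUnit => t) := by
    rw [algebraicIndependent_unique_type_iff]
    exact ht
  have h4 : IsTranscendenceBasis K (fun _ : PUnit => t) := by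
    apply h3.isTranscendenceBasis_of_trdeg_le_of_finite
    refine h2.trans ?_
    simp
  have h5 := h4.isAlgebraic_field
  have : Set.range (fun _ : PUnit => t) = {t} := by
    ext; simp
  rwa [this] at h5

/-- In characteristic zero, algebraic over `K⟮x⟯` implies separable over `K⟮x⟯`. -/
theorem isSeparable_of_isAlgebraic [CharZero K] (x : F) [Algebra.IsAlgebraic K⟮x⟯ F] :
    Algebra.IsSeparable K⟮x⟯ F := by
  have : CharZero K⟮x⟯ := charZero_of_injective_algebraMap (algebraMap K K⟮x⟯).injective
  infer_instance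

/-- **(A4a)** For a function field of one variable in characteristic zero, `Ω[F⁄K]` is spanned by
`D t` for every `t` transcendental over `K`. -/
theorem span_D_eq_top [CharZero K] {x : F} [Algebra.IsAlgebraic K⟮x⟯ F] {t : F}
    (ht : Transcendental K t) : Submodule.span F {D K F t} = ⊤ := by
  have := isAlgebraic_adjoin_of_transcendental (K := K) (x := x) ht
  have := isSeparable_of_isAlgebraic (K := K) t
  exact span_D_eq_top_of_isSeparable t

/-- **(A4a)** `D t ≠ 0` for every `t` transcendental over `K`. -/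
theorem D_ne_zero [CharZero K] {x : F} [Algebra.IsAlgebraic K⟮x⟯ F] {t : F}
    (ht : Transcendental K t) : D K F t ≠ 0 := by
  have := isAlgebraic_adjoin_of_transcendental (K := K) (x := x) ht
  have := isSeparable_of_isAlgebraic (K := K) t
  exact D_ne_zero_of_transcendental ht

/-- **(A4a)** `Ω[F⁄K]` is nontrivial. -/
theorem nontrivial_kaehler [CharZero K] {x : F} (hx : Transcendental K x)
    [Algebra.IsAlgebraic K⟮x⟯ F] : Nontrivial Ω[F⁄K] :=
  ⟨⟨D K F x, 0, D_ne_zero (x := x) hx⟩⟩

/-- **(A4a)** `Ω[F⁄K]` has dimension one over `F`. -/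
theorem finrank_kaehler_eq_one [CharZero K] {x : F} (hx : Transcendental K x)
    [Algebra.IsAlgebraic K⟮x⟯ F] : Module.finrank F Ω[F⁄K] = 1 := by
  rw [finrank_eq_one_iff_of_nonzero' (D K F x) (D_ne_zero (x := x) hx)]
  intro w
  have hw : w ∈ Submodule.span F {D K F x} := by
    rw [span_D_eq_top (x := x) hx]; trivial
  exact Submodule.mem_span_singleton.mp hw

end Exchange

section Places

variable {K F : Type*} [Field K] [Field F] [Algebra K F]

/-- The valuation ring of a place, as a `K`-subalgebra of `F`. -/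
def placeSubalgebra (v : Place K F) : Subalgebra K F :=
  { v.toValuationSubring.toSubring.toSubsemiring with
    algebraMap_mem' := v.algebraMap_mem' }

theorem mem_placeSubalgebra (v : Place K F) (a : F) :
    a ∈ placeSubalgebra v ↔ a ∈ v.toValuationSubring := Iff.rfl

/-- Constants have order zero at every place. -/
theorem ord_algebraMap (v : Place K F) (c : K) : v.ord (algebraMap K F c) = 0 := by
  rcases eq_or_ne c 0 with rfl | hc
  · simp
  have h1 : algebraMap K F c ∈ v.toValuationSubring := v.algebraMap_mem' c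
  have h2 : algebraMap K F c⁻¹ ∈ v.toValuationSubring := v.algebraMap_mem' c⁻¹
  have hu : IsUnit (⟨algebraMap K F c, h1⟩ : v.toValuationSubring) := by
    refine IsUnit.of_mul_eq_one ⟨algebraMap K F c⁻¹, h2⟩ ?_
    ext
    simp [hc]
  simpa using v.ord_coe_unit hu.unit

theorem ord_neg (v : Place K F) (a : F) : v.ord (-a) = v.ord a := by
  rcases eq_or_ne a 0 with rfl | ha
  · simp
  have h : -a = algebraMap K F (-1) * a := by simp
  rw [h, v.ord_mul (by simp) ha, ord_algebraMap, zero_add]

theorem ord_pow (v : Place K F) (a : F) (n : ℕ) : v.ord (a ^ n) = n * v.ord a := by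
  have := v.ord_zpow a (n : ℤ)
  rwa [zpow_natCast] at this

/-- An element of `F` of nonzero order is transcendental over `K`. -/
theorem transcendental_of_ord_ne_zero (v : Place K F) {a : F} (ha : v.ord a ≠ 0) :
    Transcendental K a := by
  intro halg
  have ha0 : a ≠ 0 := by
    rintro rfl; simp at ha
  wlog hmem : a ∈ v.toValuationSubring generalizing a
  · have hinv : a⁻¹ ∈ v.toValuationSubring :=
      (v.toValuationSubring.mem_or_inv_mem a).resolve_left hmem
    refine this (a := a⁻¹) ?_ halg.inv (inv_ne_zero ha0) hinv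
    rw [v.ord_inv]; simpa using ha
  have hint : IsIntegral K a := halg.isIntegral
  have hinv : a⁻¹ ∈ Algebra.adjoin K {a} := hint.inv_mem_adjoin
  have hle : Algebra.adjoin K {a} ≤ placeSubalgebra v :=
    Algebra.adjoin_le (by simpa [mem_placeSubalgebra] using hmem)
  have hinv' : a⁻¹ ∈ v.toValuationSubring := hle hinv
  have hu : IsUnit (⟨a, hmem⟩ : v.toValuationSubring) := by
    refine IsUnit.of_mul_eq_one ⟨a⁻¹, hinv'⟩ ?_
    ext
    simp [ha0]
  apply ha
  simpa using v.ord_coe_unit hu.unit

/-- The irreducible element of `O_v` underlying `Place.dCoord` (the Prelude's private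
`uniformizer`). -/
noncomputable def unif (v : Place K F) : v.toValuationSubring :=
  (IsDiscreteValuationRing.exists_irreducible v.toValuationSubring).choose

theorem unif_irreducible (v : Place K F) : Irreducible (unif v) :=
  (IsDiscreteValuationRing.exists_irreducible v.toValuationSubring).choose_spec

theorem dCoord_eq (v : Place K F) : v.dCoord = D K F (unif v : F) := rfl

theorem ord_unif (v : Place K F) : v.ord (unif v : F) = 1 :=
  v.ord_coe_irreducible (unif_irreducible v)

theorem transcendental_unif (v : Place K F) : Transcendental K (unif v : F) :=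
  transcendental_of_ord_ne_zero v (by rw [ord_unif]; exact one_ne_zero)

/-- **(A4b)** Every place of a function field of one variable in characteristic zero satisfies
`DCoordGenerates`. -/
theorem dCoordGenerates [CharZero K] {x : F} [Algebra.IsAlgebraic K⟮x⟯ F] (v : Place K F) :
    v.DCoordGenerates :=
  ⟨by rw [dCoord_eq]; exact span_D_eq_top (x := x) (transcendental_unif v)⟩

theorem differentialCoeff_ne_zero (v : Place K F) [v.DCoordGenerates] [Nontrivial Ω[F⁄K]]
    {ω : Ω[F⁄K]} (hω : ω ≠ 0) : v.differentialCoeff ω ≠ 0 := by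
  intro h
  apply hω
  rw [← v.differentialCoeff_smul_dCoord ω, h, zero_smul]

/-- **(A5c)** Unconditional additivity of `ordDifferential`. -/
theorem ordDifferential_smul' (v : Place K F) [v.DCoordGenerates] [Nontrivial Ω[F⁄K]]
    {f : F} (hf : f ≠ 0) {ω : Ω[F⁄K]} (hω : ω ≠ 0) :
    v.ordDifferential (f • ω) = v.ord f + v.ordDifferential ω :=
  v.ordDifferential_smul hf (differentialCoeff_ne_zero v hω)

end Places

section Nakayama

variable {K : Type*} [Field K]

/-- Nakayama: for a DVR `O` over `K` with residue field `K` and finite `Ω[O⁄K]`,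
`Ω[O⁄K]` is generated by `D t` for any uniformizer `t`. -/
theorem span_D_irreducible_eq_top {O : Type*} [CommRing O] [IsDomain O]
    [IsDiscreteValuationRing O] [Algebra K O] [Module.Finite O Ω[O⁄K]]
    (hres : ∀ a : O, ∃ c : K, a - algebraMap K O c ∈ IsLocalRing.maximalIdeal O)
    {t : O} (ht : Irreducible t) :
    Submodule.span O {D K O t} = ⊤ := by
  rw [eq_top_iff]
  refine Submodule.le_of_le_smul_of_le_jacobson_bot (I := IsLocalRing.maximalIdeal O)
    (Module.finite_def.mp inferInstance)
    (IsLocalRing.jacobson_eq_maximalIdeal _ bot_ne_top).ge ?_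
  rw [← span_range_derivation, Submodule.span_le]
  rintro _ ⟨a, rfl⟩
  obtain ⟨c, hc⟩ := hres a
  rw [ht.maximalIdeal_eq, Ideal.mem_span_singleton'] at hc
  obtain ⟨b, hb⟩ := hc
  have ha : a = algebraMap K O c + b * t := by rw [hb]; ring
  have hD : D K O a = b • D K O t + t • D K O b := by
    rw [ha, map_add, Derivation.map_algebraMap, zero_add, Derivation.leibniz]
  rw [hD]
  refine Submodule.add_mem_sup (Submodule.smul_mem _ _ (Submodule.subset_span rfl)) ?_
  refine Submodule.smul_mem_smul ?_ (by rw [span_range_derivation]; trivial)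
  rw [ht.maximalIdeal_eq]
  exact Ideal.mem_span_singleton_self t

variable {F : Type*} [Field F] [Algebra K F]

/-- The residue field of a place is `K`: every element of `O_v` is congruent to a constant. -/
def ResidueIsBase (v : Place K F) : Prop :=
  ∀ a : v.toValuationSubring, ∃ c : K,
    a - algebraMap K v.toValuationSubring c ∈ IsLocalRing.maximalIdeal v.toValuationSubring

/-- `deg v = 1` implies that the residue field is `K`. -/
theorem residueIsBase_of_deg_eq_one (v : Place K F) (h : v.deg = 1) : ResidueIsBase v := by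
  intro a
  have h1 : Module.finrank K v.ResidueField = 1 := h
  obtain ⟨c, hc⟩ := (finrank_eq_one_iff_of_nonzero' (1 : v.ResidueField) one_ne_zero).mp h1
    (IsLocalRing.residue _ a)
  refine ⟨c, ?_⟩
  rw [← IsLocalRing.residue_eq_zero_iff, map_sub, sub_eq_zero, ← hc, Algebra.smul_def, mul_one]
  rfl

/-- Integrality of differentials at `v`: `D(O_v) ⊆ O_v • dCoord`. -/
def IntegralDifferentials (v : Place K F) : Prop :=
  ∀ a : v.toValuationSubring, ∃ b : v.toValuationSubring, D K F (a : F) = (b : F) • v.dCoord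

/-- **(A5a)** If the residue field of `v` is `K` and `Ω[O_v⁄K]` is a finite `O_v`-module
(e.g. `O_v` essentially of finite type over `K`), then `D(O_v) ⊆ O_v • D t` for every
uniformizer `t`. -/
theorem exists_D_eq_smul_D (v : Place K F)
    [Module.Finite v.toValuationSubring Ω[v.toValuationSubring⁄K]]
    (hres : ResidueIsBase v) {t : v.toValuationSubring} (ht : Irreducible t)
    (a : v.toValuationSubring) :
    ∃ b : v.toValuationSubring, D K F (a : F) = (b : F) • D K F (t : F) := by
  have h := span_D_irreducible_eq_top (K := K) hres ht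
  have ha : D K v.toValuationSubring a ∈ Submodule.span v.toValuationSubring
      {D K v.toValuationSubring t} := by rw [h]; trivial
  obtain ⟨b, hb⟩ := Submodule.mem_span_singleton.mp ha
  refine ⟨b, ?_⟩
  have := congrArg (KaehlerDifferential.map K K v.toValuationSubring F) hb
  rw [map_smul, KaehlerDifferential.map_D, KaehlerDifferential.map_D] at this
  exact this.symm

/-- **(A5a)** packaged. -/
theorem integralDifferentials (v : Place K F)
    [Module.Finite v.toValuationSubring Ω[v.toValuationSubring⁄K]]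
    (hres : ResidueIsBase v) : IntegralDifferentials v :=
  fun a => exists_D_eq_smul_D v hres (unif_irreducible v) a

/-- **(A5a)** from essential finite type. -/
theorem integralDifferentials_of_essFiniteType (v : Place K F)
    [Algebra.EssFiniteType K v.toValuationSubring]
    (hres : ResidueIsBase v) : IntegralDifferentials v :=
  integralDifferentials v hres

end Nakayama

section OrdD

variable {K F : Type*} [Field K] [Field F] [Algebra K F] [CharZero K]

/-- Core computation: if `ord_v (y - c) = e ≥ 1` then `D y = f • dCoord` with `ord_v f = e - 1`. -/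
theorem differentialCoeff_D_of_ord_pos (v : Place K F) [v.DCoordGenerates] [Nontrivial Ω[F⁄K]]
    (hO : IntegralDifferentials v) {y : F} (c : K)
    (hpos : 0 < v.ord (y - algebraMap K F c)) :
    v.ord (v.differentialCoeff (D K F y)) = v.ord (y - algebraMap K F c) - 1 ∧
      v.differentialCoeff (D K F y) ≠ 0 := by
  set z := y - algebraMap K F c with hz
  have hz0 : z ≠ 0 := by
    intro h; rw [h, v.ord_zero] at hpos; exact lt_irrefl _ hpos
  have hirr := unif_irreducible v
  set t := unif v with ht
  obtain ⟨u, hu⟩ := v.exists_unit_mul_zpow hz0 hirr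
  obtain ⟨n, hn⟩ : ∃ n : ℕ, v.ord z = (n : ℤ) + 1 :=
    ⟨(v.ord z - 1).toNat, by omega⟩
  rw [hn] at hu ⊢
  have htpow : ((t : F)) ^ ((n : ℤ) + 1) = (t : F) ^ (n + 1) := by
    rw [← Nat.cast_succ, zpow_natCast]
  rw [htpow] at hu
  obtain ⟨b, hb⟩ := hO (u : v.toValuationSubring)
  have hDy : D K F y = D K F z := by
    rw [hz, map_sub, Derivation.map_algebraMap, sub_zero]
  have hn1 : ((n : K) + 1) ≠ 0 := by exact_mod_cast Nat.succ_ne_zero n
  let w : v.toValuationSubring :=
    algebraMap K v.toValuationSubring ((n : K) + 1) * (u : v.toValuationSubring) + t * b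
  have hwunit : IsUnit w := by
    by_contra hw
    have hw' : w ∈ IsLocalRing.maximalIdeal v.toValuationSubring := hw
    have htb : t * b ∈ IsLocalRing.maximalIdeal v.toValuationSubring :=
      Ideal.mul_mem_right _ _ hirr.not_isUnit
    have h1 : algebraMap K v.toValuationSubring ((n : K) + 1) * (u : v.toValuationSubring)
        ∈ IsLocalRing.maximalIdeal v.toValuationSubring := by
      have := Ideal.sub_mem _ hw' htb
      simpa [w] using this
    have h2 : IsUnit (algebraMap K v.toValuationSubring ((n : K) + 1)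
        * (u : v.toValuationSubring)) :=
      ((IsUnit.mk0 _ hn1).map (algebraMap K v.toValuationSubring)).mul u.isUnit
    exact h1 h2
  have hd : v.dCoord = D K F (t : F) := rfl
  have e1 : D K F ((t : F) ^ (n + 1)) = (((n : F) + 1) * (t : F) ^ n) • D K F (t : F) := by
    rw [Derivation.leibniz_pow, Nat.add_sub_cancel, ← Nat.cast_smul_eq_nsmul F, smul_smul]
    push_cast
    rfl
  have hwF : (w : F) = ((n : F) + 1) * ((u : v.toValuationSubring) : F) + (t : F) * (b : F) := by
    simp [w]
  have hcoeff : D K F y = ((w : F) * (t : F) ^ (n : ℤ)) • v.dCoord := by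
    rw [hDy, hu, Derivation.leibniz, e1, hb, hd, smul_smul, smul_smul, ← add_smul, hwF,
      zpow_natCast]
    congr 1
    ring
  have hcu := v.differentialCoeff_unique hcoeff
  rw [hcu]
  refine ⟨?_, ?_⟩
  · have := v.ord_unit_smul_zpow hwunit.unit hirr (n : ℤ)
    rw [IsUnit.unit_spec] at this
    rw [this]; ring
  · refine mul_ne_zero ?_ (zpow_ne_zero _ ?_)
    · simpa using hwunit.ne_zero
    · simpa using hirr.ne_zero

/-- **(A5b)** zeros: if `ord_v (y - c) = e ≥ 1` then `ord_v (dy) = e - 1`. -/
theorem ordDifferential_D_of_ord_pos (v : Place K F) [v.DCoordGenerates] [Nontrivial Ω[F⁄K]]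
    (hO : IntegralDifferentials v) {y : F} (c : K)
    (hpos : 0 < v.ord (y - algebraMap K F c)) :
    v.ordDifferential (D K F y) = v.ord (y - algebraMap K F c) - 1 :=
  (differentialCoeff_D_of_ord_pos v hO c hpos).1

/-- **(A5b)** unramified points: if `ord_v (y - c) = 1` then `ord_v (dy) = 0`. -/
theorem ordDifferential_D_of_ord_eq_one (v : Place K F) [v.DCoordGenerates] [Nontrivial Ω[F⁄K]]
    (hO : IntegralDifferentials v) {y : F} (c : K)
    (h1 : v.ord (y - algebraMap K F c) = 1) :
    v.ordDifferential (D K F y) = 0 := by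
  rw [ordDifferential_D_of_ord_pos v hO c (by rw [h1]; exact one_pos), h1, sub_self]

/-- **(A5b)** poles: if `ord_v y = -e < 0` then `ord_v (dy) = -e - 1`. -/
theorem ordDifferential_D_of_ord_neg (v : Place K F) [v.DCoordGenerates] [Nontrivial Ω[F⁄K]]
    (hO : IntegralDifferentials v) {y : F} (hneg : v.ord y < 0) :
    v.ordDifferential (D K F y) = v.ord y - 1 := by
  have hy0 : y ≠ 0 := by
    rintro rfl; simp at hneg
  have hz : 0 < v.ord (y⁻¹ - algebraMap K F 0) := by
    rw [map_zero, sub_zero, v.ord_inv]; omega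
  obtain ⟨h1, h2⟩ := differentialCoeff_D_of_ord_pos v hO (y := y⁻¹) 0 hz
  rw [map_zero, sub_zero, v.ord_inv] at h1
  have hD : D K F y = (-(y ^ 2)) • D K F y⁻¹ := by
    rw [Derivation.leibniz_inv, smul_smul]
    have : -y ^ 2 * -y⁻¹ ^ 2 = 1 := by field_simp
    rw [this, one_smul]
  rw [hD, v.ordDifferential_smul (neg_ne_zero.mpr (pow_ne_zero 2 hy0)) h2,
    Place.ordDifferential, h1, ord_neg, ord_pow]
  push_cast
  ring

end OrdD

end Fermat.Agent.S24.Diff
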