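import Fermat.Agent.S24.Defs
import Fermat.Agent.S24.FFGlobal86
import Fermat.Agent.S24.Differentials

/-!
# S24 package FF3 (all five statements, exact Skeleton statements) — helper86 glue

`span_D_eq_top`, `D_ne_zero` from `Differentials.lean` (helper40);
`dCoordGenerates`, `ordDifferential_D_of_pos`, `ordDifferential_D_of_neg` from `FFGlobal86.lean`
(which uses `LocalDiff.lean` + `PlaceEssFinite.lean` of helper14 and `PlaceDedekind.lean`).
-/

set_option autoImplicit false
set_option linter.unusedSectionVars false

open AlgebraicCurve KaehlerDifferential IntermediateField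

namespace Fermat.Agent.S24

section FF3

variable {K F : Type*} [Field K] [Field F] [Algebra K F] [IsAlgClosed K] [CharZero K]
variable {x : F} (hF : IsFunctionFieldOver K x)
include hF

theorem span_D_eq_top : Submodule.span F {D K F x} = ⊤ := by
  have := hF.finite
  exact Diff.span_D_eq_top (K := K) (x := x) hF.transcendental

theorem D_ne_zero : D K F x ≠ 0 := by
  have := hF.finite
  exact Diff.D_ne_zero (K := K) (x := x) hF.transcendental

theorem dCoordGenerates (v : Place K F) : v.DCoordGenerates :=
  FF86.dCoordGenerates hF v

theorem ordDifferential_D_of_pos (v : Place K F) (c : K) (hv : v ∈ placesOver x c) :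
    v.ordDifferential (D K F x) = v.ord (x - algebraMap K F c) - 1 := by
  have := hF.finite
  have : Nontrivial Ω[F⁄K] := Diff.nontrivial_kaehler (K := K) (x := x) hF.transcendental
  exact FF86.ordDifferential_D_of_pos hF v c hv

theorem ordDifferential_D_of_neg (v : Place K F) (hv : v ∈ placesOverInfty K x) :
    v.ordDifferential (D K F x) = v.ord x - 1 := by
  have := hF.finite
  have : Nontrivial Ω[F⁄K] := Diff.nontrivial_kaehler (K := K) (x := x) hF.transcendental
  exact FF86.ordDifferential_D_of_neg hF v hv

end FF3

end Fermat.Agent.S24
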