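import Mathlib
import Fermat.Prelude.Def_AlgebraicCurve_DivisorClassGroup

set_option autoImplicit false
set_option linter.unusedSectionVars false
set_option linter.style.haveILetI false

open IsDedekindDomain AlgebraicCurve

namespace Fermat.Agent.S24.H30Places

section part1

variable {K F : Type*} [Field K] [Field F] [Algebra K F]
variable (B : Type*) [CommRing B] [IsDedekindDomain B] [Algebra K B] [Algebra B F]
  [IsScalarTower K B F] [IsFractionRing B F]

/-- the valuation subring of a height-one prime is a PID. -/
theorem isPrincipalIdealRing_valuationSubring (P : HeightOneSpectrum B) :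
    IsPrincipalIdealRing (P.valuation F).valuationSubring := by
  rw [← HeightOneSpectrum.valuationSubringAtPrime_eq_valuationSubring]
  haveI : IsDiscreteValuationRing (HeightOneSpectrum.valuationSubringAtPrime F P) :=
    IsLocalization.AtPrime.isDiscreteValuationRing_of_dedekind_domain B P.ne_bot
      (HeightOneSpectrum.valuationSubringAtPrime F P)
  infer_instance

/-- The place attached to a height-one prime of a Dedekind `K`-algebra with fraction field `F`. -/
noncomputable def placeOfPrime (P : HeightOneSpectrum B) : Place K F where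
  toValuationSubring := (P.valuation F).valuationSubring
  algebraMap_mem' a := by
    rw [Valuation.mem_valuationSubring_iff, IsScalarTower.algebraMap_apply K B F]
    exact P.valuation_le_one _
  ne_top' := by
    simp only [ne_eq, Valuation.valuationSubring_eq_top_iff, not_not]; infer_instance
  isPrincipalIdealRing' := isPrincipalIdealRing_valuationSubring B P


end part1

section part2

variable {K F : Type*} [Field K] [Field F] [Algebra K F]
variable {B : Type*} [CommRing B] [IsDedekindDomain B] [Algebra K B] [Algebra B F]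
  [IsScalarTower K B F] [IsFractionRing B F]

/-- `B → O_v` for a place whose valuation ring contains (the image of) `B`. -/
noncomputable def toValSubringHom (v : Place K F)
    (h : ∀ b : B, algebraMap B F b ∈ v.toValuationSubring) : B →+* v.toValuationSubring :=
  (algebraMap B F).codRestrict v.toValuationSubring.toSubring h

@[simp] theorem coe_toValSubringHom (v : Place K F)
    (h : ∀ b : B, algebraMap B F b ∈ v.toValuationSubring) (b : B) :
    ((toValSubringHom v h b : v.toValuationSubring) : F) = algebraMap B F b := rfl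

theorem inv_mem_of_not_mem_comap (v : Place K F)
    (h : ∀ b : B, algebraMap B F b ∈ v.toValuationSubring) {d : B}
    (hd : d ∉ (IsLocalRing.maximalIdeal v.toValuationSubring).comap (toValSubringHom v h)) :
    (algebraMap B F d)⁻¹ ∈ v.toValuationSubring := by
  have hu : IsUnit (toValSubringHom v h d) := by
    by_contra hnu
    exact hd ((IsLocalRing.mem_maximalIdeal _).mpr hnu)
  obtain ⟨u, hu'⟩ := hu.exists_right_inv
  have h1 : algebraMap B F d * (u : F) = 1 := by
    have := congrArg (Subtype.val) hu'
    simpa using this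
  have : (algebraMap B F d)⁻¹ = (u : F) := (eq_inv_of_mul_eq_one_right h1).symm
  rw [this]; exact u.2

/-- The height-one prime of `B` cut out by a place whose valuation ring contains `B`. -/
noncomputable def primeOfPlace (v : Place K F)
    (h : ∀ b : B, algebraMap B F b ∈ v.toValuationSubring) : HeightOneSpectrum B where
  asIdeal := (IsLocalRing.maximalIdeal v.toValuationSubring).comap (toValSubringHom v h)
  isPrime := Ideal.comap_isPrime _ _
  ne_bot := by
    intro hbot
    apply v.ne_top'
    refine SetLike.ext fun f => ⟨fun _ => ValuationSubring.mem_top f, fun _ => ?_⟩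
    obtain ⟨a, b, hb, rfl⟩ := IsFractionRing.div_surjective (A := B) f
    have hb0 : b ≠ 0 := nonZeroDivisors.ne_zero hb
    have hbP : b ∉ (IsLocalRing.maximalIdeal v.toValuationSubring).comap (toValSubringHom v h) := by
      rw [hbot]; simpa using hb0
    rw [div_eq_mul_inv]
    exact v.toValuationSubring.mul_mem _ _ (h a) (inv_mem_of_not_mem_comap v h hbP)

theorem mem_primeOfPlace_iff (v : Place K F)
    (h : ∀ b : B, algebraMap B F b ∈ v.toValuationSubring) (b : B) :
    b ∈ (primeOfPlace v h).asIdeal ↔
      toValSubringHom v h b ∈ IsLocalRing.maximalIdeal v.toValuationSubring := Iff.rfl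

section compare

variable (v : Place K F) (h : ∀ b : B, algebraMap B F b ∈ v.toValuationSubring)

theorem adicValuation_le_one_of_mem {f : F} (hf : f ∈ v.toValuationSubring) :
    v.adicValuation f ≤ 1 := by
  have := v.adicValuation_coe ⟨f, hf⟩
  rw [show ((⟨f, hf⟩ : v.toValuationSubring) : F) = f from rfl] at this
  rw [this]
  exact HeightOneSpectrum.intValuation_le_one _ _

theorem adicValuation_lt_one_of_mem {f : F} (hf : f ∈ v.toValuationSubring)
    (hm : (⟨f, hf⟩ : v.toValuationSubring) ∈ IsLocalRing.maximalIdeal v.toValuationSubring) :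
    v.adicValuation f < 1 := by
  have := v.adicValuation_coe ⟨f, hf⟩
  rw [show ((⟨f, hf⟩ : v.toValuationSubring) : F) = f from rfl] at this
  rw [this, HeightOneSpectrum.intValuation_lt_one_iff_mem]
  exact hm

theorem mem_of_valuation_le_one {f : F} (hf : (primeOfPlace v h).valuation F f ≤ 1) :
    f ∈ v.toValuationSubring := by
  obtain ⟨n, d, hnd⟩ := (primeOfPlace v h).exists_primeCompl_mul_eq_of_integer f hf
  have hd : (d : B) ∉ (primeOfPlace v h).asIdeal := d.2
  have hd0 : algebraMap B F (d : B) ≠ 0 := by
    intro h0
    apply hd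
    have : (d : B) = 0 := (IsFractionRing.injective B F) (by rw [h0, map_zero])
    rw [this]; exact Ideal.zero_mem _
  have hf' : f = algebraMap B F n * (algebraMap B F (d : B))⁻¹ := by
    rw [← hnd]; field_simp
  rw [hf']
  exact v.toValuationSubring.mul_mem _ _ (h n) (inv_mem_of_not_mem_comap v h hd)

theorem adicValuation_lt_one_of_valuation_lt_one {f : F}
    (hf : (primeOfPlace v h).valuation F f < 1) : v.adicValuation f < 1 := by
  obtain ⟨n, d, hnd⟩ := (primeOfPlace v h).exists_primeCompl_mul_eq_of_integer f hf.le
  have hd : (d : B) ∉ (primeOfPlace v h).asIdeal := d.2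
  have hd0 : algebraMap B F (d : B) ≠ 0 := by
    intro h0
    apply hd
    have : (d : B) = 0 := (IsFractionRing.injective B F) (by rw [h0, map_zero])
    rw [this]; exact Ideal.zero_mem _
  have hf' : f = algebraMap B F n * (algebraMap B F (d : B))⁻¹ := by
    rw [← hnd]; field_simp
  have hn : n ∈ (primeOfPlace v h).asIdeal := by
    rw [← HeightOneSpectrum.valuation_lt_one_iff_mem (K := F)]
    show (primeOfPlace v h).valuation F (algebraMap B F n) < 1
    rw [← hnd, map_mul]
    calc (primeOfPlace v h).valuation F f * (primeOfPlace v h).valuation F (algebraMap B F d)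
        ≤ (primeOfPlace v h).valuation F f * 1 := by
          gcongr
          exact (primeOfPlace v h).valuation_le_one _
      _ < 1 := by rwa [mul_one]
  have hdinv := inv_mem_of_not_mem_comap v h hd
  have hmem : f ∈ v.toValuationSubring := by
    rw [hf']; exact v.toValuationSubring.mul_mem _ _ (h n) hdinv
  refine adicValuation_lt_one_of_mem v hmem ?_
  have : (⟨f, hmem⟩ : v.toValuationSubring) =
      toValSubringHom v h n * ⟨(algebraMap B F (d : B))⁻¹, hdinv⟩ := by
    apply Subtype.ext
    simp [hf']
  rw [this]
  exact Ideal.mul_mem_right _ _ ((mem_primeOfPlace_iff v h n).mp hn)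

theorem adicValuation_eq_one_of_valuation_eq_one {f : F}
    (hf : (primeOfPlace v h).valuation F f = 1) : v.adicValuation f = 1 := by
  have hf0 : f ≠ 0 := by
    rintro rfl
    simp at hf
  have h1 : v.adicValuation f ≤ 1 :=
    adicValuation_le_one_of_mem v (mem_of_valuation_le_one v h hf.le)
  have h2 : v.adicValuation f⁻¹ ≤ 1 :=
    adicValuation_le_one_of_mem v (mem_of_valuation_le_one v h (by rw [map_inv₀, hf, inv_one]))
  rw [map_inv₀] at h2
  have hne : v.adicValuation f ≠ 0 := v.adicValuation_ne_zero hf0
  have h3 : 1 ≤ v.adicValuation f := by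
    have := (inv_le_one₀ (zero_lt_iff.mpr hne)).mp h2
    exact this
  exact le_antisymm h1 h3

/-- **Key comparison**: the adic valuation of the place `v` coincides with the `P`-adic valuation
of the Dedekind domain `B`, where `P = m_v ∩ B`. -/
theorem adicValuation_eq (f : F) :
    v.adicValuation f = (primeOfPlace v h).valuation F f := by
  classical
  rcases eq_or_ne f 0 with rfl | hf0
  · simp
  obtain ⟨π, hπ⟩ := (primeOfPlace v h).valuation_exists_uniformizer F
  obtain ⟨ϖ, hϖ⟩ := v.heightOneSpectrum.valuation_exists_uniformizer F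
  have hπ0 : π ≠ 0 := by
    rintro rfl
    rw [map_zero] at hπ
    exact WithZero.exp_ne_zero hπ.symm
  have hϖ0 : ϖ ≠ 0 := by
    rintro rfl
    rw [map_zero] at hϖ
    exact WithZero.exp_ne_zero hϖ.symm
  -- additive versions
  set a₁ : F → ℤ := fun g => WithZero.log (v.adicValuation g) with ha₁
  set a₂ : F → ℤ := fun g => WithZero.log ((primeOfPlace v h).valuation F g) with ha₂
  have hw₂ne : ∀ g : F, g ≠ 0 → (primeOfPlace v h).valuation F g ≠ 0 :=
    fun g hg => (Valuation.ne_zero_iff _).mpr hg
  have a₁_mul : ∀ g g' : F, g ≠ 0 → g' ≠ 0 → a₁ (g * g') = a₁ g + a₁ g' := by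
    intro g g' hg hg'
    simp only [ha₁, map_mul]
    exact WithZero.log_mul (v.adicValuation_ne_zero hg) (v.adicValuation_ne_zero hg')
  have a₂_mul : ∀ g g' : F, g ≠ 0 → g' ≠ 0 → a₂ (g * g') = a₂ g + a₂ g' := by
    intro g g' hg hg'
    simp only [ha₂, map_mul]
    exact WithZero.log_mul (hw₂ne g hg) (hw₂ne g' hg')
  have a₁_zpow : ∀ (g : F) (k : ℤ), a₁ (g ^ k) = k * a₁ g := by
    intro g k
    simp only [ha₁, map_zpow₀, WithZero.log_zpow, smul_eq_mul]
  have a₂_zpow : ∀ (g : F) (k : ℤ), a₂ (g ^ k) = k * a₂ g := by
    intro g k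
    simp only [ha₂, map_zpow₀, WithZero.log_zpow, smul_eq_mul]
  have a₂π : a₂ π = -1 := by simp only [ha₂, hπ, WithZero.log_exp]
  have a₁ϖ : a₁ ϖ = -1 := by
    simp only [ha₁]
    show WithZero.log (v.heightOneSpectrum.valuation F ϖ) = -1
    rw [hϖ, WithZero.log_exp]
  have key0 : ∀ g : F, g ≠ 0 → a₂ g = 0 → a₁ g = 0 := by
    intro g hg hg2
    have : (primeOfPlace v h).valuation F g = 1 := by
      rw [← WithZero.exp_log (hw₂ne g hg)]
      show WithZero.exp (a₂ g) = 1
      rw [hg2, WithZero.exp_zero]
    have h1 := adicValuation_eq_one_of_valuation_eq_one v h this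
    simp only [ha₁, h1, WithZero.log_one]
  -- a₁ π < 0
  have a₁π_neg : a₁ π < 0 := by
    have hlt : (primeOfPlace v h).valuation F π < 1 := by
      rw [hπ, ← WithZero.exp_zero, WithZero.exp_lt_exp]; norm_num
    have := adicValuation_lt_one_of_valuation_lt_one v h hlt
    have hne := v.adicValuation_ne_zero hπ0
    rw [← WithZero.exp_log hne, ← WithZero.exp_zero, WithZero.exp_lt_exp] at this
    exact this
  -- linearity: a₁ g = (- a₁ π) * a₂ g
  have key : ∀ g : F, g ≠ 0 → a₁ g = (- a₁ π) * a₂ g := by
    intro g hg
    have hz : π ^ (a₂ g) ≠ 0 := zpow_ne_zero _ hπ0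
    have h2 : a₂ (g * π ^ (a₂ g)) = 0 := by
      rw [a₂_mul g _ hg hz, a₂_zpow, a₂π]; ring
    have h1 := key0 _ (mul_ne_zero hg hz) h2
    rw [a₁_mul g _ hg hz, a₁_zpow] at h1
    linarith
  have hm : - a₁ π = 1 := by
    have h1 := key ϖ hϖ0
    rw [a₁ϖ] at h1
    have hdvd : (- a₁ π) ∣ 1 := ⟨- a₂ ϖ, by linarith⟩
    exact Int.eq_one_of_dvd_one (by linarith) hdvd
  have hfin : a₁ f = a₂ f := by rw [key f hf0, hm, one_mul]
  rw [← WithZero.exp_log (v.adicValuation_ne_zero hf0), ← WithZero.exp_log (hw₂ne f hf0)]
  exact congrArg WithZero.exp hfin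

theorem ord_eq (f : F) :
    v.ord f = -(WithZero.log ((primeOfPlace v h).valuation F f)) := by
  rw [Place.ord, adicValuation_eq v h]

theorem toValuationSubring_eq :
    v.toValuationSubring = ((primeOfPlace v h).valuation F).valuationSubring := by
  symm
  refine ValuationSubring.eq_of_le_of_ne_top _ ?_ v.ne_top'
  intro f hf
  exact mem_of_valuation_le_one v h ((Valuation.mem_valuationSubring_iff _ _).mp hf)

theorem placeOfPrime_primeOfPlace : placeOfPrime (K := K) B (primeOfPlace v h) = v :=
  Place.ext (toValuationSubring_eq v h).symm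

end compare


end part2

section part3

variable {K F : Type*} [Field K] [Field F] [Algebra K F]
variable {B : Type*} [CommRing B] [IsDedekindDomain B] [Algebra K B] [Algebra B F]
  [IsScalarTower K B F] [IsFractionRing B F]

theorem algebraMap_mem_placeOfPrime (P : HeightOneSpectrum B) (b : B) :
    algebraMap B F b ∈ (placeOfPrime (K := K) B P).toValuationSubring := by
  show algebraMap B F b ∈ (P.valuation F).valuationSubring
  rw [Valuation.mem_valuationSubring_iff]
  exact P.valuation_le_one _

theorem primeOfPlace_placeOfPrime (P : HeightOneSpectrum B) :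
    primeOfPlace (placeOfPrime (K := K) B P) (algebraMap_mem_placeOfPrime (K := K) (F := F) P) = P := by
  refine HeightOneSpectrum.eq_of_valuation_isEquiv_valuation (R := B) (K := F) ?_
  rw [Valuation.isEquiv_iff_valuationSubring]
  exact (toValuationSubring_eq (placeOfPrime (K := K) B P) (algebraMap_mem_placeOfPrime (K := K) (F := F) P)).symm

/-- Places of `F/K` whose valuation ring contains `B` correspond bijectively to height-one primes
of `B`. -/
noncomputable def placeEquiv (K : Type*) {F : Type*} [Field K] [Field F] [Algebra K F]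
    (B : Type*) [CommRing B] [IsDedekindDomain B] [Algebra K B] [Algebra B F]
    [IsScalarTower K B F] [IsFractionRing B F] :
    {v : Place K F // ∀ b : B, algebraMap B F b ∈ v.toValuationSubring} ≃ HeightOneSpectrum B where
  toFun v := primeOfPlace v.1 v.2
  invFun P := ⟨placeOfPrime B P, algebraMap_mem_placeOfPrime (K := K) (F := F) P⟩
  left_inv v := Subtype.ext (placeOfPrime_primeOfPlace v.1 v.2)
  right_inv P := primeOfPlace_placeOfPrime P

section residue

variable [IsAlgClosed K] [Algebra.FiniteType K B]

theorem exists_algebraMap_sub_mem (P : HeightOneSpectrum B) (b : B) :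
    ∃ α : K, b - algebraMap K B α ∈ P.asIdeal := by
  haveI : P.asIdeal.IsMaximal := P.isMaximal
  letI := Ideal.Quotient.field P.asIdeal
  haveI : Algebra.FiniteType K (B ⧸ P.asIdeal) :=
    Algebra.FiniteType.of_surjective (Ideal.Quotient.mkₐ K P.asIdeal)
      (Ideal.Quotient.mkₐ_surjective K P.asIdeal)
  haveI : Module.Finite K (B ⧸ P.asIdeal) := finite_of_finite_type_of_isJacobsonRing K _
  obtain ⟨α, hα⟩ := (IsAlgClosed.algebraMap_bijective_of_isIntegral
    (k := K) (K := B ⧸ P.asIdeal)).2 (Ideal.Quotient.mk P.asIdeal b)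
  refine ⟨α, ?_⟩
  rw [← Ideal.Quotient.eq]
  rw [← hα]
  rfl

theorem toValSubringHom_algebraMap (v : Place K F)
    (h : ∀ b : B, algebraMap B F b ∈ v.toValuationSubring) (a : K) :
    toValSubringHom v h (algebraMap K B a) = algebraMap K v.toValuationSubring a := by
  apply Subtype.ext
  simp [← IsScalarTower.algebraMap_apply]

theorem residue_algebraMap_surjective (v : Place K F)
    (h : ∀ b : B, algebraMap B F b ∈ v.toValuationSubring) :
    Function.Surjective (algebraMap K v.ResidueField) := by
  intro x
  obtain ⟨f, rfl⟩ := IsLocalRing.residue_surjective x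
  have hf : (primeOfPlace v h).valuation F (f : F) ≤ 1 := by
    have h2 : (f : F) ∈ ((primeOfPlace v h).valuation F).valuationSubring :=
      (toValuationSubring_eq v h) ▸ f.2
    exact (Valuation.mem_valuationSubring_iff _ _).mp h2
  obtain ⟨n, d, hnd⟩ := (primeOfPlace v h).exists_primeCompl_mul_eq_of_integer _ hf
  obtain ⟨α, hα⟩ := exists_algebraMap_sub_mem (K := K) (primeOfPlace v h) n
  obtain ⟨β, hβ⟩ := exists_algebraMap_sub_mem (K := K) (primeOfPlace v h) (d : B)
  have hd : (d : B) ∉ (primeOfPlace v h).asIdeal := d.2
  have hβ0 : β ≠ 0 := by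
    rintro rfl
    apply hd
    simpa using hβ
  -- equation in O_v
  have heq : f * toValSubringHom v h d = toValSubringHom v h n := by
    apply Subtype.ext
    simpa using hnd
  have hres : ∀ (b : B) (γ : K), b - algebraMap K B γ ∈ (primeOfPlace v h).asIdeal →
      IsLocalRing.residue v.toValuationSubring (toValSubringHom v h b) =
        algebraMap K v.ResidueField γ := by
    intro b γ hb
    have h1 := (mem_primeOfPlace_iff v h _).mp hb
    rw [map_sub, toValSubringHom_algebraMap] at h1
    have h2 : IsLocalRing.residue v.toValuationSubring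
        (toValSubringHom v h b - algebraMap K v.toValuationSubring γ) = 0 :=
      (IsLocalRing.residue_eq_zero_iff _).mpr h1
    rw [map_sub, sub_eq_zero] at h2
    rw [h2]
    rfl
  have h3 := congrArg (IsLocalRing.residue v.toValuationSubring) heq
  rw [map_mul, hres _ _ hα, hres _ _ hβ] at h3
  refine ⟨α / β, ?_⟩
  have hβ' : algebraMap K v.ResidueField β ≠ 0 := by
    rw [Ne, map_eq_zero_iff _ (algebraMap K v.ResidueField).injective]
    exact hβ0
  rw [map_div₀, ← h3]
  field_simp

theorem deg_eq_one (v : Place K F)
    (h : ∀ b : B, algebraMap B F b ∈ v.toValuationSubring) : v.deg = 1 := by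
  have hbij : Function.Bijective (algebraMap K v.ResidueField) :=
    ⟨(algebraMap K v.ResidueField).injective, residue_algebraMap_surjective v h⟩
  rw [Place.deg]
  have e : K ≃ₗ[K] v.ResidueField :=
    LinearEquiv.ofBijective (Algebra.linearMap K v.ResidueField) hbij
  rw [← e.finrank_eq, Module.finrank_self]

end residue


end part3

end Fermat.Agent.S24.H30Places
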