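import Mathlib
import Fermat.Prelude.Def_AlgebraicCurve_DivisorClassGroup
import Fermat.Agent.S24.H30Places

set_option autoImplicit false
set_option linter.unusedSectionVars false
set_option linter.style.haveILetI false

open IsDedekindDomain AlgebraicCurve

namespace Fermat.Agent.S24.H30Fibre

open Fermat.Agent.S24.H30Places

variable {K F : Type*} [Field K] [Field F] [Algebra K F]

section ord

variable {B : Type*} [CommRing B] [IsDedekindDomain B] [Algebra K B] [Algebra B F]
  [IsScalarTower K B F] [IsFractionRing B F]

theorem adicValuation_placeOfPrime (P : HeightOneSpectrum B) (f : F) :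
    (placeOfPrime (K := K) B P).adicValuation f = P.valuation F f := by
  rw [adicValuation_eq (placeOfPrime (K := K) B P) (algebraMap_mem_placeOfPrime (K := K) (F := F) P),
    primeOfPlace_placeOfPrime]

theorem ord_placeOfPrime (P : HeightOneSpectrum B) (f : F) :
    (placeOfPrime (K := K) B P).ord f = -(WithZero.log (P.valuation F f)) := by
  rw [Place.ord, adicValuation_placeOfPrime]

theorem ord_placeOfPrime_algebraMap (P : HeightOneSpectrum B) {b : B} (hb : b ≠ 0) :
    (placeOfPrime (K := K) B P).ord (algebraMap B F b) =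
      (multiplicity P.asIdeal (Ideal.span {b}) : ℤ) := by
  rw [ord_placeOfPrime, HeightOneSpectrum.valuation_of_algebraMap,
    HeightOneSpectrum.intValuation_eq_exp_neg_multiplicity _ hb, WithZero.log_exp, neg_neg]

theorem placeOfPrime_injective :
    Function.Injective (placeOfPrime (K := K) (F := F) B) := by
  intro P Q hPQ
  have h1 := primeOfPlace_placeOfPrime (K := K) (F := F) P
  have h2 := primeOfPlace_placeOfPrime (K := K) (F := F) Q
  rw [← h1, ← h2]
  congr 1

end ord



section fibre

/-- inertia degree is one over an algebraically closed constant field. -/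
theorem inertiaDeg_eq_one (K : Type*) [Field K] [IsAlgClosed K]
    {A B : Type*} [CommRing A] [CommRing B] [IsDedekindDomain B]
    [Algebra K A] [Algebra A B] [Algebra K B] [IsScalarTower K A B] [Algebra.FiniteType K B]
    (p : Ideal A) [p.IsMaximal] (q : Ideal B) [q.IsMaximal] [q.LiesOver p]
    (hq : q ≠ ⊥) : q.inertiaDeg A = 1 := by
  rw [Ideal.inertiaDeg_eq_of_isMaximal p q]
  letI : Field (A ⧸ p) := Ideal.Quotient.field p
  letI : Field (B ⧸ q) := Ideal.Quotient.field q
  have hsurj : Function.Surjective (algebraMap (A ⧸ p) (B ⧸ q)) := by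
    intro x
    obtain ⟨b, rfl⟩ := Ideal.Quotient.mk_surjective x
    obtain ⟨α, hα⟩ := exists_algebraMap_sub_mem (K := K)
      (⟨q, inferInstance, hq⟩ : HeightOneSpectrum B) b
    refine ⟨Ideal.Quotient.mk p (algebraMap K A α), ?_⟩
    rw [Ideal.Quotient.algebraMap_mk_of_liesOver, ← IsScalarTower.algebraMap_apply]
    symm
    rw [Ideal.Quotient.eq]
    exact hα
  have hbij : Function.Bijective (algebraMap (A ⧸ p) (B ⧸ q)) :=
    ⟨(algebraMap (A ⧸ p) (B ⧸ q)).injective, hsurj⟩
  have e : (A ⧸ p) ≃ₗ[A ⧸ p] (B ⧸ q) :=
    LinearEquiv.ofBijective (Algebra.linearMap (A ⧸ p) (B ⧸ q)) hbij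
  rw [← e.finrank_eq, Module.finrank_self]

variable [IsAlgClosed K]
variable {A B : Type*} [CommRing A] [IsDedekindDomain A] [CommRing B] [IsDedekindDomain B]
  [Algebra K A] [Algebra A B] [Algebra K B] [IsScalarTower K A B]
  [Algebra B F] [IsFractionRing B F] [IsScalarTower K B F]
  [Module.Finite A B] [Module.IsTorsionFree A B] [Algebra.FiniteType K B]

/-- **Fibre formula** (abstract form).  If `τ` generates a maximal ideal of `A`, then the places of
`F/K` containing `B` at which `τ` vanishes form a finite set and the orders of vanishing add up to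
the rank of `B` over `A`. -/
theorem sum_ord_eq_finrank (τ : A) (hτ : τ ≠ 0) (hmax : (Ideal.span {τ}).IsMaximal) :
    ∃ s : Finset (Place K F),
      (∀ v : Place K F, v ∈ s ↔ (∀ b : B, algebraMap B F b ∈ v.toValuationSubring) ∧
        0 < v.ord (algebraMap B F (algebraMap A B τ))) ∧
      ∑ v ∈ s, v.ord (algebraMap B F (algebraMap A B τ)) = (Module.finrank A B : ℤ) := by
  classical
  set p : Ideal A := Ideal.span {τ} with hp
  haveI : p.IsMaximal := hmax
  have hp0 : p ≠ ⊥ := by
    rw [hp, Ne, Ideal.span_singleton_eq_bot]; exact hτ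
  haveI : Algebra.IsIntegral A B := Algebra.IsIntegral.of_finite A B
  have hinj : Function.Injective (algebraMap A B) := FaithfulSMul.algebraMap_injective A B
  set t : B := algebraMap A B τ with ht
  have ht0 : t ≠ 0 := by
    rw [ht, Ne, map_eq_zero_iff _ hinj]; exact hτ
  have hpmap : p.map (algebraMap A B) = Ideal.span {t} := by
    rw [hp, Ideal.map_span, Set.image_singleton]
  have hpmap0 : p.map (algebraMap A B) ≠ ⊥ := by
    rw [hpmap, Ne, Ideal.span_singleton_eq_bot]; exact ht0
  have hsum := Ideal.sum_ramification_inertia_eq_finrank p B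
  -- the height one prime attached to a prime over p
  have hne : ∀ q : p.primesOver B, q.1 ≠ ⊥ := fun q => Ideal.ne_bot_of_mem_primesOver hp0 q.2
  let Q : p.primesOver B → HeightOneSpectrum B := fun q => ⟨q.1, q.2.1, hne q⟩
  have hQinj : Function.Injective Q := by
    intro q q' h
    apply Subtype.ext
    exact congrArg HeightOneSpectrum.asIdeal h
  let pl : p.primesOver B → Place K F := fun q => placeOfPrime B (Q q)
  have hplinj : Function.Injective pl := placeOfPrime_injective.comp hQinj
  -- the local terms
  have hterm : ∀ q : p.primesOver B,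
      (pl q).ord (algebraMap B F t) = ((q.1.ramificationIdx A * q.1.inertiaDeg A : ℕ) : ℤ) := by
    intro q
    haveI : q.1.IsPrime := q.2.1
    haveI : q.1.LiesOver p := q.2.2
    haveI : q.1.IsMaximal := (Q q).isMaximal
    rw [inertiaDeg_eq_one K p q.1 (hne q), mul_one,
      Ideal.IsDedekindDomain.ramificationIdx_eq_multiplicity p q.1 hpmap0, hpmap]
    exact ord_placeOfPrime_algebraMap (Q q) ht0
  refine ⟨Finset.univ.image pl, ?_, ?_⟩
  · intro v
    simp only [Finset.mem_image, Finset.mem_univ, true_and]
    constructor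
    · rintro ⟨q, rfl⟩
      refine ⟨algebraMap_mem_placeOfPrime (K := K) (F := F) (Q q), ?_⟩
      haveI : q.1.IsPrime := q.2.1
      rw [hterm q]
      have h1 : 0 < q.1.ramificationIdx A := Ideal.ramificationIdx_pos q.1 A
      have h2 : 0 < q.1.inertiaDeg A := Ideal.inertiaDeg_pos q.1 A
      exact_mod_cast Nat.mul_pos h1 h2
    · rintro ⟨hB, hpos⟩
      set P := primeOfPlace v hB with hP
      have hlt : P.valuation F (algebraMap B F t) < 1 := by
        rw [ord_eq v hB] at hpos
        have hne0 : P.valuation F (algebraMap B F t) ≠ 0 :=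
          (Valuation.ne_zero_iff _).mpr
            ((map_ne_zero_iff _ (IsFractionRing.injective B F)).mpr ht0)
        rw [← WithZero.exp_log hne0, ← WithZero.exp_zero, WithZero.exp_lt_exp]
        linarith
      have htP : t ∈ P.asIdeal := (P.valuation_lt_one_iff_mem (K := F) t).mp hlt
      have hlies : P.asIdeal.LiesOver p := by
        constructor
        have hle : p ≤ P.asIdeal.under A := by
          rw [hp, Ideal.span_le, Set.singleton_subset_iff]
          exact htP
        exact (hmax.eq_of_le (Ideal.IsPrime.under A P.asIdeal).ne_top hle)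
      refine ⟨⟨P.asIdeal, P.isPrime, hlies⟩, ?_⟩
      show placeOfPrime B (Q ⟨P.asIdeal, P.isPrime, hlies⟩) = v
      have : Q ⟨P.asIdeal, P.isPrime, hlies⟩ = P := rfl
      rw [this]
      exact placeOfPrime_primeOfPlace v hB
  · rw [Finset.sum_image (fun q _ q' _ h => hplinj h)]
    rw [Finset.sum_congr rfl (fun q _ => hterm q), ← hsum]
    push_cast
    rfl

end fibre


end Fermat.Agent.S24.H30Fibre
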