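import Mathlib
import Fermat.Prelude.Def_AlgebraicCurve_DivisorClassGroup
import Fermat.Agent.S24.H30Places
import Fermat.Agent.S24.H30Fibre

set_option autoImplicit false
set_option linter.unusedSectionVars false
set_option linter.style.haveILetI false

open IsDedekindDomain AlgebraicCurve IntermediateField

namespace Fermat.Agent.S24.H30Zeros

open Fermat.Agent.S24.H30Places Fermat.Agent.S24.H30Fibre
open scoped IntermediateField.algebraAdjoinAdjoin

variable {K F : Type*} [Field K] [Field F] [Algebra K F]

/-- an element of nonnegative order lies in the valuation ring -/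
theorem mem_of_adicValuation_le_one (v : Place K F) {f : F} (hf : v.adicValuation f ≤ 1) :
    f ∈ v.toValuationSubring := by
  obtain ⟨a, ha⟩ := IsDiscreteValuationRing.exists_lift_of_le_one (A := v.toValuationSubring)
    (K := F) hf
  rw [← ha]; exact a.2

theorem mem_of_ord_nonneg (v : Place K F) {f : F} (hf : 0 ≤ v.ord f) :
    f ∈ v.toValuationSubring := by
  rcases eq_or_ne f 0 with rfl | hf0
  · exact v.toValuationSubring.zero_mem
  apply mem_of_adicValuation_le_one
  have hne := v.adicValuation_ne_zero hf0
  rw [← WithZero.exp_log hne, ← WithZero.exp_zero, WithZero.exp_le_exp]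
  rw [Place.ord] at hf
  linarith

theorem ord_nonneg_of_mem (v : Place K F) {f : F} (hf : f ∈ v.toValuationSubring) :
    0 ≤ v.ord f := by
  rcases eq_or_ne f 0 with rfl | hf0
  · simp
  have h1 := adicValuation_le_one_of_mem v hf
  have hne := v.adicValuation_ne_zero hf0
  rw [← WithZero.exp_log hne, ← WithZero.exp_zero, WithZero.exp_le_exp] at h1
  rw [Place.ord]
  linarith

/-- the valuation ring of a place, as a `K`-subalgebra of `F`. -/
def valSubalgebra (v : Place K F) : Subalgebra K F where
  __ := v.toValuationSubring.toSubring
  algebraMap_mem' := v.algebraMap_mem'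

@[simp] theorem mem_valSubalgebra (v : Place K F) (f : F) :
    f ∈ valSubalgebra v ↔ f ∈ v.toValuationSubring := Iff.rfl

theorem adjoin_le_valSubalgebra (v : Place K F) {t : F} (ht : t ∈ v.toValuationSubring) :
    Algebra.adjoin K {t} ≤ valSubalgebra v :=
  Algebra.adjoin_le (Set.singleton_subset_iff.mpr ht)

/-- valuation rings are integrally closed: elements integral over a subring contained in `O_v`
lie in `O_v`. -/
theorem mem_of_isIntegral (v : Place K F) {R : Type*} [CommRing R] [Algebra R F]
    (hR : ∀ r : R, algebraMap R F r ∈ v.toValuationSubring) {b : F} (hb : IsIntegral R b) :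
    b ∈ v.toValuationSubring := by
  obtain ⟨p, hp, hpb⟩ := hb
  let φ : R →+* v.toValuationSubring := (algebraMap R F).codRestrict v.toValuationSubring.toSubring hR
  have hint : IsIntegral v.toValuationSubring b := by
    refine ⟨p.map φ, hp.map φ, ?_⟩
    rw [Polynomial.eval₂_map]
    exact hpb
  obtain ⟨y, hy⟩ := (IsIntegrallyClosed.isIntegral_iff (R := v.toValuationSubring) (K := F)).mp hint
  rw [← hy]; exact y.2

section main

variable [IsAlgClosed K] [CharZero K]

theorem isPrincipalIdealRing_adjoin (t : F) (ht : Transcendental K t) :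
    IsPrincipalIdealRing (Algebra.adjoin K {t}) :=
  IsPrincipalIdealRing.of_surjective
    (Polynomial.algEquivOfTranscendental K t ht).toRingEquiv.toRingHom
    (Polynomial.algEquivOfTranscendental K t ht).surjective

/-- **Zeros formula.**  For `t ∈ F` transcendental over the algebraically closed field `K` with
`F / K(t)` finite, the places where `t` vanishes form a finite set and the orders of vanishing
add up to `[F : K(t)]`. -/
theorem zeros_formula (t : F) (ht : Transcendental K t) [FiniteDimensional K⟮t⟯ F] :
    ∃ s : Finset (Place K F), (∀ v : Place K F, v ∈ s ↔ 0 < v.ord t) ∧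
      ∑ v ∈ s, v.ord t = (Module.finrank K⟮t⟯ F : ℤ) := by
  haveI := isPrincipalIdealRing_adjoin t ht
  haveI : IsDedekindDomain (integralClosure (Algebra.adjoin K {t}) F) :=
    integralClosure.isDedekindDomain (Algebra.adjoin K {t}) K⟮t⟯ F
  haveI : IsFractionRing (integralClosure (Algebra.adjoin K {t}) F) F :=
    integralClosure.isFractionRing_of_finite_extension K⟮t⟯ F
  haveI : Module.Finite (Algebra.adjoin K {t}) (integralClosure (Algebra.adjoin K {t}) F) :=
    IsIntegralClosure.finite (Algebra.adjoin K {t}) K⟮t⟯ F _
  haveI : IsScalarTower K (Algebra.adjoin K {t}) (integralClosure (Algebra.adjoin K {t}) F) :=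
    IsScalarTower.of_algebraMap_eq (fun x => rfl)
  haveI : IsScalarTower K (integralClosure (Algebra.adjoin K {t}) F) F :=
    IsScalarTower.of_algebraMap_eq (fun x => rfl)
  haveI hft : Algebra.FiniteType K (Algebra.adjoin K {t}) :=
    Algebra.FiniteType.equiv inferInstance (Polynomial.algEquivOfTranscendental K t ht)
  haveI : Algebra.FiniteType K (integralClosure (Algebra.adjoin K {t}) F) :=
    Algebra.FiniteType.trans hft inferInstance
  -- the generator
  set τ : Algebra.adjoin K {t} := ⟨t, Algebra.self_mem_adjoin_singleton K t⟩ with hτ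
  have hτ0 : τ ≠ 0 := by
    intro h0
    have : t = 0 := congrArg Subtype.val h0
    exact ht (this ▸ isAlgebraic_zero)
  have hτX : τ = Polynomial.algEquivOfTranscendental K t ht Polynomial.X := by
    apply Subtype.ext
    simp [hτ]
  have hirr : Irreducible τ := by
    rw [hτX]
    exact (MulEquiv.irreducible_iff (Polynomial.algEquivOfTranscendental K t ht)).mpr
      Polynomial.irreducible_X
  have hmax : (Ideal.span {τ}).IsMaximal := PrincipalIdealRing.isMaximal_of_irreducible hirr
  obtain ⟨s, hs, hsum⟩ := sum_ord_eq_finrank (K := K) (F := F)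
    (B := integralClosure (Algebra.adjoin K {t}) F) τ hτ0 hmax
  have hval : algebraMap (integralClosure (Algebra.adjoin K {t}) F) F
      (algebraMap (Algebra.adjoin K {t}) (integralClosure (Algebra.adjoin K {t}) F) τ) = t := rfl
  rw [hval] at hsum
  simp only [hval] at hs
  refine ⟨s, ?_, ?_⟩
  · intro v
    rw [hs v]
    constructor
    · exact fun h => h.2
    · intro hpos
      refine ⟨?_, hpos⟩
      have htv : t ∈ v.toValuationSubring := mem_of_ord_nonneg v hpos.le
      have hA : ∀ r : Algebra.adjoin K {t}, algebraMap (Algebra.adjoin K {t}) F r ∈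
          v.toValuationSubring := fun r => adjoin_le_valSubalgebra v htv r.2
      intro b
      exact mem_of_isIntegral v hA b.2
  · rw [hsum, IsFractionRing.finrank_eq (Algebra.adjoin K {t}) K⟮t⟯
      (integralClosure (Algebra.adjoin K {t}) F) F]

end main

end Fermat.Agent.S24.H30Zeros
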