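/-
S24 package FF1b + FF1c (helper30): fibre sums of a function field over the `x`-line.
Statements copied from `Fermat/Agent/S24/Skeleton.lean`, section FF1.
-/
import Fermat.Agent.S24.Defs
import Fermat.Agent.S24.H30Zeros

set_option autoImplicit false
set_option linter.unusedSectionVars false
set_option linter.style.haveILetI false

open AlgebraicCurve KaehlerDifferential IntermediateField

namespace Fermat.Agent.S24

namespace H30Zeros

variable {K F : Type*} [Field K] [Field F] [Algebra K F]

theorem adjoin_sub_const_eq (x : F) (c : K) : K⟮x - algebraMap K F c⟯ = K⟮x⟯ := by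
  apply le_antisymm
  · rw [adjoin_simple_le_iff]
    exact sub_mem (mem_adjoin_simple_self K x) (IntermediateField.algebraMap_mem _ c)
  · rw [adjoin_simple_le_iff]
    have h : x = (x - algebraMap K F c) + algebraMap K F c := by ring
    have h2 : (x - algebraMap K F c) + algebraMap K F c ∈ K⟮x - algebraMap K F c⟯ :=
      add_mem (mem_adjoin_simple_self K _) (IntermediateField.algebraMap_mem _ c)
    rwa [← h] at h2

theorem adjoin_inv_eq' (x : F) : K⟮x⁻¹⟯ = K⟮x⟯ := by
  apply le_antisymm
  · rw [adjoin_simple_le_iff]
    exact inv_mem (mem_adjoin_simple_self K x)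
  · rw [adjoin_simple_le_iff]
    have h2 : (x⁻¹)⁻¹ ∈ K⟮x⁻¹⟯ := inv_mem (mem_adjoin_simple_self K _)
    rwa [inv_inv] at h2

theorem transcendental_sub_const {x : F} (hx : Transcendental K x) (c : K) :
    Transcendental K (x - algebraMap K F c) := by
  intro h
  apply hx
  have h2 : IsAlgebraic K (algebraMap K F c) := isAlgebraic_algebraMap c
  have := h.add h2
  simpa using this

theorem transcendental_inv {x : F} (hx : Transcendental K x) : Transcendental K x⁻¹ := by
  intro h
  apply hx
  have := h.inv
  simpa using this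

end H30Zeros

section FF1

variable {K F : Type*} [Field K] [Field F] [Algebra K F] [IsAlgClosed K] [CharZero K]
variable {x : F} (hF : IsFunctionFieldOver K x)
include hF

open H30Zeros

theorem exists_finset_placesOver (c : K) :
    ∃ s : Finset (Place K F), (∀ v : Place K F, v ∈ s ↔ v ∈ placesOver x c) ∧
      ∑ v ∈ s, v.ord (x - algebraMap K F c) = (degOver K x : ℤ) := by
  haveI := hF.finite
  have hfin : FiniteDimensional K⟮x - algebraMap K F c⟯ F := by
    rw [adjoin_sub_const_eq]; infer_instance
  obtain ⟨s, hs, hsum⟩ := zeros_formula (K := K) (x - algebraMap K F c)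
    (transcendental_sub_const hF.transcendental c)
  refine ⟨s, fun v => (hs v), ?_⟩
  rw [hsum, degOver]
  congr 1
  rw [adjoin_sub_const_eq]

theorem finite_placesOver (c : K) : (placesOver x c).Finite := by
  obtain ⟨s, hs, -⟩ := exists_finset_placesOver hF c
  have : placesOver x c = ↑s := by
    ext v; simp [hs v]
  rw [this]; exact s.finite_toSet

theorem sum_ord_placesOver (c : K) :
    ∑ᶠ v ∈ placesOver x c, v.ord (x - algebraMap K F c) = (degOver K x : ℤ) := by
  obtain ⟨s, hs, hsum⟩ := exists_finset_placesOver hF c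
  have : placesOver x c = ↑s := by
    ext v; simp [hs v]
  rw [this, finsum_mem_coe_finset, hsum]

theorem exists_finset_placesOverInfty :
    ∃ s : Finset (Place K F), (∀ v : Place K F, v ∈ s ↔ v ∈ placesOverInfty K x) ∧
      ∑ v ∈ s, - v.ord x = (degOver K x : ℤ) := by
  haveI := hF.finite
  have hfin : FiniteDimensional K⟮x⁻¹⟯ F := by
    rw [adjoin_inv_eq']; infer_instance
  obtain ⟨s, hs, hsum⟩ := zeros_formula (K := K) x⁻¹ (transcendental_inv hF.transcendental)
  refine ⟨s, fun v => ?_, ?_⟩
  · rw [hs v, Place.ord_inv]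
    show 0 < - v.ord x ↔ v.ord x < 0
    omega
  · have : ∀ v ∈ s, - v.ord x = v.ord x⁻¹ := fun v _ => (v.ord_inv x).symm
    rw [Finset.sum_congr rfl this, hsum, degOver]
    congr 1
    rw [adjoin_inv_eq']

theorem finite_placesOverInfty : (placesOverInfty K x).Finite := by
  obtain ⟨s, hs, -⟩ := exists_finset_placesOverInfty hF
  have : placesOverInfty K x = ↑s := by
    ext v; simp [hs v]
  rw [this]; exact s.finite_toSet

theorem sum_ord_placesOverInfty :
    ∑ᶠ v ∈ placesOverInfty K x, - v.ord x = (degOver K x : ℤ) := by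
  obtain ⟨s, hs, hsum⟩ := exists_finset_placesOverInfty hF
  have : placesOverInfty K x = ↑s := by
    ext v; simp [hs v]
  rw [this, finsum_mem_coe_finset, hsum]

end FF1

end Fermat.Agent.S24
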