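import Fermat.Agent.S24.Defs
import Fermat.Agent.S24.FF.FiberSum

/-!
# S24 package FF2 (helper54): principal divisors have degree zero
-/

set_option autoImplicit false
set_option linter.style.haveILetI false
set_option linter.unusedSectionVars false

namespace Fermat.Agent.S24.FF

open AlgebraicCurve IntermediateField

section Exchange

variable {K F : Type*} [Field K] [Field F] [Algebra K F]

/-- Transcendence degree one: if `F` is algebraic over `K⟮x⟯` and `t` is transcendental over `K`
then `F` is algebraic over `K⟮t⟯`. -/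
theorem isAlgebraic_adjoin_of_transcendental {x t : F}
    [halg : Algebra.IsAlgebraic K⟮x⟯ F] (ht : Transcendental K t) :
    Algebra.IsAlgebraic K⟮t⟯ F := by
  open algebraAdjoinAdjoin in
  have h1 : Algebra.IsAlgebraic (Algebra.adjoin K {x}) F :=
    (IsFractionRing.comap_isAlgebraic_iff (A := Algebra.adjoin K {x}) (K := K⟮x⟯) (C := F)).mpr halg
  have h2 : Algebra.trdeg K F ≤ Cardinal.mk ({x} : Set F) :=
    Algebra.IsAlgebraic.trdeg_le_cardinalMk K {x}
  have h3 : AlgebraicIndependent K (fun _ : PUnit => t) := by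
    rw [algebraicIndependent_unique_type_iff]
    exact ht
  have h4 : IsTranscendenceBasis K (fun _ : PUnit => t) := by
    apply h3.isTranscendenceBasis_of_trdeg_le_of_finite
    refine h2.trans ?_
    simp
  have h5 := h4.isAlgebraic_field
  have : Set.range (fun _ : PUnit => t) = {t} := by
    ext; simp
  rwa [this] at h5

theorem finiteDimensional_adjoin_of_transcendental {x t : F}
    [FiniteDimensional K⟮x⟯ F] (ht : Transcendental K t) :
    FiniteDimensional K⟮t⟯ F := by
  haveI : Algebra.IsAlgebraic K⟮t⟯ F := isAlgebraic_adjoin_of_transcendental (x := x) ht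
  haveI : Algebra.EssFiniteType K K⟮x⟯ := by
    rw [IntermediateField.essFiniteType_iff]
    exact IntermediateField.fg_adjoin_of_finite (Set.finite_singleton x)
  haveI : Algebra.EssFiniteType K F := Algebra.EssFiniteType.comp K K⟮x⟯ F
  haveI : Algebra.EssFiniteType K⟮t⟯ F := Algebra.EssFiniteType.of_comp K K⟮t⟯ F
  exact Algebra.finite_of_essFiniteType_of_isAlgebraic

theorem adjoin_simple_inv_eq (t : F) : K⟮t⁻¹⟯ = K⟮t⟯ := by
  apply le_antisymm
  · rw [adjoin_simple_le_iff]
    exact inv_mem (mem_adjoin_simple_self K t)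
  · rw [adjoin_simple_le_iff]
    have := inv_mem (mem_adjoin_simple_self K t⁻¹)
    rwa [inv_inv] at this

theorem transcendental_inv {t : F} (ht : Transcendental K t) : Transcendental K t⁻¹ := by
  intro h
  apply ht
  have := h.inv
  rwa [inv_inv] at this

theorem finrank_adjoin_inv (t : F) :
    Module.finrank K⟮t⁻¹⟯ F = Module.finrank K⟮t⟯ F := by
  rw [adjoin_simple_inv_eq]

end Exchange

section Degree

variable {K F : Type*} [Field K] [Field F] [Algebra K F] [IsAlgClosed K] [CharZero K]

theorem isSeparable_adjoin (t : F) [FiniteDimensional K⟮t⟯ F] : Algebra.IsSeparable K⟮t⟯ F := by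
  haveI : CharZero K⟮t⟯ := charZero_of_injective_algebraMap (algebraMap K K⟮t⟯).injective
  infer_instance

/-- zeros of a transcendental element, in a function field of one variable -/
theorem exists_finset_zeros {x t : F} [FiniteDimensional K⟮x⟯ F] (ht : Transcendental K t) :
    ∃ s : Finset (Place K F), (∀ v : Place K F, v ∈ s ↔ 0 < v.ord t) ∧
      ∑ v ∈ s, v.ord t = Module.finrank K⟮t⟯ F := by
  haveI := finiteDimensional_adjoin_of_transcendental (x := x) ht
  haveI := isSeparable_adjoin (K := K) t
  exact exists_finset_sum_ord_pos t ht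

/-- poles of a transcendental element -/
theorem exists_finset_poles {x t : F} [FiniteDimensional K⟮x⟯ F] (ht : Transcendental K t) :
    ∃ s : Finset (Place K F), (∀ v : Place K F, v ∈ s ↔ v.ord t < 0) ∧
      ∑ v ∈ s, v.ord t = -(Module.finrank K⟮t⟯ F : ℤ) := by
  obtain ⟨s, hs, hsum⟩ := exists_finset_zeros (x := x) (transcendental_inv ht)
  refine ⟨s, fun v => ?_, ?_⟩
  · rw [hs v, v.ord_inv]; omega
  · rw [finrank_adjoin_inv] at hsum
    rw [← hsum, ← Finset.sum_neg_distrib]
    refine Finset.sum_congr rfl fun v _ => ?_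
    rw [v.ord_inv, neg_neg]

theorem exists_eq_algebraMap_of_isAlgebraic {f : F} (hf : IsAlgebraic K f) :
    ∃ c : K, f = algebraMap K F c := by
  have hint : IsIntegral K f := hf.isIntegral
  have hdeg : (minpoly K f).degree = 1 :=
    IsAlgClosed.degree_eq_one_of_irreducible K (minpoly.irreducible hint)
  obtain ⟨c, hc⟩ := minpoly.mem_range_of_degree_eq_one K f hdeg
  exact ⟨c, hc.symm⟩

theorem finite_support_ord_aux {x : F} [FiniteDimensional K⟮x⟯ F] {f : F} (hf : f ≠ 0) :
    ∃ s : Finset (Place K F), (∀ v : Place K F, v ∈ s ↔ v.ord f ≠ 0) ∧ ∑ v ∈ s, v.ord f = 0 := by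
  classical
  by_cases halg : IsAlgebraic K f
  · obtain ⟨c, rfl⟩ := exists_eq_algebraMap_of_isAlgebraic halg
    refine ⟨∅, fun v => ?_, by simp⟩
    simp [ord_algebraMap]
  · obtain ⟨s₁, hs₁, hsum₁⟩ := exists_finset_zeros (x := x) (t := f) halg
    obtain ⟨s₂, hs₂, hsum₂⟩ := exists_finset_poles (x := x) (t := f) halg
    have hdisj : Disjoint s₁ s₂ := by
      rw [Finset.disjoint_left]
      intro v h1 h2
      rw [hs₁] at h1
      rw [hs₂] at h2
      omega
    refine ⟨s₁ ∪ s₂, fun v => ?_, ?_⟩
    · rw [Finset.mem_union, hs₁, hs₂]; omega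
    · rw [Finset.sum_union hdisj, hsum₁, hsum₂]; ring

end Degree

end Fermat.Agent.S24.FF

namespace Fermat.Agent.S24

open AlgebraicCurve KaehlerDifferential IntermediateField

section FF2

variable {K F : Type*} [Field K] [Field F] [Algebra K F] [IsAlgClosed K] [CharZero K]
variable {x : F} (hF : IsFunctionFieldOver K x)
include hF

theorem finite_support_ord {f : F} (hf : f ≠ 0) : {v : Place K F | v.ord f ≠ 0}.Finite := by
  haveI := hF.finite
  obtain ⟨s, hs, -⟩ := FF.finite_support_ord_aux (K := K) (x := x) hf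
  refine s.finite_toSet.subset fun v hv => ?_
  exact (hs v).2 hv

theorem finsum_ord_eq_zero {f : F} (hf : f ≠ 0) : ∑ᶠ v : Place K F, v.ord f = 0 := by
  haveI := hF.finite
  obtain ⟨s, hs, hsum⟩ := FF.finite_support_ord_aux (K := K) (x := x) hf
  rw [finsum_eq_sum_of_support_subset (s := s) _ (fun v hv => by
    rw [Function.mem_support] at hv
    exact Finset.mem_coe.2 ((hs v).2 hv))]
  exact hsum

end FF2

end Fermat.Agent.S24
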