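import Fermat.Agent.S24.Defs
import Fermat.Agent.S24.PlaceEssFinite

/-!
# S24 / layer (A): every place of a function field comes from a finite-type Dedekind model

`K` algebraically closed of characteristic zero, `x : F` transcendental over `K`, `F` finite over
`K(x)` (`IsFunctionFieldOver K x`).  Every place `v` of `F/K` is the place of a height one prime of
the integral closure of `K[x]` (if `x ∈ 𝒪_v`) or of `K[x⁻¹]` (otherwise) in `F`.  Consequences, for
EVERY place `v`:

* `residue_surjective` : the residue field of `v` is `K`;
* `essFiniteType` : `𝒪_v` is essentially of finite type over `K` (so `Ω[𝒪_v⁄K]` is finite);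
* `place_deg_eq_one`, `dCoordGenerates`;
* `ordDifferential_D` : `ord_v (d f) = ord_v (f - c) - 1` whenever `ord_v (f - c) ≠ 0`
  (needs `Nontrivial Ω[F⁄K]`), and the two Skeleton FF3b forms
  `ordDifferential_D_of_pos`, `ordDifferential_D_of_neg`.
-/

set_option autoImplicit false
set_option linter.style.haveILetI false
set_option linter.unusedSectionVars false

open AlgebraicCurve KaehlerDifferential IntermediateField IsDedekindDomain
open scoped IntermediateField.algebraAdjoinAdjoin

namespace Fermat.Agent.S24.DedekindModel

variable {K F : Type*} [Field K] [Field F] [Algebra K F]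

/-- `K[y]` is a PID. -/
theorem isPrincipalIdealRing_adjoin {y : F} (hy : Transcendental K y) :
    IsPrincipalIdealRing (Algebra.adjoin K {y}) :=
  IsPrincipalIdealRing.of_surjective
    (Polynomial.algEquivOfTranscendental K y hy).toRingEquiv.toRingHom
    (Polynomial.algEquivOfTranscendental K y hy).surjective

/-- A valuation subring contains every element integral over a subring it contains. -/
theorem mem_of_isIntegral (V : ValuationSubring F) {A : Type*} [CommRing A] [Algebra A F]
    (hA : ∀ a : A, algebraMap A F a ∈ V) {z : F} (hz : IsIntegral A z) : z ∈ V := by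
  obtain ⟨p, hp, hpz⟩ := hz
  let φ : A →+* V := (algebraMap A F).codRestrict V.toSubring hA
  have hint : IsIntegral V z := by
    refine ⟨p.map φ, hp.map φ, ?_⟩
    rw [Polynomial.eval₂_map]
    exact hpz
  obtain ⟨a, ha⟩ := IsIntegrallyClosed.algebraMap_eq_of_integral hint
  rw [← ha]
  exact a.2

/-- A place whose ring contains `y` contains `K[y]`. -/
theorem adjoin_le_of_mem (v : Place K F) {y : F} (hv : y ∈ v.toValuationSubring)
    (a : Algebra.adjoin K {y}) : algebraMap (Algebra.adjoin K {y}) F a ∈ v.toValuationSubring := by
  obtain ⟨a, ha⟩ := a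
  show a ∈ v.toValuationSubring
  refine Algebra.adjoin_induction (p := fun a _ => a ∈ v.toValuationSubring) ?_ ?_ ?_ ?_ ha
  · intro z hz
    rw [Set.mem_singleton_iff] at hz
    rw [hz]; exact hv
  · intro k; exact v.algebraMap_mem' k
  · intro a b _ _ ha hb; exact v.toValuationSubring.add_mem _ _ ha hb
  · intro a b _ _ ha hb; exact v.toValuationSubring.mul_mem _ _ ha hb

theorem exists_ofHeightOneSpectrum (y : F)
    [IsDedekindDomain (integralClosure (Algebra.adjoin K {y}) F)]
    [IsFractionRing (integralClosure (Algebra.adjoin K {y}) F) F]
    (v : Place K F) (hv : y ∈ v.toValuationSubring) :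
    ∃ w : HeightOneSpectrum (integralClosure (Algebra.adjoin K {y}) F),
      Place.ofHeightOneSpectrum (K := K) w = v := by
  apply PlaceDedekind.exists_ofHeightOneSpectrum_eq
  intro r
  exact mem_of_isIntegral v.toValuationSubring (A := Algebra.adjoin K {y})
    (adjoin_le_of_mem v hv) r.2

/-- Facts for a place `v` with `y ∈ 𝒪_v`, `y` a separating transcendental element. -/
theorem facts_of_mem [IsAlgClosed K] [CharZero K] {y : F} (hy : Transcendental K y)
    [FiniteDimensional K⟮y⟯ F] (v : Place K F) (hv : y ∈ v.toValuationSubring) :
    Function.Surjective (algebraMap K v.ResidueField) ∧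
      Algebra.EssFiniteType K v.toValuationSubring := by
  haveI := isPrincipalIdealRing_adjoin hy
  haveI : IsDedekindDomain (integralClosure (Algebra.adjoin K {y}) F) :=
    integralClosure.isDedekindDomain (Algebra.adjoin K {y}) K⟮y⟯ F
  haveI : IsFractionRing (integralClosure (Algebra.adjoin K {y}) F) F :=
    integralClosure.isFractionRing_of_finite_extension K⟮y⟯ F
  haveI : Module.Finite (Algebra.adjoin K {y}) (integralClosure (Algebra.adjoin K {y}) F) :=
    IsIntegralClosure.finite (Algebra.adjoin K {y}) K⟮y⟯ F _
  haveI : Algebra.FiniteType K (Algebra.adjoin K {y}) :=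
    .adjoin_of_finite (Set.finite_singleton y)
  haveI : Algebra.FiniteType K (integralClosure (Algebra.adjoin K {y}) F) :=
    Algebra.FiniteType.trans (inferInstance : Algebra.FiniteType K (Algebra.adjoin K {y}))
      inferInstance
  obtain ⟨w, rfl⟩ := exists_ofHeightOneSpectrum y v hv
  exact ⟨PlaceEssFinite.residue_surjective w, PlaceEssFinite.essFiniteType_ofHeightOneSpectrum w⟩

theorem adjoin_inv_eq (x : F) : K⟮x⁻¹⟯ = K⟮x⟯ := by
  apply le_antisymm
  · rw [adjoin_simple_le_iff]; exact inv_mem (mem_adjoin_simple_self K x)
  · rw [adjoin_simple_le_iff]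
    have := inv_mem (mem_adjoin_simple_self K x⁻¹)
    rwa [inv_inv] at this

theorem finiteDimensional_of_eq {E E' : IntermediateField K F} (h : E = E')
    [FiniteDimensional E F] : FiniteDimensional E' F := by
  subst h; infer_instance

theorem transcendental_inv {x : F} (hx : Transcendental K x) : Transcendental K x⁻¹ := by
  intro h
  apply hx
  have := h.inv
  rwa [inv_inv] at this

section global

variable [IsAlgClosed K] [CharZero K] {x : F} (hF : IsFunctionFieldOver K x)
include hF

/-- Facts for an arbitrary place of a function field. -/
theorem facts (v : Place K F) :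
    Function.Surjective (algebraMap K v.ResidueField) ∧
      Algebra.EssFiniteType K v.toValuationSubring := by
  haveI := hF.finite
  rcases v.toValuationSubring.mem_or_inv_mem x with h | h
  · exact facts_of_mem hF.transcendental v h
  · haveI : FiniteDimensional K⟮x⁻¹⟯ F := finiteDimensional_of_eq (adjoin_inv_eq x).symm
    exact facts_of_mem (transcendental_inv hF.transcendental) v h

theorem residue_surjective (v : Place K F) :
    Function.Surjective (algebraMap K v.ResidueField) := (facts hF v).1

theorem essFiniteType (v : Place K F) : Algebra.EssFiniteType K v.toValuationSubring :=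
  (facts hF v).2

theorem finite_residueField (v : Place K F) : Module.Finite K v.ResidueField :=
  Module.Finite.of_surjective (Algebra.linearMap K v.ResidueField) (residue_surjective hF v)

theorem place_deg_eq_one (v : Place K F) : v.deg = 1 := by
  haveI := finite_residueField hF v
  exact Place.deg_eq_one_of_isAlgClosed_of_finite v

theorem dCoordGenerates (v : Place K F) : v.DCoordGenerates := by
  haveI := essFiniteType hF v
  exact LocalDiff.dCoordGenerates v (residue_surjective hF v)

/-- `ord_v (d f) = ord_v (f - c) - 1` whenever `ord_v (f - c) ≠ 0`, at every place. -/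
theorem ordDifferential_D [Nontrivial Ω[F⁄K]] (v : Place K F) (f : F) (c : K)
    (hn : v.ord (f - algebraMap K F c) ≠ 0) :
    v.ordDifferential (D K F f) = v.ord (f - algebraMap K F c) - 1 := by
  haveI := essFiniteType hF v
  exact LocalDiff.ordDifferential_D v (residue_surjective hF v) f c (Int.cast_ne_zero.mpr hn)

/-- Skeleton FF3b, finite places (with `Nontrivial Ω[F⁄K]`, which is FF3a `D_ne_zero`). -/
theorem ordDifferential_D_of_pos [Nontrivial Ω[F⁄K]] (v : Place K F) (c : K)
    (hv : v ∈ placesOver x c) :
    v.ordDifferential (D K F x) = v.ord (x - algebraMap K F c) - 1 :=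
  ordDifferential_D hF v x c (ne_of_gt hv)

/-- Skeleton FF3b, places over infinity. -/
theorem ordDifferential_D_of_neg [Nontrivial Ω[F⁄K]] (v : Place K F)
    (hv : v ∈ placesOverInfty K x) :
    v.ordDifferential (D K F x) = v.ord x - 1 := by
  have h := ordDifferential_D hF v x 0 (by simpa using ne_of_lt hv)
  simpa using h

end global

end Fermat.Agent.S24.DedekindModel
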