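import Mathlib
import Fermat.Prelude.Def_AlgebraicCurve_DivisorClassGroup

/-!
# S24, analytic field model: the ring of holomorphic functions on the upper half plane

* `Hol`: the `ℂ`-algebra of holomorphic functions `ℍ → ℂ`; it is a domain (identity theorem).
* `SL(2,ℤ)` acts on `Hol` by `(g • f) τ = f (g⁻¹ • τ)`.
* `ordAt τ₀ f`: the order of vanishing of `f` at `τ₀`.
-/

set_option autoImplicit false

open UpperHalfPlane Complex Filter Topology
open scoped MatrixGroups Manifold WithZero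

namespace Fermat.Agent.S24.HolH

/-- The `ℂ`-algebra of holomorphic functions on the upper half plane. -/
def Hol : Subalgebra ℂ (ℍ → ℂ) where
  carrier := {f | MDiff f}
  mul_mem' := fun hf hg => hf.mul hg
  add_mem' := fun hf hg => hf.add hg
  algebraMap_mem' := fun _ => mdifferentiable_const

theorem mem_Hol {f : ℍ → ℂ} : f ∈ Hol ↔ MDiff f := Iff.rfl

theorem Hol.mdiff (f : Hol) : MDiff (f : ℍ → ℂ) := f.2

/-- The extension of `f` to `ℂ` is differentiable on the open upper half plane. -/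
theorem Hol.differentiableOn (f : Hol) :
    DifferentiableOn ℂ ((f : ℍ → ℂ) ∘ ofComplex) upperHalfPlaneSet :=
  UpperHalfPlane.mdifferentiable_iff.mp f.2

theorem Hol.analyticOnNhd (f : Hol) :
    AnalyticOnNhd ℂ ((f : ℍ → ℂ) ∘ ofComplex) upperHalfPlaneSet :=
  (Hol.differentiableOn f).analyticOnNhd isOpen_upperHalfPlaneSet

theorem Hol.analyticAt (f : Hol) (τ : ℍ) : AnalyticAt ℂ ((f : ℍ → ℂ) ∘ ofComplex) (τ : ℂ) :=
  Hol.analyticOnNhd f τ τ.im_pos

theorem isPreconnected_upperHalfPlaneSet : IsPreconnected upperHalfPlaneSet :=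
  (convex_halfSpace_im_gt 0).isPreconnected

/-- Identity theorem: a holomorphic function on `ℍ` which vanishes near a point vanishes. -/
theorem Hol.eq_zero_of_eventuallyEq_zero (f : Hol) (τ : ℍ)
    (h : ((f : ℍ → ℂ) ∘ ofComplex) =ᶠ[𝓝 (τ : ℂ)] 0) : f = 0 := by
  have := (Hol.analyticOnNhd f).eqOn_zero_of_preconnected_of_eventuallyEq_zero
    isPreconnected_upperHalfPlaneSet τ.im_pos h
  ext σ
  have h2 := this σ.im_pos
  simpa using h2

instance : Nontrivial Hol := by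
  refine ⟨⟨0, 1, fun h => ?_⟩⟩
  have := congrArg (fun f : Hol => (f : ℍ → ℂ) UpperHalfPlane.I) h
  simp at this

instance : NoZeroDivisors Hol := by
  refine ⟨fun {f g} hfg => ?_⟩
  by_cases hf : f = 0
  · exact Or.inl hf
  · right
    obtain ⟨τ, hτ⟩ : ∃ τ : ℍ, (f : ℍ → ℂ) τ ≠ 0 := by
      by_contra! hcon
      exact hf (by ext σ; simpa using hcon σ)
    apply Hol.eq_zero_of_eventuallyEq_zero g τ
    have hcont : ContinuousAt ((f : ℍ → ℂ) ∘ ofComplex) (τ : ℂ) :=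
      (Hol.analyticAt f τ).continuousAt
    have hne : ∀ᶠ z in 𝓝 (τ : ℂ), ((f : ℍ → ℂ) ∘ ofComplex) z ≠ 0 := by
      apply hcont.eventually_ne
      simpa using hτ
    filter_upwards [hne] with z hz
    have h1 := congrArg (fun F : Hol => (F : ℍ → ℂ) (ofComplex z)) hfg
    simp only [Subalgebra.coe_mul, Pi.mul_apply, ZeroMemClass.coe_zero, Pi.zero_apply,
      mul_eq_zero] at h1
    rcases h1 with h1 | h1
    · exact absurd h1 hz
    · simpa using h1

instance : IsDomain Hol := NoZeroDivisors.to_isDomain _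

/-! ### The action of `SL(2,ℤ)` -/

theorem mdiff_smul_SL (g : SL(2, ℤ)) : MDiff (fun τ : ℍ => g • τ) :=
  mdifferentiable_smul (g := Matrix.SpecialLinearGroup.mapGL ℝ g) (by simp)

noncomputable instance : SMul SL(2, ℤ) Hol :=
  ⟨fun g f => ⟨fun τ => (f : ℍ → ℂ) (g⁻¹ • τ), f.2.comp (mdiff_smul_SL g⁻¹)⟩⟩

@[simp] theorem Hol.smul_apply (g : SL(2, ℤ)) (f : Hol) (τ : ℍ) :
    ((g • f : Hol) : ℍ → ℂ) τ = (f : ℍ → ℂ) (g⁻¹ • τ) := rfl

noncomputable instance : MulSemiringAction SL(2, ℤ) Hol where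
  one_smul f := by ext τ; simp
  mul_smul g h f := by ext τ; simp [mul_smul]
  smul_zero g := by ext τ; simp
  smul_add g f₁ f₂ := by ext τ; simp
  smul_one g := by ext τ; simp
  smul_mul g f₁ f₂ := by ext τ; simp

/-- The action commutes with scalar multiplication by constants. -/
instance : SMulCommClass SL(2, ℤ) ℂ Hol :=
  ⟨fun g c f => by ext τ; simp⟩

theorem Hol.smul_algebraMap (g : SL(2, ℤ)) (c : ℂ) :
    g • (algebraMap ℂ Hol c) = algebraMap ℂ Hol c := by
  ext τ; simp [Algebra.algebraMap_eq_smul_one]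

/-! ### Order of vanishing at a point -/

/-- The order of vanishing of `f` at `τ₀` (`⊤` iff `f = 0`). -/
noncomputable def ordAt (τ₀ : ℍ) (f : Hol) : ℕ∞ :=
  analyticOrderAt ((f : ℍ → ℂ) ∘ ofComplex) (τ₀ : ℂ)

theorem ordAt_eq_top_iff {τ₀ : ℍ} {f : Hol} : ordAt τ₀ f = ⊤ ↔ f = 0 := by
  constructor
  · intro h
    exact Hol.eq_zero_of_eventuallyEq_zero f τ₀ (analyticOrderAt_eq_top.mp h)
  · rintro rfl
    apply analyticOrderAt_eq_top.mpr
    exact Filter.Eventually.of_forall fun z => by simp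

@[simp] theorem ordAt_zero (τ₀ : ℍ) : ordAt τ₀ 0 = ⊤ := ordAt_eq_top_iff.mpr rfl

theorem ordAt_ne_top {τ₀ : ℍ} {f : Hol} (hf : f ≠ 0) : ordAt τ₀ f ≠ ⊤ :=
  fun h => hf (ordAt_eq_top_iff.mp h)

theorem ordAt_mul (τ₀ : ℍ) (f g : Hol) : ordAt τ₀ (f * g) = ordAt τ₀ f + ordAt τ₀ g :=
  analyticOrderAt_mul (Hol.analyticAt f τ₀) (Hol.analyticAt g τ₀)

theorem le_ordAt_add (τ₀ : ℍ) (f g : Hol) : min (ordAt τ₀ f) (ordAt τ₀ g) ≤ ordAt τ₀ (f + g) :=
  le_analyticOrderAt_add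

theorem ordAt_eq_zero_iff {τ₀ : ℍ} {f : Hol} : ordAt τ₀ f = 0 ↔ (f : ℍ → ℂ) τ₀ ≠ 0 := by
  unfold ordAt
  rw [(Hol.analyticAt f τ₀).analyticOrderAt_eq_zero]
  simp

theorem ordAt_pos_iff {τ₀ : ℍ} {f : Hol} : 0 < ordAt τ₀ f ↔ (f : ℍ → ℂ) τ₀ = 0 := by
  rw [pos_iff_ne_zero, ne_eq, ordAt_eq_zero_iff, not_not]

theorem ordAt_algebraMap {τ₀ : ℍ} {c : ℂ} (hc : c ≠ 0) : ordAt τ₀ (algebraMap ℂ Hol c) = 0 := by
  rw [ordAt_eq_zero_iff]
  simpa [Algebra.algebraMap_eq_smul_one] using hc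

@[simp] theorem ordAt_one (τ₀ : ℍ) : ordAt τ₀ 1 = 0 := by
  rw [ordAt_eq_zero_iff]; simp

theorem ordAt_pow (τ₀ : ℍ) (f : Hol) (n : ℕ) : ordAt τ₀ (f ^ n) = n • ordAt τ₀ f := by
  induction n with
  | zero => simp
  | succ n ih => rw [pow_succ, ordAt_mul, ih, succ_nsmul]

/-- The Möbius transformation attached to an integer matrix, as a function on `ℂ`. -/
noncomputable def moeb (g : SL(2, ℤ)) (z : ℂ) : ℂ :=
  ((g 0 0 : ℂ) * z + (g 0 1 : ℂ)) / ((g 1 0 : ℂ) * z + (g 1 1 : ℂ))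

theorem coe_smul_eq_moeb (g : SL(2, ℤ)) (τ : ℍ) : ((g • τ : ℍ) : ℂ) = moeb g (τ : ℂ) := by
  rw [UpperHalfPlane.coe_specialLinearGroup_apply]
  simp [moeb]

theorem moeb_denom_ne_zero (g : SL(2, ℤ)) {z : ℂ} (hz : 0 < z.im) :
    (g 1 0 : ℂ) * z + (g 1 1 : ℂ) ≠ 0 := by
  have := UpperHalfPlane.denom_ne_zero (Matrix.SpecialLinearGroup.mapGL ℝ g) ⟨z, hz⟩
  simpa [UpperHalfPlane.denom] using this

theorem hasDerivAt_moeb (g : SL(2, ℤ)) {z : ℂ} (hz : 0 < z.im) :
    HasDerivAt (moeb g) (1 / ((g 1 0 : ℂ) * z + (g 1 1 : ℂ)) ^ 2) z := by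
  have hne := moeb_denom_ne_zero g hz
  have hdet : (g 0 0 : ℂ) * (g 1 1 : ℂ) - (g 0 1 : ℂ) * (g 1 0 : ℂ) = 1 := by
    have := g.det_coe
    rw [Matrix.det_fin_two] at this
    exact_mod_cast this
  have h1 : HasDerivAt (fun z : ℂ => (g 0 0 : ℂ) * z + (g 0 1 : ℂ)) (g 0 0 : ℂ) z := by
    simpa using ((hasDerivAt_id z).const_mul (g 0 0 : ℂ)).add_const (g 0 1 : ℂ)
  have h2 : HasDerivAt (fun z : ℂ => (g 1 0 : ℂ) * z + (g 1 1 : ℂ)) (g 1 0 : ℂ) z := by
    simpa using ((hasDerivAt_id z).const_mul (g 1 0 : ℂ)).add_const (g 1 1 : ℂ)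
  have h3 := h1.div h2 hne
  refine h3.congr_deriv ?_
  field_simp
  linear_combination hdet

theorem moeb_im_pos (g : SL(2, ℤ)) {z : ℂ} (hz : 0 < z.im) : 0 < (moeb g z).im := by
  have := (g • (⟨z, hz⟩ : ℍ)).im_pos
  rw [← UpperHalfPlane.coe_im, coe_smul_eq_moeb] at this
  exact this

theorem ofComplex_moeb (g : SL(2, ℤ)) {z : ℂ} (hz : 0 < z.im) :
    ofComplex (moeb g z) = g • (ofComplex z) := by
  rw [ofComplex_apply_of_im_pos hz]
  apply UpperHalfPlane.ext
  rw [ofComplex_apply_of_im_pos (moeb_im_pos g hz), coe_smul_eq_moeb]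

theorem analyticAt_moeb (g : SL(2, ℤ)) {z : ℂ} (hz : 0 < z.im) : AnalyticAt ℂ (moeb g) z := by
  unfold moeb
  exact ((analyticAt_const.mul analyticAt_id).add analyticAt_const).div
    ((analyticAt_const.mul analyticAt_id).add analyticAt_const) (moeb_denom_ne_zero g hz)

/-- Equivariance of the order of vanishing. -/
theorem ordAt_smul (g : SL(2, ℤ)) (τ₀ : ℍ) (f : Hol) : ordAt (g • τ₀) (g • f) = ordAt τ₀ f := by
  unfold ordAt
  have hev : (((g • f : Hol) : ℍ → ℂ) ∘ ofComplex) =ᶠ[𝓝 ((g • τ₀ : ℍ) : ℂ)]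
      (((f : ℍ → ℂ) ∘ ofComplex) ∘ moeb g⁻¹) := by
    filter_upwards [isOpen_upperHalfPlaneSet.mem_nhds (g • τ₀).im_pos] with z hz
    simp only [Function.comp_apply, Hol.smul_apply]
    rw [ofComplex_moeb g⁻¹ hz]
  rw [analyticOrderAt_congr hev]
  have hd := hasDerivAt_moeb g⁻¹ (g • τ₀).im_pos
  rw [analyticOrderAt_comp_of_deriv_ne_zero (analyticAt_moeb g⁻¹ (g • τ₀).im_pos) ?_]
  · congr 1
    rw [← coe_smul_eq_moeb, inv_smul_smul]
  · rw [hd.deriv]
    exact one_div_ne_zero (pow_ne_zero 2 (moeb_denom_ne_zero g⁻¹ (g • τ₀).im_pos))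

/-! ### The valuation at a point, on `Hol` and on its fraction field -/

open Classical in
/-- The multiplicative valuation on `Hol` attached to the point `τ₀`:
`f ↦ exp (-(ord_{τ₀} f))`. -/
noncomputable def holVal (τ₀ : ℍ) : Valuation Hol ℤᵐ⁰ where
  toFun f := if f = 0 then 0 else WithZero.exp (-((ordAt τ₀ f).toNat : ℤ))
  map_zero' := by simp
  map_one' := by simp
  map_mul' f g := by
    by_cases hf : f = 0
    · simp [hf]
    by_cases hg : g = 0
    · simp [hg]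
    rw [if_neg hf, if_neg hg, if_neg (mul_ne_zero hf hg), ordAt_mul,
      ENat.toNat_add (ordAt_ne_top hf) (ordAt_ne_top hg), ← WithZero.exp_add]
    congr 1
    push_cast
    ring
  map_add_le_max' f g := by
    by_cases hfg : f + g = 0
    · simp [hfg]
    by_cases hf : f = 0
    · simp [hf]
    by_cases hg : g = 0
    · simp [hg]
    rw [if_neg hf, if_neg hg, if_neg hfg, le_max_iff, WithZero.exp_le_exp, WithZero.exp_le_exp,
      neg_le_neg_iff,
      neg_le_neg_iff, Nat.cast_le, Nat.cast_le]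
    have h := le_ordAt_add τ₀ f g
    rw [← ENat.natCast_toNat (ordAt_ne_top hf), ← ENat.natCast_toNat (ordAt_ne_top hg),
      ← ENat.natCast_toNat (ordAt_ne_top hfg)] at h
    rcases le_total (ordAt τ₀ f).toNat (ordAt τ₀ g).toNat with h1 | h1
    · left
      rw [min_eq_left (by exact_mod_cast h1)] at h
      exact_mod_cast h
    · right
      rw [min_eq_right (by exact_mod_cast h1)] at h
      exact_mod_cast h

theorem holVal_apply {τ₀ : ℍ} {f : Hol} (hf : f ≠ 0) :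
    holVal τ₀ f = WithZero.exp (-((ordAt τ₀ f).toNat : ℤ)) := if_neg hf

theorem holVal_supp (τ₀ : ℍ) : (holVal τ₀).supp = ⊥ := by
  ext f
  rw [Valuation.mem_supp_iff, Ideal.mem_bot]
  constructor
  · intro h
    by_contra hf
    rw [holVal_apply hf] at h
    exact WithZero.exp_ne_zero h
  · rintro rfl
    simp

theorem holVal_smul (g : SL(2, ℤ)) (τ₀ : ℍ) (f : Hol) : holVal (g • τ₀) (g • f) = holVal τ₀ f := by
  by_cases hf : f = 0
  · simp [hf]
  · have hgf : g • f ≠ 0 := by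
      intro h
      apply hf
      have := congrArg (fun F => g⁻¹ • F) h
      simpa using this
    rw [holVal_apply hf, holVal_apply hgf, ordAt_smul]

/-- The field of meromorphic functions on `ℍ`: the fraction field of `Hol`. -/
abbrev Mer : Type := FractionRing Hol

noncomputable instance : MulSemiringAction SL(2, ℤ) Mer :=
  IsFractionRing.mulSemiringAction SL(2, ℤ) Hol Mer

instance : SMulDistribClass SL(2, ℤ) Hol Mer :=
  IsFractionRing.smulDistribClass SL(2, ℤ) Hol Mer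

theorem Mer.smul_algebraMap (g : SL(2, ℤ)) (f : Hol) :
    g • (algebraMap Hol Mer f) = algebraMap Hol Mer (g • f) :=
  (algebraMap.coe_smul' g f Mer).symm

/-- The valuation on `Mer` attached to the point `τ₀`. -/
noncomputable def valAt (τ₀ : ℍ) : Valuation Mer ℤᵐ⁰ :=
  (holVal τ₀).extendToLocalization
    (S := nonZeroDivisors Hol)
    (by
      intro f hf
      rw [Ideal.mem_primeCompl_iff, holVal_supp, Ideal.mem_bot]
      exact nonZeroDivisors.ne_zero hf)
    Mer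

@[simp] theorem valAt_algebraMap (τ₀ : ℍ) (f : Hol) :
    valAt τ₀ (algebraMap Hol Mer f) = holVal τ₀ f :=
  Valuation.extendToLocalization_apply_map_apply _ _ _ _

theorem valAt_smul (g : SL(2, ℤ)) (τ₀ : ℍ) (x : Mer) : valAt (g • τ₀) (g • x) = valAt τ₀ x := by
  obtain ⟨a, b, hb, rfl⟩ := IsFractionRing.div_surjective Hol x
  rw [smul_div₀', map_div₀, map_div₀, Mer.smul_algebraMap, Mer.smul_algebraMap, valAt_algebraMap,
    valAt_algebraMap, valAt_algebraMap, valAt_algebraMap, holVal_smul, holVal_smul]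

/-- Nonzero constants have valuation `1`. -/
theorem valAt_algebraMap_complex (τ₀ : ℍ) {c : ℂ} (hc : c ≠ 0) :
    valAt τ₀ (algebraMap ℂ Mer c) = 1 := by
  rw [IsScalarTower.algebraMap_apply ℂ Hol Mer, valAt_algebraMap, holVal_apply, ordAt_algebraMap hc]
  · simp
  · intro h
    have := congrArg (fun F : Hol => (F : ℍ → ℂ) UpperHalfPlane.I) h
    simp [Algebra.algebraMap_eq_smul_one] at this
    exact hc this

end Fermat.Agent.S24.HolH
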