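import Mathlib

/-!
# S24, layer (C-d): rigidity of the analytic `j`-function under rational Moebius maps

`jA τ = E₄ τ ^ 3 / Δ τ` on the upper half plane, `jC z = jA (ofComplex z)` its extension to `ℂ`.

Main results (no valence formula, no injectivity of `j` on a fundamental domain is used; only the
asymptotics `jA τ * exp (2 π i τ) → 1` at `i∞` and `SL(2,ℤ)`-invariance):

* `tendsto_jA_mul_q`     : `jA τ * 𝕢 1 τ → 1` along `atImInfty`.
* `jA_smul`              : `jA (γ • τ) = jA τ` for `γ : SL(2,ℤ)`.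
* `growth_rigidity`      : `jC (r₁ i t + β₁) = jC (r₂ i t + β₂)` for all `t > 0` forces `r₁ = r₂`.
* `translation_rigidity` : `jC (i t + β) = jC (i t)` for all `t > 0` forces `β ∈ ℤ`.
* `upper_triangular_rigidity` : `jC ((a τ + b) / d) = jC τ` for all `τ` forces `a = d`, `d ∣ b`.
* `mem_Gamma0_iff_forall_jC_eq` : for `γ : SL(2,ℤ)`:
    `γ ∈ Γ₀(N) ↔ ∀ τ, jC (N * (γ • τ)) = jC (N * τ)`.
* `forall_jC_eq_iff_mul_inv_mem_Gamma0` : the `ψ(N)` conjugates `τ ↦ j (N γ τ)` are pairwise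
    distinct for distinct cosets `Γ₀(N) γ`.
-/

open ModularForm EisensteinSeries Filter Topology Complex MatrixGroups
  CongruenceSubgroup
open UpperHalfPlane hiding I
open scoped Real

noncomputable section

namespace Fermat.Agent.S24.JStab

local notation "𝕢" => Function.Periodic.qParam

/-- The analytic `j`-function `E₄³ / Δ` on the upper half plane. -/
def jA (τ : ℍ) : ℂ := E₄ τ ^ 3 / ModularForm.discriminant τ

/-- Extension of `jA` to all of `ℂ` (junk value off the upper half plane). -/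
def jC (z : ℂ) : ℂ := jA (ofComplex z)

@[simp]
lemma jC_coe (τ : ℍ) : jC (τ : ℂ) = jA τ := by
  simp [jC]

lemma jC_of_im_pos {z : ℂ} (hz : 0 < z.im) : jC z = jA ⟨z, hz⟩ := by
  rw [jC, ofComplex_apply_of_im_pos hz]

/-! ### Behaviour at `i∞` -/

lemma tendsto_E4 : Tendsto (fun τ : ℍ => E₄ τ) atImInfty (𝓝 1) := by
  have han : AnalyticAt ℂ (cuspFunction 1 (E₄ : ℍ → ℂ)) 0 :=
    ModularFormClass.analyticAt_cuspFunction_zero E₄ one_pos one_mem_strictPeriods_SL
  have h0 : cuspFunction 1 (E₄ : ℍ → ℂ) 0 = 1 := by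
    have := E_qExpansion_coeff_zero (k := 4) (by norm_num) ⟨2, rfl⟩
    simpa [qExpansion_coeff] using this
  have hcomp : (fun τ : ℍ => E₄ τ)
      = (cuspFunction 1 (E₄ : ℍ → ℂ)) ∘ (fun τ : ℍ => 𝕢 1 τ) := by
    funext τ
    exact (SlashInvariantFormClass.eq_cuspFunction E₄ τ one_mem_strictPeriods_SL one_ne_zero).symm
  rw [hcomp]
  have := han.continuousAt.tendsto.comp (qParam_tendsto_atImInfty one_pos)
  rwa [h0] at this

/-- `j(τ) q(τ) → 1` as `Im τ → ∞`. -/
theorem tendsto_jA_mul_q : Tendsto (fun τ : ℍ => jA τ * 𝕢 1 τ) atImInfty (𝓝 1) := by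
  have h1 := tendsto_E4.pow 3
  have h2 := ModularForm.tendsto_atImInfty_tprod_one_sub_eta_q_pow
  have h3 := h1.div h2 one_ne_zero
  simp only [one_pow, div_one] at h3
  refine h3.congr fun τ => ?_
  simp only [Pi.div_apply]
  rw [jA, ModularForm.discriminant_eq_q_prod]
  have hq : 𝕢 1 (τ : ℂ) ≠ 0 := Function.Periodic.qParam_ne_zero _
  have hP : (∏' (n : ℕ), (1 - eta_q n ↑τ) ^ 24) ≠ 0 := by
    have := ModularForm.discriminant_ne_zero τ
    rw [ModularForm.discriminant_eq_q_prod] at this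
    exact right_ne_zero_of_mul this
  field_simp

/-! ### `SL(2,ℤ)`-invariance -/

lemma E4_smul (γ : SL(2, ℤ)) (τ : ℍ) : E₄ (γ • τ) = denom γ τ ^ (4 : ℤ) * E₄ τ := by
  have : SlashInvariantFormClass (ModularForm 𝒮ℒ 4) Γ(1) 4 := Gamma_one_coe_eq_SL ▸ inferInstance
  exact SlashInvariantForm.slash_action_eqn_SL'' E₄ (mem_Gamma_one γ) τ

lemma disc_smul (γ : SL(2, ℤ)) (τ : ℍ) :
    ModularForm.discriminant (γ • τ) = denom γ τ ^ (12 : ℤ) * ModularForm.discriminant τ := by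
  have : SlashInvariantFormClass (CuspForm 𝒮ℒ 12) Γ(1) 12 := Gamma_one_coe_eq_SL ▸ inferInstance
  exact SlashInvariantForm.slash_action_eqn_SL'' CuspForm.discriminant (mem_Gamma_one γ) τ

/-- `j` is `SL(2,ℤ)`-invariant. -/
theorem jA_smul (γ : SL(2, ℤ)) (τ : ℍ) : jA (γ • τ) = jA τ := by
  rw [jA, jA, E4_smul, disc_smul]
  have hd : denom γ τ ≠ 0 := denom_ne_zero _ _
  have hΔ := ModularForm.discriminant_ne_zero τ
  field_simp

/-! ### Vertical rays -/

/-- The ray `t ↦ r (i t) + β`. -/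
def ray (r β t : ℝ) : ℂ := (r : ℂ) * (I * (t : ℂ)) + (β : ℂ)

@[simp]
lemma ray_im (r β t : ℝ) : (ray r β t).im = r * t := by
  simp [ray]

lemma ray_im_pos {r t : ℝ} (hr : 0 < r) (ht : 0 < t) (β : ℝ) : 0 < (ray r β t).im := by
  rw [ray_im]; positivity

lemma tendsto_ofComplex_ray {r : ℝ} (hr : 0 < r) (β : ℝ) :
    Tendsto (fun t : ℝ => ofComplex (ray r β t)) atTop atImInfty := by
  rw [atImInfty, tendsto_comap_iff]
  have h1 : Tendsto (fun t : ℝ => r * t) atTop atTop := tendsto_id.const_mul_atTop hr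
  refine h1.congr' ?_
  filter_upwards [eventually_gt_atTop (0 : ℝ)] with t ht
  have hpos : 0 < (ray r β t).im := ray_im_pos hr ht β
  simp only [Function.comp_apply]
  rw [ofComplex_apply_of_im_pos hpos]
  exact (ray_im r β t).symm

/-- `j q → 1` along any vertical ray. -/
lemma tendsto_jC_mul_q_ray {r : ℝ} (hr : 0 < r) (β : ℝ) :
    Tendsto (fun t : ℝ => jC (ray r β t) * 𝕢 1 (ray r β t)) atTop (𝓝 1) := by
  have h := tendsto_jA_mul_q.comp (tendsto_ofComplex_ray hr β)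
  refine h.congr' ?_
  filter_upwards [eventually_gt_atTop (0 : ℝ)] with t ht
  have hpos : 0 < (ray r β t).im := ray_im_pos hr ht β
  simp only [Function.comp_apply, jC]
  rw [ofComplex_apply_of_im_pos hpos]

lemma norm_q_ray (r β t : ℝ) : ‖𝕢 1 (ray r β t)‖ = Real.exp (-2 * π * (r * t)) := by
  rw [Function.Periodic.norm_qParam, ray_im]
  simp

lemma tendsto_norm_jC_ray {r : ℝ} (hr : 0 < r) (β : ℝ) :
    Tendsto (fun t : ℝ => ‖jC (ray r β t)‖ * Real.exp (-2 * π * (r * t))) atTop (𝓝 1) := by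
  have h := (tendsto_jC_mul_q_ray hr β).norm
  simp only [norm_mul, norm_one, norm_q_ray] at h
  exact h

/-! ### Rigidity -/

private lemma growth_aux {r₁ r₂ β₁ β₂ : ℝ} (h₁ : 0 < r₁) (h₂ : 0 < r₂)
    (h : ∀ t : ℝ, 0 < t → jC (ray r₁ β₁ t) = jC (ray r₂ β₂ t)) : ¬ r₁ < r₂ := by
  intro hlt
  have hF₁ := tendsto_norm_jC_ray h₁ β₁
  have hF₂ := tendsto_norm_jC_ray h₂ β₂
  -- `F₂ t * exp (2π (r₂ - r₁) t) = F₁ t`
  have hE : Tendsto (fun t : ℝ => Real.exp (2 * π * (r₂ - r₁) * t)) atTop atTop := by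
    refine Real.tendsto_exp_atTop.comp (tendsto_id.const_mul_atTop ?_)
    have : 0 < r₂ - r₁ := sub_pos.mpr hlt
    positivity
  have hprod := hF₂.pos_mul_atTop one_pos hE
  have hcongr : (fun t : ℝ => ‖jC (ray r₂ β₂ t)‖ * Real.exp (-2 * π * (r₂ * t))
      * Real.exp (2 * π * (r₂ - r₁) * t))
      =ᶠ[atTop] (fun t : ℝ => ‖jC (ray r₁ β₁ t)‖ * Real.exp (-2 * π * (r₁ * t))) := by
    filter_upwards [eventually_gt_atTop (0 : ℝ)] with t ht
    rw [h t ht, mul_assoc, ← Real.exp_add]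
    congr 2
    ring
  have := hprod.congr' hcongr
  exact not_tendsto_nhds_of_tendsto_atTop this 1 hF₁

/-- If `j` agrees along two vertical rays `r₁ (i t) + β₁`, `r₂ (i t) + β₂`, then `r₁ = r₂`. -/
theorem growth_rigidity {r₁ r₂ β₁ β₂ : ℝ} (h₁ : 0 < r₁) (h₂ : 0 < r₂)
    (h : ∀ t : ℝ, 0 < t → jC (ray r₁ β₁ t) = jC (ray r₂ β₂ t)) : r₁ = r₂ := by
  rcases lt_trichotomy r₁ r₂ with hlt | heq | hgt
  · exact absurd hlt (growth_aux h₁ h₂ h)
  · exact heq
  · exact absurd hgt (growth_aux h₂ h₁ fun t ht => (h t ht).symm)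

/-- If `j (i t + β) = j (i t)` for all `t > 0` then `β` is an integer. -/
theorem translation_rigidity {β : ℝ}
    (h : ∀ t : ℝ, 0 < t → jC (ray 1 β t) = jC (ray 1 0 t)) : ∃ n : ℤ, β = n := by
  have hA := tendsto_jC_mul_q_ray one_pos β
  have hB := tendsto_jC_mul_q_ray one_pos 0
  have hq : ∀ t : ℝ, 𝕢 1 (ray 1 β t) = 𝕢 1 (ray 1 0 t) * Complex.exp (2 * π * I * β) := by
    intro t
    simp only [Function.Periodic.qParam, ray, ← Complex.exp_add]
    congr 1
    simp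
    ring
  have hB' := hB.mul_const (Complex.exp (2 * π * I * β))
  have hcongr : (fun t : ℝ => jC (ray 1 0 t) * 𝕢 1 (ray 1 0 t) * Complex.exp (2 * π * I * β))
      =ᶠ[atTop] (fun t : ℝ => jC (ray 1 β t) * 𝕢 1 (ray 1 β t)) := by
    filter_upwards [eventually_gt_atTop (0 : ℝ)] with t ht
    rw [h t ht, hq t, mul_assoc]
  have huniq := tendsto_nhds_unique (hB'.congr' hcongr) hA
  rw [one_mul] at huniq
  obtain ⟨n, hn⟩ := Complex.exp_eq_one_iff.mp huniq
  refine ⟨n, ?_⟩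
  have h2 : (2 * π * I : ℂ) ≠ 0 := by
    simp [Real.pi_ne_zero]
  have h3 : (β : ℂ) = (n : ℂ) := by
    have : (2 * π * I : ℂ) * β = (2 * π * I) * n := by rw [hn]; ring
    exact mul_left_cancel₀ h2 this
  exact_mod_cast h3

/-- Rigidity for upper triangular integer matrices: if `j ((a τ + b) / d) = j τ` for all `τ`
(with `a, d > 0`) then `a = d` and `d ∣ b`. -/
theorem upper_triangular_rigidity {a d b : ℤ} (ha : 0 < a) (hd : 0 < d)
    (h : ∀ τ : ℍ, jC (((a : ℂ) * τ + b) / d) = jC τ) : a = d ∧ d ∣ b := by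
  have haR : (0 : ℝ) < a := by exact_mod_cast ha
  have hdR : (0 : ℝ) < d := by exact_mod_cast hd
  have hdC : (d : ℂ) ≠ 0 := by exact_mod_cast hd.ne'
  have hray : ∀ t : ℝ, 0 < t → jC (ray ((a : ℝ) / d) ((b : ℝ) / d) t) = jC (ray 1 0 t) := by
    intro t ht
    have hpos : 0 < (ray 1 0 t).im := ray_im_pos one_pos ht 0
    have := h ⟨ray 1 0 t, hpos⟩
    rw [← this]
    congr 1
    simp only [ray]
    push_cast
    field_simp
    ring
  have h1 : (a : ℝ) / d = 1 := growth_rigidity (by positivity) one_pos hray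
  have had : a = d := by
    have : (a : ℝ) = d := by
      field_simp at h1
      exact h1
    exact_mod_cast this
  refine ⟨had, ?_⟩
  rw [h1] at hray
  obtain ⟨n, hn⟩ := translation_rigidity hray
  refine ⟨n, ?_⟩
  have h2 : (b : ℝ) = d * n := by
    field_simp at hn
    linarith
  exact_mod_cast h2

/-- Hermite normal form of `diag(N,1) * γ`: there are `γ₀ ∈ SL(2,ℤ)` and an upper triangular
integer matrix `(g, b'; 0, d')` with `g d' = N`, `g ∣ γ₁₀`, such that
`N * (γ τ) = γ₀ ((g τ + b') / d')` for all `τ`. -/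
lemma exists_hermite {N : ℕ} (hN : 0 < N) (γ : SL(2, ℤ)) :
    ∃ (γ₀ : SL(2, ℤ)) (g d' b' : ℤ), 0 < g ∧ 0 < d' ∧ g * d' = N ∧ g ∣ γ 1 0 ∧
      ∀ τ : ℍ, ∃ hw : 0 < (((g : ℂ) * τ + b') / d').im,
        (N : ℂ) * ((γ • τ : ℍ) : ℂ) = ((γ₀ • (⟨((g : ℂ) * τ + b') / d', hw⟩ : ℍ) : ℍ) : ℂ) := by
  set a := γ 0 0 with ha
  set b := γ 0 1 with hb
  set c := γ 1 0 with hc
  set d := γ 1 1 with hd
  have hdet : a * d - b * c = 1 := by
    have := γ.det_coe
    rw [Matrix.det_fin_two] at this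
    exact this
  have hNz : (N : ℤ) ≠ 0 := by exact_mod_cast hN.ne'
  have hgpos : 0 < Int.gcd (N : ℤ) c := Int.gcd_pos_of_ne_zero_left _ hNz
  obtain ⟨g, d', c', hg, hcop, hNd, hcc⟩ := Int.exists_gcd_one' hgpos
  have hgZ : (0 : ℤ) < g := by exact_mod_cast hg
  have hd'pos : 0 < d' := by
    have : (0 : ℤ) < d' * g := by rw [← hNd]; exact_mod_cast hN
    exact pos_of_mul_pos_left this hgZ.le
  -- coprimality of `d' * a` and `c'`
  have hcop1 : IsCoprime d' c' := Int.isCoprime_iff_gcd_eq_one.mpr hcop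
  have hcop2 : IsCoprime a c := ⟨d, -b, by linarith⟩
  have hcop3 : IsCoprime a c' := by
    rw [hcc] at hcop2
    exact hcop2.of_mul_right_left
  obtain ⟨u, v, huv⟩ : IsCoprime (d' * a) c' := hcop1.mul_left hcop3
  -- the matrix γ₀ and the shift b'
  let γ₀ : SL(2, ℤ) := ⟨!![d' * a, -v; c', u], by
    rw [Matrix.det_fin_two_of]; linarith⟩
  refine ⟨γ₀, g, d', u * N * b + v * d, hgZ, hd'pos, by rw [hNd]; ring, ⟨c', by rw [hcc]; ring⟩, ?_⟩
  intro τ
  have hI1 : a * (u * N * b + v * d) - v = g * b := by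
    have e1 : a * (u * N * b + v * d) - v = b * (u * (d' * a) * g + v * (c' * g))
        + v * (a * d - b * (c' * g) - 1) := by rw [hNd]; ring
    rw [e1, ← hcc, hdet]
    have : u * (d' * a) * g + v * c = g * (u * (d' * a) + v * c') := by rw [hcc]; ring
    rw [this, huv]; ring
  have hI2 : c' * (u * N * b + v * d) + u * d' = d := by
    have e1 : c' * (u * N * b + v * d) + u * d' = u * d' * (b * (c' * g) + 1) + c' * v * d := by
      rw [hNd]; ring
    rw [e1, ← hcc]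
    have : b * c + 1 = a * d := by linarith
    rw [this]
    have : u * d' * (a * d) + c' * v * d = d * (u * (d' * a) + v * c') := by ring
    rw [this, huv]; ring
  have hd'C : (d' : ℂ) ≠ 0 := by exact_mod_cast hd'pos.ne'
  have hw : 0 < (((g : ℂ) * τ + ((u * N * b + v * d : ℤ) : ℂ)) / d').im := by
    have : (((g : ℂ) * τ + ((u * N * b + v * d : ℤ) : ℂ)) / d').im = g * τ.im / d' := by
      rw [← Int.cast_natCast (R := ℂ)]
      simp [Complex.div_intCast_im]
    rw [this]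
    have h1 : (0 : ℝ) < g := by exact_mod_cast hgZ
    have h2 : (0 : ℝ) < d' := by exact_mod_cast hd'pos
    have := τ.im_pos
    positivity
  refine ⟨by simpa using hw, ?_⟩
  rw [coe_specialLinearGroup_apply, coe_specialLinearGroup_apply]
  simp only [algebraMap_int_eq, Int.coe_castRingHom]
  have e00 : (γ₀ 0 0 : ℤ) = d' * a := rfl
  have e01 : (γ₀ 0 1 : ℤ) = -v := rfl
  have e10 : (γ₀ 1 0 : ℤ) = c' := rfl
  have e11 : (γ₀ 1 1 : ℤ) = u := rfl
  rw [e00, e01, e10, e11, ← ha, ← hb, ← hc, ← hd]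
  have hI1C : (a : ℂ) * (u * N * b + v * d) - v = g * b := by exact_mod_cast hI1
  have hI2C : (c' : ℂ) * (u * N * b + v * d) + u * d' = d := by exact_mod_cast hI2
  have hNdC : (N : ℂ) = d' * g := by exact_mod_cast hNd
  have hccC : (c : ℂ) = c' * g := by exact_mod_cast hcc
  have hden0 : (c : ℂ) * τ + d ≠ 0 := by
    have := UpperHalfPlane.denom_ne_zero γ τ
    simpa [denom, ← hc, ← hd] using this
  push_cast
  have hnum : ((d' : ℂ) * a) * (((g : ℂ) * τ + (u * N * b + v * d)) / d') + -v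
      = g * (a * τ + b) := by
    field_simp
    linear_combination hI1C
  have hden : (c' : ℂ) * (((g : ℂ) * τ + (u * N * b + v * d)) / d') + u
      = (c * τ + d) / d' := by
    field_simp
    linear_combination hI2C - (τ : ℂ) * hccC
  rw [hnum, hden, hNdC]
  field_simp

/-- **Stabiliser of `j(Nτ)`, hard direction.** If `j (N γ τ) = j (N τ)` for all `τ`, then
`γ ∈ Γ₀(N)`. -/
theorem mem_Gamma0_of_forall_jC_eq {N : ℕ} (hN : 0 < N) {γ : SL(2, ℤ)}
    (h : ∀ τ : ℍ, jC ((N : ℂ) * ((γ • τ : ℍ) : ℂ)) = jC ((N : ℂ) * τ)) : γ ∈ Gamma0 N := by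
  obtain ⟨γ₀, g, d', b', hg, hd', hgd, hgc, hmoeb⟩ := exists_hermite hN γ
  have key : ∀ τ : ℍ, jC (((g : ℂ) * τ + b') / d') = jC ((N : ℂ) * τ) := by
    intro τ
    obtain ⟨hw, hτ⟩ := hmoeb τ
    rw [← h τ, hτ, jC_coe, jA_smul, jC_of_im_pos hw]
  have hgR : (0 : ℝ) < g := by exact_mod_cast hg
  have hdR : (0 : ℝ) < d' := by exact_mod_cast hd'
  have hNR : (0 : ℝ) < N := by exact_mod_cast hN
  have hdC : (d' : ℂ) ≠ 0 := by exact_mod_cast hd'.ne'
  have hray : ∀ t : ℝ, 0 < t → jC (ray ((g : ℝ) / d') ((b' : ℝ) / d') t) = jC (ray N 0 t) := by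
    intro t ht
    have hpos : 0 < (ray 1 0 t).im := ray_im_pos one_pos ht 0
    have := key ⟨ray 1 0 t, hpos⟩
    have e1 : ray ((g : ℝ) / d') ((b' : ℝ) / d') t
        = ((g : ℂ) * ((⟨ray 1 0 t, hpos⟩ : ℍ) : ℂ) + b') / d' := by
      simp only [ray]
      push_cast
      field_simp
      ring
    have e2 : ray N 0 t = (N : ℂ) * ((⟨ray 1 0 t, hpos⟩ : ℍ) : ℂ) := by
      simp only [ray]
      push_cast
      ring
    rw [e1, e2]
    exact this
  have h1 : (g : ℝ) / d' = N := growth_rigidity (by positivity) hNR hray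
  have h2 : g = N * d' := by
    have : (g : ℝ) = N * d' := by
      field_simp at h1
      linarith
    exact_mod_cast this
  -- `g * d' = N` and `g = N * d'` force `d' = 1`
  have h3 : d' = 1 := by
    have hNZ : (0 : ℤ) < N := by exact_mod_cast hN
    have h4 : (N : ℤ) * (d' * d') = N * 1 := by
      calc (N : ℤ) * (d' * d') = (N * d') * d' := by ring
        _ = g * d' := by rw [h2]
        _ = N * 1 := by rw [hgd]; ring
    have h5 : d' * d' = 1 := mul_left_cancel₀ hNZ.ne' h4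
    nlinarith
  have h6 : g = N := by rw [h2, h3, mul_one]
  rw [Gamma0_mem]
  rw [h6] at hgc
  exact (ZMod.intCast_zmod_eq_zero_iff_dvd _ _).mpr hgc

/-- **Stabiliser of `j(Nτ)`, easy direction.** -/
theorem jC_eq_of_mem_Gamma0 {N : ℕ} (hN : 0 < N) {γ : SL(2, ℤ)} (hγ : γ ∈ Gamma0 N) (τ : ℍ) :
    jC ((N : ℂ) * ((γ • τ : ℍ) : ℂ)) = jC ((N : ℂ) * τ) := by
  rw [Gamma0_mem] at hγ
  obtain ⟨c'', hc''⟩ := (ZMod.intCast_zmod_eq_zero_iff_dvd _ _).mp hγ
  have hdet : γ 0 0 * γ 1 1 - γ 0 1 * γ 1 0 = 1 := by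
    have := γ.det_coe
    rw [Matrix.det_fin_two] at this
    exact this
  let γ' : SL(2, ℤ) := ⟨!![γ 0 0, N * γ 0 1; c'', γ 1 1], by
    rw [Matrix.det_fin_two_of]
    rw [hc''] at hdet
    linarith⟩
  have hNR : (0 : ℝ) < N := by exact_mod_cast hN
  have hpos : 0 < ((N : ℂ) * (τ : ℂ)).im := by
    have : ((N : ℂ) * (τ : ℂ)).im = N * τ.im := by simp
    rw [this]
    exact mul_pos hNR τ.im_pos
  have hmoeb : (N : ℂ) * ((γ • τ : ℍ) : ℂ) = ((γ' • (⟨(N : ℂ) * τ, hpos⟩ : ℍ) : ℍ) : ℂ) := by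
    rw [coe_specialLinearGroup_apply, coe_specialLinearGroup_apply]
    simp only [algebraMap_int_eq, Int.coe_castRingHom]
    have e00 : (γ' 0 0 : ℤ) = γ 0 0 := rfl
    have e01 : (γ' 0 1 : ℤ) = N * γ 0 1 := rfl
    have e10 : (γ' 1 0 : ℤ) = c'' := rfl
    have e11 : (γ' 1 1 : ℤ) = γ 1 1 := rfl
    rw [e00, e01, e10, e11]
    have hden0 : ((γ 1 0 : ℤ) : ℂ) * τ + ((γ 1 1 : ℤ) : ℂ) ≠ 0 := by
      have := UpperHalfPlane.denom_ne_zero γ τ
      simpa [denom] using this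
    have hcC : ((γ 1 0 : ℤ) : ℂ) = N * c'' := by exact_mod_cast hc''
    push_cast
    have hden : (c'' : ℂ) * ((N : ℂ) * τ) + ((γ 1 1 : ℤ) : ℂ)
        = ((γ 1 0 : ℤ) : ℂ) * τ + ((γ 1 1 : ℤ) : ℂ) := by
      rw [hcC]; ring
    rw [coe_mk, hden]
    field_simp
  rw [hmoeb, jC_coe, jA_smul, jC_of_im_pos hpos]

/-- **Stabiliser of `j(Nτ)` in `SL(2,ℤ)` is `Γ₀(N)`.** -/
theorem mem_Gamma0_iff_forall_jC_eq {N : ℕ} (hN : 0 < N) (γ : SL(2, ℤ)) :
    γ ∈ Gamma0 N ↔ ∀ τ : ℍ, jC ((N : ℂ) * ((γ • τ : ℍ) : ℂ)) = jC ((N : ℂ) * τ) :=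
  ⟨fun hγ τ => jC_eq_of_mem_Gamma0 hN hγ τ, mem_Gamma0_of_forall_jC_eq hN⟩

/-- The conjugates `τ ↦ j (N γ τ)` are distinct for distinct cosets `Γ₀(N) γ`. -/
theorem forall_jC_eq_iff_mul_inv_mem_Gamma0 {N : ℕ} (hN : 0 < N) (γ₁ γ₂ : SL(2, ℤ)) :
    (∀ τ : ℍ, jC ((N : ℂ) * ((γ₁ • τ : ℍ) : ℂ)) = jC ((N : ℂ) * ((γ₂ • τ : ℍ) : ℂ)))
      ↔ γ₁ * γ₂⁻¹ ∈ Gamma0 N := by
  rw [mem_Gamma0_iff_forall_jC_eq hN]
  constructor
  · intro h τ
    have := h (γ₂⁻¹ • τ)
    rwa [← mul_smul, smul_inv_smul] at this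
  · intro h τ
    have := h (γ₂ • τ)
    rwa [mul_smul, inv_smul_smul] at this

/-- Periods of `j` under real translations are exactly the integers. -/
theorem translation_period (β : ℝ) :
    (∀ τ : ℍ, jC ((τ : ℂ) + β) = jC τ) ↔ ∃ n : ℤ, β = n := by
  constructor
  · intro h
    refine translation_rigidity fun t ht => ?_
    have hpos : 0 < (ray 1 0 t).im := ray_im_pos one_pos ht 0
    have := h ⟨ray 1 0 t, hpos⟩
    rw [← this]
    congr 1
    simp only [ray]
    push_cast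
    ring
  · rintro ⟨n, rfl⟩ τ
    have : ((τ : ℂ) + ((n : ℤ) : ℝ)) = ((ModularGroup.T ^ n • τ : ℍ) : ℂ) := by
      rw [ModularGroup.coe_T_zpow_smul_eq]
      push_cast
      rfl
    rw [this, jC_coe, jA_smul, jC_coe]

/-- `T^k` moves `τ ↦ j (τ / N)` unless `N ∣ k`. -/
theorem forall_jC_add_div_eq_iff {N : ℕ} (hN : 0 < N) (k : ℤ) :
    (∀ τ : ℍ, jC (((τ : ℂ) + k) / N) = jC ((τ : ℂ) / N)) ↔ (N : ℤ) ∣ k := by
  have hNR : (0 : ℝ) < N := by exact_mod_cast hN
  have hNC : (N : ℂ) ≠ 0 := by exact_mod_cast hN.ne'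
  constructor
  · intro h
    have h' : ∀ τ : ℍ, jC ((τ : ℂ) + ((k : ℝ) / N : ℝ)) = jC τ := by
      intro τ
      have hpos : 0 < ((N : ℂ) * (τ : ℂ)).im := by
        have : ((N : ℂ) * (τ : ℂ)).im = N * τ.im := by simp
        rw [this]
        exact mul_pos hNR τ.im_pos
      have := h ⟨(N : ℂ) * τ, hpos⟩
      have e1 : ((N : ℂ) * (τ : ℂ) + k) / N = (τ : ℂ) + ((k : ℝ) / N : ℝ) := by
        push_cast
        field_simp
      have e2 : ((N : ℂ) * (τ : ℂ)) / N = τ := by field_simp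
      rwa [e1, e2] at this
    obtain ⟨n, hn⟩ := (translation_period _).mp h'
    refine ⟨n, ?_⟩
    have : (k : ℝ) = N * n := by
      field_simp at hn
      linarith
    exact_mod_cast this
  · rintro ⟨m, rfl⟩ τ
    have hpos : 0 < ((τ : ℂ) / N).im := by
      have : ((τ : ℂ) / N).im = τ.im / N := by
        rw [← Int.cast_natCast (R := ℂ)]
        simp
      rw [this]
      exact div_pos τ.im_pos hNR
    have := (translation_period (m : ℝ)).mpr ⟨m, rfl⟩ ⟨(τ : ℂ) / N, hpos⟩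
    rw [← this]
    congr 1
    push_cast
    field_simp

/-- The upper triangular representatives `(a, b; 0, d)`, `a d = N`, `0 ≤ b < d`, give pairwise
distinct functions `τ ↦ j ((a τ + b) / d)`. -/
theorem upper_triangular_injective {a d b a' d' b' : ℤ} (ha : 0 < a) (hd : 0 < d)
    (ha' : 0 < a') (hd' : 0 < d') (hN : a * d = a' * d') (hb : 0 ≤ b) (hbd : b < d)
    (hb' : 0 ≤ b') (hbd' : b' < d')
    (h : ∀ τ : ℍ, jC (((a : ℂ) * τ + b) / d) = jC (((a' : ℂ) * τ + b') / d')) :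
    a = a' ∧ d = d' ∧ b = b' := by
  have haR : (0 : ℝ) < a := by exact_mod_cast ha
  have hdR : (0 : ℝ) < d := by exact_mod_cast hd
  have ha'R : (0 : ℝ) < a' := by exact_mod_cast ha'
  have hd'R : (0 : ℝ) < d' := by exact_mod_cast hd'
  have hdC : (d : ℂ) ≠ 0 := by exact_mod_cast hd.ne'
  have hd'C : (d' : ℂ) ≠ 0 := by exact_mod_cast hd'.ne'
  have hray : ∀ t : ℝ, 0 < t → jC (ray ((a : ℝ) / d) ((b : ℝ) / d) t)
      = jC (ray ((a' : ℝ) / d') ((b' : ℝ) / d') t) := by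
    intro t ht
    have hpos : 0 < (ray 1 0 t).im := ray_im_pos one_pos ht 0
    have := h ⟨ray 1 0 t, hpos⟩
    have e1 : ray ((a : ℝ) / d) ((b : ℝ) / d) t
        = ((a : ℂ) * ((⟨ray 1 0 t, hpos⟩ : ℍ) : ℂ) + b) / d := by
      simp only [ray]
      push_cast
      field_simp
      ring
    have e2 : ray ((a' : ℝ) / d') ((b' : ℝ) / d') t
        = ((a' : ℂ) * ((⟨ray 1 0 t, hpos⟩ : ℍ) : ℂ) + b') / d' := by
      simp only [ray]
      push_cast
      field_simp
      ring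
    rw [e1, e2]
    exact this
  have h1 : (a : ℝ) / d = a' / d' := growth_rigidity (by positivity) (by positivity) hray
  have h2 : a * d' = a' * d := by
    have : (a : ℝ) * d' = a' * d := by
      field_simp at h1
      linarith
    exact_mod_cast this
  -- from `a d = a' d'` and `a d' = a' d` get `d = d'`
  have h3 : d = d' := by
    have h4 : a * (d * d) = a * (d' * d') := by
      calc a * (d * d) = (a * d) * d := by ring
        _ = (a' * d') * d := by rw [hN]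
        _ = (a' * d) * d' := by ring
        _ = (a * d') * d' := by rw [h2]
        _ = a * (d' * d') := by ring
    have h5 : d * d = d' * d' := mul_left_cancel₀ ha.ne' h4
    nlinarith
  subst h3
  have h6 : a = a' := by
    have := mul_right_cancel₀ hd.ne' hN
    exact this
  subst h6
  refine ⟨rfl, rfl, ?_⟩
  -- translation by `(b - b') / d`
  have htr : ∀ τ : ℍ, jC ((τ : ℂ) + (((b : ℝ) - b') / d : ℝ)) = jC τ := by
    intro τ
    -- apply `h` at `σ = (d τ - b') / a`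
    have hpos : 0 < (((d : ℂ) * τ - b') / a).im := by
      have : (((d : ℂ) * τ - b') / a).im = d * τ.im / a := by
        simp [Complex.div_intCast_im]
      rw [this]
      have := τ.im_pos
      positivity
    have := h ⟨((d : ℂ) * τ - b') / a, hpos⟩
    have haC : (a : ℂ) ≠ 0 := by exact_mod_cast ha.ne'
    have e1 : ((a : ℂ) * (((d : ℂ) * τ - b') / a) + b) / d
        = (τ : ℂ) + (((b : ℝ) - b') / d : ℝ) := by
      push_cast
      field_simp
      ring
    have e2 : ((a : ℂ) * (((d : ℂ) * τ - b') / a) + b') / d = τ := by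
      field_simp
      ring
    rwa [e1, e2] at this
  obtain ⟨n, hn⟩ := (translation_period _).mp htr
  have h7 : b - b' = d * n := by
    have : (b : ℝ) - b' = d * n := by
      field_simp at hn
      linarith
    exact_mod_cast this
  -- `|b - b'| < d` forces `n = 0`
  have h8 : n = 0 := by
    by_contra hne
    rcases lt_or_gt_of_ne hne with hlt | hgt
    · have : n ≤ -1 := by omega
      nlinarith
    · have : 1 ≤ n := by omega
      nlinarith
  rw [h8, mul_zero] at h7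
  omega

end Fermat.Agent.S24.JStab
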