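import Mathlib

/-!
# S24, package MOD-H: Hermite normal form for `SL(2, ℤ)` and the upper half plane

* `exists_hermite` : an integer `2 × 2` matrix `M` of positive determinant is `g' * !![a, b; 0, e]`
  with `g' ∈ SL(2, ℤ)`, `a * e = det M`, `0 < a`, `0 ≤ b < e`.
* `exists_hermite_diag` : the special case `M = !![d, 0; 0, 1] * g`, `g ∈ SL(2, ℤ)`.
* `exists_hermite_smul` : for `d ≥ 1`, `g ∈ SL(2, ℤ)` there are `g' ∈ SL(2, ℤ)`, `a b e` as above such
  that `d * (g • τ) = g' • ((a τ + b) / e)` for all `τ` in the upper half plane.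
-/

set_option autoImplicit false

namespace Fermat.Agent.S24.Hermite

open Matrix UpperHalfPlane
open scoped MatrixGroups

/-- **Hermite normal form** for integer `2 × 2` matrices of positive determinant. -/
theorem exists_hermite (M : Matrix (Fin 2) (Fin 2) ℤ) (hd : 0 < M.det) :
    ∃ (g' : SL(2, ℤ)) (a b e : ℤ), a * e = M.det ∧ 0 < a ∧ 0 ≤ b ∧ b < e ∧
      M = (g' : Matrix (Fin 2) (Fin 2) ℤ) * !![a, b; 0, e] := by
  set p := M 0 0 with hp
  set q := M 0 1 with hq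
  set r := M 1 0 with hr
  set s := M 1 1 with hs
  have hdet : M.det = p * s - q * r := by rw [Matrix.det_fin_two]
  -- the gcd of the first column
  set t : ℤ := (Int.gcd p r : ℤ) with ht
  have ht_pos : 0 < t := by
    rw [ht]
    have : Int.gcd p r ≠ 0 := by
      intro h0
      rw [Int.gcd_eq_zero_iff] at h0
      rw [hdet, h0.1, h0.2] at hd
      simp at hd
    exact_mod_cast Nat.pos_of_ne_zero this
  obtain ⟨p', hp'⟩ : t ∣ p := Int.gcd_dvd_left p r
  obtain ⟨r', hr'⟩ : t ∣ r := Int.gcd_dvd_right p r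
  have hbez : t = p * Int.gcdA p r + r * Int.gcdB p r := Int.gcd_eq_gcd_ab p r
  set u := Int.gcdA p r with hu
  set v := Int.gcdB p r with hv
  have hbez' : p' * u + r' * v = 1 := by
    have h1 : t * (p' * u + r' * v) = t * 1 := by
      rw [mul_one]
      conv_rhs => rw [hbez, hp', hr']
      ring
    exact mul_left_cancel₀ ht_pos.ne' h1
  -- the lower right entry
  set e : ℤ := p' * s - r' * q with he
  have hte : t * e = M.det := by
    rw [hdet, he, hp', hr']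
    ring
  have he_pos : 0 < e := by
    by_contra hne
    have : t * e ≤ 0 := mul_nonpos_of_nonneg_of_nonpos ht_pos.le (not_lt.mp hne)
    rw [hte] at this
    exact absurd hd (not_lt.mpr this)
  set b0 : ℤ := u * q + v * s with hb0
  set k : ℤ := b0 / e with hk
  set b : ℤ := b0 % e with hb
  have hb_nonneg : 0 ≤ b := Int.emod_nonneg _ he_pos.ne'
  have hb_lt : b < e := Int.emod_lt_of_pos _ he_pos
  have hb0_eq : b0 = b + e * k := by
    rw [hb, hk]
    exact (Int.emod_add_mul_ediv b0 e).symm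
  refine ⟨⟨!![p', p' * k - v; r', r' * k + u], ?_⟩, t, b, e, hte, ht_pos, hb_nonneg, hb_lt, ?_⟩
  · rw [Matrix.det_fin_two_of]
    linear_combination hbez'
  · ext i j
    fin_cases i <;> fin_cases j
    · simp [Matrix.mul_apply, Fin.sum_univ_two]
      rw [← hp, hp']
      ring
    · simp [Matrix.mul_apply, Fin.sum_univ_two]
      rw [← hq]
      have h1 : p' * b + (p' * k - v) * e = p' * (b + e * k) - v * e := by ring
      rw [h1, ← hb0_eq, hb0, he]
      linear_combination (-q) * hbez'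
    · simp [Matrix.mul_apply, Fin.sum_univ_two]
      rw [← hr, hr']
      ring
    · simp [Matrix.mul_apply, Fin.sum_univ_two]
      rw [← hs]
      have h1 : r' * b + (r' * k + u) * e = r' * (b + e * k) + u * e := by ring
      rw [h1, ← hb0_eq, hb0, he]
      linear_combination (-s) * hbez'

/-- Hermite normal form of `diag(d, 1) * g`, `g ∈ SL(2, ℤ)`. -/
theorem exists_hermite_diag (d : ℤ) (hd : 0 < d) (g : SL(2, ℤ)) :
    ∃ (g' : SL(2, ℤ)) (a b e : ℤ), a * e = d ∧ 0 < a ∧ 0 ≤ b ∧ b < e ∧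
      !![d, 0; 0, 1] * (g : Matrix (Fin 2) (Fin 2) ℤ) =
        (g' : Matrix (Fin 2) (Fin 2) ℤ) * !![a, b; 0, e] := by
  have hdet : (!![d, 0; 0, 1] * (g : Matrix (Fin 2) (Fin 2) ℤ)).det = d := by
    rw [Matrix.det_mul, g.det_coe, mul_one, Matrix.det_fin_two_of]
    ring
  obtain ⟨g', a, b, e, hae, ha, hb, hbe, hM⟩ :=
    exists_hermite (!![d, 0; 0, 1] * (g : Matrix (Fin 2) (Fin 2) ℤ)) (by rw [hdet]; exact hd)
  exact ⟨g', a, b, e, by rw [hae, hdet], ha, hb, hbe, hM⟩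

/-- The point `(a τ + b) / e` of the upper half plane, for `0 < a`, `0 < e`. -/
noncomputable def affPoint (a b e : ℤ) (ha : 0 < a) (he : 0 < e) (τ : ℍ) : ℍ :=
  ⟨((a : ℂ) * τ + b) / e, by
    have h1 : (((a : ℂ) * τ + b) / e) = (((a : ℝ) / (e : ℝ) : ℝ) : ℂ) * τ + (((b : ℝ) / (e : ℝ) : ℝ) : ℂ) := by
      have he' : (e : ℂ) ≠ 0 := by exact_mod_cast he.ne'
      push_cast
      field_simp
    rw [h1, Complex.add_im, Complex.im_ofReal_mul, Complex.ofReal_im, add_zero]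
    have ha' : (0 : ℝ) < a := by exact_mod_cast ha
    have he' : (0 : ℝ) < e := by exact_mod_cast he
    exact mul_pos (div_pos ha' he') τ.im_pos⟩

@[simp] theorem coe_affPoint (a b e : ℤ) (ha : 0 < a) (he : 0 < e) (τ : ℍ) :
    ((affPoint a b e ha he τ : ℍ) : ℂ) = ((a : ℂ) * τ + b) / e := rfl

/-- **MOD-H.**  For `d ≥ 1` and `g ∈ SL(2, ℤ)`: `d * (g • τ) = g' • ((a τ + b) / e)` with
`g' ∈ SL(2, ℤ)`, `a * e = d`, `0 < a`, `0 ≤ b < e`. -/
theorem exists_hermite_smul (d : ℤ) (hd : 0 < d) (g : SL(2, ℤ)) :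
    ∃ (g' : SL(2, ℤ)) (a b e : ℤ) (_ : a * e = d) (ha : 0 < a) (_ : 0 ≤ b) (_ : b < e)
      (he : 0 < e), ∀ τ : ℍ,
        (d : ℂ) * ((g • τ : ℍ) : ℂ) = ((g' • affPoint a b e ha he τ : ℍ) : ℂ) := by
  obtain ⟨g', a, b, e, hae, ha, hb, hbe, hM⟩ := exists_hermite_diag d hd g
  have he : 0 < e := lt_of_le_of_lt hb hbe
  refine ⟨g', a, b, e, hae, ha, hb, hbe, he, fun τ => ?_⟩
  -- entrywise identities
  have h00 := congrFun (congrFun hM 0) 0
  have h01 := congrFun (congrFun hM 0) 1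
  have h10 := congrFun (congrFun hM 1) 0
  have h11 := congrFun (congrFun hM 1) 1
  simp [Matrix.mul_apply, Fin.sum_univ_two] at h00 h01 h10 h11
  have c00 : (d : ℂ) * (g 0 0 : ℂ) = (g' 0 0 : ℂ) * a := by exact_mod_cast congrArg (Int.cast : ℤ → ℂ) h00
  have c01 : (d : ℂ) * (g 0 1 : ℂ) = (g' 0 0 : ℂ) * b + (g' 0 1 : ℂ) * e := by
    exact_mod_cast congrArg (Int.cast : ℤ → ℂ) h01
  have c10 : (g 1 0 : ℂ) = (g' 1 0 : ℂ) * a := by exact_mod_cast congrArg (Int.cast : ℤ → ℂ) h10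
  have c11 : (g 1 1 : ℂ) = (g' 1 0 : ℂ) * b + (g' 1 1 : ℂ) * e := by
    exact_mod_cast congrArg (Int.cast : ℤ → ℂ) h11
  have he' : (e : ℂ) ≠ 0 := by exact_mod_cast he.ne'
  rw [coe_specialLinearGroup_apply, coe_specialLinearGroup_apply, coe_affPoint]
  simp only [algebraMap_int_eq, eq_intCast, Complex.ofReal_intCast]
  have hden : (g 1 0 : ℂ) * τ + (g 1 1 : ℂ) ≠ 0 := by
    have := UpperHalfPlane.denom_ne_zero (Matrix.SpecialLinearGroup.mapGL ℝ g) τ
    simpa [UpperHalfPlane.denom] using this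
  have hden' : (g' 1 0 : ℂ) * (((a : ℂ) * τ + b) / e) + (g' 1 1 : ℂ) =
      ((g 1 0 : ℂ) * τ + (g 1 1 : ℂ)) / e := by
    rw [c10, c11]
    field_simp
    ring
  have hnum' : (g' 0 0 : ℂ) * (((a : ℂ) * τ + b) / e) + (g' 0 1 : ℂ) =
      (d : ℂ) * ((g 0 0 : ℂ) * τ + (g 0 1 : ℂ)) / e := by
    rw [mul_add, ← mul_assoc, c00, c01]
    field_simp
    ring
  rw [hden', hnum']
  field_simp

/-- `ℍ`-valued form of `exists_hermite_smul`: any point `z` with `z = d * (g • τ)` equals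
`g' • ((a τ + b) / e)`. -/
theorem exists_hermite_smul' (d : ℤ) (hd : 0 < d) (g : SL(2, ℤ)) :
    ∃ (g' : SL(2, ℤ)) (a b e : ℤ) (_ : a * e = d) (ha : 0 < a) (_ : 0 ≤ b) (_ : b < e)
      (he : 0 < e), ∀ (τ z : ℍ), (z : ℂ) = (d : ℂ) * ((g • τ : ℍ) : ℂ) →
        z = g' • affPoint a b e ha he τ := by
  obtain ⟨g', a, b, e, hae, ha, hb, hbe, he, h⟩ := exists_hermite_smul d hd g
  exact ⟨g', a, b, e, hae, ha, hb, hbe, he, fun τ z hz => UpperHalfPlane.ext (hz.trans (h τ))⟩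

end Fermat.Agent.S24.Hermite
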