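import Mathlib

set_option autoImplicit false

noncomputable section

namespace Fermat.Agent.S24.JAnalytic

open UpperHalfPlane ModularForm EisensteinSeries MatrixGroups CongruenceSubgroup
open scoped Manifold

local notation "Δ" => ModularForm.discriminant

/-- The analytic `j`-function `E₄³ / Δ` on the upper half plane. -/
def jFun (τ : ℍ) : ℂ := E₄ τ ^ 3 / Δ τ

theorem E₄_smul (γ : SL(2, ℤ)) (τ : ℍ) : E₄ (γ • τ) = denom γ τ ^ (4 : ℤ) * E₄ τ := by
  have hγ : (γ : GL (Fin 2) ℝ) ∈ 𝒮ℒ := ⟨γ, rfl⟩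
  exact SlashInvariantForm.slash_action_eqn'' E₄ hγ τ

theorem discriminant_smul (γ : SL(2, ℤ)) (τ : ℍ) : Δ (γ • τ) = denom γ τ ^ (12 : ℤ) * Δ τ := by
  have hγ : (γ : GL (Fin 2) ℝ) ∈ 𝒮ℒ := ⟨γ, rfl⟩
  exact SlashInvariantForm.slash_action_eqn'' CuspForm.discriminant hγ τ

theorem jFun_smul (γ : SL(2, ℤ)) (τ : ℍ) : jFun (γ • τ) = jFun τ := by
  unfold jFun
  rw [E₄_smul, discriminant_smul]
  have hd : denom γ τ ≠ 0 := denom_ne_zero _ _
  have hΔ : Δ τ ≠ 0 := discriminant_ne_zero τ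
  field_simp

theorem mdifferentiable_jFun : MDifferentiable 𝓘(ℂ) 𝓘(ℂ) jFun := by
  have h4 : MDifferentiable 𝓘(ℂ) 𝓘(ℂ) (E₄ : ℍ → ℂ) := ModularFormClass.holo E₄
  have hΔ : MDifferentiable 𝓘(ℂ) 𝓘(ℂ) (Δ : ℍ → ℂ) := CuspForm.discriminant.holo'
  exact (h4.pow 3).div hΔ discriminant_ne_zero

/-- `E₄³ - c Δ` as a level one modular form of weight 12. -/
def e4CubeSub (c : ℂ) : ModularForm 𝒮ℒ 12 :=
  (ModularForm.mcast (by norm_num) ((E₄.mul E₄).mul E₄)) - c • (CuspForm.discriminant : ModularForm 𝒮ℒ 12)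

theorem e4CubeSub_apply (c : ℂ) (τ : ℍ) : e4CubeSub c τ = E₄ τ ^ 3 - c * Δ τ := by
  simp only [e4CubeSub, sub_apply, smul_apply, smul_eq_mul]
  congr 1
  show E₄ τ * E₄ τ * E₄ τ = _
  ring

open Filter Topology in
/-- A level one modular form tends to its constant `q`-coefficient at `i∞`. -/
theorem tendsto_atImInfty_levelOne {k : ℤ} (f : ModularForm 𝒮ℒ k) :
    Tendsto f atImInfty (𝓝 ((qExpansion 1 f).coeff 0)) := by
  have hper : Function.Periodic ((f : ℍ → ℂ) ∘ ofComplex) 1 :=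
    SlashInvariantFormClass.periodic_comp_ofComplex f one_mem_strictPeriods_SL
  have han : AnalyticAt ℂ (cuspFunction 1 f) 0 :=
    analyticAt_cuspFunction_zero one_pos hper (ModularFormClass.holo f)
      (ModularFormClass.bdd_at_infty f)
  have h0 : (qExpansion 1 f).coeff 0 = cuspFunction 1 f 0 := by
    simp [qExpansion_coeff]
  rw [h0]
  have : (cuspFunction 1 f ∘ fun τ : ℍ ↦ Function.Periodic.qParam 1 τ : ℍ → ℂ) = f := by
    funext τ
    simpa using eq_cuspFunction τ one_ne_zero hper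
  simpa [this] using han.continuousAt.tendsto.comp (qParam_tendsto_atImInfty one_pos)

theorem inv_slash_levelOne {k : ℤ} (f : ModularForm 𝒮ℒ k) (γ : SL(2, ℤ)) :
    ((fun z => (f z)⁻¹) ∣[-k] γ) = fun z => (f z)⁻¹ := by
  have hγ : (γ : GL (Fin 2) ℝ) ∈ 𝒮ℒ := ⟨γ, rfl⟩
  ext z
  have h1 := SlashInvariantForm.slash_action_eqn'' f hγ z
  have hd : denom γ z ≠ 0 := denom_ne_zero _ _
  rw [SL_slash_apply]
  have h2 : f (γ • z) = denom γ z ^ k * f z := h1
  rw [h2, neg_neg, mul_inv, mul_comm, ← mul_assoc, mul_inv_cancel₀ (zpow_ne_zero _ hd),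
    one_mul]

theorem mdifferentiable_inv_levelOne {k : ℤ} (f : ModularForm 𝒮ℒ k) (hf : ∀ τ, f τ ≠ 0) :
    MDifferentiable 𝓘(ℂ) 𝓘(ℂ) (fun z : ℍ => (f z)⁻¹) := by
  have h1 : MDifferentiable 𝓘(ℂ) 𝓘(ℂ) (fun _ : ℍ => (1 : ℂ)) := mdifferentiable_const
  have h2 : (fun z : ℍ => (f z)⁻¹) = ((fun _ : ℍ => (1 : ℂ)) / ⇑f) := by
    funext z
    simp [div_eq_mul_inv]
  rw [h2]
  exact h1.div (ModularFormClass.holo f) hf

open Filter Topology in
/-- The inverse of a nowhere vanishing level one modular form which does not vanish at `i∞`. -/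
def invForm {k : ℤ} (f : ModularForm 𝒮ℒ k) (hf : ∀ τ, f τ ≠ 0)
    (h0 : (qExpansion 1 f).coeff 0 ≠ 0) : ModularForm 𝒮ℒ (-k) where
  toFun z := (f z)⁻¹
  slash_action_eq' := by
    rintro _ ⟨γ, rfl⟩
    exact inv_slash_levelOne f γ
  holo' := mdifferentiable_inv_levelOne f hf
  bdd_at_cusps' {c} hc := by
    rw [Subgroup.IsArithmetic.isCusp_iff_isCusp_SL2Z] at hc
    rw [OnePoint.isBoundedAt_iff_forall_SL2Z hc]
    intro γ _
    rw [inv_slash_levelOne f γ]
    exact ((tendsto_atImInfty_levelOne f).inv₀ h0).isBigO_one ℝ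

theorem invForm_apply {k : ℤ} (f : ModularForm 𝒮ℒ k) (hf : ∀ τ, f τ ≠ 0)
    (h0 : (qExpansion 1 f).coeff 0 ≠ 0) (τ : ℍ) : invForm f hf h0 τ = (f τ)⁻¹ := rfl

/-- A level one modular form of positive weight with nonzero constant term has a zero. -/
theorem exists_zero_of_levelOne {k : ℤ} (hk : 0 < k) (f : ModularForm 𝒮ℒ k)
    (h0 : (qExpansion 1 f).coeff 0 ≠ 0) : ∃ τ, f τ = 0 := by
  by_contra hcon
  push Not at hcon
  have hz := ModularFormClass.levelOne_neg_weight_eq_zero (k := -k) (by omega)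
    (invForm f hcon h0)
  have := congrFun hz UpperHalfPlane.I
  rw [invForm_apply] at this
  exact inv_ne_zero (hcon _) this

open Filter Topology in
theorem tendsto_E₄_atImInfty : Tendsto (E₄ : ℍ → ℂ) atImInfty (𝓝 1) := by
  have h := tendsto_atImInfty_levelOne E₄
  have h4 : (qExpansion 1 E₄).coeff 0 = 1 :=
    E_qExpansion_coeff_zero (k := 4) (by norm_num) ⟨2, rfl⟩
  rwa [h4] at h

open Filter Topology in
theorem tendsto_e4CubeSub_atImInfty (c : ℂ) :
    Tendsto (e4CubeSub c : ℍ → ℂ) atImInfty (𝓝 1) := by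
  have h1 : Tendsto (fun τ : ℍ => E₄ τ ^ 3 - c * Δ τ) atImInfty (𝓝 (1 ^ 3 - c * 0)) :=
    (tendsto_E₄_atImInfty.pow 3).sub (discriminant_isZeroAtImInfty.const_mul c)
  have h2 : (e4CubeSub c : ℍ → ℂ) = fun τ : ℍ => E₄ τ ^ 3 - c * Δ τ := by
    funext τ
    exact e4CubeSub_apply c τ
  rw [h2]
  simpa using h1

theorem qExpansion_e4CubeSub_coeff_zero (c : ℂ) : (qExpansion 1 (e4CubeSub c)).coeff 0 = 1 :=
  tendsto_nhds_unique (tendsto_atImInfty_levelOne (e4CubeSub c)) (tendsto_e4CubeSub_atImInfty c)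

/-- The `j`-function takes every complex value on the upper half plane. -/
theorem jFun_surjective : Function.Surjective jFun := by
  intro c
  obtain ⟨τ, hτ⟩ := exists_zero_of_levelOne (k := 12) (by norm_num) (e4CubeSub c)
    (by rw [qExpansion_e4CubeSub_coeff_zero]; exact one_ne_zero)
  refine ⟨τ, ?_⟩
  rw [e4CubeSub_apply] at hτ
  unfold jFun
  rw [div_eq_iff (discriminant_ne_zero τ)]
  linear_combination hτ

theorem jFun_sub_1728 (τ : ℍ) : jFun τ - 1728 = E₆ τ ^ 2 / Δ τ := by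
  unfold jFun
  have h := discriminant_eq_E₄_cube_sub_E₆_sq τ
  have hΔ : Δ τ ≠ 0 := discriminant_ne_zero τ
  field_simp
  linear_combination (-1728 : ℂ) * h

/-- Build a level one modular form from a function with the right transformation behaviour. -/
def mkLevelOne (k : ℤ) (F : ℍ → ℂ) (hol : MDifferentiable 𝓘(ℂ) 𝓘(ℂ) F)
    (htr : ∀ (γ : SL(2, ℤ)) (τ : ℍ), F (γ • τ) = denom γ τ ^ k * F τ)
    (hb : IsBoundedAtImInfty F) : ModularForm 𝒮ℒ k where
  toFun := F
  slash_action_eq' := by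
    rintro _ ⟨γ, rfl⟩
    ext z
    have hd : denom γ z ≠ 0 := denom_ne_zero _ _
    show (F ∣[k] γ) z = F z
    rw [SL_slash_apply, htr, zpow_neg, mul_comm, ← mul_assoc,
      inv_mul_cancel₀ (zpow_ne_zero _ hd), one_mul]
  holo' := hol
  bdd_at_cusps' {c} hc := by
    rw [Subgroup.IsArithmetic.isCusp_iff_isCusp_SL2Z] at hc
    rw [OnePoint.isBoundedAt_iff_forall_SL2Z hc]
    intro γ _
    have : (F ∣[k] γ) = F := by
      ext z
      have hd : denom γ z ≠ 0 := denom_ne_zero _ _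
      rw [SL_slash_apply, htr, zpow_neg, mul_comm, ← mul_assoc,
        inv_mul_cancel₀ (zpow_ne_zero _ hd), one_mul]
    rw [this]
    exact hb

@[simp]
theorem mkLevelOne_apply (k : ℤ) (F : ℍ → ℂ) (hol : MDifferentiable 𝓘(ℂ) 𝓘(ℂ) F)
    (htr : ∀ (γ : SL(2, ℤ)) (τ : ℍ), F (γ • τ) = denom γ τ ^ k * F τ)
    (hb : IsBoundedAtImInfty F) (τ : ℍ) : mkLevelOne k F hol htr hb τ = F τ := rfl

/-- `E₄ ^ (3 * m)` as a form of weight `12 * m`. -/
def e4Pow (m : ℕ) : ModularForm 𝒮ℒ (12 * (m : ℤ)) :=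
  ModularForm.mcast (by push_cast; ring) (E₄.pow (3 * m))

theorem e4Pow_apply (m : ℕ) (τ : ℍ) : e4Pow m τ = E₄ τ ^ (3 * m) :=
  congrFun (ModularForm.coe_pow E₄ (3 * m)) τ

open Filter Topology in
theorem qExpansion_e4Pow_coeff_zero (m : ℕ) : (qExpansion 1 (e4Pow m)).coeff 0 = 1 := by
  refine tendsto_nhds_unique (tendsto_atImInfty_levelOne (e4Pow m)) ?_
  have h2 : (e4Pow m : ℍ → ℂ) = fun τ : ℍ => E₄ τ ^ (3 * m) := by
    funext τ
    exact e4Pow_apply m τ
  rw [h2]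
  simpa using tendsto_E₄_atImInfty.pow (3 * m)

/-- A holomorphic `SL(2, ℤ)`-invariant function on `ℍ` with a pole of order at most `n` at `i∞`
is a polynomial of degree at most `n` in `j`. -/
theorem exists_polynomial_jFun (n : ℕ) : ∀ (f : ℍ → ℂ), MDifferentiable 𝓘(ℂ) 𝓘(ℂ) f →
    (∀ (γ : SL(2, ℤ)) (τ : ℍ), f (γ • τ) = f τ) →
    IsBoundedAtImInfty (fun τ => Δ τ ^ n * f τ) →
    ∃ P : Polynomial ℂ, P.natDegree ≤ n ∧ ∀ τ, f τ = P.eval (jFun τ) := by
  induction n with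
  | zero =>
    intro f hol hinv hb
    have hb' : IsBoundedAtImInfty f := by simpa using hb
    obtain ⟨c, hc⟩ := ModularFormClass.levelOne_weight_zero_const
      (mkLevelOne 0 f hol (by intro γ τ; rw [zpow_zero, one_mul]; exact hinv γ τ) hb')
    refine ⟨Polynomial.C c, by simp, fun τ => ?_⟩
    have := congrFun hc τ
    simpa using this
  | succ n ih =>
    intro f hol hinv hb
    have hΔ : MDifferentiable 𝓘(ℂ) 𝓘(ℂ) (Δ : ℍ → ℂ) := CuspForm.discriminant.holo'
    let g : ModularForm 𝒮ℒ (12 * ((n + 1 : ℕ) : ℤ)) :=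
      mkLevelOne _ (fun τ => Δ τ ^ (n + 1) * f τ) ((hΔ.pow (n + 1)).mul hol)
        (by
          intro γ τ
          rw [discriminant_smul, hinv, mul_pow, ← zpow_natCast (denom γ τ ^ (12 : ℤ)) (n + 1),
            ← zpow_mul, mul_assoc])
        hb
    set a : ℂ := (qExpansion 1 g).coeff 0 with ha
    obtain ⟨gc, hgc⟩ := sub_smul_isCuspForm g (e4Pow (n + 1)) (qExpansion_e4Pow_coeff_zero _)
    have hgc' : ∀ τ, gc τ = Δ τ ^ (n + 1) * f τ - a * E₄ τ ^ (3 * (n + 1)) := by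
      intro τ
      have := congrFun (congrArg DFunLike.coe hgc) τ
      rw [sub_apply, smul_apply, e4Pow_apply, smul_eq_mul] at this
      exact this
    let h := CuspForm.discriminantEquiv gc
    have hh : ∀ τ, Δ τ ^ n * (f τ - a * jFun τ ^ (n + 1)) = h τ := by
      intro τ
      show _ = gc τ / Δ τ
      rw [hgc' τ]
      unfold jFun
      have hΔ0 : Δ τ ≠ 0 := discriminant_ne_zero τ
      generalize Δ τ = D at hΔ0 ⊢
      generalize E₄ τ = x
      rw [div_pow, eq_div_iff hΔ0, pow_mul, pow_succ D n]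
      have hDn : D ^ n ≠ 0 := pow_ne_zero _ hΔ0
      field_simp
    have hb2 : IsBoundedAtImInfty (fun τ => Δ τ ^ n * (f τ - a * jFun τ ^ (n + 1))) := by
      have : (fun τ => Δ τ ^ n * (f τ - a * jFun τ ^ (n + 1))) = (h : ℍ → ℂ) := funext hh
      rw [this]
      exact ModularFormClass.bdd_at_infty h
    obtain ⟨P, hP, hPe⟩ := ih (fun τ => f τ - a * jFun τ ^ (n + 1))
      (hol.sub ((mdifferentiable_const (c := a)).mul (mdifferentiable_jFun.pow (n + 1))))
      (by intro γ τ; simp only [hinv, jFun_smul]) hb2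
    refine ⟨P + Polynomial.C a * Polynomial.X ^ (n + 1), ?_, fun τ => ?_⟩
    · refine (Polynomial.natDegree_add_le _ _).trans (max_le (hP.trans (Nat.le_succ n)) ?_)
      exact (Polynomial.natDegree_C_mul_le _ _).trans (Polynomial.natDegree_X_pow_le _)
    · have := hPe τ
      simp only [Polynomial.eval_add, Polynomial.eval_mul, Polynomial.eval_C, Polynomial.eval_pow,
        Polynomial.eval_X]
      linear_combination this

end Fermat.Agent.S24.JAnalytic
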