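import Mathlib
import Fermat.Agent.S24.JAnalytic
import Fermat.Agent.S24.Hermite
import Fermat.Agent.S24.JStab

/-!
# S24, MOD (AI-fix, function level): moderate growth of the conjugates of `j`

`ModerateGrowth f` : `f` is holomorphic on `ℍ` and `Δ^n f` is bounded at `i∞` for some `n`.
This is a `ℂ`-subalgebra of `ℍ → ℂ`; it contains all conjugates `τ ↦ j (d (g τ))`
(`d ≥ 1`, `g ∈ SL(2,ℤ)`).  Hence every `SL(2,ℤ)`-invariant element of the `ℂ`-algebra generated
by the conjugates is a polynomial in `j` (`JAnalytic.exists_polynomial_jFun`).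
-/

open ModularForm EisensteinSeries Filter Topology Complex MatrixGroups CongruenceSubgroup
open UpperHalfPlane hiding I
open scoped Real Manifold

noncomputable section

namespace Fermat.Agent.S24.ModGrowth

open Fermat.Agent.S24.JAnalytic Fermat.Agent.S24.Hermite

local notation "Δ" => ModularForm.discriminant
local notation "𝕢" => Function.Periodic.qParam

/-- Holomorphic with at most a pole at `i∞` (measured against powers of `Δ`). -/
def ModerateGrowth (f : ℍ → ℂ) : Prop :=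
  MDifferentiable 𝓘(ℂ) 𝓘(ℂ) f ∧ ∃ n : ℕ, IsBoundedAtImInfty (fun τ => Δ τ ^ n * f τ)

lemma mdiff_discriminant : MDifferentiable 𝓘(ℂ) 𝓘(ℂ) (Δ : ℍ → ℂ) := CuspForm.discriminant.holo'

lemma isBounded_discriminant : IsBoundedAtImInfty (Δ : ℍ → ℂ) :=
  ModularForm.discriminant_isZeroAtImInfty.isBoundedAtImInfty

lemma isBounded_discriminant_pow (n : ℕ) : IsBoundedAtImInfty (fun τ : ℍ => Δ τ ^ n) := by
  induction n with
  | zero =>
    simp only [pow_zero]
    exact Filter.const_boundedAtFilter _ (1 : ℂ)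
  | succ n ih =>
    have h := ih.mul isBounded_discriminant
    have e : (fun τ : ℍ => Δ τ ^ (n + 1)) = (fun τ : ℍ => Δ τ ^ n) * (Δ : ℍ → ℂ) := by
      funext τ
      simp [pow_succ]
    rw [e]
    exact h

/-- Raising the exponent keeps boundedness. -/
lemma isBounded_of_le {f : ℍ → ℂ} {n m : ℕ} (hnm : n ≤ m)
    (h : IsBoundedAtImInfty (fun τ => Δ τ ^ n * f τ)) :
    IsBoundedAtImInfty (fun τ => Δ τ ^ m * f τ) := by
  have h2 := (isBounded_discriminant_pow (m - n)).mul h
  have e : (fun τ : ℍ => Δ τ ^ m * f τ)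
      = (fun τ : ℍ => Δ τ ^ (m - n)) * (fun τ => Δ τ ^ n * f τ) := by
    funext τ
    simp only [Pi.mul_apply]
    rw [← mul_assoc, ← pow_add, Nat.sub_add_cancel hnm]
  rw [e]
  exact h2

lemma ModerateGrowth.const (c : ℂ) : ModerateGrowth (fun _ : ℍ => c) := by
  refine ⟨mdifferentiable_const, 0, ?_⟩
  simp only [pow_zero, one_mul]
  exact Filter.const_boundedAtFilter _ c

lemma ModerateGrowth.add {f g : ℍ → ℂ} (hf : ModerateGrowth f) (hg : ModerateGrowth g) :
    ModerateGrowth (f + g) := by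
  obtain ⟨hf1, n, hn⟩ := hf
  obtain ⟨hg1, m, hm⟩ := hg
  refine ⟨hf1.add hg1, max n m, ?_⟩
  have h1 := isBounded_of_le (le_max_left n m) hn
  have h2 := isBounded_of_le (le_max_right n m) hm
  have e : (fun τ : ℍ => Δ τ ^ max n m * (f + g) τ)
      = (fun τ => Δ τ ^ max n m * f τ) + (fun τ => Δ τ ^ max n m * g τ) := by
    funext τ
    simp only [Pi.add_apply]
    ring
  rw [e]
  exact h1.add h2

lemma ModerateGrowth.mul {f g : ℍ → ℂ} (hf : ModerateGrowth f) (hg : ModerateGrowth g) :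
    ModerateGrowth (f * g) := by
  obtain ⟨hf1, n, hn⟩ := hf
  obtain ⟨hg1, m, hm⟩ := hg
  refine ⟨hf1.mul hg1, n + m, ?_⟩
  have e : (fun τ : ℍ => Δ τ ^ (n + m) * (f * g) τ)
      = (fun τ => Δ τ ^ n * f τ) * (fun τ => Δ τ ^ m * g τ) := by
    funext τ
    simp only [Pi.mul_apply]
    ring
  rw [e]
  exact hn.mul hm

/-- The subalgebra of functions of moderate growth. -/
def moderateGrowthSubalgebra : Subalgebra ℂ (ℍ → ℂ) where
  carrier := {f | ModerateGrowth f}
  mul_mem' := fun hf hg => hf.mul hg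
  add_mem' := fun hf hg => hf.add hg
  algebraMap_mem' := fun c => ModerateGrowth.const c

lemma mem_moderateGrowthSubalgebra {f : ℍ → ℂ} :
    f ∈ moderateGrowthSubalgebra ↔ ModerateGrowth f := Iff.rfl

lemma moderateGrowth_of_mem_adjoin {S : Set (ℍ → ℂ)} (hS : ∀ s ∈ S, ModerateGrowth s)
    {f : ℍ → ℂ} (hf : f ∈ Algebra.adjoin ℂ S) : ModerateGrowth f :=
  (Algebra.adjoin_le (S := moderateGrowthSubalgebra) hS) hf

/-- **AI-fix, function level.** An `SL(2,ℤ)`-invariant element of the algebra generated by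
functions of moderate growth is a polynomial in `j`. -/
theorem exists_polynomial_of_mem_adjoin {S : Set (ℍ → ℂ)} (hS : ∀ s ∈ S, ModerateGrowth s)
    {f : ℍ → ℂ} (hf : f ∈ Algebra.adjoin ℂ S)
    (hinv : ∀ (γ : SL(2, ℤ)) (τ : ℍ), f (γ • τ) = f τ) :
    ∃ P : Polynomial ℂ, ∀ τ, f τ = P.eval (jFun τ) := by
  obtain ⟨hol, n, hn⟩ := moderateGrowth_of_mem_adjoin hS hf
  obtain ⟨P, -, hP⟩ := exists_polynomial_jFun n f hol hinv hn
  exact ⟨P, hP⟩

/-! ### The conjugates have moderate growth -/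

section Affine

variable (a b e : ℤ) (ha : 0 < a) (he : 0 < e)

lemma im_affPoint (τ : ℍ) : (affPoint a b e ha he τ).im = (a : ℝ) / e * τ.im := by
  have he' : (e : ℂ) ≠ 0 := by exact_mod_cast he.ne'
  have h1 : (((a : ℂ) * τ + b) / e)
      = (((a : ℝ) / (e : ℝ) : ℝ) : ℂ) * τ + (((b : ℝ) / (e : ℝ) : ℝ) : ℂ) := by
    push_cast
    field_simp
  show (((a : ℂ) * τ + b) / e).im = _
  rw [h1, Complex.add_im, Complex.im_ofReal_mul, Complex.ofReal_im, add_zero]
  rfl

lemma tendsto_affPoint : Tendsto (affPoint a b e ha he) atImInfty atImInfty := by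
  rw [atImInfty, tendsto_comap_iff]
  have haR : (0 : ℝ) < a := by exact_mod_cast ha
  have heR : (0 : ℝ) < e := by exact_mod_cast he
  have h1 : Tendsto (fun τ : ℍ => (a : ℝ) / e * τ.im) (comap UpperHalfPlane.im atTop) atTop :=
    (tendsto_comap).const_mul_atTop (div_pos haR heR)
  refine h1.congr fun τ => ?_
  simp only [Function.comp_apply]
  exact (im_affPoint a b e ha he τ).symm

lemma mdiff_jFun_affPoint :
    MDifferentiable 𝓘(ℂ) 𝓘(ℂ) (fun τ : ℍ => jFun (affPoint a b e ha he τ)) := by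
  rw [UpperHalfPlane.mdifferentiable_iff]
  have hj : DifferentiableOn ℂ (jFun ∘ ofComplex) upperHalfPlaneSet :=
    UpperHalfPlane.mdifferentiable_iff.mp mdifferentiable_jFun
  have he' : (e : ℂ) ≠ 0 := by exact_mod_cast he.ne'
  have haff : DifferentiableOn ℂ (fun z : ℂ => ((a : ℂ) * z + b) / e) upperHalfPlaneSet := by
    intro z _
    exact (((differentiableAt_id.const_mul (a : ℂ)).add_const (b : ℂ)).div_const
      (e : ℂ)).differentiableWithinAt
  have hmaps : Set.MapsTo (fun z : ℂ => ((a : ℂ) * z + b) / e) upperHalfPlaneSet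
      upperHalfPlaneSet := by
    intro z hz
    exact (affPoint a b e ha he ⟨z, hz⟩).im_pos
  refine (hj.comp haff hmaps).congr ?_
  intro z hz
  simp only [Function.comp_apply]
  rw [ofComplex_apply_of_im_pos hz, ofComplex_apply_of_im_pos (hmaps hz)]
  rfl

/-- `Δ^a · j ((a τ + b) / e)` is bounded at `i∞`. -/
lemma isBounded_jFun_affPoint :
    IsBoundedAtImInfty (fun τ : ℍ => Δ τ ^ a.toNat * jFun (affPoint a b e ha he τ)) := by
  set n := a.toNat with hn
  have hna : (n : ℤ) = a := Int.toNat_of_nonneg ha.le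
  set P : ℍ → ℂ := fun τ => ∏' (k : ℕ), (1 - eta_q k ↑τ) ^ 24 with hP
  -- first factor
  have hF1 : IsBoundedAtImInfty
      (fun τ : ℍ => JStab.jA (affPoint a b e ha he τ) * 𝕢 1 (affPoint a b e ha he τ : ℍ)) :=
    ((JStab.tendsto_jA_mul_q.comp (tendsto_affPoint a b e ha he)).isBigO_one ℝ)
  -- second factor
  have hF2 : IsBoundedAtImInfty (fun τ : ℍ => P τ ^ n) :=
    ((ModularForm.tendsto_atImInfty_tprod_one_sub_eta_q_pow.pow n).isBigO_one ℝ)
  -- third factor
  have hF3 : IsBoundedAtImInfty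
      (fun τ : ℍ => 𝕢 1 (τ : ℂ) ^ n / 𝕢 1 (affPoint a b e ha he τ : ℍ)) := by
    rw [isBoundedAtImInfty_iff]
    refine ⟨1, 0, fun τ _ => ?_⟩
    rw [norm_div, norm_pow, Function.Periodic.norm_qParam, Function.Periodic.norm_qParam,
      ← Real.exp_nat_mul, ← Real.exp_sub]
    rw [show ((affPoint a b e ha he τ : ℍ) : ℂ).im = (affPoint a b e ha he τ).im from rfl,
      im_affPoint, show ((τ : ℂ)).im = τ.im from rfl]
    have haR : (0 : ℝ) < a := by exact_mod_cast ha
    have heR : (1 : ℝ) ≤ e := by exact_mod_cast he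
    have hnR : (n : ℝ) = a := by exact_mod_cast hna
    have him := τ.im_pos
    have hle : (a : ℝ) / e ≤ a := div_le_self haR.le heR
    rw [hnR]
    have : (a : ℝ) * (-2 * π * τ.im / 1) - -2 * π * ((a : ℝ) / e * τ.im) / 1
        = -(2 * π * τ.im * ((a : ℝ) - a / e)) := by ring
    rw [this]
    have hnonneg : 0 ≤ 2 * π * τ.im * ((a : ℝ) - a / e) := by
      have := Real.pi_pos
      have h2 : 0 ≤ (a : ℝ) - a / e := sub_nonneg.mpr hle
      positivity
    exact Real.exp_le_one_iff.mpr (by linarith)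
  have hprod := (hF1.mul hF2).mul hF3
  have e1 : (fun τ : ℍ => Δ τ ^ n * jFun (affPoint a b e ha he τ))
      = ((fun τ : ℍ => JStab.jA (affPoint a b e ha he τ) * 𝕢 1 (affPoint a b e ha he τ : ℍ))
          * fun τ : ℍ => P τ ^ n)
        * fun τ : ℍ => 𝕢 1 (τ : ℂ) ^ n / 𝕢 1 (affPoint a b e ha he τ : ℍ) := by
    funext τ
    simp only [Pi.mul_apply]
    rw [ModularForm.discriminant_eq_q_prod]
    have hq : 𝕢 1 ((affPoint a b e ha he τ : ℍ) : ℂ) ≠ 0 := Function.Periodic.qParam_ne_zero _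
    show _ = JStab.jA (affPoint a b e ha he τ) * _ * _ * _
    rw [show JStab.jA (affPoint a b e ha he τ) = jFun (affPoint a b e ha he τ) from rfl]
    rw [mul_pow]
    field_simp
    simp only [hP]
    ring
  rw [e1]
  exact hprod

theorem moderateGrowth_jFun_affPoint :
    ModerateGrowth (fun τ : ℍ => jFun (affPoint a b e ha he τ)) :=
  ⟨mdiff_jFun_affPoint a b e ha he, a.toNat, isBounded_jFun_affPoint a b e ha he⟩

end Affine

/-- Any function of the form `τ ↦ j (d · (g τ))`, `d ≥ 1`, `g ∈ SL(2,ℤ)`, has moderate growth.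
The function is given abstractly through the hypothesis `hc`, so that any way of writing the
point `d (g τ)` of the upper half plane can be used. -/
theorem moderateGrowth_conj (d : ℤ) (hd : 0 < d) (g : SL(2, ℤ)) (c : ℍ → ℂ)
    (hc : ∀ τ z : ℍ, (z : ℂ) = (d : ℂ) * ((g • τ : ℍ) : ℂ) → c τ = jFun z) :
    ModerateGrowth c := by
  obtain ⟨g', a, b, e, -, ha, -, -, he, h⟩ := exists_hermite_smul d hd g
  have hc' : c = fun τ : ℍ => jFun (affPoint a b e ha he τ) := by
    funext τ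
    rw [hc τ (g' • affPoint a b e ha he τ) (h τ).symm, jFun_smul]
  rw [hc']
  exact moderateGrowth_jFun_affPoint a b e ha he

/-- The conjugate `τ ↦ j (d (g τ))` (written with the extension `jC` of `j` to `ℂ`). -/
def conjFun (d : ℕ) (g : SL(2, ℤ)) (τ : ℍ) : ℂ :=
  JStab.jC ((d : ℂ) * ((g • τ : ℍ) : ℂ))

lemma conjFun_eq (d : ℕ) (g : SL(2, ℤ)) (τ z : ℍ) (hz : (z : ℂ) = (d : ℂ) * ((g • τ : ℍ) : ℂ)) :
    conjFun d g τ = jFun z := by
  rw [conjFun, ← hz, JStab.jC_coe]
  rfl

theorem moderateGrowth_conjFun (d : ℕ) (hd : 0 < d) (g : SL(2, ℤ)) :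
    ModerateGrowth (conjFun d g) :=
  moderateGrowth_conj (d : ℤ) (by exact_mod_cast hd) g _ fun τ z hz =>
    conjFun_eq d g τ z (by rw [hz]; push_cast; rfl)

/-- **AI-fix, function level, packaged.** Every `SL(2,ℤ)`-invariant element of the `ℂ`-algebra
generated by the conjugates `τ ↦ j (d (g τ))`, `d ≥ 1`, is a polynomial in `j`. -/
theorem exists_polynomial_of_mem_adjoin_conjFun {f : ℍ → ℂ}
    (hf : f ∈ Algebra.adjoin ℂ {c : ℍ → ℂ | ∃ (d : ℕ) (g : SL(2, ℤ)), 0 < d ∧ c = conjFun d g})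
    (hinv : ∀ (γ : SL(2, ℤ)) (τ : ℍ), f (γ • τ) = f τ) :
    ∃ P : Polynomial ℂ, ∀ τ, f τ = P.eval (jFun τ) := by
  refine exists_polynomial_of_mem_adjoin ?_ hf hinv
  rintro s ⟨d, g, hd, rfl⟩
  exact moderateGrowth_conjFun d hd g

end Fermat.Agent.S24.ModGrowth
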