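/-
S24 / MOD-VALEXT (helper98): extend an "order function" `nu0 : A → ℤ` on a domain `A`
(additive on products, ultrametric, only used on nonzero elements) to the fraction field `L`,
producing a `ValuationSubring L` together with the extended order `nu : L → ℤ`,
and the invariance of both under ring endomorphisms of `L` preserving `A` and `nu0`.
Pure algebra; imports Mathlib only.
-/
import Mathlib

set_option autoImplicit false

namespace Fermat.Agent.S24.ValExt

/-- An order function on a domain: additive on products of nonzero elements and ultrametric.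
(The value at `0` is irrelevant.) -/
structure IsOrderFunction {A : Type*} [CommRing A] (nu0 : A → ℤ) : Prop where
  map_mul : ∀ a b : A, a ≠ 0 → b ≠ 0 → nu0 (a * b) = nu0 a + nu0 b
  map_add : ∀ a b : A, a ≠ 0 → b ≠ 0 → a + b ≠ 0 → min (nu0 a) (nu0 b) ≤ nu0 (a + b)

section Basic

variable {A : Type*} [CommRing A] [IsDomain A] {nu0 : A → ℤ}

theorem IsOrderFunction.map_one (h : IsOrderFunction nu0) : nu0 1 = 0 := by
  have := h.map_mul 1 1 one_ne_zero one_ne_zero
  rw [mul_one] at this
  linarith

theorem IsOrderFunction.map_neg_one (h : IsOrderFunction nu0) : nu0 (-1) = 0 := by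
  have h1 : (-1 : A) ≠ 0 := neg_ne_zero.mpr one_ne_zero
  have := h.map_mul (-1) (-1) h1 h1
  rw [neg_one_mul, neg_neg, h.map_one] at this
  linarith

theorem IsOrderFunction.map_neg (h : IsOrderFunction nu0) {a : A} (ha : a ≠ 0) :
    nu0 (-a) = nu0 a := by
  have h1 : (-1 : A) ≠ 0 := neg_ne_zero.mpr one_ne_zero
  have := h.map_mul (-1) a h1 ha
  rw [neg_one_mul, h.map_neg_one] at this
  linarith

end Basic

section Ext

variable {A : Type*} [CommRing A] [IsDomain A] (nu0 : A → ℤ)
variable {L : Type*} [Field L] [Algebra A L] [IsFractionRing A L]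

/-- The extension of an order function to the fraction field (junk value at `0`). -/
noncomputable def nu (y : L) : ℤ :=
  nu0 (IsLocalization.sec (nonZeroDivisors A) y).1 -
    nu0 ((IsLocalization.sec (nonZeroDivisors A) y).2 : A)

variable {nu0}

omit [IsDomain A] in
theorem algebraMap_ne_zero {a : A} (ha : a ≠ 0) : algebraMap A L a ≠ 0 := by
  intro h
  exact ha ((IsFractionRing.injective A L) (by rw [h, map_zero]))

/-- `nu` can be computed from any fraction representing `y`. -/
theorem nu_div (h : IsOrderFunction nu0) {a b : A} (ha : a ≠ 0) (hb : b ≠ 0) :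
    nu nu0 (algebraMap A L a / algebraMap A L b) = nu0 a - nu0 b := by
  unfold nu
  set y : L := algebraMap A L a / algebraMap A L b with hy
  have hbL : algebraMap A L b ≠ 0 := algebraMap_ne_zero hb
  have hb' : ((IsLocalization.sec (nonZeroDivisors A) y).2 : A) ≠ 0 :=
    nonZeroDivisors.ne_zero (IsLocalization.sec (nonZeroDivisors A) y).2.2
  have hspec := IsLocalization.sec_spec (nonZeroDivisors A) y
  -- a * b' = a' * b
  have hcross : a * ((IsLocalization.sec (nonZeroDivisors A) y).2 : A) =
      (IsLocalization.sec (nonZeroDivisors A) y).1 * b := by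
    apply IsFractionRing.injective A L
    rw [map_mul, map_mul, ← hspec, hy]
    field_simp
  have ha' : (IsLocalization.sec (nonZeroDivisors A) y).1 ≠ 0 := by
    intro h0
    rw [h0, zero_mul] at hcross
    exact (mul_ne_zero ha hb') hcross
  have e1 := h.map_mul a _ ha hb'
  have e2 := h.map_mul _ b ha' hb
  rw [hcross] at e1
  linarith

theorem exists_rep (y : L) (hy : y ≠ 0) :
    ∃ a b : A, a ≠ 0 ∧ b ≠ 0 ∧ y = algebraMap A L a / algebraMap A L b := by
  obtain ⟨a, b, hb, rfl⟩ := IsFractionRing.div_surjective (A := A) y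
  have hb0 : b ≠ 0 := nonZeroDivisors.ne_zero hb
  refine ⟨a, b, ?_, hb0, rfl⟩
  rintro rfl
  apply hy
  rw [map_zero, zero_div]

theorem nu_algebraMap (h : IsOrderFunction nu0) {a : A} (ha : a ≠ 0) :
    nu nu0 (algebraMap A L a) = nu0 a := by
  have := nu_div (L := L) h ha (one_ne_zero (α := A))
  rw [map_one, div_one, h.map_one, sub_zero] at this
  exact this

theorem nu_one (h : IsOrderFunction nu0) : nu nu0 (1 : L) = 0 := by
  have := nu_algebraMap (L := L) h (one_ne_zero (α := A))
  rw [map_one, h.map_one] at this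
  exact this

theorem nu_mul (h : IsOrderFunction nu0) {y z : L} (hy : y ≠ 0) (hz : z ≠ 0) :
    nu nu0 (y * z) = nu nu0 y + nu nu0 z := by
  obtain ⟨a, b, ha, hb, rfl⟩ := exists_rep (A := A) y hy
  obtain ⟨c, d, hc, hd, rfl⟩ := exists_rep (A := A) z hz
  have e : algebraMap A L a / algebraMap A L b * (algebraMap A L c / algebraMap A L d) =
      algebraMap A L (a * c) / algebraMap A L (b * d) := by
    rw [map_mul, map_mul, div_mul_div_comm]
  rw [e, nu_div h (mul_ne_zero ha hc) (mul_ne_zero hb hd), nu_div h ha hb, nu_div h hc hd,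
    h.map_mul a c ha hc, h.map_mul b d hb hd]
  ring

theorem nu_inv (h : IsOrderFunction nu0) {y : L} (hy : y ≠ 0) :
    nu nu0 y⁻¹ = - nu nu0 y := by
  have := nu_mul h hy (inv_ne_zero hy)
  rw [mul_inv_cancel₀ hy, nu_one h] at this
  linarith

theorem nu_neg (h : IsOrderFunction nu0) {y : L} (hy : y ≠ 0) :
    nu nu0 (-y) = nu nu0 y := by
  obtain ⟨a, b, ha, hb, rfl⟩ := exists_rep (A := A) y hy
  have e : -(algebraMap A L a / algebraMap A L b) = algebraMap A L (-a) / algebraMap A L b := by
    rw [map_neg, neg_div]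
  rw [e, nu_div h (neg_ne_zero.mpr ha) hb, nu_div h ha hb, h.map_neg ha]

theorem nu_add (h : IsOrderFunction nu0) {y z : L} (hy : y ≠ 0) (hz : z ≠ 0)
    (hyz : y + z ≠ 0) : min (nu nu0 y) (nu nu0 z) ≤ nu nu0 (y + z) := by
  obtain ⟨a, b, ha, hb, rfl⟩ := exists_rep (A := A) y hy
  obtain ⟨c, d, hc, hd, rfl⟩ := exists_rep (A := A) z hz
  have hbL : algebraMap A L b ≠ 0 := algebraMap_ne_zero hb
  have hdL : algebraMap A L d ≠ 0 := algebraMap_ne_zero hd
  have e : algebraMap A L a / algebraMap A L b + algebraMap A L c / algebraMap A L d =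
      algebraMap A L (a * d + c * b) / algebraMap A L (b * d) := by
    rw [map_add, map_mul, map_mul, map_mul, div_add_div _ _ hbL hdL]
    ring
  have hsum : a * d + c * b ≠ 0 := by
    intro h0
    apply hyz
    rw [e, h0, map_zero, zero_div]
  rw [e, nu_div h hsum (mul_ne_zero hb hd), nu_div h ha hb, nu_div h hc hd, h.map_mul b d hb hd]
  have k := h.map_add (a * d) (c * b) (mul_ne_zero ha hd) (mul_ne_zero hc hb) hsum
  rw [h.map_mul a d ha hd, h.map_mul c b hc hb] at k
  rcases min_cases (nu0 a + nu0 d) (nu0 c + nu0 b) with ⟨e1, _⟩ | ⟨e1, _⟩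
  · rw [e1] at k
    exact le_trans (min_le_left _ _) (by linarith)
  · rw [e1] at k
    exact le_trans (min_le_right _ _) (by linarith)

variable (nu0) (L)

/-- The valuation subring `{y | y = 0 ∨ 0 ≤ nu y}` of the fraction field. -/
noncomputable def valSubring (h : IsOrderFunction nu0) : ValuationSubring L where
  carrier := {y | y = 0 ∨ 0 ≤ nu nu0 y}
  mul_mem' := by
    rintro y z (rfl | hy) (rfl | hz)
    · left; simp
    · left; simp
    · left; simp
    · by_cases hy0 : y = 0
      · left; rw [hy0, zero_mul]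
      by_cases hz0 : z = 0
      · left; rw [hz0, mul_zero]
      right
      rw [nu_mul h hy0 hz0]
      exact add_nonneg hy hz
  one_mem' := by right; rw [nu_one h]
  add_mem' := by
    rintro y z (rfl | hy) (rfl | hz)
    · left; simp
    · right; rw [zero_add]; exact hz
    · right; rw [add_zero]; exact hy
    · by_cases hy0 : y = 0
      · right; rw [hy0, zero_add]; exact hz
      by_cases hz0 : z = 0
      · right; rw [hz0, add_zero]; exact hy
      by_cases hyz : y + z = 0
      · left; exact hyz
      right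
      exact le_trans (le_min hy hz) (nu_add h hy0 hz0 hyz)
  zero_mem' := Or.inl rfl
  neg_mem' := by
    rintro y (rfl | hy)
    · left; simp
    · by_cases hy0 : y = 0
      · left; rw [hy0, neg_zero]
      right; rw [nu_neg h hy0]; exact hy
  mem_or_inv_mem' := by
    intro y
    by_cases hy0 : y = 0
    · left; left; exact hy0
    rcases le_total 0 (nu nu0 y) with hy | hy
    · left; right; exact hy
    · right; right; rw [nu_inv h hy0]; linarith

variable {nu0} {L}

theorem mem_valSubring_iff (h : IsOrderFunction nu0) {y : L} (hy : y ≠ 0) :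
    y ∈ valSubring nu0 L h ↔ 0 ≤ nu nu0 y := by
  constructor
  · rintro (h0 | h0)
    · exact absurd h0 hy
    · exact h0
  · intro h0; exact Or.inr h0

theorem zero_mem_valSubring (h : IsOrderFunction nu0) : (0 : L) ∈ valSubring nu0 L h :=
  Or.inl rfl

theorem algebraMap_mem_valSubring (h : IsOrderFunction nu0) {a : A} (ha : 0 ≤ nu0 a) :
    algebraMap A L a ∈ valSubring nu0 L h := by
  by_cases ha0 : a = 0
  · left; rw [ha0, map_zero]
  · right; rw [nu_algebraMap h ha0]; exact ha

/-- the constants of a base field on which `nu0` is trivial lie in the valuation subring -/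
theorem algebraMap_field_mem {K : Type*} [Field K] [Algebra K A] [Algebra K L]
    [IsScalarTower K A L] (h : IsOrderFunction nu0)
    (hK : ∀ k : K, k ≠ 0 → nu0 (algebraMap K A k) = 0) (k : K) :
    algebraMap K L k ∈ valSubring nu0 L h := by
  rw [IsScalarTower.algebraMap_apply K A L]
  by_cases hk : k = 0
  · left; rw [hk, map_zero, map_zero]
  · exact algebraMap_mem_valSubring h (hK k hk).ge

/-- `nu` is invariant under every ring endomorphism of `L` which preserves `A` and `nu0`. -/
theorem nu_map {F : Type*} [FunLike F L L] [RingHomClass F L L] (h : IsOrderFunction nu0)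
    (s : F) (s0 : A → A) (hs : ∀ a : A, s (algebraMap A L a) = algebraMap A L (s0 a))
    (hnu : ∀ a : A, a ≠ 0 → nu0 (s0 a) = nu0 a) {y : L} (hy : y ≠ 0) :
    nu nu0 (s y) = nu nu0 y := by
  obtain ⟨a, b, ha, hb, rfl⟩ := exists_rep (A := A) y hy
  have hinj : Function.Injective s := (RingHomClass.toRingHom s).injective
  have hne : ∀ c : A, c ≠ 0 → s0 c ≠ 0 := by
    intro c hc h0
    have h1 : s (algebraMap A L c) = 0 := by rw [hs, h0, map_zero]
    have h2 : algebraMap A L c = 0 := hinj (by rw [h1, map_zero])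
    exact algebraMap_ne_zero hc h2
  rw [map_div₀, hs, hs, nu_div h (hne a ha) (hne b hb), nu_div h ha hb, hnu a ha, hnu b hb]

theorem map_mem_valSubring {F : Type*} [FunLike F L L] [RingHomClass F L L]
    (h : IsOrderFunction nu0)
    (s : F) (s0 : A → A) (hs : ∀ a : A, s (algebraMap A L a) = algebraMap A L (s0 a))
    (hnu : ∀ a : A, a ≠ 0 → nu0 (s0 a) = nu0 a) {y : L} (hy : y ∈ valSubring nu0 L h) :
    s y ∈ valSubring nu0 L h := by
  rcases hy with rfl | hy
  · left; exact map_zero s
  · by_cases hy0 : y = 0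
    · left; rw [hy0, map_zero]
    · right; rw [nu_map h s s0 hs hnu hy0]; exact hy

end Ext

/-- **MOD-VALEXT**, packaged in the shape of the fields `val_fin` / `val_inf` of
`ModularTower`. -/
theorem exists_valuationSubring {K A L : Type*} [Field K] [CommRing A] [IsDomain A] [Algebra K A]
    [Field L] [Algebra A L] [IsFractionRing A L] [Algebra K L] [IsScalarTower K A L]
    (nu0 : A → ℤ)
    (hmul : ∀ a b : A, a ≠ 0 → b ≠ 0 → nu0 (a * b) = nu0 a + nu0 b)
    (hadd : ∀ a b : A, a ≠ 0 → b ≠ 0 → a + b ≠ 0 → min (nu0 a) (nu0 b) ≤ nu0 (a + b))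
    (hK : ∀ k : K, k ≠ 0 → nu0 (algebraMap K A k) = 0) :
    ∃ (V : ValuationSubring L) (ν : L → ℤ),
      (∀ k : K, algebraMap K L k ∈ V) ∧
      (∀ y z : L, y ≠ 0 → z ≠ 0 → ν (y * z) = ν y + ν z) ∧
      (∀ y : L, y ≠ 0 → (y ∈ V ↔ 0 ≤ ν y)) ∧
      (∀ a : A, a ≠ 0 → ν (algebraMap A L a) = nu0 a) ∧
      (∀ (s : L →+* L) (s0 : A → A), (∀ a : A, s (algebraMap A L a) = algebraMap A L (s0 a)) →
        (∀ a : A, a ≠ 0 → nu0 (s0 a) = nu0 a) →
          (∀ y : L, y ≠ 0 → ν (s y) = ν y) ∧ ∀ y ∈ V, s y ∈ V) := by
  have h : IsOrderFunction nu0 := ⟨hmul, hadd⟩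
  refine ⟨valSubring nu0 L h, nu nu0, algebraMap_field_mem h hK, fun y z hy hz => nu_mul h hy hz,
    fun y hy => mem_valSubring_iff h hy, fun a ha => nu_algebraMap h ha, ?_⟩
  intro s s0 hs hnu
  exact ⟨fun y hy => nu_map h s s0 hs hnu hy, fun y hy => map_mem_valSubring h s s0 hs hnu hy⟩

/-- Example of an order function: the order of the image under an injective ring homomorphism
into a ring of Laurent series (used for the valuation at the cusp). -/
theorem isOrderFunction_order {A k : Type*} [CommRing A] [Field k]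
    (e : A →+* LaurentSeries k) (he : Function.Injective e) :
    IsOrderFunction (fun a : A => (e a).order) := by
  have hne : ∀ a : A, a ≠ 0 → e a ≠ 0 := fun a ha h0 => ha (he (by rw [h0, map_zero]))
  constructor
  · intro a b ha hb
    show (e (a * b)).order = (e a).order + (e b).order
    rw [map_mul, HahnSeries.order_mul (hne a ha) (hne b hb)]
  · intro a b _ _ hab
    show min (e a).order (e b).order ≤ (e (a + b)).order
    rw [map_add]
    exact HahnSeries.min_order_le_order_add (by rw [← map_add]; exact hne _ hab)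

end Fermat.Agent.S24.ValExt
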