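import Mathlib
import Fermat.Prelude.Def_ModularCurve_ArithmeticGalois
import Fermat.Agent.S24.Mod.Interface

/-!
# S24 bridge, algebra part

* `exists_algHom_adjoin_of_ker_eq`: if two families `x : σ → E`, `y : σ → M` in fields over `K`
  satisfy the same polynomial relations, then `K(x) ⊆ E` embeds into `M` with `x i ↦ y i`.
* `modularFunctionFieldBar_eq_adjoin`: the Prelude field `modularFunctionFieldBar N` is generated
  over `Q̄` by the series `Mod.xK N d = j(q^d)`, `d ∣ N`.
-/

set_option autoImplicit false

open ModularCurve IntermediateField Fermat.Agent.S24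

namespace Fermat.Agent.S24.Br46

section General

open scoped IntermediateField.algebraAdjoinAdjoin

variable {K E M σ : Type*} [Field K] [Field E] [Algebra K E] [Field M] [Algebra K M]

/-- Two families with the same polynomial relations generate isomorphic fields. -/
theorem exists_algHom_adjoin_of_ker_eq (x : σ → E) (y : σ → M)
    (h : ∀ P : MvPolynomial σ K, MvPolynomial.aeval y P = 0 ↔ MvPolynomial.aeval x P = 0) :
    ∃ ψ : IntermediateField.adjoin K (Set.range x) →ₐ[K] M,
      ∀ i, ψ ⟨x i, IntermediateField.subset_adjoin K _ ⟨i, rfl⟩⟩ = y i := by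
  classical
  set f : MvPolynomial σ K →ₐ[K] E := MvPolynomial.aeval x with hf
  have hA : Algebra.adjoin K (Set.range x) = f.range := Algebra.adjoin_range_eq_range_aeval K x
  let f' : MvPolynomial σ K →ₐ[K] Algebra.adjoin K (Set.range x) :=
    f.codRestrict _ (fun P => by rw [hA]; exact ⟨P, rfl⟩)
  have hf' : ∀ P, ((f' P : Algebra.adjoin K (Set.range x)) : E) = f P := fun P => rfl
  have hsurj : Function.Surjective f' := by
    rintro ⟨a, ha⟩
    rw [hA] at ha
    obtain ⟨P, rfl⟩ := ha
    exact ⟨P, Subtype.ext (hf' P)⟩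
  let g₀ : MvPolynomial σ K →ₐ[K] M := MvPolynomial.aeval y
  have hker : RingHom.ker f'.toRingHom ≤ RingHom.ker g₀.toRingHom := by
    intro P hP
    rw [RingHom.mem_ker] at hP ⊢
    have h0 : ((f' P : Algebra.adjoin K (Set.range x)) : E) = 0 := by
      rw [show f' P = 0 from hP]; rfl
    rw [hf'] at h0
    exact (h P).mpr h0
  let g : Algebra.adjoin K (Set.range x) →ₐ[K] M := f'.liftOfSurjective hsurj g₀ hker
  have hg : ∀ P, g (f' P) = g₀ P := fun P => AlgHom.liftOfSurjective_apply f' hsurj g₀ hker P
  have hinj : Function.Injective g := by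
    rw [injective_iff_map_eq_zero]
    intro a ha
    obtain ⟨P, rfl⟩ := hsurj a
    rw [hg] at ha
    have : f P = 0 := (h P).mp ha
    exact Subtype.ext (by rw [hf' P, this]; rfl)
  refine ⟨IsFractionRing.liftAlgHom (K := IntermediateField.adjoin K (Set.range x)) hinj, fun i => ?_⟩
  have hx : (⟨x i, IntermediateField.subset_adjoin K _ ⟨i, rfl⟩⟩ :
      IntermediateField.adjoin K (Set.range x))
      = algebraMap (Algebra.adjoin K (Set.range x)) (IntermediateField.adjoin K (Set.range x))
          (f' (MvPolynomial.X i)) := by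
    apply Subtype.ext
    show x i = ((f' (MvPolynomial.X i) : Algebra.adjoin K (Set.range x)) : E)
    rw [hf', hf, MvPolynomial.aeval_X]
  rw [hx, IsFractionRing.liftAlgHom_apply, IsFractionRing.lift_algebraMap]
  show g (f' (MvPolynomial.X i)) = y i
  rw [hg]
  simp [g₀]

end General

lemma xK_mem (N : ℕ) [NeZero N] (d : Mod.Dv N) : Mod.xK N d ∈ modularFunctionFieldBar N :=
  coeffEmb_mem_laurentBaseChange Kbar (jqd_mem_full N d.2)

/-- The Prelude's function field of `X₀(N)` over `Q̄` is generated by the `j(q^d)`, `d ∣ N`. -/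
theorem modularFunctionFieldBar_eq_adjoin (N : ℕ) [NeZero N] :
    modularFunctionFieldBar N = IntermediateField.adjoin Kbar (Set.range (Mod.xK N)) := by
  apply le_antisymm
  · show laurentBaseChange Kbar (modularFunctionFieldFull N) ≤ _
    rw [laurentBaseChange, IntermediateField.adjoin_le_iff]
    rintro _ ⟨x, hx, rfl⟩
    have hx' : x ∈ IntermediateField.adjoin ℚ (divisorExpansions N) := hx
    clear hx
    induction hx' using IntermediateField.adjoin_induction with
    | mem y hy =>
      obtain ⟨d, hne, hd, rfl⟩ := hy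
      exact IntermediateField.subset_adjoin Kbar _ ⟨⟨d, hd⟩, rfl⟩
    | algebraMap c =>
      have : coeffEmb Kbar (algebraMap ℚ (LaurentSeries ℚ) c)
          = algebraMap Kbar (LaurentSeries Kbar) (algebraMap ℚ Kbar c) := by
        rw [algebraMap_apply_eq_single, algebraMap_laurentSeries_eq_single, coeffEmb,
          coeffMap_single]
      rw [this]
      exact IntermediateField.algebraMap_mem _ _
    | add y z _ _ hy hz => rw [map_add]; exact add_mem hy hz
    | inv y _ hy => rw [map_inv₀]; exact inv_mem hy
    | mul y z _ _ hy hz => rw [map_mul]; exact mul_mem hy hz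
  · rw [IntermediateField.adjoin_le_iff]
    rintro _ ⟨d, rfl⟩
    exact xK_mem N d

end Fermat.Agent.S24.Br46
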