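/-
S24 / MOD-QEXP (helper47): Laurent `q_N`-expansions of functions on the upper half plane.

`HasQExp N f E` : for every `τ ∈ ℍ`, `f τ = ∑_{m ∈ ℤ} E.coeff m * q_N(τ)^m` (as a `HasSum`),
where `q_N(τ) = exp(2πiτ/N)` and `E : LaurentSeries ℂ`.
-/
import Mathlib
import Fermat.Prelude.Def_ModularCurve_X0
import Fermat.Prelude.Def_ModularCurve_LaurentCoeff

set_option autoImplicit false

open UpperHalfPlane Complex Filter Topology Function
open scoped Real

noncomputable section

namespace Fermat.Agent.S24.HasQExp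

/-! ### The parameter `q_N` -/

/-- `q_N(τ) = exp(2πiτ/N)`, in Mathlib's normal form `𝕢 N τ`. -/
def qN (N : ℕ) (τ : ℍ) : ℂ := Function.Periodic.qParam (N : ℝ) (τ : ℂ)

lemma qN_eq (N : ℕ) (τ : ℍ) : qN N τ = Complex.exp (2 * π * Complex.I * τ / N) := by
  simp [qN, Function.Periodic.qParam]

lemma qN_ne_zero (N : ℕ) (τ : ℍ) : qN N τ ≠ 0 := Function.Periodic.qParam_ne_zero _

lemma norm_qN_lt_one {N : ℕ} (hN : 0 < N) (τ : ℍ) : ‖qN N τ‖ < 1 :=
  Function.Periodic.norm_qParam_lt_one (by exact_mod_cast hN) τ.im_pos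

/-- `q_N` maps `ℍ` onto the punctured unit disc. -/
lemma exists_qN_eq {N : ℕ} (hN : 0 < N) {q : ℂ} (hq : ‖q‖ < 1) (hq0 : q ≠ 0) :
    ∃ τ : ℍ, qN N τ = q := by
  have hN' : (0 : ℝ) < N := by exact_mod_cast hN
  have h1 := Function.Periodic.im_invQParam_pos_of_norm_lt_one hN' hq hq0
  exact ⟨⟨Function.Periodic.invQParam N q, h1⟩,
    Function.Periodic.qParam_right_inv hN'.ne' hq0⟩

/-! ### Power series sums -/

/-- `PSum P q t` : the power series `P` evaluated at `q` converges to `t`. -/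
def PSum (P : PowerSeries ℂ) (q t : ℂ) : Prop :=
  HasSum (fun n : ℕ => PowerSeries.coeff n P * q ^ n) t

namespace PSum

variable {P Q : PowerSeries ℂ} {q s t : ℂ}

lemma unique (h₁ : PSum P q s) (h₂ : PSum P q t) : s = t := HasSum.unique h₁ h₂

lemma zero (q : ℂ) : PSum 0 q 0 := by
  unfold PSum
  simp

lemma C (c q : ℂ) : PSum (PowerSeries.C c) q c := by
  unfold PSum
  have h := hasSum_ite_eq (0 : ℕ) c
  refine h.congr_fun ?_ |>.congr_fun fun _ => rfl
  intro n
  by_cases hn : n = 0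
  · subst hn; simp
  · simp [PowerSeries.coeff_C, hn]

lemma add (hP : PSum P q s) (hQ : PSum Q q t) : PSum (P + Q) q (s + t) := by
  unfold PSum at *
  simpa [add_mul] using hP.add hQ

lemma neg (hP : PSum P q s) : PSum (-P) q (-s) := by
  unfold PSum at *
  simpa using hP.neg

lemma sub (hP : PSum P q s) (hQ : PSum Q q t) : PSum (P - Q) q (s - t) := by
  simpa [sub_eq_add_neg] using hP.add hQ.neg

lemma mul (hP : PSum P q s) (hQ : PSum Q q t) : PSum (P * Q) q (s * t) := by
  have hPn : Summable fun n => ‖PowerSeries.coeff n P * q ^ n‖ := hP.summable.norm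
  have hQn : Summable fun n => ‖PowerSeries.coeff n Q * q ^ n‖ := hQ.summable.norm
  have key := tsum_mul_tsum_eq_tsum_sum_antidiagonal_of_summable_norm hPn hQn
  have hsum := summable_norm_sum_mul_antidiagonal_of_summable_norm hPn hQn
  have hfun : (fun n => PowerSeries.coeff n (P * Q) * q ^ n) = fun n =>
      ∑ kl ∈ Finset.HasAntidiagonal.antidiagonal n,
        (PowerSeries.coeff kl.1 P * q ^ kl.1) * (PowerSeries.coeff kl.2 Q * q ^ kl.2) := by
    funext n
    rw [PowerSeries.coeff_mul, Finset.sum_mul]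
    refine Finset.sum_congr rfl fun kl hkl => ?_
    rw [← Finset.HasAntidiagonal.mem_antidiagonal.mp hkl, pow_add]
    ring
  unfold PSum
  rw [hfun, ← hP.tsum_eq, ← hQ.tsum_eq, key]
  exact hsum.of_norm.hasSum

end PSum


/-! ### Laurent series: lower bounds and power series parts -/

open HahnSeries

/-- `LB E a` : all coefficients of `E` below `a` vanish. -/
def LB (E : LaurentSeries ℂ) (a : ℤ) : Prop := ∀ m : ℤ, m < a → E.coeff m = 0

/-- The power series `∑ E.coeff (a + n) X^n`. -/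
def psPart (E : LaurentSeries ℂ) (a : ℤ) : PowerSeries ℂ :=
  PowerSeries.mk fun n => E.coeff (a + n)

@[simp] lemma coeff_psPart (E : LaurentSeries ℂ) (a : ℤ) (n : ℕ) :
    PowerSeries.coeff n (psPart E a) = E.coeff (a + n) := by
  simp [psPart]

/-- The Laurent series `X^k * P`. -/
def repr (k : ℤ) (P : PowerSeries ℂ) : LaurentSeries ℂ :=
  HahnSeries.single k (1 : ℂ) * HahnSeries.ofPowerSeries ℤ ℂ P

lemma coeff_repr_add (k : ℤ) (P : PowerSeries ℂ) (n : ℕ) :
    (repr k P).coeff (k + n) = PowerSeries.coeff n P := by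
  rw [repr, add_comm, HahnSeries.coeff_single_mul_add, one_mul,
    HahnSeries.ofPowerSeries_apply_coeff]

lemma coeff_repr_of_lt (k : ℤ) (P : PowerSeries ℂ) {m : ℤ} (hm : m < k) :
    (repr k P).coeff m = 0 := by
  have h : m = (m - k) + k := by ring
  rw [repr, h, HahnSeries.coeff_single_mul_add, one_mul]
  exact ModularCurve.ofPowerSeries_coeff_of_neg P (by omega)

lemma LB_repr (k : ℤ) (P : PowerSeries ℂ) : LB (repr k P) k :=
  fun _ hm => coeff_repr_of_lt k P hm

lemma LB.eq_repr {E : LaurentSeries ℂ} {a : ℤ} (h : LB E a) : E = repr a (psPart E a) := by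
  ext m
  rcases lt_or_ge m a with hm | hm
  · rw [h m hm, coeff_repr_of_lt a _ hm]
  · obtain ⟨n, rfl⟩ : ∃ n : ℕ, m = a + n := ⟨(m - a).toNat, by omega⟩
    rw [coeff_repr_add, coeff_psPart]

lemma LB.mono {E : LaurentSeries ℂ} {a b : ℤ} (h : LB E a) (hba : b ≤ a) : LB E b :=
  fun m hm => h m (lt_of_lt_of_le hm hba)

lemma LB_order (E : LaurentSeries ℂ) : LB E E.order :=
  fun _ hm => HahnSeries.coeff_eq_zero_of_lt_order hm

lemma LB_of_le_order {E : LaurentSeries ℂ} {a : ℤ} (h : a ≤ E.order) : LB E a :=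
  (LB_order E).mono h

lemma LB.le_order {E : LaurentSeries ℂ} {a : ℤ} (h : LB E a) (hE : E ≠ 0) : a ≤ E.order := by
  by_contra hlt
  rw [not_le] at hlt
  exact hE (HahnSeries.coeff_order_eq_zero.mp (h _ hlt))

lemma LB_zero (a : ℤ) : LB 0 a := fun _ _ => by simp

lemma LB.add {E₁ E₂ : LaurentSeries ℂ} {a : ℤ} (h₁ : LB E₁ a) (h₂ : LB E₂ a) :
    LB (E₁ + E₂) a := fun m hm => by
  rw [HahnSeries.coeff_add, h₁ m hm, h₂ m hm, add_zero]

lemma LB.neg {E : LaurentSeries ℂ} {a : ℤ} (h : LB E a) : LB (-E) a := fun m hm => by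
  rw [HahnSeries.coeff_neg, h m hm, neg_zero]

lemma repr_mul_repr (k l : ℤ) (P Q : PowerSeries ℂ) :
    repr k P * repr l Q = repr (k + l) (P * Q) := by
  simp only [repr, map_mul]
  rw [mul_mul_mul_comm, HahnSeries.single_mul_single, one_mul]

lemma LB.mul {E₁ E₂ : LaurentSeries ℂ} {a b : ℤ} (h₁ : LB E₁ a) (h₂ : LB E₂ b) :
    LB (E₁ * E₂) (a + b) := by
  rw [h₁.eq_repr, h₂.eq_repr, repr_mul_repr]
  exact LB_repr _ _

lemma LB_one : LB (1 : LaurentSeries ℂ) 0 := fun m hm => by
  rw [HahnSeries.coeff_one, if_neg (by omega)]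

lemma LB.pow {E : LaurentSeries ℂ} {a : ℤ} (h : LB E a) (n : ℕ) : LB (E ^ n) (n * a) := by
  induction n with
  | zero => simpa using LB_one
  | succ n ih =>
    rw [pow_succ]
    have := ih.mul h
    convert this using 1
    push_cast
    ring

/-! ### `HasQExp` -/

/-- `f` has the `q_N`-expansion `E` : `f τ = ∑_{m ∈ ℤ} E.coeff m * q_N(τ)^m` for all `τ`. -/
def _root_.Fermat.Agent.S24.HasQExp (N : ℕ) (f : ℍ → ℂ) (E : LaurentSeries ℂ) : Prop :=
  ∀ τ : ℍ, HasSum (fun m : ℤ => E.coeff m * qN N τ ^ m) (f τ)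

/-- Sum of a Laurent series `X^k P` in terms of the sum of the power series `P`. -/
lemma hasSum_repr_iff (k : ℤ) (P : PowerSeries ℂ) {q : ℂ} (hq : q ≠ 0) (t : ℂ) :
    HasSum (fun m : ℤ => (repr k P).coeff m * q ^ m) (q ^ k * t) ↔ PSum P q t := by
  have hinj : Function.Injective (fun n : ℕ => k + (n : ℤ)) := fun a b h => by
    simpa using h
  have hzero : ∀ m : ℤ, m ∉ Set.range (fun n : ℕ => k + (n : ℤ)) →
      (repr k P).coeff m * q ^ m = 0 := by
    intro m hm
    have : m < k := by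
      by_contra hge
      rw [not_lt] at hge
      exact hm ⟨(m - k).toNat, by show k + ((m - k).toNat : ℤ) = m; omega⟩
    rw [coeff_repr_of_lt k P this, zero_mul]
  rw [← hinj.hasSum_iff hzero]
  have hfun : ((fun m : ℤ => (repr k P).coeff m * q ^ m) ∘ fun n : ℕ => k + (n : ℤ)) =
      fun n : ℕ => q ^ k * (PowerSeries.coeff n P * q ^ n) := by
    funext n
    simp only [Function.comp_apply, coeff_repr_add]
    rw [zpow_add₀ hq, zpow_natCast]
    ring
  rw [hfun]
  exact hasSum_mul_left_iff (zpow_ne_zero k hq)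


end Fermat.Agent.S24.HasQExp

namespace Fermat.Agent.S24.HasQExp

open HahnSeries

variable {N : ℕ} {f g : ℍ → ℂ} {E E₁ E₂ : LaurentSeries ℂ}

/-- Reformulation through power series: if `E = X^a * P` then `f` has the expansion `E` iff
`q^(-a) f = P(q)`. -/
lemma iff_pSum {a : ℤ} (hE : LB E a) :
    HasQExp N f E ↔ ∀ τ : ℍ, PSum (psPart E a) (qN N τ) ((qN N τ) ^ (-a) * f τ) := by
  have key : ∀ τ : ℍ, HasSum (fun m : ℤ => E.coeff m * qN N τ ^ m) (f τ) ↔
      PSum (psPart E a) (qN N τ) ((qN N τ) ^ (-a) * f τ) := by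
    intro τ
    have hq := qN_ne_zero N τ
    rw [← hasSum_repr_iff a (psPart E a) hq, ← hE.eq_repr, ← mul_assoc, ← zpow_add₀ hq,
      add_neg_cancel, zpow_zero, one_mul]
  exact ⟨fun h τ => (key τ).mp (h τ), fun h τ => (key τ).mpr (h τ)⟩

lemma of_pSum {a : ℤ} {P : PowerSeries ℂ}
    (h : ∀ τ : ℍ, PSum P (qN N τ) ((qN N τ) ^ (-a) * f τ)) : HasQExp N f (repr a P) := by
  intro τ
  have hq := qN_ne_zero N τ
  have := (hasSum_repr_iff a P hq _).mpr (h τ)
  rwa [← mul_assoc, ← zpow_add₀ hq, add_neg_cancel, zpow_zero, one_mul] at this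

protected lemma congr (h : HasQExp N f E) (hfg : ∀ τ, f τ = g τ) : HasQExp N g E :=
  fun τ => hfg τ ▸ h τ

lemma const (N : ℕ) (c : ℂ) : HasQExp N (fun _ => c) (HahnSeries.C c) := by
  intro τ
  have h := hasSum_ite_eq (0 : ℤ) c
  refine h.congr_fun fun m => ?_
  by_cases hm : m = 0
  · subst hm; simp
  · rw [if_neg hm, HahnSeries.C_apply, HahnSeries.coeff_single_of_ne hm, zero_mul]

lemma zero (N : ℕ) : HasQExp N (fun _ => 0) 0 := by
  intro τ
  simp

lemma one (N : ℕ) : HasQExp N (fun _ => 1) 1 := by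
  simpa using const N 1

lemma add (h₁ : HasQExp N f E₁) (h₂ : HasQExp N g E₂) :
    HasQExp N (fun τ => f τ + g τ) (E₁ + E₂) := by
  intro τ
  simpa [add_mul] using (h₁ τ).add (h₂ τ)

lemma neg (h : HasQExp N f E) : HasQExp N (fun τ => -f τ) (-E) := by
  intro τ
  simpa using (h τ).neg

lemma sub (h₁ : HasQExp N f E₁) (h₂ : HasQExp N g E₂) :
    HasQExp N (fun τ => f τ - g τ) (E₁ - E₂) := by
  intro τ
  simpa [sub_mul] using (h₁ τ).sub (h₂ τ)

lemma mul (h₁ : HasQExp N f E₁) (h₂ : HasQExp N g E₂) :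
    HasQExp N (fun τ => f τ * g τ) (E₁ * E₂) := by
  have hb₁ := LB_order E₁
  have hb₂ := LB_order E₂
  rw [iff_pSum hb₁] at h₁
  rw [iff_pSum hb₂] at h₂
  rw [hb₁.eq_repr, hb₂.eq_repr, repr_mul_repr]
  refine of_pSum fun τ => ?_
  have hq := qN_ne_zero N τ
  have := (h₁ τ).mul (h₂ τ)
  convert this using 1
  rw [neg_add, zpow_add₀ hq]
  ring

lemma smul (c : ℂ) (h : HasQExp N f E) : HasQExp N (fun τ => c * f τ) (HahnSeries.C c * E) :=
  (const N c).mul h

lemma pow (h : HasQExp N f E) (n : ℕ) : HasQExp N (fun τ => f τ ^ n) (E ^ n) := by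
  induction n with
  | zero => simpa using one N
  | succ n ih => simpa [pow_succ] using ih.mul h

lemma sum {ι : Type*} (s : Finset ι) {F : ι → ℍ → ℂ} {Es : ι → LaurentSeries ℂ}
    (h : ∀ i ∈ s, HasQExp N (F i) (Es i)) :
    HasQExp N (fun τ => ∑ i ∈ s, F i τ) (∑ i ∈ s, Es i) := by
  classical
  induction s using Finset.induction_on with
  | empty => simpa using zero N
  | insert a s ha ih =>
    simp only [Finset.sum_insert ha]
    exact (h a (Finset.mem_insert_self a s)).add
      (ih fun i hi => h i (Finset.mem_insert_of_mem hi))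

lemma prod {ι : Type*} (s : Finset ι) {F : ι → ℍ → ℂ} {Es : ι → LaurentSeries ℂ}
    (h : ∀ i ∈ s, HasQExp N (F i) (Es i)) :
    HasQExp N (fun τ => ∏ i ∈ s, F i τ) (∏ i ∈ s, Es i) := by
  classical
  induction s using Finset.induction_on with
  | empty => simpa using one N
  | insert a s ha ih =>
    simp only [Finset.prod_insert ha]
    exact (h a (Finset.mem_insert_self a s)).mul
      (ih fun i hi => h i (Finset.mem_insert_of_mem hi))

/-- If the expansion is zero, the function is zero. -/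
lemma eq_zero_of_zero (h : HasQExp N f 0) (τ : ℍ) : f τ = 0 := by
  have := h τ
  simp only [HahnSeries.coeff_zero, zero_mul] at this
  exact this.unique hasSum_zero

end Fermat.Agent.S24.HasQExp

namespace Fermat.Agent.S24.HasQExp

open HahnSeries

/-! ### Uniqueness -/

/-- A power series converging to `g q` on the punctured unit disc is the Taylor series of the
function `g` corrected at `0`. -/
lemma hasFPowerSeriesOnBall_update_of_pSum {g : ℂ → ℂ} {P : PowerSeries ℂ}
    (hg : ∀ q : ℂ, ‖q‖ < 1 → q ≠ 0 → PSum P q (g q)) :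
    HasFPowerSeriesOnBall (Function.update g 0 (PowerSeries.coeff 0 P))
      (FormalMultilinearSeries.ofScalars ℂ (fun n => PowerSeries.coeff n P)) 0 1 := by
  constructor
  · refine le_of_forall_lt_imp_le_of_dense fun r hr ↦ ?_
    rcases eq_or_ne r 0 with rfl | hr'
    · simp
    · lift r to NNReal using hr.ne_top
      apply FormalMultilinearSeries.le_radius_of_summable
      have h1 : ‖((r : ℝ) : ℂ)‖ < 1 := by
        rw [Complex.norm_real, Real.norm_eq_abs, abs_of_nonneg r.coe_nonneg]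
        exact_mod_cast hr
      have h2 : ((r : ℝ) : ℂ) ≠ 0 := by
        intro h0
        apply hr'
        have : (r : ℝ) = 0 := by exact_mod_cast h0
        exact_mod_cast this
      have := (hg (r : ℝ) h1 h2).summable.norm
      simpa [PSum, norm_mul, mul_comm, mul_left_comm, mul_assoc] using this
  · simp
  · intro y hy
    rw [← ENNReal.coe_one, Metric.eball_coe, NNReal.coe_one, mem_ball_zero_iff] at hy
    rcases eq_or_ne y 0 with rfl | hy'
    · simpa +contextual [zero_pow_eq] using hasSum_ite_eq 0 (PowerSeries.coeff 0 P)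
    · simpa [Function.update_of_ne hy', mul_comm, PSum] using hg y hy hy'

/-- A power series vanishing on the punctured unit disc is zero. -/
lemma PSum.eq_zero_of_forall {P : PowerSeries ℂ}
    (h : ∀ q : ℂ, ‖q‖ < 1 → q ≠ 0 → PSum P q 0) : P = 0 := by
  have H1 := hasFPowerSeriesOnBall_update_of_pSum (g := fun _ => (0 : ℂ)) h
  have hc0 : PowerSeries.coeff 0 P = 0 := by
    have L1 := H1.hasFPowerSeriesAt.continuousAt
    have L2 : ContinuousAt (fun _ : ℂ => (0 : ℂ)) 0 := continuousAt_const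
    have := (L1.eventuallyEq_nhds_iff_eventuallyEq_nhdsNE L2).mp <| by
      filter_upwards [self_mem_nhdsWithin] with a ha using Function.update_of_ne ha ..
    simpa [Function.update_self] using this.eq_of_nhds
  have hupd : Function.update (fun _ : ℂ => (0 : ℂ)) 0 (PowerSeries.coeff 0 P) = 0 := by
    rw [hc0]
    funext x
    simp [Function.update_apply]
  rw [hupd] at H1
  have hp := H1.hasFPowerSeriesAt.eq_zero
  ext n
  have h1 : (FormalMultilinearSeries.ofScalars ℂ (fun n => PowerSeries.coeff n P)) n = 0 := by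
    rw [hp]; rfl
  exact (FormalMultilinearSeries.ofScalars_eq_zero ℂ n).mp h1

variable {N : ℕ} {f g : ℍ → ℂ} {E E₁ E₂ : LaurentSeries ℂ}

/-- If the zero function has expansion `E` then `E = 0`. -/
lemma eq_zero (hN : 0 < N) (h : HasQExp N (fun _ => 0) E) : E = 0 := by
  have hb := LB_order E
  rw [iff_pSum hb] at h
  have hP : psPart E E.order = 0 := by
    apply PSum.eq_zero_of_forall
    intro q hq hq0
    obtain ⟨τ, rfl⟩ := exists_qN_eq hN hq hq0
    simpa using h τ
  rw [hb.eq_repr, hP, repr]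
  simp

/-- **Uniqueness of `q_N`-expansions.** -/
lemma unique (hN : 0 < N) (h₁ : HasQExp N f E₁) (h₂ : HasQExp N f E₂) : E₁ = E₂ := by
  have := (h₁.sub h₂).congr (g := fun _ => 0) (fun τ => sub_self _)
  exact sub_eq_zero.mp (eq_zero hN this)

/-- Two functions with the same expansion are equal. -/
lemma ext_fun (h₁ : HasQExp N f E) (h₂ : HasQExp N g E) : f = g :=
  funext fun τ => (h₁ τ).unique (h₂ τ)

/-- A function with an expansion vanishes identically iff the expansion is zero. -/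
lemma eq_zero_iff (hN : 0 < N) (h : HasQExp N f E) : (∀ τ, f τ = 0) ↔ E = 0 :=
  ⟨fun hf => eq_zero hN (h.congr hf), fun hE τ => eq_zero_of_zero (hE ▸ h) τ⟩

end Fermat.Agent.S24.HasQExp

namespace Fermat.Agent.S24.HasQExp

open HahnSeries ModularCurve

/-! ### Twisting the coefficients by powers of a constant -/

/-- `twistBy ζ E` has coefficients `ζ^m * E.coeff m`. -/
def twistBy (ζ : ℂ) (E : LaurentSeries ℂ) : LaurentSeries ℂ :=
  ⟨fun m => ζ ^ m * E.coeff m, E.isPWO_support.mono fun m hm => by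
    simp only [Function.mem_support, ne_eq, mul_eq_zero, not_or] at hm
    exact hm.2⟩

@[simp] lemma coeff_twistBy (ζ : ℂ) (E : LaurentSeries ℂ) (m : ℤ) :
    (twistBy ζ E).coeff m = ζ ^ m * E.coeff m := rfl

@[simp] lemma twistBy_one (E : LaurentSeries ℂ) : twistBy 1 E = E := by
  ext m; simp

@[simp] lemma twistBy_zero_right (ζ : ℂ) : twistBy ζ 0 = 0 := by
  ext m; simp

lemma twistBy_twistBy (ζ ξ : ℂ) (E : LaurentSeries ℂ) :
    twistBy ζ (twistBy ξ E) = twistBy (ζ * ξ) E := by
  ext m; simp [mul_zpow, mul_assoc]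

lemma twistBy_add (ζ : ℂ) (E₁ E₂ : LaurentSeries ℂ) :
    twistBy ζ (E₁ + E₂) = twistBy ζ E₁ + twistBy ζ E₂ := by
  ext m; simp [mul_add]

lemma support_twistBy {ζ : ℂ} (hζ : ζ ≠ 0) (E : LaurentSeries ℂ) :
    (twistBy ζ E).support = E.support := by
  ext m
  simp [zpow_ne_zero m hζ]

lemma twistBy_eq_zero_iff {ζ : ℂ} (hζ : ζ ≠ 0) {E : LaurentSeries ℂ} :
    twistBy ζ E = 0 ↔ E = 0 := by
  constructor
  · intro h
    ext m
    have := congrArg (fun x => HahnSeries.coeff x m) h
    simpa [zpow_ne_zero m hζ] using this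
  · rintro rfl; simp

/-- Twisting by a nonzero constant preserves the order. -/
lemma order_twistBy {ζ : ℂ} (hζ : ζ ≠ 0) (E : LaurentSeries ℂ) :
    (twistBy ζ E).order = E.order := by
  by_cases hE : E = 0
  · subst hE; simp
  have hE' : twistBy ζ E ≠ 0 := fun h => hE ((twistBy_eq_zero_iff hζ).mp h)
  apply le_antisymm
  · apply HahnSeries.order_le_of_coeff_ne_zero
    rw [coeff_twistBy]
    exact mul_ne_zero (zpow_ne_zero _ hζ) (fun h => hE (HahnSeries.coeff_order_eq_zero.mp h))
  · apply HahnSeries.order_le_of_coeff_ne_zero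
    intro h
    have h2 := HahnSeries.coeff_order_eq_zero.not.mpr hE'
    apply h2
    rw [coeff_twistBy, h, mul_zero]

lemma LB.twistBy {E : LaurentSeries ℂ} {a : ℤ} (h : LB E a) (ζ : ℂ) : LB (twistBy ζ E) a :=
  fun m hm => by rw [coeff_twistBy, h m hm, mul_zero]

/-! ### Substitutions -/

variable {N : ℕ} {f g : ℍ → ℂ} {E E₁ E₂ : LaurentSeries ℂ}

lemma LB.qExpand {E : LaurentSeries ℂ} {a : ℤ} (h : LB E a) (k : ℕ) [NeZero k] :
    LB (qExpand ℂ k E) (k * a) := by
  intro m hm
  by_cases hk : (k : ℤ) ∣ m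
  · obtain ⟨m', rfl⟩ := hk
    rw [qExpand_coeff_mul]
    apply h
    have hk0 : (0 : ℤ) < k := by exact_mod_cast Nat.pos_of_ne_zero (NeZero.ne k)
    exact lt_of_mul_lt_mul_left hm hk0.le
  · exact qExpand_coeff_of_not_dvd k E hk

/-- **General substitution.** If `q_N(φ τ) = ζ * q_M(τ)^a` then `f ∘ φ` has the `q_M`-expansion
obtained from `E` by twisting with `ζ` and substituting `X ↦ X^a`. -/
lemma comp (h : HasQExp N f E) {M a : ℕ} [NeZero a] {ζ : ℂ} (φ : ℍ → ℍ)
    (hφ : ∀ τ, qN N (φ τ) = ζ * qN M τ ^ a) :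
    HasQExp M (fun τ => f (φ τ)) (qExpand ℂ a (twistBy ζ E)) := by
  intro τ
  have ha0 : (a : ℤ) ≠ 0 := by exact_mod_cast NeZero.ne a
  have hinj : Function.Injective (fun m : ℤ => (a : ℤ) * m) := fun x y hxy =>
    mul_left_cancel₀ ha0 hxy
  have hzero : ∀ m : ℤ, m ∉ Set.range (fun m : ℤ => (a : ℤ) * m) →
      (qExpand ℂ a (twistBy ζ E)).coeff m * qN M τ ^ m = 0 := by
    intro m hm
    have : ¬ (a : ℤ) ∣ m := fun ⟨c, hc⟩ => hm ⟨c, hc.symm⟩
    rw [qExpand_coeff_of_not_dvd a _ this, zero_mul]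
  rw [← hinj.hasSum_iff hzero]
  have hfun : ((fun m : ℤ => (qExpand ℂ a (twistBy ζ E)).coeff m * qN M τ ^ m) ∘
      fun m : ℤ => (a : ℤ) * m) = fun m : ℤ => E.coeff m * qN N (φ τ) ^ m := by
    funext m
    simp only [Function.comp_apply, qExpand_coeff_mul, coeff_twistBy]
    rw [hφ τ, mul_zpow, zpow_mul, zpow_natCast]
    ring
  rw [hfun]
  exact h (φ τ)

end Fermat.Agent.S24.HasQExp

namespace Fermat.Agent.S24.HasQExp

open HahnSeries ModularCurve
open scoped Manifold

variable {N : ℕ} {f g : ℍ → ℂ} {E E₁ E₂ : LaurentSeries ℂ}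

/-- Affine substitution `τ ↦ (aτ + b)/δ`. -/
lemma comp_affine (h : HasQExp N f E) {a δ : ℕ} [NeZero a] (b : ℤ) (φ : ℍ → ℍ)
    (hφ : ∀ τ, (φ τ : ℂ) = (a * τ + b) / δ) :
    HasQExp (N * δ) (fun τ => f (φ τ))
      (qExpand ℂ a (twistBy (Complex.exp (2 * π * Complex.I * b / ((N * δ : ℕ) : ℂ))) E)) := by
  refine h.comp φ fun τ => ?_
  rw [qN_eq, qN_eq, hφ τ, ← Complex.exp_nat_mul, ← Complex.exp_add]
  congr 1
  push_cast
  simp only [div_eq_mul_inv, mul_inv]
  ring

/-- Translation by `T^k`. -/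
lemma translate (h : HasQExp N f E) (k : ℤ) :
    HasQExp N (fun τ => f (ModularGroup.T ^ k • τ))
      (twistBy (Complex.exp (2 * π * Complex.I * k / N)) E) := by
  have := h.comp (M := N) (a := 1) (ζ := Complex.exp (2 * π * Complex.I * k / N))
    (fun τ => ModularGroup.T ^ k • τ) (fun τ => by
      rw [qN_eq, qN_eq, ModularGroup.coe_T_zpow_smul_eq, pow_one, ← Complex.exp_add]
      congr 1
      ring)
  rwa [qExpand_one_apply] at this

/-- Change of level `N ↦ N * k`. -/
lemma levelChange (h : HasQExp N f E) (k : ℕ) [NeZero k] :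
    HasQExp (N * k) f (qExpand ℂ k E) := by
  have := h.comp (M := N * k) (a := k) (ζ := 1) id (fun τ => by
      rw [qN_eq, qN_eq, one_mul, ← Complex.exp_nat_mul]
      congr 1
      have hk : (k : ℂ) ≠ 0 := by exact_mod_cast NeZero.ne k
      push_cast
      rw [id, mul_comm (N : ℂ) (k : ℂ), ← div_div]
      field_simp)
  simpa using this

/-- Dilation `τ ↦ dτ`. -/
lemma dilate (h : HasQExp N f E) (d : ℕ) [NeZero d] (φ : ℍ → ℍ)
    (hφ : ∀ τ, (φ τ : ℂ) = d * τ) :
    HasQExp N (fun τ => f (φ τ)) (qExpand ℂ d E) := by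
  have := h.comp (M := N) (a := d) (ζ := 1) φ (fun τ => by
      rw [qN_eq, qN_eq, one_mul, ← Complex.exp_nat_mul, hφ τ]
      congr 1
      ring)
  simpa using this

/-! ### Growth at `i∞` -/

/-- A function with a `q_N`-expansion without negative exponents is bounded at `i∞`. -/
lemma isBoundedAtImInfty (hN : 0 < N) (h : HasQExp N f E) (hE : LB E 0) :
    IsBoundedAtImInfty f := by
  have hN' : (0 : ℝ) < (N : ℝ) := by exact_mod_cast hN
  refine UpperHalfPlane.isBoundedAtImInfty_of_hasSum_qExpansion (h := (N : ℝ))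
    (c := fun n : ℕ => E.coeff n) hN' fun τ => ?_
  have h1 := (iff_pSum hE).mp h τ
  simp only [neg_zero, zpow_zero, one_mul] at h1
  have : (fun m : ℕ => E.coeff (m : ℤ) • Function.Periodic.qParam (N : ℝ) (τ : ℂ) ^ m) =
      fun n : ℕ => PowerSeries.coeff n (psPart E 0) * qN N τ ^ n := by
    funext n
    simp [qN]
  rw [this]
  exact h1

/-- A function with a `q_N`-expansion without negative exponents tends to the constant
coefficient at `i∞`. -/
lemma isBoundedAtImInfty_of_order (hN : 0 < N) (h : HasQExp N f E) (hE : 0 ≤ E.order) :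
    IsBoundedAtImInfty f :=
  isBoundedAtImInfty hN h (LB_of_le_order hE)

/-- The Mathlib `q`-expansion (period `N`) of a periodic holomorphic function bounded at `i∞`
is a `q_N`-expansion in the sense of `HasQExp`. -/
lemma of_periodic (hN : 0 < N) (hper : Function.Periodic (f ∘ ofComplex) (N : ℝ))
    (hhol : MDifferentiable 𝓘(ℂ) 𝓘(ℂ) f) (hbdd : IsBoundedAtImInfty f) :
    HasQExp N f (HahnSeries.ofPowerSeries ℤ ℂ (UpperHalfPlane.qExpansion (N : ℝ) f)) := by
  have hN' : (0 : ℝ) < (N : ℝ) := by exact_mod_cast hN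
  have hrepr : HahnSeries.ofPowerSeries ℤ ℂ (UpperHalfPlane.qExpansion (N : ℝ) f) =
      repr 0 (UpperHalfPlane.qExpansion (N : ℝ) f) := by
    rw [repr, ← HahnSeries.C_apply, HahnSeries.C_one, one_mul]
  rw [hrepr]
  refine of_pSum fun τ => ?_
  have := UpperHalfPlane.hasSum_qExpansion hN' hper hhol hbdd τ
  simpa [PSum, qN] using this

/-- `Δ` has a `q`-expansion starting in degree `1`. -/
lemma exists_discriminant :
    ∃ EΔ : LaurentSeries ℂ, HasQExp 1 (ModularForm.discriminant : ℍ → ℂ) EΔ ∧ LB EΔ 1 := by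
  have hper : Function.Periodic ((ModularForm.discriminant : ℍ → ℂ) ∘ ofComplex) ((1 : ℕ) : ℝ) := by
    have := SlashInvariantFormClass.periodic_comp_ofComplex CuspForm.discriminant
      one_mem_strictPeriods_SL
    simpa using this
  have hhol : MDifferentiable 𝓘(ℂ) 𝓘(ℂ) (ModularForm.discriminant : ℍ → ℂ) :=
    CuspForm.discriminant.holo'
  have hbdd : IsBoundedAtImInfty (ModularForm.discriminant : ℍ → ℂ) :=
    ModularForm.discriminant_isZeroAtImInfty.isBoundedAtImInfty
  refine ⟨_, of_periodic one_pos hper hhol hbdd, ?_⟩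
  intro m hm
  rcases lt_or_ge m 0 with h0 | h0
  · exact ModularCurve.ofPowerSeries_coeff_of_neg _ h0
  · obtain rfl : m = 0 := by omega
    have h1 : (HahnSeries.ofPowerSeries ℤ ℂ
        (UpperHalfPlane.qExpansion ((1 : ℕ) : ℝ) (ModularForm.discriminant : ℍ → ℂ))).coeff
          ((0 : ℕ) : ℤ) = _ := HahnSeries.ofPowerSeries_apply_coeff _ 0
    rw [Nat.cast_zero] at h1
    rw [h1]
    have := CuspFormClass.qExpansion_coeff_zero CuspForm.discriminant one_pos
      one_mem_strictPeriods_SL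
    simpa using this

/-- **Growth**: if the `q_N`-expansion of `f` has order `≥ -nN` then `Δ^n f` is bounded at `i∞`
(the hypothesis of `exists_polynomial_jFun`). -/
lemma isBoundedAtImInfty_discriminant_pow_mul (hN : 0 < N) (h : HasQExp N f E) (n : ℕ)
    (hE : LB E (-(n * N : ℤ))) :
    IsBoundedAtImInfty (fun τ => ModularForm.discriminant τ ^ n * f τ) := by
  obtain ⟨EΔ, hΔ, hΔ1⟩ := exists_discriminant
  have : NeZero N := ⟨hN.ne'⟩
  have h1 : HasQExp N (ModularForm.discriminant : ℍ → ℂ) (qExpand ℂ N EΔ) := by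
    simpa using hΔ.levelChange N
  have h2 := (h1.pow n).mul h
  refine isBoundedAtImInfty hN h2 ?_
  have hb := ((hΔ1.qExpand N).pow n).mul hE
  refine hb.mono ?_
  have : ((n : ℤ) * ((N : ℤ) * 1) + -((n : ℤ) * (N : ℤ))) = 0 := by ring
  rw [this]

lemma isBoundedAtImInfty_discriminant_pow_mul_of_order (hN : 0 < N) (h : HasQExp N f E)
    (n : ℕ) (hE : -(n * N : ℤ) ≤ E.order) :
    IsBoundedAtImInfty (fun τ => ModularForm.discriminant τ ^ n * f τ) :=
  isBoundedAtImInfty_discriminant_pow_mul hN h n (LB_of_le_order hE)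

end Fermat.Agent.S24.HasQExp

namespace Fermat.Agent.S24.HasQExp

open HahnSeries ModularCurve

/-! ### Coefficient maps (rationality over a subfield) -/

section CoeffMap

variable {R S : Type*} [Field R] [Field S]

/-- Twist over an arbitrary field: coefficients `ζ^m * E.coeff m`. -/
def twistF (ζ : R) (E : LaurentSeries R) : LaurentSeries R :=
  ⟨fun m => ζ ^ m * E.coeff m, E.isPWO_support.mono fun m hm => by
    simp only [Function.mem_support, ne_eq, mul_eq_zero, not_or] at hm
    exact hm.2⟩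

@[simp] lemma coeff_twistF (ζ : R) (E : LaurentSeries R) (m : ℤ) :
    (twistF ζ E).coeff m = ζ ^ m * E.coeff m := rfl

lemma twistF_complex (ζ : ℂ) (E : LaurentSeries ℂ) : twistF ζ E = twistBy ζ E := rfl

lemma coeffMap_twistF (φ : R →+* S) (ζ : R) (E : LaurentSeries R) :
    coeffMap φ (twistF ζ E) = twistF (φ ζ) (coeffMap φ E) := by
  ext m
  simp [map_zpow₀]

lemma coeffMap_injective (φ : R →+* S) : Function.Injective (coeffMap φ) := by
  intro E₁ E₂ h
  ext m
  have := congrArg (fun x => HahnSeries.coeff x m) h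
  simpa using φ.injective this

lemma coeffMap_eq_zero_iff (φ : R →+* S) {E : LaurentSeries R} : coeffMap φ E = 0 ↔ E = 0 := by
  constructor
  · intro h
    exact coeffMap_injective φ (by rw [h, map_zero])
  · rintro rfl; exact map_zero _

/-- `coeffMap` along a field homomorphism preserves the order. -/
lemma order_coeffMap (φ : R →+* S) (E : LaurentSeries R) : (coeffMap φ E).order = E.order := by
  by_cases hE : E = 0
  · subst hE; simp
  have hE' : coeffMap φ E ≠ 0 := fun h => hE ((coeffMap_eq_zero_iff φ).mp h)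
  apply le_antisymm
  · apply HahnSeries.order_le_of_coeff_ne_zero
    rw [coeffMap_coeff]
    exact fun h => hE (HahnSeries.coeff_order_eq_zero.mp
      (φ.injective (by rw [h, map_zero])))
  · apply HahnSeries.order_le_of_coeff_ne_zero
    intro h
    apply HahnSeries.coeff_order_eq_zero.not.mpr hE'
    rw [coeffMap_coeff, h, map_zero]

end CoeffMap

/-! ### Summary of the interface (for consumers)

* `qN N τ = exp(2πiτ/N)` (`qN_eq`), `HasQExp N f E`.
* ring operations: `const, zero, one, add, neg, sub, smul, mul, pow, sum, prod, congr`.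
* uniqueness: `unique`, `eq_zero`, `eq_zero_iff`, `ext_fun`, `eq_zero_of_zero`.
* substitutions: `comp` (general), `comp_affine`, `translate` (by `T^k`, twist), `levelChange`,
  `dilate`; `twistBy`, `order_twistBy`, `coeff_twistBy`.
* growth: `isBoundedAtImInfty`, `isBoundedAtImInfty_of_order`,
  `isBoundedAtImInfty_discriminant_pow_mul(_of_order)`.
* sources: `of_periodic` (Mathlib `qExpansion` of periodic holomorphic bounded functions),
  `of_pSum` / `iff_pSum` (power series form), `exists_discriminant`.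
* rationality: `twistF`, `coeffMap_twistF`, `coeffMap_injective`, `order_coeffMap`.
-/

end Fermat.Agent.S24.HasQExp
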