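import Mathlib
import Fermat.Prelude.Def_ModularCurve_X0

/-!
# Bridge between the frozen formal series `ModularCurve.jq` and the analytic `j`-function

Part 1: the formal product `etaProd` is the Taylor series of the analytic product.
-/

set_option autoImplicit false

noncomputable section

namespace Fermat.Agent.S24.JBridge

open Metric Filter Topology Polynomial

/-- iterated derivative of a polynomial function. -/
lemma iteratedDeriv_aeval (p : Polynomial ℤ) (k : ℕ) :
    iteratedDeriv k (fun q : ℂ => Polynomial.aeval q p)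
      = fun q : ℂ => Polynomial.aeval q (Polynomial.derivative^[k] p) := by
  induction k with
  | zero => simp
  | succ k ih =>
    rw [iteratedDeriv_succ, ih]
    funext q
    rw [Polynomial.deriv_aeval, Function.iterate_succ_apply']

lemma iteratedDeriv_aeval_zero (p : Polynomial ℤ) (k : ℕ) :
    iteratedDeriv k (fun q : ℂ => Polynomial.aeval q p) 0
      = (k.factorial : ℂ) * ((p.coeff k : ℤ) : ℂ) := by
  rw [iteratedDeriv_aeval]
  simp only
  rw [← Polynomial.coeff_zero_eq_aeval_zero', Polynomial.coeff_iterate_derivative]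
  simp [Nat.descFactorial_self]

/-- locally uniform convergence of holomorphic functions passes to all iterated derivatives. -/
lemma tendstoLocallyUniformlyOn_iteratedDeriv {ι : Type*} {φ : Filter ι} {F : ι → ℂ → ℂ}
    {g : ℂ → ℂ} {U : Set ℂ} (hU : IsOpen U) (hF : ∀ i, DifferentiableOn ℂ (F i) U)
    (h : TendstoLocallyUniformlyOn F g φ U) (k : ℕ) :
    TendstoLocallyUniformlyOn (fun i => iteratedDeriv k (F i)) (iteratedDeriv k g) φ U ∧
      ∀ i, DifferentiableOn ℂ (iteratedDeriv k (F i)) U := by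
  induction k with
  | zero => simpa using ⟨h, hF⟩
  | succ k ih =>
    obtain ⟨h1, h2⟩ := ih
    refine ⟨?_, fun i => ?_⟩
    · have := h1.deriv (Eventually.of_forall h2) hU
      simpa only [iteratedDeriv_succ, Function.comp_def] using this
    · rw [iteratedDeriv_succ]
      exact (h2 i).deriv hU

lemma coeff_finset_prod_one_sub_X_pow (s : Finset ℕ) (k : ℕ) :
    PowerSeries.coeff k (∏ i ∈ s, (1 - PowerSeries.X ^ (i + 1)) : PowerSeries ℤ)
      = (∏ i ∈ s, (1 - Polynomial.X ^ (i + 1)) : Polynomial ℤ).coeff k := by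
  rw [← Polynomial.coeff_coe]
  congr 1
  have := map_prod (Polynomial.coeToPowerSeries.ringHom (R := ℤ))
    (fun i : ℕ => (1 - Polynomial.X ^ (i + 1) : Polynomial ℤ)) s
  simp only [Polynomial.coeToPowerSeries.ringHom_apply] at this
  rw [this]
  simp

open PowerSeries.WithPiTopology in
/-- **Formal product = analytic product**: the Taylor coefficients at `0` of
`q ↦ ∏ (1 - q^(n+1))` are the coefficients of the frozen formal product `etaProd`. -/
theorem iteratedDeriv_tprod_one_sub_pow (k : ℕ) :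
    iteratedDeriv k (fun q : ℂ => ∏' n : ℕ, (1 - q ^ (n + 1))) 0
      = (k.factorial : ℂ) * ((PowerSeries.coeff k ModularCurve.etaProd : ℤ) : ℂ) := by
  -- analytic side
  have hloc := ModularForm.multipliableLocallyUniformlyOn_one_sub_pow.hasProdLocallyUniformlyOn
  rw [hasProdLocallyUniformlyOn_iff_tendstoLocallyUniformlyOn] at hloc
  set p : Finset ℕ → Polynomial ℤ := fun s => ∏ i ∈ s, (1 - Polynomial.X ^ (i + 1)) with hp
  have hFp : ∀ s : Finset ℕ, (fun q : ℂ => ∏ i ∈ s, (1 - q ^ (i + 1)))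
      = fun q : ℂ => Polynomial.aeval q (p s) := by
    intro s
    funext q
    simp [hp, map_prod]
  have hdiff : ∀ s : Finset ℕ, DifferentiableOn ℂ (fun q : ℂ => ∏ i ∈ s, (1 - q ^ (i + 1)))
      (ball (0 : ℂ) 1) := by
    intro s
    rw [hFp]
    exact (Polynomial.differentiable_aeval (p s)).differentiableOn
  have h1 := (tendstoLocallyUniformlyOn_iteratedDeriv isOpen_ball hdiff hloc k).1.tendsto_at
    (a := (0 : ℂ)) (by simp)
  have h1' : Tendsto (fun s : Finset ℕ => (k.factorial : ℂ) * (((p s).coeff k : ℤ) : ℂ)) atTop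
      (𝓝 (iteratedDeriv k (fun q : ℂ => ∏' n : ℕ, (1 - q ^ (n + 1))) 0)) := by
    refine h1.congr fun s => ?_
    rw [hFp s, iteratedDeriv_aeval_zero]
  -- formal side
  have hform : HasProd (fun n : ℕ => (1 - PowerSeries.X ^ (n + 1) : PowerSeries ℤ))
      ModularCurve.etaProd := (multipliable_one_sub_X_pow ℤ).hasProd
  have h2 : Tendsto (fun s : Finset ℕ => PowerSeries.coeff k
      (∏ i ∈ s, (1 - PowerSeries.X ^ (i + 1)) : PowerSeries ℤ)) atTop
      (𝓝 (PowerSeries.coeff k ModularCurve.etaProd)) :=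
    ((continuous_coeff ℤ k).tendsto _).comp hform
  have h3 : Tendsto (fun s : Finset ℕ => (k.factorial : ℂ) * (((p s).coeff k : ℤ) : ℂ)) atTop
      (𝓝 ((k.factorial : ℂ) * ((PowerSeries.coeff k ModularCurve.etaProd : ℤ) : ℂ))) := by
    have hc : Continuous (fun n : ℤ => (k.factorial : ℂ) * (n : ℂ)) :=
      continuous_of_discreteTopology
    have := (hc.tendsto _).comp h2
    refine this.congr fun s => ?_
    simp only [Function.comp_apply, coeff_finset_prod_one_sub_X_pow, hp]
  exact tendsto_nhds_unique h1' h3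


/-! ## Part 2: Taylor series as formal power series -/

open UpperHalfPlane ModularForm EisensteinSeries
open scoped MatrixGroups CongruenceSubgroup

local notation "𝕢" => Function.Periodic.qParam

/-- Taylor series at `0`, as a formal power series. -/
def taylorPS (g : ℂ → ℂ) : PowerSeries ℂ :=
  .mk fun m => ((m.factorial : ℂ))⁻¹ * iteratedDeriv m g 0

lemma coeff_taylorPS (g : ℂ → ℂ) (m : ℕ) :
    PowerSeries.coeff m (taylorPS g) = ((m.factorial : ℂ))⁻¹ * iteratedDeriv m g 0 := by
  simp [taylorPS]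

lemma taylorPS_congr {f g : ℂ → ℂ} (h : f =ᶠ[𝓝 0] g) : taylorPS f = taylorPS g := by
  ext m
  rw [coeff_taylorPS, coeff_taylorPS, h.iteratedDeriv_eq]

lemma taylorPS_mul {f g : ℂ → ℂ} (hf : AnalyticAt ℂ f 0) (hg : AnalyticAt ℂ g 0) :
    taylorPS (f * g) = taylorPS f * taylorPS g := by
  ext
  simp only [coeff_taylorPS,
    iteratedDeriv_mul hf.contDiffAt hg.contDiffAt, Finset.mul_sum, PowerSeries.coeff_mul,
    Finset.Nat.sum_antidiagonal_eq_sum_range_succ_mk, Nat.succ_eq_add_one]
  refine Finset.sum_congr rfl fun i hi ↦ ?_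
  rw [Nat.cast_choose _ (by grind)]
  field_simp [Nat.factorial_ne_zero]

lemma taylorPS_one : taylorPS (1 : ℂ → ℂ) = 1 := by
  ext m
  have h2 : iteratedDeriv m (1 : ℂ → ℂ) 0 = if m = 0 then 1 else 0 := by
    simpa [ite_apply] using! iteratedDeriv_const
  simp +contextual [coeff_taylorPS, h2, PowerSeries.coeff_one]

lemma taylorPS_pow {f : ℂ → ℂ} (hf : AnalyticAt ℂ f 0) (n : ℕ) :
    taylorPS (f ^ n) = taylorPS f ^ n := by
  induction n with
  | zero => simpa using taylorPS_one
  | succ n ih => rw [pow_succ, pow_succ, taylorPS_mul (hf.pow n) hf, ih]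

lemma hasSum_taylorPS {g : ℂ → ℂ} (hg : DifferentiableOn ℂ g (ball 0 1)) {q : ℂ} (hq : ‖q‖ < 1) :
    HasSum (fun m : ℕ => PowerSeries.coeff m (taylorPS g) * q ^ m) (g q) := by
  have := Complex.hasSum_taylorSeries_on_ball hg (z := q) (by simpa using hq)
  have h2 : (fun m : ℕ => PowerSeries.coeff m (taylorPS g) * q ^ m)
      = fun n : ℕ => ((n.factorial : ℂ))⁻¹ • (q - 0) ^ n • iteratedDeriv n g 0 := by
    funext m
    rw [coeff_taylorPS]
    simp only [sub_zero, smul_eq_mul]
    ring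
  rw [h2]
  exact this

lemma analyticAt_zero_of_differentiableOn_ball {g : ℂ → ℂ}
    (hg : DifferentiableOn ℂ g (ball 0 1)) : AnalyticAt ℂ g 0 :=
  hg.analyticAt (ball_mem_nhds 0 one_pos)

/-! ### the analytic product on the disc -/

/-- `q ↦ ∏ (1 - q^(n+1))`. -/
def etaDisc (q : ℂ) : ℂ := ∏' n : ℕ, (1 - q ^ (n + 1))

lemma differentiableOn_etaDisc : DifferentiableOn ℂ etaDisc (ball 0 1) :=
  ModularForm.differentiableOn_tprod_one_sub_pow

lemma taylorPS_etaDisc :
    taylorPS etaDisc = ModularCurve.etaProd.map (Int.castRingHom ℂ) := by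
  ext m
  rw [coeff_taylorPS, PowerSeries.coeff_map]
  have := iteratedDeriv_tprod_one_sub_pow m
  rw [show (fun q : ℂ => ∏' n : ℕ, (1 - q ^ (n + 1))) = etaDisc from rfl] at this
  rw [this]
  have : (m.factorial : ℂ) ≠ 0 := by exact_mod_cast m.factorial_ne_zero
  field_simp
  simp

lemma etaDisc_ne_zero {q : ℂ} (hq : ‖q‖ < 1) : etaDisc q ≠ 0 := by
  unfold etaDisc
  simp_rw [sub_eq_add_neg]
  refine tprod_one_add_ne_zero_of_summable (f := fun n : ℕ => -q ^ (n + 1)) (fun i => ?_) ?_
  · intro h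
    have h1 : q ^ (i + 1) = 1 := by linear_combination -h
    have h2 : ‖q‖ ^ (i + 1) = 1 := by rw [← norm_pow, h1, norm_one]
    have h3 : ‖q‖ ^ (i + 1) < 1 := pow_lt_one₀ (norm_nonneg _) hq (by omega)
    linarith
  · simpa using (summable_nat_add_iff 1).mpr (summable_geometric_of_lt_one (norm_nonneg _) hq)

lemma discriminant_eq_qParam_mul_etaDisc (τ : ℍ) :
    ModularForm.discriminant τ = 𝕢 1 τ * etaDisc (𝕢 1 τ) ^ 24 := by
  rw [ModularForm.discriminant_eq_q_prod]
  congr 1
  have hq : ‖𝕢 1 (τ : ℂ)‖ < 1 := Function.Periodic.norm_qParam_lt_one one_pos τ.im_pos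
  have := (ModularForm.multipliable_one_sub_pow hq).tprod_pow 24
  simpa [etaDisc, ModularForm.eta_q] using this

/-! ### `E₄` on the disc -/

/-- the cusp function of `E₄` on the unit disc. -/
def e4Disc : ℂ → ℂ := cuspFunction 1 E₄

lemma differentiableOn_e4Disc : DifferentiableOn ℂ e4Disc (ball 0 1) := fun q hq =>
  (ModularFormClass.differentiableAt_cuspFunction E₄ one_pos one_mem_strictPeriods_SL
    (by simpa using hq)).differentiableWithinAt

lemma e4Disc_qParam (τ : ℍ) : e4Disc (𝕢 1 τ) = E₄ τ :=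
  SlashInvariantFormClass.eq_cuspFunction E₄ τ one_mem_strictPeriods_SL one_ne_zero

lemma coeff_eisenstein4 (m : ℕ) :
    ((PowerSeries.coeff m ModularCurve.eisenstein4 : ℤ) : ℂ)
      = if m = 0 then 1 else 240 * ((ArithmeticFunction.sigma 3 m : ℕ) : ℂ) := by
  simp only [ModularCurve.eisenstein4, PowerSeries.coeff_mk]
  split_ifs with h
  · simp
  · simp [ArithmeticFunction.sigma_apply]

/-- Mathlib's `q`-expansion of `E₄` is the frozen formal series `eisenstein4`. -/
lemma qExpansion_E4 :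
    qExpansion 1 E₄ = ModularCurve.eisenstein4.map (Int.castRingHom ℂ) := by
  ext m
  rw [E_qExpansion_coeff (by norm_num) ⟨2, rfl⟩, PowerSeries.coeff_map]
  have hb : _root_.bernoulli 4 = -1 / 30 := by decide +kernel
  rw [show (Int.castRingHom ℂ) (PowerSeries.coeff m ModularCurve.eisenstein4)
    = ((PowerSeries.coeff m ModularCurve.eisenstein4 : ℤ) : ℂ) from rfl, coeff_eisenstein4, hb]
  split_ifs with h
  · rfl
  · push_cast
    norm_num

lemma taylorPS_e4Disc :
    taylorPS e4Disc = ModularCurve.eisenstein4.map (Int.castRingHom ℂ) := by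
  rw [← qExpansion_E4]
  ext m
  rw [coeff_taylorPS, qExpansion_coeff]
  rfl

/-! ### `q · j` on the disc -/

/-- `q ↦ E₄(q)^3 / ∏ (1-q^n)^24 = q · j`. -/
def jNumDisc (q : ℂ) : ℂ := e4Disc q ^ 3 * (etaDisc q ^ 24)⁻¹

lemma differentiableOn_jNumDisc : DifferentiableOn ℂ jNumDisc (ball 0 1) := by
  unfold jNumDisc
  refine (differentiableOn_e4Disc.pow 3).mul ((differentiableOn_etaDisc.pow 24).inv ?_)
  intro q hq
  exact pow_ne_zero _ (etaDisc_ne_zero (by simpa using hq))

/-- The Taylor series of `q ↦ E₄^3/∏(1-q^n)^24` is the frozen formal series `jNum`. -/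
theorem taylorPS_jNumDisc :
    taylorPS jNumDisc = ModularCurve.jNum.map (Int.castRingHom ℂ) := by
  have hE := analyticAt_zero_of_differentiableOn_ball differentiableOn_e4Disc
  have hD := analyticAt_zero_of_differentiableOn_ball differentiableOn_etaDisc
  have hJ := analyticAt_zero_of_differentiableOn_ball differentiableOn_jNumDisc
  have hev : jNumDisc * etaDisc ^ 24 =ᶠ[𝓝 0] e4Disc ^ 3 := by
    filter_upwards [ball_mem_nhds (0 : ℂ) one_pos] with q hq
    have hne : etaDisc q ^ 24 ≠ 0 := pow_ne_zero _ (etaDisc_ne_zero (by simpa using hq))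
    simp only [Pi.mul_apply, Pi.pow_apply, jNumDisc]
    rw [mul_assoc, inv_mul_cancel₀ hne, mul_one]
  have h1 : taylorPS jNumDisc * (ModularCurve.etaProd.map (Int.castRingHom ℂ)) ^ 24
      = (ModularCurve.eisenstein4.map (Int.castRingHom ℂ)) ^ 3 := by
    rw [← taylorPS_etaDisc, ← taylorPS_e4Disc, ← taylorPS_pow hD, ← taylorPS_pow hE,
      ← taylorPS_mul hJ (hD.pow 24), taylorPS_congr hev]
  have h2 : ModularCurve.jNum.map (Int.castRingHom ℂ)
        * (ModularCurve.etaProd.map (Int.castRingHom ℂ)) ^ 24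
      = (ModularCurve.eisenstein4.map (Int.castRingHom ℂ)) ^ 3 := by
    rw [← map_pow, ← map_pow, ← map_mul]
    congr 1
    rw [ModularCurve.jNum, mul_assoc, mul_comm ModularCurve.dedekindEtaUnitInv,
      ← ModularCurve.dedekindEtaUnit, ModularCurve.dedekindEtaUnit_mul_inv, mul_one]
  have hne : (ModularCurve.etaProd.map (Int.castRingHom ℂ)) ^ 24 ≠ 0 := by
    apply pow_ne_zero
    intro h
    have := congrArg (PowerSeries.constantCoeff) h
    rw [← PowerSeries.coeff_zero_eq_constantCoeff_apply, PowerSeries.coeff_map,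
      PowerSeries.coeff_zero_eq_constantCoeff_apply, ModularCurve.constantCoeff_etaProd] at this
    simp at this
  exact mul_right_cancel₀ hne (h1.trans h2.symm)

/-- convergence of the frozen series `jNum` on the whole unit disc. -/
theorem hasSum_jNumDisc {q : ℂ} (hq : ‖q‖ < 1) :
    HasSum (fun m : ℕ => ((PowerSeries.coeff m ModularCurve.jNum : ℤ) : ℂ) * q ^ m)
      (jNumDisc q) := by
  have := hasSum_taylorPS differentiableOn_jNumDisc hq
  rw [taylorPS_jNumDisc] at this
  simpa [PowerSeries.coeff_map] using this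

/-- the analytic `j`-function `E₄³/Δ`. -/
def jFun (τ : ℍ) : ℂ := E₄ τ ^ 3 / ModularForm.discriminant τ

lemma jNumDisc_qParam (τ : ℍ) : jNumDisc (𝕢 1 τ) = 𝕢 1 τ * jFun τ := by
  have hq0 : 𝕢 1 (τ : ℂ) ≠ 0 := Function.Periodic.qParam_ne_zero _
  have hq : ‖𝕢 1 (τ : ℂ)‖ < 1 := Function.Periodic.norm_qParam_lt_one one_pos τ.im_pos
  have hne : etaDisc (𝕢 1 τ) ^ 24 ≠ 0 := pow_ne_zero _ (etaDisc_ne_zero hq)
  rw [jFun, discriminant_eq_qParam_mul_etaDisc, jNumDisc, e4Disc_qParam]
  field_simp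

/-- **Bridge theorem.**  For `τ ∈ ℍ` and `q = exp(2πiτ)`:
`q · E₄(τ)³/Δ(τ) = ∑ₘ (jNum)ₘ qᵐ`, where `jNum` is the frozen formal power series with
`jq = X⁻¹ · jNum`. -/
theorem hasSum_jNum (τ : ℍ) :
    HasSum (fun m : ℕ => ((PowerSeries.coeff m ModularCurve.jNum : ℤ) : ℂ) * (𝕢 1 τ) ^ m)
      (𝕢 1 τ * jFun τ) := by
  rw [← jNumDisc_qParam]
  exact hasSum_jNumDisc (Function.Periodic.norm_qParam_lt_one one_pos τ.im_pos)

end Fermat.Agent.S24.JBridge
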