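import Mathlib
import Fermat.Agent.S24.JBridge
import Fermat.Agent.S24.JAnalytic
import Fermat.Prelude.Def_ModularCurve_LaurentCoeff

/-!
# MOD-JQ: the frozen Laurent series `jq` is the `q`-expansion of the analytic `j`

Neutral (unfolded) form of `HasQExp 1 jFun (coeffMap (algebraMap ℚ ℂ) jq)`:
`∀ τ, HasSum (fun m : ℤ => (jq.coeff m : ℂ) * q ^ m) (jFun τ)` with `q = exp (2πiτ)`.
-/

set_option autoImplicit false

noncomputable section

namespace Fermat.Agent.S24.JBridge

open UpperHalfPlane ModularForm EisensteinSeries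

local notation "𝕢" => Function.Periodic.qParam

lemma jFun_eq_JAnalytic (τ : ℍ) : jFun τ = Fermat.Agent.S24.JAnalytic.jFun τ := rfl

/-- coefficients of the frozen `jq` in terms of the frozen power series `jNum`. -/
lemma coeff_jq_natCast_sub_one (n : ℕ) :
    ModularCurve.jq.coeff ((n : ℤ) - 1) = ((PowerSeries.coeff n ModularCurve.jNum : ℤ) : ℚ) := by
  rw [ModularCurve.jq, HahnSeries.coeff_single_mul, one_mul, sub_neg_eq_add, sub_add_cancel,
    HahnSeries.ofPowerSeries_apply_coeff, ModularCurve.jNumQ, PowerSeries.coeff_map]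
  rfl

lemma coeff_jq_of_not_range {m : ℤ} (hm : m ∉ Set.range fun n : ℕ => (n : ℤ) - 1) :
    ModularCurve.jq.coeff m = 0 := by
  apply ModularCurve.coeff_jq_of_lt
  by_contra h
  push Not at h
  exact hm ⟨(m + 1).toNat, by simp only; omega⟩

/-- **MOD-JQ (ℤ-indexed form).**  The frozen Laurent series `jq` converges to the analytic
`j`-function: `j(τ) = ∑_{m ∈ ℤ} (jq)_m q^m`, `q = exp(2πiτ)`. -/
theorem hasSum_jq (τ : ℍ) :
    HasSum (fun m : ℤ => ((ModularCurve.jq.coeff m : ℚ) : ℂ) * (𝕢 1 τ) ^ m)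
      (Fermat.Agent.S24.JAnalytic.jFun τ) := by
  have hq0 : 𝕢 1 (τ : ℂ) ≠ 0 := Function.Periodic.qParam_ne_zero _
  have hinj : Function.Injective (fun n : ℕ => (n : ℤ) - 1) := fun a b h => by
    simpa using h
  rw [← hinj.hasSum_iff]
  · have h := (hasSum_jNum τ).mul_right (𝕢 1 (τ : ℂ))⁻¹
    rw [mul_comm (𝕢 1 (τ : ℂ)) (jFun τ), mul_assoc, mul_inv_cancel₀ hq0, mul_one] at h
    refine h.congr_fun fun n => ?_
    simp only [Function.comp_apply, coeff_jq_natCast_sub_one]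
    rw [zpow_sub₀ hq0, zpow_natCast, zpow_one]
    push_cast
    ring
  · intro m hm
    rw [coeff_jq_of_not_range hm]
    simp

/-- the same for `τ ↦ j(dτ)` and the frozen series `qExpand d jq`, stated with `q^d`. -/
theorem hasSum_jq_pow (d : ℕ) (τ : ℍ) (τd : ℍ) (hτd : (τd : ℂ) = d * (τ : ℂ)) :
    HasSum (fun m : ℤ => ((ModularCurve.jq.coeff m : ℚ) : ℂ) * ((𝕢 1 τ) ^ d) ^ m)
      (Fermat.Agent.S24.JAnalytic.jFun τd) := by
  have h := hasSum_jq τd
  have hq : 𝕢 1 (τd : ℂ) = (𝕢 1 (τ : ℂ)) ^ d := by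
    rw [hτd, Function.Periodic.qParam, Function.Periodic.qParam, ← Complex.exp_nat_mul]
    congr 1
    ring
  rwa [hq] at h


open Real in
lemma qParam_one_eq (z : ℂ) : 𝕢 1 z = Complex.exp (2 * π * Complex.I * z) := by
  simp [Function.Periodic.qParam]

open Real in
/-- MOD-JQ in the exact unfolded shape of `HasQExp 1 jFun (coeffMap (algebraMap ℚ ℂ) jq)`. -/
theorem hasSum_coeffMap_jq (τ : ℍ) :
    HasSum (fun m : ℤ => (ModularCurve.coeffMap (algebraMap ℚ ℂ) ModularCurve.jq).coeff m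
        * Complex.exp (2 * π * Complex.I * τ) ^ m)
      (Fermat.Agent.S24.JAnalytic.jFun τ) := by
  have h := hasSum_jq τ
  rw [qParam_one_eq] at h
  refine h.congr_fun fun m => ?_
  rw [ModularCurve.coeffMap_coeff]
  rfl

/-- `τ ↦ j(dτ)` has `q`-expansion the frozen series `qExpand ℚ d jq` (ℤ-indexed form). -/
theorem hasSum_qExpand_jq (d : ℕ) [NeZero d] (τ τd : ℍ) (hτd : (τd : ℂ) = d * (τ : ℂ)) :
    HasSum (fun m : ℤ => ((((ModularCurve.qExpand ℚ d ModularCurve.jq).coeff m : ℚ)) : ℂ)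
        * (𝕢 1 τ) ^ m)
      (Fermat.Agent.S24.JAnalytic.jFun τd) := by
  have hd : (d : ℤ) ≠ 0 := by exact_mod_cast NeZero.ne d
  have hinj : Function.Injective (fun k : ℤ => (d : ℤ) * k) := mul_right_injective₀ hd
  rw [← hinj.hasSum_iff]
  · refine (hasSum_jq_pow d τ τd hτd).congr_fun fun k => ?_
    simp only [Function.comp_apply, ModularCurve.qExpand_coeff_mul]
    rw [zpow_mul, zpow_natCast]
  · intro m hm
    rw [ModularCurve.qExpand_coeff_of_not_dvd d ModularCurve.jq (k := m)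
      (fun ⟨k, hk⟩ => hm ⟨k, hk.symm⟩)]
    simp

end Fermat.Agent.S24.JBridge
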