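/-
S24 package MOD-REL (helper96): transfer of polynomial relations between functions on the upper
half plane and their (formal) `q`-expansions, for ANY expansion predicate `Q` with the obvious API
(constants, sums, products, `Q f 0 → f = 0`, uniqueness); plus the resulting injective algebra
homomorphism on the generated subalgebra.
-/
import Mathlib
import Fermat.Prelude.Def_ModularCurve_LaurentCoeff

set_option autoImplicit false

open UpperHalfPlane ModularCurve

namespace Fermat.Agent.S24.Rel

/-- The API of a "has `q`-expansion" predicate that relation transfer needs. -/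
structure QExpAPI (Q : (ℍ → ℂ) → LaurentSeries ℂ → Prop) : Prop where
  const : ∀ c : ℂ, Q (fun _ => c) (HahnSeries.single 0 c)
  add : ∀ {f g : ℍ → ℂ} {E E' : LaurentSeries ℂ}, Q f E → Q g E' → Q (f + g) (E + E')
  mul : ∀ {f g : ℍ → ℂ} {E E' : LaurentSeries ℂ}, Q f E → Q g E' → Q (f * g) (E * E')
  eq_zero : ∀ {f : ℍ → ℂ}, Q f 0 → f = 0
  unique : ∀ {f : ℍ → ℂ} {E E' : LaurentSeries ℂ}, Q f E → Q f E' → E = E'

section

variable {K : Type*} [Field K] (ι : K →+* ℂ)

theorem coeffMap_injective : Function.Injective (coeffMap ι) := by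
  intro x y h
  ext k
  have := congrArg (fun z => z.coeff k) h
  simpa using ι.injective this

variable {Q : (ℍ → ℂ) → LaurentSeries ℂ → Prop} (hQ : QExpAPI Q)
variable {σ : Type*} (f : σ → ℍ → ℂ) (E : σ → LaurentSeries K)

include hQ in
/-- The expansion of a polynomial expression in the `f i` is the same polynomial in the `E i`. -/
theorem qexp_eval (hf : ∀ i, Q (f i) (coeffMap ι (E i))) (P : MvPolynomial σ K) :
    Q (fun τ => MvPolynomial.eval₂ ι (fun i => f i τ) P)
      (coeffMap ι (MvPolynomial.aeval E P)) := by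
  induction P using MvPolynomial.induction_on with
  | C a =>
    simp only [MvPolynomial.eval₂_C, MvPolynomial.aeval_C]
    rw [algebraMap_laurentSeries_eq_single, coeffMap_single]
    exact hQ.const _
  | add p q hp hq =>
    simp only [MvPolynomial.eval₂_add, map_add]
    exact hQ.add hp hq
  | mul_X p i hp =>
    simp only [MvPolynomial.eval₂_mul, MvPolynomial.eval₂_X, map_mul, MvPolynomial.aeval_X]
    exact hQ.mul hp (hf i)

include hQ in
/-- **Relation transfer.** -/
theorem eval_eq_zero_iff (hf : ∀ i, Q (f i) (coeffMap ι (E i))) (P : MvPolynomial σ K) :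
    (∀ τ, MvPolynomial.eval₂ ι (fun i => f i τ) P = 0) ↔ MvPolynomial.aeval E P = 0 := by
  have h := qexp_eval ι hQ f E hf P
  constructor
  · intro h0
    have hfun : (fun τ => MvPolynomial.eval₂ ι (fun i => f i τ) P) = fun _ => (0 : ℂ) :=
      funext h0
    rw [hfun] at h
    have h2 := hQ.const 0
    rw [HahnSeries.single_eq_zero] at h2
    have := hQ.unique h h2
    exact coeffMap_injective ι (by rw [this, map_zero])
  · intro h0 τ
    rw [h0, map_zero] at h
    exact congrFun (hQ.eq_zero h) τ

end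

section Algebra

variable {K R S σ : Type*} [Field K] [CommRing R] [CommRing S] [Algebra K R] [Algebra K S]
variable (x : σ → R) (y : σ → S)

/-- If two families satisfy the same polynomial relations over `K`, the subalgebra generated by
the first maps injectively to the target of the second, sending `x i` to `y i`. -/
theorem exists_algHom_of_relations
    (h : ∀ P : MvPolynomial σ K, MvPolynomial.aeval x P = 0 ↔ MvPolynomial.aeval y P = 0) :
    ∃ e : Algebra.adjoin K (Set.range x) →ₐ[K] S, Function.Injective e ∧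
      (∀ i, e ⟨x i, Algebra.subset_adjoin (Set.mem_range_self i)⟩ = y i) ∧
      ∀ P : MvPolynomial σ K, ∀ hP, e ⟨MvPolynomial.aeval x P, hP⟩ = MvPolynomial.aeval y P := by
  classical
  let φ₁ : MvPolynomial σ K →ₐ[K] R := MvPolynomial.aeval x
  let φ₂ : MvPolynomial σ K →ₐ[K] S := MvPolynomial.aeval y
  have hrange : Algebra.adjoin K (Set.range x) = φ₁.range :=
    Algebra.adjoin_range_eq_range_aeval K x
  have hsurj : ∀ a : Algebra.adjoin K (Set.range x), ∃ P : MvPolynomial σ K, φ₁ P = a := by
    intro a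
    have h1 : (a : R) ∈ φ₁.range := hrange ▸ a.2
    exact h1
  choose P hP using hsurj
  have key : ∀ P₁ P₂ : MvPolynomial σ K, φ₁ P₁ = φ₁ P₂ → φ₂ P₁ = φ₂ P₂ := by
    intro P₁ P₂ h12
    have : φ₁ (P₁ - P₂) = 0 := by rw [map_sub, h12, sub_self]
    have := (h _).mp this
    rwa [map_sub, sub_eq_zero] at this
  have key' : ∀ P₁ P₂ : MvPolynomial σ K, φ₂ P₁ = φ₂ P₂ → φ₁ P₁ = φ₁ P₂ := by
    intro P₁ P₂ h12
    have : φ₂ (P₁ - P₂) = 0 := by rw [map_sub, h12, sub_self]
    have := (h _).mpr this
    rwa [map_sub, sub_eq_zero] at this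
  have hval : ∀ (a : Algebra.adjoin K (Set.range x)) (P' : MvPolynomial σ K), φ₁ P' = a →
      φ₂ (P a) = φ₂ P' := fun a P' h' => key _ _ ((hP a).trans h'.symm)
  let e : Algebra.adjoin K (Set.range x) →ₐ[K] S :=
    { toFun := fun a => φ₂ (P a)
      map_one' := by
        refine (hval 1 1 ?_).trans (map_one _)
        simp
      map_mul' := fun a b => by
        refine (hval (a * b) (P a * P b) ?_).trans (map_mul _ _ _)
        rw [map_mul, hP, hP]; rfl
      map_zero' := by
        refine (hval 0 0 ?_).trans (map_zero _)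
        simp
      map_add' := fun a b => by
        refine (hval (a + b) (P a + P b) ?_).trans (map_add _ _ _)
        rw [map_add, hP, hP]; rfl
      commutes' := fun c => by
        refine (hval _ (MvPolynomial.C c) ?_).trans ?_
        · simp [φ₁]
        · simp [φ₂] }
  refine ⟨e, ?_, ?_, ?_⟩
  · intro a b hab
    have : φ₁ (P a) = φ₁ (P b) := key' _ _ hab
    rw [hP, hP] at this
    exact Subtype.ext this
  · intro i
    refine (hval _ (MvPolynomial.X i) ?_).trans ?_
    · simp [φ₁]
    · simp [φ₂]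
  · intro P' hP'
    exact hval _ P' rfl

end Algebra

section Main

variable {K : Type*} [Field K] (ι : K →+* ℂ)
variable {Q : (ℍ → ℂ) → LaurentSeries ℂ → Prop} (hQ : QExpAPI Q)
variable {σ : Type*} (f : σ → ℍ → ℂ) (E : σ → LaurentSeries K)

theorem aeval_apply_eq_eval₂ [Algebra K (ℍ → ℂ)]
    (hι : ∀ (c : K) (τ : ℍ), algebraMap K (ℍ → ℂ) c τ = ι c) (P : MvPolynomial σ K) (τ : ℍ) :
    MvPolynomial.aeval f P τ = MvPolynomial.eval₂ ι (fun i => f i τ) P := by
  induction P using MvPolynomial.induction_on with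
  | C a => simp [hι]
  | add p q hp hq => simp [hp, hq]
  | mul_X p i hp => simp [hp]

include hQ in
/-- Relation transfer, `aeval` form, for any `K`-algebra structure on `ℍ → ℂ` inducing `ι`. -/
theorem aeval_eq_zero_iff [Algebra K (ℍ → ℂ)]
    (hι : ∀ (c : K) (τ : ℍ), algebraMap K (ℍ → ℂ) c τ = ι c)
    (hf : ∀ i, Q (f i) (coeffMap ι (E i))) (P : MvPolynomial σ K) :
    MvPolynomial.aeval f P = 0 ↔ MvPolynomial.aeval E P = 0 := by
  rw [← eval_eq_zero_iff ι hQ f E hf P]
  constructor
  · intro h τ
    rw [← aeval_apply_eq_eval₂ ι f hι, h]; rfl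
  · intro h
    funext τ
    rw [aeval_apply_eq_eval₂ ι f hι, h]; rfl

include hQ in
/-- The `q`-expansion homomorphism on the `K`-subalgebra generated by the `f i`. -/
theorem exists_qexp_algHom [Algebra K (ℍ → ℂ)]
    (hι : ∀ (c : K) (τ : ℍ), algebraMap K (ℍ → ℂ) c τ = ι c)
    (hf : ∀ i, Q (f i) (coeffMap ι (E i))) :
    ∃ e : Algebra.adjoin K (Set.range f) →ₐ[K] LaurentSeries K, Function.Injective e ∧
      (∀ i, e ⟨f i, Algebra.subset_adjoin (Set.mem_range_self i)⟩ = E i) ∧
      ∀ a : Algebra.adjoin K (Set.range f), Q (a : ℍ → ℂ) (coeffMap ι (e a)) := by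
  obtain ⟨e, he1, he2, he3⟩ :=
    exists_algHom_of_relations (K := K) f E (aeval_eq_zero_iff ι hQ f E hι hf)
  refine ⟨e, he1, he2, fun a => ?_⟩
  have ha : (a : ℍ → ℂ) ∈ (MvPolynomial.aeval f : MvPolynomial σ K →ₐ[K] (ℍ → ℂ)).range :=
    (Algebra.adjoin_range_eq_range_aeval K f) ▸ a.2
  obtain ⟨P, hP⟩ := ha
  have h1 := qexp_eval ι hQ f E hf P
  have h2 : (fun τ => MvPolynomial.eval₂ ι (fun i => f i τ) P) = (a : ℍ → ℂ) := by
    funext τ
    rw [← aeval_apply_eq_eval₂ ι f hι, ← hP]; rfl
  have h3 : e a = MvPolynomial.aeval E P := by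
    have := he3 P (hP ▸ a.2)
    rw [← this]
    congr 1
    exact Subtype.ext hP.symm
  rw [h2] at h1
  rw [h3]
  exact h1

end Main

end Fermat.Agent.S24.Rel
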