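/-
S24 package MOD-REL, concrete part (helper96): the `rel` field of `Mod.AnalyticInput`.

* `qExpAPI_hasQExp` : helper47's predicate `HasQExp N` satisfies the abstract API `Rel.QExpAPI`;
* `hasQExp_jFun` : `j` has `q`-expansion the frozen series `jq` (from helper34's `JBridgeZ`);
* `hasQExp_jFun_dilate` : `τ ↦ j(dτ)` has `q`-expansion `qExpand ℚ d jq`;
* `rel_iff` : the polynomial relations between the functions `τ ↦ j(dτ)`, `d ∣ N`, are exactly
  those between the formal series `xC ℂ N d` (for ANY ring hom `ι : Kbar →+* ℂ`).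
-/
import Mathlib
import Fermat.Agent.S24.Rel
import Fermat.Agent.S24.HasQExp
import Fermat.Agent.S24.JBridgeZ
import Fermat.Agent.S24.JStab
import Fermat.Agent.S24.Mod.Interface

set_option autoImplicit false

open UpperHalfPlane ModularCurve

noncomputable section

namespace Fermat.Agent.S24.RelJ

open Fermat.Agent.S24

/-- helper47's `HasQExp N` satisfies the abstract expansion API used by `Rel.lean`. -/
theorem qExpAPI_hasQExp {N : ℕ} (hN : 0 < N) : Rel.QExpAPI (HasQExp N) where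
  const c := HasQExp.const N c
  add h₁ h₂ := HasQExp.add h₁ h₂
  mul h₁ h₂ := HasQExp.mul h₁ h₂
  eq_zero h := funext fun τ => HasQExp.eq_zero_of_zero h τ
  unique h₁ h₂ := HasQExp.unique hN h₁ h₂

/-- The analytic `j`-function has `q`-expansion the frozen Laurent series `jq`. -/
theorem hasQExp_jFun : HasQExp 1 JAnalytic.jFun (coeffMap (algebraMap ℚ ℂ) jq) := by
  intro τ
  have h := JBridge.hasSum_jq τ
  refine h.congr_fun fun m => ?_
  rw [coeffMap_coeff]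
  simp [HasQExp.qN]

/-- `τ ↦ j(dτ)` has `q`-expansion the frozen series `qExpand ℚ d jq`. -/
theorem hasQExp_jFun_dilate (d : ℕ) [NeZero d] (φ : ℍ → ℍ) (hφ : ∀ τ, (φ τ : ℂ) = d * τ) :
    HasQExp 1 (fun τ => JAnalytic.jFun (φ τ)) (coeffMap (algebraMap ℚ ℂ) (qExpand ℚ d jq)) := by
  intro τ
  have h := JBridge.hasSum_qExpand_jq d τ (φ τ) (hφ τ)
  refine h.congr_fun fun m => ?_
  rw [coeffMap_coeff]
  simp [HasQExp.qN]

/-- the same, for an arbitrary coefficient embedding `ι : K →+* ℂ` of a `ℚ`-algebra field. -/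
theorem hasQExp_jFun_dilate_coeffEmb {K : Type*} [Field K] [Algebra ℚ K] (ι : K →+* ℂ)
    (d : ℕ) [NeZero d] (φ : ℍ → ℍ) (hφ : ∀ τ, (φ τ : ℂ) = d * τ) :
    HasQExp 1 (fun τ => JAnalytic.jFun (φ τ)) (coeffMap ι (coeffEmb K (qExpand ℚ d jq))) := by
  have h := hasQExp_jFun_dilate d φ hφ
  have e : coeffMap ι (coeffEmb K (qExpand ℚ d jq)) =
      coeffMap (algebraMap ℚ ℂ) (qExpand ℚ d jq) := by
    rw [coeffEmb, coeffMap_coeffMap]
    exact coeffMap_congr (Subsingleton.elim _ _) _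
  rw [e]
  exact h

/-- **The `rel` field, function level.**  For any ring hom `ι : Kbar →+* ℂ` and any family of
maps `φ d : ℍ → ℍ` with `φ d τ = d τ`: a complex polynomial in the functions `τ ↦ j(dτ)`
(`d ∣ N`) vanishes identically iff the same polynomial in the formal `q`-expansions
`coeffMap ι (xK N d)` vanishes. -/
theorem rel_iff (N : ℕ) [NeZero N] (ι : Kbar →+* ℂ) (φ : Mod.Dv N → ℍ → ℍ)
    (hφ : ∀ d τ, (φ d τ : ℂ) = d.1 * τ) (P : MvPolynomial (Mod.Dv N) ℂ) :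
    (∀ τ : ℍ, MvPolynomial.eval (fun d : Mod.Dv N => JAnalytic.jFun (φ d τ)) P = 0) ↔
      MvPolynomial.aeval
        (fun d : Mod.Dv N => coeffMap ι (coeffEmb Kbar (qExpand ℚ d.1 jq))) P = 0 := by
  have h := Rel.eval_eq_zero_iff (K := ℂ) (RingHom.id ℂ) (qExpAPI_hasQExp (N := 1) one_pos)
    (fun (d : Mod.Dv N) (τ : ℍ) => JAnalytic.jFun (φ d τ))
    (fun d : Mod.Dv N => coeffMap ι (coeffEmb Kbar (qExpand ℚ d.1 jq)))
    (fun d => by
      rw [coeffMap_id]
      exact hasQExp_jFun_dilate_coeffEmb ι d.1 (φ d) (hφ d)) P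
  exact h

/-- `rel_iff` in the `xC` notation of `Mod/Interface.lean` (with the algebra structure
`ι.toAlgebra`). -/
theorem rel_iff_xC (N : ℕ) [NeZero N] (ι : Kbar →+* ℂ) (φ : Mod.Dv N → ℍ → ℍ)
    (hφ : ∀ d τ, (φ d τ : ℂ) = d.1 * τ) (P : MvPolynomial (Mod.Dv N) ℂ) :
    letI := ι.toAlgebra
    (∀ τ : ℍ, MvPolynomial.eval (fun d : Mod.Dv N => JAnalytic.jFun (φ d τ)) P = 0) ↔
      MvPolynomial.aeval (Mod.xC ℂ N) P = 0 :=
  rel_iff N ι φ hφ P

end Fermat.Agent.S24.RelJ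

namespace Fermat.Agent.S24.RelJ

open Fermat.Agent.S24

/-- The canonical dilation `τ ↦ dτ` of the upper half plane. -/
def dil (d : ℕ) [NeZero d] (τ : ℍ) : ℍ :=
  ⟨(d : ℂ) * τ, by
    have hd : (0 : ℝ) < d := by exact_mod_cast Nat.pos_of_ne_zero (NeZero.ne d)
    have : ((d : ℂ) * (τ : ℂ)).im = d * τ.im := by simp
    rw [this]
    exact mul_pos hd τ.im_pos⟩

@[simp] lemma coe_dil (d : ℕ) [NeZero d] (τ : ℍ) : ((dil d τ : ℍ) : ℂ) = d * τ := rfl

lemma jC_mul_eq (d : ℕ) [NeZero d] (τ : ℍ) :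
    JStab.jC ((d : ℂ) * τ) = JAnalytic.jFun (dil d τ) := by
  have h := JStab.jC_coe (dil d τ)
  rw [coe_dil] at h
  rw [h]
  rfl

/-- `rel_iff` for the functions `τ ↦ jC (d τ)` of `JStab.lean`. -/
theorem rel_iff_jC (N : ℕ) [NeZero N] (ι : Kbar →+* ℂ) (P : MvPolynomial (Mod.Dv N) ℂ) :
    (∀ τ : ℍ, MvPolynomial.eval (fun d : Mod.Dv N => JStab.jC ((d.1 : ℂ) * τ)) P = 0) ↔
      MvPolynomial.aeval
        (fun d : Mod.Dv N => coeffMap ι (coeffEmb Kbar (qExpand ℚ d.1 jq))) P = 0 := by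
  rw [← rel_iff N ι (fun d => dil d.1) (fun d τ => coe_dil d.1 τ) P]
  simp only [jC_mul_eq]

/-- The `q`-expansion homomorphism: the `ℂ`-subalgebra of functions on `ℍ` generated by the
`τ ↦ j(dτ)`, `d ∣ N`, embeds into `LaurentSeries ℂ`, sending `j(dτ)` to `coeffMap ι (xK N d)`,
and every element has the image as its `q`-expansion. -/
theorem exists_qexp_algHom (N : ℕ) [NeZero N] (ι : Kbar →+* ℂ) :
    ∃ e : Algebra.adjoin ℂ (Set.range fun (d : Mod.Dv N) (τ : ℍ) => JAnalytic.jFun (dil d.1 τ))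
        →ₐ[ℂ] LaurentSeries ℂ,
      Function.Injective e ∧
      (∀ d : Mod.Dv N, e ⟨fun τ => JAnalytic.jFun (dil d.1 τ),
          Algebra.subset_adjoin (Set.mem_range_self d)⟩ =
        coeffMap ι (coeffEmb Kbar (qExpand ℚ d.1 jq))) ∧
      ∀ a : Algebra.adjoin ℂ
          (Set.range fun (d : Mod.Dv N) (τ : ℍ) => JAnalytic.jFun (dil d.1 τ)),
        HasQExp 1 (a : ℍ → ℂ) (e a) := by
  obtain ⟨e, he1, he2, he3⟩ := Rel.exists_qexp_algHom (K := ℂ) (RingHom.id ℂ)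
    (qExpAPI_hasQExp (N := 1) one_pos)
    (fun (d : Mod.Dv N) (τ : ℍ) => JAnalytic.jFun (dil d.1 τ))
    (fun d : Mod.Dv N => coeffMap ι (coeffEmb Kbar (qExpand ℚ d.1 jq)))
    (fun c τ => rfl)
    (fun d => by
      rw [coeffMap_id]
      exact hasQExp_jFun_dilate_coeffEmb ι d.1 (dil d.1) (coe_dil d.1))
  refine ⟨e, he1, he2, fun a => ?_⟩
  have := he3 a
  rwa [coeffMap_id] at this

end Fermat.Agent.S24.RelJ
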