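/-
S24, package FF0 (helper29): the EXACT Skeleton statements of section FF0
(`ord_nonneg_iff`, `ord_pos_iff`, `ord_neg`, `ord_add_ge`, `ord_algebraMap`, `place_eq_of_le`),
in namespace `Fermat.Agent.S24`, on top of helper54's `FF/PlaceBasic.lean`.
-/
import Fermat.Agent.S24.Defs
import Fermat.Agent.S24.FF.PlaceBasic

set_option autoImplicit false

open AlgebraicCurve KaehlerDifferential IntermediateField

namespace Fermat.Agent.S24

section FF0

variable {K F : Type*} [Field K] [Field F] [Algebra K F]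

theorem ord_nonneg_iff (v : Place K F) {y : F} (hy : y ≠ 0) :
    0 ≤ v.ord y ↔ y ∈ v.toValuationSubring :=
  (FF.mem_iff_ord_nonneg v hy).symm

theorem ord_pos_iff (v : Place K F) {y : F} (hy : y ≠ 0) :
    0 < v.ord y ↔ y ∈ v.toValuationSubring ∧ y⁻¹ ∉ v.toValuationSubring := by
  have hy' : y⁻¹ ≠ 0 := inv_ne_zero hy
  rw [← ord_nonneg_iff v hy, ← ord_nonneg_iff v hy', v.ord_inv]
  constructor
  · intro h
    exact ⟨h.le, by omega⟩
  · rintro ⟨_, h2⟩
    omega

theorem ord_neg (v : Place K F) (y : F) : v.ord (-y) = v.ord y :=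
  FF.ord_neg v y

theorem ord_add_ge (v : Place K F) {y z : F} (hy : y ≠ 0) (hz : z ≠ 0) (hyz : y + z ≠ 0) :
    min (v.ord y) (v.ord z) ≤ v.ord (y + z) :=
  FF.min_ord_le_ord_add v hy hz hyz

theorem ord_algebraMap (v : Place K F) {a : K} (_ha : a ≠ 0) : v.ord (algebraMap K F a) = 0 :=
  FF.ord_algebraMap v a

/-- two valuation subrings, one a place, comparable => equal -/
theorem place_eq_of_le (v : Place K F) (V : ValuationSubring F) (hV : V ≠ ⊤)
    (hle : v.toValuationSubring ≤ V) : v.toValuationSubring = V := by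
  refine le_antisymm hle ?_
  intro y hyV
  by_contra hy
  apply hV
  -- `y ∉ O_v`, so `ord y < 0`
  have hy0 : y ≠ 0 := fun h => hy (h ▸ v.toValuationSubring.zero_mem)
  have hordy : v.ord y < 0 := by
    by_contra h
    exact hy ((ord_nonneg_iff v hy0).mp (not_lt.mp h))
  obtain ⟨π, hπ⟩ := IsDiscreteValuationRing.exists_irreducible v.toValuationSubring
  have hπ0 : (π : F) ≠ 0 := fun h => hπ.ne_zero (Subtype.ext h)
  have hπord : v.ord (π : F) = 1 := v.ord_coe_irreducible hπ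
  -- `π⁻¹ ∈ V`
  have hπinv : (π : F)⁻¹ ∈ V := by
    -- `π⁻¹ = y * (y⁻¹ * π⁻¹)` with `ord (y⁻¹ π⁻¹) = -ord y - 1 ≥ 0`
    have hz0 : y⁻¹ * (π : F)⁻¹ ≠ 0 := mul_ne_zero (inv_ne_zero hy0) (inv_ne_zero hπ0)
    have hz : y⁻¹ * (π : F)⁻¹ ∈ v.toValuationSubring := by
      rw [← ord_nonneg_iff v hz0, v.ord_mul (inv_ne_zero hy0) (inv_ne_zero hπ0), v.ord_inv,
        v.ord_inv, hπord]
      omega
    have : (π : F)⁻¹ = y * (y⁻¹ * (π : F)⁻¹) := by
      rw [← mul_assoc, mul_inv_cancel₀ hy0, one_mul]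
    rw [this]
    exact V.mul_mem _ _ hyV (hle hz)
  -- now every element of `F` lies in `V`
  rw [eq_top_iff]
  intro z _
  rcases eq_or_ne z 0 with rfl | hz0
  · exact V.zero_mem
  rcases le_or_gt 0 (v.ord z) with hz | hz
  · exact hle ((ord_nonneg_iff v hz0).mp hz)
  · -- `z = (z * π^n) * (π⁻¹)^n` with `n = -ord z`
    obtain ⟨n, hn⟩ : ∃ n : ℕ, v.ord z = -(n : ℤ) := ⟨(-v.ord z).toNat, by omega⟩
    have hw0 : z * (π : F) ^ n ≠ 0 := mul_ne_zero hz0 (pow_ne_zero _ hπ0)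
    have hw : z * (π : F) ^ n ∈ v.toValuationSubring := by
      rw [← ord_nonneg_iff v hw0, v.ord_mul hz0 (pow_ne_zero _ hπ0), ← zpow_natCast, v.ord_zpow,
        hπord, hn]
      omega
    have : z = (z * (π : F) ^ n) * ((π : F)⁻¹) ^ n := by
      rw [mul_assoc, ← mul_pow, mul_inv_cancel₀ hπ0, one_pow, mul_one]
    rw [this]
    exact V.mul_mem _ _ (hle hw) (pow_mem hπinv n)

end FF0

end Fermat.Agent.S24
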