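import Mathlib

/-!
# S24 bridge, part 1: power series / Laurent series converging on the upper half plane

`PConv a f` : the power series `a : ℂ⟦X⟧` converges to `f : ℍ → ℂ` in the parameter
`q = exp (2 π i τ)`, i.e. `f τ = ∑ aₘ qᵐ` for every `τ : ℍ`.

Closure under `+`, `*`, constants, `X`, substitution `q ↦ q ^ d`, uniqueness of coefficients,
Taylor series of a function holomorphic on the unit disc.
-/

set_option autoImplicit false

open UpperHalfPlane Function Filter Topology ModularForm
open scoped Nat MatrixGroups ModularForm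

namespace Fermat.Agent.S24.Br46

/-- The parameter `q = exp (2 π i τ)`. -/
noncomputable def qq (τ : ℍ) : ℂ := Periodic.qParam 1 (τ : ℂ)

lemma qq_def (τ : ℍ) : qq τ = Periodic.qParam 1 (τ : ℂ) := rfl

lemma qq_eq_exp (τ : ℍ) : qq τ = Complex.exp (2 * Real.pi * Complex.I * τ) := by
  simp [qq, Periodic.qParam]

lemma qq_ne_zero (τ : ℍ) : qq τ ≠ 0 := by
  rw [qq_eq_exp]; exact Complex.exp_ne_zero _

lemma norm_qq_lt_one (τ : ℍ) : ‖qq τ‖ < 1 :=
  Periodic.norm_qParam_lt_one one_pos τ.im_pos

lemma qq_mem_ball (τ : ℍ) : qq τ ∈ Metric.ball (0 : ℂ) 1 := by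
  simpa using norm_qq_lt_one τ

/-- every nonzero point of the open unit disc is `qq τ` for some `τ`. -/
lemma exists_qq_eq {q : ℂ} (hq : ‖q‖ < 1) (hq0 : q ≠ 0) : ∃ τ : ℍ, qq τ = q := by
  have h1 := Periodic.im_invQParam_pos_of_norm_lt_one one_pos hq hq0
  exact ⟨⟨Periodic.invQParam 1 q, h1⟩, Periodic.qParam_right_inv one_ne_zero hq0⟩

/-- `PConv a f`: the power series `a` converges to `f` on `ℍ` (in the parameter `qq`). -/
def PConv (a : PowerSeries ℂ) (f : ℍ → ℂ) : Prop :=
  ∀ τ : ℍ, HasSum (fun m : ℕ => PowerSeries.coeff m a * qq τ ^ m) (f τ)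

namespace PConv

variable {a b : PowerSeries ℂ} {f g : ℍ → ℂ}

lemma congr_fun (h : PConv a f) (hfg : ∀ τ, f τ = g τ) : PConv a g := fun τ => hfg τ ▸ h τ

lemma summable_norm (h : PConv a f) (τ : ℍ) :
    Summable (fun m : ℕ => ‖PowerSeries.coeff m a * qq τ ^ m‖) :=
  (h τ).summable.norm

protected lemma zero : PConv 0 (fun _ => 0) := fun τ => by
  simp [hasSum_zero]

protected lemma add (h1 : PConv a f) (h2 : PConv b g) : PConv (a + b) (fun τ => f τ + g τ) :=
  fun τ => by
    simpa [add_mul] using (h1 τ).add (h2 τ)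

protected lemma neg (h1 : PConv a f) : PConv (-a) (fun τ => - f τ) :=
  fun τ => by
    simpa using (h1 τ).neg

protected lemma sub (h1 : PConv a f) (h2 : PConv b g) : PConv (a - b) (fun τ => f τ - g τ) :=
  fun τ => by
    simpa [sub_mul] using (h1 τ).sub (h2 τ)

protected lemma const (c : ℂ) : PConv (PowerSeries.C c) (fun _ => c) := fun τ => by
  have : (fun m : ℕ => PowerSeries.coeff m (PowerSeries.C c) * qq τ ^ m)
      = fun m : ℕ => if m = 0 then c else 0 := by
    funext m
    by_cases hm : m = 0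
    · subst hm; simp
    · simp [PowerSeries.coeff_C, hm]
  rw [this]
  exact hasSum_ite_eq 0 c

protected lemma one : PConv 1 (fun _ => 1) := by
  simpa using PConv.const 1

protected lemma X : PConv PowerSeries.X qq := fun τ => by
  have : (fun m : ℕ => PowerSeries.coeff m (PowerSeries.X : PowerSeries ℂ) * qq τ ^ m)
      = fun m : ℕ => if m = 1 then qq τ else 0 := by
    funext m
    by_cases hm : m = 1
    · subst hm; simp
    · simp [PowerSeries.coeff_X, hm]
  rw [this]
  exact hasSum_ite_eq 1 (qq τ)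

protected lemma mul (h1 : PConv a f) (h2 : PConv b g) : PConv (a * b) (fun τ => f τ * g τ) :=
  fun τ => by
    have hs1 := h1.summable_norm τ
    have hs2 := h2.summable_norm τ
    have hsum := summable_norm_sum_mul_antidiagonal_of_summable_norm hs1 hs2
    have heq := tsum_mul_tsum_eq_tsum_sum_antidiagonal_of_summable_norm hs1 hs2
    rw [(h1 τ).tsum_eq, (h2 τ).tsum_eq] at heq
    have hterm : (fun m : ℕ => PowerSeries.coeff m (a * b) * qq τ ^ m)
        = fun n : ℕ => ∑ kl ∈ Finset.HasAntidiagonal.antidiagonal n,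
            (PowerSeries.coeff kl.1 a * qq τ ^ kl.1) * (PowerSeries.coeff kl.2 b * qq τ ^ kl.2) := by
      funext n
      rw [PowerSeries.coeff_mul, Finset.sum_mul]
      refine Finset.sum_congr rfl fun kl hkl => ?_
      have : kl.1 + kl.2 = n := by simpa using hkl
      rw [← this, pow_add]; ring
    rw [hterm]
    show HasSum _ (f τ * g τ)
    rw [heq]
    exact (hsum.of_norm).hasSum

protected lemma pow (h1 : PConv a f) (n : ℕ) : PConv (a ^ n) (fun τ => f τ ^ n) := by
  induction n with
  | zero => simpa using PConv.one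
  | succ n ih => simpa [pow_succ] using ih.mul h1

protected lemma smul (c : ℂ) (h1 : PConv a f) : PConv (c • a) (fun τ => c * f τ) := fun τ => by
  simpa [mul_assoc] using (h1 τ).mul_left c

/-- Uniqueness: a power series converging to `0` is `0`. -/
lemma eq_zero (h : PConv a (fun _ => 0)) : a = 0 := by
  ext m
  have hsum : ∀ τ : ℍ, HasSum (fun m : ℕ => PowerSeries.coeff m a •
      Periodic.qParam 1 (τ : ℂ) ^ m) 0 := fun τ => by
    have := h τ
    simp only [qq, smul_eq_mul] at this ⊢
    exact this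
  have := ModularFormClass.qExpansion_coeff_unique (f := (0 : ModularForm 𝒮ℒ 0))
    (c := fun m => PowerSeries.coeff m a) one_pos
    one_mem_strictPeriods_SL (fun τ => by simpa using hsum τ) m
  rw [this, FunLike.coe_zero, qExpansion_zero]

/-- Uniqueness of the coefficients. -/
lemma unique (h1 : PConv a f) (h2 : PConv b f) : a = b := by
  have := (h1.sub h2)
  simp only [sub_self] at this
  exact sub_eq_zero.mp this.eq_zero

/-- If `a` converges to `f` then `f` is determined by `a`. -/
lemma fun_unique (h1 : PConv a f) (h2 : PConv a g) (τ : ℍ) : f τ = g τ :=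
  (h1 τ).unique (h2 τ)

/-- Taylor series of a function holomorphic on the open unit disc. -/
lemma of_differentiableOn {G : ℂ → ℂ} (hG : DifferentiableOn ℂ G (Metric.ball (0 : ℂ) 1)) :
    PConv (PowerSeries.mk fun n => ((n ! : ℕ) : ℂ)⁻¹ * iteratedDeriv n G 0) (fun τ => G (qq τ)) :=
  fun τ => by
    have := Complex.hasSum_taylorSeries_on_ball hG (qq_mem_ball τ)
    simp only [sub_zero, smul_eq_mul] at this
    have heq : (fun m : ℕ => PowerSeries.coeff m
        (PowerSeries.mk fun n => ((n ! : ℕ) : ℂ)⁻¹ * iteratedDeriv n G 0) * qq τ ^ m)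
        = fun n : ℕ => ((n ! : ℕ) : ℂ)⁻¹ * (qq τ ^ n * iteratedDeriv n G 0) := by
      funext n
      rw [PowerSeries.coeff_mk]; ring
    rw [heq]
    exact this

end PConv

/-- Multiplication by `d` on the upper half plane. -/
noncomputable def scaleH (d : ℕ) [NeZero d] (τ : ℍ) : ℍ :=
  ⟨(d : ℂ) * τ, by
    have hd : (0 : ℝ) < d := by exact_mod_cast Nat.pos_of_ne_zero (NeZero.ne d)
    simpa using mul_pos hd τ.im_pos⟩

@[simp] lemma coe_scaleH (d : ℕ) [NeZero d] (τ : ℍ) : ((scaleH d τ : ℍ) : ℂ) = (d : ℂ) * τ := rfl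

lemma qq_scaleH (d : ℕ) [NeZero d] (τ : ℍ) : qq (scaleH d τ) = qq τ ^ d := by
  rw [qq_eq_exp, qq_eq_exp, coe_scaleH, ← Complex.exp_nat_mul]
  congr 1; ring

lemma PConv.expand {a : PowerSeries ℂ} {f : ℍ → ℂ} (h : PConv a f) (d : ℕ) [NeZero d] :
    PConv (PowerSeries.expand d (NeZero.ne d) a) (fun τ => f (scaleH d τ)) := fun τ => by
  have h1 := h (scaleH d τ)
  rw [qq_scaleH] at h1
  have hinj : Function.Injective (fun m : ℕ => d * m) :=
    fun m n hmn => Nat.eq_of_mul_eq_mul_left (Nat.pos_of_ne_zero (NeZero.ne d)) hmn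
  have hzero : ∀ n ∉ Set.range (fun m : ℕ => d * m),
      PowerSeries.coeff n (PowerSeries.expand d (NeZero.ne d) a) * qq τ ^ n = 0 := by
    intro n hn
    rw [PowerSeries.coeff_expand_of_not_dvd, zero_mul]
    rintro ⟨m, rfl⟩
    exact hn ⟨m, rfl⟩
  rw [← hinj.hasSum_iff hzero]
  convert h1 using 2 with m
  simp only [Function.comp_apply]
  rw [PowerSeries.coeff_expand_mul, pow_mul]

end Fermat.Agent.S24.Br46
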