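import Mathlib
import Fermat.Prelude.Def_ModularCurve_X0
import Fermat.Agent.S24.Br46Conv

/-!
# S24 bridge (helper46), part 3: the formal product `∏ (1 - Xⁿ)` converges to the analytic product
-/

set_option autoImplicit false

open UpperHalfPlane Function Filter Topology
open scoped Nat PowerSeries.WithPiTopology

namespace Fermat.Agent.S24.Br46

/-- The analytic Euler product on the unit disc. -/
noncomputable def eulerF (q : ℂ) : ℂ := ∏' n : ℕ, (1 - q ^ (n + 1))

lemma differentiableOn_eulerF : DifferentiableOn ℂ eulerF (Metric.ball (0 : ℂ) 1) :=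
  ModularForm.differentiableOn_tprod_one_sub_pow

/-- finite partial products, as polynomials over `ℤ` -/
noncomputable def eulerPoly (s : Finset ℕ) : Polynomial ℤ :=
  ∏ n ∈ s, (1 - Polynomial.X ^ (n + 1))

lemma iteratedDeriv_polynomial_eval (P : Polynomial ℂ) (k : ℕ) :
    iteratedDeriv k (fun x => P.eval x) = fun x => ((Polynomial.derivative)^[k] P).eval x := by
  induction k generalizing P with
  | zero => simp
  | succ k ih =>
    rw [iteratedDeriv_succ, ih]
    funext x
    rw [Polynomial.deriv, Function.iterate_succ_apply']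

lemma iteratedDeriv_polynomial_eval_zero (P : Polynomial ℂ) (k : ℕ) :
    iteratedDeriv k (fun x => P.eval x) 0 = (k ! : ℂ) * P.coeff k := by
  rw [iteratedDeriv_polynomial_eval]
  simp only
  rw [← Polynomial.coeff_zero_eq_eval_zero, Polynomial.coeff_iterate_derivative, zero_add,
    Nat.descFactorial_self, nsmul_eq_mul]

lemma eulerPoly_eval (s : Finset ℕ) (q : ℂ) :
    ((eulerPoly s).map (Int.castRingHom ℂ)).eval q = ∏ n ∈ s, (1 - q ^ (n + 1)) := by
  simp [eulerPoly, Polynomial.map_prod, Polynomial.eval_prod]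

lemma eulerPoly_coe (s : Finset ℕ) :
    ((eulerPoly s : Polynomial ℤ) : PowerSeries ℤ) = ∏ n ∈ s, (1 - PowerSeries.X ^ (n + 1)) := by
  rw [← Polynomial.coeToPowerSeries.ringHom_apply, eulerPoly, map_prod]
  simp

/-- analytic side: Taylor coefficients of partial products converge -/
lemma tendsto_iteratedDeriv_partial (k : ℕ) :
    Tendsto (fun s : Finset ℕ => iteratedDeriv k (fun q : ℂ => ∏ n ∈ s, (1 - q ^ (n + 1))) 0)
      atTop (𝓝 (iteratedDeriv k eulerF 0)) := by
  have hloc : ∀ k : ℕ, TendstoLocallyUniformlyOn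
      (fun (s : Finset ℕ) => iteratedDeriv k (fun q : ℂ => ∏ n ∈ s, (1 - q ^ (n + 1))))
      (iteratedDeriv k eulerF) atTop (Metric.ball (0 : ℂ) 1) := by
    intro k
    induction k with
    | zero =>
      simp only [iteratedDeriv_zero]
      exact ModularForm.multipliableLocallyUniformlyOn_one_sub_pow.hasProdLocallyUniformlyOn
    | succ k ih =>
      simp only [iteratedDeriv_succ]
      refine ih.deriv (Eventually.of_forall fun s => ?_) Metric.isOpen_ball
      have : (fun q : ℂ => ∏ n ∈ s, (1 - q ^ (n + 1)))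
          = fun q => ((eulerPoly s).map (Int.castRingHom ℂ)).eval q := by
        funext q; rw [eulerPoly_eval]
      rw [this, iteratedDeriv_polynomial_eval]
      exact (Polynomial.differentiable _).differentiableOn
  exact (hloc k).tendsto_at (by simp)

/-- The Taylor coefficients of the analytic Euler product are the coefficients of the formal
product. -/
lemma taylor_eulerF (k : ℕ) :
    ((k ! : ℕ) : ℂ)⁻¹ * iteratedDeriv k eulerF 0
      = ((PowerSeries.coeff k ModularCurve.etaProd : ℤ) : ℂ) := by
  -- analytic limit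
  have h1 := tendsto_iteratedDeriv_partial k
  have h1' : Tendsto (fun s : Finset ℕ => ((k ! : ℕ) : ℂ)⁻¹ *
      iteratedDeriv k (fun q : ℂ => ∏ n ∈ s, (1 - q ^ (n + 1))) 0)
      atTop (𝓝 (((k ! : ℕ) : ℂ)⁻¹ * iteratedDeriv k eulerF 0)) := h1.const_mul _
  -- formal limit
  have h2 : Tendsto (fun s : Finset ℕ =>
      PowerSeries.coeff k (∏ n ∈ s, (1 - PowerSeries.X ^ (n + 1)) : PowerSeries ℤ))
      atTop (𝓝 (PowerSeries.coeff k ModularCurve.etaProd)) := by
    have := (PowerSeries.WithPiTopology.multipliable_one_sub_X_pow ℤ).hasProd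
    rw [HasProd, SummationFilter.unconditional_filter,
      PowerSeries.WithPiTopology.tendsto_iff_coeff_tendsto] at this
    exact this k
  have h2' : Tendsto (fun s : Finset ℕ =>
      ((PowerSeries.coeff k (∏ n ∈ s, (1 - PowerSeries.X ^ (n + 1)) : PowerSeries ℤ) : ℤ) : ℂ))
      atTop (𝓝 ((PowerSeries.coeff k ModularCurve.etaProd : ℤ) : ℂ)) :=
    (continuous_of_discreteTopology (f := fun n : ℤ => (n : ℂ))).continuousAt.tendsto.comp h2
  -- the two sequences agree
  have hagree : ∀ s : Finset ℕ, ((k ! : ℕ) : ℂ)⁻¹ *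
      iteratedDeriv k (fun q : ℂ => ∏ n ∈ s, (1 - q ^ (n + 1))) 0
      = ((PowerSeries.coeff k (∏ n ∈ s, (1 - PowerSeries.X ^ (n + 1)) : PowerSeries ℤ) : ℤ) : ℂ) := by
    intro s
    have : (fun q : ℂ => ∏ n ∈ s, (1 - q ^ (n + 1)))
        = fun q => ((eulerPoly s).map (Int.castRingHom ℂ)).eval q := by
      funext q; rw [eulerPoly_eval]
    rw [this, iteratedDeriv_polynomial_eval_zero, ← eulerPoly_coe, Polynomial.coeff_coe,
      Polynomial.coeff_map]
    have hk : ((k ! : ℕ) : ℂ) ≠ 0 := by exact_mod_cast (Nat.factorial_ne_zero k)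
    field_simp
    simp
  exact tendsto_nhds_unique (h1'.congr hagree) h2'

/-- The formal Euler product converges to the analytic one. -/
theorem pconv_etaProd :
    PConv (PowerSeries.map (Int.castRingHom ℂ) ModularCurve.etaProd) (fun τ => eulerF (qq τ)) := by
  have := PConv.of_differentiableOn differentiableOn_eulerF
  convert this using 1
  ext k
  rw [PowerSeries.coeff_map, PowerSeries.coeff_mk, taylor_eulerF]
  simp

end Fermat.Agent.S24.Br46
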