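import Mathlib
import Fermat.Agent.S24.Br46Conv

/-!
# S24 bridge, part 2: Laurent series (finite principal part) converging on the upper half plane

`LConv A f` : `A = q^{-m} * a` with `a` a power series converging to `q^m * f`.
Closed under `+`, `*`, constants; `A = 0 ↔ f = 0`; polynomial expressions.
-/

set_option autoImplicit false

open UpperHalfPlane Function Filter Topology HahnSeries

namespace Fermat.Agent.S24.Br46

/-- `q^{-m} * a` as a Laurent series. -/
noncomputable def shiftPS (m : ℕ) (a : PowerSeries ℂ) : LaurentSeries ℂ :=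
  HahnSeries.single (-(m : ℤ)) (1 : ℂ) * HahnSeries.ofPowerSeries ℤ ℂ a

lemma shiftPS_zero (a : PowerSeries ℂ) : shiftPS 0 a = HahnSeries.ofPowerSeries ℤ ℂ a := by
  simp [shiftPS]

lemma single_neg_mul_single (m : ℕ) :
    (HahnSeries.single (-(m : ℤ)) (1 : ℂ) : LaurentSeries ℂ) * HahnSeries.single (m : ℤ) 1 = 1 := by
  rw [HahnSeries.single_mul_single]; simp

lemma shiftPS_add_right (m k : ℕ) (a : PowerSeries ℂ) :
    shiftPS (m + k) (PowerSeries.X ^ k * a) = shiftPS m a := by
  unfold shiftPS
  rw [map_mul, HahnSeries.ofPowerSeries_X_pow, ← mul_assoc, HahnSeries.single_mul_single]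
  have : -((m + k : ℕ) : ℤ) + (k : ℤ) = -(m : ℤ) := by push_cast; ring
  rw [this, one_mul]

lemma shiftPS_mul (m k : ℕ) (a b : PowerSeries ℂ) :
    shiftPS m a * shiftPS k b = shiftPS (m + k) (a * b) := by
  unfold shiftPS
  rw [map_mul, mul_mul_mul_comm, HahnSeries.single_mul_single]
  have : -(m : ℤ) + -(k : ℤ) = -((m + k : ℕ) : ℤ) := by push_cast; ring
  rw [this, one_mul]

lemma shiftPS_add (m : ℕ) (a b : PowerSeries ℂ) :
    shiftPS m a + shiftPS m b = shiftPS m (a + b) := by
  unfold shiftPS
  rw [map_add, mul_add]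

lemma shiftPS_eq_zero_iff (m : ℕ) (a : PowerSeries ℂ) : shiftPS m a = 0 ↔ a = 0 := by
  constructor
  · intro h
    have h2 : HahnSeries.single (m : ℤ) (1 : ℂ) * shiftPS m a = 0 := by rw [h, mul_zero]
    unfold shiftPS at h2
    rw [← mul_assoc, mul_comm (HahnSeries.single (m : ℤ) (1 : ℂ)), single_neg_mul_single,
      one_mul] at h2
    exact HahnSeries.ofPowerSeries_injective (by rw [h2, map_zero])
  · rintro rfl
    simp [shiftPS]

/-- `LConv A f`: the Laurent series `A` converges to `f` on `ℍ`. -/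
def LConv (A : LaurentSeries ℂ) (f : ℍ → ℂ) : Prop :=
  ∃ (m : ℕ) (a : PowerSeries ℂ), A = shiftPS m a ∧ PConv a (fun τ => qq τ ^ m * f τ)

namespace LConv

variable {A B : LaurentSeries ℂ} {f g : ℍ → ℂ}

lemma of_pconv {a : PowerSeries ℂ} (h : PConv a f) :
    LConv (HahnSeries.ofPowerSeries ℤ ℂ a) f :=
  ⟨0, a, (shiftPS_zero a).symm, by simpa using h⟩

lemma of_shift {a : PowerSeries ℂ} (m : ℕ) (h : PConv a (fun τ => qq τ ^ m * f τ)) :
    LConv (shiftPS m a) f := ⟨m, a, rfl, h⟩

lemma congr_fun (h : LConv A f) (hfg : ∀ τ, f τ = g τ) : LConv A g := by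
  obtain ⟨m, a, hA, ha⟩ := h
  exact ⟨m, a, hA, ha.congr_fun fun τ => by rw [hfg]⟩

protected lemma const (c : ℂ) : LConv (HahnSeries.C c) (fun _ => c) := by
  rw [← HahnSeries.ofPowerSeries_C]
  exact of_pconv (PConv.const c)

protected lemma mul (h1 : LConv A f) (h2 : LConv B g) : LConv (A * B) (fun τ => f τ * g τ) := by
  obtain ⟨m, a, rfl, ha⟩ := h1
  obtain ⟨k, b, rfl, hb⟩ := h2
  refine ⟨m + k, a * b, shiftPS_mul m k a b, (ha.mul hb).congr_fun fun τ => ?_⟩
  simp only [_root_.pow_add]; ring

protected lemma add (h1 : LConv A f) (h2 : LConv B g) : LConv (A + B) (fun τ => f τ + g τ) := by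
  obtain ⟨m, a, rfl, ha⟩ := h1
  obtain ⟨k, b, rfl, hb⟩ := h2
  refine ⟨m + k, PowerSeries.X ^ k * a + PowerSeries.X ^ m * b, ?_, ?_⟩
  · rw [← shiftPS_add, shiftPS_add_right, add_comm m k, shiftPS_add_right]
  · refine ((((PConv.X).pow k).mul ha).add (((PConv.X).pow m).mul hb)).congr_fun fun τ => ?_
    simp only [_root_.pow_add]; ring

/-- A Laurent series converging to `f` vanishes iff `f` vanishes identically. -/
lemma eq_zero_iff (h : LConv A f) : A = 0 ↔ ∀ τ, f τ = 0 := by
  obtain ⟨m, a, rfl, ha⟩ := h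
  rw [shiftPS_eq_zero_iff]
  constructor
  · rintro rfl τ
    have := (ha τ).unique (PConv.zero τ)
    simpa [qq_ne_zero τ] using this
  · intro hf
    apply PConv.eq_zero
    exact ha.congr_fun fun τ => by rw [hf τ, mul_zero]

end LConv

section Poly

variable {σ K : Type*} [CommRing K] (ι : K →+* ℂ)

/-- The formal side: evaluate a polynomial at a family of Laurent series. -/
noncomputable def formalEval (Afam : σ → LaurentSeries ℂ) : MvPolynomial σ K →+* LaurentSeries ℂ :=
  MvPolynomial.eval₂Hom ((HahnSeries.C : ℂ →+* LaurentSeries ℂ).comp ι) Afam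

/-- The analytic side: evaluate a polynomial pointwise at a family of functions. -/
noncomputable def analyticEval (ffam : σ → ℍ → ℂ) (P : MvPolynomial σ K) (τ : ℍ) : ℂ :=
  MvPolynomial.eval₂ ι (fun d => ffam d τ) P

theorem lconv_formalEval {Afam : σ → LaurentSeries ℂ} {ffam : σ → ℍ → ℂ}
    (h : ∀ d, LConv (Afam d) (ffam d)) (P : MvPolynomial σ K) :
    LConv (formalEval ι Afam P) (analyticEval ι ffam P) := by
  induction P using MvPolynomial.induction_on with
  | C a =>
    have : formalEval ι Afam (MvPolynomial.C a) = HahnSeries.C (ι a) := by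
      simp [formalEval]
    rw [this]
    exact (LConv.const (ι a)).congr_fun fun τ => by simp [analyticEval]
  | add p q hp hq =>
    rw [map_add]
    exact (hp.add hq).congr_fun fun τ => by simp [analyticEval]
  | mul_X p n hp =>
    rw [map_mul]
    have : formalEval ι Afam (MvPolynomial.X n) = Afam n := by simp [formalEval]
    rw [this]
    exact (hp.mul (h n)).congr_fun fun τ => by simp [analyticEval]

/-- **Relations agree**: a polynomial relation holds among the Laurent series iff it holds
identically among the functions. -/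
theorem formalEval_eq_zero_iff {Afam : σ → LaurentSeries ℂ} {ffam : σ → ℍ → ℂ}
    (h : ∀ d, LConv (Afam d) (ffam d)) (P : MvPolynomial σ K) :
    formalEval ι Afam P = 0 ↔ ∀ τ, analyticEval ι ffam P τ = 0 :=
  (lconv_formalEval ι h P).eq_zero_iff

end Poly

end Fermat.Agent.S24.Br46
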