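import Mathlib
import Fermat.Prelude.Def_ModularCurve_X0
import Fermat.Prelude.Def_ModularCurve_LaurentCoeff
import Fermat.Agent.S24.Br46Conv
import Fermat.Agent.S24.Br46Laurent
import Fermat.Agent.S24.Br46Eta

/-!
# S24 bridge (helper46), part 4: the formal `j` of the Prelude converges to the analytic
`j = E₄³/Δ`
-/

set_option autoImplicit false

open UpperHalfPlane Function Filter Topology ModularForm EisensteinSeries ModularCurve
open scoped Nat MatrixGroups ModularForm ArithmeticFunction.sigma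

namespace Fermat.Agent.S24.Br46

/-- The analytic `j`-function `E₄³ / Δ`. -/
noncomputable def jA (τ : ℍ) : ℂ := E₄ τ ^ 3 / ModularForm.discriminant τ

/-- complexification of an integral power series -/
noncomputable abbrev toC (a : PowerSeries ℤ) : PowerSeries ℂ := PowerSeries.map (Int.castRingHom ℂ) a

lemma qExpansion_E4 : qExpansion 1 E₄ = toC eisenstein4 := by
  ext m
  rw [E_qExpansion_coeff _ ⟨2, rfl⟩, PowerSeries.coeff_map, eisenstein4, PowerSeries.coeff_mk]
  by_cases hm : m = 0
  · simp [hm]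
  · simp only [hm, if_false]
    rw [show bernoulli 4 = -1 / 30 by decide +kernel, ArithmeticFunction.sigma_apply, eq_intCast]
    push_cast
    ring

lemma pconv_E4 : PConv (toC eisenstein4) (fun τ => E₄ τ) := fun τ => by
  have := ModularForm.hasSum_qExpansion (f := E₄) one_pos one_mem_strictPeriods_SL τ
  rw [qExpansion_E4] at this
  exact this

lemma eulerF_zero : eulerF 0 = 1 := by
  simp [eulerF]

lemma discriminant_eq_qq_mul (τ : ℍ) :
    ModularForm.discriminant τ = qq τ * eulerF (qq τ) ^ 24 := by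
  rw [discriminant_eq_q_prod, eulerF, ← (multipliable_one_sub_pow (norm_qq_lt_one τ)).tprod_pow 24]
  congr 1

lemma eulerF_ne_zero {q : ℂ} (hq : ‖q‖ < 1) : eulerF q ≠ 0 := by
  rcases eq_or_ne q 0 with rfl | hq0
  · rw [eulerF_zero]; exact one_ne_zero
  · obtain ⟨τ, rfl⟩ := exists_qq_eq hq hq0
    intro h
    have := discriminant_ne_zero τ
    rw [discriminant_eq_qq_mul, h] at this
    simp at this

/-- `1 / ∏ (1 - qⁿ)^24` on the unit disc. -/
noncomputable def eulerInv (q : ℂ) : ℂ := (eulerF q ^ 24)⁻¹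

lemma differentiableOn_eulerInv : DifferentiableOn ℂ eulerInv (Metric.ball (0 : ℂ) 1) := by
  refine ((differentiableOn_eulerF.pow 24).inv fun q hq => ?_)
  exact pow_ne_zero _ (eulerF_ne_zero (by simpa using hq))

lemma toC_dedekindEtaUnit_mul_inv :
    toC dedekindEtaUnit * toC dedekindEtaUnitInv = 1 := by
  rw [toC, toC, ← map_mul, dedekindEtaUnit_mul_inv, map_one]

lemma pconv_etaInv : PConv (toC dedekindEtaUnitInv) (fun τ => eulerInv (qq τ)) := by
  have hb := PConv.of_differentiableOn differentiableOn_eulerInv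
  set b : PowerSeries ℂ := PowerSeries.mk fun n => ((n ! : ℕ) : ℂ)⁻¹ * iteratedDeriv n eulerInv 0
    with hbdef
  have hu : PConv (toC dedekindEtaUnit) (fun τ => eulerF (qq τ) ^ 24) := by
    have := pconv_etaProd.pow 24
    rwa [← map_pow] at this
  have hone : toC dedekindEtaUnit * b = 1 := by
    refine (hu.mul hb).unique (PConv.one.congr_fun fun τ => ?_)
    simp only [eulerInv]
    rw [mul_inv_cancel₀ (pow_ne_zero _ (eulerF_ne_zero (norm_qq_lt_one τ)))]
  have hbeq : b = toC dedekindEtaUnitInv := by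
    calc b = b * (toC dedekindEtaUnit * toC dedekindEtaUnitInv) := by
            rw [toC_dedekindEtaUnit_mul_inv, mul_one]
      _ = (toC dedekindEtaUnit * b) * toC dedekindEtaUnitInv := by ring
      _ = toC dedekindEtaUnitInv := by rw [hone, one_mul]
  rw [← hbeq]
  exact hb

/-- The numerator series `q * j` of the Prelude converges to `q * j`. -/
theorem pconv_jNum : PConv (toC jNum) (fun τ => qq τ * jA τ) := by
  have h := (pconv_E4.pow 3).mul pconv_etaInv
  have : toC jNum = toC eisenstein4 ^ 3 * toC dedekindEtaUnitInv := by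
    rw [toC, jNum, map_mul, map_pow]
  rw [this]
  refine h.congr_fun fun τ => ?_
  have h1 := qq_ne_zero τ
  have h2 : eulerF (qq τ) ^ 24 ≠ 0 := pow_ne_zero _ (eulerF_ne_zero (norm_qq_lt_one τ))
  rw [jA, discriminant_eq_qq_mul, eulerInv]
  field_simp

section coeff

variable {R S : Type*} [CommRing R] [CommRing S]

lemma coeffMap_ofPowerSeries (g : R →+* S) (a : PowerSeries R) :
    coeffMap g (HahnSeries.ofPowerSeries ℤ R a) = HahnSeries.ofPowerSeries ℤ S (a.map g) := by
  ext k
  rw [coeffMap_coeff]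
  rcases lt_or_ge k 0 with hk | hk
  · rw [ofPowerSeries_coeff_of_neg _ hk, ofPowerSeries_coeff_of_neg _ hk, map_zero]
  · obtain ⟨n, rfl⟩ := Int.eq_ofNat_of_zero_le hk
    rw [HahnSeries.ofPowerSeries_apply_coeff, HahnSeries.ofPowerSeries_apply_coeff,
      PowerSeries.coeff_map]

lemma qExpand_ofPowerSeries (d : ℕ) [NeZero d] (a : PowerSeries R) :
    qExpand R d (HahnSeries.ofPowerSeries ℤ R a)
      = HahnSeries.ofPowerSeries ℤ R (PowerSeries.expand d (NeZero.ne d) a) := by
  have hd : (0 : ℤ) < d := by exact_mod_cast Nat.pos_of_ne_zero (NeZero.ne d)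
  ext k
  by_cases hdk : (d : ℤ) ∣ k
  · obtain ⟨m, rfl⟩ := hdk
    rw [qExpand_coeff_mul]
    rcases lt_or_ge m 0 with hm | hm
    · rw [ofPowerSeries_coeff_of_neg _ hm, ofPowerSeries_coeff_of_neg _ (by nlinarith)]
    · obtain ⟨n, rfl⟩ := Int.eq_ofNat_of_zero_le hm
      rw [HahnSeries.ofPowerSeries_apply_coeff]
      rw [show (d : ℤ) * (n : ℤ) = ((d * n : ℕ) : ℤ) by push_cast; ring,
        HahnSeries.ofPowerSeries_apply_coeff, PowerSeries.coeff_expand_mul]
  · rw [qExpand_coeff_of_not_dvd d _ hdk]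
    rcases lt_or_ge k 0 with hk | hk
    · rw [ofPowerSeries_coeff_of_neg _ hk]
    · obtain ⟨n, rfl⟩ := Int.eq_ofNat_of_zero_le hk
      rw [HahnSeries.ofPowerSeries_apply_coeff, PowerSeries.coeff_expand_of_not_dvd]
      exact fun h => hdk (Int.natCast_dvd_natCast.mpr h)

end coeff

/-- The complexified formal series `j(q^d)` of the Prelude. -/
noncomputable def jqC (d : ℕ) [NeZero d] : LaurentSeries ℂ :=
  coeffMap (algebraMap ℚ ℂ) (qExpand ℚ d jq)

lemma jqC_eq (d : ℕ) [NeZero d] :
    jqC d = shiftPS d (PowerSeries.expand d (NeZero.ne d) (toC jNum)) := by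
  have h1 : qExpand ℚ d jq = HahnSeries.single (-(d : ℤ)) (1 : ℚ) *
      HahnSeries.ofPowerSeries ℤ ℚ (PowerSeries.expand d (NeZero.ne d) jNumQ) := by
    rw [jq, map_mul, qExpand_single, qExpand_ofPowerSeries, mul_neg_one]
  have h2 : PowerSeries.map (algebraMap ℚ ℂ) jNumQ = toC jNum := by
    rw [jNumQ, toC]
    ext n
    simp
  rw [jqC, h1, map_mul, coeffMap_single, coeffMap_ofPowerSeries, map_one, PowerSeries.map_expand,
    h2, shiftPS]

/-- **Key bridge lemma**: the formal `j(q^d)` converges to the analytic `τ ↦ j(dτ)`. -/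
theorem lconv_jqC (d : ℕ) [NeZero d] : LConv (jqC d) (fun τ => jA (scaleH d τ)) := by
  rw [jqC_eq]
  refine LConv.of_shift d ((pconv_jNum.expand d).congr_fun fun τ => ?_)
  rw [qq_scaleH]

end Fermat.Agent.S24.Br46
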