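import Mathlib
import Fermat.Agent.S24.Mod.Interface
import Fermat.Agent.S24.JAnalytic
import Fermat.Agent.S24.Br46Alg
import Fermat.Agent.S24.Br46J

/-!
# S24 / MOD: the formal ↔ analytic bridge in the shapes of `Mod/Interface.lean` (helper46)

* `rel_C`  : **(AI-rel)** for the concrete analytic family `τ ↦ jFun (d τ)`, `d ∣ N`, polynomials with
  `ℂ`-coefficients, for any ring hom `ι : Kbar →+* ℂ`.
* `rel_K`  : the same for polynomials with `Kbar`-coefficients.
* `modularFunctionFieldBar_eq_adjoin` (in `Br46Alg.lean`) : `F_N = Kbar(xK N d : d ∣ N)`.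
* `exists_algHom_FN` : **(MOD-FN)** a family `y d` in a field `M'/Kbar` with the same `Kbar`-relations
  as the formal `xK N d` gives `ψ : FN N →ₐ[Kbar] M'` with `ψ (xK N d) = y d`, `ψ (jF N) = y 1`.
* `exists_algHom_FN_of_relC` : the same starting from relations with coefficients in a bigger
  field `C` (exactly the field `rel` of `Mod.AnalyticInput`).
-/

set_option autoImplicit false

open UpperHalfPlane ModularCurve Fermat.Agent.S24

namespace Fermat.Agent.S24.Br46

variable (N : ℕ) [NeZero N]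

lemma jA_eq_jFun : jA = JAnalytic.jFun := rfl

lemma coeffMap_injective {R S : Type*} [CommRing R] [CommRing S] (g : R →+* S)
    (hg : Function.Injective g) : Function.Injective (coeffMap g) := by
  intro x y hxy
  ext k
  apply hg
  have := congrArg (fun z => HahnSeries.coeff z k) hxy
  simpa using this

lemma coeffMap_xK (ι : Kbar →+* ℂ) (d : Mod.Dv N) : coeffMap ι (Mod.xK N d) = jqC d.1 := by
  rw [Mod.xK, coeffEmb, coeffMap_coeffMap, jqC]
  exact coeffMap_congr (Subsingleton.elim _ _) _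

lemma sc_eq_scaleH (sc : Mod.Dv N → ℍ → ℍ)
    (hsc : ∀ d τ, ((sc d τ : ℍ) : ℂ) = (d.1 : ℂ) * τ) (d : Mod.Dv N) (τ : ℍ) :
    sc d τ = scaleH d.1 τ :=
  UpperHalfPlane.ext (by rw [hsc, coe_scaleH])

/-- **(AI-rel)**, `ℂ`-coefficients: a polynomial relation holds identically among the analytic
functions `τ ↦ j(dτ)`, `d ∣ N`, iff it holds among the (complexified) formal series `j(q^d)`. -/
theorem rel_C (ι : Kbar →+* ℂ) (sc : Mod.Dv N → ℍ → ℍ)
    (hsc : ∀ d τ, ((sc d τ : ℍ) : ℂ) = (d.1 : ℂ) * τ) (P : MvPolynomial (Mod.Dv N) ℂ) :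
    (∀ τ : ℍ, MvPolynomial.eval (fun d : Mod.Dv N => JAnalytic.jFun (sc d τ)) P = 0) ↔
      MvPolynomial.aeval (fun d : Mod.Dv N => coeffMap ι (Mod.xK N d)) P = 0 := by
  have h := formalEval_eq_zero_iff (RingHom.id ℂ)
    (Afam := fun d : Mod.Dv N => jqC d.1) (ffam := fun (d : Mod.Dv N) τ => jA (scaleH d.1 τ))
    (fun d => lconv_jqC d.1) P
  have h1 : formalEval (RingHom.id ℂ) (fun d : Mod.Dv N => jqC d.1) P
      = MvPolynomial.aeval (fun d : Mod.Dv N => coeffMap ι (Mod.xK N d)) P := by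
    rw [formalEval, MvPolynomial.coe_eval₂Hom, MvPolynomial.aeval_def]
    congr 1
    · ext c : 1
      rw [RingHom.comp_apply, RingHom.id_apply, HahnSeries.C_apply,
        algebraMap_laurentSeries_eq_single]
    · funext d
      exact (coeffMap_xK N ι d).symm
  have h2 : ∀ τ, analyticEval (RingHom.id ℂ) (fun (d : Mod.Dv N) τ => jA (scaleH d.1 τ)) P τ
      = MvPolynomial.eval (fun d : Mod.Dv N => JAnalytic.jFun (sc d τ)) P := by
    intro τ
    rw [analyticEval, MvPolynomial.eval]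
    simp only [MvPolynomial.coe_eval₂Hom]
    congr 1
    funext d
    rw [sc_eq_scaleH N sc hsc, jA_eq_jFun]
  rw [← h1, h]
  exact forall_congr' fun τ => by rw [h2]

/-- **(AI-rel)**, `Kbar`-coefficients. -/
theorem rel_K (ι : Kbar →+* ℂ) (sc : Mod.Dv N → ℍ → ℍ)
    (hsc : ∀ d τ, ((sc d τ : ℍ) : ℂ) = (d.1 : ℂ) * τ) (P : MvPolynomial (Mod.Dv N) Kbar) :
    (∀ τ : ℍ, MvPolynomial.eval₂ ι (fun d : Mod.Dv N => JAnalytic.jFun (sc d τ)) P = 0) ↔
      MvPolynomial.aeval (Mod.xK N) P = 0 := by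
  have h := formalEval_eq_zero_iff ι
    (Afam := fun d : Mod.Dv N => jqC d.1) (ffam := fun (d : Mod.Dv N) τ => jA (scaleH d.1 τ))
    (fun d => lconv_jqC d.1) P
  have hinj := coeffMap_injective ι ι.injective
  have h1 : formalEval ι (fun d : Mod.Dv N => jqC d.1) P
      = coeffMap ι (MvPolynomial.aeval (Mod.xK N) P) := by
    rw [MvPolynomial.aeval_def, MvPolynomial.eval₂_comp_left, formalEval,
      MvPolynomial.coe_eval₂Hom]
    congr 1
    · ext c : 1
      simp only [RingHom.comp_apply]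
      rw [algebraMap_laurentSeries_eq_single, coeffMap_single, HahnSeries.C_apply]
    · funext d
      exact (coeffMap_xK N ι d).symm
  rw [← map_eq_zero_iff _ hinj, ← h1, h]
  refine forall_congr' fun τ => ?_
  rw [analyticEval]
  have : (fun d : Mod.Dv N => jA (scaleH d.1 τ)) = fun d : Mod.Dv N => JAnalytic.jFun (sc d τ) := by
    funext d
    rw [sc_eq_scaleH N sc hsc, jA_eq_jFun]
  rw [this]

lemma xK_one_eq : Mod.xK N ⟨1, one_dvd N⟩ = coeffEmb Kbar jq := by
  rw [Mod.xK]
  show coeffEmb Kbar (qExpand ℚ 1 jq) = _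
  rw [qExpand_one_apply]

/-- **(MOD-FN)**: the Prelude function field `F_N` embeds over `Kbar` into any field containing a
family with the same `Kbar`-polynomial relations as the formal series `j(q^d)`, `d ∣ N`. -/
theorem exists_algHom_FN {M' : Type*} [Field M'] [Algebra Kbar M'] (y : Mod.Dv N → M')
    (hy : ∀ P : MvPolynomial (Mod.Dv N) Kbar,
      MvPolynomial.aeval y P = 0 ↔ MvPolynomial.aeval (Mod.xK N) P = 0) :
    ∃ ψ : FN N →ₐ[Kbar] M',
      (∀ d : Mod.Dv N, ψ ⟨Mod.xK N d, xK_mem N d⟩ = y d) ∧ ψ (jF N) = y ⟨1, one_dvd N⟩ := by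
  obtain ⟨ψ, hψ⟩ := exists_algHom_adjoin_of_ker_eq (K := Kbar) (Mod.xK N) y hy
  refine ⟨ψ.comp (IntermediateField.equivOfEq (modularFunctionFieldBar_eq_adjoin N)).toAlgHom,
    fun d => ?_, ?_⟩
  · rw [← hψ d]
    rfl
  · rw [← hψ ⟨1, one_dvd N⟩]
    show ψ _ = ψ _
    congr 1
    apply Subtype.ext
    show coeffEmb Kbar jq = Mod.xK N ⟨1, one_dvd N⟩
    rw [xK_one_eq]

/-- **(MOD-FN)** from relations with coefficients in a bigger field `C` (the field `rel` of
`Mod.AnalyticInput`). -/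
theorem exists_algHom_FN_of_relC {C M' : Type*} [Field C] [Algebra Kbar C] [Field M']
    [Algebra C M'] [Algebra Kbar M'] [IsScalarTower Kbar C M'] (y : Mod.Dv N → M')
    (hrel : ∀ P : MvPolynomial (Mod.Dv N) C,
      MvPolynomial.aeval y P = 0 ↔ MvPolynomial.aeval (Mod.xC C N) P = 0) :
    ∃ ψ : FN N →ₐ[Kbar] M',
      (∀ d : Mod.Dv N, ψ ⟨Mod.xK N d, xK_mem N d⟩ = y d) ∧ ψ (jF N) = y ⟨1, one_dvd N⟩ := by
  refine exists_algHom_FN N y fun P => ?_
  have hinj := coeffMap_injective (algebraMap Kbar C) (algebraMap Kbar C).injective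
  have h1 : MvPolynomial.aeval y (MvPolynomial.map (algebraMap Kbar C) P) = MvPolynomial.aeval y P :=
    MvPolynomial.aeval_map_algebraMap C y P
  have h2 : MvPolynomial.aeval (Mod.xC C N) (MvPolynomial.map (algebraMap Kbar C) P)
      = coeffMap (algebraMap Kbar C) (MvPolynomial.aeval (Mod.xK N) P) := by
    rw [MvPolynomial.aeval_def, MvPolynomial.eval₂_map, MvPolynomial.aeval_def,
      MvPolynomial.eval₂_comp_left]
    congr 1
    ext c : 1
    simp only [RingHom.comp_apply]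
    rw [algebraMap_laurentSeries_eq_single, algebraMap_laurentSeries_eq_single, coeffMap_single]
  rw [← h1, hrel, h2, map_eq_zero_iff _ hinj]

end Fermat.Agent.S24.Br46
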