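/-
S24 assembly: auxiliary generic lemmas (no dependence on the package statements).
-/
import Fermat.Agent.S24.Defs

set_option autoImplicit false

open AlgebraicCurve

namespace Fermat.Agent.S24

section ValComparison

variable {K L : Type*} [Field K] [Field L] [Algebra K L]

/-- An integer valued "valuation" `ν` with the same valuation ring as the place `w`
is a positive multiple of `w.ord`. -/
theorem exists_pos_mul_ord (w : Place K L) (ν : L → ℤ)
    (hmul : ∀ y z : L, y ≠ 0 → z ≠ 0 → ν (y * z) = ν y + ν z)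
    (hV : ∀ y : L, y ≠ 0 → (y ∈ w.toValuationSubring ↔ 0 ≤ ν y)) :
    ∃ m : ℤ, 0 < m ∧ ∀ y : L, y ≠ 0 → ν y = m * w.ord y := by
  have h1 : ν 1 = 0 := by
    have := hmul 1 1 one_ne_zero one_ne_zero
    rw [mul_one] at this; omega
  have hinv : ∀ y : L, y ≠ 0 → ν y⁻¹ = - ν y := by
    intro y hy
    have := hmul y y⁻¹ hy (inv_ne_zero hy)
    rw [mul_inv_cancel₀ hy, h1] at this; omega
  have hpow : ∀ y : L, y ≠ 0 → ∀ n : ℕ, ν (y ^ n) = n * ν y := by
    intro y hy n
    induction n with
    | zero => simp [h1]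
    | succ n ih =>
      rw [pow_succ, hmul _ _ (pow_ne_zero n hy) hy, ih]; push_cast; ring
  have hzpow : ∀ y : L, y ≠ 0 → ∀ k : ℤ, ν (y ^ k) = k * ν y := by
    intro y hy k
    cases k with
    | ofNat n => simpa using hpow y hy n
    | negSucc n =>
      rw [zpow_negSucc, hinv _ (pow_ne_zero _ hy), hpow y hy]
      push_cast [Int.negSucc_eq]; ring
  obtain ⟨π, hπ⟩ := IsDiscreteValuationRing.exists_irreducible w.toValuationSubring
  have hπ0 : (π : L) ≠ 0 := by
    simpa [ne_eq, ZeroMemClass.coe_eq_zero] using hπ.ne_zero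
  have hunit : ∀ u : w.toValuationSubringˣ, ν ((u : w.toValuationSubring) : L) = 0 := by
    intro u
    have hu0 : ((u : w.toValuationSubring) : L) ≠ 0 := by
      simp [ne_eq, ZeroMemClass.coe_eq_zero]
    have h1 := (hV _ hu0).mp (u : w.toValuationSubring).2
    have h2 : ((u : w.toValuationSubring) : L)⁻¹ ∈ w.toValuationSubring := by
      have : ((u⁻¹ : w.toValuationSubringˣ) : w.toValuationSubring) * (u : w.toValuationSubring) = 1 := by
        simp
      have h3 : (((u⁻¹ : w.toValuationSubringˣ) : w.toValuationSubring) : L) *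
          ((u : w.toValuationSubring) : L) = 1 := by
        exact_mod_cast congrArg Subtype.val this
      rw [← eq_inv_of_mul_eq_one_left h3]
      exact ((u⁻¹ : w.toValuationSubringˣ) : w.toValuationSubring).2
    have h4 := (hV _ (inv_ne_zero hu0)).mp h2
    rw [hinv _ hu0] at h4
    omega
  refine ⟨ν (π : L), ?_, ?_⟩
  · have h0 : 0 ≤ ν (π : L) := (hV _ hπ0).mp π.2
    rcases h0.lt_or_eq with h | h
    · exact h
    · exfalso
      have h2 : 0 ≤ ν ((π : L)⁻¹) := by rw [hinv _ hπ0]; omega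
      have h3 : ((π : L)⁻¹) ∈ w.toValuationSubring := (hV _ (inv_ne_zero hπ0)).mpr h2
      have hu : IsUnit π := by
        refine isUnit_iff_exists_inv.mpr ⟨⟨(π : L)⁻¹, h3⟩, ?_⟩
        ext
        simp [mul_inv_cancel₀ hπ0]
      exact hπ.not_isUnit hu
  · intro y hy
    obtain ⟨u, hu⟩ := w.exists_unit_mul_zpow hy hπ
    have hu0 : ((u : w.toValuationSubring) : L) ≠ 0 := by
      simp [ne_eq, ZeroMemClass.coe_eq_zero]
    conv_lhs => rw [hu]
    rw [hmul _ _ hu0 (zpow_ne_zero _ hπ0), hunit u, hzpow _ hπ0]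
    ring

end ValComparison

section Orbits

/-- transport of orbit counts along an equivariant bijection -/
theorem numOrbits_eq_of_equivariant {Γ G' X Y : Type*} [Group Γ] [Group G'] [MulAction Γ X]
    [MulAction G' Y] (f : Γ →* G') (e : X ≃ Y) (he : ∀ γ x, e (γ • x) = f γ • e x) (γ : Γ) :
    numOrbits X γ = numOrbits Y (f γ) := by
  unfold numOrbits
  refine Nat.card_congr (Quotient.congr e ?_)
  intro a b
  change a ∈ MulAction.orbit (Subgroup.zpowers γ) b ↔ e a ∈ MulAction.orbit (Subgroup.zpowers (f γ)) (e b)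
  constructor
  · rintro ⟨⟨g, hg⟩, rfl⟩
    obtain ⟨k, rfl⟩ := Subgroup.mem_zpowers_iff.mp hg
    refine ⟨⟨(f γ) ^ k, Subgroup.zpow_mem_zpowers _ _⟩, ?_⟩
    change (f γ) ^ k • e b = e (γ ^ k • b)
    rw [he, map_zpow]
  · rintro ⟨⟨g, hg⟩, hgb⟩
    obtain ⟨k, rfl⟩ := Subgroup.mem_zpowers_iff.mp hg
    refine ⟨⟨γ ^ k, Subgroup.zpow_mem_zpowers _ _⟩, ?_⟩
    change γ ^ k • b = a
    apply e.injective
    rw [he, map_zpow]
    exact hgb

theorem exists_equivariant_equiv {Γ G' : Type*} [Group Γ] [Group G'] (f : Γ →* G')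
    (hf : Function.Surjective f) (H : Subgroup G') (Γ₀ : Subgroup Γ)
    (h : ∀ γ, f γ ∈ H ↔ γ ∈ Γ₀) :
    ∃ e : Γ ⧸ Γ₀ ≃ G' ⧸ H, ∀ (γ : Γ) (x : Γ ⧸ Γ₀), e (γ • x) = f γ • e x := by
  have hrel : ∀ a b : Γ, QuotientGroup.leftRel Γ₀ a b ↔ QuotientGroup.leftRel H (f a) (f b) := by
    intro a b
    rw [QuotientGroup.leftRel_apply, QuotientGroup.leftRel_apply, ← h]
    simp
  let e0 : Γ ⧸ Γ₀ → G' ⧸ H := Quotient.map' f (fun a b hab => (hrel a b).mp hab)
  have he0 : ∀ a : Γ, e0 (QuotientGroup.mk a) = QuotientGroup.mk (f a) := fun a => rfl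
  have hinj : Function.Injective e0 := by
    intro x y
    induction x using QuotientGroup.induction_on with | _ a => ?_
    induction y using QuotientGroup.induction_on with | _ b => ?_
    intro hxy
    rw [he0, he0] at hxy
    exact Quotient.sound' ((hrel a b).mpr (Quotient.exact' hxy))
  have hsurj : Function.Surjective e0 := by
    intro y
    induction y using QuotientGroup.induction_on with | _ b => ?_
    obtain ⟨a, rfl⟩ := hf b
    exact ⟨QuotientGroup.mk a, rfl⟩
  refine ⟨Equiv.ofBijective e0 ⟨hinj, hsurj⟩, ?_⟩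
  intro γ x
  induction x using QuotientGroup.induction_on with | _ a => ?_
  change e0 (γ • (QuotientGroup.mk a : Γ ⧸ Γ₀)) = f γ • e0 (QuotientGroup.mk a)
  rw [MulAction.Quotient.smul_mk, he0, he0, MulAction.Quotient.smul_mk, smul_eq_mul, smul_eq_mul,
    map_mul]


/-- orbits of a subgroup of cardinality one -/
theorem card_orbitRel_quotient_of_subsingleton {G X : Type*} [Group G] [MulAction G X]
    (S : Subgroup G) (hS : Nat.card S = 1) :
    Nat.card (MulAction.orbitRel.Quotient S X) = Nat.card X := by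
  have hsub : Subsingleton S := (Nat.card_eq_one_iff_unique.mp hS).1
  symm
  refine Nat.card_congr (Equiv.ofBijective (Quotient.mk'' : X → MulAction.orbitRel.Quotient S X)
    ⟨?_, Quotient.mk''_surjective⟩)
  intro a b hab
  have h := Quotient.exact' hab
  change a ∈ MulAction.orbit S b at h
  obtain ⟨s, rfl⟩ := h
  have : s = 1 := Subsingleton.elim _ _
  subst this
  exact one_smul _ _

/-- orbits on a one-point set -/
theorem card_orbitRel_quotient_of_card_eq_one {G X : Type*} [Group G] [MulAction G X]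
    (hX : Nat.card X = 1) :
    Nat.card (MulAction.orbitRel.Quotient G X) = 1 := by
  obtain ⟨hsub, hne⟩ := Nat.card_eq_one_iff_unique.mp hX
  have : Subsingleton (MulAction.orbitRel.Quotient G X) := Quotient.instSubsingletonQuotient _
  have : Nonempty (MulAction.orbitRel.Quotient G X) := hne.map Quotient.mk''
  exact Nat.card_eq_one_iff_unique.mpr ⟨inferInstance, inferInstance⟩

end Orbits

end Fermat.Agent.S24
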