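import Fermat.Agent.S24.AssemblyRH
import Fermat.Agent.S24.AssemblyAux

set_option autoImplicit false

open AlgebraicCurve KaehlerDifferential IntermediateField
open scoped MatrixGroups Pointwise
open ModularCurve

namespace Fermat.Agent.S24


section Transcendental

theorem jF_transcendental (N : ℕ) [NeZero N] : Transcendental Kbar (jF N) := by
  intro halg
  have hint : IsIntegral Kbar (jF N) := halg.isIntegral
  have hdeg : (minpoly Kbar (jF N)).degree = 1 :=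
    IsAlgClosed.degree_eq_one_of_irreducible Kbar (minpoly.irreducible hint)
  obtain ⟨a, ha⟩ := (minpoly.degree_eq_one_iff).mp hdeg
  have h1 : ((algebraMap Kbar (FN N) a : FN N) : LaurentSeries Kbar) = coeffEmb Kbar jq := by
    rw [ha]; rfl
  have h2 : ((algebraMap Kbar (FN N) a : FN N) : LaurentSeries Kbar) =
      algebraMap Kbar (LaurentSeries Kbar) a := rfl
  rw [h2, algebraMap_laurentSeries_eq_single] at h1
  have h3 := congrArg (fun s => HahnSeries.coeff s (-1 : ℤ)) h1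
  simp only [coeffEmb_coeff, coeff_jq_neg_one, map_one] at h3
  rw [HahnSeries.coeff_single_of_ne (by norm_num)] at h3
  exact zero_ne_one h3

end Transcendental

section PlaceOfVal

variable {K L : Type*} [Field K] [Field L] [Algebra K L] [IsAlgClosed K] [CharZero K]
variable {xL : L} (hL : IsFunctionFieldOver K xL)

/-- the place attached to a non-trivial valuation subring containing the constants -/
noncomputable def placeOfVal (V : ValuationSubring L) (hK : ∀ a : K, algebraMap K L a ∈ V)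
    (hV : V ≠ ⊤) : Place K L :=
  ⟨V, hK, hV, isPrincipalIdealRing_of_valuationSubring hL V hK hV⟩

omit [IsAlgClosed K] [CharZero K] in
theorem smul_place_eq (σ : L ≃ₐ[K] L) (w : Place K L)
    (hσ : ∀ y ∈ w.toValuationSubring, σ y ∈ w.toValuationSubring) : σ • w = w := by
  apply Place.ext
  have hle : (σ • w).toValuationSubring ≤ w.toValuationSubring := by
    intro z hz
    rw [Place.smul_toValuationSubring] at hz
    have hz' : σ⁻¹ • z ∈ w.toValuationSubring :=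
      (ValuationSubring.mem_pointwise_smul_iff_inv_smul_mem (g := σ)
        (S := w.toValuationSubring) (x := z)).mp hz
    have := hσ _ hz'
    simpa [AlgEquiv.smul_def, AlgEquiv.aut_inv] using this
  exact place_eq_of_le (σ • w) w.toValuationSubring w.ne_top' hle

end PlaceOfVal

section Tower

variable {N : ℕ} [NeZero N] (𝕋 : ModularTower N)

/-- the Galois group of the tower -/
noncomputable def ModularTower.G : Subgroup (𝕋.L ≃ₐ[Kbar] 𝕋.L) := 𝕋.ρ.range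

instance : Finite 𝕋.G := 𝕋.finite_range

/-- `j` as an element of the top field -/
noncomputable def ModularTower.xL : 𝕋.L := algebraMap (FN N) 𝕋.L (jF N)

theorem ModularTower.hGx : ∀ g ∈ 𝕋.G, g (algebraMap (FN N) 𝕋.L (jF N)) = algebraMap (FN N) 𝕋.L (jF N) := by
  rintro g ⟨γ, rfl⟩
  exact 𝕋.fixes_j γ

theorem ModularTower.hG : ∀ y : 𝕋.L, (∀ g ∈ 𝕋.G, g y = y) →
    y ∈ Kbar⟮algebraMap (FN N) 𝕋.L (jF N)⟯ := by
  intro y hy
  exact 𝕋.fixed y (fun γ => hy _ ⟨γ, rfl⟩)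

/-- the surjection `SL(2,ℤ) → G` -/
noncomputable def ModularTower.f : SL(2, ℤ) →* 𝕋.G := 𝕋.ρ.rangeRestrict

theorem ModularTower.f_surjective : Function.Surjective 𝕋.f := 𝕋.ρ.rangeRestrict_surjective

theorem ModularTower.coe_f (γ : SL(2, ℤ)) : ((𝕋.f γ : 𝕋.G) : 𝕋.L ≃ₐ[Kbar] 𝕋.L) = 𝕋.ρ γ := rfl

theorem ModularTower.f_mem_fixingSub (γ : SL(2, ℤ)) :
    𝕋.f γ ∈ fixingSub (FN N) 𝕋.G ↔ γ ∈ CongruenceSubgroup.Gamma0 N := by
  rw [← 𝕋.fixes_F_iff]
  rfl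

include 𝕋 in
theorem ModularTower.hF : IsFunctionFieldOver Kbar (jF N) :=
  isFunctionFieldOver_of_fixed (jF_transcendental N) 𝕋.G 𝕋.hGx 𝕋.hG

theorem ModularTower.hL : IsFunctionFieldOver Kbar (algebraMap (FN N) 𝕋.L (jF N)) :=
  isFunctionFieldOver_top 𝕋.hF 𝕋.G 𝕋.hGx 𝕋.hG

/-- the equivariant bijection `SL(2,ℤ)/Γ₀(N) ≃ G/H` -/
theorem ModularTower.exists_equiv :
    ∃ e : X0Cosets N ≃ 𝕋.G ⧸ fixingSub (FN N) 𝕋.G,
      ∀ (γ : SL(2, ℤ)) (x : X0Cosets N), e (γ • x) = 𝕋.f γ • e x :=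
  exists_equivariant_equiv 𝕋.f 𝕋.f_surjective _ _ 𝕋.f_mem_fixingSub

theorem ModularTower.card_quot :
    Nat.card (𝕋.G ⧸ fixingSub (FN N) 𝕋.G) = dedekindPsi N := by
  obtain ⟨e, _⟩ := 𝕋.exists_equiv
  rw [← Nat.card_congr e, card_X0Cosets]

include 𝕋 in
theorem ModularTower.degOver_eq : degOver Kbar (jF N) = dedekindPsi N := by
  rw [degOver_eq_index 𝕋.hF 𝕋.G 𝕋.hGx 𝕋.hG, Subgroup.index, 𝕋.card_quot]

/-- key lemma for the fibres over finite points -/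
theorem ModularTower.ncard_placesOver (c : Kbar) (δ : SL(2, ℤ))
    (w : Place Kbar 𝕋.L) (hw : w ∈ placesOver (algebraMap (FN N) 𝕋.L (jF N)) c)
    (hδw : 𝕋.ρ δ • w = w)
    (hcard : w.ord (algebraMap (FN N) 𝕋.L (jF N) - algebraMap Kbar 𝕋.L c) ≤ orderOf (𝕋.ρ δ) ∨
      dedekindPsi N = 1) :
    (placesOver (jF N) c).ncard = numOrbits (X0Cosets N) δ := by
  obtain ⟨e, he⟩ := 𝕋.exists_equiv
  rw [ncard_placesOver_eq 𝕋.hF 𝕋.G 𝕋.hGx 𝕋.hG c w hw]
  rcases hcard with hcard | hψ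
  · have hmem : 𝕋.f δ ∈ stabSub 𝕋.G w := hδw
    have hle : Subgroup.zpowers (𝕋.f δ) ≤ stabSub 𝕋.G w := (Subgroup.zpowers_le).mpr hmem
    have hstab : Subgroup.zpowers (𝕋.f δ) = stabSub 𝕋.G w := by
      refine Subgroup.eq_of_le_of_card_ge hle ?_
      rw [Nat.card_zpowers]
      have h1 := card_stab_eq_ord 𝕋.hF 𝕋.G 𝕋.hGx 𝕋.hG c w hw
      have h2 : orderOf (𝕋.ρ δ) = orderOf (𝕋.f δ) := Subgroup.orderOf_coe (𝕋.f δ)
      omega
    rw [← hstab]
    exact (numOrbits_eq_of_equivariant 𝕋.f e he δ).symm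
  · have h1 : Nat.card (𝕋.G ⧸ fixingSub (FN N) 𝕋.G) = 1 := by rw [𝕋.card_quot, hψ]
    rw [card_orbitRel_quotient_of_card_eq_one h1]
    have h2 : Nat.card (X0Cosets N) = 1 := by rw [card_X0Cosets, hψ]
    exact (card_orbitRel_quotient_of_card_eq_one h2).symm

/-- key lemma for the fibre over infinity -/
theorem ModularTower.ncard_placesOverInfty (δ : SL(2, ℤ))
    (w : Place Kbar 𝕋.L) (hw : w ∈ placesOverInfty Kbar (algebraMap (FN N) 𝕋.L (jF N)))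
    (hδw : 𝕋.ρ δ • w = w)
    (hcard : - w.ord (algebraMap (FN N) 𝕋.L (jF N)) ≤ orderOf (𝕋.ρ δ)) :
    (placesOverInfty Kbar (jF N)).ncard = numOrbits (X0Cosets N) δ := by
  obtain ⟨e, he⟩ := 𝕋.exists_equiv
  rw [ncard_placesOverInfty_eq 𝕋.hF 𝕋.G 𝕋.hGx 𝕋.hG w hw]
  have hmem : 𝕋.f δ ∈ stabSub 𝕋.G w := hδw
  have hle : Subgroup.zpowers (𝕋.f δ) ≤ stabSub 𝕋.G w := (Subgroup.zpowers_le).mpr hmem
  have hstab : Subgroup.zpowers (𝕋.f δ) = stabSub 𝕋.G w := by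
    refine Subgroup.eq_of_le_of_card_ge hle ?_
    rw [Nat.card_zpowers]
    have h1 := card_stab_eq_ord_infty 𝕋.hF 𝕋.G 𝕋.hGx 𝕋.hG w hw
    have h2 : orderOf (𝕋.ρ δ) = orderOf (𝕋.f δ) := Subgroup.orderOf_coe (𝕋.f δ)
    omega
  rw [← hstab]
  exact (numOrbits_eq_of_equivariant 𝕋.f e he δ).symm

theorem ModularTower.xL_sub_ne_zero (c : Kbar) :
    algebraMap (FN N) 𝕋.L (jF N) - algebraMap Kbar 𝕋.L c ≠ 0 := by
  intro h
  rw [sub_eq_zero, IsScalarTower.algebraMap_apply Kbar (FN N) 𝕋.L] at h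
  have h2 : jF N = algebraMap Kbar (FN N) c := (algebraMap (FN N) 𝕋.L).injective h
  exact jF_transcendental N (h2 ▸ isAlgebraic_algebraMap c)

theorem ModularTower.xL_ne_zero : algebraMap (FN N) 𝕋.L (jF N) ≠ 0 := by
  have := 𝕋.xL_sub_ne_zero 0
  simpa using this

/-- a place over `c` from valuation data -/
theorem ModularTower.exists_place_over (c : Kbar) (V : ValuationSubring 𝕋.L) (ν : 𝕋.L → ℤ)
    (hK : ∀ a : Kbar, algebraMap Kbar 𝕋.L a ∈ V)
    (hmul : ∀ y z : 𝕋.L, y ≠ 0 → z ≠ 0 → ν (y * z) = ν y + ν z)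
    (hV : ∀ y : 𝕋.L, y ≠ 0 → (y ∈ V ↔ 0 ≤ ν y))
    (hpos : 0 < ν (algebraMap (FN N) 𝕋.L (jF N) - algebraMap Kbar 𝕋.L c)) :
    ∃ w : Place Kbar 𝕋.L, w.toValuationSubring = V ∧
      w ∈ placesOver (algebraMap (FN N) 𝕋.L (jF N)) c ∧
      w.ord (algebraMap (FN N) 𝕋.L (jF N) - algebraMap Kbar 𝕋.L c) ≤
        ν (algebraMap (FN N) 𝕋.L (jF N) - algebraMap Kbar 𝕋.L c) := by
  set y := algebraMap (FN N) 𝕋.L (jF N) - algebraMap Kbar 𝕋.L c with hy
  have hy0 : y ≠ 0 := 𝕋.xL_sub_ne_zero c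
  have h1 : ν 1 = 0 := by
    have := hmul 1 1 one_ne_zero one_ne_zero
    rw [mul_one] at this; omega
  have hinv : ν y⁻¹ = - ν y := by
    have := hmul y y⁻¹ hy0 (inv_ne_zero hy0)
    rw [mul_inv_cancel₀ hy0, h1] at this; omega
  have hyV : y ∈ V := (hV y hy0).mpr hpos.le
  have hyinvV : y⁻¹ ∉ V := by
    rw [hV _ (inv_ne_zero hy0), hinv]; omega
  have hVtop : V ≠ ⊤ := by
    rintro rfl
    exact hyinvV (ValuationSubring.mem_top _)
  refine ⟨placeOfVal 𝕋.hL V hK hVtop, rfl, ?_, ?_⟩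
  · exact (ord_pos_iff _ hy0).mpr ⟨hyV, hyinvV⟩
  · obtain ⟨m, hm, hmν⟩ := exists_pos_mul_ord (placeOfVal 𝕋.hL V hK hVtop) ν hmul hV
    have hordpos : 0 < (placeOfVal 𝕋.hL V hK hVtop).ord y :=
      (ord_pos_iff _ hy0).mpr ⟨hyV, hyinvV⟩
    rw [hmν y hy0]
    nlinarith

/-- a place over infinity from valuation data -/
theorem ModularTower.exists_place_over_infty (V : ValuationSubring 𝕋.L) (ν : 𝕋.L → ℤ)
    (hK : ∀ a : Kbar, algebraMap Kbar 𝕋.L a ∈ V)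
    (hmul : ∀ y z : 𝕋.L, y ≠ 0 → z ≠ 0 → ν (y * z) = ν y + ν z)
    (hV : ∀ y : 𝕋.L, y ≠ 0 → (y ∈ V ↔ 0 ≤ ν y))
    (hneg : ν (algebraMap (FN N) 𝕋.L (jF N)) < 0) :
    ∃ w : Place Kbar 𝕋.L, w.toValuationSubring = V ∧
      w ∈ placesOverInfty Kbar (algebraMap (FN N) 𝕋.L (jF N)) ∧
      - w.ord (algebraMap (FN N) 𝕋.L (jF N)) ≤ - ν (algebraMap (FN N) 𝕋.L (jF N)) := by
  set y := algebraMap (FN N) 𝕋.L (jF N) with hy
  have hy0 : y ≠ 0 := 𝕋.xL_ne_zero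
  have hyV : y ∉ V := by
    rw [hV y hy0]; omega
  have hVtop : V ≠ ⊤ := by
    rintro rfl
    exact hyV (ValuationSubring.mem_top _)
  have hord : (placeOfVal 𝕋.hL V hK hVtop).ord y < 0 := by
    by_contra hcon
    exact hyV ((ord_nonneg_iff (placeOfVal 𝕋.hL V hK hVtop) hy0).mp (not_lt.mp hcon))
  refine ⟨placeOfVal 𝕋.hL V hK hVtop, rfl, hord, ?_⟩
  obtain ⟨m, hm, hmν⟩ := exists_pos_mul_ord (placeOfVal 𝕋.hL V hK hVtop) ν hmul hV
  rw [hmν y hy0]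
  nlinarith

end Tower

section SL2

open ModularGroup Matrix.SpecialLinearGroup

theorem S_mul_S_eq_neg_one : (S : SL(2, ℤ)) * S = -1 := by
  apply Subtype.ext
  simp only [coe_mul, coe_S, coe_neg]
  ext i j
  fin_cases i <;> fin_cases j <;> simp [Matrix.mul_apply, Fin.sum_univ_two]

theorem ST_pow_three_eq_neg_one : ((S : SL(2, ℤ)) * T) ^ 3 = -1 := by
  apply Subtype.ext
  simp only [pow_succ, pow_zero, one_mul, coe_mul, coe_S, coe_T, coe_neg]
  ext i j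
  fin_cases i <;> fin_cases j <;> simp [Matrix.mul_apply, Fin.sum_univ_two]

theorem S_one_zero : (S : SL(2, ℤ)) 1 0 = 1 := by simp [coe_S]

theorem ST_one_zero : ((S : SL(2, ℤ)) * T) 1 0 = 1 := by
  simp [coe_S, coe_T, Matrix.mul_apply, Fin.sum_univ_two]

theorem eq_one_of_mem_Gamma0 {N : ℕ} (g : SL(2, ℤ)) (hg : g 1 0 = 1)
    (h : g ∈ CongruenceSubgroup.Gamma0 N) : N = 1 := by
  rw [CongruenceSubgroup.Gamma0_mem, hg] at h
  have : ((1 : ℤ) : ZMod N) = 0 := h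
  rw [ZMod.intCast_zmod_eq_zero_iff_dvd] at this
  exact Nat.eq_one_of_dvd_one (by exact_mod_cast this)

end SL2

section Fibres

open ModularGroup

variable {N : ℕ} [NeZero N] (𝕋 : ModularTower N)

/-- if `ρ δ = 1` for `δ` with lower left entry `1` then `ψ(N) = 1` -/
theorem ModularTower.psi_eq_one_of_rho_eq_one (δ : SL(2, ℤ)) (hδ : δ 1 0 = 1)
    (h : 𝕋.ρ δ = 1) : dedekindPsi N = 1 := by
  have hmem : δ ∈ CongruenceSubgroup.Gamma0 N := by
    rw [← 𝕋.fixes_F_iff]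
    intro f
    rw [h]; rfl
  have hN : N = 1 := eq_one_of_mem_Gamma0 δ hδ hmem
  subst hN
  exact dedekindPsi_one

theorem ellOrder_zero : ellOrder 0 = 3 := by
  simp [ellOrder]

theorem ellOrder_1728 : ellOrder 1728 = 2 := by
  have h : (1728 : Kbar) ≠ 0 := by norm_num
  simp [ellOrder, h]

theorem ellOrder_generic {c : Kbar} (h0 : c ≠ 0) (h1 : c ≠ 1728) : ellOrder c = 1 := by
  simp [ellOrder, h0, h1]

include 𝕋 in
theorem ModularTower.ncard_generic (c : Kbar) (h0 : c ≠ 0) (h1 : c ≠ 1728) :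
    (placesOver (jF N) c).ncard = degOver Kbar (jF N) := by
  obtain ⟨V, ν, hK, hmul, hV, hpos, hle, -, -⟩ := 𝕋.val_fin c
  obtain ⟨w, hwV, hw, hord⟩ := 𝕋.exists_place_over c V ν hK hmul hV hpos
  rw [ellOrder_generic h0 h1] at hle
  have hδw : 𝕋.ρ 1 • w = w := by rw [map_one, one_smul]
  have hcard : w.ord (algebraMap (FN N) 𝕋.L (jF N) - algebraMap Kbar 𝕋.L c) ≤
      orderOf (𝕋.ρ 1) := by
    rw [map_one, orderOf_one]; push_cast; omega
  rw [𝕋.ncard_placesOver c 1 w hw hδw (Or.inl hcard), 𝕋.degOver_eq, ← card_X0Cosets N]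
  unfold numOrbits
  refine card_orbitRel_quotient_of_subsingleton _ ?_
  rw [Nat.card_zpowers, orderOf_one]

include 𝕋 in
theorem ModularTower.ncard_1728 :
    (placesOver (jF N) (1728 : Kbar)).ncard = numOrbits (X0Cosets N) S := by
  obtain ⟨V, ν, hK, hmul, hV, hpos, hle, hS, -⟩ := 𝕋.val_fin 1728
  obtain ⟨w, hwV, hw, hord⟩ := 𝕋.exists_place_over 1728 V ν hK hmul hV hpos
  rw [ellOrder_1728] at hle
  have hδw : 𝕋.ρ S • w = w := smul_place_eq _ w (by rw [hwV]; exact hS rfl)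
  refine 𝕋.ncard_placesOver 1728 S w hw hδw ?_
  by_cases h1 : 𝕋.ρ S = 1
  · exact Or.inr (𝕋.psi_eq_one_of_rho_eq_one S S_one_zero h1)
  · left
    have hsq : 𝕋.ρ S ^ 2 = 1 := by
      rw [← map_pow, pow_two, S_mul_S_eq_neg_one, 𝕋.ρ_neg_one]
    have : orderOf (𝕋.ρ S) = 2 := orderOf_eq_prime hsq h1
    rw [this]
    exact hord.trans hle

include 𝕋 in
theorem ModularTower.ncard_zero :
    (placesOver (jF N) (0 : Kbar)).ncard = numOrbits (X0Cosets N) (S * T) := by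
  obtain ⟨V, ν, hK, hmul, hV, hpos, hle, -, hST⟩ := 𝕋.val_fin 0
  obtain ⟨w, hwV, hw, hord⟩ := 𝕋.exists_place_over 0 V ν hK hmul hV hpos
  rw [ellOrder_zero] at hle
  have hδw : 𝕋.ρ (S * T) • w = w := smul_place_eq _ w (by rw [hwV]; exact hST rfl)
  refine 𝕋.ncard_placesOver 0 (S * T) w hw hδw ?_
  by_cases h1 : 𝕋.ρ (S * T) = 1
  · exact Or.inr (𝕋.psi_eq_one_of_rho_eq_one (S * T) ST_one_zero h1)
  · left
    have hcube : 𝕋.ρ (S * T) ^ 3 = 1 := by
      rw [← map_pow, ST_pow_three_eq_neg_one, 𝕋.ρ_neg_one]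
    have : Fact (Nat.Prime 3) := ⟨by norm_num⟩
    have : orderOf (𝕋.ρ (S * T)) = 3 := orderOf_eq_prime hcube h1
    rw [this]
    exact hord.trans hle

include 𝕋 in
theorem ModularTower.ncard_infty :
    (placesOverInfty Kbar (jF N)).ncard = numOrbits (X0Cosets N) T := by
  obtain ⟨V, ν, hK, hmul, hV, hneg, hge, hT⟩ := 𝕋.val_inf
  obtain ⟨w, hwV, hw, hord⟩ := 𝕋.exists_place_over_infty V ν hK hmul hV hneg
  have hδw : 𝕋.ρ T • w = w := smul_place_eq _ w (by rw [hwV]; exact hT)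
  refine 𝕋.ncard_placesOverInfty T w hw hδw ?_
  have hpos : 0 < orderOf (𝕋.f T) := orderOf_pos _
  have h2 : orderOf (𝕋.ρ T) = orderOf (𝕋.f T) := Subgroup.orderOf_coe (𝕋.f T)
  have h3 : 𝕋.ρ (T ^ ((orderOf (𝕋.ρ T) : ℕ) : ℤ)) = 1 := by
    rw [zpow_natCast, map_pow, pow_orderOf_eq_one]
  have h4 : (N : ℤ) ∣ (orderOf (𝕋.ρ T) : ℤ) := 𝕋.T_zpow _ h3
  have h5 : N ≤ orderOf (𝕋.ρ T) := by
    apply Nat.le_of_dvd (by omega)
    exact_mod_cast h4
  have h6 : (N : ℤ) ≤ (orderOf (𝕋.ρ T) : ℤ) := by exact_mod_cast h5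
  omega

end Fibres

section Final

open ModularGroup

variable {N : ℕ} [NeZero N] (𝕋 : ModularTower N)

include 𝕋 in
theorem ModularTower.degree_canonicalDivisor [HasCanonicalDivisor (K := Kbar) (F := FN N)]
    {ω : Ω[FN N⁄Kbar]} (hω : ω ≠ 0) :
    Divisor.degree (canonicalDivisorOf hω) =
      (dedekindPsi N : ℤ) - numOrbits (X0Cosets N) (S * T) - numOrbits (X0Cosets N) S
        - numOrbits (X0Cosets N) T := by
  classical
  have h01 : (0 : Kbar) ≠ 1728 := by norm_num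
  have hS : ∀ c ∉ ({0, 1728} : Finset Kbar),
      (placesOver (jF N) c).ncard = degOver Kbar (jF N) := by
    intro c hc
    simp only [Finset.mem_insert, Finset.mem_singleton, not_or] at hc
    exact 𝕋.ncard_generic c hc.1 hc.2
  rw [degree_canonical 𝕋.hF ω hω (canonicalDivisorOf hω) (canonicalDivisorOf_apply hω)
    {0, 1728} hS, Finset.sum_pair h01, 𝕋.ncard_zero, 𝕋.ncard_1728, 𝕋.ncard_infty, 𝕋.degOver_eq]
  ring

include 𝕋 in
theorem ModularTower.genus_eq [HasCanonicalDivisor (K := Kbar) (F := FN N)] :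
    (genus Kbar (FN N) : ℚ) = genusFormula N := by
  classical
  have hex : ∃ ω : Ω[FN N⁄Kbar], ω ≠ 0 := ⟨D Kbar (FN N) (jF N), D_ne_zero 𝕋.hF⟩
  have hdeg := 𝕋.degree_canonicalDivisor hex.choose_spec
  -- finiteness of the coset space
  obtain ⟨e, -⟩ := 𝕋.exists_equiv
  have : Finite (X0Cosets N) := Finite.of_equiv _ e.symm
  -- Scott / Ree
  have habc : (S * T) * T⁻¹ * S⁻¹ = (1 : SL(2, ℤ)) := by group
  have hgen : Subgroup.closure ({S * T, T⁻¹, S⁻¹} : Set SL(2, ℤ)) = ⊤ := by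
    rw [eq_top_iff, ← SpecialLinearGroup.SL2Z_generators, Subgroup.closure_le]
    rintro g (rfl | rfl)
    · have : (S⁻¹ : SL(2, ℤ)) ∈ Subgroup.closure ({S * T, T⁻¹, S⁻¹} : Set SL(2, ℤ)) :=
        Subgroup.subset_closure (by simp)
      simpa using Subgroup.inv_mem _ this
    · have : (T⁻¹ : SL(2, ℤ)) ∈ Subgroup.closure ({S * T, T⁻¹, S⁻¹} : Set SL(2, ℤ)) :=
        Subgroup.subset_closure (by simp)
      simpa using Subgroup.inv_mem _ this
  obtain ⟨hineq, heven⟩ := scott_ree (X := X0Cosets N) (S * T) T⁻¹ S⁻¹ habc hgen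
  rw [numOrbits_inv, numOrbits_inv, card_X0Cosets] at hineq heven
  -- counting
  have hc2 := two_mul_numOrbits_S N
  have hc3 := three_mul_numOrbits_ST N
  have hcT := numOrbits_T N
  obtain ⟨k, hk⟩ := heven
  set ψ : ℤ := (dedekindPsi N : ℤ) with hψ
  set r0 : ℤ := (numOrbits (X0Cosets N) (S * T) : ℤ) with hr0
  set r1 : ℤ := (numOrbits (X0Cosets N) S : ℤ) with hr1
  set r2 : ℤ := (numOrbits (X0Cosets N) T : ℤ) with hr2
  have hk0 : 0 ≤ k - ψ + 1 := by omega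
  have hdeg2 : Divisor.degree (canonicalDivisorOf hex.choose_spec) + 2 = 2 * (k - ψ + 1) := by
    rw [hdeg]; omega
  have hgenus : genus Kbar (FN N) = (k - ψ + 1).toNat := by
    unfold genus
    rw [dif_pos hex, hdeg2]
    have : (2 * (k - ψ + 1)).toNat = 2 * (k - ψ + 1).toNat := by omega
    rw [this]; omega
  have hgQ : (genus Kbar (FN N) : ℚ) = ((k - ψ + 1 : ℤ) : ℚ) := by
    rw [hgenus]
    have : (((k - ψ + 1).toNat : ℤ)) = k - ψ + 1 := Int.toNat_of_nonneg hk0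
    exact_mod_cast this
  rw [hgQ]
  unfold genusFormula
  have e2 : (2 : ℚ) * (r1 : ℚ) = (ψ : ℚ) + (nuTwo N : ℚ) := by
    rw [hr1, hψ]; exact_mod_cast hc2
  have e3 : (3 : ℚ) * (r0 : ℚ) = (ψ : ℚ) + 2 * (nuThree N : ℚ) := by
    rw [hr0, hψ]; exact_mod_cast hc3
  have eT : (r2 : ℚ) = (cuspCount N : ℚ) := by
    rw [hr2]; exact_mod_cast hcT
  have ek : (ψ : ℚ) - r0 + ((ψ : ℚ) - r2) + ((ψ : ℚ) - r1) = (k : ℚ) + k := by
    exact_mod_cast hk
  have hψQ : ((dedekindPsi N : ℕ) : ℚ) = (ψ : ℚ) := by rw [hψ]; norm_cast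
  rw [hψQ, ← eT]
  push_cast
  linarith

end Final

end Fermat.Agent.S24
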