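/-
S24: unconditional corollaries for downstream users (S20/S21).  NEW file, not in the closure of
`Fermat/Agent/S24.lean`.
-/
import Fermat.Agent.S24.Assembly2

set_option autoImplicit false

open AlgebraicCurve KaehlerDifferential IntermediateField
open scoped MatrixGroups
open ModularCurve

namespace Fermat.Agent.S24.Exports

variable (N : ℕ) [NeZero N]

/-- `F_N` is a function field in one variable over `ℚ̄` with separating variable `j`. -/
theorem isFunctionFieldOver_jF : IsFunctionFieldOver Kbar (jF N) := by
  obtain ⟨𝕋⟩ := exists_modularTower N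
  exact 𝕋.hF

/-- `[F_N : ℚ̄(j)] = ψ(N)`. -/
theorem degOver_jF : degOver Kbar (jF N) = dedekindPsi N := by
  obtain ⟨𝕋⟩ := exists_modularTower N
  exact 𝕋.degOver_eq

theorem transcendental_jF : Transcendental Kbar (jF N) := jF_transcendental N

/-- number of places over `j = 0` -/
theorem ncard_placesOver_zero :
    (placesOver (jF N) (0 : Kbar)).ncard =
      numOrbits (X0Cosets N) (ModularGroup.S * ModularGroup.T) := by
  obtain ⟨𝕋⟩ := exists_modularTower N
  exact 𝕋.ncard_zero

/-- number of places over `j = 1728` -/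
theorem ncard_placesOver_1728 :
    (placesOver (jF N) (1728 : Kbar)).ncard = numOrbits (X0Cosets N) ModularGroup.S := by
  obtain ⟨𝕋⟩ := exists_modularTower N
  exact 𝕋.ncard_1728

/-- number of places over `j = ∞` (the cusps) -/
theorem ncard_placesOverInfty : (placesOverInfty Kbar (jF N)).ncard = cuspCount N := by
  obtain ⟨𝕋⟩ := exists_modularTower N
  rw [𝕋.ncard_infty, numOrbits_T]

/-- `F_N / ℚ̄(j)` is unramified outside `0, 1728, ∞` -/
theorem ncard_placesOver_generic (c : Kbar) (h0 : c ≠ 0) (h1 : c ≠ 1728) :
    (placesOver (jF N) c).ncard = dedekindPsi N := by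
  obtain ⟨𝕋⟩ := exists_modularTower N
  rw [𝕋.ncard_generic c h0 h1, 𝕋.degOver_eq]

/-- the degree of every canonical divisor of `F_N` -/
theorem degree_canonicalDivisor [HasCanonicalDivisor (K := Kbar) (F := FN N)]
    {ω : Ω[FN N⁄Kbar]} (hω : ω ≠ 0) :
    Divisor.degree (canonicalDivisorOf hω) =
      (dedekindPsi N : ℤ) - numOrbits (X0Cosets N) (ModularGroup.S * ModularGroup.T)
        - numOrbits (X0Cosets N) ModularGroup.S - numOrbits (X0Cosets N) ModularGroup.T := by
  obtain ⟨𝕋⟩ := exists_modularTower N
  exact 𝕋.degree_canonicalDivisor hω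

/-- S24 again, in the local notation -/
theorem genus_eq [HasCanonicalDivisor (K := Kbar) (F := FN N)] :
    (genus Kbar (FN N) : ℚ) = genusFormula N := by
  obtain ⟨𝕋⟩ := exists_modularTower N
  exact 𝕋.genus_eq

end Fermat.Agent.S24.Exports
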