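/-
S24 package (D), part 1: the coset space `SL(2,ℤ) ⧸ Γ₀(N)` via first columns mod `N`.
-/
import Mathlib
import Fermat.Prelude.Def_ModularCurve_GenusNumerics

set_option autoImplicit false

namespace Fermat.Agent.S24.CosetCount

open Matrix Matrix.SpecialLinearGroup CongruenceSubgroup ModularGroup
open scoped MatrixGroups

theorem mul_apply_zero_zero (g h : SL(2, ℤ)) :
    (g * h) 0 0 = g 0 0 * h 0 0 + g 0 1 * h 1 0 := by
  simp only [coe_mul, Matrix.mul_apply, Fin.sum_univ_two]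

theorem mul_apply_one_zero (g h : SL(2, ℤ)) :
    (g * h) 1 0 = g 1 0 * h 0 0 + g 1 1 * h 1 0 := by
  simp only [coe_mul, Matrix.mul_apply, Fin.sum_univ_two]

theorem inv_apply_one_zero (g : SL(2, ℤ)) : (g⁻¹) 1 0 = - g 1 0 := by
  simp [coe_inv, Matrix.adjugate_fin_two]

theorem inv_apply_one_one (g : SL(2, ℤ)) : (g⁻¹) 1 1 = g 0 0 := by
  simp [coe_inv, Matrix.adjugate_fin_two]

variable (N : ℕ)

/-- The coset space `SL(2,ℤ) ⧸ Γ₀(N)` (left cosets, with the left-multiplication action). -/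
abbrev Q : Type := SL(2, ℤ) ⧸ Gamma0 N

/-- upper-left entry mod `N` -/
def colA (g : SL(2, ℤ)) : ZMod N := ((g 0 0 : ℤ) : ZMod N)

/-- lower-left entry mod `N` -/
def colC (g : SL(2, ℤ)) : ZMod N := ((g 1 0 : ℤ) : ZMod N)

/-- **Coset criterion**: `g₁ Γ₀(N) = g₂ Γ₀(N)` iff the first columns are proportional mod `N`. -/
theorem mk_eq_mk_iff (g₁ g₂ : SL(2, ℤ)) :
    (QuotientGroup.mk g₁ : Q N) = QuotientGroup.mk g₂ ↔
      colA N g₁ * colC N g₂ = colC N g₁ * colA N g₂ := by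
  rw [QuotientGroup.eq, Gamma0_mem, mul_apply_one_zero, inv_apply_one_zero, inv_apply_one_one]
  unfold colA colC
  push_cast
  constructor
  · intro h
    linear_combination h
  · intro h
    linear_combination h

/-- Primitivity of the first column. -/
theorem exists_bezout (g : SL(2, ℤ)) :
    ∃ x y : ZMod N, x * colA N g + y * colC N g = 1 := by
  refine ⟨((g 1 1 : ℤ) : ZMod N), -((g 0 1 : ℤ) : ZMod N), ?_⟩
  have h := g.det_coe
  rw [Matrix.det_fin_two] at h
  unfold colA colC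
  have h2 : ((g 0 0 * g 1 1 - g 0 1 * g 1 0 : ℤ) : ZMod N) = ((1 : ℤ) : ZMod N) := by
    rw [h]
  push_cast at h2
  linear_combination h2

theorem colA_mul (γ g : SL(2, ℤ)) :
    colA N (γ * g) = ((γ 0 0 : ℤ) : ZMod N) * colA N g + ((γ 0 1 : ℤ) : ZMod N) * colC N g := by
  unfold colA colC
  rw [mul_apply_zero_zero]
  push_cast
  rfl

theorem colC_mul (γ g : SL(2, ℤ)) :
    colC N (γ * g) = ((γ 1 0 : ℤ) : ZMod N) * colA N g + ((γ 1 1 : ℤ) : ZMod N) * colC N g := by
  unfold colA colC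
  rw [mul_apply_one_zero]
  push_cast
  rfl

theorem colA_S_mul (g : SL(2, ℤ)) : colA N (S * g) = - colC N g := by
  rw [colA_mul, show S 0 0 = 0 by decide, show S 0 1 = -1 by decide]
  simp

theorem colC_S_mul (g : SL(2, ℤ)) : colC N (S * g) = colA N g := by
  rw [colC_mul, show S 1 0 = 1 by decide, show S 1 1 = 0 by decide]
  simp

theorem colA_T_zpow_mul (k : ℤ) (g : SL(2, ℤ)) :
    colA N (T ^ k * g) = colA N g + (k : ZMod N) * colC N g := by
  rw [colA_mul, show (T ^ k) 0 0 = 1 by simp [coe_T_zpow],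
    show (T ^ k) 0 1 = k by simp [coe_T_zpow]]
  simp

theorem colC_T_zpow_mul (k : ℤ) (g : SL(2, ℤ)) : colC N (T ^ k * g) = colC N g := by
  rw [colC_mul, show (T ^ k) 1 0 = 0 by simp [coe_T_zpow],
    show (T ^ k) 1 1 = 1 by simp [coe_T_zpow]]
  simp

theorem colA_ST_mul (g : SL(2, ℤ)) : colA N (S * T * g) = - colC N g := by
  rw [colA_mul, show (S * T) 0 0 = 0 by decide, show (S * T) 0 1 = -1 by decide]
  simp

theorem colC_ST_mul (g : SL(2, ℤ)) : colC N (S * T * g) = colA N g + colC N g := by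
  rw [colC_mul, show (S * T) 1 0 = 1 by decide, show (S * T) 1 1 = 1 by decide]
  simp

/-- A matrix with prescribed coprime first column. -/
theorem exists_col (a c : ℤ) (h : IsCoprime a c) :
    ∃ g : SL(2, ℤ), colA N g = (a : ZMod N) ∧ colC N g = (c : ZMod N) := by
  obtain ⟨g, h0, h1⟩ := h.exists_SL2_col 0
  exact ⟨g, by unfold colA; rw [h0], by unfold colC; rw [h1]⟩

theorem smul_mk (γ g : SL(2, ℤ)) : γ • (QuotientGroup.mk g : Q N) = QuotientGroup.mk (γ * g) :=
  rfl

end Fermat.Agent.S24.CosetCount
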