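/-
S24 package (D), part 3: orbits of `T` on `SL(2,ℤ) ⧸ Γ₀(N)` (the cusp count).
-/
import Fermat.Agent.S24.CosetBasic

set_option autoImplicit false

namespace Fermat.Agent.S24.CosetCount

open Matrix Matrix.SpecialLinearGroup CongruenceSubgroup ModularGroup
open scoped MatrixGroups

variable (N : ℕ)

/-- Integer form of the coset criterion. -/
theorem mk_eq_mk_iff_dvd (g₁ g₂ : SL(2, ℤ)) :
    (QuotientGroup.mk g₁ : Q N) = QuotientGroup.mk g₂ ↔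
      (N : ℤ) ∣ g₁ 0 0 * g₂ 1 0 - g₁ 1 0 * g₂ 0 0 := by
  rw [mk_eq_mk_iff, ← ZMod.intCast_zmod_eq_zero_iff_dvd]
  unfold colA colC
  push_cast
  exact sub_eq_zero.symm

theorem isCoprime_col (g : SL(2, ℤ)) : IsCoprime (g 0 0) (g 1 0) := by
  refine ⟨g 1 1, -g 0 1, ?_⟩
  have h := g.det_coe
  rw [Matrix.det_fin_two] at h
  linarith

/-- Every coset has a representative with first column `(a, d)`, `d ∣ N`, up to the criterion. -/
theorem exists_normal_form [NeZero N] (g : SL(2, ℤ)) :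
    ∃ d : ℕ, d ∣ N ∧ ∃ a : ℤ, IsCoprime a (d : ℤ) ∧ (N : ℤ) ∣ g 0 0 * d - g 1 0 * a := by
  obtain ⟨d, hdN, u, hu, hC⟩ := ZMod.eq_unit_mul_divisor (colC N g)
  obtain ⟨u, rfl⟩ := hu
  set a₀ : ZMod N := ((u⁻¹ : (ZMod N)ˣ) : ZMod N) * colA N g with ha₀
  have hA : colA N g = (u : ZMod N) * a₀ := by
    rw [ha₀, ← mul_assoc, Units.mul_inv, one_mul]
  refine ⟨d, hdN, (ZMod.cast a₀ : ℤ), ?_, ?_⟩
  · -- coprimality
    rw [Int.isCoprime_iff_gcd_eq_one]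
    by_contra hne
    obtain ⟨p, hp, hpa, hpd⟩ := Nat.Prime.not_coprime_iff_dvd.mp hne
    rw [Int.natAbs_natCast] at hpd
    have hpN : p ∣ N := hpd.trans hdN
    have ha0 : ((ZMod.cast a₀ : ℤ) : ZMod p) = 0 := by
      rw [ZMod.intCast_zmod_eq_zero_iff_dvd]
      exact Int.natCast_dvd.mpr hpa
    have hd0 : ((d : ℕ) : ZMod p) = 0 := (ZMod.natCast_eq_zero_iff _ _).mpr hpd
    have e1 : ZMod.castHom hpN (ZMod p) a₀ = 0 := by
      rw [← ZMod.intCast_zmod_cast a₀, map_intCast]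
      exact ha0
    have hA0 : ((g 0 0 : ℤ) : ZMod p) = 0 := by
      have := congrArg (ZMod.castHom hpN (ZMod p)) hA
      rw [map_mul, e1, mul_zero] at this
      unfold colA at this
      rwa [map_intCast] at this
    have hC0 : ((g 1 0 : ℤ) : ZMod p) = 0 := by
      have := congrArg (ZMod.castHom hpN (ZMod p)) hC
      rw [map_mul, map_natCast, hd0, mul_zero] at this
      unfold colC at this
      rwa [map_intCast] at this
    rw [ZMod.intCast_zmod_eq_zero_iff_dvd] at hA0 hC0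
    have h1 : (p : ℤ) ∣ 1 := by
      obtain ⟨x, y, hxy⟩ := isCoprime_col g
      rw [← hxy]
      exact dvd_add (dvd_mul_of_dvd_right hA0 _) (dvd_mul_of_dvd_right hC0 _)
    have := Int.natCast_dvd_natCast.mp (by simpa using h1 : ((p : ℕ) : ℤ) ∣ ((1 : ℕ) : ℤ))
    exact hp.one_lt.ne' (Nat.dvd_one.mp this)
  · rw [← ZMod.intCast_zmod_eq_zero_iff_dvd]
    push_cast
    have h1 : ((g 0 0 : ℤ) : ZMod N) = (u : ZMod N) * a₀ := hA
    have h2 : ((g 1 0 : ℤ) : ZMod N) = (u : ZMod N) * (d : ZMod N) := hC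
    rw [h1, h2]
    ring

/-- Uniqueness of the normal form: the divisor `d` and `a mod N/d` are determined. -/
theorem normal_form_unique {d d' : ℕ} (hd : d ∣ N) (hd' : d' ∣ N) {a a' : ℤ}
    (ha : IsCoprime a (d : ℤ)) (ha' : IsCoprime a' (d' : ℤ))
    (h : (N : ℤ) ∣ a * d' - d * a') : d = d' := by
  have h1 : (d : ℤ) ∣ a * d' := by
    have : (d : ℤ) ∣ a * d' - d * a' := (Int.natCast_dvd_natCast.mpr hd).trans h
    have h2 : (d : ℤ) ∣ d * a' := dvd_mul_right _ _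
    have := dvd_add this h2
    simpa using this
  have h2 : (d' : ℤ) ∣ d * a' := by
    have : (d' : ℤ) ∣ a * d' - d * a' := (Int.natCast_dvd_natCast.mpr hd').trans h
    have h2 : (d' : ℤ) ∣ a * d' := dvd_mul_left _ _
    have := dvd_sub h2 this
    simpa using this
  have h3 : (d : ℤ) ∣ d' := ha.symm.dvd_of_dvd_mul_left h1
  have h4 : (d' : ℤ) ∣ d := ha'.symm.dvd_of_dvd_mul_right h2
  exact Nat.dvd_antisymm (Int.natCast_dvd_natCast.mp h3) (Int.natCast_dvd_natCast.mp h4)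

theorem normal_form_dvd_iff [NeZero N] {d : ℕ} (hd : d ∣ N) (a a' : ℤ) :
    (N : ℤ) ∣ a * d - d * a' ↔ ((N / d : ℕ) : ℤ) ∣ a - a' := by
  obtain ⟨m, rfl⟩ := hd
  have hd0 : d ≠ 0 := fun h => NeZero.ne (d * m) (by rw [h, zero_mul])
  rw [Nat.mul_div_cancel_left m (Nat.pos_of_ne_zero hd0)]
  have : a * d - d * a' = (d : ℤ) * (a - a') := by ring
  rw [this]
  push_cast
  exact mul_dvd_mul_iff_left (by exact_mod_cast hd0)

/-- Every coset has a representative with lower-left entry exactly a divisor `d` of `N`. -/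
theorem exists_rep_divisor [NeZero N] (g : SL(2, ℤ)) :
    ∃ d : ℕ, d ∣ N ∧ ∃ g₀ : SL(2, ℤ), g₀ 1 0 = (d : ℤ) ∧
      (QuotientGroup.mk g₀ : Q N) = QuotientGroup.mk g := by
  obtain ⟨d, hd, a, hcop, hdvd⟩ := exists_normal_form N g
  obtain ⟨g₀, h0, h1⟩ := hcop.exists_SL2_col 0
  refine ⟨d, hd, g₀, h1, ?_⟩
  rw [eq_comm, mk_eq_mk_iff_dvd, h0, h1]
  exact hdvd

/-- The space of `T`-orbits on `SL(2,ℤ) ⧸ Γ₀(N)`. -/
abbrev Orb : Type := MulAction.orbitRel.Quotient (Subgroup.zpowers T) (Q N)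

theorem T_zpow_mul_apply_zero_zero (k : ℤ) (g : SL(2, ℤ)) :
    (T ^ k * g) 0 0 = g 0 0 + k * g 1 0 := by
  rw [mul_apply_zero_zero, show (T ^ k) 0 0 = 1 by simp [coe_T_zpow],
    show (T ^ k) 0 1 = k by simp [coe_T_zpow]]
  ring

theorem T_zpow_mul_apply_one_zero (k : ℤ) (g : SL(2, ℤ)) :
    (T ^ k * g) 1 0 = g 1 0 := by
  rw [mul_apply_one_zero, show (T ^ k) 1 0 = 0 by simp [coe_T_zpow],
    show (T ^ k) 1 1 = 1 by simp [coe_T_zpow]]
  ring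

/-- Criterion for two cosets to lie in the same `T`-orbit. -/
theorem orb_mk_eq_iff (g₁ g₂ : SL(2, ℤ)) :
    (Quotient.mk'' (QuotientGroup.mk g₁ : Q N) : Orb N) = Quotient.mk'' (QuotientGroup.mk g₂) ↔
      ∃ k : ℤ, (N : ℤ) ∣ (g₂ 0 0 + k * g₂ 1 0) * g₁ 1 0 - g₂ 1 0 * g₁ 0 0 := by
  rw [Quotient.eq'']
  show (QuotientGroup.mk g₁ : Q N) ∈ MulAction.orbit (Subgroup.zpowers T) _ ↔ _
  rw [MulAction.mem_orbit_iff]
  constructor
  · rintro ⟨⟨t, k, rfl⟩, ht⟩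
    refine ⟨k, ?_⟩
    have ht' : (QuotientGroup.mk (T ^ k * g₂) : Q N) = QuotientGroup.mk g₁ := ht
    rw [mk_eq_mk_iff_dvd, T_zpow_mul_apply_zero_zero, T_zpow_mul_apply_one_zero] at ht'
    exact ht'
  · rintro ⟨k, hk⟩
    refine ⟨⟨T ^ k, k, rfl⟩, ?_⟩
    show (QuotientGroup.mk (T ^ k * g₂) : Q N) = QuotientGroup.mk g₁
    rw [mk_eq_mk_iff_dvd, T_zpow_mul_apply_zero_zero, T_zpow_mul_apply_one_zero]
    exact hk

/-- The index set for the cusps: pairs `(d, β)`, `d ∣ N`, `β ∈ (ℤ/gcd(d, N/d))ˣ`. -/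
abbrev CuspIdx : Type := Σ d : N.divisors, (ZMod (Nat.gcd d (N / d)))ˣ

theorem isUnit_intCast_of_isCoprime {a : ℤ} {n : ℕ} (h : IsCoprime a (n : ℤ)) :
    IsUnit ((a : ℤ) : ZMod n) := by
  obtain ⟨x, y, hxy⟩ := h
  have := congrArg (Int.cast : ℤ → ZMod n) hxy
  push_cast at this
  rw [ZMod.natCast_self, mul_zero, add_zero] at this
  exact IsUnit.of_mul_eq_one _ (by rw [mul_comm]; exact this)

theorem exists_cusp_rep [NeZero N] (x : CuspIdx N) :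
    ∃ g : SL(2, ℤ), g 1 0 = ((x.1 : ℕ) : ℤ) ∧
      ((g 0 0 : ℤ) : ZMod (Nat.gcd x.1 (N / x.1))) = (x.2 : ZMod (Nat.gcd x.1 (N / x.1))) := by
  obtain ⟨⟨d, hd⟩, β⟩ := x
  have hdN : d ∣ N := Nat.dvd_of_mem_divisors hd
  have hd0 : d ≠ 0 := fun h => NeZero.ne N (by rw [h] at hdN; exact Nat.eq_zero_of_zero_dvd hdN)
  have : NeZero d := ⟨hd0⟩
  obtain ⟨β', hβ'⟩ := ZMod.unitsMap_surjective (Nat.gcd_dvd_left d (N / d)) β
  have hcop : IsCoprime (((β' : ZMod d).val : ℕ) : ℤ) (d : ℤ) :=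
    Nat.isCoprime_iff_coprime.mpr (ZMod.val_coe_unit_coprime β')
  obtain ⟨g, h0, h1⟩ := hcop.exists_SL2_col 0
  refine ⟨g, h1, ?_⟩
  show ((g 0 0 : ℤ) : ZMod (Nat.gcd d (N / d))) = (β : ZMod (Nat.gcd d (N / d)))
  rw [h0, Int.cast_natCast, ZMod.natCast_val, ← hβ', ZMod.unitsMap_val]

/-- chosen representative matrix of the cusp `(d, β)` -/
noncomputable def cuspRep [NeZero N] (x : CuspIdx N) : SL(2, ℤ) :=
  Classical.choose (exists_cusp_rep N x)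

theorem cuspRep_one_zero [NeZero N] (x : CuspIdx N) : cuspRep N x 1 0 = ((x.1 : ℕ) : ℤ) :=
  (Classical.choose_spec (exists_cusp_rep N x)).1

theorem cuspRep_zero_zero [NeZero N] (x : CuspIdx N) :
    ((cuspRep N x 0 0 : ℤ) : ZMod (Nat.gcd x.1 (N / x.1))) =
      (x.2 : ZMod (Nat.gcd x.1 (N / x.1))) :=
  (Classical.choose_spec (exists_cusp_rep N x)).2

/-- the cusp (i.e. `T`-orbit) attached to `(d, β)` -/
noncomputable def cuspOf [NeZero N] (x : CuspIdx N) : Orb N :=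
  Quotient.mk'' (QuotientGroup.mk (cuspRep N x))

theorem cuspOf_injective [NeZero N] : Function.Injective (cuspOf N) := by
  rintro ⟨⟨d, hd⟩, β⟩ ⟨⟨d', hd'⟩, β'⟩ h
  have hdN : d ∣ N := Nat.dvd_of_mem_divisors hd
  have hdN' : d' ∣ N := Nat.dvd_of_mem_divisors hd'
  unfold cuspOf at h
  rw [orb_mk_eq_iff] at h
  obtain ⟨k, hk⟩ := h
  have e1 := cuspRep_one_zero N ⟨⟨d, hd⟩, β⟩
  have e2 := cuspRep_one_zero N ⟨⟨d', hd'⟩, β'⟩
  have f1 := cuspRep_zero_zero N ⟨⟨d, hd⟩, β⟩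
  have f2 := cuspRep_zero_zero N ⟨⟨d', hd'⟩, β'⟩
  have c1 := isCoprime_col (cuspRep N ⟨⟨d, hd⟩, β⟩)
  have c2 := isCoprime_col (cuspRep N ⟨⟨d', hd'⟩, β'⟩)
  set a := cuspRep N ⟨⟨d, hd⟩, β⟩ 0 0
  set a' := cuspRep N ⟨⟨d', hd'⟩, β'⟩ 0 0
  simp only at e1 e2 f1 f2
  rw [e1] at c1 hk
  rw [e2] at c2 hk
  have c2' : IsCoprime (a' + k * (d' : ℤ)) (d' : ℤ) := c2.add_mul_right_left k
  obtain rfl : d = d' := (normal_form_unique N hdN' hdN c2' c1 hk).symm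
  rw [normal_form_dvd_iff N hdN] at hk
  have hg : ((Nat.gcd d (N / d) : ℕ) : ℤ) ∣ a' - a := by
    have h1 : ((Nat.gcd d (N / d) : ℕ) : ℤ) ∣ ((N / d : ℕ) : ℤ) :=
      Int.natCast_dvd_natCast.mpr (Nat.gcd_dvd_right _ _)
    have h2 : ((Nat.gcd d (N / d) : ℕ) : ℤ) ∣ (d : ℤ) :=
      Int.natCast_dvd_natCast.mpr (Nat.gcd_dvd_left _ _)
    have h3 := (h1.trans hk)
    have h4 : a' - a = (a' + k * d - a) - k * d := by ring
    rw [h4]
    exact dvd_sub h3 (dvd_mul_of_dvd_right h2 _)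
  have hβ : (β : ZMod (Nat.gcd d (N / d))) = β' := by
    rw [← f1, ← f2, ZMod.intCast_eq_intCast_iff_dvd_sub]
    exact hg
  have : β = β' := Units.ext hβ
  subst this
  rfl

theorem cuspOf_surjective [NeZero N] : Function.Surjective (cuspOf N) := by
  intro o
  induction o using Quotient.inductionOn' with
  | h q =>
    obtain ⟨g, rfl⟩ := QuotientGroup.mk_surjective q
    obtain ⟨d, hdN, g₀, hg₀, hmk⟩ := exists_rep_divisor N g
    rw [← hmk]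
    have hd0 : d ≠ 0 := fun h => NeZero.ne N (by rw [h] at hdN; exact Nat.eq_zero_of_zero_dvd hdN)
    have hd : d ∈ N.divisors := Nat.mem_divisors.mpr ⟨hdN, NeZero.ne N⟩
    have c0 : IsCoprime (g₀ 0 0) (d : ℤ) := hg₀ ▸ isCoprime_col g₀
    have hgd : ((Nat.gcd d (N / d) : ℕ) : ℤ) ∣ (d : ℤ) :=
      Int.natCast_dvd_natCast.mpr (Nat.gcd_dvd_left _ _)
    have c0' : IsCoprime (g₀ 0 0) ((Nat.gcd d (N / d) : ℕ) : ℤ) := c0.of_isCoprime_of_dvd_right hgd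
    let β : (ZMod (Nat.gcd d (N / d)))ˣ := (isUnit_intCast_of_isCoprime c0').unit
    refine ⟨⟨⟨d, hd⟩, β⟩, ?_⟩
    unfold cuspOf
    rw [orb_mk_eq_iff]
    have e1 := cuspRep_one_zero N ⟨⟨d, hd⟩, β⟩
    have f1 := cuspRep_zero_zero N ⟨⟨d, hd⟩, β⟩
    set a₁ := cuspRep N ⟨⟨d, hd⟩, β⟩ 0 0
    simp only at e1 f1
    rw [e1, hg₀]
    have hβ : (β : ZMod (Nat.gcd d (N / d))) = ((g₀ 0 0 : ℤ) : ZMod (Nat.gcd d (N / d))) :=
      IsUnit.unit_spec _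
    rw [hβ, ZMod.intCast_eq_intCast_iff_dvd_sub] at f1
    -- Bezout
    obtain ⟨w, hw⟩ := f1
    have hb := Int.gcd_eq_gcd_ab (d : ℤ) ((N / d : ℕ) : ℤ)
    rw [Int.gcd_natCast_natCast] at hb
    refine ⟨-(Int.gcdA d ((N / d : ℕ) : ℤ) * w), ?_⟩
    rw [normal_form_dvd_iff N hdN]
    refine ⟨Int.gcdB d ((N / d : ℕ) : ℤ) * w, ?_⟩
    have : g₀ 0 0 - a₁ = (d * Int.gcdA d ((N / d : ℕ) : ℤ) +
        ((N / d : ℕ) : ℤ) * Int.gcdB d ((N / d : ℕ) : ℤ)) * w := by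
      rw [← hb]; exact hw
    linear_combination this

/-- **(D4)** The number of orbits of `T` on `SL(2,ℤ) ⧸ Γ₀(N)` is the cusp count. -/
theorem card_orbits_T [NeZero N] : Nat.card (Orb N) = ModularCurve.cuspCount N := by
  rw [← Nat.card_congr (Equiv.ofBijective (cuspOf N) ⟨cuspOf_injective N, cuspOf_surjective N⟩)]
  unfold ModularCurve.cuspCount
  have hne : ∀ d : N.divisors, NeZero (Nat.gcd d (N / d)) := fun d =>
    ⟨Nat.gcd_ne_zero_left (Nat.pos_of_mem_divisors d.2).ne'⟩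
  rw [Nat.card_sigma]
  rw [← Finset.sum_coe_sort N.divisors (fun d => Nat.totient (Nat.gcd d (N / d)))]
  refine Finset.sum_congr rfl (fun d _ => ?_)
  have := hne d
  rw [Nat.card_eq_fintype_card, ZMod.card_units_eq_totient]

end Fermat.Agent.S24.CosetCount
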