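/-
S24 package (D), part 2: fixed points of `S` and `S*T` on `SL(2,ℤ) ⧸ Γ₀(N)`
(the elliptic counts `nuTwo`, `nuThree`).
-/
import Fermat.Agent.S24.CosetBasic

set_option autoImplicit false

namespace Fermat.Agent.S24.CosetCount

open Matrix Matrix.SpecialLinearGroup CongruenceSubgroup ModularGroup
open scoped MatrixGroups

variable (N : ℕ)

theorem exists_repX (x : ZMod N) : ∃ g : SL(2, ℤ), colA N g = x ∧ colC N g = 1 := by
  obtain ⟨g, h1, h2⟩ := exists_col N (ZMod.cast x : ℤ) 1 isCoprime_one_right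
  exact ⟨g, h1.trans (ZMod.intCast_zmod_cast x), h2.trans (by simp)⟩

/-- a chosen matrix with first column `(x, 1)` mod `N` -/
noncomputable def repX (x : ZMod N) : SL(2, ℤ) :=
  Classical.choose (exists_repX N x)

theorem colA_repX (x : ZMod N) : colA N (repX N x) = x :=
  (Classical.choose_spec (exists_repX N x)).1

theorem colC_repX (x : ZMod N) : colC N (repX N x) = 1 :=
  (Classical.choose_spec (exists_repX N x)).2

theorem mk_repX_eq_iff (x : ZMod N) (g : SL(2, ℤ)) :
    (QuotientGroup.mk (repX N x) : Q N) = QuotientGroup.mk g ↔ x * colC N g = colA N g := by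
  rw [mk_eq_mk_iff, colA_repX, colC_repX, one_mul]

theorem S_smul_mk_eq_iff (g : SL(2, ℤ)) :
    S • (QuotientGroup.mk g : Q N) = QuotientGroup.mk g ↔
      colA N g ^ 2 + colC N g ^ 2 = 0 := by
  rw [smul_mk, mk_eq_mk_iff, colA_S_mul, colC_S_mul]
  constructor
  · intro h; linear_combination -h
  · intro h; linear_combination -h

theorem ST_smul_mk_eq_iff (g : SL(2, ℤ)) :
    (S * T) • (QuotientGroup.mk g : Q N) = QuotientGroup.mk g ↔
      colA N g ^ 2 + colA N g * colC N g + colC N g ^ 2 = 0 := by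
  rw [smul_mk, mk_eq_mk_iff, colA_ST_mul, colC_ST_mul]
  constructor
  · intro h; linear_combination -h
  · intro h; linear_combination -h

/-- **(D2)** The number of fixed points of `S` on `SL(2,ℤ) ⧸ Γ₀(N)` is `ν₂(N)`. -/
theorem card_fixedBy_S :
    Nat.card (MulAction.fixedBy (Q N) S) = ModularCurve.nuTwo N := by
  unfold ModularCurve.nuTwo
  symm
  let f : {x : ZMod N // x ^ 2 + 1 = 0} → MulAction.fixedBy (Q N) S := fun x =>
    ⟨QuotientGroup.mk (repX N x.1), by
      rw [MulAction.mem_fixedBy, S_smul_mk_eq_iff, colA_repX, colC_repX]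
      linear_combination x.2⟩
  refine Nat.card_congr (Equiv.ofBijective f ⟨?_, ?_⟩)
  · rintro ⟨x, hx⟩ ⟨y, hy⟩ h
    have h1 : (QuotientGroup.mk (repX N x) : Q N) = QuotientGroup.mk (repX N y) :=
      congrArg Subtype.val h
    rw [mk_repX_eq_iff, colC_repX, colA_repX, mul_one] at h1
    exact Subtype.ext h1
  · rintro ⟨q, hq⟩
    obtain ⟨g, rfl⟩ := QuotientGroup.mk_surjective q
    rw [MulAction.mem_fixedBy, S_smul_mk_eq_iff] at hq
    obtain ⟨X, Y, hXY⟩ := exists_bezout N g
    set A := colA N g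
    set C := colC N g
    set Ci := -X ^ 2 * C + 2 * X * Y * A + Y ^ 2 * C with hCi
    have hC : C * Ci = 1 := by
      have : (X * A + Y * C) ^ 2 = 1 := by rw [hXY]; ring
      linear_combination this - X ^ 2 * hq
    have hx : (A * Ci) ^ 2 + 1 = 0 := by
      linear_combination Ci ^ 2 * hq - (1 + C * Ci) * hC
    refine ⟨⟨A * Ci, hx⟩, Subtype.ext ?_⟩
    show (QuotientGroup.mk (repX N (A * Ci)) : Q N) = QuotientGroup.mk g
    rw [mk_repX_eq_iff]
    linear_combination A * hC

/-- **(D3)** The number of fixed points of `S*T` on `SL(2,ℤ) ⧸ Γ₀(N)` is `ν₃(N)`. -/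
theorem card_fixedBy_ST :
    Nat.card (MulAction.fixedBy (Q N) (S * T)) = ModularCurve.nuThree N := by
  unfold ModularCurve.nuThree
  symm
  let f : {x : ZMod N // x ^ 2 + x + 1 = 0} → MulAction.fixedBy (Q N) (S * T) := fun x =>
    ⟨QuotientGroup.mk (repX N x.1), by
      rw [MulAction.mem_fixedBy, ST_smul_mk_eq_iff, colA_repX, colC_repX]
      linear_combination x.2⟩
  refine Nat.card_congr (Equiv.ofBijective f ⟨?_, ?_⟩)
  · rintro ⟨x, hx⟩ ⟨y, hy⟩ h
    have h1 : (QuotientGroup.mk (repX N x) : Q N) = QuotientGroup.mk (repX N y) :=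
      congrArg Subtype.val h
    rw [mk_repX_eq_iff, colC_repX, colA_repX, mul_one] at h1
    exact Subtype.ext h1
  · rintro ⟨q, hq⟩
    obtain ⟨g, rfl⟩ := QuotientGroup.mk_surjective q
    rw [MulAction.mem_fixedBy, ST_smul_mk_eq_iff] at hq
    obtain ⟨X, Y, hXY⟩ := exists_bezout N g
    set A := colA N g
    set C := colC N g
    set Ci := -X ^ 2 * (A + C) + 2 * X * Y * A + Y ^ 2 * C with hCi
    have hC : C * Ci = 1 := by
      have : (X * A + Y * C) ^ 2 = 1 := by rw [hXY]; ring
      linear_combination this - X ^ 2 * hq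
    have hx : (A * Ci) ^ 2 + A * Ci + 1 = 0 := by
      linear_combination Ci ^ 2 * hq - (A * Ci + 1 + C * Ci) * hC
    refine ⟨⟨A * Ci, hx⟩, Subtype.ext ?_⟩
    show (QuotientGroup.mk (repX N (A * Ci)) : Q N) = QuotientGroup.mk g
    rw [mk_repX_eq_iff]
    linear_combination A * hC

/-- Conjugate elements have the same number of fixed points. -/
theorem card_fixedBy_conj {G X : Type*} [Group G] [MulAction G X] (γ g : G) :
    Nat.card (MulAction.fixedBy X (γ * g * γ⁻¹)) = Nat.card (MulAction.fixedBy X g) := by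
  refine Nat.card_congr ⟨fun x => ⟨γ⁻¹ • x.1, ?_⟩, fun x => ⟨γ • x.1, ?_⟩, ?_, ?_⟩
  · have := x.2
    rw [MulAction.mem_fixedBy] at this ⊢
    conv_rhs => rw [← this]
    simp [mul_smul]
  · have := x.2
    rw [MulAction.mem_fixedBy] at this ⊢
    simp [mul_smul, this]
  · intro x; simp
  · intro x; simp

/-- Inverse elements have the same fixed points. -/
theorem card_fixedBy_inv {G X : Type*} [Group G] [MulAction G X] (g : G) :
    Nat.card (MulAction.fixedBy X g⁻¹) = Nat.card (MulAction.fixedBy X g) := by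
  rw [MulAction.fixedBy_inv]

end Fermat.Agent.S24.CosetCount
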