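/-
S24 package (D), arithmetic of the Dedekind psi function `ModularCurve.dedekindPsi`:
multiplicativity and values at prime powers.
-/
import Mathlib
import Fermat.Prelude.Def_ModularCurve_GenusNumerics

set_option autoImplicit false

namespace Fermat.Agent.S24.CosetCount

open ArithmeticFunction Finset

/-- indicator of squarefree numbers as an arithmetic function -/
noncomputable def sqfAF : ArithmeticFunction ℕ :=
  ⟨fun n => if Squarefree n then 1 else 0, by simp⟩

theorem sqfAF_apply (n : ℕ) : sqfAF n = if Squarefree n then 1 else 0 := rfl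

theorem isMultiplicative_sqfAF : IsMultiplicative sqfAF := by
  refine ⟨by simp [sqfAF_apply], ?_⟩
  intro m n hmn
  simp only [sqfAF_apply, Nat.squarefree_mul hmn]
  by_cases h1 : Squarefree m <;> by_cases h2 : Squarefree n <;> simp [h1, h2]

theorem dedekindPsi_eq_mul (N : ℕ) :
    ModularCurve.dedekindPsi N = (sqfAF * ArithmeticFunction.id) N := by
  rw [ArithmeticFunction.mul_apply,
    Nat.sum_divisorsAntidiagonal (fun a b => sqfAF a * ArithmeticFunction.id b)]
  unfold ModularCurve.dedekindPsi
  rw [Finset.sum_filter]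
  refine Finset.sum_congr rfl (fun d _ => ?_)
  by_cases h : Squarefree d <;> simp [sqfAF_apply, h]

theorem dedekindPsi_mul {M N : ℕ} (h : Nat.Coprime M N) :
    ModularCurve.dedekindPsi (M * N) = ModularCurve.dedekindPsi M * ModularCurve.dedekindPsi N := by
  rw [dedekindPsi_eq_mul, dedekindPsi_eq_mul, dedekindPsi_eq_mul]
  exact (isMultiplicative_sqfAF.mul isMultiplicative_id).map_mul_of_coprime h

theorem dedekindPsi_prime_pow {p k : ℕ} (hp : p.Prime) (hk : 0 < k) :
    ModularCurve.dedekindPsi (p ^ k) = p ^ k + p ^ (k - 1) := by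
  unfold ModularCurve.dedekindPsi
  rw [Finset.sum_filter, Nat.sum_divisors_prime_pow hp]
  have hsub : ({0, 1} : Finset ℕ) ⊆ range (k + 1) := by
    intro i hi
    simp only [mem_insert, mem_singleton] at hi
    rw [mem_range]
    omega
  rw [← Finset.sum_subset hsub]
  · rw [Finset.sum_pair (by norm_num)]
    simp only [pow_zero, pow_one, squarefree_one, if_true, Nat.div_one, hp.squarefree]
    congr 1
    obtain ⟨j, rfl⟩ : ∃ j, k = j + 1 := ⟨k - 1, by omega⟩
    rw [pow_succ, Nat.mul_div_cancel _ hp.pos, Nat.add_sub_cancel]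
  · intro i _ hi
    simp only [mem_insert, mem_singleton, not_or] at hi
    have : ¬ Squarefree (p ^ i) := by
      rw [Nat.squarefree_pow_iff hp.ne_one hi.1]
      exact fun h => hi.2 h.2
    simp [this]

end Fermat.Agent.S24.CosetCount
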