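/-
S24 package (D), part 4: the index `[SL(2,ℤ) : Γ₀(N)] = ψ(N)`.
-/
import Fermat.Agent.S24.CosetCusps
import Fermat.Agent.S24.CosetElliptic
import Fermat.Agent.S24.PsiArith

set_option autoImplicit false

namespace Fermat.Agent.S24.CosetCount

open Matrix Matrix.SpecialLinearGroup CongruenceSubgroup ModularGroup
open scoped MatrixGroups

/-- If no prime divides all of `x, m, d` (and `d ≠ 0`), some `x + t m` is coprime to `d`. -/
theorem exists_isCoprime_add_mul (x m d : ℤ) (hd : d ≠ 0)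
    (h : ∀ p : ℕ, p.Prime → (p : ℤ) ∣ x → (p : ℤ) ∣ m → (p : ℤ) ∣ d → False) :
    ∃ t : ℤ, IsCoprime (x + t * m) d := by
  classical
  let ps : Finset ℕ := d.natAbs.primeFactors.filter (fun p => ¬ (p : ℤ) ∣ x)
  refine ⟨((∏ p ∈ ps, p : ℕ) : ℤ), ?_⟩
  rw [Int.isCoprime_iff_gcd_eq_one]
  by_contra hne
  obtain ⟨p, hp, hp1, hp2⟩ := Nat.Prime.not_coprime_iff_dvd.mp hne
  have hp1' : (p : ℤ) ∣ x + ((∏ p ∈ ps, p : ℕ) : ℤ) * m := Int.natCast_dvd.mpr hp1
  have hp2' : (p : ℤ) ∣ d := Int.natCast_dvd.mpr hp2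
  have hpp : Prime (p : ℤ) := Nat.prime_iff_prime_int.mp hp
  by_cases hpx : (p : ℤ) ∣ x
  · have h3 : (p : ℤ) ∣ ((∏ p ∈ ps, p : ℕ) : ℤ) * m := (dvd_add_right hpx).mp hp1'
    rcases hpp.dvd_or_dvd h3 with h4 | h4
    · have h5 : p ∣ ∏ q ∈ ps, q := Int.natCast_dvd_natCast.mp h4
      obtain ⟨q, hq, hpq⟩ := (hp.prime.dvd_finsetProd_iff _).mp h5
      have hq' := Finset.mem_filter.mp hq
      have hqp : q.Prime := Nat.prime_of_mem_primeFactors hq'.1
      have : p = q := (Nat.prime_dvd_prime_iff_eq hp hqp).mp hpq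
      subst this
      exact hq'.2 hpx
    · exact h p hp hpx h4 hp2'
  · have hmem : p ∈ ps := by
      refine Finset.mem_filter.mpr ⟨Nat.mem_primeFactors.mpr ⟨hp, hp2, ?_⟩, hpx⟩
      exact Int.natAbs_ne_zero.mpr hd
    have h5 : p ∣ ∏ q ∈ ps, q := Finset.dvd_prod_of_mem _ hmem
    have h6 : (p : ℤ) ∣ ((∏ p ∈ ps, p : ℕ) : ℤ) * m :=
      dvd_mul_of_dvd_left (Int.natCast_dvd_natCast.mpr h5) _
    exact hpx ((dvd_add_left h6).mp hp1')

/-- **Lifting**: a pair `(A, C)` of integers which is primitive mod `M ≠ 0` is congruent mod `M`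
to the first column of a matrix in `SL(2,ℤ)`. -/
theorem exists_SL2_col_modEq (A C : ℤ) (M : ℕ)
    (h : ∀ p : ℕ, p.Prime → (p : ℤ) ∣ A → (p : ℤ) ∣ (M : ℤ) → (p : ℤ) ∣ C → False) :
    ∃ g : SL(2, ℤ), (M : ℤ) ∣ g 0 0 - A ∧ (M : ℤ) ∣ g 1 0 - C := by
  by_cases hC : C = 0
  · subst hC
    have hcop : IsCoprime A (M : ℤ) := by
      rw [Int.isCoprime_iff_gcd_eq_one]
      by_contra hne
      obtain ⟨p, hp, hp1, hp2⟩ := Nat.Prime.not_coprime_iff_dvd.mp hne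
      exact h p hp (Int.natCast_dvd.mpr hp1) (Int.natCast_dvd.mpr hp2) (dvd_zero _)
    obtain ⟨g, h0, h1⟩ := hcop.exists_SL2_col 0
    exact ⟨g, by rw [h0, sub_self]; exact dvd_zero _, by rw [h1, sub_zero]⟩
  · obtain ⟨t, ht⟩ := exists_isCoprime_add_mul A M C hC h
    obtain ⟨g, h0, h1⟩ := ht.exists_SL2_col 0
    exact ⟨g, by rw [h0]; exact ⟨t, by ring⟩, by rw [h1, sub_self]; exact dvd_zero _⟩

theorem Gamma0_le_of_dvd {M N : ℕ} (h : M ∣ N) : Gamma0 N ≤ Gamma0 M := by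
  intro g hg
  rw [Gamma0_mem, ZMod.intCast_zmod_eq_zero_iff_dvd] at hg ⊢
  exact (Int.natCast_dvd_natCast.mpr h).trans hg

/-- The natural map `SL(2,ℤ)/Γ₀(M₁M₂) → SL(2,ℤ)/Γ₀(M₁) × SL(2,ℤ)/Γ₀(M₂)`. -/
def crtMap (M₁ M₂ : ℕ) : Q (M₁ * M₂) → Q M₁ × Q M₂ := fun q =>
  (Subgroup.quotientMapOfLE (Gamma0_le_of_dvd (Dvd.intro _ rfl)) q,
    Subgroup.quotientMapOfLE (Gamma0_le_of_dvd (Dvd.intro_left _ rfl)) q)

theorem crtMap_mk (M₁ M₂ : ℕ) (g : SL(2, ℤ)) :
    crtMap M₁ M₂ (QuotientGroup.mk g) = (QuotientGroup.mk g, QuotientGroup.mk g) := rfl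

theorem crtMap_injective {M₁ M₂ : ℕ} (h : Nat.Coprime M₁ M₂) :
    Function.Injective (crtMap M₁ M₂) := by
  intro q q' hq
  obtain ⟨g, rfl⟩ := QuotientGroup.mk_surjective q
  obtain ⟨g', rfl⟩ := QuotientGroup.mk_surjective q'
  rw [crtMap_mk, crtMap_mk, Prod.mk.injEq, mk_eq_mk_iff_dvd, mk_eq_mk_iff_dvd] at hq
  rw [mk_eq_mk_iff_dvd]
  push_cast
  exact (Nat.isCoprime_iff_coprime.mpr h).mul_dvd hq.1 hq.2

theorem crtMap_surjective {M₁ M₂ : ℕ} (h : Nat.Coprime M₁ M₂) :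
    Function.Surjective (crtMap M₁ M₂) := by
  rintro ⟨q₁, q₂⟩
  obtain ⟨g₁, rfl⟩ := QuotientGroup.mk_surjective q₁
  obtain ⟨g₂, rfl⟩ := QuotientGroup.mk_surjective q₂
  obtain ⟨u, v, huv⟩ := Nat.isCoprime_iff_coprime.mpr h
  set A₁ := g₁ 0 0
  set C₁ := g₁ 1 0
  set A₂ := g₂ 0 0
  set C₂ := g₂ 1 0
  set A' : ℤ := A₁ * (v * M₂) + A₂ * (u * M₁) with hA'
  set C' : ℤ := C₁ * (v * M₂) + C₂ * (u * M₁) with hC'
  have hprim : ∀ p : ℕ, p.Prime → (p : ℤ) ∣ A' → (p : ℤ) ∣ ((M₁ * M₂ : ℕ) : ℤ) →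
      (p : ℤ) ∣ C' → False := by
    intro p hp hpA hpM hpC
    have hpp : Prime (p : ℤ) := Nat.prime_iff_prime_int.mp hp
    push_cast at hpM
    rcases hpp.dvd_or_dvd hpM with hpM | hpM
    · -- p ∣ M₁ : then p ∣ A₁, C₁
      have e1 : A₁ = A' - (A₂ - A₁) * u * M₁ := by rw [hA']; linear_combination (-A₁) * huv
      have e2 : C₁ = C' - (C₂ - C₁) * u * M₁ := by rw [hC']; linear_combination (-C₁) * huv
      have hA1 : (p : ℤ) ∣ A₁ := by
        rw [e1]; exact dvd_sub hpA (dvd_mul_of_dvd_right hpM _)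
      have hC1 : (p : ℤ) ∣ C₁ := by
        rw [e2]; exact dvd_sub hpC (dvd_mul_of_dvd_right hpM _)
      have := (isCoprime_col g₁).isUnit_of_dvd' hA1 hC1
      exact hp.not_isUnit (Int.ofNat_isUnit.mp this)
    · have e1 : A₂ = A' - (A₁ - A₂) * v * M₂ := by rw [hA']; linear_combination (-A₂) * huv
      have e2 : C₂ = C' - (C₁ - C₂) * v * M₂ := by rw [hC']; linear_combination (-C₂) * huv
      have hA1 : (p : ℤ) ∣ A₂ := by
        rw [e1]; exact dvd_sub hpA (dvd_mul_of_dvd_right hpM _)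
      have hC1 : (p : ℤ) ∣ C₂ := by
        rw [e2]; exact dvd_sub hpC (dvd_mul_of_dvd_right hpM _)
      have := (isCoprime_col g₂).isUnit_of_dvd' hA1 hC1
      exact hp.not_isUnit (Int.ofNat_isUnit.mp this)
  obtain ⟨g, hgA, hgC⟩ := exists_SL2_col_modEq A' C' (M₁ * M₂) hprim
  refine ⟨QuotientGroup.mk g, ?_⟩
  rw [crtMap_mk, Prod.mk.injEq, mk_eq_mk_iff_dvd, mk_eq_mk_iff_dvd]
  obtain ⟨s, hs⟩ := hgA
  obtain ⟨t, ht⟩ := hgC
  push_cast at hs ht
  constructor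
  · refine ⟨s * M₂ * C₁ - t * M₂ * A₁ + u * (A₂ * C₁ - C₂ * A₁), ?_⟩
    have e1 : g 0 0 = A' + M₁ * M₂ * s := by linear_combination hs
    have e2 : g 1 0 = C' + M₁ * M₂ * t := by linear_combination ht
    rw [e1, e2, hA', hC']
    ring
  · refine ⟨s * M₁ * C₂ - t * M₁ * A₂ + v * (A₁ * C₂ - C₁ * A₂), ?_⟩
    have e1 : g 0 0 = A' + M₁ * M₂ * s := by linear_combination hs
    have e2 : g 1 0 = C' + M₁ * M₂ * t := by linear_combination ht
    rw [e1, e2, hA', hC']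
    ring

theorem card_Q_mul {M₁ M₂ : ℕ} (h : Nat.Coprime M₁ M₂) :
    Nat.card (Q (M₁ * M₂)) = Nat.card (Q M₁) * Nat.card (Q M₂) := by
  rw [← Nat.card_prod]
  exact Nat.card_congr (Equiv.ofBijective (crtMap M₁ M₂)
    ⟨crtMap_injective h, crtMap_surjective h⟩)

/-! ### Prime powers -/

theorem exists_repY (N : ℕ) (y : ZMod N) :
    ∃ g : SL(2, ℤ), colA N g = 1 ∧ colC N g = y := by
  obtain ⟨g, h1, h2⟩ := exists_col N 1 (ZMod.cast y : ℤ) isCoprime_one_left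
  exact ⟨g, h1.trans (by simp), h2.trans (ZMod.intCast_zmod_cast y)⟩

/-- a chosen matrix with first column `(1, y)` mod `N` -/
noncomputable def repY (N : ℕ) (y : ZMod N) : SL(2, ℤ) :=
  Classical.choose (exists_repY N y)

theorem colA_repY (N : ℕ) (y : ZMod N) : colA N (repY N y) = 1 :=
  (Classical.choose_spec (exists_repY N y)).1

theorem colC_repY (N : ℕ) (y : ZMod N) : colC N (repY N y) = y :=
  (Classical.choose_spec (exists_repY N y)).2

theorem castHom_eq_zero_of_not_isUnit {p k : ℕ} (hp : p.Prime) (hk : 0 < k)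
    (z : ZMod (p ^ k)) (hz : ¬ IsUnit z) :
    ZMod.castHom (dvd_pow_self p hk.ne') (ZMod p) z = 0 := by
  have : NeZero (p ^ k) := ⟨pow_ne_zero _ hp.ne_zero⟩
  rw [← ZMod.natCast_zmod_val z, ZMod.isUnit_iff_coprime] at hz
  have hdvd : p ∣ z.val := by
    by_contra hnd
    exact hz (((Nat.Prime.coprime_iff_not_dvd hp).mpr hnd).symm.pow_right k)
  rw [← ZMod.natCast_zmod_val z, map_natCast]
  exact (ZMod.natCast_eq_zero_iff _ _).mpr hdvd

theorem isUnit_or_isUnit_of_prime_pow {p k : ℕ} (hp : p.Prime) (hk : 0 < k)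
    {A C X Y : ZMod (p ^ k)} (h : X * A + Y * C = 1) : IsUnit A ∨ IsUnit C := by
  by_contra hcon
  push Not at hcon
  have : Fact p.Prime := ⟨hp⟩
  have h1 := castHom_eq_zero_of_not_isUnit hp hk A hcon.1
  have h2 := castHom_eq_zero_of_not_isUnit hp hk C hcon.2
  have := congrArg (ZMod.castHom (dvd_pow_self p hk.ne') (ZMod p)) h
  rw [map_add, map_mul, map_mul, h1, h2, mul_zero, mul_zero, add_zero, map_one] at this
  exact zero_ne_one this

/-- the parametrisation of `SL(2,ℤ)/Γ₀(p^k)` by `[x : 1]` and `[1 : y]`, `y` a non-unit -/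
noncomputable def ppMap (N : ℕ) : ZMod N ⊕ {y : ZMod N // ¬ IsUnit y} → Q N
  | Sum.inl x => QuotientGroup.mk (repX N x)
  | Sum.inr y => QuotientGroup.mk (repY N y.1)

theorem ppMap_injective (N : ℕ) : Function.Injective (ppMap N) := by
  rintro (x | ⟨y, hy⟩) (x' | ⟨y', hy'⟩) h
  · simp only [ppMap] at h
    rw [mk_repX_eq_iff, colC_repX, colA_repX, mul_one] at h
    rw [h]
  · exfalso
    simp only [ppMap] at h
    rw [mk_repX_eq_iff, colC_repY, colA_repY] at h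
    exact hy' (IsUnit.of_mul_eq_one _ (by rw [mul_comm]; exact h))
  · exfalso
    simp only [ppMap] at h
    rw [eq_comm, mk_repX_eq_iff, colC_repY, colA_repY] at h
    exact hy (IsUnit.of_mul_eq_one _ (by rw [mul_comm]; exact h))
  · simp only [ppMap] at h
    rw [mk_eq_mk_iff, colA_repY, colC_repY, colA_repY, colC_repY, one_mul, mul_one] at h
    simp only [h]

theorem ppMap_surjective {p k : ℕ} (hp : p.Prime) (hk : 0 < k) :
    Function.Surjective (ppMap (p ^ k)) := by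
  intro q
  obtain ⟨g, rfl⟩ := QuotientGroup.mk_surjective q
  obtain ⟨X, Y, hXY⟩ := exists_bezout (p ^ k) g
  by_cases hC : IsUnit (colC (p ^ k) g)
  · obtain ⟨u, hu⟩ := hC
    refine ⟨Sum.inl (colA (p ^ k) g * ((u⁻¹ : (ZMod (p ^ k))ˣ) : ZMod (p ^ k))), ?_⟩
    simp only [ppMap]
    rw [mk_repX_eq_iff, ← hu, mul_assoc, Units.inv_mul, mul_one]
  · have hA : IsUnit (colA (p ^ k) g) :=
      (isUnit_or_isUnit_of_prime_pow hp hk hXY).resolve_right hC
    obtain ⟨u, hu⟩ := hA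
    have hy : ¬ IsUnit (colC (p ^ k) g * ((u⁻¹ : (ZMod (p ^ k))ˣ) : ZMod (p ^ k))) := by
      intro h
      exact hC ((IsUnit.mul_iff.mp h).1)
    refine ⟨Sum.inr ⟨_, hy⟩, ?_⟩
    simp only [ppMap]
    rw [mk_eq_mk_iff, colA_repY, colC_repY, one_mul, ← hu, mul_assoc, Units.inv_mul, mul_one]

theorem card_nonunits_prime_pow {p k : ℕ} (hp : p.Prime) (hk : 0 < k) :
    Nat.card {y : ZMod (p ^ k) // ¬ IsUnit y} = p ^ (k - 1) := by
  classical
  have : NeZero (p ^ k) := ⟨pow_ne_zero _ hp.ne_zero⟩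
  have e1 : Nat.card (ZMod (p ^ k)) =
      Nat.card {y : ZMod (p ^ k) // IsUnit y} + Nat.card {y : ZMod (p ^ k) // ¬ IsUnit y} := by
    rw [← Nat.card_sum]
    exact Nat.card_congr (Equiv.sumCompl _).symm
  have e2 : Nat.card {y : ZMod (p ^ k) // IsUnit y} = Nat.totient (p ^ k) := by
    rw [← ZMod.card_units_eq_totient (p ^ k), ← Nat.card_eq_fintype_card]
    refine Nat.card_congr ⟨fun y => y.2.unit, fun u => ⟨u, u.isUnit⟩, ?_, ?_⟩
    · intro y; exact Subtype.ext (IsUnit.unit_spec y.2)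
    · intro u; exact Units.ext rfl
  rw [Nat.card_zmod, e2, Nat.totient_prime_pow hp hk] at e1
  obtain ⟨j, rfl⟩ : ∃ j, k = j + 1 := ⟨k - 1, by omega⟩
  rw [Nat.add_sub_cancel] at e1 ⊢
  have hp1 : 1 ≤ p := hp.one_lt.le
  obtain ⟨r, rfl⟩ : ∃ r, p = r + 1 := ⟨p - 1, by omega⟩
  rw [Nat.add_sub_cancel, pow_succ, Nat.mul_succ] at e1
  exact (Nat.add_left_cancel e1).symm

theorem card_Q_prime_pow {p k : ℕ} (hp : p.Prime) (hk : 0 < k) :
    Nat.card (Q (p ^ k)) = p ^ k + p ^ (k - 1) := by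
  have : NeZero (p ^ k) := ⟨pow_ne_zero _ hp.ne_zero⟩
  rw [← Nat.card_congr (Equiv.ofBijective (ppMap (p ^ k))
    ⟨ppMap_injective _, ppMap_surjective hp hk⟩), Nat.card_sum, Nat.card_zmod,
    card_nonunits_prime_pow hp hk]

theorem card_Q_one : Nat.card (Q 1) = 1 := by
  have : Subsingleton (Q 1) := by
    constructor
    intro a b
    obtain ⟨g, rfl⟩ := QuotientGroup.mk_surjective a
    obtain ⟨g', rfl⟩ := QuotientGroup.mk_surjective b
    rw [mk_eq_mk_iff]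
    exact Subsingleton.elim _ _
  have : Nonempty (Q 1) := ⟨QuotientGroup.mk 1⟩
  exact Nat.card_unique

/-- **(D1)** The index of `Γ₀(N)` in `SL(2,ℤ)` is the Dedekind psi function. -/
theorem card_Q (N : ℕ) [NeZero N] : Nat.card (Q N) = ModularCurve.dedekindPsi N := by
  have key : ∀ n : ℕ, n ≠ 0 → Nat.card (Q n) = ModularCurve.dedekindPsi n := by
    intro n
    induction n using Nat.recOnPosPrimePosCoprime with
    | prime_pow p k hp hk =>
      intro _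
      rw [card_Q_prime_pow hp hk, dedekindPsi_prime_pow hp hk]
    | zero => intro h; exact absurd rfl h
    | one => intro _; rw [card_Q_one, ModularCurve.dedekindPsi_one]
    | coprime a b ha hb hab iha ihb =>
      intro _
      rw [card_Q_mul hab, dedekindPsi_mul hab, iha (by omega), ihb (by omega)]
  exact key N (NeZero.ne N)

/-- index form of (D1) -/
theorem index_Gamma0 (N : ℕ) [NeZero N] : (Gamma0 N).index = ModularCurve.dedekindPsi N := by
  rw [Subgroup.index, card_Q]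

end Fermat.Agent.S24.CosetCount
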