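/-
S24, package COMB (index part): `card_X0Cosets`, final Skeleton shape.
Proof: `Fermat.Agent.S24.CosetCount.card_Q` (CRT multiplicativity of `SL(2,ℤ) ⧸ Γ₀(N)` +
explicit parametrisation at prime powers + multiplicativity of the Dedekind psi function).
-/
import Fermat.Agent.S24.Defs
import Fermat.Agent.S24.CosetIndex

set_option autoImplicit false

open scoped MatrixGroups
open ModularCurve

namespace Fermat.Agent.S24

theorem card_X0Cosets (N : ℕ) [NeZero N] : Nat.card (X0Cosets N) = dedekindPsi N :=
  CosetCount.card_Q N

end Fermat.Agent.S24
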