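import Mathlib
import Fermat.Prelude.Def_ModularCurve_GenusNumerics

set_option autoImplicit false

open Matrix MatrixGroups ModularGroup CongruenceSubgroup

namespace Fermat.Agent.S24.Count87

/-! ### First column of an element of `SL(2, ℤ)` -/

/-- upper-left entry -/
def colA (g : SL(2, ℤ)) : ℤ := g 0 0
/-- lower-left entry -/
def colC (g : SL(2, ℤ)) : ℤ := g 1 0

lemma mul_apply' (g h : SL(2, ℤ)) (i j : Fin 2) : (g * h) i j = ∑ k, g i k * h k j := rfl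

lemma det_eq (g : SL(2, ℤ)) : g 0 0 * g 1 1 - g 0 1 * g 1 0 = 1 := by
  have := g.2
  rw [Matrix.det_fin_two] at this
  exact this

lemma isCoprime_col (g : SL(2, ℤ)) : IsCoprime (colA g) (colC g) := by
  refine ⟨g 1 1, - g 0 1, ?_⟩
  have := det_eq g
  unfold colA colC
  linarith

lemma exists_col {a c : ℤ} (h : IsCoprime a c) : ∃ g : SL(2, ℤ), colA g = a ∧ colC g = c := by
  obtain ⟨x, y, hxy⟩ := h
  refine ⟨⟨!![a, -y; c, x], ?_⟩, rfl, rfl⟩
  rw [Matrix.det_fin_two_of]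
  linarith

lemma colA_mul (g h : SL(2, ℤ)) : colA (g * h) = g 0 0 * colA h + g 0 1 * colC h := by
  unfold colA colC
  rw [mul_apply', Fin.sum_univ_two]

lemma colC_mul (g h : SL(2, ℤ)) : colC (g * h) = g 1 0 * colA h + g 1 1 * colC h := by
  unfold colA colC
  rw [mul_apply', Fin.sum_univ_two]

/-- Cross–product criterion for two cosets of `Gamma0 N` to agree. -/
lemma inv_mul_mem_Gamma0_iff (N : ℕ) (g h : SL(2, ℤ)) :
    g⁻¹ * h ∈ Gamma0 N ↔ (N : ℤ) ∣ colA g * colC h - colC g * colA h := by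
  rw [Gamma0_mem, ZMod.intCast_zmod_eq_zero_iff_dvd]
  have : (g⁻¹ * h) 1 0 = colA g * colC h - colC g * colA h := by
    have h1 := SpecialLinearGroup.SL2_inv_expl g
    unfold colA colC
    rw [mul_apply', Fin.sum_univ_two, h1]
    simp
    ring
  rw [this]

lemma mk_eq_mk_iff (N : ℕ) (g h : SL(2, ℤ)) :
    (QuotientGroup.mk g : SL(2, ℤ) ⧸ Gamma0 N) = QuotientGroup.mk h ↔
      (N : ℤ) ∣ colA g * colC h - colC g * colA h := by
  rw [QuotientGroup.eq, inv_mul_mem_Gamma0_iff]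

lemma smul_mk (N : ℕ) (γ g : SL(2, ℤ)) :
    γ • (QuotientGroup.mk g : SL(2, ℤ) ⧸ Gamma0 N) = QuotientGroup.mk (γ * g) := rfl

lemma colA_S_mul (g : SL(2, ℤ)) : colA (S * g) = - colC g := by
  rw [colA_mul]; simp [S]
lemma colC_S_mul (g : SL(2, ℤ)) : colC (S * g) = colA g := by
  rw [colC_mul]; simp [S]

lemma colA_T_zpow_mul (k : ℤ) (g : SL(2, ℤ)) : colA (T ^ k * g) = colA g + k * colC g := by
  rw [colA_mul]
  have : (T ^ k) 0 0 = 1 ∧ (T ^ k) 0 1 = k := by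
    have := coe_T_zpow k
    constructor
    · show (T ^ k).1 0 0 = 1; rw [this]; rfl
    · show (T ^ k).1 0 1 = k; rw [this]; rfl
  rw [this.1, this.2]; ring
lemma colC_T_zpow_mul (k : ℤ) (g : SL(2, ℤ)) : colC (T ^ k * g) = colC g := by
  rw [colC_mul]
  have : (T ^ k) 1 0 = 0 ∧ (T ^ k) 1 1 = 1 := by
    have := coe_T_zpow k
    constructor
    · show (T ^ k).1 1 0 = 0; rw [this]; rfl
    · show (T ^ k).1 1 1 = 1; rw [this]; rfl
  rw [this.1, this.2]; ring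

lemma colA_ST_mul (g : SL(2, ℤ)) : colA (S * T * g) = - colC g := by
  rw [mul_assoc, colA_S_mul]
  have := colC_T_zpow_mul 1 g
  rw [zpow_one] at this
  rw [this]
lemma colC_ST_mul (g : SL(2, ℤ)) : colC (S * T * g) = colA g + colC g := by
  rw [mul_assoc, colC_S_mul]
  have := colA_T_zpow_mul 1 g
  rw [zpow_one] at this
  rw [this]; ring

variable (N : ℕ)

lemma S_smul_mk_eq_iff (g : SL(2, ℤ)) :
    S • (QuotientGroup.mk g : SL(2, ℤ) ⧸ Gamma0 N) = QuotientGroup.mk g ↔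
      (N : ℤ) ∣ colA g ^ 2 + colC g ^ 2 := by
  rw [smul_mk, mk_eq_mk_iff, colA_S_mul, colC_S_mul]
  rw [← dvd_neg]
  have : -(-colC g * colC g - colA g * colA g) = colA g ^ 2 + colC g ^ 2 := by ring
  rw [this]

lemma ST_smul_mk_eq_iff (g : SL(2, ℤ)) :
    (S * T) • (QuotientGroup.mk g : SL(2, ℤ) ⧸ Gamma0 N) = QuotientGroup.mk g ↔
      (N : ℤ) ∣ colA g ^ 2 + colA g * colC g + colC g ^ 2 := by
  rw [smul_mk, mk_eq_mk_iff, colA_ST_mul, colC_ST_mul]
  rw [← dvd_neg]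
  have : -(-colC g * colC g - (colA g + colC g) * colA g) =
      colA g ^ 2 + colA g * colC g + colC g ^ 2 := by ring
  rw [this]

/-- General fixed point count: `Q(a,c) = a^2 + t a c + c^2`. -/
lemma card_fixed_aux [NeZero N] (γ : SL(2, ℤ)) (t : ℤ)
    (hγ : ∀ g : SL(2, ℤ), γ • (QuotientGroup.mk g : SL(2, ℤ) ⧸ Gamma0 N) = QuotientGroup.mk g ↔
      (N : ℤ) ∣ colA g ^ 2 + t * (colA g * colC g) + colC g ^ 2) :
    Nat.card (MulAction.fixedBy (SL(2, ℤ) ⧸ Gamma0 N) γ) =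
      Nat.card {x : ZMod N // x ^ 2 + (t : ZMod N) * x + 1 = 0} := by
  symm
  -- the map x ↦ [[x, -1], [1, 0]]
  have hcop : ∀ x : ℤ, IsCoprime x 1 := fun x => isCoprime_one_right
  choose G hGA hGC using fun x : ℤ => exists_col (hcop x)
  have hfix : ∀ x : {x : ZMod N // x ^ 2 + (t : ZMod N) * x + 1 = 0},
      (QuotientGroup.mk (G (x.1.val : ℤ)) : SL(2, ℤ) ⧸ Gamma0 N) ∈
        MulAction.fixedBy (SL(2, ℤ) ⧸ Gamma0 N) γ := by
    intro x
    rw [MulAction.mem_fixedBy, hγ, hGA, hGC]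
    rw [← ZMod.intCast_zmod_eq_zero_iff_dvd]
    have := x.2
    push_cast
    simp only [ZMod.natCast_val, ZMod.cast_id', id_eq, mul_one]
    linear_combination this
  refine Nat.card_eq_of_bijective (fun x => ⟨_, hfix x⟩) ⟨?_, ?_⟩
  · intro x y hxy
    have h1 := congrArg Subtype.val hxy
    simp only at h1
    rw [mk_eq_mk_iff, hGA, hGC, hGA, hGC, ← ZMod.intCast_zmod_eq_zero_iff_dvd] at h1
    push_cast at h1
    simp only [ZMod.natCast_val, ZMod.cast_id', id_eq, mul_one, one_mul] at h1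
    exact Subtype.ext (sub_eq_zero.mp h1)
  · rintro ⟨q, hq⟩
    induction q using QuotientGroup.induction_on with
    | H g =>
      rw [MulAction.mem_fixedBy, hγ] at hq
      -- c is a unit mod N
      have hc : IsCoprime (colC g) (N : ℤ) := by
        have h1 : IsCoprime (colC g) (colA g ^ 2 + t * (colA g * colC g) + colC g ^ 2) := by
          have h2 : IsCoprime (colC g) (colA g ^ 2) := (isCoprime_col g).symm.pow_right
          have : colA g ^ 2 + t * (colA g * colC g) + colC g ^ 2 =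
              colA g ^ 2 + colC g * (t * colA g + colC g) := by ring
          rw [this]
          exact h2.add_mul_left_right _
        exact h1.of_isCoprime_of_dvd_right hq
      obtain ⟨u, v, huv⟩ := hc
      have hu : (u : ZMod N) * (colC g : ZMod N) = 1 := by
        have := congrArg (Int.cast : ℤ → ZMod N) huv
        push_cast at this
        simpa using this
      have hq' : (colA g : ZMod N) ^ 2 + (t : ZMod N) * ((colA g : ZMod N) * (colC g : ZMod N))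
          + (colC g : ZMod N) ^ 2 = 0 := by
        have := (ZMod.intCast_zmod_eq_zero_iff_dvd _ N).mpr hq
        push_cast at this
        exact this
      refine ⟨⟨(colA g : ZMod N) * u, ?_⟩, ?_⟩
      · linear_combination (u : ZMod N) ^ 2 * hq' -
          ((t : ZMod N) * (colA g : ZMod N) * (u : ZMod N) + 1
            + (u : ZMod N) * (colC g : ZMod N)) * hu
      · apply Subtype.ext
        simp only
        rw [mk_eq_mk_iff, hGA, hGC, ← ZMod.intCast_zmod_eq_zero_iff_dvd]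
        push_cast
        simp only [ZMod.natCast_val, ZMod.cast_id', id_eq, one_mul]
        linear_combination (colA g : ZMod N) * hu


/-- **(D2)** The number of cosets in `SL(2,ℤ) ⧸ Γ₀(N)` fixed by `S` is `ν₂(N)`. -/
theorem card_fixedBy_S [NeZero N] :
    Nat.card (MulAction.fixedBy (SL(2, ℤ) ⧸ Gamma0 N) S) = ModularCurve.nuTwo N := by
  rw [card_fixed_aux N S 0 (fun g => by rw [S_smul_mk_eq_iff]; simp), ModularCurve.nuTwo]
  refine Nat.card_congr (Equiv.subtypeEquivRight fun x => ?_)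
  simp

/-- **(D3)** The number of cosets in `SL(2,ℤ) ⧸ Γ₀(N)` fixed by `S * T` is `ν₃(N)`. -/
theorem card_fixedBy_ST [NeZero N] :
    Nat.card (MulAction.fixedBy (SL(2, ℤ) ⧸ Gamma0 N) (S * T)) = ModularCurve.nuThree N := by
  rw [card_fixed_aux N (S * T) 1 (fun g => by rw [ST_smul_mk_eq_iff]; simp), ModularCurve.nuThree]
  refine Nat.card_congr (Equiv.subtypeEquivRight fun x => ?_)
  simp


/-! ### (D4) orbits of `T` = cusps -/

/-- Solvability of a linear congruence. -/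
lemma exists_dvd_add_mul_of_gcd_dvd {d e : ℕ} {w b : ℤ} (hw : IsCoprime w (e : ℤ))
    (hb : ((Nat.gcd d e : ℕ) : ℤ) ∣ b) : ∃ k : ℤ, (e : ℤ) ∣ b + k * ((d : ℤ) * w) := by
  obtain ⟨x, y, hxy⟩ := hw
  obtain ⟨t, ht⟩ := hb
  have hbez : ((Nat.gcd d e : ℕ) : ℤ) = (d : ℤ) * Nat.gcdA d e + (e : ℤ) * Nat.gcdB d e :=
    Nat.gcd_eq_gcd_ab d e
  refine ⟨-(t * Nat.gcdA d e * x), ⟨t * Nat.gcdB d e + t * Nat.gcdA d e * d * y, ?_⟩⟩
  rw [ht, hbez]
  linear_combination (-(t * Nat.gcdA d e * d)) * hxy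

/-- Core equivalence, in decomposed form. -/
lemma core_iff {d e : ℕ} (hd : 0 < d) {a v a' v' : ℤ}
    (hv : IsCoprime v (e : ℤ)) (hv' : IsCoprime v' (e : ℤ)) :
    (∃ k : ℤ, ((d * e : ℕ) : ℤ) ∣ (a' + k * ((d : ℤ) * v')) * ((d : ℤ) * v) - ((d : ℤ) * v') * a) ↔
      ((Nat.gcd d e : ℕ) : ℤ) ∣ a' * v - a * v' := by
  have hd0 : (d : ℤ) ≠ 0 := by exact_mod_cast hd.ne'
  have key : ∀ k : ℤ, (a' + k * ((d : ℤ) * v')) * ((d : ℤ) * v) - ((d : ℤ) * v') * a =
      (d : ℤ) * ((a' * v - a * v') + k * ((d : ℤ) * (v * v'))) := fun k => by ring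
  constructor
  · rintro ⟨k, hk⟩
    rw [key, Nat.cast_mul, mul_dvd_mul_iff_left hd0] at hk
    have h1 : ((Nat.gcd d e : ℕ) : ℤ) ∣ (e : ℤ) := by exact_mod_cast Nat.gcd_dvd_right d e
    have h2 : ((Nat.gcd d e : ℕ) : ℤ) ∣ (d : ℤ) := by exact_mod_cast Nat.gcd_dvd_left d e
    have h3 := h1.trans hk
    have h4 : ((Nat.gcd d e : ℕ) : ℤ) ∣ k * ((d : ℤ) * (v * v')) :=
      Dvd.dvd.mul_left (Dvd.dvd.mul_right h2 _) _
    exact (dvd_add_left h4).mp h3
  · intro h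
    obtain ⟨k, hk⟩ := exists_dvd_add_mul_of_gcd_dvd (d := d) (hv.mul_left hv') h
    refine ⟨k, ?_⟩
    rw [key, Nat.cast_mul, mul_dvd_mul_iff_left hd0]
    exact hk

/-- Decomposition of `c` and `N` along `d = gcd(c, N)`. -/
lemma exists_decomp {N : ℕ} (hN : 0 < N) (c : ℤ) :
    ∃ v : ℤ, c = (Int.gcd c N : ℤ) * v ∧ IsCoprime v ((N / Int.gcd c N : ℕ) : ℤ) ∧
      N = Int.gcd c N * (N / Int.gcd c N) ∧ 0 < Int.gcd c N := by
  have hpos : 0 < Int.gcd c N := Int.gcd_pos_of_ne_zero_right _ (by exact_mod_cast hN.ne')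
  have hdN : Int.gcd c N ∣ N := by
    have := Int.gcd_dvd_right c N
    exact_mod_cast this
  refine ⟨c / (Int.gcd c N : ℤ), (Int.mul_ediv_cancel' (Int.gcd_dvd_left c N)).symm, ?_,
    (Nat.mul_div_cancel' hdN).symm, hpos⟩
  have := Int.gcd_div_gcd_div_gcd (i := c) (j := (N : ℤ)) hpos
  rw [← Int.isCoprime_iff_gcd_eq_one] at this
  convert this using 1
  rw [Int.natCast_div]

/-- The two gcd's agree along an orbit. -/
lemma gcd_eq_of_dvd {N : ℕ} {a c a' c' k : ℤ} (h : IsCoprime a c) (h' : IsCoprime a' c')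
    (hk : (N : ℤ) ∣ (a' + k * c') * c - c' * a) : Int.gcd c N = Int.gcd c' N := by
  obtain ⟨m, hm⟩ := hk
  have hdc : (Int.gcd c N : ℤ) ∣ c := Int.gcd_dvd_left c N
  have hdN : (Int.gcd c N : ℤ) ∣ (N : ℤ) := Int.gcd_dvd_right c N
  have hdc' : (Int.gcd c' N : ℤ) ∣ c' := Int.gcd_dvd_left c' N
  have hdN' : (Int.gcd c' N : ℤ) ∣ (N : ℤ) := Int.gcd_dvd_right c' N
  apply Nat.dvd_antisymm
  · rw [← Int.natCast_dvd_natCast]
    refine Int.dvd_coe_gcd ?_ hdN
    have h1 : (Int.gcd c N : ℤ) ∣ c' * a := by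
      have : c' * a = (a' + k * c') * c - (N : ℤ) * m := by linarith
      rw [this]
      exact dvd_sub (Dvd.dvd.mul_left hdc _) (Dvd.dvd.mul_right hdN _)
    have h2 : IsCoprime (Int.gcd c N : ℤ) a := IsCoprime.of_isCoprime_of_dvd_left h.symm hdc
    exact h2.dvd_of_dvd_mul_right h1
  · rw [← Int.natCast_dvd_natCast]
    refine Int.dvd_coe_gcd ?_ hdN'
    have h1 : (Int.gcd c' N : ℤ) ∣ (a' + k * c') * c := by
      have : (a' + k * c') * c = c' * a + (N : ℤ) * m := by linarith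
      rw [this]
      exact dvd_add (Dvd.dvd.mul_right hdc' _) (Dvd.dvd.mul_right hdN' _)
    have h2 : IsCoprime (Int.gcd c' N : ℤ) (a' + k * c') :=
      IsCoprime.of_isCoprime_of_dvd_left (h'.symm.add_mul_right_right k) hdc'
    exact h2.dvd_of_dvd_mul_left h1

/-- `G_d = gcd(d, N/d)`. -/
def GOf (N d : ℕ) : ℕ := Nat.gcd d (N / d)

/-- Integer form of the classification of `T`-orbits. -/
lemma orbit_iff {N : ℕ} (hN : 0 < N) {a c a' c' : ℤ} (h : IsCoprime a c) (h' : IsCoprime a' c') :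
    (∃ k : ℤ, (N : ℤ) ∣ (a' + k * c') * c - c' * a) ↔
      Int.gcd c N = Int.gcd c' N ∧
        ((GOf N (Int.gcd c N) : ℕ) : ℤ) ∣
          a' * (c / (Int.gcd c N : ℤ)) - a * (c' / (Int.gcd c N : ℤ)) := by
  obtain ⟨v, hcv, hve, hNe, hdpos⟩ := exists_decomp hN c
  obtain ⟨v', hcv', hve', hNe', -⟩ := exists_decomp hN c'
  have hd0 : (Int.gcd c N : ℤ) ≠ 0 := by exact_mod_cast hdpos.ne'
  have hv_eq : c / (Int.gcd c N : ℤ) = v := Int.ediv_eq_of_eq_mul_right hd0 hcv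
  constructor
  · rintro ⟨k, hk⟩
    have hdd := gcd_eq_of_dvd h h' hk
    refine ⟨hdd, ?_⟩
    rw [← hdd] at hcv' hve'
    have hv'_eq : c' / (Int.gcd c N : ℤ) = v' := Int.ediv_eq_of_eq_mul_right hd0 hcv'
    rw [hv_eq, hv'_eq]
    refine (core_iff hdpos hve hve').mp ⟨k, ?_⟩
    rw [← hNe, ← hcv, ← hcv']
    exact hk
  · rintro ⟨hdd, hι⟩
    rw [← hdd] at hcv' hve'
    have hv'_eq : c' / (Int.gcd c N : ℤ) = v' := Int.ediv_eq_of_eq_mul_right hd0 hcv'
    rw [hv_eq, hv'_eq] at hι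
    obtain ⟨k, hk⟩ := (core_iff hdpos hve hve').mpr hι
    refine ⟨k, ?_⟩
    rw [← hNe, ← hcv, ← hcv'] at hk
    exact hk

lemma GOf_pos {N d : ℕ} (hd : 0 < d) : 0 < GOf N d := Nat.gcd_pos_of_pos_left _ hd

lemma isUnit_intCast_of_isCoprime {G : ℕ} {x : ℤ} (h : IsCoprime x (G : ℤ)) :
    IsUnit ((x : ℤ) : ZMod G) := by
  obtain ⟨u, v, huv⟩ := h
  have := congrArg (Int.cast : ℤ → ZMod G) huv
  push_cast at this
  rw [ZMod.natCast_self, mul_zero, add_zero] at this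
  exact IsUnit.of_mul_eq_one _ (by rw [mul_comm]; exact this)

/-- `c / gcd(c,N)` is a unit modulo `G`. -/
lemma isUnit_quot {N : ℕ} (hN : 0 < N) (c : ℤ) :
    IsUnit (((c / (Int.gcd c N : ℤ) : ℤ)) : ZMod (GOf N (Int.gcd c N))) := by
  obtain ⟨v, hcv, hve, hNe, hdpos⟩ := exists_decomp hN c
  have hd0 : (Int.gcd c N : ℤ) ≠ 0 := by exact_mod_cast hdpos.ne'
  have hv_eq : c / (Int.gcd c N : ℤ) = v := Int.ediv_eq_of_eq_mul_right hd0 hcv
  rw [hv_eq]
  apply isUnit_intCast_of_isCoprime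
  refine IsCoprime.of_isCoprime_of_dvd_right hve ?_
  exact_mod_cast Nat.gcd_dvd_right _ _

/-- `a` is a unit modulo `G` when `(a, c)` is coprime. -/
lemma isUnit_colA {N : ℕ} {a c : ℤ} (h : IsCoprime a c) :
    IsUnit ((a : ℤ) : ZMod (GOf N (Int.gcd c N))) := by
  apply isUnit_intCast_of_isCoprime
  refine IsCoprime.of_isCoprime_of_dvd_right h ?_
  have h1 : ((GOf N (Int.gcd c N) : ℕ) : ℤ) ∣ (Int.gcd c N : ℤ) := by
    exact_mod_cast Nat.gcd_dvd_left _ _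
  exact h1.trans (Int.gcd_dvd_left c N)

/-- the residue invariant -/
noncomputable def rOfAt (N d : ℕ) (a c : ℤ) : ZMod (GOf N d) :=
  (a : ZMod (GOf N d)) * (((c / (d : ℤ) : ℤ)) : ZMod (GOf N d))⁻¹

lemma rOfAt_eq_iff {N : ℕ} (hN : 0 < N) {a c a' c' : ℤ} (hd : Int.gcd c N = Int.gcd c' N) :
    rOfAt N (Int.gcd c N) a c = rOfAt N (Int.gcd c N) a' c' ↔
      ((GOf N (Int.gcd c N) : ℕ) : ℤ) ∣
          a' * (c / (Int.gcd c N : ℤ)) - a * (c' / (Int.gcd c N : ℤ)) := by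
  have hv := isUnit_quot hN c
  have hv' := isUnit_quot hN c'
  rw [← hd] at hv'
  rw [← ZMod.intCast_zmod_eq_zero_iff_dvd]
  unfold rOfAt
  set G := GOf N (Int.gcd c N)
  set v : ZMod G := ((c / (Int.gcd c N : ℤ) : ℤ) : ZMod G) with hvdef
  set v' : ZMod G := ((c' / (Int.gcd c N : ℤ) : ℤ) : ZMod G) with hv'def
  have e1 : v * v⁻¹ = 1 := ZMod.mul_inv_of_unit _ hv
  have e2 : v' * v'⁻¹ = 1 := ZMod.mul_inv_of_unit _ hv'
  push_cast
  rw [← hvdef, ← hv'def]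
  constructor
  · intro h
    linear_combination (-(v * v')) * h + (a : ZMod G) * v' * e1 - (a' : ZMod G) * v * e2
  · intro h
    linear_combination (-(v⁻¹ * v'⁻¹)) * h + (- (a : ZMod G) * v⁻¹) * e2 + (a' : ZMod G) * v'⁻¹ * e1

/-- abstract counting principle -/
lemma card_eq_card_of_classify {A Q B : Type*} (π : A → Q) (hπ : Function.Surjective π)
    (Φ : A → B) (S : Finset B) (hS : ∀ b, b ∈ S ↔ ∃ a, Φ a = b)
    (h : ∀ a a', π a = π a' ↔ Φ a = Φ a') : Nat.card Q = S.card := by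
  choose s hs using hπ
  let F : Q → S := fun q => ⟨Φ (s q), (hS _).2 ⟨_, rfl⟩⟩
  have hF : Function.Bijective F := by
    constructor
    · intro q q' hqq
      have : Φ (s q) = Φ (s q') := congrArg Subtype.val hqq
      rw [← h, hs, hs] at this; exact this
    · rintro ⟨b, hb⟩
      obtain ⟨a, rfl⟩ := (hS b).1 hb
      refine ⟨π a, Subtype.ext ?_⟩
      show Φ (s (π a)) = Φ a
      rw [← h, hs]
  rw [Nat.card_eq_of_bijective F hF, Nat.card_eq_fintype_card, Fintype.card_coe]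

/-- classification map -/
noncomputable def Phi (N : ℕ) (g : SL(2, ℤ)) : Σ _ : ℕ, ℕ :=
  ⟨Int.gcd (colC g) N, (rOfAt N (Int.gcd (colC g) N) (colA g) (colC g)).val⟩

/-- the set of invariants -/
def targetSet (N : ℕ) : Finset (Σ _ : ℕ, ℕ) :=
  N.divisors.sigma (fun d => (Finset.range (GOf N d)).filter (fun r => (GOf N d).Coprime r))

lemma card_targetSet (N : ℕ) : (targetSet N).card = ModularCurve.cuspCount N := by
  rw [targetSet, Finset.card_sigma]
  rfl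

lemma Phi_eq_iff {N : ℕ} (hN : 0 < N) (g g' : SL(2, ℤ)) :
    Phi N g = Phi N g' ↔
      ∃ k : ℤ, (N : ℤ) ∣ (colA g' + k * colC g') * colC g - colC g' * colA g := by
  rw [orbit_iff hN (isCoprime_col g) (isCoprime_col g')]
  have hdpos : 0 < Int.gcd (colC g) N :=
    Int.gcd_pos_of_ne_zero_right _ (by exact_mod_cast hN.ne')
  have : NeZero (GOf N (Int.gcd (colC g) N)) := ⟨(GOf_pos hdpos).ne'⟩
  constructor
  · intro h
    unfold Phi at h
    obtain ⟨h1, h2⟩ := Sigma.mk.inj_iff.mp h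
    have h2' := eq_of_heq h2
    rw [← h1] at h2'
    exact ⟨h1, (rOfAt_eq_iff hN h1).mp (ZMod.val_injective _ h2')⟩
  · rintro ⟨h1, h2⟩
    unfold Phi
    rw [← h1]
    refine Sigma.mk.inj_iff.mpr ⟨rfl, heq_of_eq ?_⟩
    rw [(rOfAt_eq_iff hN h1).mpr h2]

lemma pi_eq_iff (N : ℕ) (g g' : SL(2, ℤ)) :
    (Quotient.mk'' (QuotientGroup.mk g : SL(2, ℤ) ⧸ Gamma0 N) :
        MulAction.orbitRel.Quotient (Subgroup.zpowers T) (SL(2, ℤ) ⧸ Gamma0 N)) =
      Quotient.mk'' (QuotientGroup.mk g') ↔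
      ∃ k : ℤ, (N : ℤ) ∣ (colA g' + k * colC g') * colC g - colC g' * colA g := by
  rw [Quotient.eq'', MulAction.orbitRel_apply, MulAction.mem_orbit_iff]
  constructor
  · rintro ⟨⟨t, ht⟩, hk⟩
    obtain ⟨k, rfl⟩ := Subgroup.mem_zpowers_iff.mp ht
    refine ⟨k, ?_⟩
    change T ^ k • (QuotientGroup.mk g' : SL(2, ℤ) ⧸ Gamma0 N) = QuotientGroup.mk g at hk
    rw [smul_mk, mk_eq_mk_iff, colA_T_zpow_mul, colC_T_zpow_mul] at hk
    exact hk
  · rintro ⟨k, hk⟩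
    refine ⟨⟨T ^ k, Subgroup.mem_zpowers_iff.mpr ⟨k, rfl⟩⟩, ?_⟩
    change T ^ k • (QuotientGroup.mk g' : SL(2, ℤ) ⧸ Gamma0 N) = QuotientGroup.mk g
    rw [smul_mk, mk_eq_mk_iff, colA_T_zpow_mul, colC_T_zpow_mul]
    exact hk

lemma isUnit_rOfAt {N : ℕ} (hN : 0 < N) (g : SL(2, ℤ)) :
    IsUnit (rOfAt N (Int.gcd (colC g) N) (colA g) (colC g)) := by
  unfold rOfAt
  refine IsUnit.mul (isUnit_colA (isCoprime_col g)) ?_
  have h := isUnit_quot hN (colC g)
  exact IsUnit.of_mul_eq_one _ (by rw [mul_comm]; exact ZMod.mul_inv_of_unit _ h)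

lemma Phi_mem_targetSet {N : ℕ} (hN : 0 < N) (g : SL(2, ℤ)) : Phi N g ∈ targetSet N := by
  have hdpos : 0 < Int.gcd (colC g) N :=
    Int.gcd_pos_of_ne_zero_right _ (by exact_mod_cast hN.ne')
  have : NeZero (GOf N (Int.gcd (colC g) N)) := ⟨(GOf_pos hdpos).ne'⟩
  unfold Phi targetSet
  rw [Finset.mem_sigma]
  refine ⟨?_, ?_⟩
  · rw [Nat.mem_divisors]
    refine ⟨?_, hN.ne'⟩
    have := Int.gcd_dvd_right (colC g) N
    exact_mod_cast this
  · rw [Finset.mem_filter, Finset.mem_range]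
    refine ⟨ZMod.val_lt _, ?_⟩
    obtain ⟨u, hu⟩ := isUnit_rOfAt hN g
    have := ZMod.val_coe_unit_coprime u
    rw [hu] at this
    exact this.symm

lemma exists_Phi_eq {N : ℕ} (hN : 0 < N) (b : Σ _ : ℕ, ℕ) (hb : b ∈ targetSet N) :
    ∃ g : SL(2, ℤ), Phi N g = b := by
  obtain ⟨d, r⟩ := b
  unfold targetSet at hb
  rw [Finset.mem_sigma, Finset.mem_filter, Finset.mem_range] at hb
  obtain ⟨hd, hr, hcop⟩ := hb
  simp only at hd hr hcop
  have hdN : d ∣ N := Nat.dvd_of_mem_divisors hd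
  have hdpos : 0 < d := Nat.pos_of_dvd_of_pos hdN hN
  have : NeZero d := ⟨hdpos.ne'⟩
  have : NeZero (GOf N d) := ⟨(GOf_pos hdpos).ne'⟩
  have hGd : GOf N d ∣ d := Nat.gcd_dvd_left _ _
  obtain ⟨w, hw⟩ := ZMod.unitsMap_surjective hGd (ZMod.unitOfCoprime r hcop.symm)
  have hcopa : IsCoprime (((w : ZMod d).val : ℕ) : ℤ) (d : ℤ) :=
    Nat.isCoprime_iff_coprime.mpr (ZMod.val_coe_unit_coprime w)
  obtain ⟨g, hgA, hgC⟩ := exists_col hcopa
  refine ⟨g, ?_⟩
  have hgcd : Int.gcd (colC g) N = d := by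
    rw [hgC, Int.gcd_natCast_natCast, Nat.gcd_eq_left hdN]
  unfold Phi
  rw [hgcd]
  refine Sigma.mk.inj_iff.mpr ⟨rfl, heq_of_eq ?_⟩
  unfold rOfAt
  rw [hgA, hgC, Int.ediv_self (by exact_mod_cast hdpos.ne')]
  have h1 : ((1 : ℤ) : ZMod (GOf N d))⁻¹ = 1 := by simp
  rw [h1, mul_one]
  have h2 : ((((w : ZMod d).val : ℕ) : ℤ) : ZMod (GOf N d)) = (r : ZMod (GOf N d)) := by
    have h3 := congrArg (fun u : (ZMod (GOf N d))ˣ => (u : ZMod (GOf N d))) hw
    simp only [ZMod.unitsMap_val, ZMod.coe_unitOfCoprime] at h3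
    rw [← h3]
    push_cast
    rw [ZMod.natCast_val]
  rw [h2, ZMod.val_natCast_of_lt hr]

/-- **(D4)** The number of orbits of `⟨T⟩` on `SL(2,ℤ) ⧸ Γ₀(N)` (= number of cusps of `Γ₀(N)`)
is `cuspCount N = ∑_{d ∣ N} φ(gcd(d, N/d))`. -/
theorem card_orbits_T (N : ℕ) [NeZero N] :
    Nat.card (MulAction.orbitRel.Quotient (Subgroup.zpowers T) (SL(2, ℤ) ⧸ Gamma0 N)) =
      ModularCurve.cuspCount N := by
  have hN : 0 < N := Nat.pos_of_ne_zero (NeZero.ne N)
  rw [← card_targetSet]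
  refine card_eq_card_of_classify
    (fun g : SL(2, ℤ) => (Quotient.mk'' (QuotientGroup.mk g : SL(2, ℤ) ⧸ Gamma0 N) :
      MulAction.orbitRel.Quotient (Subgroup.zpowers T) (SL(2, ℤ) ⧸ Gamma0 N))) ?_
    (Phi N) (targetSet N) (fun b => ⟨exists_Phi_eq hN b, ?_⟩)
    (fun g g' => by rw [pi_eq_iff, Phi_eq_iff hN])
  · intro q
    induction q using Quotient.inductionOn' with
    | h x =>
      induction x using QuotientGroup.induction_on with
      | H g => exact ⟨g, rfl⟩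
  · rintro ⟨g, rfl⟩
    exact Phi_mem_targetSet hN g

end Fermat.Agent.S24.Count87
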