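/-
S24, package COMB (cusp part): `numOrbits_T`, final Skeleton shape.
Proof: `Fermat.Agent.S24.Count87.card_orbits_T` (direct classification of `⟨T⟩`-orbits on
`SL(2,ℤ) ⧸ Γ₀(N)` by `(d, ι)` with `d = gcd(c, N)`, `ι ∈ (ℤ/gcd(d, N/d))ˣ`).
-/
import Fermat.Agent.S24.Defs
import Fermat.Agent.S24.Count87

set_option autoImplicit false

open scoped MatrixGroups
open ModularCurve

namespace Fermat.Agent.S24

theorem numOrbits_T (N : ℕ) [NeZero N] :
    numOrbits (X0Cosets N) ModularGroup.T = cuspCount N :=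
  Count87.card_orbits_T N

end Fermat.Agent.S24
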