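import Fermat.Agent.S24.CountPrim

set_option autoImplicit false

/-!
# S24, layer (D): the index of `Γ₀(N)` is the Dedekind psi function

`Nat.card (SL(2,ℤ) ⧸ Γ₀(N)) = dedekindPsi N`, by counting primitive vectors through the
Chinese remainder theorem.
-/

namespace Fermat.Agent.S24.Count

open Matrix Matrix.SpecialLinearGroup CongruenceSubgroup ModularGroup
open scoped MatrixGroups

open ModularCurve

/-- indicator of squarefree numbers as an arithmetic function. -/
def sqf : ArithmeticFunction ℕ := ⟨fun n => if Squarefree n then 1 else 0, by simp⟩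

lemma sqf_apply (n : ℕ) : sqf n = if Squarefree n then 1 else 0 := rfl

lemma isMultiplicative_sqf : sqf.IsMultiplicative := by
  constructor
  · simp [sqf_apply]
  · intro m n hmn
    have hg : m.gcd n = 1 := hmn
    simp only [sqf_apply, Nat.squarefree_mul_iff]
    by_cases hm : Squarefree m <;> by_cases hn : Squarefree n <;> simp [hm, hn, hg]

lemma dedekindPsi_eq (N : ℕ) : dedekindPsi N = (sqf * ArithmeticFunction.id) N := by
  rw [ArithmeticFunction.mul_apply,
    Nat.sum_divisorsAntidiagonal (fun i j => sqf i * ArithmeticFunction.id j), dedekindPsi,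
    Finset.sum_filter]
  refine Finset.sum_congr rfl (fun d _ => ?_)
  by_cases hd : Squarefree d <;> simp [sqf_apply, hd]

lemma dedekindPsi_mul {m n : ℕ} (h : m.Coprime n) :
    dedekindPsi (m * n) = dedekindPsi m * dedekindPsi n := by
  rw [dedekindPsi_eq, dedekindPsi_eq, dedekindPsi_eq]
  exact (isMultiplicative_sqf.mul ArithmeticFunction.isMultiplicative_id).map_mul_of_coprime h

lemma dedekindPsi_prime_pow {p k : ℕ} (hp : p.Prime) (hk : 0 < k) :
    dedekindPsi (p ^ k) = p ^ k + p ^ (k - 1) := by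
  obtain ⟨k, rfl⟩ : ∃ j, k = j + 1 := ⟨k - 1, by omega⟩
  rw [dedekindPsi, Nat.divisors_prime_pow hp, Finset.sum_filter, Finset.sum_map,
    Finset.sum_range_succ', Finset.sum_range_succ']
  simp only [Function.Embedding.coeFn_mk, pow_zero, squarefree_one, if_true, Nat.div_one,
    zero_add, pow_one, hp.prime.squarefree, Nat.add_sub_cancel]
  have h0 : ∀ i ∈ Finset.range k, (if Squarefree (p ^ (i + 1 + 1)) then p ^ (k + 1) / p ^ (i + 1 + 1) else 0) = 0 := by
    intro i _
    rw [if_neg]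
    intro hsq
    have := (Nat.squarefree_pow_iff hp.ne_one (by omega)).mp hsq
    omega
  rw [Finset.sum_eq_zero h0, zero_add, pow_succ, Nat.mul_div_cancel _ hp.pos, add_comm]

lemma isCoprime_prod_iff {A B : Type*} [CommRing A] [CommRing B] (x y : A × B) :
    IsCoprime x y ↔ IsCoprime x.1 y.1 ∧ IsCoprime x.2 y.2 := by
  constructor
  · intro h
    exact ⟨h.map (RingHom.fst A B), h.map (RingHom.snd A B)⟩
  · rintro ⟨⟨r, s, h⟩, ⟨r', s', h'⟩⟩
    exact ⟨(r, r'), (s, s'), Prod.ext h h'⟩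

/-- CRT for primitive vectors. -/
noncomputable def primProdEquiv {m n : ℕ} (h : m.Coprime n) : Prim (m * n) ≃ Prim m × Prim n where
  toFun v :=
    (⟨((ZMod.chineseRemainder h v.1.1).1, (ZMod.chineseRemainder h v.1.2).1),
      ((isCoprime_prod_iff _ _).mp (v.2.map (ZMod.chineseRemainder h).toRingHom)).1⟩,
     ⟨((ZMod.chineseRemainder h v.1.1).2, (ZMod.chineseRemainder h v.1.2).2),
      ((isCoprime_prod_iff _ _).mp (v.2.map (ZMod.chineseRemainder h).toRingHom)).2⟩)
  invFun w :=
    ⟨((ZMod.chineseRemainder h).symm (w.1.1.1, w.2.1.1),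
      (ZMod.chineseRemainder h).symm (w.1.1.2, w.2.1.2)),
      ((isCoprime_prod_iff (w.1.1.1, w.2.1.1) (w.1.1.2, w.2.1.2)).mpr ⟨w.1.2, w.2.2⟩).map
        (ZMod.chineseRemainder h).symm.toRingHom⟩
  left_inv v := by
    apply Prim.ext' <;> simp
  right_inv w := by
    refine Prod.ext (Prim.ext' ?_ ?_) (Prim.ext' ?_ ?_) <;> simp

lemma card_prim_mul {m n : ℕ} (h : m.Coprime n) :
    Nat.card (Prim (m * n)) = Nat.card (Prim m) * Nat.card (Prim n) := by
  rw [Nat.card_congr (primProdEquiv h), Nat.card_prod]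

lemma isCoprime_iff_isUnit_or {p k : ℕ} (hp : p.Prime) (hk : 0 < k) (a c : ZMod (p ^ k)) :
    IsCoprime a c ↔ IsUnit a ∨ IsUnit c := by
  have : NeZero (p ^ k) := ⟨pow_ne_zero _ hp.ne_zero⟩
  constructor
  · intro h
    by_contra hcon
    push Not at hcon
    obtain ⟨ha, hc⟩ := hcon
    rw [← ZMod.natCast_zmod_val a, ZMod.isUnit_iff_coprime] at ha
    rw [← ZMod.natCast_zmod_val c, ZMod.isUnit_iff_coprime] at hc
    rw [← ZMod.natCast_zmod_val a, ← ZMod.natCast_zmod_val c, isCoprime_natCast_iff] at h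
    have hpa : p ∣ a.val := by
      by_contra hpa
      exact ha ((hp.coprime_iff_not_dvd.mpr hpa).symm.pow_right k)
    have hpc : p ∣ c.val := by
      by_contra hpc
      exact hc ((hp.coprime_iff_not_dvd.mpr hpc).symm.pow_right k)
    have hpg : p ∣ Nat.gcd c.val (p ^ k) := Nat.dvd_gcd hpc (dvd_pow_self p hk.ne')
    have := Nat.dvd_gcd hpa hpg
    rw [h] at this
    exact hp.one_lt.ne' (Nat.dvd_one.mp this)
  · rintro (⟨u, rfl⟩ | ⟨u, rfl⟩)
    · exact ⟨((u⁻¹ : (ZMod (p ^ k))ˣ) : ZMod (p ^ k)), 0, by simp⟩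
    · exact ⟨0, ((u⁻¹ : (ZMod (p ^ k))ˣ) : ZMod (p ^ k)), by simp⟩

lemma card_isUnit (N : ℕ) [NeZero N] : Nat.card {a : ZMod N // IsUnit a} = Nat.totient N := by
  rw [← ZMod.card_units_eq_totient N, ← Nat.card_eq_fintype_card]
  refine Nat.card_congr ?_
  exact
    { toFun := fun a => a.2.unit
      invFun := fun u => ⟨u, u.isUnit⟩
      left_inv := fun a => Subtype.ext (IsUnit.unit_spec a.2)
      right_inv := fun u => IsUnit.unit_of_val_units _ }

lemma card_prim_prime_pow {p k : ℕ} (hp : p.Prime) (hk : 0 < k) :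
    Nat.card (Prim (p ^ k)) = Nat.totient (p ^ k) * (p ^ k + p ^ (k - 1)) := by
  classical
  have : NeZero (p ^ k) := ⟨pow_ne_zero _ hp.ne_zero⟩
  set N := p ^ k with hN
  have hφ : Nat.totient N = p ^ (k - 1) * (p - 1) := Nat.totient_prime_pow hp hk
  have hNp : N = p ^ (k - 1) * p := by rw [hN, ← pow_succ]; congr 1; omega
  -- the complement
  have h1 : Nat.card (Prim N) =
      Nat.card {v : ZMod N × ZMod N // IsUnit v.1 ∨ IsUnit v.2} := by
    refine Nat.card_congr (Equiv.subtypeEquivRight (fun v => ?_))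
    exact isCoprime_iff_isUnit_or hp hk v.1 v.2
  have h2 : Nat.card {v : ZMod N × ZMod N // IsUnit v.1 ∨ IsUnit v.2}
      + Nat.card {v : ZMod N × ZMod N // ¬ (IsUnit v.1 ∨ IsUnit v.2)}
      = N * N := by
    rw [Nat.card_eq_fintype_card, Nat.card_eq_fintype_card, Fintype.card_subtype_compl,
      ← Nat.add_sub_assoc (Fintype.card_subtype_le _), Nat.add_sub_cancel_left,
      Fintype.card_prod, ZMod.card]
  have h3 : Nat.card {v : ZMod N × ZMod N // ¬ (IsUnit v.1 ∨ IsUnit v.2)}
      = Nat.card {a : ZMod N // ¬ IsUnit a} * Nat.card {a : ZMod N // ¬ IsUnit a} := by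
    rw [← Nat.card_prod]
    refine Nat.card_congr ?_
    exact
      { toFun := fun v => (⟨v.1.1, fun h => v.2 (Or.inl h)⟩, ⟨v.1.2, fun h => v.2 (Or.inr h)⟩)
        invFun := fun w => ⟨(w.1.1, w.2.1), by
          rintro (h | h)
          · exact w.1.2 h
          · exact w.2.2 h⟩
        left_inv := fun v => rfl
        right_inv := fun w => rfl }
  have h4 : Nat.card {a : ZMod N // IsUnit a} + Nat.card {a : ZMod N // ¬ IsUnit a} = N := by
    rw [Nat.card_eq_fintype_card, Nat.card_eq_fintype_card, Fintype.card_subtype_compl,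
      ← Nat.add_sub_assoc (Fintype.card_subtype_le _), Nat.add_sub_cancel_left, ZMod.card]
  rw [card_isUnit] at h4
  rw [h1]
  set A := Nat.card {v : ZMod N × ZMod N // IsUnit v.1 ∨ IsUnit v.2}
  set B := Nat.card {a : ZMod N // ¬ IsUnit a}
  rw [h3] at h2
  have hp1 : 1 ≤ p := hp.one_lt.le
  obtain ⟨q, hq⟩ : ∃ q, p = q + 1 := ⟨p - 1, by omega⟩
  set M := p ^ (k - 1)
  rw [hφ] at h4 ⊢
  rw [hNp] at h2 h4 ⊢
  have hB : B = M := by
    rw [hq] at h4
    simp only [Nat.add_sub_cancel] at h4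
    nlinarith
  rw [hB] at h2
  rw [hq] at h2 ⊢
  simp only [Nat.add_sub_cancel]
  nlinarith

theorem card_prim (N : ℕ) (hN : N ≠ 0) :
    Nat.card (Prim N) = Nat.totient N * dedekindPsi N := by
  induction N using Nat.recOnPosPrimePosCoprime with
  | prime_pow p n hp hn =>
    rw [card_prim_prime_pow hp hn, dedekindPsi_prime_pow hp hn]
  | zero => exact absurd rfl hN
  | one =>
    rw [Nat.totient_one, dedekindPsi_one, one_mul]
    have : Subsingleton (Prim 1) :=
      ⟨fun v w => Prim.ext' (Subsingleton.elim _ _) (Subsingleton.elim _ _)⟩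
    have : Nonempty (Prim 1) := ⟨⟨(0, 0), ⟨0, 0, Subsingleton.elim _ _⟩⟩⟩
    exact Nat.card_unique
  | coprime a b ha hb hab iha ihb =>
    have ha0 : a ≠ 0 := by omega
    have hb0 : b ≠ 0 := by omega
    rw [card_prim_mul hab, iha ha0, ihb hb0, Nat.totient_mul hab, dedekindPsi_mul hab]
    ring

/-- **D1**: the index of `Γ₀(N)` in `SL(2,ℤ)` is `ψ(N)`. -/
theorem card_X (N : ℕ) [NeZero N] : Nat.card (X N) = dedekindPsi N := by
  have h := card_prim_subtype (N := N) (fun _ => True) (fun _ => True)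
    (fun _ _ => Iff.rfl) (fun _ => Iff.rfl)
  have e1 : Nat.card {v : Prim N // True} = Nat.card (Prim N) :=
    Nat.card_congr (Equiv.subtypeUnivEquiv (fun _ => trivial))
  have e2 : Nat.card {x : X N // True} = Nat.card (X N) :=
    Nat.card_congr (Equiv.subtypeUnivEquiv (fun _ => trivial))
  rw [e1, e2, card_prim N (NeZero.ne N)] at h
  exact (Nat.eq_of_mul_eq_mul_left (Nat.totient_pos.mpr (Nat.pos_of_ne_zero (NeZero.ne N))) h).symm

theorem index_Gamma0 (N : ℕ) [NeZero N] : (Gamma0 N).index = dedekindPsi N := by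
  rw [Subgroup.index, ← card_X N]

end Fermat.Agent.S24.Count
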