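/-
S24, package (D0): the projective line `P1 R` over a commutative ring `R`
(unimodular column vectors modulo units) with its `SL(2, R)`-action.
-/
import Mathlib

set_option autoImplicit false
set_option linter.dupNamespace false

open scoped MatrixGroups
open Matrix

namespace Fermat.Agent.S24.P1

variable {R : Type*} [CommRing R]

/-- `(x, y)` is unimodular: it generates the unit ideal. -/
def IsUnimod (x y : R) : Prop := ∃ a b : R, a * x + b * y = 1

theorem isUnimod_one_left (y : R) : IsUnimod (1 : R) y := ⟨1, 0, by ring⟩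

theorem isUnimod_one_right (x : R) : IsUnimod x (1 : R) := ⟨0, 1, by ring⟩

theorem IsUnimod.unit_mul {x y : R} (h : IsUnimod x y) (u : Rˣ) :
    IsUnimod ((u : R) * x) ((u : R) * y) := by
  obtain ⟨a, b, hab⟩ := h
  refine ⟨a * (↑u⁻¹ : R), b * (↑u⁻¹ : R), ?_⟩
  have hu : (↑u⁻¹ : R) * (u : R) = 1 := Units.inv_mul u
  linear_combination (a * x + b * y) * hu + hab

theorem IsUnimod.map {S : Type*} [CommRing S] (f : R →+* S) {x y : R} (h : IsUnimod x y) :
    IsUnimod (f x) (f y) := by
  obtain ⟨a, b, hab⟩ := h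
  refine ⟨f a, f b, ?_⟩
  rw [← map_mul, ← map_mul, ← map_add, hab, map_one]

theorem det_eq_one (g : SL(2, R)) : g 0 0 * g 1 1 - g 0 1 * g 1 0 = 1 := by
  have h := g.det_coe
  rwa [Matrix.det_fin_two] at h

/-- The action of `SL(2, R)` on column vectors. -/
def actVec (g : SL(2, R)) (v : R × R) : R × R :=
  (g 0 0 * v.1 + g 0 1 * v.2, g 1 0 * v.1 + g 1 1 * v.2)

@[simp] theorem actVec_fst (g : SL(2, R)) (v : R × R) :
    (actVec g v).1 = g 0 0 * v.1 + g 0 1 * v.2 := rfl

@[simp] theorem actVec_snd (g : SL(2, R)) (v : R × R) :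
    (actVec g v).2 = g 1 0 * v.1 + g 1 1 * v.2 := rfl

theorem actVec_one (v : R × R) : actVec (1 : SL(2, R)) v = v := by
  ext <;> simp [actVec]

theorem actVec_mul (g h : SL(2, R)) (v : R × R) :
    actVec (g * h) v = actVec g (actVec h v) := by
  ext <;> simp [actVec, Matrix.mul_apply, Fin.sum_univ_two] <;> ring

theorem IsUnimod.actVec {x y : R} (h : IsUnimod x y) (g : SL(2, R)) :
    IsUnimod (actVec g (x, y)).1 (actVec g (x, y)).2 := by
  obtain ⟨a, b, hab⟩ := h
  refine ⟨a * g 1 1 - b * g 1 0, -a * g 0 1 + b * g 0 0, ?_⟩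
  have hdet := det_eq_one g
  simp only [actVec_fst, actVec_snd]
  linear_combination (a * x + b * y) * hdet + hab

variable (R) in
/-- Unimodular column vectors. -/
def UVec : Type _ := {v : R × R // IsUnimod v.1 v.2}

variable (R) in
/-- Two unimodular vectors are equivalent if they differ by a unit. -/
def uvecSetoid : Setoid (UVec R) where
  r v w := ∃ u : Rˣ, w.1.1 = (u : R) * v.1.1 ∧ w.1.2 = (u : R) * v.1.2
  iseqv :=
    { refl := fun v => ⟨1, by simp, by simp⟩
      symm := by
        rintro v w ⟨u, h1, h2⟩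
        refine ⟨u⁻¹, ?_, ?_⟩
        · rw [h1, ← mul_assoc, Units.inv_mul, one_mul]
        · rw [h2, ← mul_assoc, Units.inv_mul, one_mul]
      trans := by
        rintro v w z ⟨u, h1, h2⟩ ⟨u', h1', h2'⟩
        refine ⟨u' * u, ?_, ?_⟩
        · rw [h1', h1, Units.val_mul, mul_assoc]
        · rw [h2', h2, Units.val_mul, mul_assoc] }

variable (R) in
/-- The projective line over the commutative ring `R`. -/
def P1 : Type _ := Quotient (uvecSetoid R)

/-- The point `(x : y)` of the projective line. -/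
def mk (x y : R) (h : IsUnimod x y) : P1 R := Quotient.mk (uvecSetoid R) ⟨(x, y), h⟩

theorem mk_eq_mk_iff {x y x' y' : R} {h : IsUnimod x y} {h' : IsUnimod x' y'} :
    mk x y h = mk x' y' h' ↔ ∃ u : Rˣ, x' = (u : R) * x ∧ y' = (u : R) * y := by
  constructor
  · intro e
    exact Quotient.exact e
  · intro e
    exact Quotient.sound e

theorem mk_unit_mul {x y : R} (h : IsUnimod x y) (u : Rˣ) :
    mk ((u : R) * x) ((u : R) * y) (h.unit_mul u) = mk x y h :=
  (mk_eq_mk_iff.2 ⟨u, rfl, rfl⟩).symm

@[elab_as_elim]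
theorem ind {motive : P1 R → Prop} (h : ∀ (x y : R) (hxy : IsUnimod x y), motive (mk x y hxy))
    (p : P1 R) : motive p := by
  induction p using Quotient.inductionOn with
  | _ v => exact h v.1.1 v.1.2 v.2

/-- `SL(2, R)` acts on unimodular vectors. -/
def actUVec (g : SL(2, R)) (v : UVec R) : UVec R := ⟨actVec g v.1, v.2.actVec g⟩

/-- `SL(2, R)` acts on the projective line. -/
def act (g : SL(2, R)) : P1 R → P1 R :=
  Quotient.map (actUVec g) (by
    rintro v w ⟨u, h1, h2⟩
    refine ⟨u, ?_, ?_⟩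
    · show (actVec g w.1).1 = u * (actVec g v.1).1
      simp only [actVec_fst, h1, h2]; ring
    · show (actVec g w.1).2 = u * (actVec g v.1).2
      simp only [actVec_snd, h1, h2]; ring)

theorem act_mk (g : SL(2, R)) (x y : R) (h : IsUnimod x y) :
    act g (mk x y h) = mk (g 0 0 * x + g 0 1 * y) (g 1 0 * x + g 1 1 * y) (h.actVec g) := rfl

instance : MulAction SL(2, R) (P1 R) where
  smul := act
  one_smul p := by
    induction p using ind with
    | _ x y h =>
      show act 1 (mk x y h) = mk x y h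
      rw [act_mk]
      exact mk_eq_mk_iff.2 ⟨1, by simp, by simp⟩
  mul_smul g g' p := by
    induction p using ind with
    | _ x y h =>
      show act (g * g') (mk x y h) = act g (act g' (mk x y h))
      rw [act_mk, act_mk, act_mk]
      refine mk_eq_mk_iff.2 ⟨1, ?_, ?_⟩
      · simp [Matrix.mul_apply, Fin.sum_univ_two]; ring
      · simp [Matrix.mul_apply, Fin.sum_univ_two]; ring

theorem smul_mk (g : SL(2, R)) (x y : R) (h : IsUnimod x y) :
    g • mk x y h = mk (g 0 0 * x + g 0 1 * y) (g 1 0 * x + g 1 1 * y) (h.actVec g) := rfl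

/-- The point `(1 : 0)`. -/
def infty : P1 R := mk 1 0 (isUnimod_one_left 0)

theorem smul_infty (g : SL(2, R)) :
    g • (infty : P1 R) = mk (g 0 0) (g 1 0) ⟨g 1 1, -g 0 1, by
      have := det_eq_one g; linear_combination this⟩ := by
  unfold infty
  rw [smul_mk]
  exact mk_eq_mk_iff.2 ⟨1, by simp, by simp⟩

theorem smul_infty_eq_infty_iff (g : SL(2, R)) : g • (infty : P1 R) = infty ↔ g 1 0 = 0 := by
  rw [smul_infty]
  unfold infty
  rw [mk_eq_mk_iff]
  constructor
  · rintro ⟨u, _, h2⟩
    have : (u : R) * g 1 0 = 0 := h2.symm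
    simpa using congrArg (fun t => (↑u⁻¹ : R) * t) this
  · intro h
    have hdet := det_eq_one g
    rw [h, mul_zero, sub_zero] at hdet
    refine ⟨⟨g 1 1, g 0 0, by rw [mul_comm]; exact hdet, hdet⟩, ?_, ?_⟩
    · simp only []
      rw [mul_comm]; exact hdet.symm
    · rw [h, mul_zero]

section map

variable {S : Type*} [CommRing S] (f : R →+* S)

/-- Functoriality of the projective line. -/
def map : P1 R → P1 S :=
  Quotient.map (fun v : UVec R => (⟨(f v.1.1, f v.1.2), v.2.map f⟩ : UVec S)) (by
    rintro v w ⟨u, h1, h2⟩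
    refine ⟨Units.map (f : R →* S) u, ?_, ?_⟩
    · show f w.1.1 = f u * f v.1.1
      rw [h1, map_mul]
    · show f w.1.2 = f u * f v.1.2
      rw [h2, map_mul])

theorem map_mk (x y : R) (h : IsUnimod x y) : map f (mk x y h) = mk (f x) (f y) (h.map f) := rfl

theorem map_smul (g : SL(2, R)) (p : P1 R) :
    map f (g • p) = SpecialLinearGroup.map f g • map f p := by
  induction p using ind with
  | _ x y h =>
    rw [smul_mk, map_mk, map_mk, smul_mk]
    refine mk_eq_mk_iff.2 ⟨1, ?_, ?_⟩ <;> simp [SpecialLinearGroup.map_apply_coe]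

theorem map_infty : map f (infty : P1 R) = infty := by
  unfold infty
  rw [map_mk]
  exact mk_eq_mk_iff.2 ⟨1, by simp, by simp⟩

end map

end Fermat.Agent.S24.P1
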