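/-
S24, package (D0): `SL(2, ℤ) ⧸ Gamma0 N ≃ P1 (ZMod N)`, equivariantly.
-/
import Mathlib
import Fermat.Agent.S24.P1

set_option autoImplicit false

open scoped MatrixGroups
open Matrix CongruenceSubgroup

namespace Fermat.Agent.S24.P1

/-- Reduction modulo `N`. -/
def red (N : ℕ) : SL(2, ℤ) →* SL(2, ZMod N) :=
  SpecialLinearGroup.map (Int.castRingHom (ZMod N))

theorem red_apply (N : ℕ) (g : SL(2, ℤ)) (i j : Fin 2) :
    red N g i j = ((g i j : ℤ) : ZMod N) := by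
  simp [red]

theorem mem_Gamma0_iff_red (N : ℕ) (g : SL(2, ℤ)) : g ∈ Gamma0 N ↔ red N g 1 0 = 0 := by
  rw [Gamma0_mem, red_apply]

theorem mem_Gamma0_iff_smul_infty (N : ℕ) (g : SL(2, ℤ)) :
    g ∈ Gamma0 N ↔ red N g • (infty : P1 (ZMod N)) = infty := by
  rw [mem_Gamma0_iff_red, smul_infty_eq_infty_iff]

/-- Coprime lifting: if `gcd(x, y, N) = 1` and `x ≠ 0` then `y` can be moved modulo `N` to be
coprime to `x`. -/
theorem exists_isCoprime_add_mul (x y N : ℤ) (hx : x ≠ 0)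
    (h : ∃ a b c : ℤ, a * x + b * y + c * N = 1) : ∃ k : ℤ, IsCoprime x (y + k * N) := by
  classical
  obtain ⟨a, b, c, habc⟩ := h
  let ps : Finset ℕ := {p ∈ x.natAbs.primeFactors | ¬ (p : ℤ) ∣ y}
  refine ⟨∏ p ∈ ps, (p : ℤ), ?_⟩
  rw [Int.isCoprime_iff_gcd_eq_one]
  by_contra hne
  obtain ⟨p, hp, hpdvd⟩ := Nat.exists_prime_and_dvd hne
  have hpx : (p : ℤ) ∣ x := by
    have : (p : ℤ) ∣ ((Int.gcd x (y + (∏ p ∈ ps, (p : ℤ)) * N) : ℕ) : ℤ) := by
      exact_mod_cast hpdvd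
    exact this.trans (Int.gcd_dvd_left _ _)
  have hpy : (p : ℤ) ∣ y + (∏ p ∈ ps, (p : ℤ)) * N := by
    have : (p : ℤ) ∣ ((Int.gcd x (y + (∏ p ∈ ps, (p : ℤ)) * N) : ℕ) : ℤ) := by
      exact_mod_cast hpdvd
    exact this.trans (Int.gcd_dvd_right _ _)
  have hpP : Prime (p : ℤ) := Nat.prime_iff_prime_int.mp hp
  have hpmem : p ∈ x.natAbs.primeFactors := by
    rw [Nat.mem_primeFactors]
    refine ⟨hp, ?_, by simpa using hx⟩
    exact Int.natCast_dvd.mp hpx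
  by_cases hy : (p : ℤ) ∣ y
  · -- then `p ∣ k * N`, so `p ∣ k` or `p ∣ N`
    have h1 : (p : ℤ) ∣ (∏ p ∈ ps, (p : ℤ)) * N := (dvd_add_right hy).mp hpy
    rcases hpP.dvd_or_dvd h1 with h2 | h2
    · obtain ⟨q, hq, hpq⟩ := (Prime.dvd_finsetProd_iff hpP _).mp h2
      have hq' : ¬ (q : ℤ) ∣ y := (Finset.mem_filter.mp hq).2
      have hqprime : q.Prime := Nat.prime_of_mem_primeFactors (Finset.mem_filter.mp hq).1
      have : p = q := by
        have : p ∣ q := by exact_mod_cast hpq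
        exact (Nat.prime_dvd_prime_iff_eq hp hqprime).mp this
      exact hq' (this ▸ hy)
    · have : (p : ℤ) ∣ 1 := by
        rw [← habc]
        exact dvd_add (dvd_add (hpx.mul_left a) (hy.mul_left b)) (h2.mul_left c)
      exact hpP.not_dvd_one this
  · have hmem : p ∈ ps := Finset.mem_filter.mpr ⟨hpmem, hy⟩
    have h1 : (p : ℤ) ∣ (∏ p ∈ ps, (p : ℤ)) * N :=
      (Finset.dvd_prod_of_mem (fun p : ℕ => (p : ℤ)) hmem).mul_right N
    exact hy ((dvd_add_left h1).mp hpy)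

/-- Every unimodular pair modulo `N` is the reduction of a coprime pair of integers. -/
theorem exists_isCoprime_lift (N : ℕ) [NeZero N] {x y : ZMod N} (h : IsUnimod x y) :
    ∃ a c : ℤ, IsCoprime a c ∧ (a : ZMod N) = x ∧ (c : ZMod N) = y := by
  obtain ⟨r, s, hrs⟩ := h
  obtain ⟨x₀, rfl⟩ := ZMod.intCast_surjective x
  obtain ⟨y₀, rfl⟩ := ZMod.intCast_surjective y
  obtain ⟨r₀, rfl⟩ := ZMod.intCast_surjective r
  obtain ⟨s₀, rfl⟩ := ZMod.intCast_surjective s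
  have h1 : ((r₀ * x₀ + s₀ * y₀ - 1 : ℤ) : ZMod N) = 0 := by
    push_cast
    rw [hrs, sub_self]
  obtain ⟨t, ht⟩ := (ZMod.intCast_zmod_eq_zero_iff_dvd _ N).mp h1
  have hN : (N : ℤ) ≠ 0 := by exact_mod_cast NeZero.ne N
  -- replace `x₀` by a nonzero representative
  obtain ⟨x₁, hx₁, hx₁0, j, hj⟩ : ∃ x₁ : ℤ, (x₁ : ZMod N) = (x₀ : ZMod N) ∧ x₁ ≠ 0 ∧
      ∃ j : ℤ, x₁ = x₀ + j * N := by
    by_cases hx0 : x₀ = 0
    · exact ⟨N, by simp [hx0], hN, 1, by simp [hx0]⟩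
    · exact ⟨x₀, rfl, hx0, 0, by simp⟩
  obtain ⟨k, hk⟩ := exists_isCoprime_add_mul x₁ y₀ N hx₁0
    ⟨r₀, s₀, -t - r₀ * j, by rw [hj]; linear_combination ht⟩
  refine ⟨x₁, y₀ + k * N, hk, hx₁, ?_⟩
  push_cast
  simp

/-- A coprime pair of integers is the first column of an element of `SL(2, ℤ)`. -/
theorem exists_SL2Z_of_isCoprime {a c : ℤ} (h : IsCoprime a c) :
    ∃ g : SL(2, ℤ), g 0 0 = a ∧ g 1 0 = c := by
  obtain ⟨u, v, huv⟩ := h
  refine ⟨⟨!![a, -v; c, u], ?_⟩, rfl, rfl⟩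
  rw [Matrix.det_fin_two_of]
  linear_combination huv

/-- `SL(2, ℤ)` acts transitively on `P1 (ZMod N)`. -/
theorem exists_red_smul_infty (N : ℕ) [NeZero N] (p : P1 (ZMod N)) :
    ∃ g : SL(2, ℤ), red N g • (infty : P1 (ZMod N)) = p := by
  induction p using ind with
  | _ x y h =>
    obtain ⟨a, c, hac, rfl, rfl⟩ := exists_isCoprime_lift N h
    obtain ⟨g, hg0, hg1⟩ := exists_SL2Z_of_isCoprime hac
    refine ⟨g, ?_⟩
    rw [smul_infty]
    refine mk_eq_mk_iff.2 ⟨1, ?_, ?_⟩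
    · rw [red_apply, hg0]; simp
    · rw [red_apply, hg1]; simp

/-- The map `g Γ₀(N) ↦ g • (1 : 0)`. -/
def toP1 (N : ℕ) : SL(2, ℤ) ⧸ Gamma0 N → P1 (ZMod N) :=
  Quotient.lift (fun g : SL(2, ℤ) => red N g • (infty : P1 (ZMod N))) (by
    intro g g' hgg'
    have h : g⁻¹ * g' ∈ Gamma0 N := QuotientGroup.leftRel_apply.mp hgg'
    rw [mem_Gamma0_iff_smul_infty, map_mul, mul_smul, map_inv, inv_smul_eq_iff] at h
    exact h.symm)

theorem toP1_mk (N : ℕ) (g : SL(2, ℤ)) :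
    toP1 N (g : SL(2, ℤ) ⧸ Gamma0 N) = red N g • (infty : P1 (ZMod N)) := rfl

theorem toP1_smul (N : ℕ) (g : SL(2, ℤ)) (x : SL(2, ℤ) ⧸ Gamma0 N) :
    toP1 N (g • x) = red N g • toP1 N x := by
  induction x using QuotientGroup.induction_on with
  | _ g' =>
    rw [MulAction.Quotient.smul_mk, toP1_mk, toP1_mk, smul_eq_mul, map_mul, mul_smul]

theorem toP1_injective (N : ℕ) : Function.Injective (toP1 N) := by
  intro x x'
  induction x using QuotientGroup.induction_on with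
  | _ g =>
    induction x' using QuotientGroup.induction_on with
    | _ g' =>
      intro h
      rw [toP1_mk, toP1_mk] at h
      rw [QuotientGroup.eq, mem_Gamma0_iff_smul_infty, map_mul, mul_smul, map_inv,
        inv_smul_eq_iff]
      exact h.symm

theorem toP1_surjective (N : ℕ) [NeZero N] : Function.Surjective (toP1 N) := by
  intro p
  obtain ⟨g, hg⟩ := exists_red_smul_infty N p
  exact ⟨(g : SL(2, ℤ) ⧸ Gamma0 N), hg⟩

/-- `SL(2, ℤ) ⧸ Γ₀(N) ≃ ℙ¹(ℤ/N)`. -/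
noncomputable def equivP1 (N : ℕ) [NeZero N] : SL(2, ℤ) ⧸ Gamma0 N ≃ P1 (ZMod N) :=
  Equiv.ofBijective (toP1 N) ⟨toP1_injective N, toP1_surjective N⟩

theorem equivP1_apply (N : ℕ) [NeZero N] (x : SL(2, ℤ) ⧸ Gamma0 N) :
    equivP1 N x = toP1 N x := rfl

theorem equivP1_smul (N : ℕ) [NeZero N] (g : SL(2, ℤ)) (x : SL(2, ℤ) ⧸ Gamma0 N) :
    equivP1 N (g • x) = red N g • equivP1 N x := toP1_smul N g x

theorem equivP1_symm_smul (N : ℕ) [NeZero N] (g : SL(2, ℤ)) (p : P1 (ZMod N)) :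
    (equivP1 N).symm (red N g • p) = g • (equivP1 N).symm p := by
  apply (equivP1 N).injective
  rw [Equiv.apply_symm_apply, equivP1_smul, Equiv.apply_symm_apply]

end Fermat.Agent.S24.P1
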