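/-
S24, packages (D2), (D3): fixed points of `S` and `S * T` on `SL(2, ℤ) ⧸ Gamma0 N`.
-/
import Mathlib
import Fermat.Prelude.Def_ModularCurve_GenusNumerics
import Fermat.Agent.S24.P1Gamma0

set_option autoImplicit false

open scoped MatrixGroups
open Matrix CongruenceSubgroup

namespace Fermat.Agent.S24.P1

section general

variable {R : Type*} [CommRing R]

variable (R) in
/-- The matrix `S = [[0, -1], [1, 0]]` over any commutative ring. -/
def Smat : SL(2, R) := ⟨!![0, -1; 1, 0], by simp [Matrix.det_fin_two_of]⟩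

variable (R) in
/-- The matrix `S * T = [[0, -1], [1, 1]]` over any commutative ring. -/
def STmat : SL(2, R) := ⟨!![0, -1; 1, 1], by simp [Matrix.det_fin_two_of]⟩

theorem IsUnimod.rotS {x y : R} (h : IsUnimod x y) : IsUnimod (-y) x := by
  obtain ⟨a, b, hab⟩ := h
  exact ⟨-b, a, by linear_combination hab⟩

theorem IsUnimod.rotST {x y : R} (h : IsUnimod x y) : IsUnimod (-y) (x + y) := by
  obtain ⟨a, b, hab⟩ := h
  exact ⟨a - b, a, by linear_combination hab⟩

theorem Smat_smul_mk (x y : R) (h : IsUnimod x y) :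
    Smat R • mk x y h = mk (-y) x h.rotS := by
  rw [smul_mk]
  refine mk_eq_mk_iff.2 ⟨1, ?_, ?_⟩ <;> simp [Smat]

theorem STmat_smul_mk (x y : R) (h : IsUnimod x y) :
    STmat R • mk x y h = mk (-y) (x + y) h.rotST := by
  rw [smul_mk]
  refine mk_eq_mk_iff.2 ⟨1, ?_, ?_⟩ <;> simp [STmat]

/-- The fixed point `(t : 1)` of `S` attached to a root of `t ^ 2 + 1`. -/
def fixS (t : {t : R // t ^ 2 + 1 = 0}) : MulAction.fixedBy (P1 R) (Smat R) :=
  ⟨mk t.1 1 (isUnimod_one_right _), by
    rw [MulAction.mem_fixedBy, Smat_smul_mk]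
    have ht : t.1 * (-t.1) = 1 := by linear_combination -t.2
    refine mk_eq_mk_iff.2 ⟨⟨-t.1, t.1, by rw [mul_comm]; exact ht, ht⟩, ?_, ?_⟩
    · show t.1 = -t.1 * -1
      ring
    · show (1 : R) = -t.1 * t.1
      linear_combination t.2⟩

theorem fixS_injective : Function.Injective (fixS (R := R)) := by
  intro t t' h
  have h' : mk t.1 1 (isUnimod_one_right _) = mk t'.1 1 (isUnimod_one_right _) :=
    congrArg Subtype.val h
  obtain ⟨u, h1, h2⟩ := mk_eq_mk_iff.1 h'
  have hu : (u : R) = 1 := by simpa using h2.symm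
  apply Subtype.ext
  rw [h1, hu, one_mul]

theorem fixS_surjective : Function.Surjective (fixS (R := R)) := by
  rintro ⟨p, hp⟩
  induction p using ind with
  | _ x y h =>
    rw [MulAction.mem_fixedBy, Smat_smul_mk] at hp
    obtain ⟨u, h1, h2⟩ := mk_eq_mk_iff.1 hp
    -- `h1 : x = u * -y`, `h2 : y = u * x`
    obtain ⟨a, b, hab⟩ := h
    have hx : x * (a + b * u) = 1 := by rw [h2] at hab; linear_combination hab
    let xU : Rˣ := ⟨x, a + b * u, hx, by rw [mul_comm]; exact hx⟩
    have hu2 : (u : R) ^ 2 = -1 := by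
      have e : (1 + (u : R) ^ 2) * x = 0 := by rw [h2] at h1; linear_combination h1
      have e' := congrArg (· * (a + b * u)) e
      simp only [mul_assoc, hx, mul_one, zero_mul] at e'
      linear_combination e'
    refine ⟨⟨-(u : R), by linear_combination hu2⟩, Subtype.ext ?_⟩
    refine mk_eq_mk_iff.2 ⟨u * xU, ?_, ?_⟩
    · show x = ↑(u * xU) * -(u : R)
      rw [Units.val_mul]
      show x = u * x * -u
      linear_combination x * hu2
    · show y = ↑(u * xU) * 1
      rw [Units.val_mul, mul_one]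
      exact h2

/-- Fixed points of `S` on `ℙ¹(R)` correspond to roots of `t ^ 2 + 1`. -/
noncomputable def fixSEquiv : {t : R // t ^ 2 + 1 = 0} ≃ MulAction.fixedBy (P1 R) (Smat R) :=
  Equiv.ofBijective fixS ⟨fixS_injective, fixS_surjective⟩

/-- The fixed point `(1 : t)` of `S * T` attached to a root of `t ^ 2 + t + 1`. -/
def fixST (t : {t : R // t ^ 2 + t + 1 = 0}) : MulAction.fixedBy (P1 R) (STmat R) :=
  ⟨mk 1 t.1 (isUnimod_one_left _), by
    rw [MulAction.mem_fixedBy, STmat_smul_mk]
    have ht : (1 + t.1) * (-t.1) = 1 := by linear_combination -t.2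
    refine mk_eq_mk_iff.2 ⟨⟨1 + t.1, -t.1, ht, by rw [mul_comm]; exact ht⟩, ?_, ?_⟩
    · show (1 : R) = (1 + t.1) * -t.1
      exact ht.symm
    · show t.1 = (1 + t.1) * (1 + t.1)
      linear_combination -t.2⟩

theorem fixST_injective : Function.Injective (fixST (R := R)) := by
  intro t t' h
  have h' : mk 1 t.1 (isUnimod_one_left _) = mk 1 t'.1 (isUnimod_one_left _) :=
    congrArg Subtype.val h
  obtain ⟨u, h1, h2⟩ := mk_eq_mk_iff.1 h'
  have hu : (u : R) = 1 := by simpa using h1.symm
  apply Subtype.ext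
  rw [h2, hu, one_mul]

theorem fixST_surjective : Function.Surjective (fixST (R := R)) := by
  rintro ⟨p, hp⟩
  induction p using ind with
  | _ x y h =>
    rw [MulAction.mem_fixedBy, STmat_smul_mk] at hp
    obtain ⟨u, h1, h2⟩ := mk_eq_mk_iff.1 hp
    -- `h1 : x = u * -y`, `h2 : y = u * (x + y)`
    obtain ⟨a, b, hab⟩ := h
    have hy : y * (b - a * u) = 1 := by rw [h1] at hab; linear_combination hab
    let yU : Rˣ := ⟨y, b - a * u, hy, by rw [mul_comm]; exact hy⟩
    have hu2 : (u : R) ^ 2 - u + 1 = 0 := by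
      have e : ((u : R) ^ 2 - u + 1) * y = 0 := by rw [h1] at h2; linear_combination h2
      have e' := congrArg (· * (b - a * u)) e
      simp only [mul_assoc, hy, mul_one, zero_mul] at e'
      exact e'
    refine ⟨⟨(u : R) - 1, by linear_combination hu2⟩, Subtype.ext ?_⟩
    refine mk_eq_mk_iff.2 ⟨-u * yU, ?_, ?_⟩
    · show x = ↑(-u * yU) * 1
      rw [Units.val_mul, mul_one, Units.val_neg]
      show x = -u * y
      linear_combination h1
    · show y = ↑(-u * yU) * ((u : R) - 1)
      rw [Units.val_mul, Units.val_neg]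
      show y = -u * y * (u - 1)
      linear_combination y * hu2

/-- Fixed points of `S * T` on `ℙ¹(R)` correspond to roots of `t ^ 2 + t + 1`. -/
noncomputable def fixSTEquiv :
    {t : R // t ^ 2 + t + 1 = 0} ≃ MulAction.fixedBy (P1 R) (STmat R) :=
  Equiv.ofBijective fixST ⟨fixST_injective, fixST_surjective⟩

end general

section Gamma0

open ModularCurve MulAction

theorem red_S (N : ℕ) : red N ModularGroup.S = Smat (ZMod N) := by
  ext i j
  rw [red_apply]
  fin_cases i <;> fin_cases j <;> simp [ModularGroup.S, Smat]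

theorem red_ST (N : ℕ) : red N (ModularGroup.S * ModularGroup.T) = STmat (ZMod N) := by
  ext i j
  rw [red_apply]
  fin_cases i <;> fin_cases j <;>
    simp [ModularGroup.S, ModularGroup.T, STmat, Matrix.mul_apply, Fin.sum_univ_two]

/-- Transport of fixed points along the equivariant bijection. -/
noncomputable def fixedByEquivP1 (N : ℕ) [NeZero N] (g : SL(2, ℤ)) :
    fixedBy (SL(2, ℤ) ⧸ Gamma0 N) g ≃ fixedBy (P1 (ZMod N)) (red N g) :=
  (equivP1 N).subtypeEquiv (fun x => by
    rw [mem_fixedBy, mem_fixedBy, ← equivP1_smul, (equivP1 N).apply_eq_iff_eq])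

/-- **(D2)** The number of fixed points of `S` on `SL(2, ℤ) ⧸ Γ₀(N)` is `nuTwo N`. -/
theorem card_fixedBy_S (N : ℕ) [NeZero N] :
    Nat.card (fixedBy (SL(2, ℤ) ⧸ Gamma0 N) ModularGroup.S) = nuTwo N := by
  unfold nuTwo
  refine Nat.card_congr ?_
  refine (fixedByEquivP1 N ModularGroup.S).trans ?_
  rw [red_S]
  exact fixSEquiv.symm

/-- **(D3)** The number of fixed points of `S * T` on `SL(2, ℤ) ⧸ Γ₀(N)` is `nuThree N`. -/
theorem card_fixedBy_ST (N : ℕ) [NeZero N] :
    Nat.card (fixedBy (SL(2, ℤ) ⧸ Gamma0 N) (ModularGroup.S * ModularGroup.T)) = nuThree N := by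
  unfold nuThree
  refine Nat.card_congr ?_
  refine (fixedByEquivP1 N (ModularGroup.S * ModularGroup.T)).trans ?_
  rw [red_ST]
  exact fixSTEquiv.symm

end Gamma0

end Fermat.Agent.S24.P1
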