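/-
S24, package (D): generic orbit counting for cyclic subgroups (Burnside for prime order),
and invariance of orbit / fixed point counts under conjugation.
-/
import Mathlib

set_option autoImplicit false

open MulAction Subgroup Function

namespace Fermat.Agent.S24.OrbitCount

variable {G X : Type*} [Group G] [MulAction G X]

/-- `|X|` is the sum of the minimal periods over the orbits of `⟨g⟩`. -/
theorem card_eq_sum_minimalPeriod [Finite X] (g : G)
    [Fintype (orbitRel.Quotient (zpowers g) X)] :
    Nat.card X = ∑ q : orbitRel.Quotient (zpowers g) X, minimalPeriod (g • ·) q.out := by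
  have : Fintype X := Fintype.ofFinite _
  have (q : orbitRel.Quotient (zpowers g) X) :
      Fintype (MulAction.orbit (zpowers g) q.out) := Fintype.ofFinite _
  simp only [MulAction.minimalPeriod_eq_card, Nat.card_eq_fintype_card]
  rw [← Fintype.card_sigma]
  exact Fintype.card_congr (MulAction.selfEquivSigmaOrbits (zpowers g) X)

/-- A point fixed by `g` is alone in its `⟨g⟩`-orbit. -/
theorem eq_of_orbitRel_of_mem_fixedBy {g : G} {x y : X} (hx : x ∈ fixedBy X g)
    (h : y ∈ MulAction.orbit (zpowers g) x) : y = x := by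
  obtain ⟨⟨h', hh'⟩, rfl⟩ := h
  obtain ⟨k, rfl⟩ := Subgroup.mem_zpowers_iff.mp hh'
  exact mem_fixedBy_zpow hx k

/-- The orbits of `⟨g⟩` whose representative is fixed by `g` correspond to fixed points. -/
noncomputable def fixedOrbitsEquiv (g : G) :
    {q : orbitRel.Quotient (zpowers g) X // q.out ∈ fixedBy X g} ≃ fixedBy X g where
  toFun q := ⟨q.1.out, q.2⟩
  invFun x := ⟨Quotient.mk'' x.1, by
    have h : (Quotient.mk'' x.1 : orbitRel.Quotient (zpowers g) X).out ∈
        MulAction.orbit (zpowers g) x.1 := by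
      have := Quotient.out_eq' (Quotient.mk'' x.1 : orbitRel.Quotient (zpowers g) X)
      exact MulAction.orbitRel_apply.mp (Quotient.eq''.mp this)
    rw [eq_of_orbitRel_of_mem_fixedBy x.2 h]
    exact x.2⟩
  left_inv q := Subtype.ext (Quotient.out_eq' q.1)
  right_inv x := by
    apply Subtype.ext
    have h : (Quotient.mk'' x.1 : orbitRel.Quotient (zpowers g) X).out ∈
        MulAction.orbit (zpowers g) x.1 := by
      have := Quotient.out_eq' (Quotient.mk'' x.1 : orbitRel.Quotient (zpowers g) X)
      exact MulAction.orbitRel_apply.mp (Quotient.eq''.mp this)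
    exact eq_of_orbitRel_of_mem_fixedBy x.2 h

/-- **Burnside for a cyclic action of prime order `n`**: if `g ^ n` acts trivially on the finite
set `X`, then `n * #(orbits of ⟨g⟩) = |X| + (n - 1) * #Fix(g)`. -/
theorem prime_mul_card_orbits [Finite X] (g : G) {n : ℕ} (hn : n.Prime)
    (hg : ∀ x : X, g ^ n • x = x) :
    n * Nat.card (orbitRel.Quotient (zpowers g) X) =
      Nat.card X + (n - 1) * Nat.card (fixedBy X g) := by
  classical
  have : Fintype X := Fintype.ofFinite _
  have : Fintype (orbitRel.Quotient (zpowers g) X) := Fintype.ofFinite _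
  have hmp : ∀ q : orbitRel.Quotient (zpowers g) X,
      minimalPeriod (g • ·) q.out = if q.out ∈ fixedBy X g then 1 else n := by
    intro q
    have hdvd : minimalPeriod (g • ·) q.out ∣ n := pow_smul_eq_iff_minimalPeriod_dvd.mp (hg _)
    split_ifs with hq
    · exact minimalPeriod_eq_one_iff_fixedBy.mpr hq
    · rcases (Nat.dvd_prime hn).mp hdvd with h1 | h1
      · exact absurd (minimalPeriod_eq_one_iff_fixedBy.mp h1) hq
      · exact h1
  rw [card_eq_sum_minimalPeriod (X := X) g, ← Nat.card_congr (fixedOrbitsEquiv (X := X) g)]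
  simp only [hmp]
  rw [Nat.card_eq_fintype_card, Nat.card_eq_fintype_card, Fintype.card_subtype,
    Finset.sum_ite, Finset.sum_const, Finset.sum_const, smul_eq_mul, smul_eq_mul, mul_one]
  have hsplit := Finset.card_filter_add_card_filter_not (s := (Finset.univ :
    Finset (orbitRel.Quotient (zpowers g) X))) (fun q => q.out ∈ fixedBy X g)
  rw [Finset.card_univ] at hsplit
  have hn1 : 1 ≤ n := hn.one_lt.le
  obtain ⟨m, rfl⟩ : ∃ m, n = m + 1 := ⟨n - 1, by omega⟩
  rw [← hsplit]
  simp only [Nat.add_sub_cancel]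
  ring

/-- Conjugating `g` does not change the number of fixed points. -/
theorem card_fixedBy_conj (g h : G) :
    Nat.card (fixedBy X (h * g * h⁻¹)) = Nat.card (fixedBy X g) := by
  refine Nat.card_congr ?_
  refine ((MulAction.toPerm h⁻¹ : Equiv.Perm X).subtypeEquiv (fun x => ?_))
  simp only [mem_fixedBy, MulAction.toPerm_apply]
  rw [mul_smul, mul_smul, smul_eq_iff_eq_inv_smul]

/-- Conjugating `g` does not change the number of orbits of `⟨g⟩`. -/
theorem card_orbits_conj (g h : G) :
    Nat.card (orbitRel.Quotient (zpowers (h * g * h⁻¹)) X) =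
      Nat.card (orbitRel.Quotient (zpowers g) X) := by
  have key : ∀ x y : X, (orbitRel (zpowers (h * g * h⁻¹)) X) x y ↔
      (orbitRel (zpowers g) X) (h⁻¹ • x) (h⁻¹ • y) := by
    intro x y
    rw [MulAction.orbitRel_apply, MulAction.orbitRel_apply]
    constructor
    · rintro ⟨⟨c, hc⟩, rfl⟩
      obtain ⟨k, rfl⟩ := Subgroup.mem_zpowers_iff.mp hc
      refine ⟨⟨g ^ k, Subgroup.zpow_mem_zpowers g k⟩, ?_⟩
      show g ^ k • h⁻¹ • y = h⁻¹ • (h * g * h⁻¹) ^ k • y
      rw [conj_zpow, mul_smul, mul_smul, inv_smul_smul]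
    · rintro ⟨⟨c, hc⟩, hcy⟩
      obtain ⟨k, rfl⟩ := Subgroup.mem_zpowers_iff.mp hc
      refine ⟨⟨(h * g * h⁻¹) ^ k, Subgroup.zpow_mem_zpowers _ k⟩, ?_⟩
      show (h * g * h⁻¹) ^ k • y = x
      have hcy' : g ^ k • h⁻¹ • y = h⁻¹ • x := hcy
      rw [conj_zpow, mul_smul, mul_smul, hcy', smul_inv_smul]
  refine Nat.card_congr ?_
  exact Quotient.congr (MulAction.toPerm h⁻¹ : Equiv.Perm X) (fun x y => key x y)

end Fermat.Agent.S24.OrbitCount
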