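/-
S24, package (D): orbit counts of `⟨S⟩` and `⟨S * T⟩` on `SL(2, ℤ) ⧸ Gamma0 N`.
-/
import Mathlib
import Fermat.Prelude.Def_ModularCurve_GenusNumerics
import Fermat.Agent.S24.EllipticFix
import Fermat.Agent.S24.OrbitCount

set_option autoImplicit false

open scoped MatrixGroups
open Matrix CongruenceSubgroup MulAction Subgroup

namespace Fermat.Agent.S24.P1

section general

variable {R : Type*} [CommRing R]

instance [Finite R] : Finite (UVec R) := by
  unfold UVec
  infer_instance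

instance [Finite R] : Finite (P1 R) := by
  unfold P1
  infer_instance

theorem Smat_smul_Smat_smul (p : P1 R) : Smat R • Smat R • p = p := by
  induction p using ind with
  | _ x y h =>
    rw [Smat_smul_mk, Smat_smul_mk]
    refine mk_eq_mk_iff.2 ⟨-1, ?_, ?_⟩ <;> simp

theorem STmat_smul_STmat_smul_STmat_smul (p : P1 R) : STmat R • STmat R • STmat R • p = p := by
  induction p using ind with
  | _ x y h =>
    rw [STmat_smul_mk, STmat_smul_mk, STmat_smul_mk]
    refine mk_eq_mk_iff.2 ⟨-1, ?_, ?_⟩ <;> simp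

end general

section Gamma0

open ModularCurve

instance (N : ℕ) [NeZero N] : Finite (SL(2, ℤ) ⧸ Gamma0 N) :=
  Finite.of_equiv _ (equivP1 N).symm

theorem S_pow_two_smul (N : ℕ) [NeZero N] (x : SL(2, ℤ) ⧸ Gamma0 N) :
    ModularGroup.S ^ 2 • x = x := by
  apply (equivP1 N).injective
  rw [pow_two, mul_smul, equivP1_smul, equivP1_smul, red_S, Smat_smul_Smat_smul]

theorem ST_pow_three_smul (N : ℕ) [NeZero N] (x : SL(2, ℤ) ⧸ Gamma0 N) :
    (ModularGroup.S * ModularGroup.T) ^ 3 • x = x := by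
  apply (equivP1 N).injective
  rw [pow_succ, pow_two, mul_smul, mul_smul, equivP1_smul, equivP1_smul, equivP1_smul, red_ST,
    STmat_smul_STmat_smul_STmat_smul]

/-- `2 * #(⟨S⟩-orbits on SL(2, ℤ) ⧸ Γ₀(N)) = [SL(2, ℤ) : Γ₀(N)] + ν₂(N)`. -/
theorem two_mul_card_orbits_S (N : ℕ) [NeZero N] :
    2 * Nat.card (orbitRel.Quotient (zpowers ModularGroup.S) (SL(2, ℤ) ⧸ Gamma0 N)) =
      (Gamma0 N).index + nuTwo N := by
  have h := OrbitCount.prime_mul_card_orbits (X := SL(2, ℤ) ⧸ Gamma0 N) ModularGroup.S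
    Nat.prime_two (S_pow_two_smul N)
  rw [card_fixedBy_S] at h
  refine h.trans ?_
  rw [Subgroup.index_eq_card]
  simp

/-- `3 * #(⟨S * T⟩-orbits on SL(2, ℤ) ⧸ Γ₀(N)) = [SL(2, ℤ) : Γ₀(N)] + 2 * ν₃(N)`. -/
theorem three_mul_card_orbits_ST (N : ℕ) [NeZero N] :
    3 * Nat.card (orbitRel.Quotient (zpowers (ModularGroup.S * ModularGroup.T))
      (SL(2, ℤ) ⧸ Gamma0 N)) = (Gamma0 N).index + 2 * nuThree N := by
  have h := OrbitCount.prime_mul_card_orbits (X := SL(2, ℤ) ⧸ Gamma0 N)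
    (ModularGroup.S * ModularGroup.T) Nat.prime_three (ST_pow_three_smul N)
  rw [card_fixedBy_ST] at h
  refine h.trans ?_
  rw [Subgroup.index_eq_card]

/-- Conjugate version for `S`. -/
theorem two_mul_card_orbits_conj_S (N : ℕ) [NeZero N] (h : SL(2, ℤ)) :
    2 * Nat.card (orbitRel.Quotient (zpowers (h * ModularGroup.S * h⁻¹))
      (SL(2, ℤ) ⧸ Gamma0 N)) = (Gamma0 N).index + nuTwo N := by
  rw [← two_mul_card_orbits_S]
  exact congrArg (2 * ·) (OrbitCount.card_orbits_conj (X := SL(2, ℤ) ⧸ Gamma0 N) ModularGroup.S h)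

/-- Conjugate version for `S * T`. -/
theorem three_mul_card_orbits_conj_ST (N : ℕ) [NeZero N] (h : SL(2, ℤ)) :
    3 * Nat.card (orbitRel.Quotient (zpowers (h * (ModularGroup.S * ModularGroup.T) * h⁻¹))
      (SL(2, ℤ) ⧸ Gamma0 N)) = (Gamma0 N).index + 2 * nuThree N := by
  rw [← three_mul_card_orbits_ST]
  exact congrArg (3 * ·) (OrbitCount.card_orbits_conj (X := SL(2, ℤ) ⧸ Gamma0 N)
    (ModularGroup.S * ModularGroup.T) h)

/-- The index of `Γ₀(N)` is the cardinality of `ℙ¹(ℤ/N)`. -/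
theorem index_Gamma0_eq_card_P1 (N : ℕ) [NeZero N] :
    (Gamma0 N).index = Nat.card (P1 (ZMod N)) := by
  rw [Subgroup.index_eq_card]
  exact Nat.card_congr (equivP1 N)

end Gamma0

end Fermat.Agent.S24.P1
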