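/-
S24, package COMB (elliptic part): orbit counts of `⟨S⟩` and `⟨S * T⟩` on `X0Cosets N`.
Final shapes of `Skeleton.two_mul_numOrbits_S` / `Skeleton.three_mul_numOrbits_ST`
(the index `Nat.card (X0Cosets N) = dedekindPsi N` is taken from helper49's `CountPsi.lean`),
plus versions with the index as an explicit hypothesis (`_of_card`).
-/
import Fermat.Agent.S24.Defs
import Fermat.Agent.S24.EllipticOrbits
import Fermat.Agent.S24.CountPsi

set_option autoImplicit false

open scoped MatrixGroups
open ModularCurve CongruenceSubgroup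

namespace Fermat.Agent.S24

theorem two_mul_numOrbits_S_add_index (N : ℕ) [NeZero N] :
    2 * numOrbits (X0Cosets N) ModularGroup.S = Nat.card (X0Cosets N) + nuTwo N := by
  have h := P1.two_mul_card_orbits_S N
  rw [Subgroup.index_eq_card] at h
  exact h

theorem three_mul_numOrbits_ST_add_index (N : ℕ) [NeZero N] :
    3 * numOrbits (X0Cosets N) (ModularGroup.S * ModularGroup.T) =
      Nat.card (X0Cosets N) + 2 * nuThree N := by
  have h := P1.three_mul_card_orbits_ST N
  rw [Subgroup.index_eq_card] at h
  exact h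

theorem two_mul_numOrbits_S_of_card (N : ℕ) [NeZero N]
    (hcard : Nat.card (X0Cosets N) = dedekindPsi N) :
    2 * numOrbits (X0Cosets N) ModularGroup.S = dedekindPsi N + nuTwo N := by
  rw [two_mul_numOrbits_S_add_index, hcard]

theorem three_mul_numOrbits_ST_of_card (N : ℕ) [NeZero N]
    (hcard : Nat.card (X0Cosets N) = dedekindPsi N) :
    3 * numOrbits (X0Cosets N) (ModularGroup.S * ModularGroup.T) =
      dedekindPsi N + 2 * nuThree N := by
  rw [three_mul_numOrbits_ST_add_index, hcard]

/-- **Skeleton COMB**: `2 * #(⟨S⟩-orbits) = ψ(N) + ν₂(N)`. -/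
theorem two_mul_numOrbits_S (N : ℕ) [NeZero N] :
    2 * numOrbits (X0Cosets N) ModularGroup.S = dedekindPsi N + nuTwo N :=
  two_mul_numOrbits_S_of_card N (Count.card_X N)

/-- **Skeleton COMB**: `3 * #(⟨S * T⟩-orbits) = ψ(N) + 2 * ν₃(N)`. -/
theorem three_mul_numOrbits_ST (N : ℕ) [NeZero N] :
    3 * numOrbits (X0Cosets N) (ModularGroup.S * ModularGroup.T) =
      dedekindPsi N + 2 * nuThree N :=
  three_mul_numOrbits_ST_of_card N (Count.card_X N)

/-- Number of fixed points of `S` (for the assembly, if wanted). -/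
theorem card_fixedBy_S_X0Cosets (N : ℕ) [NeZero N] :
    Nat.card (MulAction.fixedBy (X0Cosets N) ModularGroup.S) = nuTwo N :=
  P1.card_fixedBy_S N

/-- Number of fixed points of `S * T` (for the assembly, if wanted). -/
theorem card_fixedBy_ST_X0Cosets (N : ℕ) [NeZero N] :
    Nat.card (MulAction.fixedBy (X0Cosets N) (ModularGroup.S * ModularGroup.T)) = nuThree N :=
  P1.card_fixedBy_ST N

end Fermat.Agent.S24
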