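import Mathlib
import Fermat.Agent.S24.JAnalytic

/-!
# S24, package C1: Ramanujan identities and orders of vanishing of `j - c`

Interface-independent analytic package (Mathlib only).
-/

set_option autoImplicit false

open UpperHalfPlane hiding I
open Real Complex Filter Asymptotics Metric
open scoped Manifold MatrixGroups ModularForm Topology
open Derivative EisensteinSeries ModularForm

namespace Fermat.Agent.S24.JOrd62

/-- Cauchy estimate: if `F` is holomorphic on `ℍ` and tends to `a` at `i∞`, then `D F → 0`. -/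
theorem tendsto_D_zero {F : ℍ → ℂ} (hF : MDiff F) {a : ℂ}
    (h : Tendsto F atImInfty (𝓝 a)) : Tendsto (D F) atImInfty (𝓝 0) := by
  rw [Metric.tendsto_nhds]
  intro ε hε
  have h1 : ∀ᶠ z in atImInfty, dist (F z) a < ε := (Metric.tendsto_nhds.mp h) ε hε
  rw [UpperHalfPlane.atImInfty_basis.eventually_iff] at h1
  obtain ⟨A, -, hA⟩ := h1
  rw [UpperHalfPlane.atImInfty_basis.eventually_iff]
  refine ⟨max A 0 + 2, trivial, fun z hz => ?_⟩
  have hz' : max A 0 + 2 ≤ z.im := hz
  have hsub : ∀ w ∈ closedBall (z : ℂ) 1, max A 0 + 1 ≤ w.im := by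
    intro w hw
    have : |(w - z).im| ≤ ‖w - z‖ := Complex.abs_im_le_norm _
    rw [mem_closedBall, dist_eq_norm] at hw
    have h3 : |w.im - z.im| ≤ 1 := by simpa using this.trans hw
    have := abs_le.mp h3
    have hzim : (z : ℂ).im = z.im := rfl
    linarith [this.1]
  have hpos : ∀ w ∈ closedBall (z : ℂ) 1, 0 < w.im := fun w hw => by
    have := hsub w hw
    have := le_max_right A 0
    linarith
  set G : ℂ → ℂ := fun w => (F ∘ ofComplex) w - a with hG
  have hdiff : ∀ w ∈ closedBall (z : ℂ) 1, DifferentiableAt ℂ G w := by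
    intro w hw
    have := UpperHalfPlane.mdifferentiableAt_iff.mp (hF ⟨w, hpos w hw⟩)
    exact this.sub_const a
  have hd : DiffContOnCl ℂ G (ball (z : ℂ) 1) := by
    refine ⟨fun w hw => (hdiff w (ball_subset_closedBall hw)).differentiableWithinAt, ?_⟩
    rw [closure_ball _ one_ne_zero]
    exact fun w hw => (hdiff w hw).continuousAt.continuousWithinAt
  have hC : ∀ w ∈ sphere (z : ℂ) 1, ‖G w‖ ≤ ε := by
    intro w hw
    have hw' := sphere_subset_closedBall hw
    have h5 : A ≤ (⟨w, hpos w hw'⟩ : ℍ).im := by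
      have := hsub w hw'
      have := le_max_left A 0
      change A ≤ w.im
      linarith
    have := hA h5
    simp only [hG, Function.comp_apply, ofComplex_apply_of_im_pos (hpos w hw')]
    rw [← dist_eq_norm]
    exact this.le
  have key := Complex.norm_deriv_le_of_forall_mem_sphere_norm_le one_pos hd hC
  have hderiv : deriv G (z : ℂ) = deriv (F ∘ ofComplex) (z : ℂ) := by
    rw [hG]
    exact deriv_sub_const (f := F ∘ ofComplex) (x := (z : ℂ)) a
  rw [hderiv] at key
  rw [dist_zero_right]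
  have h2pi : ‖2 * (π : ℂ) * I‖ = 2 * π := by
    simp [abs_of_pos Real.pi_pos]
  simp only [normalizedDerivOfComplex]
  rw [norm_mul, norm_inv, h2pi]
  have hpi : (1:ℝ) < 2 * π := by linarith [Real.pi_gt_three]
  calc (2 * π)⁻¹ * ‖deriv (F ∘ ofComplex) ↑z‖ ≤ (2 * π)⁻¹ * (ε / 1) := by gcongr
    _ = ε / (2 * π) := by ring
    _ < ε := div_lt_self hε hpi

/-- A level-one modular form tends to its value at infinity. -/
theorem tendsto_valueAtInfty {k : ℤ} (f : ModularForm 𝒮ℒ k) :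
    Tendsto f atImInfty (𝓝 (valueAtInfty f)) := by
  have han := ModularFormClass.analyticAt_cuspFunction_zero f one_pos one_mem_strictPeriods_SL
  have hper := SlashInvariantFormClass.periodic_comp_ofComplex f one_mem_strictPeriods_SL
  have h0 := cuspFunction_apply_zero one_pos han hper
  have := han.continuousAt.tendsto.comp (qParam_tendsto_atImInfty one_pos)
  rw [h0] at this
  refine this.congr fun τ => ?_
  simpa using SlashInvariantFormClass.eq_cuspFunction f τ one_mem_strictPeriods_SL one_ne_zero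

theorem valueAtInfty_eq_coeff_zero {k : ℤ} (f : ModularForm 𝒮ℒ k) :
    valueAtInfty f = (qExpansion 1 f).coeff 0 := by
  have han := ModularFormClass.analyticAt_cuspFunction_zero f one_pos one_mem_strictPeriods_SL
  have hper := SlashInvariantFormClass.periodic_comp_ofComplex f one_mem_strictPeriods_SL
  exact (qExpansion_coeff_zero one_pos han hper).symm

/-- A holomorphic function on `ℍ` given by a convergent `q`-expansion tends to its constant
coefficient at `i∞`. -/
theorem tendsto_of_hasSum_qExpansion {f : ℍ → ℂ} {c : ℕ → ℂ} (hhol : MDiff f)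
    (hf : ∀ τ : ℍ, HasSum (fun m ↦ c m • Function.Periodic.qParam 1 τ ^ m) (f τ)) :
    Tendsto f atImInfty (𝓝 (c 0)) := by
  have hper : Function.Periodic (f ∘ ofComplex) (1 : ℝ) := by
    intro w
    by_cases hw : 0 < w.im
    · have hw1 : 0 < (w + ((1 : ℝ) : ℂ)).im := by simpa using hw
      rw [Function.comp_apply, Function.comp_apply, ofComplex_apply_of_im_pos hw1,
        ofComplex_apply_of_im_pos hw]
      have hq : Function.Periodic.qParam 1 (w + ((1 : ℝ) : ℂ)) = Function.Periodic.qParam 1 w := by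
        simp only [Function.Periodic.qParam, ofReal_one, div_one]
        rw [mul_add, Complex.exp_add, mul_one, Complex.exp_two_pi_mul_I, mul_one]
      have h1 : HasSum (fun m ↦ c m • Function.Periodic.qParam 1 (w + ((1 : ℝ) : ℂ)) ^ m)
          (f ⟨w + ((1 : ℝ) : ℂ), hw1⟩) := hf ⟨w + ((1 : ℝ) : ℂ), hw1⟩
      have h2 : HasSum (fun m ↦ c m • Function.Periodic.qParam 1 w ^ m)
          (f ⟨w, hw⟩) := hf ⟨w, hw⟩
      rw [hq] at h1
      exact h1.unique h2
    · have hw' : w.im ≤ 0 := not_lt.mp hw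
      have hw1 : (w + ((1 : ℝ) : ℂ)).im ≤ 0 := by simpa using hw'
      rw [Function.comp_apply, Function.comp_apply, ofComplex_apply_of_im_nonpos hw1,
        ofComplex_apply_of_im_nonpos hw']
  have h01 : (0:ℝ) < 1 := one_pos
  have hbdd : IsBoundedAtImInfty f := isBoundedAtImInfty_of_hasSum_qExpansion one_pos hf
  have han : AnalyticAt ℂ (cuspFunction 1 f) 0 :=
    analyticAt_cuspFunction_zero one_pos hper hhol hbdd
  have h0 : c 0 = cuspFunction 1 f 0 := by
    have := (hasFPowerSeriesOnBall_cuspFunction h01 han hf).coeff_zero (fun _ => 0)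
    simpa using this
  have h2 : Tendsto (cuspFunction 1 f ∘ fun τ : ℍ => Function.Periodic.qParam 1 τ) atImInfty
      (𝓝 (cuspFunction 1 f 0)) :=
    han.continuousAt.tendsto.comp (qParam_tendsto_atImInfty one_pos)
  rw [← h0] at h2
  refine h2.congr fun τ => ?_
  simpa using eq_cuspFunction τ one_ne_zero hper

/-- `E₂ → 1` at `i∞`. -/
theorem tendsto_E2 : Tendsto E2 atImInfty (𝓝 1) := by
  have := tendsto_of_hasSum_qExpansion (f := E2)
    (c := fun m : ℕ => (if m = 0 then 1 else -24 * (ArithmeticFunction.sigma 1 m : ℂ)))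
    E2_mdifferentiable (fun τ => by
      simpa only [Function.Periodic.qParam, ofReal_one, div_one] using
        hasSum_qExpansion_E2 (z := τ))
  simpa using this

/-- The Serre derivative of a level one modular form tends to `-(k/12) * a₀(f)` at `i∞`. -/
theorem tendsto_serreDerivative {k : ℤ} (f : ModularForm 𝒮ℒ k) :
    Tendsto (serreDerivative k f) atImInfty (𝓝 (-(k : ℂ) * 12⁻¹ * valueAtInfty f)) := by
  have h1 := tendsto_D_zero (ModularFormClass.holo f) (tendsto_valueAtInfty f)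
  have h2 := ((tendsto_E2.const_mul ((k : ℂ) * 12⁻¹)).mul (tendsto_valueAtInfty f))
  have := h1.sub h2
  simp only [serreDerivative_eq]
  convert this using 2 <;> ring

theorem isBoundedAtImInfty_serreDerivative {k : ℤ} (f : ModularForm 𝒮ℒ k) :
    IsBoundedAtImInfty (serreDerivative k f) :=
  (tendsto_serreDerivative f).isBigO_one ℝ

/-- The Serre derivative of a level-one modular form, as a modular form of weight `k + 2`. -/
noncomputable def serreMF {k : ℤ} (f : ModularForm 𝒮ℒ k) : ModularForm 𝒮ℒ (k + 2) where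
  toFun := serreDerivative k f
  slash_action_eq' := by
    rintro _ ⟨γ, rfl⟩
    have hγ : (γ : GL (Fin 2) ℝ) ∈ 𝒮ℒ := ⟨γ, rfl⟩
    have h : (f : ℍ → ℂ) ∣[k] γ = f := by
      rw [SL_slash]; exact SlashInvariantForm.slash_action_eqn f _ hγ
    exact serreDerivative_slash_invariant (ModularFormClass.holo f) h
  holo' := serreDerivative_mdifferentiable k (ModularFormClass.holo f)
  bdd_at_cusps' {c} hc := by
    rw [Subgroup.IsArithmetic.isCusp_iff_isCusp_SL2Z] at hc
    rw [OnePoint.isBoundedAt_iff_forall_SL2Z hc]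
    intro γ _
    have hγ : (γ : GL (Fin 2) ℝ) ∈ 𝒮ℒ := ⟨γ, rfl⟩
    have h : (f : ℍ → ℂ) ∣[k] γ = f := by
      rw [SL_slash]; exact SlashInvariantForm.slash_action_eqn f _ hγ
    rw [serreDerivative_slash_invariant (ModularFormClass.holo f) h]
    exact isBoundedAtImInfty_serreDerivative f

@[simp] theorem serreMF_apply {k : ℤ} (f : ModularForm 𝒮ℒ k) (z : ℍ) :
    serreMF f z = serreDerivative k f z := rfl

theorem valueAtInfty_serreMF {k : ℤ} (f : ModularForm 𝒮ℒ k) :
    valueAtInfty (serreMF f) = -(k : ℂ) * 12⁻¹ * valueAtInfty f :=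
  (tendsto_serreDerivative f).limUnder_eq

theorem valueAtInfty_smul {k : ℤ} (c : ℂ) (f : ModularForm 𝒮ℒ k) :
    valueAtInfty ((c • f : ModularForm 𝒮ℒ k) : ℍ → ℂ) = c * valueAtInfty f := by
  exact ((tendsto_valueAtInfty f).const_mul c).limUnder_eq

theorem valueAtInfty_mul {k l : ℤ} (f : ModularForm 𝒮ℒ k) (g : ModularForm 𝒮ℒ l) :
    valueAtInfty ((f.mul g : ModularForm 𝒮ℒ (k + l)) : ℍ → ℂ) = valueAtInfty f * valueAtInfty g := by
  exact ((tendsto_valueAtInfty f).mul (tendsto_valueAtInfty g)).limUnder_eq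

theorem valueAtInfty_mcast {k l : ℤ} (h : k = l) (f : ModularForm 𝒮ℒ k) :
    valueAtInfty ((ModularForm.mcast h f : ModularForm 𝒮ℒ l) : ℍ → ℂ) = valueAtInfty f := rfl

/-- In a one-dimensional space of level-one forms containing a form with value `1` at `i∞`,
every form is its value at `i∞` times that form. -/
theorem eq_valueAtInfty_smul {k : ℤ} (hrank : Module.rank ℂ (ModularForm 𝒮ℒ k) = 1)
    (E : ModularForm 𝒮ℒ k) (hE : valueAtInfty E = 1) (g : ModularForm 𝒮ℒ k) :
    g = valueAtInfty g • E := by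
  have hE0 : E ≠ 0 := by
    rintro rfl
    have h0 : valueAtInfty ((0 : ModularForm 𝒮ℒ k) : ℍ → ℂ) = 0 := by
      have : Tendsto ((0 : ModularForm 𝒮ℒ k) : ℍ → ℂ) atImInfty (𝓝 0) :=
        tendsto_const_nhds
      exact this.limUnder_eq
    rw [h0] at hE
    exact zero_ne_one hE
  obtain ⟨c, hc⟩ : ∃ c : ℂ, c • E = g :=
    (finrank_eq_one_iff_of_nonzero' E hE0).mp (Module.rank_eq_one_iff_finrank_eq_one.mp hrank) g
  have : valueAtInfty g = c := by
    rw [← hc, valueAtInfty_smul, hE, mul_one]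
  rw [this, hc]

theorem valueAtInfty_E4 : valueAtInfty E₄ = 1 := by
  rw [valueAtInfty_eq_coeff_zero]; exact E_qExpansion_coeff_zero _ ⟨2, rfl⟩

theorem valueAtInfty_E6 : valueAtInfty E₆ = 1 := by
  rw [valueAtInfty_eq_coeff_zero]; exact E_qExpansion_coeff_zero _ ⟨3, rfl⟩

/-- Ramanujan: `∂₄ E₄ = -E₆/3`. -/
theorem serre_E4 (z : ℍ) : serreDerivative 4 E₄ z = -(1 / 3) * E₆ z := by
  have h := eq_valueAtInfty_smul levelOne_weight_six_rank_one E₆ valueAtInfty_E6
    (ModularForm.mcast (by norm_num : (4 : ℤ) + 2 = 6) (serreMF E₄))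
  rw [valueAtInfty_mcast, valueAtInfty_serreMF, valueAtInfty_E4] at h
  have := congrArg (fun f : ModularForm 𝒮ℒ 6 => f z) h
  simp only [ModularForm.coe_mcast, serreMF_apply, ModularForm.smul_apply, smul_eq_mul] at this
  have h4 : ((4 : ℤ) : ℂ) = 4 := by norm_num
  rw [h4] at this
  rw [this]
  ring

theorem rank_weight_eight : Module.rank ℂ (ModularForm 𝒮ℒ 8) = 1 := by
  have := dimension_level_one 8 ⟨4, rfl⟩
  rw [if_neg (by decide)] at this
  simpa using this

theorem rank_weight_fourteen : Module.rank ℂ (ModularForm 𝒮ℒ 14) = 1 := by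
  have := dimension_level_one 14 ⟨7, rfl⟩
  rw [if_pos (by decide)] at this
  simpa using this

/-- Ramanujan: `∂₆ E₆ = -E₄²/2`. -/
theorem serre_E6 (z : ℍ) : serreDerivative 6 E₆ z = -(1 / 2) * E₄ z ^ 2 := by
  have hE : valueAtInfty (ModularForm.mcast (by norm_num : (4 : ℤ) + 4 = 8) (E₄.mul E₄)) = 1 := by
    rw [valueAtInfty_mcast, valueAtInfty_mul, valueAtInfty_E4, mul_one]
  have h := eq_valueAtInfty_smul rank_weight_eight _ hE
    (ModularForm.mcast (by norm_num : (6 : ℤ) + 2 = 8) (serreMF E₆))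
  rw [valueAtInfty_mcast, valueAtInfty_serreMF, valueAtInfty_E6] at h
  have := congrArg (fun f : ModularForm 𝒮ℒ 8 => f z) h
  simp only [ModularForm.coe_mcast, serreMF_apply, ModularForm.smul_apply, smul_eq_mul,
    ModularForm.coe_mul, Pi.mul_apply] at this
  have h6 : ((6 : ℤ) : ℂ) = 6 := by norm_num
  rw [h6] at this
  rw [this]
  ring

/-- The discriminant as a level-one modular form of weight 12. -/
noncomputable def ΔMF : ModularForm 𝒮ℒ 12 := CuspForm.toModularFormₗ CuspForm.discriminant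

@[simp] theorem ΔMF_apply (z : ℍ) : ΔMF z = ModularForm.discriminant z := rfl

theorem valueAtInfty_ΔMF : valueAtInfty ΔMF = 0 :=
  discriminant_isZeroAtImInfty.valueAtInfty_eq_zero

/-- `∂₁₂ Δ = 0`. -/
theorem serre_Δ (z : ℍ) : serreDerivative 12 ModularForm.discriminant z = 0 := by
  have hE : valueAtInfty (ModularForm.mcast (by norm_num : (4 : ℤ) + 4 + 6 = 14)
      ((E₄.mul E₄).mul E₆)) = 1 := by
    rw [valueAtInfty_mcast, valueAtInfty_mul, valueAtInfty_mul, valueAtInfty_E4, valueAtInfty_E6,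
      mul_one, mul_one]
  have h := eq_valueAtInfty_smul rank_weight_fourteen _ hE
    (ModularForm.mcast (by norm_num : (12 : ℤ) + 2 = 14) (serreMF ΔMF))
  rw [valueAtInfty_mcast, valueAtInfty_serreMF, valueAtInfty_ΔMF] at h
  have := congrArg (fun f : ModularForm 𝒮ℒ 14 => f z) h
  simp only [ModularForm.coe_mcast, serreMF_apply, ModularForm.smul_apply, smul_eq_mul,
    mul_zero, zero_mul] at this
  have h12 : ((12 : ℤ) : ℂ) = 12 := by norm_num
  rw [h12] at this
  exact this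

/-! ### Explicit derivatives -/

local notation "Δ" => ModularForm.discriminant

theorem D_E4 (z : ℍ) : D E₄ z = (E2 z * E₄ z - E₆ z) / 3 := by
  have h := serre_E4 z
  rw [serreDerivative_apply] at h
  linear_combination h

theorem D_E6 (z : ℍ) : D E₆ z = (E2 z * E₆ z - E₄ z ^ 2) / 2 := by
  have h := serre_E6 z
  rw [serreDerivative_apply] at h
  linear_combination h

theorem D_Δ (z : ℍ) : D Δ z = E2 z * Δ z := by
  have h := serre_Δ z
  rw [serreDerivative_apply] at h
  linear_combination h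

theorem Δ_eq (z : ℍ) : Δ z = (E₄ z ^ 3 - E₆ z ^ 2) / 1728 :=
  discriminant_eq_E₄_cube_sub_E₆_sq z

theorem E6_ne_zero_of_E4_eq_zero {z : ℍ} (h : E₄ z = 0) : E₆ z ≠ 0 := by
  intro h6
  have := Δ_eq z
  rw [h, h6] at this
  exact discriminant_ne_zero z (by simpa using this)

theorem E4_ne_zero_of_E6_eq_zero {z : ℍ} (h : E₆ z = 0) : E₄ z ≠ 0 := by
  intro h4
  have := Δ_eq z
  rw [h, h4] at this
  exact discriminant_ne_zero z (by simpa using this)

theorem D_E4_ne_zero {z : ℍ} (h : E₄ z = 0) : D E₄ z ≠ 0 := by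
  rw [D_E4, h, mul_zero, zero_sub]
  exact div_ne_zero (neg_ne_zero.mpr (E6_ne_zero_of_E4_eq_zero h)) (by norm_num)

theorem D_E6_ne_zero {z : ℍ} (h : E₆ z = 0) : D E₆ z ≠ 0 := by
  rw [D_E6, h, mul_zero, zero_sub]
  exact div_ne_zero (neg_ne_zero.mpr (pow_ne_zero 2 (E4_ne_zero_of_E6_eq_zero h))) (by norm_num)

open Fermat.Agent.S24.JAnalytic in
/-- `D j = -E₄² E₆ / Δ`. -/
theorem D_jFun (z : ℍ) : D jFun z = -(E₄ z ^ 2 * E₆ z) / Δ z := by
  have hE4 : MDiff (E₄ : ℍ → ℂ) := ModularFormClass.holo E₄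
  have hΔ : MDiff (Δ : ℍ → ℂ) := ModularFormClass.holo CuspForm.discriminant
  have hj : MDiff jFun := mdifferentiable_jFun
  have hmul : (jFun * Δ : ℍ → ℂ) = (E₄ : ℍ → ℂ) ^ 3 := by
    funext w
    simp only [Pi.mul_apply, Pi.pow_apply, jFun]
    exact div_mul_cancel₀ _ (discriminant_ne_zero w)
  have h1 := congrFun (normalizedDerivOfComplex_mul jFun Δ hj hΔ) z
  have h2 := congrFun (normalizedDerivOfComplex_pow (E₄ : ℍ → ℂ) 3 hE4) z
  rw [hmul] at h1
  rw [h1] at h2
  simp only [Pi.add_apply, Pi.mul_apply, Pi.pow_apply, D_Δ, D_E4, Nat.cast_ofNat,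
    Pi.ofNat_apply] at h2
  have hne := discriminant_ne_zero z
  have hjz : jFun z * Δ z = E₄ z ^ 3 := congrFun hmul z
  rw [eq_div_iff hne]
  push_cast at h2
  linear_combination h2 - E2 z * hjz

/-! ### Orders of vanishing -/

open Fermat.Agent.S24.JAnalytic

theorem analyticAt_comp_ofComplex {f : ℍ → ℂ} (hf : MDiff f) (τ : ℍ) :
    AnalyticAt ℂ (fun z : ℂ => f (ofComplex z)) (τ : ℂ) := by
  have h := (UpperHalfPlane.mdifferentiable_iff.mp hf)
  exact h.analyticAt (isOpen_upperHalfPlaneSet.mem_nhds τ.im_pos)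

theorem deriv_comp_ofComplex (f : ℍ → ℂ) (τ : ℍ) :
    deriv (fun z : ℂ => f (ofComplex z)) (τ : ℂ) = 2 * π * I * D f τ := by
  simp only [normalizedDerivOfComplex]
  have : (2 * (π : ℂ) * I) ≠ 0 := by
    simp [Real.pi_ne_zero]
  rw [← mul_assoc, mul_inv_cancel₀ this, one_mul]
  rfl

theorem analyticOrderAt_E4 {τ : ℍ} (h : E₄ τ = 0) :
    analyticOrderAt (fun z : ℂ => E₄ (ofComplex z)) (τ : ℂ) = 1 := by
  refine (analyticAt_comp_ofComplex (ModularFormClass.holo E₄) τ).analyticOrderAt_eq_one_of_zero_deriv_ne_zero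
    (by simpa using h) ?_
  rw [deriv_comp_ofComplex]
  exact mul_ne_zero (by simp [Real.pi_ne_zero]) (D_E4_ne_zero h)

theorem analyticOrderAt_E6 {τ : ℍ} (h : E₆ τ = 0) :
    analyticOrderAt (fun z : ℂ => E₆ (ofComplex z)) (τ : ℂ) = 1 := by
  refine (analyticAt_comp_ofComplex (ModularFormClass.holo E₆) τ).analyticOrderAt_eq_one_of_zero_deriv_ne_zero
    (by simpa using h) ?_
  rw [deriv_comp_ofComplex]
  exact mul_ne_zero (by simp [Real.pi_ne_zero]) (D_E6_ne_zero h)

theorem analyticAt_inv_Δ (τ : ℍ) :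
    AnalyticAt ℂ (fun z : ℂ => (Δ (ofComplex z))⁻¹) (τ : ℂ) :=
  (analyticAt_comp_ofComplex (ModularFormClass.holo CuspForm.discriminant) τ).inv
    (by simpa using discriminant_ne_zero τ)

theorem analyticOrderAt_inv_Δ (τ : ℍ) :
    analyticOrderAt (fun z : ℂ => (Δ (ofComplex z))⁻¹) (τ : ℂ) = 0 := by
  rw [(analyticAt_inv_Δ τ).analyticOrderAt_eq_zero]
  simpa using discriminant_ne_zero τ

/-- At a zero of `E₄`, `j` vanishes to order exactly `3`. -/
theorem analyticOrderAt_jFun_of_E4 {τ : ℍ} (h : E₄ τ = 0) :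
    analyticOrderAt (fun z : ℂ => jFun (ofComplex z)) (τ : ℂ) = 3 := by
  have hfun : (fun z : ℂ => jFun (ofComplex z)) =
      (fun z : ℂ => E₄ (ofComplex z)) ^ 3 * (fun z : ℂ => (Δ (ofComplex z))⁻¹) := by
    funext z
    simp [jFun, div_eq_mul_inv]
  rw [hfun, analyticOrderAt_mul ((analyticAt_comp_ofComplex (ModularFormClass.holo E₄) τ).pow 3)
    (analyticAt_inv_Δ τ), analyticOrderAt_pow (analyticAt_comp_ofComplex (ModularFormClass.holo E₄) τ),
    analyticOrderAt_E4 h, analyticOrderAt_inv_Δ]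
  rfl

/-- At a zero of `E₆`, `j - 1728` vanishes to order exactly `2`. -/
theorem analyticOrderAt_jFun_of_E6 {τ : ℍ} (h : E₆ τ = 0) :
    analyticOrderAt (fun z : ℂ => jFun (ofComplex z) - 1728) (τ : ℂ) = 2 := by
  have hfun : (fun z : ℂ => jFun (ofComplex z) - 1728) =
      (fun z : ℂ => E₆ (ofComplex z)) ^ 2 * (fun z : ℂ => (Δ (ofComplex z))⁻¹) := by
    funext z
    simp [jFun_sub_1728, div_eq_mul_inv]
  rw [hfun, analyticOrderAt_mul ((analyticAt_comp_ofComplex (ModularFormClass.holo E₆) τ).pow 2)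
    (analyticAt_inv_Δ τ), analyticOrderAt_pow (analyticAt_comp_ofComplex (ModularFormClass.holo E₆) τ),
    analyticOrderAt_E6 h, analyticOrderAt_inv_Δ]
  rfl

/-- Away from zeros of `E₄` and `E₆`, `j - j(τ)` vanishes to order exactly `1`. -/
theorem analyticOrderAt_jFun_generic {τ : ℍ} (h4 : E₄ τ ≠ 0) (h6 : E₆ τ ≠ 0) :
    analyticOrderAt (fun z : ℂ => jFun (ofComplex z) - jFun τ) (τ : ℂ) = 1 := by
  have han := analyticAt_comp_ofComplex mdifferentiable_jFun τ
  have := han.analyticOrderAt_sub_eq_one_of_deriv_ne_zero (by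
    rw [deriv_comp_ofComplex, D_jFun]
    refine mul_ne_zero (by simp [Real.pi_ne_zero]) (div_ne_zero ?_ (discriminant_ne_zero τ))
    exact neg_ne_zero.mpr (mul_ne_zero (pow_ne_zero 2 h4) h6))
  simpa using this

theorem jFun_eq_zero_iff {τ : ℍ} : jFun τ = 0 ↔ E₄ τ = 0 := by
  simp [jFun, discriminant_ne_zero τ]

theorem jFun_eq_1728_iff {τ : ℍ} : jFun τ = 1728 ↔ E₆ τ = 0 := by
  rw [← sub_eq_zero, jFun_sub_1728]
  simp [discriminant_ne_zero τ]

/-- (a) of MOD-ORD: for `c ∉ {0, 1728}` some preimage `τ₀` has `j - c` of order exactly `1`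
(indeed every preimage has). -/
theorem exists_order_one (c : ℂ) (h0 : c ≠ 0) (h1 : c ≠ 1728) :
    ∃ τ₀ : ℍ, jFun τ₀ = c ∧
      analyticOrderAt (fun z : ℂ => jFun (ofComplex z) - c) (τ₀ : ℂ) = 1 := by
  obtain ⟨τ₀, rfl⟩ := jFun_surjective c
  exact ⟨τ₀, rfl, analyticOrderAt_jFun_generic (fun h => h0 (jFun_eq_zero_iff.mpr h))
    (fun h => h1 (jFun_eq_1728_iff.mpr h))⟩

/-- Every preimage version of (a). -/
theorem order_one_of_jFun_eq {c : ℂ} (h0 : c ≠ 0) (h1 : c ≠ 1728) {τ₀ : ℍ} (h : jFun τ₀ = c) :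
    analyticOrderAt (fun z : ℂ => jFun (ofComplex z) - c) (τ₀ : ℂ) = 1 := by
  subst h
  exact analyticOrderAt_jFun_generic (fun h => h0 (jFun_eq_zero_iff.mpr h))
    (fun h => h1 (jFun_eq_1728_iff.mpr h))

/-! ### The elliptic points `i` and `ρ` -/

theorem S_smul_I : ModularGroup.S • UpperHalfPlane.I = UpperHalfPlane.I := by
  rw [UpperHalfPlane.modular_S_smul]
  ext
  simp

theorem E6_smul (γ : SL(2, ℤ)) (τ : ℍ) : E₆ (γ • τ) = denom γ τ ^ (6 : ℤ) * E₆ τ := by
  have hγ : (γ : GL (Fin 2) ℝ) ∈ 𝒮ℒ := ⟨γ, rfl⟩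
  exact SlashInvariantForm.slash_action_eqn'' E₆ hγ τ

theorem E6_I : E₆ UpperHalfPlane.I = 0 := by
  have h := E6_smul ModularGroup.S UpperHalfPlane.I
  rw [S_smul_I, ModularGroup.denom_S] at h
  have hI : ((UpperHalfPlane.I : ℍ) : ℂ) ^ (6 : ℤ) = -1 := by
    have : ((UpperHalfPlane.I : ℍ) : ℂ) = Complex.I := rfl
    rw [this]
    norm_cast
    rw [show (6:ℕ) = 2 * 3 from rfl, pow_mul, Complex.I_sq]
    norm_num
  rw [hI] at h
  have : (2 : ℂ) * E₆ UpperHalfPlane.I = 0 := by linear_combination h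
  simpa using this

/-- The elliptic point `ρ = -1/2 + (√3/2) i`. -/
noncomputable def rho : ℍ := ⟨-1/2 + (Real.sqrt 3 / 2 : ℝ) * Complex.I, by simp⟩

theorem rho_sq : ((rho : ℍ) : ℂ) ^ 2 + (rho : ℂ) + 1 = 0 := by
  have h3 : ((Real.sqrt 3 : ℝ) : ℂ) ^ 2 = 3 := by
    norm_cast
    exact Real.sq_sqrt (by norm_num)
  change ((-1/2 + ((Real.sqrt 3 / 2 : ℝ) : ℂ) * Complex.I) ^ 2 + (-1/2 + ((Real.sqrt 3 / 2 : ℝ) : ℂ) * Complex.I) + 1 : ℂ) = 0
  push_cast
  ring_nf
  rw [Complex.I_sq, h3]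
  ring

theorem ST_smul_rho : (ModularGroup.S * ModularGroup.T) • rho = rho := by
  rw [mul_smul, UpperHalfPlane.modular_T_smul, UpperHalfPlane.modular_S_smul]
  ext
  simp only [UpperHalfPlane.coe_vadd]
  have h := rho_sq
  have hne : (rho : ℂ) ≠ 0 := by
    intro h0
    rw [h0] at h
    norm_num at h
  change (-(((1 : ℝ) : ℂ) + (rho : ℂ)))⁻¹ = (rho : ℂ)
  rw [inv_eq_iff_eq_inv]
  apply eq_inv_of_mul_eq_one_left
  push_cast
  linear_combination -h

theorem denom_ST (z : ℍ) :
    denom ((ModularGroup.S * ModularGroup.T : SL(2, ℤ)) : GL (Fin 2) ℝ) z = (z : ℂ) + 1 := by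
  rw [ModularGroup.denom_apply]
  have h10 : (ModularGroup.S * ModularGroup.T : SL(2, ℤ)) 1 0 = 1 := by decide
  have h11 : (ModularGroup.S * ModularGroup.T : SL(2, ℤ)) 1 1 = 1 := by decide
  rw [h10, h11]
  simp

theorem E4_rho : E₄ rho = 0 := by
  have h := E₄_smul (ModularGroup.S * ModularGroup.T) rho
  rw [ST_smul_rho, denom_ST] at h
  have hr := rho_sq
  have h4 : ((rho : ℂ) + 1) ^ (4 : ℤ) = -(rho : ℂ) - 1 := by
    norm_cast
    linear_combination ((rho : ℂ) ^ 2 + 3 * (rho : ℂ) + 2) * hr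
  rw [h4] at h
  have hne : (2 : ℂ) + (rho : ℂ) ≠ 0 := by
    intro h0
    have : (rho : ℂ) = -2 := by linear_combination h0
    rw [this] at hr
    norm_num at hr
  have : (2 + (rho : ℂ)) * E₄ rho = 0 := by linear_combination h
  exact (mul_eq_zero.mp this).resolve_left hne

theorem jFun_I : jFun UpperHalfPlane.I = 1728 := jFun_eq_1728_iff.mpr E6_I

theorem jFun_rho : jFun rho = 0 := jFun_eq_zero_iff.mpr E4_rho

/-- (b) of MOD-ORD: `j - 1728` vanishes to order exactly `2` at `i`. -/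
theorem analyticOrderAt_jFun_I :
    analyticOrderAt (fun z : ℂ => jFun (ofComplex z) - 1728) ((UpperHalfPlane.I : ℍ) : ℂ) = 2 :=
  analyticOrderAt_jFun_of_E6 E6_I

/-- (c) of MOD-ORD: `j` vanishes to order exactly `3` at `ρ`. -/
theorem analyticOrderAt_jFun_rho :
    analyticOrderAt (fun z : ℂ => jFun (ofComplex z)) ((rho : ℍ) : ℂ) = 3 :=
  analyticOrderAt_jFun_of_E4 E4_rho

theorem S_inv_smul_I : (ModularGroup.S)⁻¹ • UpperHalfPlane.I = UpperHalfPlane.I := by
  rw [inv_smul_eq_iff, S_smul_I]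

theorem ST_inv_smul_rho : (ModularGroup.S * ModularGroup.T)⁻¹ • rho = rho := by
  rw [inv_smul_eq_iff, ST_smul_rho]

end Fermat.Agent.S24.JOrd62
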