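/-
helper6 — S24 layer (A1): function-field layer, places of `F` versus primes of integral closures.

Setting: `K` a field, `F` a field extension, anchored ONLY at the Prelude definitions
`AlgebraicCurve.Place / ord / deg / Divisor / HasPrincipalDivisors`.

Main results (namespace `Fermat.Agent.S24.FFPlaces`):
* `placeOfPrime B P`, `placeOfPrime_ord`, `placeOfPrime_deg`, `eq_placeOfPrime_centre`:
  dictionary between height-one primes of a Dedekind domain `B` with fraction field `F` and places.
* `exists_finset_zeros` (abstract Dedekind version of the fibre sum).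
* `exists_finset_zeros_of_transcendental`, `exists_finset_poles_of_transcendental`:
  for `f` transcendental with `F` finite over `K(f)` (char 0), zeros/poles of `f` form a finite set,
  every such place has positive (finite) degree and `∑ ord_w f * deg w = ± [F : K(f)]`.
* `ord_eq_zero_of_isAlgebraic`, `finiteDimensional_simple_of_transcendental`.
* `hasPrincipalDivisors`, `finite_residueField`, `finiteResidue`, `deg_eq_one`.
-/
import Mathlib
import Fermat.Prelude.Def_AlgebraicCurve_DivisorClassGroup
import Fermat.Prelude.Def_AlgebraicCurve_IsCurveOver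

set_option autoImplicit false
set_option linter.style.haveILetI false
set_option linter.unusedSectionVars false

namespace Fermat.Agent.S24.FFPlaces

/-! ### part 1 -/

open AlgebraicCurve IsDedekindDomain IsDedekindDomain.HeightOneSpectrum WithZero

/-- Two surjective `ℤᵐ⁰`-valued valuations on a field with the same valuation subring are equal. -/
theorem valuation_eq_of_valuationSubring_eq {F : Type*} [Field F] (v₁ v₂ : Valuation F ℤᵐ⁰)
    (h₁ : Function.Surjective v₁) (h₂ : Function.Surjective v₂)
    (h : v₁.valuationSubring = v₂.valuationSubring) : v₁ = v₂ := by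
  have he : v₁.IsEquiv v₂ := (Valuation.isEquiv_iff_valuationSubring _ _).mpr h
  obtain ⟨π, hπ⟩ := h₁ (exp (-1))
  have hπ0 : π ≠ 0 := by
    rintro rfl
    rw [map_zero] at hπ
    exact exp_ne_zero hπ.symm
  have hv2π0 : v₂ π ≠ 0 := (Valuation.ne_zero_iff _).mpr hπ0
  -- `v₂ π = exp (-k)`
  set k : ℤ := -log (v₂ π) with hk
  have hv2π : v₂ π = exp (-k) := by
    rw [hk, neg_neg, exp_log hv2π0]
  have key : ∀ x : F, x ≠ 0 → v₂ x = exp (k * log (v₁ x)) := by
    intro x hx
    have hv1x0 : v₁ x ≠ 0 := (Valuation.ne_zero_iff _).mpr hx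
    set n : ℤ := log (v₁ x) with hn
    have h1 : v₁ (x * π ^ n) = 1 := by
      rw [map_mul, map_zpow₀, hπ, ← exp_zsmul, ← exp_log hv1x0, ← hn, ← exp_add]
      simp
    have h2 : v₂ (x * π ^ n) = 1 := (Valuation.isEquiv_iff_val_eq_one.mp he).mp h1
    rw [map_mul, map_zpow₀, hv2π, ← exp_zsmul] at h2
    have h3 : v₂ x = (exp (n • -k))⁻¹ := eq_inv_of_mul_eq_one_left h2
    rw [h3, ← exp_neg]
    congr 1
    simp only [smul_eq_mul]
    ring
  obtain ⟨y, hy⟩ := h₂ (exp 1)
  have hy0 : y ≠ 0 := by
    rintro rfl
    rw [map_zero] at hy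
    exact exp_ne_zero hy.symm
  have hky := key y hy0
  rw [hy, exp_inj] at hky
  have hkpos : 0 < k := by
    have : v₁ π < 1 := by rw [hπ, ← exp_zero, exp_lt_exp]; norm_num
    have h2 : v₂ π < 1 := (Valuation.isEquiv_iff_val_lt_one.mp he).mp this
    rw [hv2π, ← exp_zero, exp_lt_exp] at h2
    linarith
  have hk1 : k = 1 := by
    have hdvd : k ∣ 1 := ⟨_, hky⟩
    rcases Int.isUnit_iff.mp (isUnit_of_dvd_one hdvd) with h | h
    · exact h
    · omega
  ext x
  by_cases hx : x = 0
  · simp [hx]
  · rw [key x hx, hk1, one_mul, exp_log ((Valuation.ne_zero_iff _).mpr hx)]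

/-! ### part 2 -/

open AlgebraicCurve IsDedekindDomain IsDedekindDomain.HeightOneSpectrum WithZero

section PlaceOfPrime

variable {K F : Type*} [Field K] [Field F] [Algebra K F]
variable (B : Type*) [CommRing B] [IsDedekindDomain B] [Algebra K B] [Algebra B F]
  [IsScalarTower K B F] [IsFractionRing B F]

/-- The place of `F` attached to a height-one prime of a Dedekind domain `B` with fraction
field `F`. -/
noncomputable def placeOfPrime (P : HeightOneSpectrum B) : Place K F where
  toValuationSubring := valuationSubringAtPrime F P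
  algebraMap_mem' a := by
    rw [valuationSubringAtPrime_eq_valuationSubring, IsScalarTower.algebraMap_apply K B F]
    exact P.valuation_le_one _
  ne_top' := by
    rw [valuationSubringAtPrime_eq_valuationSubring]
    simp only [ne_eq, Valuation.valuationSubring_eq_top_iff, not_not]; infer_instance
  isPrincipalIdealRing' := by
    have : IsDiscreteValuationRing (valuationSubringAtPrime F P) :=
      IsLocalization.AtPrime.isDiscreteValuationRing_of_dedekind_domain B P.ne_bot _
    infer_instance

@[simp]
theorem placeOfPrime_toValuationSubring (P : HeightOneSpectrum B) :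
    (placeOfPrime (K := K) (F := F) B P).toValuationSubring = (P.valuation F).valuationSubring :=
  valuationSubringAtPrime_eq_valuationSubring P

theorem placeOfPrime_adicValuation (P : HeightOneSpectrum B) :
    (placeOfPrime (K := K) (F := F) B P).adicValuation = P.valuation F := by
  apply valuation_eq_of_valuationSubring_eq
  · exact valuation_surjective _ _
  · exact valuation_surjective _ _
  · rw [← placeOfPrime_toValuationSubring (K := K)]
    set w := placeOfPrime (K := K) (F := F) B P
    have := IsDiscreteValuationRing.map_algebraMap_eq_valuationSubring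
      (A := w.toValuationSubring) (K := F)
    apply ValuationSubring.toSubring_injective
    rw [Place.adicValuation, Place.heightOneSpectrum]
    rw [← this]
    ext x
    simp

theorem placeOfPrime_ord (P : HeightOneSpectrum B) (g : F) :
    (placeOfPrime (K := K) (F := F) B P).ord g = -log (P.valuation F g) := by
  rw [Place.ord, placeOfPrime_adicValuation]

end PlaceOfPrime

/-! ### part 3 -/

open AlgebraicCurve IsDedekindDomain IsDedekindDomain.HeightOneSpectrum WithZero

section PlaceOfPrime

variable {K F : Type*} [Field K] [Field F] [Algebra K F]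
variable (B : Type*) [CommRing B] [IsDedekindDomain B] [Algebra K B] [Algebra B F]
  [IsScalarTower K B F] [IsFractionRing B F]

theorem placeOfPrime_injective :
    Function.Injective (placeOfPrime (K := K) (F := F) B) := by
  intro P Q h
  have h' := congrArg Place.toValuationSubring h
  rw [placeOfPrime_toValuationSubring, placeOfPrime_toValuationSubring] at h'
  exact eq_of_valuation_isEquiv_valuation ((Valuation.isEquiv_iff_valuationSubring _ _).mpr h')

/-- The ring hom `B → O_w` when `B ⊆ O_w`. -/
noncomputable def toValRing (w : Place K F)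
    (hB : ∀ b : B, algebraMap B F b ∈ w.toValuationSubring) : B →+* w.toValuationSubring :=
  (algebraMap B F).codRestrict w.toValuationSubring.toSubring hB

@[simp]
theorem coe_toValRing (w : Place K F)
    (hB : ∀ b : B, algebraMap B F b ∈ w.toValuationSubring) (b : B) :
    ((toValRing B w hB b : w.toValuationSubring) : F) = algebraMap B F b := rfl

/-- if `b ∈ B` is not in the centre then its inverse lies in `O_w`. -/
theorem inv_mem_of_not_mem (w : Place K F)
    (hB : ∀ b : B, algebraMap B F b ∈ w.toValuationSubring) {s : B}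
    (hs : toValRing B w hB s ∉ IsLocalRing.maximalIdeal w.toValuationSubring) :
    (algebraMap B F s)⁻¹ ∈ w.toValuationSubring := by
  have hunit : IsUnit (toValRing B w hB s) := by
    by_contra hnu
    exact hs ((IsLocalRing.mem_maximalIdeal _).mpr hnu)
  obtain ⟨u, hu⟩ := hunit
  have h1 : ((u : w.toValuationSubring) : F) = algebraMap B F s := by rw [hu]; rfl
  have h2 : ((u : w.toValuationSubring) : F) *
      ((u⁻¹ : (w.toValuationSubring)ˣ) : w.toValuationSubring) = 1 := by
    rw [← Subring.coe_mul]
    simp
  have hinv : (algebraMap B F s)⁻¹ =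
      ((u⁻¹ : (w.toValuationSubring)ˣ) : w.toValuationSubring) := by
    rw [← h1]
    exact inv_eq_of_mul_eq_one_right h2
  rw [hinv]
  exact SetLike.coe_mem _

/-- The centre on `B` of a place whose valuation ring contains `B`. -/
noncomputable def centre (w : Place K F)
    (hB : ∀ b : B, algebraMap B F b ∈ w.toValuationSubring) : HeightOneSpectrum B where
  asIdeal := (IsLocalRing.maximalIdeal w.toValuationSubring).comap (toValRing B w hB)
  isPrime := Ideal.comap_isPrime _ _
  ne_bot := by
    intro hbot
    apply w.ne_top'
    rw [eq_top_iff]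
    intro x _
    obtain ⟨a, b, hb, rfl⟩ := IsFractionRing.div_surjective (A := B) x
    have hb0 : b ≠ 0 := nonZeroDivisors.ne_zero hb
    have hbnot : toValRing B w hB b ∉ IsLocalRing.maximalIdeal w.toValuationSubring := by
      intro hmem
      have : b ∈ (⊥ : Ideal B) := by rw [← hbot]; exact hmem
      exact hb0 (by simpa using this)
    rw [div_eq_mul_inv]
    exact w.toValuationSubring.mul_mem _ _ (hB a) (inv_mem_of_not_mem B w hB hbnot)

theorem eq_placeOfPrime_centre (w : Place K F)
    (hB : ∀ b : B, algebraMap B F b ∈ w.toValuationSubring) :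
    w = placeOfPrime B (centre B w hB) := by
  apply Place.ext
  symm
  show valuationSubringAtPrime F (centre B w hB) = w.toValuationSubring
  apply ValuationSubring.eq_of_le_of_ne_top _ _ w.ne_top'
  rintro x ⟨a, s, hs, rfl⟩
  have hsnot : toValRing B w hB s ∉ IsLocalRing.maximalIdeal w.toValuationSubring := hs
  show algebraMap B F a * (algebraMap B F s)⁻¹ ∈ w.toValuationSubring
  exact w.toValuationSubring.mul_mem _ _ (hB a) (inv_mem_of_not_mem B w hB hsnot)

theorem mem_placeOfPrime (P : HeightOneSpectrum B) (b : B) :
    algebraMap B F b ∈ (placeOfPrime (K := K) (F := F) B P).toValuationSubring := by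
  rw [placeOfPrime_toValuationSubring]
  exact P.valuation_le_one _

theorem centre_placeOfPrime (P : HeightOneSpectrum B) :
    centre B (placeOfPrime (K := K) (F := F) B P) (mem_placeOfPrime B P) = P :=
  placeOfPrime_injective (K := K) (F := F) B (eq_placeOfPrime_centre B _ _).symm

end PlaceOfPrime

/-! ### part 4 -/

open AlgebraicCurve IsDedekindDomain IsDedekindDomain.HeightOneSpectrum WithZero

section PlaceOfPrime

variable {K F : Type*} [Field K] [Field F] [Algebra K F]
variable (B : Type*) [CommRing B] [IsDedekindDomain B] [Algebra K B] [Algebra B F]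
  [IsScalarTower K B F] [IsFractionRing B F]

theorem placeOfPrime_deg (P : HeightOneSpectrum B) :
    (placeOfPrime (K := K) (F := F) B P).deg = Module.finrank K (B ⧸ P.asIdeal) := by
  have hmax : P.asIdeal.IsMaximal := P.isMaximal
  let e : B ⧸ P.asIdeal ≃+* IsLocalRing.ResidueField (valuationSubringAtPrime F P) :=
    IsLocalization.AtPrime.equivQuotMaximalIdeal P.asIdeal (valuationSubringAtPrime F P)
  symm
  show Module.finrank K (B ⧸ P.asIdeal) =
    Module.finrank K (placeOfPrime (K := K) (F := F) B P).ResidueField
  refine Algebra.finrank_eq_of_equiv_equiv (RingEquiv.refl K) e ?_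
  ext a
  simp only [RingEquiv.toRingHom_eq_coe, RingHom.coe_comp, Function.comp_apply, RingEquiv.coe_toRingHom, RingEquiv.refl_apply]
  rw [IsScalarTower.algebraMap_apply K B (B ⧸ P.asIdeal), Ideal.Quotient.algebraMap_eq]
  have h1 : e (Ideal.Quotient.mk P.asIdeal (algebraMap K B a)) =
      Ideal.Quotient.mk _ (algebraMap B (valuationSubringAtPrime F P) (algebraMap K B a)) := rfl
  have h2 : algebraMap B (valuationSubringAtPrime F P) (algebraMap K B a) =
      algebraMap K (placeOfPrime (K := K) (F := F) B P).toValuationSubring a := by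
    apply Subtype.ext
    show algebraMap B F (algebraMap K B a) = algebraMap K F a
    rw [← IsScalarTower.algebraMap_apply K B F]
  have h3 : (algebraMap K (placeOfPrime (K := K) (F := F) B P).ResidueField) a =
      Ideal.Quotient.mk (IsLocalRing.maximalIdeal (valuationSubringAtPrime F P))
        (algebraMap K (placeOfPrime (K := K) (F := F) B P).toValuationSubring a) := rfl
  exact h3.trans ((congrArg _ h2.symm).trans h1.symm)

end PlaceOfPrime

/-! ### part 5 -/

open AlgebraicCurve IsDedekindDomain IsDedekindDomain.HeightOneSpectrum WithZero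

section OrdBasics

variable {K F : Type*} [Field K] [Field F] [Algebra K F]

theorem adicValuation_valuationSubring (w : Place K F) :
    w.adicValuation.valuationSubring = w.toValuationSubring := by
  have := IsDiscreteValuationRing.map_algebraMap_eq_valuationSubring
    (A := w.toValuationSubring) (K := F)
  apply ValuationSubring.toSubring_injective
  rw [Place.adicValuation, Place.heightOneSpectrum]
  rw [← this]
  ext x
  simp

theorem adicValuation_le_one_iff (w : Place K F) (g : F) :
    w.adicValuation g ≤ 1 ↔ g ∈ w.toValuationSubring := by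
  rw [← adicValuation_valuationSubring]
  exact Iff.rfl

theorem ord_nonneg_iff (w : Place K F) (g : F) :
    0 ≤ w.ord g ↔ g ∈ w.toValuationSubring := by
  rw [← adicValuation_le_one_iff]
  by_cases hg : g = 0
  · simp [hg]
  have h0 : w.adicValuation g ≠ 0 := w.adicValuation_ne_zero hg
  rw [Place.ord, neg_nonneg, ← exp_le_exp, exp_log h0, exp_zero]

theorem ord_pos_iff (w : Place K F) {g : F} (hg : g ≠ 0) :
    0 < w.ord g ↔ w.adicValuation g < 1 := by
  have h0 : w.adicValuation g ≠ 0 := w.adicValuation_ne_zero hg
  rw [Place.ord, neg_pos, ← exp_lt_exp, exp_log h0, exp_zero]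

/-- membership in the maximal ideal of `O_w` in terms of the valuation. -/
theorem mem_maximalIdeal_iff (w : Place K F) (x : w.toValuationSubring) :
    x ∈ IsLocalRing.maximalIdeal w.toValuationSubring ↔ w.adicValuation (x : F) < 1 := by
  rw [w.adicValuation_coe, HeightOneSpectrum.intValuation_lt_one_iff_mem]
  rfl

end OrdBasics

/-! ### part 6 -/

open AlgebraicCurve IsDedekindDomain IsDedekindDomain.HeightOneSpectrum WithZero

section FibreSum

variable {K F : Type*} [Field K] [Field F] [Algebra K F]
variable (A : Type*) [CommRing A] [Algebra K A] [Algebra A F] [IsScalarTower K A F]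

/-- `O_w` as a `K`-subalgebra of `F`. -/
def valSubalgebra (w : Place K F) : Subalgebra K F :=
  { w.toValuationSubring.toSubring with algebraMap_mem' := w.algebraMap_mem' }

omit [IsScalarTower K A F] in
theorem mem_valSubalgebra (w : Place K F) (x : F) :
    x ∈ valSubalgebra w ↔ x ∈ w.toValuationSubring := Iff.rfl

theorem mem_of_adjoin_eq_top {t : A} (hgen : Algebra.adjoin K {t} = ⊤) (w : Place K F)
    (ht : algebraMap A F t ∈ w.toValuationSubring) (a : A) :
    algebraMap A F a ∈ w.toValuationSubring := by
  let S : Subalgebra K A := (valSubalgebra w).comap (IsScalarTower.toAlgHom K A F)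
  have hle : Algebra.adjoin K {t} ≤ S := by
    apply Algebra.adjoin_le
    intro x hx
    rw [Set.mem_singleton_iff] at hx
    subst hx
    exact ht
  have : a ∈ S := hle (hgen ▸ Algebra.mem_top)
  exact this

omit [Algebra K A] [IsScalarTower K A F] in
theorem integralClosure_le (w : Place K F)
    (hA : ∀ a : A, algebraMap A F a ∈ w.toValuationSubring) (b : integralClosure A F) :
    algebraMap (integralClosure A F) F b ∈ w.toValuationSubring := by
  let φ : A →+* w.toValuationSubring :=
    (algebraMap A F).codRestrict w.toValuationSubring.toSubring hA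
  letI : Algebra A w.toValuationSubring := φ.toAlgebra
  haveI : IsScalarTower A w.toValuationSubring F := IsScalarTower.of_algebraMap_eq (fun _ => rfl)
  have hint : IsIntegral w.toValuationSubring (b : F) := IsIntegral.tower_top b.2
  obtain ⟨y, hy⟩ := IsIntegrallyClosed.isIntegral_iff.mp hint
  show (b : F) ∈ w.toValuationSubring
  rw [← hy]
  exact y.2

end FibreSum

/-! ### part 7 -/

open AlgebraicCurve IsDedekindDomain IsDedekindDomain.HeightOneSpectrum WithZero

section FibreSum

variable {K F : Type*} [Field K] [Field F] [Algebra K F]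
variable (A : Type*) [CommRing A] [IsDedekindDomain A] [Algebra K A] [Algebra A F]
  [IsScalarTower K A F]
variable (L : Type*) [Field L] [Algebra A L] [IsFractionRing A L] [Algebra L F]
  [IsScalarTower A L F] [FiniteDimensional L F] [Algebra.IsSeparable L F]

/-- `K → A/(t)` is bijective when `A = K[t]` and `(t)` is maximal. -/
theorem bijective_algebraMap_quotient {t : A} (hgen : Algebra.adjoin K {t} = ⊤)
    (hmax : (Ideal.span {t}).IsMaximal) :
    Function.Bijective (algebraMap K (A ⧸ Ideal.span {t})) := by
  haveI := hmax
  letI : Field (A ⧸ Ideal.span {t}) := Ideal.Quotient.field _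
  refine ⟨(algebraMap K (A ⧸ Ideal.span {t})).injective, ?_⟩
  intro y
  obtain ⟨a, rfl⟩ := Ideal.Quotient.mk_surjective y
  let S : Subalgebra K A :=
    (Algebra.ofId K (A ⧸ Ideal.span {t})).range.comap (Ideal.Quotient.mkₐ K (Ideal.span {t}))
  have hle : Algebra.adjoin K {t} ≤ S := by
    apply Algebra.adjoin_le
    intro x hx
    rw [Set.mem_singleton_iff] at hx
    subst hx
    refine ⟨0, ?_⟩
    simp only [map_zero]
    symm
    exact Ideal.Quotient.eq_zero_iff_mem.mpr (Ideal.subset_span rfl)
  have : a ∈ S := hle (hgen ▸ Algebra.mem_top)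
  obtain ⟨c, hc⟩ := this
  exact ⟨c, hc⟩

end FibreSum

/-! ### part 8 -/

open AlgebraicCurve IsDedekindDomain IsDedekindDomain.HeightOneSpectrum WithZero

section FibreSum

variable {K F : Type*} [Field K] [Field F] [Algebra K F]
variable (A : Type*) [CommRing A] [IsDedekindDomain A] [Algebra K A] [Algebra A F]
  [IsScalarTower K A F]
variable (L : Type*) [Field L] [Algebra A L] [IsFractionRing A L] [Algebra L F]
  [IsScalarTower A L F] [FiniteDimensional L F] [Algebra.IsSeparable L F]

theorem exists_finset_zeros {t : A} (hgen : Algebra.adjoin K {t} = ⊤)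
    (hmax : (Ideal.span {t}).IsMaximal) (ht0 : t ≠ 0) :
    ∃ Z : Finset (Place K F), (∀ w, w ∈ Z ↔ 0 < w.ord (algebraMap A F t)) ∧
      (∀ w ∈ Z, 0 < w.deg) ∧
      ∑ w ∈ Z, w.ord (algebraMap A F t) * (w.deg : ℤ) = (Module.finrank L F : ℤ) := by
  classical
  haveI : IsDedekindDomain (integralClosure A F) := integralClosure.isDedekindDomain A L F
  haveI : IsFractionRing (integralClosure A F) F :=
    integralClosure.isFractionRing_of_finite_extension L F
  haveI : Module.Finite A (integralClosure A F) := IsIntegralClosure.finite A L F _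
  haveI := hmax
  set p : Ideal A := Ideal.span {t} with hp
  have hp0 : p ≠ ⊥ := by
    rw [hp, Ne, Ideal.span_singleton_eq_bot]
    exact ht0
  have hinj : Function.Injective (algebraMap A F) := by
    rw [IsScalarTower.algebraMap_eq A L F]
    exact (algebraMap L F).injective.comp (IsFractionRing.injective A L)
  haveI : Module.IsTorsionFree A F := Module.isTorsionFree_iff_algebraMap_injective.mpr hinj
  have hsum := Ideal.sum_ramification_inertia (integralClosure A F) L F hp0
  -- notation
  set B := integralClosure A F with hB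
  have htF : algebraMap A F t = algebraMap B F (algebraMap A B t) :=
    IsScalarTower.algebraMap_apply A B F t
  have htF0 : algebraMap A F t ≠ 0 := by
    intro h
    exact ht0 (hinj (by rw [h, map_zero]))
  have htB0 : algebraMap A B t ≠ 0 := by
    intro h
    apply htF0
    rw [htF, h, map_zero]
  have hmap : p.map (algebraMap A B) = Ideal.span {algebraMap A B t} := by
    rw [hp, Ideal.map_span, Set.image_singleton]
  have hmap0 : p.map (algebraMap A B) ≠ ⊥ := by
    rw [hmap, Ne, Ideal.span_singleton_eq_bot]
    exact htB0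
  -- the height one prime attached to a member of `primesOverFinset`
  have hprime : ∀ P ∈ IsDedekindDomain.primesOverFinset p B, P.IsPrime ∧ P.LiesOver p := fun P hP =>
    (IsDedekindDomain.mem_primesOverFinset_iff hp0 B).mp hP
  have hne : ∀ P ∈ IsDedekindDomain.primesOverFinset p B, P ≠ ⊥ := by
    intro P hP hbot
    have hlo := (hprime P hP).2
    have : p = ⊥ := by
      rw [hlo.over, hbot]
      exact Ideal.under_bot A B
    exact hp0 this
  let toP : {P // P ∈ IsDedekindDomain.primesOverFinset p B} → HeightOneSpectrum B := fun P =>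
    ⟨P.1, (hprime P.1 P.2).1, hne P.1 P.2⟩
  have htoP_inj : Function.Injective toP := by
    intro P Q h
    apply Subtype.ext
    exact congrArg HeightOneSpectrum.asIdeal h
  let Z : Finset (Place K F) :=
    (IsDedekindDomain.primesOverFinset p B).attach.image (fun P => placeOfPrime (K := K) (F := F) B (toP P))
  -- order at a place coming from a prime
  have hord : ∀ P : HeightOneSpectrum B,
      (placeOfPrime (K := K) (F := F) B P).ord (algebraMap A F t) =
        (multiplicity P.asIdeal (Ideal.span {algebraMap A B t}) : ℤ) := by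
    intro P
    rw [placeOfPrime_ord, htF, valuation_of_algebraMap,
      intValuation_eq_exp_neg_multiplicity P htB0, log_exp, neg_neg]
  have hdeg : ∀ P : {P // P ∈ IsDedekindDomain.primesOverFinset p B},
      (placeOfPrime (K := K) (F := F) B (toP P)).deg = p.inertiaDeg' P.1 := by
    intro P
    haveI hPlo := (hprime P.1 P.2).2
    rw [placeOfPrime_deg, Ideal.inertiaDeg'_algebraMap]
    let i : K ≃+* A ⧸ p :=
      RingEquiv.ofBijective (algebraMap K (A ⧸ p)) (bijective_algebraMap_quotient A hgen hmax)
    refine Algebra.finrank_eq_of_equiv_equiv i (RingEquiv.refl _) ?_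
    ext a
    simp only [RingEquiv.toRingHom_eq_coe, RingHom.coe_comp, Function.comp_apply,
      RingEquiv.coe_toRingHom, RingEquiv.coe_ringHom_refl,
      RingHom.id_apply]
    show algebraMap (A ⧸ p) (B ⧸ P.1) (algebraMap K (A ⧸ p) a) = algebraMap K (B ⧸ P.1) a
    rw [IsScalarTower.algebraMap_apply K A (A ⧸ p), Ideal.Quotient.algebraMap_eq,
      Ideal.Quotient.algebraMap_mk_of_liesOver,
      IsScalarTower.algebraMap_apply K B (B ⧸ P.1), Ideal.Quotient.algebraMap_eq]
    congr 1
    apply Subtype.ext
    show algebraMap A F (algebraMap K A a) = algebraMap K F a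
    rw [← IsScalarTower.algebraMap_apply K A F]
  refine ⟨Z, ?_, ?_, ?_⟩
  · intro w
    constructor
    · intro hw
      obtain ⟨P, -, rfl⟩ := Finset.mem_image.mp (show w ∈ Finset.image _ _ from hw)
      rw [ord_pos_iff _ htF0, placeOfPrime_adicValuation, htF, valuation_of_algebraMap,
        intValuation_lt_one_iff_mem]
      have hlo := (hprime P.1 P.2).2
      show algebraMap A B t ∈ P.1
      have : t ∈ P.1.under A := by
        rw [← hlo.over]
        exact Ideal.subset_span rfl
      exact this
    · intro hw
      have htmem : algebraMap A F t ∈ w.toValuationSubring :=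
        (ord_nonneg_iff w _).mp hw.le
      have hAw := mem_of_adjoin_eq_top A hgen w htmem
      have hBw : ∀ b : B, algebraMap B F b ∈ w.toValuationSubring := integralClosure_le A w hAw
      have hweq := eq_placeOfPrime_centre B w hBw
      set Q := centre B w hBw with hQ
      have htQ : algebraMap A B t ∈ Q.asIdeal := by
        show toValRing B w hBw (algebraMap A B t) ∈ IsLocalRing.maximalIdeal w.toValuationSubring
        rw [mem_maximalIdeal_iff, coe_toValRing, ← htF, ← ord_pos_iff _ htF0]
        exact hw
      have hQover : Q.asIdeal.LiesOver p := by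
        constructor
        have hle : p ≤ Q.asIdeal.under A := by
          rw [hp, Ideal.span_le, Set.singleton_subset_iff]
          exact htQ
        have hne_top : Q.asIdeal.under A ≠ ⊤ := (Ideal.IsPrime.under A Q.asIdeal).ne_top
        exact (hmax.eq_of_le hne_top hle)
      have hQmem : Q.asIdeal ∈ IsDedekindDomain.primesOverFinset p B :=
        (IsDedekindDomain.mem_primesOverFinset_iff hp0 B).mpr ⟨Q.isPrime, hQover⟩
      refine Finset.mem_image.mpr ⟨⟨Q.asIdeal, hQmem⟩, Finset.mem_attach _ _, ?_⟩
      rw [hweq]
  · intro w hw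
    obtain ⟨P, -, rfl⟩ := Finset.mem_image.mp (show w ∈ Finset.image _ _ from hw)
    haveI hPlo := (hprime P.1 P.2).2
    rw [hdeg]
    exact Ideal.inertiaDeg'_pos p P.1
  · rw [Finset.sum_image (fun P _ Q _ h => htoP_inj (placeOfPrime_injective B h))]
    rw [← hsum, Nat.cast_sum, ← Finset.sum_attach (IsDedekindDomain.primesOverFinset p B)]
    apply Finset.sum_congr rfl
    intro P _
    have hPprime := (hprime P.1 P.2).1
    rw [hord, hdeg, Nat.cast_mul]
    congr 2
    rw [Ideal.IsDedekindDomain.ramificationIdx'_eq_multiplicity hmap0 hPprime, hmap]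

end FibreSum

/-! ### part 9 -/

open AlgebraicCurve IsDedekindDomain IsDedekindDomain.HeightOneSpectrum WithZero Polynomial
open IntermediateField

section Concrete

variable {K F : Type*} [Field K] [Field F] [Algebra K F] [CharZero K]

/-- **Fibre sum for zeros**: if `f` is transcendental over `K` and `F` is finite over `K(f)`,
the zeros of `f` form a finite set and `∑ ord_w(f) * deg w = [F : K(f)]`. -/
theorem exists_finset_zeros_of_transcendental (f : F) (hf : Transcendental K f)
    (hfin : FiniteDimensional K⟮f⟯ F) :
    ∃ Z : Finset (Place K F), (∀ w, w ∈ Z ↔ 0 < w.ord f) ∧ (∀ w ∈ Z, 0 < w.deg) ∧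
      ∑ w ∈ Z, w.ord f * (w.deg : ℤ) = (Module.finrank K⟮f⟯ F : ℤ) := by
  letI algA : Algebra K[X] F := (aeval f).toAlgebra
  haveI : IsScalarTower K K[X] F := IsScalarTower.of_algebraMap_eq (fun a => by
    show algebraMap K F a = aeval f (C a)
    rw [aeval_C])
  let e : RatFunc K ≃ₐ[K] K⟮f⟯ := RatFunc.algEquivOfTranscendental f hf
  let φ : RatFunc K →+* F := (algebraMap K⟮f⟯ F).comp (e : RatFunc K →+* K⟮f⟯)
  letI algL : Algebra (RatFunc K) F := φ.toAlgebra
  haveI : IsScalarTower K[X] (RatFunc K) F := IsScalarTower.of_algebraMap_eq (fun g => by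
    show aeval f g = algebraMap K⟮f⟯ F (e (algebraMap K[X] (RatFunc K) g))
    rw [RatFunc.algEquivOfTranscendental_algebraMap]
    exact (AdjoinSimple.coe_aeval_gen_apply K f g).symm)
  have hc : (algebraMap K⟮f⟯ F).comp (e : RatFunc K ≃+* K⟮f⟯).toRingHom =
      (RingEquiv.refl F).toRingHom.comp (algebraMap (RatFunc K) F) := by
    ext x
    rfl
  haveI : FiniteDimensional (RatFunc K) F :=
    Module.Finite.of_equiv_equiv (e : RatFunc K ≃+* K⟮f⟯).symm (RingEquiv.refl F) (by
      ext x
      simp only [RingHom.coe_comp, Function.comp_apply,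
        RingEquiv.coe_toRingHom, RingEquiv.coe_ringHom_refl, RingHom.id_apply]
      show algebraMap K⟮f⟯ F (e (e.symm x)) = _
      rw [AlgEquiv.apply_symm_apply])
  have hrank : Module.finrank (RatFunc K) F = Module.finrank K⟮f⟯ F :=
    Algebra.finrank_eq_of_equiv_equiv (e : RatFunc K ≃+* K⟮f⟯) (RingEquiv.refl F) hc
  haveI : CharZero (RatFunc K) := charZero_of_injective_algebraMap (algebraMap K (RatFunc K)).injective
  haveI : Algebra.IsSeparable (RatFunc K) F := Algebra.IsAlgebraic.isSeparable_of_perfectField
  have hgen : Algebra.adjoin K {(X : K[X])} = ⊤ := Polynomial.adjoin_X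
  have hmax : (Ideal.span {(X : K[X])}).IsMaximal :=
    PrincipalIdealRing.isMaximal_of_irreducible Polynomial.prime_X.irreducible
  have hX : algebraMap K[X] F X = f := by
    show aeval f X = f
    rw [aeval_X]
  have := exists_finset_zeros (K := K) (F := F) K[X] (RatFunc K) hgen hmax Polynomial.X_ne_zero
  rw [hX, hrank] at this
  exact this

end Concrete

/-! ### part 10 -/

open AlgebraicCurve Polynomial IntermediateField

section Trdeg

universe u v

variable {K : Type u} {F : Type v} [Field K] [Field F] [Algebra K F]

open scoped IntermediateField.algebraAdjoinAdjoin in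
theorem isAlgebraic_adjoin_of_finite {f : F} (hfin : FiniteDimensional K⟮f⟯ F) :
    Algebra.IsAlgebraic (Algebra.adjoin K {f}) F := by
  haveI : Algebra.IsAlgebraic K⟮f⟯ F := Algebra.IsAlgebraic.of_finite _ _
  exact Algebra.IsAlgebraic.trans (Algebra.adjoin K {f}) K⟮f⟯ F

theorem isAlgebraic_simple_of_transcendental {f g : F} (hfin : FiniteDimensional K⟮f⟯ F)
    (hg : Transcendental K g) : Algebra.IsAlgebraic K⟮g⟯ F := by
  haveI := isAlgebraic_adjoin_of_finite hfin
  have h1 : Algebra.trdeg K F ≤ 1 := by
    have := Algebra.IsAlgebraic.trdeg_le_cardinalMk K ({f} : Set F)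
    simpa using this
  let x : PUnit.{v+1} → F := fun _ => g
  have hx : AlgebraicIndependent K x := (algebraicIndependent_unique_type_iff (x := x)).mpr hg
  have hbasis : IsTranscendenceBasis K x :=
    hx.isTranscendenceBasis_of_trdeg_le_of_finite (by simpa using h1)
  have := hbasis.isAlgebraic_field
  have hr : Set.range x = {g} := by
    ext y; simp [x, eq_comm]
  rwa [hr] at this

theorem finiteDimensional_simple_of_transcendental {f g : F} (hfin : FiniteDimensional K⟮f⟯ F)
    (hg : Transcendental K g) : FiniteDimensional K⟮g⟯ F := by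
  haveI halg := isAlgebraic_simple_of_transcendental hfin hg
  haveI : Algebra.EssFiniteType K K⟮f⟯ :=
    IntermediateField.essFiniteType_iff.mpr ⟨{f}, by simp⟩
  haveI : Algebra.EssFiniteType K⟮f⟯ F := inferInstance
  haveI : Algebra.EssFiniteType K F := Algebra.EssFiniteType.comp K K⟮f⟯ F
  haveI : Algebra.EssFiniteType K⟮g⟯ F := Algebra.EssFiniteType.of_comp K K⟮g⟯ F
  obtain ⟨s, hs⟩ := IntermediateField.fg_top K⟮g⟯ F
  haveI : FiniteDimensional K⟮g⟯ (IntermediateField.adjoin K⟮g⟯ (s : Set F)) :=
    IntermediateField.finiteDimensional_adjoin (fun x _ => (halg.isAlgebraic x).isIntegral)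
  rw [hs] at this
  exact Module.Finite.equiv (IntermediateField.topEquiv (F := K⟮g⟯) (E := F)).toLinearEquiv

end Trdeg

/-! ### part 11 -/

open AlgebraicCurve IsDedekindDomain IsDedekindDomain.HeightOneSpectrum WithZero Polynomial
open IntermediateField

section Concrete

variable {K F : Type*} [Field K] [Field F] [Algebra K F]

/-- Elements algebraic over `K` have order `0` at every place. -/
theorem ord_eq_zero_of_isAlgebraic (w : Place K F) {g : F} (hg : IsAlgebraic K g) :
    w.ord g = 0 := by
  have key : ∀ h : F, IsAlgebraic K h → 0 ≤ w.ord h := by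
    intro h hh
    rw [ord_nonneg_iff]
    have := integralClosure_le K w w.algebraMap_mem' ⟨h, hh.isIntegral⟩
    exact this
  have h1 := key g hg
  have h2 := key g⁻¹ hg.inv
  rw [Place.ord_inv] at h2
  omega

theorem adjoin_simple_inv (f : F) : K⟮f⁻¹⟯ = K⟮f⟯ := by
  apply le_antisymm
  · rw [adjoin_simple_le_iff]
    exact inv_mem (mem_adjoin_simple_self K f)
  · rw [adjoin_simple_le_iff]
    have h := inv_mem (mem_adjoin_simple_self K f⁻¹)
    rwa [inv_inv] at h

variable [CharZero K]

/-- **Fibre sum for poles**. -/
theorem exists_finset_poles_of_transcendental (f : F) (hf : Transcendental K f)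
    (hfin : FiniteDimensional K⟮f⟯ F) :
    ∃ Z : Finset (Place K F), (∀ w, w ∈ Z ↔ w.ord f < 0) ∧ (∀ w ∈ Z, 0 < w.deg) ∧
      ∑ w ∈ Z, w.ord f * (w.deg : ℤ) = -(Module.finrank K⟮f⟯ F : ℤ) := by
  have hf' : Transcendental K f⁻¹ := fun h => hf (IsAlgebraic.inv_iff.mp h)
  have hfin' : FiniteDimensional K⟮f⁻¹⟯ F := by rw [adjoin_simple_inv]; exact hfin
  obtain ⟨Z, hZ, hdeg, hsum⟩ := exists_finset_zeros_of_transcendental f⁻¹ hf' hfin'
  refine ⟨Z, ?_, hdeg, ?_⟩
  · intro w
    rw [hZ, Place.ord_inv]
    omega
  · have hrank : Module.finrank K⟮f⁻¹⟯ F = Module.finrank K⟮f⟯ F := by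
      rw [adjoin_simple_inv]
    rw [← hrank, ← hsum, ← Finset.sum_neg_distrib]
    apply Finset.sum_congr rfl
    intro w _
    rw [Place.ord_inv]
    ring

end Concrete

/-! ### part 12 -/

open AlgebraicCurve IsDedekindDomain IsDedekindDomain.HeightOneSpectrum WithZero Polynomial
open IntermediateField

section Concrete

variable {K F : Type*} [Field K] [Field F] [Algebra K F] [CharZero K]

theorem degree_onFinset (s : Finset (Place K F)) (φ : Place K F → ℤ)
    (hφ : ∀ v, φ v ≠ 0 → v ∈ s) :
    Divisor.degree (Finsupp.onFinset s φ hφ) = ∑ v ∈ s, φ v * (v.deg : ℤ) := by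
  rw [Divisor.degree, Finsupp.liftAddHom_apply, Finsupp.onFinset_sum]
  · rfl
  · intro v
    simp

/-- Principal divisors exist and have degree zero, for `F` finite over `K(f)`, `char K = 0`. -/
theorem hasPrincipalDivisors (f : F) (hfin : FiniteDimensional K⟮f⟯ F) :
    HasPrincipalDivisors K F := by
  classical
  constructor
  intro g hg0
  by_cases hg : IsAlgebraic K g
  · refine ⟨0, fun v => ?_, map_zero _⟩
    rw [ord_eq_zero_of_isAlgebraic v hg]
    rfl
  · have hgt : Transcendental K g := hg
    have hfing := finiteDimensional_simple_of_transcendental hfin hgt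
    obtain ⟨Z0, hZ0, -, hsum0⟩ := exists_finset_zeros_of_transcendental g hgt hfing
    obtain ⟨Zp, hZp, -, hsump⟩ := exists_finset_poles_of_transcendental g hgt hfing
    have hdisj : Disjoint Z0 Zp := by
      rw [Finset.disjoint_left]
      intro v h0 hp
      have := (hZ0 v).mp h0
      have := (hZp v).mp hp
      omega
    have hsupp : ∀ v : Place K F, v.ord g ≠ 0 → v ∈ Z0 ∪ Zp := by
      intro v hv
      rw [Finset.mem_union, hZ0, hZp]
      omega
    refine ⟨Finsupp.onFinset (Z0 ∪ Zp) (fun v => v.ord g) hsupp, fun v => rfl, ?_⟩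
    rw [degree_onFinset, Finset.sum_union hdisj, hsum0, hsump]
    ring

/-- Residue fields of places are finite over `K`. -/
theorem finite_residueField (f : F) (hfin : FiniteDimensional K⟮f⟯ F) (w : Place K F) :
    Module.Finite K w.ResidueField := by
  obtain ⟨π, hπ⟩ := IsDiscreteValuationRing.exists_irreducible w.toValuationSubring
  have hord : w.ord (π : F) = 1 := w.ord_coe_irreducible hπ
  have htr : Transcendental K (π : F) := by
    intro halg
    have := ord_eq_zero_of_isAlgebraic w halg
    omega
  have hfinπ := finiteDimensional_simple_of_transcendental hfin htr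
  obtain ⟨Z, hZ, hdeg, -⟩ := exists_finset_zeros_of_transcendental (π : F) htr hfinπ
  have hw : w ∈ Z := (hZ w).mpr (by omega)
  exact Module.finite_of_finrank_pos (hdeg w hw)

theorem finiteResidue (f : F) (hfin : FiniteDimensional K⟮f⟯ F) (w : Place K F) :
    w.FiniteResidue := ⟨finite_residueField f hfin w⟩

/-- For algebraically closed `K`, all places have degree one. -/
theorem deg_eq_one [IsAlgClosed K] (f : F) (hfin : FiniteDimensional K⟮f⟯ F) (w : Place K F) :
    w.deg = 1 := by
  haveI := finite_residueField f hfin w
  exact w.deg_eq_one_of_isAlgClosed_of_finite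

end Concrete

end Fermat.Agent.S24.FFPlaces
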