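import Mathlib
import Fermat.Prelude.Def_AlgebraicCurve_DivisorClassGroup

/-!
# S24 package (B), part 1: basic tools on `AlgebraicCurve.Place`

* membership in the valuation ring in terms of `adicValuation` / `ord`;
* a valuation subring cut out by a `ℤᵐ⁰`-valued valuation is a PID;
* restriction of a place to a subfield over which the big field is algebraic;
* `ord` of the restriction: ramification index.
-/

set_option autoImplicit false

noncomputable section

open IsDedekindDomain WithZero IsLocalRing AlgebraicCurve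

namespace Fermat.Agent.S24.GaloisPlaces

section Basic

variable {K L : Type*} [Field K] [Field L] [Algebra K L]

/-- Membership in the valuation ring of a place, in terms of the adic valuation. -/
theorem mem_iff_adicValuation_le_one (w : Place K L) (x : L) :
    x ∈ w.toValuationSubring ↔ w.adicValuation x ≤ 1 := by
  constructor
  · intro hx
    have := w.heightOneSpectrum.valuation_le_one (K := L) (⟨x, hx⟩ : w.toValuationSubring)
    simpa [Place.adicValuation] using this
  · intro hx
    obtain ⟨n, d, hnd⟩ :=
      w.heightOneSpectrum.exists_primeCompl_mul_eq_of_integer (K := L) x hx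
    have hd : IsUnit (d : w.toValuationSubring) := by
      have h1 : (d : w.toValuationSubring) ∉ IsLocalRing.maximalIdeal w.toValuationSubring := d.2
      rwa [IsLocalRing.mem_maximalIdeal, mem_nonunits_iff, not_not] at h1
    obtain ⟨u, hu⟩ := hd
    have hd0 : ((d : w.toValuationSubring) : L) ≠ 0 := by
      intro h0
      have : (d : w.toValuationSubring) = 0 := Subtype.ext h0
      rw [← hu] at this
      exact u.ne_zero this
    have hx' : x = ((n * (u⁻¹ : w.toValuationSubringˣ) : w.toValuationSubring) : L) := by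
      have h1 : ((u⁻¹ : w.toValuationSubringˣ) : w.toValuationSubring) * d = 1 := by
        rw [← hu]; exact u.inv_mul
      have h2 : (((u⁻¹ : w.toValuationSubringˣ) : w.toValuationSubring) : L)
          * ((d : w.toValuationSubring) : L) = 1 := by
        have := congrArg (Subtype.val) h1
        simpa using this
      have hnd' : x * ((d : w.toValuationSubring) : L) = ((n : w.toValuationSubring) : L) := hnd
      push_cast
      rw [← hnd']
      field_simp
      rw [mul_assoc, mul_comm ((d : w.toValuationSubring) : L), h2, mul_one]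
    rw [hx']
    exact Subtype.mem _

theorem ord_nonneg_iff (w : Place K L) {x : L} (hx : x ≠ 0) :
    0 ≤ w.ord x ↔ x ∈ w.toValuationSubring := by
  have h0 := w.adicValuation_ne_zero hx
  rw [mem_iff_adicValuation_le_one, Place.ord, neg_nonneg, WithZero.log_le_iff_le_exp h0,
    WithZero.exp_zero]

theorem ord_pos_iff (w : Place K L) {x : L} (hx : x ≠ 0) :
    0 < w.ord x ↔ x⁻¹ ∉ w.toValuationSubring := by
  rw [← ord_nonneg_iff w (inv_ne_zero hx), w.ord_inv]
  omega

theorem ord_eq_zero_iff (w : Place K L) {x : L} (hx : x ≠ 0) :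
    w.ord x = 0 ↔ x ∈ w.toValuationSubring ∧ x⁻¹ ∈ w.toValuationSubring := by
  rw [← ord_nonneg_iff w hx, ← ord_nonneg_iff w (inv_ne_zero hx), w.ord_inv]
  omega

/-- A valuation subring cut out by a `ℤᵐ⁰`-valued valuation is a principal ideal ring. -/
theorem isPrincipalIdealRing_of_valuation {F : Type*} [Field F] (A : ValuationSubring F)
    (ν : Valuation F ℤᵐ⁰) (hν : ∀ x, x ∈ A ↔ ν x ≤ 1) : IsPrincipalIdealRing A := by
  refine ⟨fun I => ?_⟩
  by_cases hI : I = ⊥
  · subst hI; exact bot_isPrincipal
  obtain ⟨a, haI, ha0⟩ := Submodule.exists_mem_ne_zero_of_ne_bot hI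
  let g : A → ℕ := fun a => (-(WithZero.log (ν (a : F)))).toNat
  let S : Set ℕ := {n | ∃ a ∈ I, a ≠ 0 ∧ g a = n}
  have hS : S.Nonempty := ⟨g a, a, haI, ha0, rfl⟩
  obtain ⟨a0, ha0I, ha00, hmin⟩ : ∃ a0 ∈ I, a0 ≠ 0 ∧ ∀ b ∈ I, b ≠ 0 → g a0 ≤ g b := by
    obtain ⟨a0, h1, h2, h3⟩ := Nat.sInf_mem hS
    exact ⟨a0, h1, h2, fun b hb hb0 => by rw [h3]; exact Nat.sInf_le ⟨b, hb, hb0, rfl⟩⟩
  have hne : ∀ b : A, b ≠ 0 → ν (b : F) ≠ 0 := fun b hb =>
    (Valuation.ne_zero_iff _).mpr (fun h => hb (Subtype.ext h))
  have hlog : ∀ b : A, b ≠ 0 → WithZero.log (ν (b : F)) ≤ 0 := fun b hb => by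
    rw [WithZero.log_le_iff_le_exp (hne b hb), WithZero.exp_zero]
    exact (hν _).mp b.2
  refine ⟨⟨a0, ?_⟩⟩
  apply le_antisymm
  · intro b hb
    by_cases hb0 : b = 0
    · subst hb0; exact Submodule.zero_mem _
    have h1 := hmin b hb hb0
    have hνb : ν (b : F) ≤ ν (a0 : F) := by
      rw [← WithZero.log_le_log (hne b hb0) (hne a0 ha00)]
      have h2 := hlog b hb0
      have h3 := hlog a0 ha00
      simp only [g] at h1
      omega
    have ha0F : (a0 : F) ≠ 0 := fun h => ha00 (Subtype.ext h)
    have hmem : (b : F) / a0 ∈ A := by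
      rw [hν, map_div₀]
      exact div_le_one_of_le₀ hνb zero_le
    rw [Ideal.submodule_span_eq, Ideal.mem_span_singleton']
    refine ⟨⟨(b : F) / a0, hmem⟩, Subtype.ext ?_⟩
    show (b : F) / a0 * a0 = b
    field_simp
  · rw [Ideal.submodule_span_eq, Ideal.span_le]
    simpa using ha0I

end Basic

section Restrict

variable {K F L : Type*} [Field K] [Field F] [Field L] [Algebra K F] [Algebra K L] [Algebra F L]
  [IsScalarTower K F L]

/-- Restriction of a place of `L` to a subfield `F` over which `L` is algebraic. -/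
def restrict [Algebra.IsAlgebraic F L] (w : Place K L) : Place K F where
  toValuationSubring := w.toValuationSubring.comap (algebraMap F L)
  algebraMap_mem' a := by
    rw [ValuationSubring.mem_comap, ← IsScalarTower.algebraMap_apply]
    exact w.algebraMap_mem' a
  ne_top' := by
    intro htop
    apply w.ne_top'
    rw [eq_top_iff]
    intro x _
    have hF : ∀ f : F, algebraMap F L f ∈ w.toValuationSubring := fun f => by
      have : f ∈ w.toValuationSubring.comap (algebraMap F L) := by rw [htop]; trivial
      exact this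
    let φ : F →+* w.toValuationSubring :=
      (algebraMap F L).codRestrict w.toValuationSubring.toSubring hF
    obtain ⟨p, hp, hpx⟩ : IsIntegral F x := Algebra.IsIntegral.isIntegral x
    have hint : IsIntegral w.toValuationSubring x := by
      refine ⟨p.map φ, hp.map φ, ?_⟩
      rw [Polynomial.eval₂_map]
      exact hpx
    obtain ⟨y, hy⟩ := IsIntegrallyClosed.isIntegral_iff.mp hint
    rw [← hy]
    exact y.2
  isPrincipalIdealRing' :=
    isPrincipalIdealRing_of_valuation _ (w.adicValuation.comap (algebraMap F L)) (fun x => by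
      rw [ValuationSubring.mem_comap, mem_iff_adicValuation_le_one]; rfl)

variable [Algebra.IsAlgebraic F L]

@[simp]
theorem mem_restrict_iff (w : Place K L) (f : F) :
    f ∈ (restrict (F := F) w).toValuationSubring ↔ algebraMap F L f ∈ w.toValuationSubring :=
  Iff.rfl

/-- There is a ramification index: `ord_w = e * ord_{w|F}` on `F`. -/
theorem exists_ramIdx (w : Place K L) :
    ∃ e : ℕ, 0 < e ∧ ∀ f : F, w.ord (algebraMap F L f) = e * (restrict (F := F) w).ord f := by
  set v := restrict (F := F) w with hv
  obtain ⟨π, hπ⟩ := IsDiscreteValuationRing.exists_irreducible v.toValuationSubring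
  have hπ0 : (π : F) ≠ 0 := fun h => hπ.ne_zero (Subtype.ext h)
  have hπL : algebraMap F L (π : F) ≠ 0 := by
    rwa [ne_eq, map_eq_zero_iff _ (algebraMap F L).injective]
  -- `π` is not a unit of `O_v`, hence `π⁻¹ ∉ O_v`, hence `π⁻¹ ∉ O_w`
  have hinv : (algebraMap F L (π : F))⁻¹ ∉ w.toValuationSubring := by
    intro h
    have h' : ((π : F))⁻¹ ∈ v.toValuationSubring := by
      show algebraMap F L ((π : F))⁻¹ ∈ w.toValuationSubring
      rw [map_inv₀]; exact h
    apply hπ.not_isUnit
    refine IsUnit.of_mul_eq_one ⟨((π : F))⁻¹, h'⟩ (Subtype.ext ?_)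
    show (π : F) * ((π : F))⁻¹ = 1
    exact mul_inv_cancel₀ hπ0
  have hpos : 0 < w.ord (algebraMap F L (π : F)) := (ord_pos_iff w hπL).mpr hinv
  refine ⟨(w.ord (algebraMap F L (π : F))).toNat, by omega, fun f => ?_⟩
  rw [Int.toNat_of_nonneg hpos.le]
  by_cases hf : f = 0
  · subst hf; simp
  obtain ⟨u, hu⟩ := v.exists_unit_mul_zpow hf hπ
  -- a unit of `O_v` has `ord_w = 0`
  have hu0 : w.ord (algebraMap F L ((u : v.toValuationSubring) : F)) = 0 := by
    have hne : algebraMap F L ((u : v.toValuationSubring) : F) ≠ 0 := by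
      rw [ne_eq, map_eq_zero_iff _ (algebraMap F L).injective]
      exact fun h => u.ne_zero (Subtype.ext h)
    rw [ord_eq_zero_iff w hne]
    refine ⟨(u : v.toValuationSubring).2, ?_⟩
    have h2 : (((u⁻¹ : v.toValuationSubringˣ) : v.toValuationSubring) : F)
        = (((u : v.toValuationSubring) : F))⁻¹ := by
      have h3 : ((u : v.toValuationSubring) : F)
          * (((u⁻¹ : v.toValuationSubringˣ) : v.toValuationSubring) : F) = 1 := by
        exact congrArg Subtype.val u.mul_inv
      exact eq_inv_of_mul_eq_one_right h3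
    rw [← map_inv₀, ← h2]
    exact ((u⁻¹ : v.toValuationSubringˣ) : v.toValuationSubring).2
  conv_lhs => rw [hu]
  have hune : algebraMap F L ((u : v.toValuationSubring) : F) ≠ 0 := by
    rw [ne_eq, map_eq_zero_iff _ (algebraMap F L).injective]
    exact fun h => u.ne_zero (Subtype.ext h)
  rw [map_mul, map_zpow₀, w.ord_mul hune (zpow_ne_zero _ hπL), hu0, zero_add, w.ord_zpow,
    mul_comm]

/-- The ramification index of a place `w` of `L` over its restriction to `F`. -/
def ramIdx (F : Type*) [Field F] [Algebra K F] [Algebra F L] [IsScalarTower K F L]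
    [Algebra.IsAlgebraic F L] (w : Place K L) : ℕ :=
  (exists_ramIdx (F := F) w).choose

theorem ramIdx_pos (w : Place K L) : 0 < ramIdx F w :=
  (exists_ramIdx (F := F) w).choose_spec.1

theorem ord_algebraMap (w : Place K L) (f : F) :
    w.ord (algebraMap F L f) = ramIdx F w * (restrict (F := F) w).ord f :=
  (exists_ramIdx (F := F) w).choose_spec.2 f

theorem ramIdx_unique (w : Place K L) {e : ℤ}
    (he : ∀ f : F, w.ord (algebraMap F L f) = e * (restrict (F := F) w).ord f) :
    (ramIdx F w : ℤ) = e := by
  obtain ⟨π, hπ⟩ := IsDiscreteValuationRing.exists_irreducible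
    (restrict (F := F) w).toValuationSubring
  have h1 := he (π : F)
  rw [ord_algebraMap, (restrict (F := F) w).ord_coe_irreducible hπ] at h1
  simpa using h1

end Restrict

section OfPrime

variable {K L : Type*} [Field K] [Field L] [Algebra K L]

/-- Two places whose valuation rings are comparable are equal. -/
theorem eq_of_le {w w' : Place K L} (h : w.toValuationSubring ≤ w'.toValuationSubring) :
    w = w' :=
  Place.ext (ValuationSubring.eq_of_le_of_ne_top _ h w'.ne_top')

variable {B : Type*} [CommRing B] [IsDedekindDomain B] [Algebra B L] [IsFractionRing B L]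

/-- The place of `L = Frac B` attached to a nonzero prime of the Dedekind domain `B`
(which is assumed to contain the constants). -/
def ofPrime (P : HeightOneSpectrum B)
    (hK : ∀ a : K, ∃ b : B, algebraMap B L b = algebraMap K L a) : Place K L where
  toValuationSubring := (P.valuation L).valuationSubring
  algebraMap_mem' a := by
    obtain ⟨b, hb⟩ := hK a
    rw [← hb]
    exact P.valuation_le_one b
  ne_top' := by
    simp only [ne_eq, Valuation.valuationSubring_eq_top_iff, not_not]
    infer_instance
  isPrincipalIdealRing' :=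
    isPrincipalIdealRing_of_valuation _ (P.valuation L) (fun _ => Iff.rfl)

theorem mem_ofPrime_iff (P : HeightOneSpectrum B)
    (hK : ∀ a : K, ∃ b : B, algebraMap B L b = algebraMap K L a) (x : L) :
    x ∈ (ofPrime P hK).toValuationSubring ↔ P.valuation L x ≤ 1 := Iff.rfl

theorem algebraMap_mem_ofPrime (P : HeightOneSpectrum B)
    (hK : ∀ a : K, ∃ b : B, algebraMap B L b = algebraMap K L a) (b : B) :
    algebraMap B L b ∈ (ofPrime P hK).toValuationSubring :=
  P.valuation_le_one b

/-- `ord` of the place attached to a prime, on elements of `B`: positive iff in the prime. -/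
theorem ord_ofPrime_pos_iff (P : HeightOneSpectrum B)
    (hK : ∀ a : K, ∃ b : B, algebraMap B L b = algebraMap K L a) {b : B} (hb : b ≠ 0) :
    0 < (ofPrime P hK).ord (algebraMap B L b) ↔ b ∈ P.asIdeal := by
  have hbL : algebraMap B L b ≠ 0 := by
    rwa [ne_eq, map_eq_zero_iff _ (IsFractionRing.injective B L)]
  rw [ord_pos_iff _ hbL, mem_ofPrime_iff, map_inv₀, ← P.valuation_lt_one_iff_mem (K := L)]
  have h0 : P.valuation L (algebraMap B L b) ≠ 0 := (Valuation.ne_zero_iff _).mpr hbL
  rw [not_le, one_lt_inv₀ (zero_lt_iff.mpr h0)]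

/-- A place of `L` whose valuation ring contains `B` is the place of a prime of `B`. -/
theorem exists_eq_ofPrime (w : Place K L)
    (hK : ∀ a : K, ∃ b : B, algebraMap B L b = algebraMap K L a)
    (hB : ∀ b : B, algebraMap B L b ∈ w.toValuationSubring) :
    ∃ P : HeightOneSpectrum B, ofPrime P hK = w ∧
      ∀ b : B, b ∈ P.asIdeal ↔ (b = 0 ∨ (algebraMap B L b)⁻¹ ∉ w.toValuationSubring) := by
  let φ : B →+* w.toValuationSubring :=
    (algebraMap B L).codRestrict w.toValuationSubring.toSubring hB
  let I : Ideal B := (IsLocalRing.maximalIdeal w.toValuationSubring).comap φ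
  have hIprime : I.IsPrime := Ideal.comap_isPrime φ _
  have hmemI : ∀ b : B, b ∈ I ↔ (b = 0 ∨ (algebraMap B L b)⁻¹ ∉ w.toValuationSubring) := by
    intro b
    show φ b ∈ IsLocalRing.maximalIdeal w.toValuationSubring ↔ _
    rw [IsLocalRing.mem_maximalIdeal, mem_nonunits_iff]
    constructor
    · intro hnu
      by_cases hb : b = 0
      · exact Or.inl hb
      right
      intro hinv
      apply hnu
      refine IsUnit.of_mul_eq_one ⟨(algebraMap B L b)⁻¹, hinv⟩ (Subtype.ext ?_)
      show algebraMap B L b * (algebraMap B L b)⁻¹ = 1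
      exact mul_inv_cancel₀ (by rwa [ne_eq, map_eq_zero_iff _ (IsFractionRing.injective B L)])
    · rintro (rfl | hinv) hu
      · rw [map_zero] at hu
        exact not_isUnit_zero hu
      · apply hinv
        obtain ⟨u, hu⟩ := hu
        have h3 : ((u : w.toValuationSubring) : L)
            * (((u⁻¹ : w.toValuationSubringˣ) : w.toValuationSubring) : L) = 1 :=
          congrArg Subtype.val u.mul_inv
        have h4 : ((u : w.toValuationSubring) : L) = algebraMap B L b := by
          rw [hu]; rfl
        rw [h4] at h3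
        rw [← eq_inv_of_mul_eq_one_right h3]
        exact Subtype.mem _
  have hIbot : I ≠ ⊥ := by
    intro hbot
    apply w.ne_top'
    rw [eq_top_iff]
    intro x _
    obtain ⟨a, b, hb, rfl⟩ := IsFractionRing.div_surjective (A := B) x
    have hb0 : b ≠ 0 := nonZeroDivisors.ne_zero hb
    have hbI : b ∉ I := by rw [hbot]; exact hb0
    rw [hmemI, not_or, not_not] at hbI
    rw [div_eq_mul_inv]
    exact w.toValuationSubring.mul_mem _ _ (hB a) hbI.2
  let P : HeightOneSpectrum B := ⟨I, hIprime, hIbot⟩
  refine ⟨P, ?_, hmemI⟩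
  apply eq_of_le
  intro x hx
  obtain ⟨n, d, hnd⟩ := P.exists_primeCompl_mul_eq_of_integer (K := L) x hx
  have hd : (d : B) ∉ I := d.2
  rw [hmemI, not_or, not_not] at hd
  have hdL : algebraMap B L (d : B) ≠ 0 := by
    rw [ne_eq, map_eq_zero_iff _ (IsFractionRing.injective B L)]; exact hd.1
  have hx' : x = algebraMap B L n * (algebraMap B L (d : B))⁻¹ := by
    rw [← hnd]; field_simp
  rw [hx']
  exact w.toValuationSubring.mul_mem _ _ (hB n) hd.2

end OfPrime

end Fermat.Agent.S24.GaloisPlaces
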