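import Mathlib
import Fermat.Agent.S24.Defs
import Fermat.Agent.S24.PlaceDedekind
import Fermat.Agent.S24.FFBase
import Fermat.Agent.S24.FFPlaces86
import Fermat.Agent.S24.FFGlobal86
import Fermat.Agent.S24.FF.PlaceBasic

/-!
# S24 project, package GALb (helper56): decomposition groups of places in a Galois cover

`L / K(X)` finite Galois with group `G ≤ Aut_K(L)`, `K` algebraically closed of characteristic `0`.
For a place `w` of `L` over `X = c` : `|Stab_G(w)| = ord_w (X - c)`; over `X = ∞` :
`|Stab_G(w)| = - ord_w X`.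
-/

set_option autoImplicit false
set_option linter.unusedVariables false
set_option linter.unusedSectionVars false
set_option linter.style.haveILetI false

open AlgebraicCurve IntermediateField IsDedekindDomain
open scoped IntermediateField.algebraAdjoinAdjoin Pointwise

namespace Fermat.Agent.S24.GalStab56

open Fermat.Agent.S24.FFBase Fermat.Agent.S24.PlaceDedekind

variable {K L : Type*} [Field K] [Field L] [Algebra K L]

section action

variable {X : L} (G : Subgroup (L ≃ₐ[K] L)) (hGX : ∀ g ∈ G, g X = X)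

include hGX in
/-- Elements of `K[X]` are fixed by `G`. -/
theorem fixes_A (g : L ≃ₐ[K] L) (hg : g ∈ G) {a : L} (ha : a ∈ A K X) : g a = a := by
  have hle : A K X ≤ AlgHom.equalizer (g : L →ₐ[K] L) (AlgHom.id K L) := by
    refine Algebra.adjoin_le ?_
    rintro y (rfl : y = X)
    exact hGX g hg
  exact hle ha

include hGX in
theorem isIntegral_map (g : L ≃ₐ[K] L) (hg : g ∈ G) {b : L} (hb : IsIntegral (A K X) b) :
    IsIntegral (A K X) (g b) := by
  let f : L →ₐ[A K X] L :=
    { (g : L →+* L) with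
      commutes' := fun a => fixes_A G hGX g hg a.2 }
  exact hb.map f

end action

section galois

variable [CharZero K] {X : L} (hL : IsFunctionFieldOver K X)
  (G : Subgroup (L ≃ₐ[K] L)) (hGX : ∀ g ∈ G, g X = X)

/-- The action of `G` on the integral closure of `K[X]` in `L`. -/
@[reducible] noncomputable def actionB : MulSemiringAction G (Bx hL) where
  smul g b := ⟨(g : L ≃ₐ[K] L) (b : B K X).1, isIntegral_map G hGX g g.2 (b : B K X).2⟩
  one_smul b := Subtype.ext rfl
  mul_smul g h b := Subtype.ext rfl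
  smul_zero g := Subtype.ext (map_zero (g : L ≃ₐ[K] L))
  smul_add g a b := Subtype.ext (map_add (g : L ≃ₐ[K] L) _ _)
  smul_one g := Subtype.ext (map_one (g : L ≃ₐ[K] L))
  smul_mul g a b := Subtype.ext (map_mul (g : L ≃ₐ[K] L) _ _)

theorem algebraMap_smulB (g : G) (b : Bx hL) :
    letI := actionB hL G hGX
    algebraMap (Bx hL) L (g • b) = (g : L ≃ₐ[K] L) (algebraMap (Bx hL) L b) := rfl

end galois

section galois2

variable [CharZero K] {X : L} (hL : IsFunctionFieldOver K X)
  (G : Subgroup (L ≃ₐ[K] L)) (hGX : ∀ g ∈ G, g X = X)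
  (hG : ∀ y : L, (∀ g ∈ G, g y = y) → y ∈ K⟮X⟯)

include hG in
theorem isGaloisGroup :
    letI := actionB hL G hGX
    IsGaloisGroup G (Ax hL) (Bx hL) := by
  letI := actionB hL G hGX
  refine ⟨⟨fun {g h} hgh => ?_⟩, ⟨fun g a b => ?_⟩, ⟨fun b hb => ?_⟩⟩
  · -- faithful
    apply Subtype.ext
    apply AlgEquiv.ext
    intro y
    obtain ⟨a, b, hb, rfl⟩ := IsFractionRing.div_surjective (A := Bx hL) y
    have h1 : (g : L ≃ₐ[K] L) (algebraMap (Bx hL) L a) = (h : L ≃ₐ[K] L) (algebraMap (Bx hL) L a) :=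
      congrArg (algebraMap (Bx hL) L) (hgh a)
    have h2 : (g : L ≃ₐ[K] L) (algebraMap (Bx hL) L b) = (h : L ≃ₐ[K] L) (algebraMap (Bx hL) L b) :=
      congrArg (algebraMap (Bx hL) L) (hgh b)
    rw [map_div₀, map_div₀, h1, h2]
  · -- commutes
    apply (IsFractionRing.injective (Bx hL) L)
    show (g : L ≃ₐ[K] L) (algebraMap (Bx hL) L (a • b)) =
      algebraMap (Bx hL) L (a • (g • b))
    rw [Algebra.smul_def, Algebra.smul_def, map_mul, map_mul, map_mul]
    congr 1
    rw [← IsScalarTower.algebraMap_apply (Ax hL) (Bx hL) L]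
    exact fixes_A G hGX g g.2 (a : A K X).2
  · -- invariant
    have hy : (algebraMap (Bx hL) L b) ∈ K⟮X⟯ := by
      refine hG _ fun g hg => ?_
      exact congrArg (algebraMap (Bx hL) L) (hb ⟨g, hg⟩)
    have hint : IsIntegral (A K X) (algebraMap (Bx hL) L b) := (b : B K X).2
    have hint' : IsIntegral (A K X) (⟨_, hy⟩ : K⟮X⟯) := by
      rw [← isIntegral_algebraMap_iff (algebraMap K⟮X⟯ L).injective]
      exact hint
    have := isPrincipalIdealRing_A (K := K) hL.transcendental
    obtain ⟨a, ha⟩ := IsIntegrallyClosed.isIntegral_iff.mp hint'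
    refine ⟨(show Ax hL from a), ?_⟩
    apply (IsFractionRing.injective (Bx hL) L)
    exact congrArg (algebraMap K⟮X⟯ L) ha

end galois2

section memPrime

variable {F : Type*} [Field F] [Algebra K F]
variable {R : Type*} [CommRing R] [IsDedekindDomain R] [Algebra R F] [IsFractionRing R F]
variable [Algebra K R] [IsScalarTower K R F]

/-- The prime `P` consists of the elements of `R` of positive order at the place of `P`. -/
theorem mem_asIdeal_iff (P : HeightOneSpectrum R) {b : R} (hb : b ≠ 0) :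
    b ∈ P.asIdeal ↔ 0 < (Place.ofHeightOneSpectrum (K := K) (F := F) P).ord (algebraMap R F b) := by
  rw [← P.valuation_lt_one_iff_mem (K := F), ord_ofHeightOneSpectrum]
  have hne : P.valuation F (algebraMap R F b) ≠ 0 := by
    rw [Valuation.ne_zero_iff]
    exact (map_ne_zero_iff _ (IsFractionRing.injective R F)).mpr hb
  rw [Left.neg_pos_iff, WithZero.log_lt_iff_lt_exp hne, WithZero.exp_zero]

end memPrime

section stab

variable [CharZero K] {X : L} (hL : IsFunctionFieldOver K X)
  (G : Subgroup (L ≃ₐ[K] L)) (hGX : ∀ g ∈ G, g X = X)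

theorem exists_smul_eq (P : HeightOneSpectrum (Bx hL)) (g : G) :
    letI := actionB hL G hGX
    ∃ P' : HeightOneSpectrum (Bx hL),
      Place.ofHeightOneSpectrum (K := K) (F := L) P' =
        (g : L ≃ₐ[K] L) • Place.ofHeightOneSpectrum (K := K) (F := L) P ∧
      P'.asIdeal = g • P.asIdeal := by
  letI := actionB hL G hGX
  set w := Place.ofHeightOneSpectrum (K := K) (F := L) P with hw
  have hB : ∀ r : Bx hL, algebraMap (Bx hL) L r ∈ ((g : L ≃ₐ[K] L) • w).toValuationSubring := by
    intro r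
    rw [Place.smul_toValuationSubring, ValuationSubring.mem_pointwise_smul_iff_inv_smul_mem]
    have : (g : L ≃ₐ[K] L)⁻¹ • algebraMap (Bx hL) L r = algebraMap (Bx hL) L (g⁻¹ • r) := rfl
    rw [this]
    exact P.valuation_le_one (g⁻¹ • r)
  obtain ⟨P', hP'⟩ := exists_ofHeightOneSpectrum_eq ((g : L ≃ₐ[K] L) • w) hB
  refine ⟨P', hP', ?_⟩
  ext b
  rw [Ideal.mem_pointwise_smul_iff_inv_smul_mem]
  rcases eq_or_ne b 0 with rfl | hb
  · simp
  have hb' : g⁻¹ • b ≠ 0 := by
    rw [Ne, smul_eq_zero_iff_eq]; exact hb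
  rw [mem_asIdeal_iff (K := K) (F := L) P' hb, mem_asIdeal_iff (K := K) (F := L) P hb', hP', ← hw]
  have h1 : algebraMap (Bx hL) L b = (g : L ≃ₐ[K] L) (algebraMap (Bx hL) L (g⁻¹ • b)) := by
    have : algebraMap (Bx hL) L b = algebraMap (Bx hL) L (g • (g⁻¹ • b)) := by
      rw [smul_inv_smul]
    rw [this]; rfl
  rw [h1, Place.ord_smul]

theorem smul_eq_iff (P : HeightOneSpectrum (Bx hL)) (g : G) :
    letI := actionB hL G hGX
    (g : L ≃ₐ[K] L) • Place.ofHeightOneSpectrum (K := K) (F := L) P =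
        Place.ofHeightOneSpectrum (K := K) (F := L) P ↔ g • P.asIdeal = P.asIdeal := by
  letI := actionB hL G hGX
  obtain ⟨P', h1, h2⟩ := exists_smul_eq hL G hGX P g
  rw [← h1, ← h2]
  constructor
  · intro h
    rw [ofHeightOneSpectrum_injective h]
  · intro h
    rw [HeightOneSpectrum.ext h]

theorem card_stabSub_eq (P : HeightOneSpectrum (Bx hL)) :
    letI := actionB hL G hGX
    Nat.card (stabSub G (Place.ofHeightOneSpectrum (K := K) (F := L) P)) =
      Nat.card (MulAction.stabilizer G P.asIdeal) := by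
  letI := actionB hL G hGX
  have : stabSub G (Place.ofHeightOneSpectrum (K := K) (F := L) P) =
      MulAction.stabilizer G P.asIdeal := by
    ext g
    rw [MulAction.mem_stabilizer_iff]
    exact smul_eq_iff hL G hGX P g
  rw [this]

end stab

section ef

variable [CharZero K] {X : L} (hL : IsFunctionFieldOver K X)

/-- `X - c` as an element of `K[X]`. -/
noncomputable def tc (c : K) : Ax hL := (gen K X : A K X) - algebraMap K (A K X) c

theorem coe_tc (c : K) : algebraMap (Ax hL) L (tc hL c) = X - algebraMap K L c := rfl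

theorem coe_tc' (c : K) :
    algebraMap (Bx hL) L (algebraMap (Ax hL) (Bx hL) (tc hL c)) = X - algebraMap K L c := rfl

omit [CharZero K] in
theorem irreducible_gen_sub (hX : Transcendental K X) (c : K) :
    Irreducible ((gen K X : A K X) - algebraMap K (A K X) c) := by
  let e := Polynomial.algEquivOfTranscendental K X hX
  have h : (gen K X : A K X) - algebraMap K (A K X) c = e (Polynomial.X - Polynomial.C c) := by
    rw [map_sub, Polynomial.algEquivOfTranscendental_apply_X, ← Polynomial.algebraMap_eq,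
      AlgEquiv.commutes]
    rfl
  rw [h, MulEquiv.irreducible_iff]
  exact Polynomial.irreducible_X_sub_C c

theorem irreducible_tc (c : K) : Irreducible (tc hL c) :=
  irreducible_gen_sub hL.transcendental c

theorem isMaximal_span_tc (c : K) : (Ideal.span {tc hL c}).IsMaximal :=
  PrincipalIdealRing.isMaximal_of_irreducible (irreducible_tc hL c)

theorem tc_ne_zero (c : K) : tc hL c ≠ 0 := (irreducible_tc hL c).ne_zero

theorem algebraMap_tc_ne_zero (c : K) : algebraMap (Ax hL) (Bx hL) (tc hL c) ≠ 0 := by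
  intro h
  have h1 : algebraMap (Ax hL) L (tc hL c) = 0 := by
    have := congrArg (algebraMap (Bx hL) L) h
    rw [map_zero] at this
    exact this
  have h2 : (tc hL c : A K X) = 0 := Subtype.ext h1
  exact tc_ne_zero hL c h2

theorem liesOver (P : HeightOneSpectrum (Bx hL)) (c : K)
    (hc : 0 < (Place.ofHeightOneSpectrum (K := K) (F := L) P).ord (X - algebraMap K L c)) :
    P.asIdeal.LiesOver (Ideal.span {tc hL c}) := by
  constructor
  have hmax := isMaximal_span_tc hL c
  refine hmax.eq_of_le ?_ ?_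
  · exact (Ideal.IsPrime.under (Ax hL) P.asIdeal).ne_top
  · rw [Ideal.span_singleton_le_iff_mem, Ideal.under_def, Ideal.mem_comap,
      mem_asIdeal_iff (K := K) (F := L) P (algebraMap_tc_ne_zero hL c)]
    exact hc

end ef

section main

variable [CharZero K] [IsAlgClosed K] {X : L} (hL : IsFunctionFieldOver K X)
  (G : Subgroup (L ≃ₐ[K] L)) [Finite G] (hGX : ∀ g ∈ G, g X = X)
  (hG : ∀ y : L, (∀ g ∈ G, g y = y) → y ∈ K⟮X⟯)

theorem finrank_quotient_eq_one (P : HeightOneSpectrum (Bx hL)) :
    Module.finrank K (Bx hL ⧸ P.asIdeal) = 1 := by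
  rw [← deg_ofHeightOneSpectrum (K := K) (F := L) P]
  exact FF86.place_deg_eq_one hL _

theorem inertiaDeg_eq_one (P : HeightOneSpectrum (Bx hL)) (c : K)
    (hc : 0 < (Place.ofHeightOneSpectrum (K := K) (F := L) P).ord (X - algebraMap K L c)) :
    P.asIdeal.inertiaDeg (Ax hL) = 1 := by
  haveI : (Ideal.span {tc hL c}).IsMaximal := isMaximal_span_tc hL c
  haveI : P.asIdeal.LiesOver (Ideal.span {tc hL c}) := liesOver hL P c hc
  haveI : P.asIdeal.IsMaximal := P.isMaximal
  rw [Ideal.inertiaDeg_eq_of_isMaximal (Ideal.span {tc hL c}) P.asIdeal]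
  letI : Field (Ax hL ⧸ Ideal.span {tc hL c}) := Ideal.Quotient.field _
  rw [finrank_eq_one_iff_of_nonzero' (1 : Bx hL ⧸ P.asIdeal) one_ne_zero]
  intro w
  have h1 := (finrank_eq_one_iff_of_nonzero' (1 : Bx hL ⧸ P.asIdeal) one_ne_zero).mp
    (finrank_quotient_eq_one hL P) w
  obtain ⟨k, hk⟩ := h1
  refine ⟨algebraMap K _ k, ?_⟩
  rw [← hk, algebraMap_smul]

end main

section main2

variable [CharZero K] [IsAlgClosed K] {X : L} (hL : IsFunctionFieldOver K X)
  (G : Subgroup (L ≃ₐ[K] L)) [Finite G] (hGX : ∀ g ∈ G, g X = X)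
  (hG : ∀ y : L, (∀ g ∈ G, g y = y) → y ∈ K⟮X⟯)

theorem ramificationIdx_eq_ord (P : HeightOneSpectrum (Bx hL)) (c : K)
    (hc : 0 < (Place.ofHeightOneSpectrum (K := K) (F := L) P).ord (X - algebraMap K L c)) :
    (P.asIdeal.ramificationIdx (Ax hL) : ℤ) =
      (Place.ofHeightOneSpectrum (K := K) (F := L) P).ord (X - algebraMap K L c) := by
  haveI : (Ideal.span {tc hL c}).IsMaximal := isMaximal_span_tc hL c
  haveI : P.asIdeal.LiesOver (Ideal.span {tc hL c}) := liesOver hL P c hc
  have hmap : (Ideal.span {tc hL c}).map (algebraMap (Ax hL) (Bx hL)) =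
      Ideal.span {algebraMap (Ax hL) (Bx hL) (tc hL c)} := by
    rw [Ideal.map_span, Set.image_singleton]
  have hne := algebraMap_tc_ne_zero hL c
  have hp0 : (Ideal.span {tc hL c}).map (algebraMap (Ax hL) (Bx hL)) ≠ ⊥ := by
    rw [hmap, Ne, Ideal.span_singleton_eq_bot]
    exact hne
  rw [Ideal.IsDedekindDomain.ramificationIdx_eq_multiplicity (Ideal.span {tc hL c}) P.asIdeal hp0, hmap,
    ord_ofHeightOneSpectrum, ← coe_tc' hL c, HeightOneSpectrum.valuation_of_algebraMap,
    HeightOneSpectrum.intValuation_eq_exp_neg_multiplicity _ hne, WithZero.log_exp, neg_neg]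

include hG in
theorem card_stabilizer_eq_ord (P : HeightOneSpectrum (Bx hL)) (c : K)
    (hc : 0 < (Place.ofHeightOneSpectrum (K := K) (F := L) P).ord (X - algebraMap K L c)) :
    letI := actionB hL G hGX
    (Nat.card (MulAction.stabilizer G P.asIdeal) : ℤ) =
      (Place.ofHeightOneSpectrum (K := K) (F := L) P).ord (X - algebraMap K L c) := by
  letI := actionB hL G hGX
  haveI := isGaloisGroup hL G hGX hG
  haveI : (Ideal.span {tc hL c}).IsMaximal := isMaximal_span_tc hL c
  haveI : P.asIdeal.LiesOver (Ideal.span {tc hL c}) := liesOver hL P c hc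
  haveI : CharZero (Ideal.span {tc hL c}).ResidueField :=
    charZero_of_injective_algebraMap (algebraMap K _).injective
  haveI : Module.IsTorsionFree (Ax hL) (Bx hL) := by
    rw [Module.isTorsionFree_iff_algebraMap_injective]
    intro a a' h
    have h1 : algebraMap (Ax hL) L a = algebraMap (Ax hL) L a' :=
      congrArg (algebraMap (Bx hL) L) h
    exact Subtype.ext h1
  rw [Ideal.card_stabilizer_eq (Ideal.span {tc hL c}) P.asIdeal,
    Ideal.ramificationIdxIn_eq_ramificationIdx (Ideal.span {tc hL c}) P.asIdeal G,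
    Ideal.inertiaDegIn_eq_inertiaDeg (Ideal.span {tc hL c}) P.asIdeal G,
    inertiaDeg_eq_one hL P c hc, mul_one, ramificationIdx_eq_ord hL P c hc]

end main2

section final

variable [CharZero K] [IsAlgClosed K] {X : L} (hL : IsFunctionFieldOver K X)
  (G : Subgroup (L ≃ₐ[K] L)) [Finite G] (hGX : ∀ g ∈ G, g X = X)
  (hG : ∀ y : L, (∀ g ∈ G, g y = y) → y ∈ K⟮X⟯)

include hL hGX hG in
/-- **Decomposition group at a finite place**: `|Stab_G(w)| = ord_w (X - c)`. -/
theorem card_stabSub_eq_ord (c : K) (w : Place K L) (hw : 0 < w.ord (X - algebraMap K L c)) :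
    (Nat.card (stabSub G w) : ℤ) = w.ord (X - algebraMap K L c) := by
  have hXmem : X ∈ w.toValuationSubring := by
    have h1 : X - algebraMap K L c ∈ w.toValuationSubring := FF.mem_of_ord_pos w hw
    have h2 := w.toValuationSubring.add_mem _ _ h1 (w.algebraMap_mem' c)
    simpa using h2
  obtain ⟨P, rfl⟩ := FF86.exists_ofHeightOneSpectrum_eq_of_mem hL w hXmem
  rw [card_stabSub_eq hL G hGX P]
  exact card_stabilizer_eq_ord hL G hGX hG P c hw

include hL hGX hG in
/-- **Decomposition group at a place over infinity**: `|Stab_G(w)| = - ord_w X`. -/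
theorem card_stabSub_eq_neg_ord (w : Place K L) (hw : w.ord X < 0) :
    (Nat.card (stabSub G w) : ℤ) = - w.ord X := by
  have hL' := FF86.isFunctionFieldOver_inv hL
  have hGX' : ∀ g ∈ G, g X⁻¹ = X⁻¹ := fun g hg => by rw [map_inv₀, hGX g hg]
  have hG' : ∀ y : L, (∀ g ∈ G, g y = y) → y ∈ K⟮X⁻¹⟯ := fun y hy => by
    rw [FF86.adjoin_inv_eq]; exact hG y hy
  have h := card_stabSub_eq_ord hL' G hGX' hG' 0 w
    (by rw [map_zero, sub_zero, Place.ord_inv]; omega)
  rw [h, map_zero, sub_zero, Place.ord_inv]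

end final

end Fermat.Agent.S24.GalStab56
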