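/-
S24 package GAL0 + GALa (helper66): finiteness of `F / K(x)` from the Galois tower (Artin),
`isFunctionFieldOver_top`, and `degOver_eq_index`.
Statements are EXACTLY those of `Fermat/Agent/S24/Skeleton.lean` (sections GAL0 and GAL).
-/
import Fermat.Agent.S24.Defs

set_option autoImplicit false

open AlgebraicCurve KaehlerDifferential IntermediateField

namespace Fermat.Agent.S24

namespace GALa

section Core

variable {K F L : Type*} [Field K] [Field F] [Field L] [Algebra K F] [Algebra F L] [Algebra K L]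
  [IsScalarTower K F L]
variable {x : F} (G : Subgroup (L ≃ₐ[K] L))

theorem algebraMap_top_apply (e : ↥K⟮x⟯) :
    algebraMap (↥K⟮x⟯) L e = algebraMap F L (e : F) := rfl

/-- Elements of `K(x)` are fixed by `G`. -/
theorem fixes_adjoin (hGx : ∀ g ∈ G, g (algebraMap F L x) = algebraMap F L x)
    (e : ↥K⟮x⟯) (g : L ≃ₐ[K] L) (hg : g ∈ G) :
    g (algebraMap F L (e : F)) = algebraMap F L (e : F) := by
  have hle : K⟮x⟯ ≤ (FixedPoints.intermediateField G : IntermediateField K L).comap
      (IsScalarTower.toAlgHom K F L) := by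
    rw [IntermediateField.adjoin_le_iff]
    rintro y (rfl : y = x)
    show (IsScalarTower.toAlgHom K F L) y ∈ (FixedPoints.intermediateField G : IntermediateField K L)
    rw [FixedPoints.mem_intermediateField_iff]
    rintro ⟨g, hg⟩
    exact hGx g hg
  have h1 := hle e.2
  have h2 : (IsScalarTower.toAlgHom K F L) (e : F) ∈
      (FixedPoints.intermediateField G : IntermediateField K L) := h1
  rw [FixedPoints.mem_intermediateField_iff] at h2
  exact h2 ⟨g, hg⟩

theorem smulCommClass_top (hGx : ∀ g ∈ G, g (algebraMap F L x) = algebraMap F L x) :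
    SMulCommClass G (↥K⟮x⟯) L where
  smul_comm g e l := by
    show (g : L ≃ₐ[K] L) (e • l) = e • ((g : L ≃ₐ[K] L) l)
    rw [Algebra.smul_def, Algebra.smul_def, map_mul, algebraMap_top_apply,
      fixes_adjoin G hGx e g g.2]

theorem mem_range_of_mem_adjoin {y : L} (hy : y ∈ K⟮algebraMap F L x⟯) :
    ∃ e : ↥K⟮x⟯, algebraMap (↥K⟮x⟯) L e = y := by
  have h1 : (K⟮x⟯).map (IsScalarTower.toAlgHom K F L) = K⟮algebraMap F L x⟯ := by
    rw [IntermediateField.adjoin_map, Set.image_singleton]
    rfl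
  rw [← h1] at hy
  obtain ⟨e, he, rfl⟩ := hy
  exact ⟨⟨e, he⟩, rfl⟩

/-- `G` is a Galois group for `L / K(x)`. -/
theorem isGaloisGroup_top (hGx : ∀ g ∈ G, g (algebraMap F L x) = algebraMap F L x)
    (hG : ∀ y : L, (∀ g ∈ G, g y = y) → y ∈ K⟮algebraMap F L x⟯) :
    IsGaloisGroup G (↥K⟮x⟯) L where
  faithful := inferInstance
  commutes := smulCommClass_top G hGx
  isInvariant := ⟨fun y hy => mem_range_of_mem_adjoin (hG y fun g hg => hy ⟨g, hg⟩)⟩

theorem finiteDimensional_top [Finite G]
    (hGx : ∀ g ∈ G, g (algebraMap F L x) = algebraMap F L x)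
    (hG : ∀ y : L, (∀ g ∈ G, g y = y) → y ∈ K⟮algebraMap F L x⟯) :
    FiniteDimensional (↥K⟮x⟯) L :=
  have := isGaloisGroup_top G hGx hG
  IsGaloisGroup.finiteDimensional G (↥K⟮x⟯) L

theorem finiteDimensional_bot [Finite G]
    (hGx : ∀ g ∈ G, g (algebraMap F L x) = algebraMap F L x)
    (hG : ∀ y : L, (∀ g ∈ G, g y = y) → y ∈ K⟮algebraMap F L x⟯) :
    FiniteDimensional (↥K⟮x⟯) F := by
  have := finiteDimensional_top G hGx hG
  exact FiniteDimensional.left (↥K⟮x⟯) F L

/-- `L` is finite over `K(x_L)`, `x_L` the image of `x` in `L`. -/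
theorem finiteDimensional_adjoin_image [Finite G]
    (hGx : ∀ g ∈ G, g (algebraMap F L x) = algebraMap F L x)
    (hG : ∀ y : L, (∀ g ∈ G, g y = y) → y ∈ K⟮algebraMap F L x⟯) :
    FiniteDimensional (↥K⟮algebraMap F L x⟯) L := by
  have := finiteDimensional_top G hGx hG
  -- a finite spanning set over `K(x)` also spans over `K(x_L)`
  obtain ⟨s, hs⟩ := (Module.finite_def.mp (inferInstance : Module.Finite (↥K⟮x⟯) L))
  refine ⟨⟨s, ?_⟩⟩
  rw [eq_top_iff]
  intro y _
  have hy : y ∈ Submodule.span (↥K⟮x⟯) (s : Set L) := hs ▸ Submodule.mem_top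
  refine Submodule.span_induction (p := fun y _ => y ∈ Submodule.span (↥K⟮algebraMap F L x⟯)
    (s : Set L)) (fun z hz => Submodule.subset_span hz) (Submodule.zero_mem _)
    (fun a b _ _ ha hb => Submodule.add_mem _ ha hb) (fun e z _ hz => ?_) hy
  have hmem : algebraMap F L (e : F) ∈ K⟮algebraMap F L x⟯ := by
    have h1 : (K⟮x⟯).map (IsScalarTower.toAlgHom K F L) = K⟮algebraMap F L x⟯ := by
      rw [IntermediateField.adjoin_map, Set.image_singleton]
      rfl
    rw [← h1]
    exact ⟨e, e.2, rfl⟩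
  have : e • z = (⟨algebraMap F L (e : F), hmem⟩ : ↥K⟮algebraMap F L x⟯) • z := by
    rw [Algebra.smul_def, algebraMap_top_apply]
    rfl
  rw [this]
  exact Submodule.smul_mem _ _ hz

theorem fixingSub_eq (F' : Type*) [Field F'] [Algebra F' L] :
    (fixingSub F' G : Subgroup G) = fixingSubgroup G (Set.range (algebraMap F' L)) := by
  ext g
  rw [mem_fixingSubgroup_iff]
  constructor
  · rintro hg _ ⟨f, rfl⟩
    exact hg f
  · intro hg f
    exact hg _ ⟨f, rfl⟩

theorem finrank_eq_index [Finite G]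
    (hGx : ∀ g ∈ G, g (algebraMap F L x) = algebraMap F L x)
    (hG : ∀ y : L, (∀ g ∈ G, g y = y) → y ∈ K⟮algebraMap F L x⟯) :
    Module.finrank (↥K⟮x⟯) F = (fixingSub F G).index := by
  have := isGaloisGroup_top G hGx hG
  have := finiteDimensional_top G hGx hG
  have := finiteDimensional_bot G hGx hG
  have : FiniteDimensional F L := FiniteDimensional.right (↥K⟮x⟯) F L
  have := IsGaloisGroup.of_isScalarTower G (↥K⟮x⟯) L F
  have h1 : Nat.card G = Module.finrank (↥K⟮x⟯) L := IsGaloisGroup.card_eq_finrank G (↥K⟮x⟯) L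
  have h2 : Nat.card (fixingSubgroup G (Set.range (algebraMap F L))) = Module.finrank F L :=
    IsGaloisGroup.card_eq_finrank _ F L
  have h3 := Module.finrank_mul_finrank (↥K⟮x⟯) F L
  have h4 := (fixingSub F G).index_mul_card
  rw [fixingSub_eq G F] at h4 ⊢
  rw [h1, h2, ← h3] at h4
  have hpos : 0 < Module.finrank F L := Module.finrank_pos
  exact (Nat.eq_of_mul_eq_mul_right hpos h4).symm

end Core

end GALa

/-! ## Package GAL0 -/
section GAL0

variable {K F L : Type*} [Field K] [Field F] [Field L] [Algebra K F] [Algebra F L] [Algebra K L]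
  [IsScalarTower K F L]

theorem isFunctionFieldOver_of_fixed {x : F} (hx : Transcendental K x)
    (G : Subgroup (L ≃ₐ[K] L)) [Finite G]
    (hGx : ∀ g ∈ G, g (algebraMap F L x) = algebraMap F L x)
    (hG : ∀ y : L, (∀ g ∈ G, g y = y) → y ∈ K⟮algebraMap F L x⟯) :
    IsFunctionFieldOver K x :=
  ⟨hx, GALa.finiteDimensional_bot G hGx hG⟩

end GAL0

/-! ## Package GALa -/
section GAL

variable {K F L : Type*} [Field K] [Field F] [Field L] [Algebra K F] [Algebra F L] [Algebra K L]
  [IsScalarTower K F L] [IsAlgClosed K] [CharZero K]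
variable {x : F} (hF : IsFunctionFieldOver K x)
variable (G : Subgroup (L ≃ₐ[K] L)) [Finite G]
  (hGx : ∀ g ∈ G, g (algebraMap F L x) = algebraMap F L x)
  (hG : ∀ y : L, (∀ g ∈ G, g y = y) → y ∈ K⟮algebraMap F L x⟯)
include hF hGx hG

theorem isFunctionFieldOver_top : IsFunctionFieldOver K (algebraMap F L x) :=
  ⟨(transcendental_algebraMap_iff (algebraMap F L).injective).mpr hF.transcendental,
    GALa.finiteDimensional_adjoin_image G hGx hG⟩

theorem degOver_eq_index : degOver K x = (fixingSub F G).index :=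
  GALa.finrank_eq_index G hGx hG

end GAL

end Fermat.Agent.S24
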