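import Mathlib
import Fermat.Agent.S24.GaloisPlacesBasic

/-!
# S24 package (B), part 2: places in finite (Galois) extensions

`K` constants, `F ⊆ L` fields, `L / F` finite separable.

* `exists_restrict_eq`: every place of `F` extends to `L`;
* `restrict_eq_iff_exists_smul`: for `F = L^H`, the places of `L` above a place of `F` form one
  `H`-orbit;
* `card_stabilizer_eq_ramIdx`: if the residue field of `w` is `K`, then `|Stab_H(w)| = e(w|F)`.
-/

set_option autoImplicit false
set_option linter.unusedSectionVars false

noncomputable section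

open IsDedekindDomain WithZero IsLocalRing AlgebraicCurve Polynomial

namespace Fermat.Agent.S24.GaloisPlaces

section Tower

variable {K F L : Type*} [Field K] [Field F] [Field L] [Algebra K F] [Algebra K L] [Algebra F L]
  [IsScalarTower K F L] [FiniteDimensional F L] [Algebra.IsSeparable F L]

/-- The integral closure in `L` of the valuation ring of a place of `F`. -/
abbrev intCl (v : Place K F) : Subalgebra v.toValuationSubring L :=
  integralClosure v.toValuationSubring L

instance (v : Place K F) : IsDedekindDomain (intCl (L := L) v) :=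
  IsIntegralClosure.isDedekindDomain v.toValuationSubring F L _

instance (v : Place K F) : IsFractionRing (intCl (L := L) v) L :=
  IsIntegralClosure.isFractionRing_of_finite_extension v.toValuationSubring F L _

instance (v : Place K F) : Module.Finite v.toValuationSubring (intCl (L := L) v) :=
  IsIntegralClosure.finite v.toValuationSubring F L _

theorem constants_mem_intCl (v : Place K F) (a : K) :
    ∃ b : intCl (L := L) v, algebraMap (intCl (L := L) v) L b = algebraMap K L a := by
  refine ⟨algebraMap v.toValuationSubring (intCl (L := L) v) (algebraMap K v.toValuationSubring a), ?_⟩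
  rw [← IsScalarTower.algebraMap_apply v.toValuationSubring (intCl (L := L) v) L]
  show algebraMap F L ((algebraMap K v.toValuationSubring a : v.toValuationSubring) : F) = _
  rw [v.coe_algebraMap, ← IsScalarTower.algebraMap_apply]

theorem algebraMap_intCl_injective (v : Place K F) :
    Function.Injective (algebraMap v.toValuationSubring (intCl (L := L) v)) := by
  intro a b hab
  have h1 : algebraMap (intCl (L := L) v) L (algebraMap v.toValuationSubring _ a)
      = algebraMap (intCl (L := L) v) L (algebraMap v.toValuationSubring _ b) := by rw [hab]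
  rw [← IsScalarTower.algebraMap_apply, ← IsScalarTower.algebraMap_apply] at h1
  have h2 : algebraMap F L (a : F) = algebraMap F L (b : F) := h1
  exact Subtype.ext ((algebraMap F L).injective h2)

/-- Elements of the integral closure of `O_v` lie in the valuation ring of any place of `L`
above `v`. -/
theorem intCl_le (w : Place K L) (b : intCl (L := L) (restrict (F := F) w)) :
    algebraMap _ L b ∈ w.toValuationSubring := by
  have hb : IsIntegral (restrict (F := F) w).toValuationSubring
      (algebraMap (intCl (L := L) (restrict (F := F) w)) L b) := b.2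
  let φ : (restrict (F := F) w).toValuationSubring →+* w.toValuationSubring :=
    (algebraMap (restrict (F := F) w).toValuationSubring L).codRestrict
      w.toValuationSubring.toSubring (fun a => a.2)
  obtain ⟨p, hp, hpx⟩ := hb
  have hint : IsIntegral w.toValuationSubring
      (algebraMap (intCl (L := L) (restrict (F := F) w)) L b) := by
    refine ⟨p.map φ, hp.map φ, ?_⟩
    rw [Polynomial.eval₂_map]
    exact hpx
  obtain ⟨y, hy⟩ := IsIntegrallyClosed.isIntegral_iff.mp hint
  rw [← hy]
  exact y.2

/-- **Extension of places**: every place of `F` is the restriction of a place of `L`. -/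
theorem exists_restrict_eq (v : Place K F) : ∃ w : Place K L, restrict (F := F) w = v := by
  have hker : RingHom.ker (algebraMap v.toValuationSubring (intCl (L := L) v)) = ⊥ :=
    (RingHom.injective_iff_ker_eq_bot _).mp (algebraMap_intCl_injective v)
  obtain ⟨Q, hQmax, hQ⟩ := Ideal.exists_ideal_over_maximal_of_isIntegral
    (S := intCl (L := L) v) (IsLocalRing.maximalIdeal v.toValuationSubring)
    (by rw [hker]; exact bot_le)
  have hQbot : Q ≠ ⊥ := by
    rintro rfl
    have h1 : IsLocalRing.maximalIdeal v.toValuationSubring = ⊥ := by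
      rw [← hQ]
      exact hker
    exact IsDiscreteValuationRing.not_a_field v.toValuationSubring h1
  let P : HeightOneSpectrum (intCl (L := L) v) := ⟨Q, hQmax.isPrime, hQbot⟩
  refine ⟨ofPrime P (constants_mem_intCl v), ?_⟩
  symm
  apply eq_of_le
  intro x hx
  show algebraMap F L x ∈ (ofPrime P (constants_mem_intCl v)).toValuationSubring
  have := algebraMap_mem_ofPrime P (constants_mem_intCl v)
    (algebraMap v.toValuationSubring (intCl (L := L) v) ⟨x, hx⟩)
  rwa [← IsScalarTower.algebraMap_apply v.toValuationSubring (intCl (L := L) v) L] at this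

theorem intCl_le' (v : Place K F) (w : Place K L) (h : restrict (F := F) w = v)
    (b : intCl (L := L) v) : algebraMap _ L b ∈ w.toValuationSubring := by
  subst h
  exact intCl_le w b

theorem mem_of_restrict_eq (v : Place K F) (w : Place K L) (h : restrict (F := F) w = v) (f : F) :
    algebraMap F L f ∈ w.toValuationSubring ↔ f ∈ v.toValuationSubring := by
  subst h
  rfl

open scoped Pointwise in
theorem mem_smul_place_iff (σ : L ≃ₐ[K] L) (w : Place K L) (y : L) :
    y ∈ (σ • w).toValuationSubring ↔ σ.symm y ∈ w.toValuationSubring := by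
  rw [Place.smul_toValuationSubring, ValuationSubring.mem_pointwise_smul_iff_inv_smul_mem]
  rfl

section Transitive

variable {Γ : Type*} [Group Γ] [Finite Γ] [MulSemiringAction Γ L] [IsGaloisGroup Γ F L]

open scoped Pointwise in
/-- **Transitivity**: if `Γ` is a finite Galois group of `L / F` acting through `K`-algebra
automorphisms, the places of `L` above a given place of `F` form a single `Γ`-orbit. -/
theorem exists_smul_eq_of_restrict_eq (φ : Γ →* (L ≃ₐ[K] L)) (hφ : ∀ γ y, φ γ y = γ • y)
    (w w' : Place K L) (h : restrict (F := F) w = restrict (F := F) w') :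
    ∃ γ : Γ, φ γ • w = w' := by
  set v := restrict (F := F) w with hv
  let A := v.toValuationSubring
  let B := intCl (L := L) v
  have hK := constants_mem_intCl (L := L) v
  haveI : SMulCommClass Γ A L := ⟨fun γ a l => by
    show γ • ((a : F) • l) = (a : F) • (γ • l)
    exact smul_comm γ (a : F) l⟩
  haveI : IsGaloisGroup Γ A B := IsGaloisGroup.of_isFractionRing Γ A B F L
  obtain ⟨P, hP, hPmem⟩ := exists_eq_ofPrime w hK (intCl_le' v w hv.symm)
  obtain ⟨P', hP', hP'mem⟩ := exists_eq_ofPrime w' hK (intCl_le' v w' h.symm)
  have hunder : P.asIdeal.under A = P'.asIdeal.under A := by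
    ext a
    rw [Ideal.mem_comap, Ideal.mem_comap, hPmem, hP'mem]
    have hw : ∀ (w'' : Place K L), restrict (F := F) w'' = v →
        ((algebraMap B L (algebraMap A B a))⁻¹ ∉ w''.toValuationSubring ↔
          ((a : F))⁻¹ ∉ v.toValuationSubring) := by
      intro w'' hw''
      rw [← mem_of_restrict_eq v w'' hw'', map_inv₀]
      rfl
    rw [hw w hv.symm, hw w' h.symm]
  have := P.isPrime
  have := P'.isPrime
  obtain ⟨γ, hγ⟩ := Algebra.IsInvariant.exists_smul_of_under_eq A B Γ P.asIdeal P'.asIdeal hunder
  refine ⟨γ, ?_⟩
  have hB'' : ∀ b : B, algebraMap B L b ∈ (φ γ • w).toValuationSubring := by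
    intro b
    rw [mem_smul_place_iff]
    have h1 : (φ γ).symm (algebraMap B L b) = algebraMap B L (γ⁻¹ • b) := by
      rw [AlgEquiv.symm_apply_eq, hφ]
      show algebraMap B L b = γ • ((γ⁻¹ • b : B) : L)
      rw [integralClosure.coe_smul, smul_inv_smul]
      rfl
    rw [h1]
    exact intCl_le' v w hv.symm _
  obtain ⟨P'', hP'', hP''mem⟩ := exists_eq_ofPrime (φ γ • w) hK hB''
  have hPP : P'' = P' := by
    apply HeightOneSpectrum.ext
    ext b
    rw [hP''mem, hγ, Ideal.mem_pointwise_smul_iff_inv_smul_mem, hPmem, mem_smul_place_iff]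
    have h1 : (φ γ).symm (algebraMap B L b)⁻¹ = (algebraMap B L (γ⁻¹ • b))⁻¹ := by
      rw [map_inv₀, inv_inj, AlgEquiv.symm_apply_eq, hφ]
      show algebraMap B L b = γ • ((γ⁻¹ • b : B) : L)
      rw [integralClosure.coe_smul, smul_inv_smul]
      rfl
    rw [h1]
    have h2 : γ⁻¹ • b = 0 ↔ b = 0 := by
      constructor
      · intro h0
        have := congrArg (fun z => γ • z) h0
        simpa using this
      · rintro rfl
        exact smul_zero _
    rw [h2]
  rw [← hP'', hPP, hP']

end Transitive

end Tower

section Rational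

variable {K E : Type*} [Field K] [Field E] [Algebra K E]

theorem adicValuation_algebraMap (u : Place K E) {a : K} (ha : a ≠ 0) :
    u.adicValuation (algebraMap K E a) = 1 := by
  have h1 : u.adicValuation (algebraMap K E a) ≤ 1 :=
    (mem_iff_adicValuation_le_one u _).mp (u.algebraMap_mem' a)
  have h2 : u.adicValuation (algebraMap K E a⁻¹) ≤ 1 :=
    (mem_iff_adicValuation_le_one u _).mp (u.algebraMap_mem' a⁻¹)
  have h3 : u.adicValuation (algebraMap K E a) * u.adicValuation (algebraMap K E a⁻¹) = 1 := by
    rw [← map_mul, ← map_mul, mul_inv_cancel₀ ha, map_one, map_one]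
  apply le_antisymm h1
  by_contra hlt
  rw [not_le] at hlt
  have h0 : u.adicValuation (algebraMap K E a⁻¹) ≠ 0 := by
    intro h; rw [h, mul_zero] at h3; exact zero_ne_one h3
  have : u.adicValuation (algebraMap K E a) * u.adicValuation (algebraMap K E a⁻¹) < 1 := by
    calc _ < 1 * u.adicValuation (algebraMap K E a⁻¹) :=
          mul_lt_mul_of_pos_right hlt (zero_lt_iff.mpr h0)
      _ ≤ 1 := by rw [one_mul]; exact h2
  exact absurd h3 this.ne

theorem adicValuation_lt_one_iff (u : Place K E) {y : E} (hy : y ≠ 0) :
    u.adicValuation y < 1 ↔ 0 < u.ord y := by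
  have h0 := u.adicValuation_ne_zero hy
  rw [Place.ord, neg_pos, WithZero.log_lt_iff_lt_exp h0, WithZero.exp_zero]

theorem adicValuation_aeval_le_one (u : Place K E) {t : E} (ht : u.adicValuation t ≤ 1)
    (p : K[X]) : u.adicValuation (aeval t p) ≤ 1 := by
  rw [← mem_iff_adicValuation_le_one] at ht ⊢
  rw [aeval_def, eval₂_eq_sum, Polynomial.sum_def]
  refine sum_mem (fun n _ => mul_mem (u.algebraMap_mem' _) (pow_mem ht n))

/-- If `ν t < 1` and `p(0) ≠ 0`, then `ν (p(t)) = 1`. -/
theorem adicValuation_aeval_eq_one (u : Place K E) {t : E} (ht : u.adicValuation t < 1)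
    (p : K[X]) (hp : p.eval 0 ≠ 0) : u.adicValuation (aeval t p) = 1 := by
  obtain ⟨r, hr⟩ : X - C (0 : K) ∣ p - C (p.eval 0) := X_sub_C_dvd_sub_C_eval
  have hp' : p = C (p.eval 0) + X * r := by
    rw [C_0, sub_zero] at hr
    rw [← hr]; ring
  have h1 : aeval t p = algebraMap K E (p.eval 0) + t * aeval t r := by
    conv_lhs => rw [hp']
    simp
  rw [h1]
  have h2 : u.adicValuation (t * aeval t r) < 1 := by
    rw [map_mul]
    calc _ ≤ u.adicValuation t * 1 :=
          mul_le_mul' le_rfl (adicValuation_aeval_le_one u ht.le r)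
      _ < 1 := by rw [mul_one]; exact ht
  rw [Valuation.map_add_eq_of_lt_left, adicValuation_algebraMap u hp]
  rw [adicValuation_algebraMap u hp]
  exact h2

/-- `ν (p(t)) = (ν t)^(multiplicity of 0 as a root of p)` when `ν t < 1`. -/
theorem adicValuation_aeval (u : Place K E) {t : E} (ht : u.adicValuation t < 1)
    (p : K[X]) (hp : p ≠ 0) :
    u.adicValuation (aeval t p) = u.adicValuation t ^ p.rootMultiplicity 0 := by
  obtain ⟨q, hq, hdvd⟩ := exists_eq_pow_rootMultiplicity_mul_and_not_dvd p hp 0
  have hq0 : q.eval 0 ≠ 0 := by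
    intro h
    exact hdvd (dvd_iff_isRoot.mpr h)
  conv_lhs => rw [hq]
  rw [C_0, sub_zero, map_mul, map_pow, aeval_X, map_mul, map_pow,
    adicValuation_aeval_eq_one u ht q hq0, mul_one]

/-- **Uniqueness of the place centred at `t = 0`** in a field generated by `t`. -/
theorem place_unique_of_gen {t : E}
    (hgen : ∀ y : E, ∃ r s : K[X], y = aeval t r / aeval t s)
    (u u' : Place K E) (hu : 0 < u.ord t) (hu' : 0 < u'.ord t) : u = u' := by
  have key : ∀ (u u' : Place K E), 0 < u.ord t → 0 < u'.ord t →
      u.toValuationSubring ≤ u'.toValuationSubring := by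
    intro u u' hu hu' y hy
    by_cases hy0 : y = 0
    · subst hy0; exact zero_mem _
    have ht0 : t ≠ 0 := by
      rintro rfl
      simp at hu
    have hν : u.adicValuation t < 1 := (adicValuation_lt_one_iff u ht0).mpr hu
    have hν' : u'.adicValuation t < 1 := (adicValuation_lt_one_iff u' ht0).mpr hu'
    obtain ⟨r, s, hrs⟩ := hgen y
    have hs0 : aeval t s ≠ 0 := by
      intro h; rw [h, div_zero] at hrs; exact hy0 hrs
    have hr0 : aeval t r ≠ 0 := by
      intro h; rw [h, zero_div] at hrs; exact hy0 hrs
    have hs : s ≠ 0 := by rintro rfl; simp at hs0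
    have hr : r ≠ 0 := by rintro rfl; simp at hr0
    rw [mem_iff_adicValuation_le_one] at hy ⊢
    rw [hrs, map_div₀, adicValuation_aeval _ hν r hr, adicValuation_aeval _ hν s hs] at hy
    rw [hrs, map_div₀, adicValuation_aeval _ hν' r hr, adicValuation_aeval _ hν' s hs]
    set a := r.rootMultiplicity 0
    set b := s.rootMultiplicity 0
    have hq0 : u.adicValuation t ≠ 0 := u.adicValuation_ne_zero ht0
    have hq0' : u'.adicValuation t ≠ 0 := u'.adicValuation_ne_zero ht0
    have hab : b ≤ a := by
      by_contra hlt
      rw [not_le] at hlt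
      have h1 : u.adicValuation t ^ b = u.adicValuation t ^ a * u.adicValuation t ^ (b - a) := by
        rw [← pow_add]; congr 1; omega
      rw [h1, div_mul_cancel_left₀ (pow_ne_zero _ hq0)] at hy
      have h2 : u.adicValuation t ^ (b - a) < 1 :=
        pow_lt_one₀ zero_le hν (by omega)
      have h3 : 1 < (u.adicValuation t ^ (b - a))⁻¹ :=
        (one_lt_inv₀ (zero_lt_iff.mpr (pow_ne_zero _ hq0))).mpr h2
      exact absurd hy (not_le.mpr h3)
    have h1 : u'.adicValuation t ^ a = u'.adicValuation t ^ (a - b) * u'.adicValuation t ^ b := by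
      rw [← pow_add]; congr 1; omega
    rw [h1, mul_div_cancel_right₀ _ (pow_ne_zero _ hq0')]
    exact pow_le_one₀ zero_le hν'.le
  exact eq_of_le (key u u' hu hu')

end Rational

end Fermat.Agent.S24.GaloisPlaces
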