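/-
S24 package GALc (helper3): number of places of `F` over a point of the `x`-line
= number of orbits of the decomposition group on `G ⧸ Gal(L/F)`.
Statements are EXACTLY those of `Fermat/Agent/S24/Skeleton.lean` (section GAL):
`ncard_placesOver_eq`, `ncard_placesOverInfty_eq`.
-/
import Fermat.Agent.S24.Defs
import Fermat.Agent.S24.Pkg_GALa
import Fermat.Agent.S24.GaloisPlaces

set_option autoImplicit false
set_option linter.unusedSectionVars false

open AlgebraicCurve KaehlerDifferential IntermediateField Polynomial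

namespace Fermat.Agent.S24

namespace GALc

open Fermat.Agent.S24.GaloisPlaces

/-- Counting through two surjections with the same fibres. -/
theorem card_eq_of_fibers {α β γ : Type*} (f : α → β) (g : α → γ)
    (hf : Function.Surjective f) (hg : Function.Surjective g)
    (h : ∀ a b, f a = f b ↔ g a = g b) : Nat.card β = Nat.card γ := by
  refine Nat.card_congr (Equiv.ofBijective (fun b => g (Function.surjInv hf b)) ⟨?_, ?_⟩)
  · intro b1 b2 hb
    have := (h _ _).mpr hb
    rwa [Function.surjInv_eq hf, Function.surjInv_eq hf] at this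
  · intro c
    obtain ⟨a, rfl⟩ := hg c
    refine ⟨f a, ?_⟩
    exact (h _ _).mp (Function.surjInv_eq hf (f a))

section Core

variable {K F L : Type*} [Field K] [Field F] [Field L] [Algebra K F] [Algebra F L] [Algebra K L]
  [IsScalarTower K F L] [CharZero K]
variable {x : F}
variable (G : Subgroup (L ≃ₐ[K] L)) [Finite G]
  (hGx : ∀ g ∈ G, g (algebraMap F L x) = algebraMap F L x)
  (hG : ∀ y : L, (∀ g ∈ G, g y = y) → y ∈ K⟮algebraMap F L x⟯)

/-- An automorphism fixing `F` pointwise does not change the restriction of a place to `F`. -/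
theorem restrict_smul_of_fixes [Algebra.IsAlgebraic F L] (σ : L ≃ₐ[K] L)
    (hσ : ∀ f : F, σ (algebraMap F L f) = algebraMap F L f) (w : Place K L) :
    GaloisPlaces.restrict (F := F) (σ • w) = GaloisPlaces.restrict (F := F) w := by
  apply Place.ext
  ext f
  rw [mem_restrict_iff, mem_restrict_iff, mem_smul_place_iff]
  have : σ.symm (algebraMap F L f) = algebraMap F L f := by
    rw [AlgEquiv.symm_apply_eq, hσ]
  rw [this]

include hGx hG in
/-- Generic count: places of `F` where `t ∈ K(x)` has positive order. -/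
theorem ncard_eq_card_orbits (t : ↥K⟮x⟯)
    (hgen : ∀ y : ↥K⟮x⟯, ∃ r s : K[X], y = aeval t r / aeval t s)
    (w : Place K L) (hw : 0 < w.ord (algebraMap F L (t : F))) :
    {v : Place K F | 0 < v.ord (t : F)}.ncard =
      Nat.card (MulAction.orbitRel.Quotient (stabSub G w) (G ⧸ fixingSub F G)) := by
  have hGal : IsGaloisGroup G (↥K⟮x⟯) L := GALa.isGaloisGroup_top G hGx hG
  have hfdE : FiniteDimensional (↥K⟮x⟯) L := GALa.finiteDimensional_top G hGx hG
  have hfdF : FiniteDimensional F L := FiniteDimensional.right (↥K⟮x⟯) F L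
  have hcF : CharZero F := charZero_of_injective_algebraMap (algebraMap K F).injective
  have hHeq : fixingSub F G = fixingSubgroup G (Set.range (algebraMap F L)) :=
    GALa.fixingSub_eq G F
  have hGalH : IsGaloisGroup (fixingSubgroup G (Set.range (algebraMap F L))) F L :=
    IsGaloisGroup.of_isScalarTower G (↥K⟮x⟯) L F
  -- the two homomorphisms to `Aut_K(L)`
  let φG : G →* (L ≃ₐ[K] L) := G.subtype
  let φH : (fixingSubgroup G (Set.range (algebraMap F L))) →* (L ≃ₐ[K] L) :=
    G.subtype.comp (Subgroup.subtype _)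
  have hφG : ∀ (γ : G) (y : L), φG γ y = γ • y := fun _ _ => rfl
  have hφH : ∀ (γ : fixingSubgroup G (Set.range (algebraMap F L))) (y : L), φH γ y = γ • y :=
    fun _ _ => rfl
  -- elements of `K(x)` are fixed by `G`
  have hfixE : ∀ (g : L ≃ₐ[K] L), g ∈ G → ∀ e : ↥K⟮x⟯,
      g (algebraMap F L (e : F)) = algebraMap F L (e : F) :=
    fun g hg e => GALa.fixes_adjoin G hGx e g hg
  -- positivity is transported along restriction
  have hposF : ∀ w' : Place K L, (0 < w'.ord (algebraMap F L (t : F)) ↔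
      0 < (GaloisPlaces.restrict (F := F) w').ord (t : F)) := by
    intro w'
    rw [ord_algebraMap (F := F) w']
    have := ramIdx_pos (F := F) w'
    constructor
    · intro h
      by_contra hle
      rw [not_lt] at hle
      have : (ramIdx F w' : ℤ) * (GaloisPlaces.restrict (F := F) w').ord (t : F) ≤ 0 :=
        mul_nonpos_of_nonneg_of_nonpos (by positivity) hle
      omega
    · intro h
      positivity
  have hposE : ∀ w' : Place K L, (0 < w'.ord (algebraMap F L (t : F)) ↔
      0 < (GaloisPlaces.restrict (F := ↥K⟮x⟯) w').ord t) := by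
    intro w'
    have h1 : algebraMap F L (t : F) = algebraMap (↥K⟮x⟯) L t := rfl
    rw [h1, ord_algebraMap (F := ↥K⟮x⟯) w']
    have := ramIdx_pos (F := ↥K⟮x⟯) w'
    constructor
    · intro h
      by_contra hle
      rw [not_lt] at hle
      have : (ramIdx (↥K⟮x⟯) w' : ℤ) * (GaloisPlaces.restrict (F := ↥K⟮x⟯) w').ord t ≤ 0 :=
        mul_nonpos_of_nonneg_of_nonpos (by positivity) hle
      omega
    · intro h
      positivity
  -- the map `g ↦ (g⁻¹ • w)|F`
  let Φ : G → {v : Place K F | 0 < v.ord (t : F)} := fun g =>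
    ⟨GaloisPlaces.restrict (F := F) (((g⁻¹ : G) : L ≃ₐ[K] L) • w), by
      show 0 < (GaloisPlaces.restrict (F := F) (((g⁻¹ : G) : L ≃ₐ[K] L) • w)).ord (t : F)
      rw [← hposF]
      have h1 := Place.ord_smul ((g⁻¹ : G) : L ≃ₐ[K] L) w (algebraMap F L (t : F))
      rw [hfixE _ (g⁻¹).2 t] at h1
      rw [h1]
      exact hw⟩
  let π : G → MulAction.orbitRel.Quotient (stabSub G w) (G ⧸ fixingSub F G) := fun g =>
    Quotient.mk'' (g : G ⧸ fixingSub F G)
  have hπ : Function.Surjective π := by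
    intro q
    induction q using Quotient.inductionOn' with
    | h a =>
      induction a using QuotientGroup.induction_on with
      | H g => exact ⟨g, rfl⟩
  have hΦ : Function.Surjective Φ := by
    rintro ⟨v, hv⟩
    obtain ⟨w'', hw''⟩ := exists_restrict_eq (L := L) v
    have hw''pos : 0 < w''.ord (algebraMap F L (t : F)) := by
      rw [hposF, hw'']; exact hv
    have hu : GaloisPlaces.restrict (F := ↥K⟮x⟯) w = GaloisPlaces.restrict (F := ↥K⟮x⟯) w'' :=
      place_unique_of_gen hgen _ _ ((hposE w).mp hw) ((hposE w'').mp hw''pos)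
    obtain ⟨g, hg⟩ := exists_smul_eq_of_restrict_eq (F := ↥K⟮x⟯) φG hφG w w'' hu
    refine ⟨g⁻¹, Subtype.ext ?_⟩
    show GaloisPlaces.restrict (F := F) ((((g⁻¹)⁻¹ : G) : L ≃ₐ[K] L) • w) = v
    rw [inv_inv, ← hw'', ← hg]
    rfl
  have hkey : ∀ a b : G, Φ a = Φ b ↔ π a = π b := by
    intro a b
    constructor
    · intro hab
      have hab' : GaloisPlaces.restrict (F := F) (((a⁻¹ : G) : L ≃ₐ[K] L) • w) =
          GaloisPlaces.restrict (F := F) (((b⁻¹ : G) : L ≃ₐ[K] L) • w) := congrArg Subtype.val hab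
      obtain ⟨h, hh⟩ := exists_smul_eq_of_restrict_eq (F := F) φH hφH _ _ hab'
      -- `δ := b h a⁻¹` stabilises `w`
      have hδ : (b * (h : G) * a⁻¹) ∈ stabSub G w := by
        show ((b * (h : G) * a⁻¹ : G) : L ≃ₐ[K] L) • w = w
        have h1 : ((b * (h : G) * a⁻¹ : G) : L ≃ₐ[K] L) =
            (b : L ≃ₐ[K] L) * (φH h * ((a⁻¹ : G) : L ≃ₐ[K] L)) := by
          rw [mul_assoc]; rfl
        rw [h1, mul_smul, mul_smul, hh, ← mul_smul]
        have h2 : (b : L ≃ₐ[K] L) * ((b⁻¹ : G) : L ≃ₐ[K] L) = 1 := by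
          rw [← Subgroup.coe_mul, mul_inv_cancel]; rfl
        rw [h2, one_smul]
      apply Quotient.sound'
      rw [MulAction.orbitRel_apply]
      refine ⟨⟨(b * (h : G) * a⁻¹)⁻¹, (stabSub G w).inv_mem hδ⟩, ?_⟩
      show (((b * (h : G) * a⁻¹)⁻¹ * b : G) : G ⧸ fixingSub F G) = (a : G ⧸ fixingSub F G)
      rw [QuotientGroup.eq, hHeq]
      have h3 : ((b * (h : G) * a⁻¹)⁻¹ * b)⁻¹ * a = (h : G) := by group
      rw [h3]
      exact h.2
    · intro hab
      have hab' := Quotient.exact' hab
      rw [MulAction.orbitRel_apply] at hab'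
      obtain ⟨d, hd⟩ := hab'
      have hd' : (((d : G) * b : G) : G ⧸ fixingSub F G) = (a : G ⧸ fixingSub F G) := hd
      rw [QuotientGroup.eq, hHeq] at hd'
      -- `k := (d b)⁻¹ a ∈ H`
      apply Subtype.ext
      show GaloisPlaces.restrict (F := F) (((a⁻¹ : G) : L ≃ₐ[K] L) • w) =
          GaloisPlaces.restrict (F := F) (((b⁻¹ : G) : L ≃ₐ[K] L) • w)
      set k : G := ((d : G) * b)⁻¹ * a with hk
      have hkfix : ∀ f : F, ((k : G) : L ≃ₐ[K] L) (algebraMap F L f) = algebraMap F L f := by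
        intro f
        have := (mem_fixingSubgroup_iff G).mp hd' (algebraMap F L f) ⟨f, rfl⟩
        exact this
      have h1 : ((b⁻¹ : G) : L ≃ₐ[K] L) • w
          = ((k : G) : L ≃ₐ[K] L) • (((a⁻¹ : G) : L ≃ₐ[K] L) • w) := by
        rw [← mul_smul, ← Subgroup.coe_mul]
        have h2 : k * a⁻¹ = b⁻¹ * (d : G)⁻¹ := by rw [hk]; group
        rw [h2, Subgroup.coe_mul, mul_smul]
        have h3 : (((d : G)⁻¹ : G) : L ≃ₐ[K] L) • w = w := ((stabSub G w).inv_mem d.2)
        rw [h3]
      rw [h1, restrict_smul_of_fixes _ hkfix]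
  have hcard := card_eq_of_fibers Φ π hΦ hπ hkey
  rw [← hcard, Nat.card_coe_set_eq]

/-- Every element of `K(x)` is a rational function of `t`, as soon as `x ∈ K(t)`. -/
theorem exists_aeval_div (t : ↥K⟮x⟯) (hx : x ∈ K⟮(t : F)⟯) (y : ↥K⟮x⟯) :
    ∃ r s : K[X], y = aeval t r / aeval t s := by
  have hle : K⟮x⟯ ≤ K⟮(t : F)⟯ := (IntermediateField.adjoin_simple_le_iff).mpr hx
  obtain ⟨r, s, hrs⟩ := (IntermediateField.mem_adjoin_simple_iff K (y : F)).mp (hle y.2)
  refine ⟨r, s, Subtype.ext ?_⟩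
  rw [hrs]
  show _ = ((aeval t r : ↥K⟮x⟯) : F) / ((aeval t s : ↥K⟮x⟯) : F)
  rw [IntermediateField.aeval_coe, IntermediateField.aeval_coe]

end Core

end GALc

/-! ## Package GALc -/
section GAL

variable {K F L : Type*} [Field K] [Field F] [Field L] [Algebra K F] [Algebra F L] [Algebra K L]
  [IsScalarTower K F L] [IsAlgClosed K] [CharZero K]
variable {x : F} (hF : IsFunctionFieldOver K x)
variable (G : Subgroup (L ≃ₐ[K] L)) [Finite G]
  (hGx : ∀ g ∈ G, g (algebraMap F L x) = algebraMap F L x)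
  (hG : ∀ y : L, (∀ g ∈ G, g y = y) → y ∈ K⟮algebraMap F L x⟯)
include hF hGx hG

theorem ncard_placesOver_eq (c : K) (w : Place K L) (hw : w ∈ placesOver (algebraMap F L x) c) :
    (placesOver x c).ncard =
      Nat.card (MulAction.orbitRel.Quotient (stabSub G w) (G ⧸ fixingSub F G)) := by
  let t : ↥K⟮x⟯ := ⟨x, IntermediateField.mem_adjoin_simple_self K x⟩ - algebraMap K (↥K⟮x⟯) c
  have htF : (t : F) = x - algebraMap K F c := rfl
  have hx : x ∈ K⟮(t : F)⟯ := by
    have h1 : (t : F) + algebraMap K F c = x := by rw [htF]; ring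
    have h2 : (t : F) + algebraMap K F c ∈ K⟮(t : F)⟯ :=
      add_mem (IntermediateField.mem_adjoin_simple_self K _) (IntermediateField.algebraMap_mem _ c)
    rwa [h1] at h2
  have hw' : 0 < w.ord (algebraMap F L (t : F)) := by
    have h1 : algebraMap F L (t : F) = algebraMap F L x - algebraMap K L c := by
      rw [htF, map_sub, ← IsScalarTower.algebraMap_apply]
    rw [h1]
    exact hw
  have := GALc.ncard_eq_card_orbits G hGx hG t (GALc.exists_aeval_div t hx) w hw'
  rw [← this]
  rfl

theorem ncard_placesOverInfty_eq (w : Place K L)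
    (hw : w ∈ placesOverInfty K (algebraMap F L x)) :
    (placesOverInfty K x).ncard =
      Nat.card (MulAction.orbitRel.Quotient (stabSub G w) (G ⧸ fixingSub F G)) := by
  let t : ↥K⟮x⟯ := (⟨x, IntermediateField.mem_adjoin_simple_self K x⟩ : ↥K⟮x⟯)⁻¹
  have htF : (t : F) = x⁻¹ := rfl
  have hx : x ∈ K⟮(t : F)⟯ := by
    have h1 : ((t : F))⁻¹ = x := by rw [htF, inv_inv]
    have h2 : ((t : F))⁻¹ ∈ K⟮(t : F)⟯ :=
      inv_mem (IntermediateField.mem_adjoin_simple_self K _)
    rwa [h1] at h2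
  have hw' : 0 < w.ord (algebraMap F L (t : F)) := by
    rw [htF, map_inv₀, w.ord_inv]
    have : w.ord (algebraMap F L x) < 0 := hw
    omega
  have := GALc.ncard_eq_card_orbits G hGx hG t (GALc.exists_aeval_div t hx) w hw'
  rw [← this]
  congr 1
  ext v
  show v.ord x < 0 ↔ 0 < v.ord (t : F)
  rw [htF, v.ord_inv]
  omega

end GAL

end Fermat.Agent.S24
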