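/-
S24 / MOD: algebraic core of `ModularTower.fixed` over `Kbar = ℚ̄` (helper89).
Model independent, Mathlib only.
-/
import Mathlib

set_option autoImplicit false

namespace Fermat.Agent.S24.FixedField

open Polynomial IntermediateField

section F1

variable {k C M : Type*} [Field k] [Field C] [Field M] [Algebra k C] [Algebra C M] [Algebra k M]
  [IsScalarTower k C M]

open scoped IntermediateField.algebraAdjoinAdjoin in
/-- An element algebraic over `k(t)` satisfies a nonzero bivariate polynomial over `k`. -/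
theorem exists_bivariate_of_isAlgebraic {t y : M}
    (halg : IsAlgebraic (IntermediateField.adjoin k {t}) y) :
    ∃ A : k[X][X], A ≠ 0 ∧
      (A.map ((aeval t : k[X] →ₐ[k] M) : k[X] →+* M)).eval y = 0 := by
  have h1 : IsAlgebraic (Algebra.adjoin k {t}) y :=
    (IsFractionRing.isAlgebraic_iff (Algebra.adjoin k {t}) (IntermediateField.adjoin k {t}) M).mpr
      halg
  obtain ⟨p, hp0, hp⟩ := h1
  set pM : M[X] := p.map (algebraMap (Algebra.adjoin k {t}) M) with hpM
  have hmem : pM ∈ Polynomial.lifts ((aeval t : k[X] →ₐ[k] M) : k[X] →+* M) := by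
    rw [Polynomial.lifts_iff_coeff_lifts]
    intro n
    have key : ∀ m : M, m ∈ Algebra.adjoin k {t} → m ∈ (aeval t : k[X] →ₐ[k] M).range :=
      fun m hm => by rwa [Algebra.adjoin_singleton_eq_range_aeval] at hm
    obtain ⟨q, hq⟩ := key _ (p.coeff n).2
    refine ⟨q, ?_⟩
    rw [hpM, coeff_map]
    exact hq
  obtain ⟨A, hA⟩ := (Polynomial.mem_lifts _).mp hmem
  refine ⟨A, ?_, ?_⟩
  · rintro rfl
    rw [Polynomial.map_zero] at hA
    apply hp0
    have hinj : Function.Injective (algebraMap (Algebra.adjoin k {t}) M) :=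
      Subtype.val_injective
    exact (Polynomial.map_eq_zero_iff hinj).mp hA.symm
  · rw [hA, hpM, eval_map_algebraMap]
    exact hp

/-- `aeval t` over `k` factors through `aeval t` over `C`. -/
theorem aeval_map_base (t : M) (a : k[X]) :
    aeval t (a.map (algebraMap k C)) = aeval t a :=
  aeval_map_algebraMap C t a

/-- If `y = P(t)/Q(t)` in lowest terms is algebraic over `k(t)`, then `Q` divides a nonzero
polynomial with coefficients in `k`. -/
theorem exists_dvd_map_of_isAlgebraic {t : M} (ht : Transcendental C t) {P Q : C[X]}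
    (hcop : IsCoprime P Q) (hQ : Q ≠ 0)
    (halg : IsAlgebraic (IntermediateField.adjoin k {t}) (aeval t P / aeval t Q)) :
    ∃ a : k[X], a ≠ 0 ∧ Q ∣ a.map (algebraMap k C) := by
  obtain ⟨A, hA0, hA⟩ := exists_bivariate_of_isAlgebraic halg
  have hinj : Function.Injective (aeval t : C[X] →ₐ[C] M) := transcendental_iff_injective.mp ht
  have hQt : aeval t Q ≠ 0 := fun h => hQ (hinj (by rw [h, map_zero]))
  set n := A.natDegree with hn
  refine ⟨A.leadingCoeff, leadingCoeff_ne_zero.mpr hA0, ?_⟩
  -- the relation, multiplied by `Q(t)^n`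
  have hrel : ∑ i ∈ Finset.range (n + 1),
      aeval t ((A.coeff i).map (algebraMap k C) * P ^ i * Q ^ (n - i)) = 0 := by
    rw [eval_eq_sum_range' (lt_of_le_of_lt natDegree_map_le (Nat.lt_succ_self n))] at hA
    have h2 := congrArg (· * (aeval t Q) ^ n) hA
    simp only [zero_mul, Finset.sum_mul] at h2
    rw [← h2]
    refine Finset.sum_congr rfl fun i hi => ?_
    have hi' : i ≤ n := Nat.lt_succ_iff.mp (Finset.mem_range.mp hi)
    rw [coeff_map, map_mul, map_mul, map_pow, map_pow, aeval_map_base, div_pow]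
    have : (aeval t Q) ^ n = (aeval t Q) ^ i * (aeval t Q) ^ (n - i) := by
      rw [← pow_add, Nat.add_sub_cancel' hi']
    rw [this]
    have hQi : (aeval t Q) ^ i ≠ 0 := pow_ne_zero _ hQt
    simp only [RingHom.coe_coe]
    field_simp
  have hzero : ∑ i ∈ Finset.range (n + 1),
      ((A.coeff i).map (algebraMap k C) * P ^ i * Q ^ (n - i)) = 0 := by
    apply hinj
    rw [map_sum, hrel, map_zero]
  rw [Finset.sum_range_succ, Nat.sub_self, pow_zero, mul_one] at hzero
  have hdvd : Q ∣ (A.coeff n).map (algebraMap k C) * P ^ n := by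
    have h3 : (A.coeff n).map (algebraMap k C) * P ^ n =
        - ∑ i ∈ Finset.range n, ((A.coeff i).map (algebraMap k C) * P ^ i * Q ^ (n - i)) := by
      rw [eq_neg_iff_add_eq_zero, add_comm]; exact hzero
    rw [h3]
    refine (Finset.dvd_sum fun i hi => ?_).neg_right
    have hi' : i < n := Finset.mem_range.mp hi
    exact dvd_mul_of_dvd_right (dvd_pow_self Q (by omega)) _
  exact (hcop.symm.pow_right (n := n)).dvd_of_dvd_mul_right hdvd

/-- A divisor of (the image of) a nonzero polynomial over an algebraically closed field `k` is,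
up to a constant, defined over `k`. -/
theorem exists_eq_C_mul_map_of_dvd [IsAlgClosed k] {Q : C[X]} {a : k[X]} (ha : a ≠ 0)
    (hQ : Q ∣ a.map (algebraMap k C)) :
    ∃ (c : C) (Q₀ : k[X]), c ≠ 0 ∧ Q₀ ≠ 0 ∧ Q = Polynomial.C c * Q₀.map (algebraMap k C) := by
  have hamap0 : a.map (algebraMap k C) ≠ 0 := Polynomial.map_ne_zero ha
  have hQ0 : Q ≠ 0 := ne_zero_of_dvd_ne_zero hamap0 hQ
  have hsplit : (a.map (algebraMap k C)).Splits := (IsAlgClosed.splits a).map _
  have hQs : Q.Splits := hsplit.of_dvd hamap0 hQ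
  set P' : C[X] := (Q.roots.map (X - Polynomial.C ·)).prod with hP'
  have hP'monic : P'.Monic := monic_multiset_prod_of_monic _ _ fun r _ => monic_X_sub_C r
  have hP'roots : P'.roots = Q.roots := roots_multiset_prod_X_sub_C _
  have hP's : P'.Splits := Splits.multisetProd fun f hf => by
    obtain ⟨r, -, rfl⟩ := Multiset.mem_map.mp hf
    exact Splits.X_sub_C r
  have hmem : P' ∈ Polynomial.lifts (algebraMap k C) := by
    refine hP's.mem_lift_of_roots_mem_range hP'monic _ fun r hr => ?_
    rw [hP'roots] at hr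
    have hr' : (a.map (algebraMap k C)).IsRoot r :=
      (isRoot_of_mem_roots hr).dvd hQ
    exact (IsAlgClosed.splits a).mem_range_of_isRoot ha hr'
  obtain ⟨Q₀, hQ₀⟩ := (Polynomial.mem_lifts _).mp hmem
  refine ⟨Q.leadingCoeff, Q₀, leadingCoeff_ne_zero.mpr hQ0, ?_, ?_⟩
  · rintro rfl
    rw [Polynomial.map_zero] at hQ₀
    exact hP'monic.ne_zero hQ₀.symm
  · rw [hQ₀]
    exact hQs.eq_prod_roots

/-- A constant of `C` algebraic over `k(t)` lies in `k` (for `k` algebraically closed). -/
theorem mem_range_of_isAlgebraic_const [IsAlgClosed k] {t : M} (ht : Transcendental C t) {c : C}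
    (halg : IsAlgebraic (IntermediateField.adjoin k {t}) (algebraMap C M c)) :
    c ∈ (algebraMap k C).range := by
  obtain ⟨A, hA0, hA⟩ := exists_bivariate_of_isAlgebraic halg
  have hinj : Function.Injective (aeval t : C[X] →ₐ[C] M) := transcendental_iff_injective.mp ht
  set n := A.natDegree with hn
  set B : C[X] := ∑ i ∈ Finset.range (n + 1),
    (A.coeff i).map (algebraMap k C) * Polynomial.C (c ^ i) with hB
  have hBt : aeval t B = 0 := by
    rw [eval_eq_sum_range' (lt_of_le_of_lt natDegree_map_le (Nat.lt_succ_self n))] at hA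
    rw [← hA, hB, map_sum]
    refine Finset.sum_congr rfl fun i _ => ?_
    rw [map_mul, aeval_map_base, aeval_C, coeff_map, map_pow]
    rfl
  have hB0 : B = 0 := hinj (by rw [hBt, map_zero])
  -- the polynomial over `k` killing `c`
  set j := A.leadingCoeff.natDegree with hj
  set p : k[X] := ∑ i ∈ Finset.range (n + 1), Polynomial.C ((A.coeff i).coeff j) * X ^ i with hp
  have hpc : aeval c p = 0 := by
    have h1 : B.coeff j = 0 := by rw [hB0, coeff_zero]
    rw [hB, finsetSum_coeff] at h1
    rw [hp, map_sum, ← h1]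
    refine Finset.sum_congr rfl fun i _ => ?_
    rw [map_mul, aeval_C, map_pow, aeval_X, coeff_mul_C, coeff_map]
  have hp0 : p ≠ 0 := by
    intro h
    have h2 : p.coeff n = 0 := by rw [h, coeff_zero]
    rw [hp, finsetSum_coeff] at h2
    simp only [coeff_C_mul_X_pow] at h2
    rw [Finset.sum_ite_eq (Finset.range (n + 1)) n, if_pos (Finset.self_mem_range_succ n)] at h2
    have h3 : A.leadingCoeff ≠ 0 := leadingCoeff_ne_zero.mpr hA0
    exact (leadingCoeff_ne_zero.mpr h3) h2
  have halgc : IsAlgebraic k c := ⟨p, hp0, hpc⟩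
  have hint : IsIntegral k c := halgc.isIntegral
  have hdeg : (minpoly k c).degree = 1 :=
    IsAlgClosed.degree_eq_one_of_irreducible k (minpoly.irreducible hint)
  exact minpoly.mem_range_of_degree_eq_one k c hdeg

/-- **F1**: if `k` is algebraically closed, `k(t)` is algebraically closed in `C(t)`. -/
theorem mem_adjoin_of_isAlgebraic [IsAlgClosed k] {t : M} (ht : Transcendental C t) {y : M}
    (hy : y ∈ IntermediateField.adjoin C {t})
    (halg : IsAlgebraic (IntermediateField.adjoin k {t}) y) :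
    y ∈ IntermediateField.adjoin k {t} := by
  by_cases hy0 : y = 0
  · rw [hy0]; exact zero_mem _
  have hinj : Function.Injective (aeval t : C[X] →ₐ[C] M) := transcendental_iff_injective.mp ht
  obtain ⟨r, s, hrs⟩ := (IntermediateField.mem_adjoin_simple_iff C y).mp hy
  have hs0 : s ≠ 0 := by
    rintro rfl
    apply hy0
    rw [hrs, map_zero, div_zero]
  have hr0 : r ≠ 0 := by
    rintro rfl
    apply hy0
    rw [hrs, map_zero, zero_div]
  -- lowest terms
  let _ := Classical.decEq C[X]
  let _ : GCDMonoid C[X] := EuclideanDomain.gcdMonoid C[X]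
  set g := GCDMonoid.gcd r s with hg
  have hg0 : g ≠ 0 := gcd_ne_zero_of_right hs0
  set P := r / g with hP
  set Q := s / g with hQ
  have hrP : r = g * P := (EuclideanDomain.mul_div_cancel' hg0 (GCDMonoid.gcd_dvd_left r s)).symm
  have hsQ : s = g * Q := (EuclideanDomain.mul_div_cancel' hg0 (GCDMonoid.gcd_dvd_right r s)).symm
  have hcop : IsCoprime P Q := isCoprime_div_gcd_div_gcd hs0
  have hP0 : P ≠ 0 := fun h => hr0 (by rw [hrP, h, mul_zero])
  have hQ0 : Q ≠ 0 := fun h => hs0 (by rw [hsQ, h, mul_zero])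
  have hgt : aeval t g ≠ 0 := fun h => hg0 (hinj (by rw [h, map_zero]))
  have hPt : aeval t P ≠ 0 := fun h => hP0 (hinj (by rw [h, map_zero]))
  have hQt : aeval t Q ≠ 0 := fun h => hQ0 (hinj (by rw [h, map_zero]))
  have hyPQ : y = aeval t P / aeval t Q := by
    rw [hrs, hrP, hsQ, map_mul, map_mul, mul_div_mul_left _ _ hgt]
  have hyinv : y⁻¹ = aeval t Q / aeval t P := by rw [hyPQ, inv_div]
  obtain ⟨a, ha0, haQ⟩ := exists_dvd_map_of_isAlgebraic (k := k) ht hcop hQ0 (hyPQ ▸ halg)
  obtain ⟨b, hb0, hbP⟩ := exists_dvd_map_of_isAlgebraic (k := k) ht hcop.symm hP0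
    (hyinv ▸ halg.inv)
  obtain ⟨c₁, Q₀, hc₁, hQ₀0, hQ₀⟩ := exists_eq_C_mul_map_of_dvd ha0 haQ
  obtain ⟨c₂, P₀, hc₂, hP₀0, hP₀⟩ := exists_eq_C_mul_map_of_dvd hb0 hbP
  have hPt' : aeval t P = algebraMap C M c₂ * aeval t P₀ := by
    rw [hP₀, map_mul, aeval_C, aeval_map_base]
  have hQt' : aeval t Q = algebraMap C M c₁ * aeval t Q₀ := by
    rw [hQ₀, map_mul, aeval_C, aeval_map_base]
  have hc₁M : algebraMap C M c₁ ≠ 0 := by
    rwa [Ne, map_eq_zero]
  have hP₀t : aeval t P₀ ≠ 0 := fun h => hPt (by rw [hPt', h, mul_zero])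
  have hQ₀t : aeval t Q₀ ≠ 0 := fun h => hQt (by rw [hQt', h, mul_zero])
  set z : M := aeval t P₀ / aeval t Q₀ with hz
  have hzmem : z ∈ IntermediateField.adjoin k {t} :=
    (IntermediateField.mem_adjoin_simple_iff k z).mpr ⟨P₀, Q₀, rfl⟩
  have hz0 : z ≠ 0 := div_ne_zero hP₀t hQ₀t
  have hyz : y = algebraMap C M (c₂ / c₁) * z := by
    rw [hyPQ, hPt', hQt', hz, map_div₀]
    field_simp
  have hzalg : IsAlgebraic (IntermediateField.adjoin k {t}) z :=
    isAlgebraic_algebraMap (⟨z, hzmem⟩ : IntermediateField.adjoin k {t})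
  have hcalg : IsAlgebraic (IntermediateField.adjoin k {t}) (algebraMap C M (c₂ / c₁)) := by
    have : algebraMap C M (c₂ / c₁) = y * z⁻¹ := by
      rw [hyz, mul_assoc, mul_inv_cancel₀ hz0, mul_one]
    rw [this]
    exact halg.mul hzalg.inv
  obtain ⟨d, hd⟩ := mem_range_of_isAlgebraic_const ht hcalg
  rw [hyz, ← hd, ← IsScalarTower.algebraMap_apply]
  exact mul_mem (IntermediateField.algebraMap_mem _ d) hzmem

end F1

section F2

variable {k C M : Type*} [Field k] [Field C] [Field M] [Algebra k C] [Algebra C M] [Algebra k M]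
  [IsScalarTower k C M]
variable {Γ : Type*} [Group Γ] (act : Γ →* (M ≃ₐ[C] M))

/-- `k[S]` is stable under the action when `S` is. -/
theorem act_mem_adjoin {S : Set M} (hSstab : ∀ g : Γ, ∀ s ∈ S, act g s ∈ S) (g : Γ) {b : M}
    (hb : b ∈ Algebra.adjoin k S) : act g b ∈ Algebra.adjoin k S := by
  set φ : M →ₐ[k] M := ((act g).restrictScalars k : M ≃ₐ[k] M).toAlgHom with hφ
  have h : (Algebra.adjoin k S).map φ ≤ Algebra.adjoin k S := by
    rw [AlgHom.map_adjoin]
    refine Algebra.adjoin_mono ?_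
    rintro _ ⟨s, hs, rfl⟩
    exact hSstab g s hs
  exact h ⟨b, hb, rfl⟩

/-- Elements of `k[S]` have finite orbit when `S` is finite and stable. -/
theorem finite_orbit_of_mem_adjoin {S : Set M} (hSfin : S.Finite)
    (hSstab : ∀ g : Γ, ∀ s ∈ S, act g s ∈ S) {b : M} (hb : b ∈ Algebra.adjoin k S) :
    (Set.range fun g : Γ => act g b).Finite := by
  rw [Algebra.adjoin_eq_range] at hb
  obtain ⟨p, rfl⟩ := hb
  have : Finite S := hSfin.to_subtype
  let F : (S → S) → M := fun π => MvPolynomial.aeval (fun s : S => ((π s : S) : M)) p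
  refine (Set.finite_range F).subset ?_
  rintro _ ⟨g, rfl⟩
  refine ⟨fun s => ⟨act g s, hSstab g s s.2⟩, ?_⟩
  exact (MvPolynomial.comp_aeval_apply (fun s : S => (s : M))
    (((act g).restrictScalars k : M ≃ₐ[k] M).toAlgHom) p).symm

/-- **F2a** (norm trick): invariants of `k(S)` lie in `C(t)` as soon as invariants of a
stable `C`-subalgebra `R ⊇ S` lie in `C[t]`. -/
theorem fixed_mem_adjoin_top {S : Set M} (hSfin : S.Finite)
    (hSstab : ∀ g : Γ, ∀ s ∈ S, act g s ∈ S) {t : M}
    (R : Subalgebra C M) (hSR : S ⊆ R)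
    (hfix : ∀ b ∈ R, (∀ g : Γ, act g b = b) → b ∈ Algebra.adjoin C {t})
    {y : M} (hy : y ∈ IntermediateField.adjoin k S) (hyfix : ∀ g : Γ, act g y = y) :
    y ∈ IntermediateField.adjoin C {t} := by
  classical
  obtain ⟨a, ha, b, hb, hyab⟩ := IntermediateField.mem_adjoin_iff_div.mp hy
  by_cases hb0 : b = 0
  · rw [hyab, hb0, div_zero]; exact zero_mem _
  have hAR : Algebra.adjoin k S ≤ R.restrictScalars k :=
    Algebra.adjoin_le hSR
  have hfin := finite_orbit_of_mem_adjoin (k := k) act hSfin hSstab hb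
  set O : Finset M := hfin.toFinset with hO
  have hmemO : ∀ x, x ∈ O ↔ ∃ g : Γ, act g b = x := fun x => by
    rw [hO, Set.Finite.mem_toFinset, Set.mem_range]
  have hbO : b ∈ O := (hmemO b).mpr ⟨1, by rw [map_one]; rfl⟩
  set Nb : M := ∏ x ∈ O, x with hNb
  set b' : M := ∏ x ∈ O.erase b, x with hb'
  have hNbb' : Nb = b * b' := (Finset.mul_prod_erase O (fun x => x) hbO).symm
  have hOA : ∀ x ∈ O, x ∈ Algebra.adjoin k S := fun x hx => by
    obtain ⟨g, rfl⟩ := (hmemO x).mp hx
    exact act_mem_adjoin act hSstab g hb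
  have hb'A : b' ∈ Algebra.adjoin k S :=
    Subalgebra.prod_mem _ fun x hx => hOA x (Finset.mem_of_mem_erase hx)
  have hNbA : Nb ∈ Algebra.adjoin k S := Subalgebra.prod_mem _ hOA
  have hNb0 : Nb ≠ 0 := by
    rw [hNb, Finset.prod_ne_zero_iff]
    intro x hx
    obtain ⟨g, rfl⟩ := (hmemO x).mp hx
    rwa [Ne, EmbeddingLike.map_eq_zero_iff]
  have hNbfix : ∀ g : Γ, act g Nb = Nb := by
    intro g
    have himg : O.image (act g) = O := by
      ext x
      rw [Finset.mem_image]
      constructor
      · rintro ⟨x', hx', rfl⟩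
        obtain ⟨h, rfl⟩ := (hmemO x').mp hx'
        exact (hmemO _).mpr ⟨g * h, by rw [map_mul]; rfl⟩
      · intro hx
        obtain ⟨h, rfl⟩ := (hmemO x).mp hx
        refine ⟨act (g⁻¹ * h) b, (hmemO _).mpr ⟨_, rfl⟩, ?_⟩
        rw [map_mul, map_inv]
        exact (act g).apply_symm_apply _
    rw [hNb, map_prod]
    conv_rhs => rw [← himg]
    rw [Finset.prod_image fun x _ x' _ h => (act g).injective h]
  have hyNb : y * Nb = a * b' := by
    rw [hyab, hNbb']
    field_simp
  have hyNbfix : ∀ g : Γ, act g (y * Nb) = y * Nb := fun g => by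
    rw [map_mul, hyfix g, hNbfix g]
  have h1 : Nb ∈ Algebra.adjoin C {t} := hfix Nb (hAR hNbA) hNbfix
  have h2 : y * Nb ∈ Algebra.adjoin C {t} :=
    hfix _ (hAR (hyNb ▸ mul_mem ha hb'A)) hyNbfix
  have hy' : y = (y * Nb) / Nb := by field_simp
  rw [hy']
  exact div_mem (IntermediateField.algebra_adjoin_le_adjoin C _ h2)
    (IntermediateField.algebra_adjoin_le_adjoin C _ h1)

omit [Algebra k C] [IsScalarTower k C M] in
/-- Converse of `exists_bivariate_of_isAlgebraic`. -/
theorem isAlgebraic_of_bivariate {t y : M} (ht : Transcendental k t) {A : k[X][X]} (hA0 : A ≠ 0)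
    (hA : (A.map ((aeval t : k[X] →ₐ[k] M) : k[X] →+* M)).eval y = 0) :
    IsAlgebraic (IntermediateField.adjoin k {t}) y := by
  set t' : IntermediateField.adjoin k {t} := ⟨t, IntermediateField.mem_adjoin_simple_self k t⟩
    with ht'
  set φ : k[X] →+* IntermediateField.adjoin k {t} :=
    (aeval t' : k[X] →ₐ[k] IntermediateField.adjoin k {t}).toRingHom with hφ
  have hcomp : (algebraMap (IntermediateField.adjoin k {t}) M).comp φ =
      ((aeval t : k[X] →ₐ[k] M) : k[X] →+* M) := by
    refine Polynomial.ringHom_ext (fun a => ?_) ?_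
    · simp [hφ]
    · simp [hφ, ht']
  have hinj : Function.Injective φ := by
    have h1 : Function.Injective ((algebraMap (IntermediateField.adjoin k {t}) M).comp φ) := by
      rw [hcomp]
      exact transcendental_iff_injective.mp ht
    rw [RingHom.coe_comp] at h1
    exact Function.Injective.of_comp h1
  refine ⟨A.map φ, (Polynomial.map_ne_zero_iff hinj).mpr hA0, ?_⟩
  rw [aeval_def, eval₂_map, hcomp, ← eval_map]
  exact hA

/-- Algebraicity over `k(t)` is preserved by automorphisms fixing `t`. -/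
theorem isAlgebraic_act {t : M} (ht : Transcendental C t) (g : Γ) (hgt : act g t = t) {s : M}
    (hs : IsAlgebraic (IntermediateField.adjoin k {t}) s) :
    IsAlgebraic (IntermediateField.adjoin k {t}) (act g s) := by
  obtain ⟨A, hA0, hA⟩ := exists_bivariate_of_isAlgebraic hs
  refine isAlgebraic_of_bivariate (Transcendental.of_tower_top k ht) hA0 ?_
  have hcomp : ((act g : M ≃ₐ[C] M) : M →+* M).comp ((aeval t : k[X] →ₐ[k] M) : k[X] →+* M) =
      ((aeval t : k[X] →ₐ[k] M) : k[X] →+* M) := by
    refine Polynomial.ringHom_ext (fun a => ?_) ?_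
    · simp only [RingHom.coe_comp, RingHom.coe_coe, Function.comp_apply, aeval_C]
      rw [IsScalarTower.algebraMap_apply k C M, AlgEquiv.commutes]
    · simp only [RingHom.coe_comp, RingHom.coe_coe, Function.comp_apply, aeval_X]
      exact hgt
  rw [eval_map] at hA ⊢
  have h := Polynomial.hom_eval₂ A ((aeval t : k[X] →ₐ[k] M) : k[X] →+* M)
    ((act g : M ≃ₐ[C] M) : M →+* M) s
  rw [hcomp, hA, map_zero] at h
  exact h.symm

/-- `k(S) ⊆ k(t)(S)`. -/
theorem mem_adjoin_adjoin_of_mem {S : Set M} {t : M} 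
    {y : M} (hy : y ∈ IntermediateField.adjoin k S)  :
    y ∈ (IntermediateField.adjoin (IntermediateField.adjoin k {t}) S) := by
  have hle : IntermediateField.adjoin k S ≤
      (IntermediateField.adjoin (IntermediateField.adjoin k {t}) S).restrictScalars k := by
    rw [IntermediateField.adjoin_le_iff]
    intro s hs
    show s ∈ IntermediateField.adjoin (IntermediateField.adjoin k {t}) S
    exact IntermediateField.subset_adjoin _ _ hs
  exact hle hy

/-- `k(S)` is algebraic over `k(t)` when the elements of `S` are. -/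
theorem isAlgebraic_of_mem_adjoin {S : Set M} {t : M} 
    (halg : ∀ s ∈ S, IsAlgebraic (IntermediateField.adjoin k {t}) s)
    {y : M} (hy : y ∈ IntermediateField.adjoin k S)  :
    IsAlgebraic (IntermediateField.adjoin k {t}) y := by
  have halg' : Algebra.IsAlgebraic (IntermediateField.adjoin k {t})
      (IntermediateField.adjoin (IntermediateField.adjoin k {t}) S) :=
    IntermediateField.isAlgebraic_adjoin fun s hs => (halg s hs).isIntegral
  have hy' : y ∈ IntermediateField.adjoin (IntermediateField.adjoin k {t}) S := mem_adjoin_adjoin_of_mem hy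
  have := halg'.isAlgebraic ⟨y, hy'⟩
  exact (IntermediateField.isAlgebraic_iff (S := IntermediateField.adjoin
    (IntermediateField.adjoin k {t}) S) (x := ⟨y, hy'⟩)).mp this

/-- **F2** (fixed field over `k`): if `k` is algebraically closed, `S` is a finite stable set of
elements algebraic over `k(t)`, and invariants of a `C`-subalgebra `R ⊇ S` are polynomials in `t`
over `C`, then every invariant element of `k(S)` lies in `k(t)`. -/
theorem fixed_mem_adjoin [IsAlgClosed k] {S : Set M} (hSfin : S.Finite)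
    (hSstab : ∀ g : Γ, ∀ s ∈ S, act g s ∈ S) {t : M} (ht : Transcendental C t)
    (R : Subalgebra C M) (hSR : S ⊆ R)
    (hfix : ∀ b ∈ R, (∀ g : Γ, act g b = b) → b ∈ Algebra.adjoin C {t})
    (halg : ∀ s ∈ S, IsAlgebraic (IntermediateField.adjoin k {t}) s)
    {y : M} (hy : y ∈ IntermediateField.adjoin k S) (hyfix : ∀ g : Γ, act g y = y) :
    y ∈ IntermediateField.adjoin k {t} :=
  mem_adjoin_of_isAlgebraic ht (fixed_mem_adjoin_top act hSfin hSstab R hSR hfix hy hyfix)
    (isAlgebraic_of_mem_adjoin halg hy)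

end F2

section F2'

variable {k C M : Type*} [Field k] [Field C] [Field M] [Algebra k C] [Algebra C M] [Algebra k M]
  [IsScalarTower k C M]

/-- `fixed_mem_adjoin` for a `MulSemiringAction` commuting with `C`. -/
theorem fixed_mem_adjoin_smul [IsAlgClosed k] {Γ : Type*} [Group Γ] [MulSemiringAction Γ M]
    [SMulCommClass Γ C M] {S : Set M} (hSfin : S.Finite)
    (hSstab : ∀ g : Γ, ∀ s ∈ S, g • s ∈ S) {t : M} (ht : Transcendental C t)
    (R : Subalgebra C M) (hSR : S ⊆ R)
    (hfix : ∀ b ∈ R, (∀ g : Γ, g • b = b) → b ∈ Algebra.adjoin C {t})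
    (halg : ∀ s ∈ S, IsAlgebraic (IntermediateField.adjoin k {t}) s)
    {y : M} (hy : y ∈ IntermediateField.adjoin k S) (hyfix : ∀ g : Γ, g • y = y) :
    y ∈ IntermediateField.adjoin k {t} :=
  fixed_mem_adjoin (MulSemiringAction.toAlgAut Γ C M) hSfin hSstab ht R hSR hfix halg hy hyfix

omit [Field C] [Algebra k C] [Algebra C M] [IsScalarTower k C M] in
/-- Transfer of membership in `k(t)` from the ambient field to an intermediate field `L`. -/
theorem mem_adjoin_of_val_mem {L : IntermediateField k M} {t y : L}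
    (h : (y : M) ∈ IntermediateField.adjoin k {(t : M)}) :
    y ∈ IntermediateField.adjoin k {t} := by
  have h1 : (IntermediateField.adjoin k {t}).map L.val = IntermediateField.adjoin k {(t : M)} := by
    rw [IntermediateField.adjoin_map, Set.image_singleton]
    rfl
  rw [← h1] at h
  obtain ⟨y', hy', hyy'⟩ := h
  have : y' = y := Subtype.ext hyy'
  rwa [← this]

end F2'
end Fermat.Agent.S24.FixedField
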