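/-
S24 / MOD (helper89): descent of linear and algebraic relations from a big coefficient field `C`
to a subfield `K`, for Laurent series; and the norm polynomial.  Mathlib only.
-/
import Mathlib

set_option autoImplicit false

namespace Fermat.Agent.S24.FixedFieldRel

open Polynomial

section Linear

variable {K C : Type*} [Field K] [Field C] [Algebra K C]

/-- A `C`-linear relation between finitely many `K`-valued functions yields a `K`-linear one. -/
theorem exists_rational_relation {ι X : Type*} (s : Finset ι) (e : ι → X → K) (a : ι → C)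
    (ha : ∃ i ∈ s, a i ≠ 0) (h : ∀ x, ∑ i ∈ s, a i * algebraMap K C (e i x) = 0) :
    ∃ r : ι → K, (∃ i ∈ s, r i ≠ 0) ∧ ∀ x, ∑ i ∈ s, r i * e i x = 0 := by
  classical
  obtain ⟨i₀, hi₀, hai₀⟩ := ha
  let b := Module.Basis.ofVectorSpace K C
  have hne : b.repr (a i₀) ≠ 0 := by
    rwa [Ne, LinearEquiv.map_eq_zero_iff]
  obtain ⟨j, hj⟩ := Finsupp.ne_iff.mp hne
  let φ : C →ₗ[K] K := (Finsupp.lapply j).comp b.repr.toLinearMap
  refine ⟨fun i => φ (a i), ⟨i₀, hi₀, by simpa [φ] using hj⟩, fun x => ?_⟩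
  have h1 := congrArg φ (h x)
  rw [map_sum, map_zero] at h1
  rw [← h1]
  refine Finset.sum_congr rfl fun i _ => ?_
  rw [mul_comm (a i), ← Algebra.smul_def, map_smul, smul_eq_mul, mul_comm]

/-- Coefficients of a constant multiple of a Laurent series. -/
theorem coeff_algebraMap_mul (L : Type*) [Field L] (c : L) (x : LaurentSeries L) (l : ℤ) :
    (algebraMap L (LaurentSeries L) c * x).coeff l = c * x.coeff l := by
  have h1 : algebraMap L (PowerSeries L) c = PowerSeries.C c := by simp
  rw [HahnSeries.algebraMap_apply', h1, HahnSeries.ofPowerSeries_C, HahnSeries.C_mul_eq_smul,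
    HahnSeries.coeff_smul, smul_eq_mul]

/-- The same for Laurent series. -/
theorem exists_rational_relation_series {ι : Type*} (s : Finset ι) (w : ι → LaurentSeries K)
    (w' : ι → LaurentSeries C)
    (hw : ∀ i l, (w' i).coeff l = algebraMap K C ((w i).coeff l)) (a : ι → C)
    (ha : ∃ i ∈ s, a i ≠ 0) (h : ∑ i ∈ s, algebraMap C (LaurentSeries C) (a i) * w' i = 0) :
    ∃ r : ι → K, (∃ i ∈ s, r i ≠ 0) ∧
      ∑ i ∈ s, algebraMap K (LaurentSeries K) (r i) * w i = 0 := by
  obtain ⟨r, hr, hr0⟩ := exists_rational_relation s (fun i l => (w i).coeff l) a ha (fun l => by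
    have h1 := congrArg (fun z : LaurentSeries C => z.coeff l) h
    simp only [HahnSeries.coeff_sum, coeff_algebraMap_mul, HahnSeries.coeff_zero, hw] at h1
    exact h1)
  refine ⟨r, hr, ?_⟩
  ext l
  simp only [HahnSeries.coeff_sum, coeff_algebraMap_mul, HahnSeries.coeff_zero]
  exact hr0 l

end Linear

section Bivariate

/-- Expansion of a bivariate evaluation as a double sum over the sigma-support. -/
theorem eval₂_aeval_eq_sum {R W : Type*} [CommRing R] [CommRing W] [Algebra R W] (B : R[X][X])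
    (f g : W) :
    B.eval₂ ((aeval f : R[X] →ₐ[R] W) : R[X] →+* W) g =
      ∑ i ∈ B.support.sigma (fun n => (B.coeff n).support),
        algebraMap R W ((B.coeff i.1).coeff i.2) * (f ^ i.2 * g ^ i.1) := by
  rw [Finset.sum_sigma, eval₂_eq_sum, Polynomial.sum_def]
  refine Finset.sum_congr rfl fun n _ => ?_
  rw [RingHom.coe_coe, aeval_def, eval₂_eq_sum, Polynomial.sum_def, Finset.sum_mul]
  refine Finset.sum_congr rfl fun m _ => ?_
  rw [mul_assoc]

variable {K C : Type*} [Field K] [Field C] [Algebra K C]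

theorem exists_bivariate_descent (θ : LaurentSeries K →+* LaurentSeries C)
    (hθ : ∀ w l, (θ w).coeff l = algebraMap K C (w.coeff l)) (f g : LaurentSeries K)
    {B : C[X][X]} (hB : B ≠ 0)
    (hBfg : B.eval₂ ((aeval (θ f) : C[X] →ₐ[C] LaurentSeries C) : C[X] →+* LaurentSeries C)
      (θ g) = 0) :
    ∃ A : K[X][X], A ≠ 0 ∧
      A.eval₂ ((aeval f : K[X] →ₐ[K] LaurentSeries K) : K[X] →+* LaurentSeries K) g = 0 := by
  classical
  set s := B.support.sigma (fun n => (B.coeff n).support) with hs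
  rw [eval₂_aeval_eq_sum] at hBfg
  have hne : ∃ i ∈ s, (B.coeff i.1).coeff i.2 ≠ 0 := by
    obtain ⟨n, hn⟩ := Polynomial.nonempty_support_iff.mpr hB
    have h1 : B.coeff n ≠ 0 := mem_support_iff.mp hn
    obtain ⟨m, hm⟩ := Polynomial.nonempty_support_iff.mpr h1
    exact ⟨⟨n, m⟩, Finset.mem_sigma.mpr ⟨hn, hm⟩, mem_support_iff.mp hm⟩
  obtain ⟨r, ⟨i₀, hi₀, hri₀⟩, hr⟩ := exists_rational_relation_series s
    (fun i => f ^ i.2 * g ^ i.1) (fun i => θ f ^ i.2 * θ g ^ i.1)
    (fun i l => by rw [← map_pow, ← map_pow, ← map_mul, hθ])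
    (fun i => (B.coeff i.1).coeff i.2) hne hBfg
  refine ⟨∑ i ∈ s, monomial i.1 (monomial i.2 (r i)), ?_, ?_⟩
  · intro h0
    have h1 := congrArg (fun A : K[X][X] => (A.coeff i₀.1).coeff i₀.2) h0
    simp only [finsetSum_coeff, coeff_monomial, coeff_zero] at h1
    rw [Finset.sum_eq_single i₀] at h1
    · simp at h1
      exact hri₀ h1
    · intro i _ hi
      by_cases h1 : i.1 = i₀.1
      · rw [if_pos h1]
        by_cases h2 : i.2 = i₀.2
        · exact absurd (Sigma.ext h1 (heq_of_eq h2)) hi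
        · rw [coeff_monomial, if_neg h2]
      · rw [if_neg h1, coeff_zero]
    · intro h; exact absurd hi₀ h
  · rw [eval₂_finsetSum, ← hr]
    refine Finset.sum_congr rfl fun i _ => ?_
    rw [eval₂_monomial, RingHom.coe_coe, aeval_monomial, mul_assoc]

end Bivariate
section NormPoly

variable {C M : Type*} [Field C] [Field M] [Algebra C M] {Γ : Type*} [Group Γ]
  (act : Γ →* (M ≃ₐ[C] M))

/-- Every element of a finite stable set `S` is a root of a nonzero (indeed monic) polynomial with
coefficients in `C[t]`, provided the invariants of a subalgebra `R ⊇ S` lie in `C[t]`. -/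
theorem exists_bivariate_of_fixed {S : Set M} (hSfin : S.Finite)
    (hSstab : ∀ g : Γ, ∀ s ∈ S, act g s ∈ S) {t : M}
    (R : Subalgebra C M) (hSR : S ⊆ R)
    (hfix : ∀ b ∈ R, (∀ g : Γ, act g b = b) → b ∈ Algebra.adjoin C {t}) {s : M} (hs : s ∈ S) :
    ∃ B : C[X][X], B ≠ 0 ∧
      (B.map ((aeval t : C[X] →ₐ[C] M) : C[X] →+* M)).eval s = 0 := by
  classical
  set O : Finset M := hSfin.toFinset with hO
  have hmemO : ∀ x, x ∈ O ↔ x ∈ S := fun x => Set.Finite.mem_toFinset hSfin
  set P : M[X] := ∏ x ∈ O, (X - Polynomial.C x) with hP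
  have hPmonic : P.Monic := monic_prod_of_monic _ _ fun x _ => monic_X_sub_C x
  have hPs : P.eval s = 0 := by
    rw [hP, eval_prod]
    exact Finset.prod_eq_zero ((hmemO s).mpr hs) (by simp)
  have hPfix : ∀ g : Γ, P.map ((act g : M ≃ₐ[C] M) : M →+* M) = P := by
    intro g
    have himg : O.image (act g) = O := by
      refine Finset.eq_of_subset_of_card_le ?_ ?_
      · intro x hx
        obtain ⟨x', hx', rfl⟩ := Finset.mem_image.mp hx
        exact (hmemO _).mpr (hSstab g x' ((hmemO x').mp hx'))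
      · rw [Finset.card_image_of_injective _ (act g).injective]
    rw [hP, Polynomial.map_prod]
    conv_rhs => rw [← himg]
    rw [Finset.prod_image fun x _ x' _ h => (act g).injective h]
    refine Finset.prod_congr rfl fun x _ => ?_
    rw [Polynomial.map_sub, map_X, map_C]
    rfl
  have hcoeffR : ∀ n, P.coeff n ∈ R := by
    intro n
    set PR : (↥R)[X] := ∏ x ∈ O.attach, (X - Polynomial.C ⟨x.1, hSR ((hmemO x.1).mp x.2)⟩)
      with hPR
    have : P = PR.map (algebraMap R M) := by
      rw [hPR, Polynomial.map_prod, hP, ← Finset.prod_attach]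
      refine Finset.prod_congr rfl fun x _ => ?_
      rw [Polynomial.map_sub, map_X, map_C]
      rfl
    rw [this, coeff_map]
    exact (PR.coeff n).2
  have hcoefffix : ∀ n (g : Γ), act g (P.coeff n) = P.coeff n := by
    intro n g
    have := congrArg (fun Q : M[X] => Q.coeff n) (hPfix g)
    simpa [coeff_map] using this
  have hlift : P ∈ Polynomial.lifts ((aeval t : C[X] →ₐ[C] M) : C[X] →+* M) := by
    rw [Polynomial.lifts_iff_coeff_lifts]
    intro n
    have h1 := hfix _ (hcoeffR n) (hcoefffix n)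
    rw [Algebra.adjoin_singleton_eq_range_aeval] at h1
    obtain ⟨q, hq⟩ := h1
    exact ⟨q, hq⟩
  obtain ⟨B, hB⟩ := (Polynomial.mem_lifts _).mp hlift
  refine ⟨B, ?_, ?_⟩
  · rintro rfl
    rw [Polynomial.map_zero] at hB
    exact hPmonic.ne_zero hB.symm
  · rw [hB]; exact hPs

end NormPoly
end Fermat.Agent.S24.FixedFieldRel
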