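/-
S24 / MOD (helper89): the field `ModularTower.fixed` for an abstract `Mod.AnalyticInput N`,
in the ambient field `M`:  every `SL(2,ℤ)`-invariant element of `ℚ̄(conjugates of j(dτ))` lies in
`ℚ̄(j)`.  Also: `j` transcendental over `C`, `j(dτ)` algebraic over `ℚ̄(j)`, the set of conjugates is
finite and stable.  No `sorry`.
-/
import Fermat.Agent.S24.Mod.Interface
import Fermat.Agent.S24.FixedField
import Fermat.Agent.S24.FixedFieldRel
import Fermat.Prelude.Thm_ModularCurve_coeff_jqModC_pow_of_lt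
import Fermat.Prelude.Thm_ModularCurve_coeff_jqModC_pow_self

set_option autoImplicit false

open Polynomial
open scoped MatrixGroups
open ModularCurve

namespace Fermat.Agent.S24.FixedFieldAI

open Fermat.Agent.S24.Mod Fermat.Agent.S24.FixedField Fermat.Agent.S24.FixedFieldRel

section Transc

/-- The formal `j`-series is transcendental over the coefficient field. -/
theorem transcendental_jqModC (L : Type*) [Field L] : Transcendental L (jqModC L) := by
  intro halg
  obtain ⟨p, hp0, hp⟩ := halg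
  set n := p.natDegree with hn
  have h1 := congrArg (fun z : LaurentSeries L => z.coeff (-(n : ℤ))) hp
  simp only [HahnSeries.coeff_zero] at h1
  rw [aeval_eq_sum_range, HahnSeries.coeff_sum] at h1
  rw [Finset.sum_eq_single n] at h1
  · rw [Algebra.smul_def, coeff_algebraMap_mul, coeff_jqModC_pow_self, mul_one] at h1
    exact (leadingCoeff_ne_zero.mpr hp0) h1
  · intro b hb hbn
    have hb' : b < n := lt_of_le_of_ne (Nat.lt_succ_iff.mp (Finset.mem_range.mp hb)) hbn
    rw [Algebra.smul_def, coeff_algebraMap_mul, coeff_jqModC_pow_of_lt L (by omega), mul_zero]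
  · intro h
    exact absurd (Finset.self_mem_range_succ n) h

end Transc

section ToMv

variable {R : Type*} [CommRing R] {σ : Type*}

/-- A bivariate polynomial as a multivariate polynomial in the variables `i₁` (inner variable)
and `i₂` (outer variable). -/
noncomputable def toMv (i₁ i₂ : σ) : R[X][X] →+* MvPolynomial σ R :=
  Polynomial.eval₂RingHom
    ((Polynomial.aeval (MvPolynomial.X i₁ : MvPolynomial σ R)).toRingHom) (MvPolynomial.X i₂)

theorem aeval_toMv {W : Type*} [CommRing W] [Algebra R W] (i₁ i₂ : σ) (x : σ → W)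
    (B : R[X][X]) :
    MvPolynomial.aeval x (toMv i₁ i₂ B) =
      B.eval₂ ((aeval (x i₁) : R[X] →ₐ[R] W) : R[X] →+* W) (x i₂) := by
  have hcomp : ((MvPolynomial.aeval x : MvPolynomial σ R →ₐ[R] W) : MvPolynomial σ R →+* W).comp
      ((Polynomial.aeval (MvPolynomial.X i₁ : MvPolynomial σ R)).toRingHom) =
      ((aeval (x i₁) : R[X] →ₐ[R] W) : R[X] →+* W) := by
    refine Polynomial.ringHom_ext (fun a => ?_) ?_
    · simp
    · simp
  have h := Polynomial.hom_eval₂ B
    ((Polynomial.aeval (MvPolynomial.X i₁ : MvPolynomial σ R)).toRingHom)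
    ((MvPolynomial.aeval x : MvPolynomial σ R →ₐ[R] W) : MvPolynomial σ R →+* W)
    (MvPolynomial.X i₂)
  rw [hcomp] at h
  simp only [RingHom.coe_coe, MvPolynomial.aeval_X] at h
  exact h

end ToMv

section CoeffMap

variable {K C : Type*} [Field K] [Field C] [Algebra K C] {σ : Type*}

theorem coeffMap_aeval (P : MvPolynomial σ K) (x : σ → LaurentSeries K) :
    MvPolynomial.aeval (fun i => coeffMap (algebraMap K C) (x i))
      (MvPolynomial.map (algebraMap K C) P) =
    coeffMap (algebraMap K C) (MvPolynomial.aeval x P) := by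
  have hcomp : (algebraMap C (LaurentSeries C)).comp (algebraMap K C) =
      (coeffMap (algebraMap K C)).comp (algebraMap K (LaurentSeries K)) := by
    ext c : 1
    simp only [RingHom.coe_comp, Function.comp_apply]
    rw [algebraMap_laurentSeries_eq_single, algebraMap_laurentSeries_eq_single, coeffMap_single]
  rw [MvPolynomial.aeval_def, MvPolynomial.eval₂_map, MvPolynomial.aeval_def,
    MvPolynomial.eval₂_comp_left (coeffMap (algebraMap K C)), hcomp]
  rfl

end CoeffMap

section AI

variable {N : ℕ} [NeZero N] (AI : AnalyticInput N)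

/-- The index `1 ∣ N`. -/
def dOne (N : ℕ) : Dv N := ⟨1, one_dvd N⟩

theorem xC_dOne (C : Type*) [Field C] [Algebra Kbar C] : xC C N (dOne N) = jqModC C := by
  unfold xC xK
  have h1 : qExpand ℚ (dOne N).1 jq = jq := qExpand_one_apply jq
  rw [h1]
  show ((jq.map (algebraMap ℚ Kbar)).map (algebraMap Kbar C)) = jqModC C
  rw [← jqModC_rat, map_jqModC, map_jqModC]

theorem conjSet_stable (g : SL(2, ℤ)) :
    ∀ s ∈ conjSet AI.act AI.Jd N, AI.act g s ∈ conjSet AI.act AI.Jd N := by
  rintro _ ⟨d, hd, h, rfl⟩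
  exact ⟨d, hd, g * h, by rw [map_mul]; rfl⟩

theorem conjSet_finite : (conjSet AI.act AI.Jd N).Finite := by
  have : Finite (SL(2, ℤ) ⧸ CongruenceSubgroup.Gamma0 N) :=
    Subgroup.finite_quotient_of_finiteIndex
  refine Set.Finite.subset (Set.Finite.biUnion (Finset.finite_toSet N.divisors)
    (fun d _ => Set.finite_range
      (fun q : SL(2, ℤ) ⧸ CongruenceSubgroup.Gamma0 N => AI.act q.out (AI.Jd d)))) ?_
  rintro _ ⟨d, hd, g, rfl⟩
  refine Set.mem_biUnion (Finset.mem_coe.mpr (Nat.mem_divisors.mpr ⟨hd, NeZero.ne N⟩)) ?_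
  obtain ⟨γ, hγ⟩ := QuotientGroup.mk_out_eq_mul (CongruenceSubgroup.Gamma0 N) g
  refine ⟨(g : SL(2, ℤ) ⧸ CongruenceSubgroup.Gamma0 N), ?_⟩
  show AI.act _ (AI.Jd d) = _
  rw [hγ, map_mul]
  show AI.act g (AI.act γ (AI.Jd d)) = _
  rw [AI.act_Jd d hd γ γ.2]

theorem Jd_mem_conjSet {d : ℕ} (hd : d ∣ N) : AI.Jd d ∈ conjSet AI.act AI.Jd N :=
  ⟨d, hd, 1, by rw [map_one]; rfl⟩

/-- `j` is transcendental over the constants. -/
theorem transcendental_J : Transcendental AI.C (AI.Jd 1) := by
  rintro ⟨p, hp0, hp⟩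
  set P : MvPolynomial (Dv N) AI.C := Polynomial.aeval (MvPolynomial.X (dOne N)) p with hP
  have h1 : MvPolynomial.aeval (fun d : Dv N => AI.Jd d.1) P = 0 := by
    rw [hP, ← Polynomial.aeval_algHom_apply, MvPolynomial.aeval_X]
    exact hp
  have h2 := (AI.rel P).mp h1
  rw [hP, ← Polynomial.aeval_algHom_apply, MvPolynomial.aeval_X, xC_dOne] at h2
  exact transcendental_jqModC AI.C ⟨p, hp0, h2⟩

variable [Algebra Kbar AI.M] [IsScalarTower Kbar AI.C AI.M]

/-- `j(dτ)` is algebraic over `ℚ̄(j)`. -/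
theorem isAlgebraic_Jd {d : ℕ} (hd : d ∣ N) :
    IsAlgebraic (IntermediateField.adjoin Kbar {AI.Jd 1}) (AI.Jd d) := by
  obtain ⟨B, hB0, hB⟩ := exists_bivariate_of_fixed AI.act (conjSet_finite AI) (conjSet_stable AI)
    (Algebra.adjoin AI.C (conjSet AI.act AI.Jd N)) Algebra.subset_adjoin AI.inv_mem
    (Jd_mem_conjSet AI hd)
  set dd : Dv N := ⟨d, hd⟩ with hdd
  have h1 : MvPolynomial.aeval (fun d : Dv N => AI.Jd d.1) (toMv (dOne N) dd B) = 0 := by
    rw [aeval_toMv, ← eval_map]
    exact hB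
  have h2 := (AI.rel _).mp h1
  rw [aeval_toMv] at h2
  obtain ⟨A, hA0, hA⟩ := exists_bivariate_descent (coeffMap (algebraMap Kbar AI.C))
    (fun w l => coeffMap_coeff _ w l) (xK N (dOne N)) (xK N dd) hB0 h2
  have h3 : MvPolynomial.aeval (xK N) (toMv (dOne N) dd A) = 0 := by
    rw [aeval_toMv]; exact hA
  have h4 : MvPolynomial.aeval (xC AI.C N)
      (MvPolynomial.map (algebraMap Kbar AI.C) (toMv (dOne N) dd A)) = 0 := by
    have := coeffMap_aeval (C := AI.C) (toMv (dOne N) dd A) (xK N)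
    rw [h3, map_zero] at this
    exact this
  have h5 := (AI.rel _).mpr h4
  rw [MvPolynomial.aeval_map_algebraMap, aeval_toMv, ← eval_map] at h5
  exact isAlgebraic_of_bivariate (Transcendental.of_tower_top Kbar (transcendental_J AI)) hA0 h5

/-- **`fixed` for an `AnalyticInput`** (in the ambient field `M`). -/
theorem fixed_mem {y : AI.M}
    (hy : y ∈ IntermediateField.adjoin Kbar (conjSet AI.act AI.Jd N))
    (hyfix : ∀ g, AI.act g y = y) : y ∈ IntermediateField.adjoin Kbar {AI.Jd 1} := by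
  refine fixed_mem_adjoin AI.act (conjSet_finite AI) (conjSet_stable AI) (transcendental_J AI)
    (Algebra.adjoin AI.C (conjSet AI.act AI.Jd N)) Algebra.subset_adjoin AI.inv_mem ?_ hy hyfix
  rintro _ ⟨d, hd, g, rfl⟩
  exact isAlgebraic_act AI.act (transcendental_J AI) g (AI.act_J g) (isAlgebraic_Jd AI hd)

end AI

end Fermat.Agent.S24.FixedFieldAI
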