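import Mathlib

/-!
# S24, package MOD-GROWTH: moderate growth from a `q_N`-cusp function

If `f τ * 𝕢_N(τ)^M = F (𝕢_N τ)` with `F` continuous at `0`, then `Δ^M * f` is bounded at `i∞`.
-/

open UpperHalfPlane ModularForm EisensteinSeries MatrixGroups Filter Topology Function

noncomputable section

namespace Fermat.Agent.S24.CuspGrowth

local notation "𝕢" => Function.Periodic.qParam

/-- `𝕢_N ^ N = 𝕢_1`. -/
lemma qParam_pow_eq {N : ℕ} [NeZero N] (z : ℂ) : 𝕢 (N : ℝ) z ^ N = 𝕢 1 z := by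
  have hN : (N : ℂ) ≠ 0 := Nat.cast_ne_zero.mpr (NeZero.ne N)
  simp only [Function.Periodic.qParam, ← Complex.exp_nat_mul, Complex.ofReal_natCast,
    Complex.ofReal_one, div_one]
  congr 1
  field_simp

/-- MOD-GROWTH. -/
theorem isBoundedAtImInfty_discriminant_pow_mul {N M : ℕ} [NeZero N] (f : ℍ → ℂ) (F : ℂ → ℂ)
    (hF : ContinuousAt F 0)
    (h : ∀ τ : ℍ, f τ * (Function.Periodic.qParam N τ) ^ M = F (Function.Periodic.qParam N τ)) :
    UpperHalfPlane.IsBoundedAtImInfty (fun τ => ModularForm.discriminant τ ^ M * f τ) := by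
  have hNpos : (0 : ℝ) < (N : ℝ) := Nat.cast_pos.mpr (Nat.pos_of_ne_zero (NeZero.ne N))
  have hq0 : Tendsto (fun τ : ℍ => 𝕢 (N : ℝ) (τ : ℂ)) atImInfty (𝓝 0) :=
    qParam_tendsto_atImInfty hNpos
  -- the three bounded factors
  have h1 : Tendsto (fun τ : ℍ => (∏' (n : ℕ), (1 - eta_q n τ) ^ 24) ^ M) atImInfty (𝓝 (1 ^ M)) :=
    ModularForm.tendsto_atImInfty_tprod_one_sub_eta_q_pow.pow M
  have h2 : Tendsto (fun τ : ℍ => 𝕢 (N : ℝ) (τ : ℂ) ^ ((N - 1) * M)) atImInfty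
      (𝓝 (0 ^ ((N - 1) * M))) := hq0.pow _
  have h3 : Tendsto (fun τ : ℍ => F (𝕢 (N : ℝ) (τ : ℂ))) atImInfty (𝓝 (F 0)) :=
    hF.tendsto.comp hq0
  have hb : IsBoundedAtImInfty
      (fun τ : ℍ => (∏' (n : ℕ), (1 - eta_q n τ) ^ 24) ^ M *
        𝕢 (N : ℝ) (τ : ℂ) ^ ((N - 1) * M) * F (𝕢 (N : ℝ) (τ : ℂ))) :=
    BoundedAtFilter.mul (BoundedAtFilter.mul (h1.isBigO_one ℝ) (h2.isBigO_one ℝ))
      (h3.isBigO_one ℝ)
  have hfun : (fun τ : ℍ => ModularForm.discriminant τ ^ M * f τ)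
      = (fun τ : ℍ => (∏' (n : ℕ), (1 - eta_q n τ) ^ 24) ^ M *
        𝕢 (N : ℝ) (τ : ℂ) ^ ((N - 1) * M) * F (𝕢 (N : ℝ) (τ : ℂ))) := by
    funext τ
    rw [← h τ, ModularForm.discriminant_eq_q_prod, ← qParam_pow_eq (N := N) (τ : ℂ)]
    have hNM : N * M = (N - 1) * M + M := by
      have : 1 ≤ N := Nat.one_le_iff_ne_zero.mpr (NeZero.ne N)
      rw [← Nat.succ_mul, Nat.succ_eq_add_one, Nat.sub_add_cancel this]
    rw [mul_pow, ← pow_mul, hNM, pow_add]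
    ring
  rw [hfun]
  exact hb

end Fermat.Agent.S24.CuspGrowth
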