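/-
S24 / MOD-TOWER (helper84), part 3a: the cusp ring.

A function `f : ℍ → ℂ` is *represented at the cusp* (in the local parameter
`q_N = exp (2 π i τ / N)`) by `(M, F)` if `F` is holomorphic on the unit disc and
`f τ * q_N τ ^ M = F (q_N τ)` for all `τ`.  Such functions form a ring, on which
`cuspOrd N f = ord₀ F - M` is a well defined additive valuation.  Pure complex analysis
(no modular forms in this file).
-/
import Mathlib

set_option autoImplicit false

open UpperHalfPlane Complex Filter Topology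
open scoped Real

namespace Fermat.Agent.S24.CuspRing

local notation "𝕢" => Function.Periodic.qParam

/-- The local parameter `q_N = exp (2 π i τ / N)` at the cusp `∞`. -/
noncomputable def qN (N : ℕ) (τ : ℍ) : ℂ := 𝕢 (N : ℝ) (τ : ℂ)

theorem qN_ne_zero (N : ℕ) (τ : ℍ) : qN N τ ≠ 0 := Function.Periodic.qParam_ne_zero _

theorem norm_qN_lt_one (N : ℕ) [NeZero N] (τ : ℍ) : ‖qN N τ‖ < 1 :=
  Function.Periodic.norm_qParam_lt_one
    (by exact_mod_cast Nat.pos_of_ne_zero (NeZero.ne N)) τ.im_pos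

theorem qN_mem_ball (N : ℕ) [NeZero N] (τ : ℍ) : qN N τ ∈ Metric.ball (0 : ℂ) 1 := by
  rw [mem_ball_zero_iff]
  exact norm_qN_lt_one N τ

/-- `q_N` maps the upper half plane onto the punctured unit disc. -/
theorem exists_qN_eq (N : ℕ) [NeZero N] {w : ℂ} (h0 : w ≠ 0) (h1 : ‖w‖ < 1) :
    ∃ τ : ℍ, qN N τ = w := by
  have hN : (0 : ℝ) < N := by exact_mod_cast Nat.pos_of_ne_zero (NeZero.ne N)
  have him : 0 < (Function.Periodic.invQParam (N : ℝ) w).im := by
    rw [Function.Periodic.im_invQParam]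
    have hlog : Real.log ‖w‖ < 0 := Real.log_neg (norm_pos_iff.mpr h0) h1
    have : -(N : ℝ) / (2 * π) < 0 := by
      apply div_neg_of_neg_of_pos (by linarith) (by positivity)
    exact mul_pos_of_neg_of_neg this hlog
  exact ⟨⟨_, him⟩, Function.Periodic.qParam_right_inv hN.ne' h0⟩

/-- `(M, F)` represents `f` at the cusp, in the parameter `q_N`. -/
structure Rep (N : ℕ) (f : ℍ → ℂ) (M : ℕ) (F : ℂ → ℂ) : Prop where
  diff : DifferentiableOn ℂ F (Metric.ball 0 1)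
  eq : ∀ τ : ℍ, f τ * qN N τ ^ M = F (qN N τ)

namespace Rep

variable {N : ℕ} {f g : ℍ → ℂ} {M M' : ℕ} {F F' : ℂ → ℂ}

theorem analyticOnNhd (h : Rep N f M F) : AnalyticOnNhd ℂ F (Metric.ball 0 1) :=
  h.diff.analyticOnNhd Metric.isOpen_ball

theorem analyticAt (h : Rep N f M F) : AnalyticAt ℂ F 0 :=
  h.analyticOnNhd 0 (Metric.mem_ball_self one_pos)

theorem const (N : ℕ) (c : ℂ) : Rep N (fun _ => c) 0 (fun _ => c) :=
  ⟨differentiableOn_const _, fun τ => by simp⟩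

theorem add (h : Rep N f M F) (h' : Rep N g M' F') :
    Rep N (f + g) (M + M') (fun w => F w * w ^ M' + F' w * w ^ M) := by
  refine ⟨?_, fun τ => ?_⟩
  · exact (h.diff.mul (differentiableOn_id.pow M')).add (h'.diff.mul (differentiableOn_id.pow M))
  · simp only [Pi.add_apply]
    rw [← h.eq τ, ← h'.eq τ]
    ring

theorem mul (h : Rep N f M F) (h' : Rep N g M' F') :
    Rep N (f * g) (M + M') (fun w => F w * F' w) := by
  refine ⟨h.diff.mul h'.diff, fun τ => ?_⟩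
  simp only [Pi.mul_apply]
  rw [← h.eq τ, ← h'.eq τ]
  ring

/-- If `f ≠ 0` then `F` does not vanish identically near `0`. -/
theorem order_ne_top [NeZero N] (h : Rep N f M F) (hf : f ≠ 0) : analyticOrderAt F 0 ≠ ⊤ := by
  intro htop
  apply hf
  have h0 : F =ᶠ[𝓝 0] 0 := analyticOrderAt_eq_top.mp htop
  have hz : Set.EqOn F 0 (Metric.ball 0 1) :=
    h.analyticOnNhd.eqOn_zero_of_preconnected_of_eventuallyEq_zero
      (convex_ball (0 : ℂ) 1).isPreconnected (Metric.mem_ball_self one_pos) h0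
  funext τ
  have h1 := h.eq τ
  rw [hz (qN_mem_ball N τ)] at h1
  simpa [qN_ne_zero] using h1

theorem analyticOrderAt_mul_pow {G : ℂ → ℂ} (hG : AnalyticAt ℂ G 0) (n : ℕ) :
    analyticOrderAt (fun w => G w * w ^ n) 0 = analyticOrderAt G 0 + n := by
  have h1 : AnalyticAt ℂ (fun w : ℂ => w ^ n) 0 := by fun_prop
  have h2 : analyticOrderAt (fun w : ℂ => w ^ n) 0 = n := by
    have e : (fun w : ℂ => w ^ n) = id ^ n := rfl
    rw [e, analyticOrderAt_pow (𝕜 := ℂ) (f := id) (z₀ := (0 : ℂ)) analyticAt_id (n := n)]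
    simp
  have h3 := analyticOrderAt_mul hG h1
  rw [h2] at h3
  exact h3

/-- Two representations of the same function have the same order. -/
theorem order_unique [NeZero N] (h : Rep N f M F) (h' : Rep N f M' F') :
    analyticOrderAt F 0 + M' = analyticOrderAt F' 0 + M := by
  rw [← analyticOrderAt_mul_pow h.analyticAt, ← analyticOrderAt_mul_pow h'.analyticAt]
  apply analyticOrderAt_congr
  have hA : AnalyticAt ℂ (fun w => F w * w ^ M') 0 := h.analyticAt.mul (by fun_prop)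
  have hB : AnalyticAt ℂ (fun w => F' w * w ^ M) 0 := h'.analyticAt.mul (by fun_prop)
  refine (hA.frequently_eq_iff_eventually_eq hB).mp (Eventually.frequently ?_)
  have hball : Metric.ball (0 : ℂ) 1 ∈ 𝓝 (0 : ℂ) := Metric.ball_mem_nhds 0 one_pos
  filter_upwards [nhdsWithin_le_nhds hball, self_mem_nhdsWithin] with w hw hw0
  obtain ⟨τ, rfl⟩ := exists_qN_eq N hw0 (mem_ball_zero_iff.mp hw)
  rw [← h.eq τ, ← h'.eq τ]
  ring

end Rep

open Classical in
/-- The order at the cusp `∞` (in the parameter `q_N`) of a function having a representation;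
`0` for other functions. -/
noncomputable def cuspOrd (N : ℕ) (f : ℍ → ℂ) : ℤ :=
  if h : ∃ (M : ℕ) (F : ℂ → ℂ), Rep N f M F then
    ((analyticOrderAt h.choose_spec.choose 0).toNat : ℤ) - (h.choose : ℤ)
  else 0

theorem Rep.cuspOrd_eq {N : ℕ} [NeZero N] {f : ℍ → ℂ} {M : ℕ} {F : ℂ → ℂ} (h : Rep N f M F)
    (hf : f ≠ 0) : cuspOrd N f = ((analyticOrderAt F 0).toNat : ℤ) - (M : ℤ) := by
  have hex : ∃ (M : ℕ) (F : ℂ → ℂ), Rep N f M F := ⟨M, F, h⟩
  unfold cuspOrd
  rw [dif_pos hex]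
  have h' : Rep N f hex.choose hex.choose_spec.choose := hex.choose_spec.choose_spec
  have hu := h.order_unique h'
  have h1 := h.order_ne_top hf
  have h2 := h'.order_ne_top hf
  rw [← ENat.natCast_toNat h1, ← ENat.natCast_toNat h2] at hu
  have hu' : (analyticOrderAt F 0).toNat + hex.choose =
      (analyticOrderAt hex.choose_spec.choose 0).toNat + M := by exact_mod_cast hu
  omega

theorem cuspOrd_const (N : ℕ) [NeZero N] {c : ℂ} (hc : c ≠ 0) :
    cuspOrd N (fun _ => c) = 0 := by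
  have hne : (fun _ : ℍ => c) ≠ 0 := fun h => hc (congrFun h UpperHalfPlane.I)
  rw [(Rep.const N c).cuspOrd_eq hne]
  have : analyticOrderAt (fun _ : ℂ => c) 0 = 0 :=
    analyticOrderAt_eq_zero.mpr (Or.inr hc)
  simp [this]

theorem cuspOrd_mul {N : ℕ} [NeZero N] {f g : ℍ → ℂ} {M M' : ℕ} {F F' : ℂ → ℂ}
    (h : Rep N f M F) (h' : Rep N g M' F') (hf : f ≠ 0) (hg : g ≠ 0) (hfg : f * g ≠ 0) :
    cuspOrd N (f * g) = cuspOrd N f + cuspOrd N g := by
  rw [(h.mul h').cuspOrd_eq hfg, h.cuspOrd_eq hf, h'.cuspOrd_eq hg]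
  have h1 := h.order_ne_top hf
  have h2 := h'.order_ne_top hg
  have h3 : analyticOrderAt (fun w => F w * F' w) 0 = analyticOrderAt F 0 + analyticOrderAt F' 0 :=
    analyticOrderAt_mul h.analyticAt h'.analyticAt
  rw [h3, ENat.toNat_add h1 h2]
  push_cast
  ring

theorem cuspOrd_add {N : ℕ} [NeZero N] {f g : ℍ → ℂ} {M M' : ℕ} {F F' : ℂ → ℂ}
    (h : Rep N f M F) (h' : Rep N g M' F') (hf : f ≠ 0) (hg : g ≠ 0) (hfg : f + g ≠ 0) :
    min (cuspOrd N f) (cuspOrd N g) ≤ cuspOrd N (f + g) := by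
  rw [(h.add h').cuspOrd_eq hfg, h.cuspOrd_eq hf, h'.cuspOrd_eq hg]
  have h1 := h.order_ne_top hf
  have h2 := h'.order_ne_top hg
  have h3 := (h.add h').order_ne_top hfg
  have hle := le_analyticOrderAt_add (f := fun w => F w * w ^ M') (g := fun w => F' w * w ^ M)
    (z₀ := (0 : ℂ))
  rw [Rep.analyticOrderAt_mul_pow h.analyticAt, Rep.analyticOrderAt_mul_pow h'.analyticAt] at hle
  have hsum : (fun w => F w * w ^ M') + (fun w => F' w * w ^ M) =
      fun w => F w * w ^ M' + F' w * w ^ M := rfl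
  rw [hsum] at hle
  rw [← ENat.natCast_toNat h1, ← ENat.natCast_toNat h2, ← ENat.natCast_toNat h3] at hle
  rcases min_le_iff.mp hle with h4 | h4
  · have h5 : (analyticOrderAt F 0).toNat + M' ≤
        (analyticOrderAt (fun w => F w * w ^ M' + F' w * w ^ M) 0).toNat := by
      exact_mod_cast h4
    refine (min_le_left _ _).trans ?_
    push_cast
    omega
  · have h5 : (analyticOrderAt F' 0).toNat + M ≤
        (analyticOrderAt (fun w => F w * w ^ M' + F' w * w ^ M) 0).toNat := by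
      exact_mod_cast h4
    refine (min_le_right _ _).trans ?_
    push_cast
    omega

/-- Translation: if `q_N (σ τ) = c * q_N τ` with `‖c‖ = 1`, then `f ∘ σ` is represented along
with `f`, with the same order. -/
theorem Rep.comp_of_qN_eq {N : ℕ} {f : ℍ → ℂ} {M : ℕ} {F : ℂ → ℂ} (h : Rep N f M F)
    (σ : ℍ → ℍ) (c : ℂ) (hc : ‖c‖ = 1) (hσ : ∀ τ, qN N (σ τ) = c * qN N τ) :
    Rep N (fun τ => f (σ τ)) M (fun w => (c ^ M)⁻¹ * F (c * w)) := by
  have hc0 : c ≠ 0 := fun h0 => by simp [h0] at hc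
  refine ⟨?_, fun τ => ?_⟩
  · refine (differentiableOn_const _).mul ?_
    refine h.diff.comp ((differentiableOn_const _).mul differentiableOn_id) ?_
    intro w hw
    rw [mem_ball_zero_iff] at hw ⊢
    rw [norm_mul, hc, one_mul]
    exact hw
  · have h1 := h.eq (σ τ)
    rw [hσ τ, mul_pow] at h1
    rw [← h1]
    have : c ^ M ≠ 0 := pow_ne_zero _ hc0
    field_simp

theorem analyticOrderAt_comp_mul_left {F : ℂ → ℂ} {a c : ℂ} (ha : a ≠ 0) (hc : c ≠ 0)
    (hF : AnalyticAt ℂ F 0) :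
    analyticOrderAt (fun w => a * F (c * w)) 0 = analyticOrderAt F 0 := by
  have hg : AnalyticAt ℂ (fun w : ℂ => c * w) 0 := by fun_prop
  have hd : deriv (fun w : ℂ => c * w) 0 ≠ 0 := by
    have : deriv (fun w : ℂ => c * w) 0 = c := by
      simp
    rw [this]
    exact hc
  have h1 : analyticOrderAt (F ∘ fun w : ℂ => c * w) 0 = analyticOrderAt F (c * 0) :=
    analyticOrderAt_comp_of_deriv_ne_zero hg hd
  rw [mul_zero] at h1
  have hF' : AnalyticAt ℂ (F ∘ fun w : ℂ => c * w) 0 := by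
    apply AnalyticAt.comp _ hg
    rw [mul_zero]
    exact hF
  have h2 := analyticOrderAt_mul (f := fun _ : ℂ => a) (g := F ∘ fun w : ℂ => c * w)
    (z₀ := (0 : ℂ)) analyticAt_const hF'
  have h3 : analyticOrderAt (fun _ : ℂ => a) 0 = 0 := analyticOrderAt_eq_zero.mpr (Or.inr ha)
  rw [h3, zero_add, h1] at h2
  exact h2

theorem cuspOrd_comp_of_qN_eq {N : ℕ} [NeZero N] {f : ℍ → ℂ} {M : ℕ} {F : ℂ → ℂ}
    (h : Rep N f M F) (hf : f ≠ 0)
    (σ : ℍ → ℍ) (c : ℂ) (hc : ‖c‖ = 1) (hσ : ∀ τ, qN N (σ τ) = c * qN N τ)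
    (hfσ : (fun τ => f (σ τ)) ≠ 0) :
    cuspOrd N (fun τ => f (σ τ)) = cuspOrd N f := by
  have hc0 : c ≠ 0 := fun h0 => by simp [h0] at hc
  rw [(h.comp_of_qN_eq σ c hc hσ).cuspOrd_eq hfσ, h.cuspOrd_eq hf,
    analyticOrderAt_comp_mul_left (inv_ne_zero (pow_ne_zero _ hc0)) hc0 h.analyticAt]

/-- Generators: if `f τ * (u * q_N τ ^ M) = G (u * q_N τ ^ M)` with `G` holomorphic on the unit
disc and `‖u‖ = 1`, then `f` is represented by `(M, w ↦ u⁻¹ * G (u * w ^ M))`. -/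
theorem Rep.of_pow {N : ℕ} [NeZero N] {f : ℍ → ℂ} {M : ℕ} (hM : M ≠ 0) {G : ℂ → ℂ}
    (hG : DifferentiableOn ℂ G (Metric.ball 0 1)) (u : ℂ) (hu : ‖u‖ = 1)
    (h : ∀ τ : ℍ, f τ * (u * qN N τ ^ M) = G (u * qN N τ ^ M)) :
    Rep N f M (fun w => u⁻¹ * G (u * w ^ M)) := by
  have hu0 : u ≠ 0 := fun h0 => by simp [h0] at hu
  refine ⟨?_, fun τ => ?_⟩
  · refine (differentiableOn_const _).mul ?_
    refine hG.comp ((differentiableOn_const _).mul (differentiableOn_id.pow M)) ?_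
    intro w hw
    rw [mem_ball_zero_iff] at hw ⊢
    rw [norm_mul, hu, one_mul, norm_pow]
    exact pow_lt_one₀ (norm_nonneg _) hw hM
  · rw [← h τ]
    field_simp

theorem cuspOrd_of_pow {N : ℕ} [NeZero N] {f : ℍ → ℂ} {M : ℕ} (hM : M ≠ 0) {G : ℂ → ℂ}
    (hG : DifferentiableOn ℂ G (Metric.ball 0 1)) (hG0 : G 0 ≠ 0) (u : ℂ) (hu : ‖u‖ = 1)
    (h : ∀ τ : ℍ, f τ * (u * qN N τ ^ M) = G (u * qN N τ ^ M)) :
    cuspOrd N f = -(M : ℤ) := by
  have hu0 : u ≠ 0 := fun h0 => by simp [h0] at hu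
  have hrep := Rep.of_pow hM hG u hu h
  have hF0 : (fun w => u⁻¹ * G (u * w ^ M)) (0 : ℂ) ≠ 0 := by
    simp only [zero_pow hM, mul_zero]
    exact mul_ne_zero (inv_ne_zero hu0) hG0
  have hf : f ≠ 0 := by
    intro hf0
    -- then `F` vanishes on the punctured disc, hence at `0` by continuity
    have hcont : ContinuousAt (fun w => u⁻¹ * G (u * w ^ M)) 0 :=
      hrep.analyticAt.continuousAt
    have hev : ∀ᶠ w in 𝓝[≠] (0 : ℂ), (fun w => u⁻¹ * G (u * w ^ M)) w = 0 := by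
      have hball : Metric.ball (0 : ℂ) 1 ∈ 𝓝 (0 : ℂ) := Metric.ball_mem_nhds 0 one_pos
      filter_upwards [nhdsWithin_le_nhds hball, self_mem_nhdsWithin] with w hw hw0
      obtain ⟨τ, rfl⟩ := exists_qN_eq N hw0 (mem_ball_zero_iff.mp hw)
      rw [← hrep.eq τ, hf0]
      simp
    have hlim : Tendsto (fun w => u⁻¹ * G (u * w ^ M)) (𝓝[≠] (0 : ℂ)) (𝓝 0) :=
      (tendsto_congr' hev).mpr tendsto_const_nhds
    have hlim' : Tendsto (fun w => u⁻¹ * G (u * w ^ M)) (𝓝[≠] (0 : ℂ))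
        (𝓝 ((fun w => u⁻¹ * G (u * w ^ M)) 0)) :=
      tendsto_nhdsWithin_of_tendsto_nhds hcont.tendsto
    exact hF0 (tendsto_nhds_unique hlim' hlim)
  rw [hrep.cuspOrd_eq hf]
  have : analyticOrderAt (fun w => u⁻¹ * G (u * w ^ M)) 0 = 0 :=
    analyticOrderAt_eq_zero.mpr (Or.inr hF0)
  simp [this]

/-- Growth: a represented function is `O(|q_N|^{-M})` at `i∞`. -/
theorem Rep.isBigO {N : ℕ} [NeZero N] {f : ℍ → ℂ} {M : ℕ} {F : ℂ → ℂ} (h : Rep N f M F) :
    ∃ C : ℝ, ∀ᶠ τ in atImInfty, ‖f τ * qN N τ ^ M‖ ≤ C := by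
  have hcont : ContinuousAt F 0 := h.analyticAt.continuousAt
  have hN : (0 : ℝ) < N := by exact_mod_cast Nat.pos_of_ne_zero (NeZero.ne N)
  have hq : Tendsto (fun τ : ℍ => qN N τ) atImInfty (𝓝 0) := by
    have h1 := (Function.Periodic.qParam_tendsto hN).mono_right nhdsWithin_le_nhds
    exact h1.comp tendsto_coe_atImInfty
  have hF : Tendsto (fun τ : ℍ => F (qN N τ)) atImInfty (𝓝 (F 0)) := hcont.tendsto.comp hq
  refine ⟨‖F 0‖ + 1, ?_⟩
  have hev := hF.norm.eventually (eventually_le_nhds (lt_add_one ‖F 0‖))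
  filter_upwards [hev] with τ hτ
  rw [h.eq τ]
  exact hτ

end Fermat.Agent.S24.CuspRing
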