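import Mathlib
import Fermat.Agent.S24.JAnalytic
import Fermat.Agent.S24.JStab

/-!
# S24, package MOD-JCUSP: the cusp function of `j · q`

`exists_cusp_jFun`: there is `G : ℂ → ℂ`, holomorphic on the open unit disc, `G 0 = 1`, with
`jFun τ * 𝕢 1 τ = G (𝕢 1 τ)` for all `τ : ℍ`.
-/

open UpperHalfPlane ModularForm EisensteinSeries MatrixGroups Filter Topology Function
open scoped Manifold

noncomputable section

namespace Fermat.Agent.S24.JCusp

local notation "𝕢" => Function.Periodic.qParam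

/-- `τ ↦ j(τ) q(τ)`. -/
def jq (τ : ℍ) : ℂ := JAnalytic.jFun τ * 𝕢 1 τ

lemma jFun_eq_jA (τ : ℍ) : JAnalytic.jFun τ = JStab.jA τ := rfl

lemma jFun_vadd_one (τ : ℍ) : JAnalytic.jFun ((1 : ℝ) +ᵥ τ) = JAnalytic.jFun τ := by
  have h := JAnalytic.jFun_smul ModularGroup.T τ
  rwa [modular_T_smul] at h

lemma periodic_jFun_comp_ofComplex : Periodic (JAnalytic.jFun ∘ ofComplex) (1 : ℝ) := by
  intro w
  by_cases hw : 0 < w.im
  · have hw1 : 0 < (w + (1 : ℝ)).im := by simpa using hw
    simp only [comp_apply, ofComplex_apply_of_im_pos hw1, ofComplex_apply_of_im_pos hw]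
    rw [← jFun_vadd_one ⟨w, hw⟩]
    congr 1
    ext
    simp [add_comm]
  · have hw' : w.im ≤ 0 := not_lt.mp hw
    have hw1 : (w + (1 : ℝ)).im ≤ 0 := by simpa using hw'
    simp only [comp_apply]
    rw [ofComplex_apply_of_im_nonpos hw1, ofComplex_apply_of_im_nonpos hw']

lemma qParam_add_one (w : ℂ) : 𝕢 1 (w + (1 : ℝ)) = 𝕢 1 w := by
  simp only [Function.Periodic.qParam, Complex.ofReal_one, div_one]
  rw [mul_add, Complex.exp_add, mul_one, Complex.exp_two_pi_mul_I, mul_one]

lemma periodic_jq_comp_ofComplex : Periodic (jq ∘ ofComplex) (1 : ℝ) := by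
  intro w
  by_cases hw : 0 < w.im
  · have hw1 : 0 < (w + (1 : ℝ)).im := by simpa using hw
    have hj := periodic_jFun_comp_ofComplex w
    simp only [comp_apply] at hj
    simp only [comp_apply, jq, hj]
    congr 1
    rw [ofComplex_apply_of_im_pos hw1, ofComplex_apply_of_im_pos hw]
    exact qParam_add_one w
  · have hw' : w.im ≤ 0 := not_lt.mp hw
    have hw1 : (w + (1 : ℝ)).im ≤ 0 := by simpa using hw'
    simp only [comp_apply]
    rw [ofComplex_apply_of_im_nonpos hw1, ofComplex_apply_of_im_nonpos hw']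

lemma mdifferentiable_qParam : MDifferentiable 𝓘(ℂ) 𝓘(ℂ) (fun τ : ℍ => 𝕢 1 (τ : ℂ)) := by
  rw [UpperHalfPlane.mdifferentiable_iff]
  have hd : Differentiable ℂ (𝕢 1) := Function.Periodic.differentiable_qParam
  refine hd.differentiableOn.congr fun z hz => ?_
  simp only [comp_apply]
  rw [ofComplex_apply_of_im_pos hz]

lemma mdifferentiable_jq : MDifferentiable 𝓘(ℂ) 𝓘(ℂ) jq :=
  JAnalytic.mdifferentiable_jFun.mul mdifferentiable_qParam

lemma tendsto_jq : Tendsto jq atImInfty (𝓝 1) := JStab.tendsto_jA_mul_q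

lemma isBoundedAtImInfty_jq : IsBoundedAtImInfty jq := tendsto_jq.isBigO_one ℝ

/-- MOD-JCUSP: `j · q` is a holomorphic function of `q` on the unit disc, with value `1` at `0`. -/
theorem exists_cusp_jFun : ∃ G : ℂ → ℂ, DifferentiableOn ℂ G (Metric.ball 0 1) ∧ G 0 = 1 ∧
    ∀ τ : ℍ, JAnalytic.jFun τ * Function.Periodic.qParam 1 τ
      = G (Function.Periodic.qParam 1 τ) := by
  refine ⟨cuspFunction 1 jq, ?_, ?_, ?_⟩
  · exact differentiableOn_cuspFunction_ball one_pos periodic_jq_comp_ofComplex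
      mdifferentiable_jq isBoundedAtImInfty_jq
  · have han : AnalyticAt ℂ (cuspFunction 1 jq) 0 :=
      analyticAt_cuspFunction_zero one_pos periodic_jq_comp_ofComplex
        mdifferentiable_jq isBoundedAtImInfty_jq
    rw [cuspFunction_apply_zero one_pos han periodic_jq_comp_ofComplex]
    exact tendsto_jq.limUnder_eq
  · intro τ
    exact (eq_cuspFunction τ one_ne_zero periodic_jq_comp_ofComplex).symm

end Fermat.Agent.S24.JCusp
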