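/-
S24 / MOD-TOWER (helper84): concrete analytic objects for the modular tower.
Part 1: the embedding `iota : Kbar →+* ℂ`, the functions `jd d = j(d τ)` as elements of
`HolH.Hol`, their images in `HolH.Mer`, the action of `SL(2,ℤ)` and the stabiliser statements.
-/
import Fermat.Agent.S24.Defs
import Fermat.Agent.S24.HolH
import Fermat.Agent.S24.JAnalytic
import Fermat.Agent.S24.JStab

set_option autoImplicit false

open UpperHalfPlane Complex Filter Topology
open scoped MatrixGroups Manifold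

namespace Fermat.Agent.S24.Tower

open Fermat.Agent.S24.HolH

/-- A fixed embedding of `ℚ̄` into `ℂ`. -/
noncomputable def iota : Kbar →+* ℂ :=
  haveI : Algebra.IsAlgebraic ℚ (AlgebraicClosure ℚ) := AlgebraicClosure.isAlgebraic ℚ
  ((IsAlgClosed.lift : AlgebraicClosure ℚ →ₐ[ℚ] ℂ) : AlgebraicClosure ℚ →+* ℂ)

theorem iota_injective : Function.Injective iota := iota.injective

/-- the point `d τ` of the upper half plane -/
noncomputable def dpt (d : ℕ) [NeZero d] (τ : ℍ) : ℍ :=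
  ⟨(d : ℂ) * τ, by
    have hd : (0 : ℝ) < d := by exact_mod_cast Nat.pos_of_ne_zero (NeZero.ne d)
    have : ((d : ℂ) * (τ : ℂ)).im = d * τ.im := by simp
    rw [this]
    exact mul_pos hd τ.im_pos⟩

@[simp] theorem coe_dpt (d : ℕ) [NeZero d] (τ : ℍ) : ((dpt d τ : ℍ) : ℂ) = (d : ℂ) * τ := rfl

theorem jA_eq_jFun (τ : ℍ) : JStab.jA τ = JAnalytic.jFun τ := rfl

theorem jC_dpt (d : ℕ) [NeZero d] (τ : ℍ) :
    JStab.jC ((d : ℂ) * τ) = JAnalytic.jFun (dpt d τ) := by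
  rw [← coe_dpt, JStab.jC_coe, jA_eq_jFun]

theorem mdiff_jFun_dpt (d : ℕ) [NeZero d] : MDiff (fun τ : ℍ => JAnalytic.jFun (dpt d τ)) := by
  rw [UpperHalfPlane.mdifferentiable_iff]
  have hj : DifferentiableOn ℂ (JAnalytic.jFun ∘ ofComplex) upperHalfPlaneSet :=
    UpperHalfPlane.mdifferentiable_iff.mp JAnalytic.mdifferentiable_jFun
  have hd : (0 : ℝ) < d := by exact_mod_cast Nat.pos_of_ne_zero (NeZero.ne d)
  have hmaps : Set.MapsTo (fun z : ℂ => (d : ℂ) * z) upperHalfPlaneSet upperHalfPlaneSet := by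
    intro z hz
    show 0 < ((d : ℂ) * z).im
    have : ((d : ℂ) * z).im = d * z.im := by simp
    rw [this]
    exact mul_pos hd hz
  have hcomp : DifferentiableOn ℂ ((JAnalytic.jFun ∘ ofComplex) ∘ fun z : ℂ => (d : ℂ) * z)
      upperHalfPlaneSet :=
    hj.comp ((differentiable_id.const_mul (d : ℂ)).differentiableOn) hmaps
  refine hcomp.congr ?_
  intro z hz
  simp only [Function.comp_apply]
  congr 1
  apply UpperHalfPlane.ext
  rw [coe_dpt, ofComplex_apply_of_im_pos hz, ofComplex_apply_of_im_pos (hmaps hz)]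

/-- `j(d τ)` as a holomorphic function on the upper half plane. -/
noncomputable def jd (d : ℕ) [NeZero d] : Hol := ⟨fun τ => JAnalytic.jFun (dpt d τ), mdiff_jFun_dpt d⟩

@[simp] theorem jd_apply (d : ℕ) [NeZero d] (τ : ℍ) :
    (jd d : ℍ → ℂ) τ = JAnalytic.jFun (dpt d τ) := rfl

theorem dpt_one (τ : ℍ) : dpt 1 τ = τ := by
  apply UpperHalfPlane.ext
  simp

theorem jd_one_apply (τ : ℍ) : (jd 1 : ℍ → ℂ) τ = JAnalytic.jFun τ := by
  rw [jd_apply, dpt_one]

/-- `j` is `SL(2,ℤ)`-invariant. -/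
theorem smul_jd_one (g : SL(2, ℤ)) : g • jd 1 = jd 1 := by
  ext τ
  rw [Hol.smul_apply, jd_one_apply, jd_one_apply, JAnalytic.jFun_smul]

/-- `j(d τ)` is `Γ₀(d)`-invariant. -/
theorem smul_jd_of_mem_Gamma0 (d : ℕ) [NeZero d] {g : SL(2, ℤ)}
    (hg : g ∈ CongruenceSubgroup.Gamma0 d) : g • jd d = jd d := by
  ext τ
  rw [Hol.smul_apply, jd_apply, jd_apply, ← jC_dpt, ← jC_dpt]
  exact JStab.jC_eq_of_mem_Gamma0 (Nat.pos_of_ne_zero (NeZero.ne d)) (inv_mem hg) τ

theorem Gamma0_le_of_dvd {d N : ℕ} (h : d ∣ N) :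
    CongruenceSubgroup.Gamma0 N ≤ CongruenceSubgroup.Gamma0 d := by
  intro g hg
  rw [CongruenceSubgroup.Gamma0_mem] at hg ⊢
  have h1 := (ZMod.intCast_zmod_eq_zero_iff_dvd _ _).mp hg
  refine (ZMod.intCast_zmod_eq_zero_iff_dvd _ _).mpr ?_
  exact dvd_trans (by exact_mod_cast h) h1

/-- `j(d τ)` is `Γ₀(N)`-invariant for `d ∣ N`. -/
theorem smul_jd_of_mem_Gamma0_of_dvd {d N : ℕ} [NeZero d] (h : d ∣ N) {g : SL(2, ℤ)}
    (hg : g ∈ CongruenceSubgroup.Gamma0 N) : g • jd d = jd d :=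
  smul_jd_of_mem_Gamma0 d (Gamma0_le_of_dvd h hg)

/-- The stabiliser of `j(N τ)` is exactly `Γ₀(N)`. -/
theorem smul_jd_eq_iff (N : ℕ) [NeZero N] (g : SL(2, ℤ)) :
    g • jd N = jd N ↔ g ∈ CongruenceSubgroup.Gamma0 N := by
  constructor
  · intro h
    have hN : 0 < N := Nat.pos_of_ne_zero (NeZero.ne N)
    have h2 : g⁻¹ ∈ CongruenceSubgroup.Gamma0 N := by
      apply JStab.mem_Gamma0_of_forall_jC_eq hN
      intro τ
      have := congrArg (fun F : Hol => (F : ℍ → ℂ) τ) h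
      simp only [Hol.smul_apply, jd_apply] at this
      rw [jC_dpt, jC_dpt]
      exact this
    simpa using inv_mem h2
  · exact smul_jd_of_mem_Gamma0 N

/-! ### The action on `Mer` as `ℂ`-algebra automorphisms -/

theorem Mer_smul_algebraMap_complex (g : SL(2, ℤ)) (c : ℂ) :
    g • (algebraMap ℂ Mer c) = algebraMap ℂ Mer c := by
  rw [IsScalarTower.algebraMap_apply ℂ Hol Mer, Mer.smul_algebraMap, Hol.smul_algebraMap]

instance instSMulCommClassMer : SMulCommClass SL(2, ℤ) ℂ Mer :=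
  ⟨fun g c x => by
    rw [Algebra.smul_def, Algebra.smul_def, smul_mul', Mer_smul_algebraMap_complex]⟩

/-- The action of `SL(2,ℤ)` on `Mer` by `ℂ`-algebra automorphisms. -/
noncomputable def act : SL(2, ℤ) →* (Mer ≃ₐ[ℂ] Mer) :=
  MulSemiringAction.toAlgAut SL(2, ℤ) ℂ Mer

@[simp] theorem act_apply (g : SL(2, ℤ)) (x : Mer) : act g x = g • x := rfl

theorem neg_one_smul_Hol (f : Hol) : (-1 : SL(2, ℤ)) • f = f := by
  ext τ
  rw [Hol.smul_apply, inv_neg, inv_one]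
  exact congrArg _ ((ModularGroup.SL_neg_smul 1 τ).trans (one_smul _ τ))

theorem neg_one_smul_Mer (x : Mer) : (-1 : SL(2, ℤ)) • x = x := by
  obtain ⟨a, b, hb, rfl⟩ := IsFractionRing.div_surjective Hol x
  rw [smul_div₀', Mer.smul_algebraMap, Mer.smul_algebraMap, neg_one_smul_Hol, neg_one_smul_Hol]

theorem act_neg_one : act (-1) = 1 := by
  ext x
  rw [act_apply, neg_one_smul_Mer]
  rfl

/-- `Jd d` is the image in `Mer` of `τ ↦ j (d τ)` (and `0` for `d = 0`). -/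
noncomputable def Jd (d : ℕ) : Mer :=
  if h : d = 0 then 0 else algebraMap Hol Mer (@jd d ⟨h⟩)

theorem Jd_eq (d : ℕ) [NeZero d] : Jd d = algebraMap Hol Mer (jd d) := by
  unfold Jd
  rw [dif_neg (NeZero.ne d)]

theorem algebraMap_Hol_Mer_injective : Function.Injective (algebraMap Hol Mer) :=
  IsFractionRing.injective Hol Mer

theorem act_Jd_eq (d : ℕ) [NeZero d] (g : SL(2, ℤ)) :
    act g (Jd d) = algebraMap Hol Mer (g • jd d) := by
  rw [act_apply, Jd_eq, Mer.smul_algebraMap]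

theorem act_J (g : SL(2, ℤ)) : act g (Jd 1) = Jd 1 := by
  rw [act_Jd_eq, smul_jd_one, Jd_eq]

theorem act_Jd {N : ℕ} [NeZero N] (d : ℕ) (hd : d ∣ N) (g : SL(2, ℤ))
    (hg : g ∈ CongruenceSubgroup.Gamma0 N) : act g (Jd d) = Jd d := by
  have : NeZero d := ⟨fun h => NeZero.ne N (by rw [h] at hd; exact zero_dvd_iff.mp hd)⟩
  rw [act_Jd_eq, smul_jd_of_mem_Gamma0_of_dvd hd hg, Jd_eq]

theorem stab_JN {N : ℕ} [NeZero N] (g : SL(2, ℤ)) (h : act g (Jd N) = Jd N) :
    g ∈ CongruenceSubgroup.Gamma0 N := by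
  rw [act_Jd_eq, Jd_eq] at h
  exact (smul_jd_eq_iff N g).mp (algebraMap_Hol_Mer_injective h)

end Fermat.Agent.S24.Tower
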