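/-
S24 / MOD-TOWER (helper84), part 3b: the cusp valuation (`val_inf`) and the invariants
(`inv_mem`) for the concrete analytic model, via the cusp ring of `CuspRing.lean`.
-/
import Fermat.Agent.S24.Tower
import Fermat.Agent.S24.CuspRing
import Fermat.Agent.S24.JCusp
import Fermat.Agent.S24.CuspGrowth
import Fermat.Agent.S24.Hermite
import Fermat.Agent.S24.Mod.Interface

set_option autoImplicit false

open Complex Filter Topology
open UpperHalfPlane hiding I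
open scoped MatrixGroups Manifold Real

namespace Fermat.Agent.S24.TowerCusp

open Fermat.Agent.S24.HolH Fermat.Agent.S24.Tower Fermat.Agent.S24.CuspRing
open Fermat.Agent.S24.Hermite

local notation "𝕢" => Function.Periodic.qParam

/-! ### The conjugates of `j` are represented at the cusp -/

/-- `q ((a τ + b) / e) = exp (2 π i b / e) * q_N (τ) ^ (a k)` for `N = e k`. -/
theorem qParam_affPoint (N : ℕ) [NeZero N] (a b e : ℤ) (ha : 0 < a) (he : 0 < e) (k : ℕ)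
    (hk : (N : ℤ) = e * k) (τ : ℍ) :
    𝕢 1 ((affPoint a b e ha he τ : ℍ) : ℂ) =
      Complex.exp (2 * π * I * b / e) * qN N τ ^ (a.toNat * k) := by
  have hN : (N : ℂ) ≠ 0 := Nat.cast_ne_zero.mpr (NeZero.ne N)
  have he' : (e : ℂ) ≠ 0 := by exact_mod_cast he.ne'
  have hNe : (N : ℂ) = (e : ℂ) * (k : ℂ) := by exact_mod_cast congrArg (Int.cast : ℤ → ℂ) hk
  have hk' : (k : ℂ) ≠ 0 := by
    intro h
    rw [h, mul_zero] at hNe
    exact hN hNe
  have hM : ((a.toNat * k : ℕ) : ℂ) = (a : ℂ) * (k : ℂ) := by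
    have h1 : ((a.toNat : ℤ) : ℂ) = (a : ℂ) := by rw [Int.toNat_of_nonneg ha.le]
    push_cast at h1 ⊢
    rw [h1]
  unfold qN
  rw [Function.Periodic.qParam, Function.Periodic.qParam, ← Complex.exp_nat_mul,
    ← Complex.exp_add, coe_affPoint, hM]
  congr 1
  push_cast
  rw [hNe]
  field_simp
  ring

theorem norm_exp_two_pi_I_mul_div (b e : ℤ) : ‖Complex.exp (2 * π * I * b / e)‖ = 1 := by
  have : (2 * π * I * b / e : ℂ) = ((2 * π * b / e : ℝ) : ℂ) * I := by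
    push_cast
    ring
  rw [this, Complex.norm_exp_ofReal_mul_I]

/-- The conjugate `τ ↦ j ((a τ + b) / e)` lies in the cusp ring of level `N = e k`,
with order `-(a k)`. -/
theorem rep_jFun_affPoint (N : ℕ) [NeZero N] (a b e : ℤ) (ha : 0 < a) (he : 0 < e) (k : ℕ)
    (hk : (N : ℤ) = e * k) :
    (∃ (M : ℕ) (F : ℂ → ℂ), Rep N (fun τ => JAnalytic.jFun (affPoint a b e ha he τ)) M F) ∧
      cuspOrd N (fun τ => JAnalytic.jFun (affPoint a b e ha he τ)) = -((a.toNat * k : ℕ) : ℤ) := by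
  obtain ⟨G, hG, hG0, hGj⟩ := JCusp.exists_cusp_jFun
  have hk0 : k ≠ 0 := by
    rintro rfl
    have : (N : ℤ) = 0 := by simpa using hk
    exact NeZero.ne N (by exact_mod_cast this)
  have ha0 : a.toNat ≠ 0 := by
    have : 0 < a.toNat := by omega
    exact this.ne'
  have hM : a.toNat * k ≠ 0 := Nat.mul_ne_zero ha0 hk0
  have key : ∀ τ : ℍ, JAnalytic.jFun (affPoint a b e ha he τ) *
      (Complex.exp (2 * π * I * b / e) * qN N τ ^ (a.toNat * k)) =
      G (Complex.exp (2 * π * I * b / e) * qN N τ ^ (a.toNat * k)) := by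
    intro τ
    rw [← qParam_affPoint N a b e ha he k hk τ]
    exact hGj _
  refine ⟨⟨_, _, Rep.of_pow hM hG _ (norm_exp_two_pi_I_mul_div b e) key⟩, ?_⟩
  exact cuspOrd_of_pow hM hG (by rw [hG0]; exact one_ne_zero) _ (norm_exp_two_pi_I_mul_div b e) key

/-- Function-level description of the conjugates. -/
theorem smul_jd_eq_affPoint {N : ℕ} [NeZero N] (d : ℕ) [NeZero d] (hd : d ∣ N) (g : SL(2, ℤ)) :
    ∃ (a b e : ℤ) (ha : 0 < a) (he : 0 < e) (k : ℕ), (N : ℤ) = e * k ∧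
      ((g • jd d : Hol) : ℍ → ℂ) = fun τ => JAnalytic.jFun (affPoint a b e ha he τ) := by
  have hd0 : (0 : ℤ) < d := by exact_mod_cast Nat.pos_of_ne_zero (NeZero.ne d)
  obtain ⟨g', a, b, e, hae, ha, -, -, he, h⟩ := exists_hermite_smul' (d : ℤ) hd0 g⁻¹
  obtain ⟨m, hm⟩ := hd
  refine ⟨a, b, e, ha, he, a.toNat * m, ?_, ?_⟩
  · have h1 : ((a.toNat : ℕ) : ℤ) = a := Int.toNat_of_nonneg ha.le
    push_cast
    rw [h1, hm]
    push_cast
    rw [← hae]
    ring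
  · funext τ
    rw [Hol.smul_apply, jd_apply]
    have hz := h τ (dpt d (g⁻¹ • τ)) (by rw [coe_dpt]; push_cast; rfl)
    rw [hz, JAnalytic.jFun_smul]

/-! ### The cusp ring as a subalgebra of `Hol` -/

/-- The holomorphic functions on `ℍ` which are meromorphic at the cusp `∞` in `q_N`. -/
def cuspSub (N : ℕ) [NeZero N] : Subalgebra ℂ Hol where
  carrier := {f | ∃ (M : ℕ) (F : ℂ → ℂ), Rep N (f : ℍ → ℂ) M F}
  mul_mem' := by
    rintro f g ⟨M, F, h⟩ ⟨M', F', h'⟩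
    exact ⟨_, _, h.mul h'⟩
  add_mem' := by
    rintro f g ⟨M, F, h⟩ ⟨M', F', h'⟩
    exact ⟨_, _, h.add h'⟩
  algebraMap_mem' c := ⟨0, fun _ => c, Rep.const N c⟩

theorem mem_cuspSub {N : ℕ} [NeZero N] {f : Hol} :
    f ∈ cuspSub N ↔ ∃ (M : ℕ) (F : ℂ → ℂ), Rep N (f : ℍ → ℂ) M F := Iff.rfl

theorem smul_jd_mem_cuspSub {N : ℕ} [NeZero N] (d : ℕ) [NeZero d] (hd : d ∣ N) (g : SL(2, ℤ)) :
    g • jd d ∈ cuspSub N := by
  obtain ⟨a, b, e, ha, he, k, hk, hfun⟩ := smul_jd_eq_affPoint d hd g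
  rw [mem_cuspSub, hfun]
  exact (rep_jFun_affPoint N a b e ha he k hk).1

/-- The canonical map `Hol → Mer` as an algebra homomorphism. -/
noncomputable def ofHol : Hol →ₐ[ℂ] Mer := IsScalarTower.toAlgHom ℂ Hol Mer

@[simp] theorem ofHol_apply (f : Hol) : ofHol f = algebraMap Hol Mer f := rfl

theorem adjoin_conjSet_le (N : ℕ) [NeZero N] :
    Algebra.adjoin ℂ (Mod.conjSet act Jd N) ≤ (cuspSub N).map ofHol := by
  apply Algebra.adjoin_le
  rintro s ⟨d, hd, g, rfl⟩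
  have : NeZero d := ⟨fun h => NeZero.ne N (by rw [h] at hd; exact zero_dvd_iff.mp hd)⟩
  rw [act_Jd_eq]
  exact ⟨g • jd d, smul_jd_mem_cuspSub d hd g, rfl⟩

theorem exists_of_mem_adjoin {N : ℕ} [NeZero N] {a : Mer}
    (ha : a ∈ Algebra.adjoin ℂ (Mod.conjSet act Jd N)) :
    ∃ f : Hol, f ∈ cuspSub N ∧ algebraMap Hol Mer f = a := by
  obtain ⟨f, hf, rfl⟩ := adjoin_conjSet_le N ha
  exact ⟨f, hf, rfl⟩

/-! ### The cusp valuation on `Mer` -/

open Classical in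
/-- The order at the cusp of (the image in `Mer` of) a holomorphic function. -/
noncomputable def nuInf (N : ℕ) (x : Mer) : ℤ :=
  if h : ∃ f : Hol, algebraMap Hol Mer f = x then cuspOrd N (h.choose : ℍ → ℂ) else 0

theorem nuInf_algebraMap (N : ℕ) (f : Hol) :
    nuInf N (algebraMap Hol Mer f) = cuspOrd N (f : ℍ → ℂ) := by
  have hex : ∃ f' : Hol, algebraMap Hol Mer f' = algebraMap Hol Mer f := ⟨f, rfl⟩
  unfold nuInf
  rw [dif_pos hex, algebraMap_Hol_Mer_injective hex.choose_spec]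

theorem coe_ne_zero {f : Hol} (hf : f ≠ 0) : (f : ℍ → ℂ) ≠ 0 := by
  intro h
  apply hf
  ext τ
  exact congrFun h τ

theorem isValFunOn_nuInf (N : ℕ) [NeZero N] :
    Mod.IsValFunOn (Algebra.adjoin ℂ (Mod.conjSet act Jd N)) (nuInf N) where
  map_mul a ha b hb ha0 hb0 := by
    obtain ⟨f, ⟨M, F, hf⟩, rfl⟩ := exists_of_mem_adjoin ha
    obtain ⟨g, ⟨M', F', hg⟩, rfl⟩ := exists_of_mem_adjoin hb
    have hf0 : f ≠ 0 := fun h => ha0 (by rw [h, map_zero])
    have hg0 : g ≠ 0 := fun h => hb0 (by rw [h, map_zero])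
    rw [← map_mul, nuInf_algebraMap, nuInf_algebraMap, nuInf_algebraMap]
    exact cuspOrd_mul hf hg (coe_ne_zero hf0) (coe_ne_zero hg0)
      (coe_ne_zero (mul_ne_zero hf0 hg0))
  map_add a ha b hb ha0 hb0 hab := by
    obtain ⟨f, ⟨M, F, hf⟩, rfl⟩ := exists_of_mem_adjoin ha
    obtain ⟨g, ⟨M', F', hg⟩, rfl⟩ := exists_of_mem_adjoin hb
    have hf0 : f ≠ 0 := fun h => ha0 (by rw [h, map_zero])
    have hg0 : g ≠ 0 := fun h => hb0 (by rw [h, map_zero])
    have hfg0 : f + g ≠ 0 := fun h => hab (by rw [← map_add, h, map_zero])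
    rw [← map_add, nuInf_algebraMap, nuInf_algebraMap, nuInf_algebraMap]
    exact cuspOrd_add hf hg (coe_ne_zero hf0) (coe_ne_zero hg0) (coe_ne_zero hfg0)
  map_const c hc := by
    rw [IsScalarTower.algebraMap_apply ℂ Hol Mer, nuInf_algebraMap]
    exact cuspOrd_const N hc

/-- `ν_∞ (j) = -N`. -/
theorem nuInf_Jd_one (N : ℕ) [NeZero N] : nuInf N (Jd 1) = -(N : ℤ) := by
  obtain ⟨G, hG, hG0, hGj⟩ := JCusp.exists_cusp_jFun
  rw [Jd_eq, nuInf_algebraMap]
  have key : ∀ τ : ℍ, (jd 1 : ℍ → ℂ) τ * (1 * qN N τ ^ N) = G (1 * qN N τ ^ N) := by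
    intro τ
    rw [one_mul, jd_one_apply]
    have : qN N τ ^ N = 𝕢 1 (τ : ℂ) := CuspGrowth.qParam_pow_eq (N := N) (τ : ℂ)
    rw [this]
    exact hGj τ
  exact cuspOrd_of_pow (NeZero.ne N) hG (by rw [hG0]; exact one_ne_zero) 1 (by simp) key

/-- `T⁻¹ τ = τ - 1`. -/
theorem coe_T_inv_smul (τ : ℍ) : ((ModularGroup.T⁻¹ • τ : ℍ) : ℂ) = (τ : ℂ) - 1 := by
  have h := UpperHalfPlane.modular_T_zpow_smul τ (-1)
  rw [zpow_neg_one] at h
  rw [h, UpperHalfPlane.coe_vadd]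
  push_cast
  ring

theorem qN_T_inv_smul (N : ℕ) [NeZero N] (τ : ℍ) :
    qN N (ModularGroup.T⁻¹ • τ) = Complex.exp (-(2 * π * I / N)) * qN N τ := by
  unfold qN
  rw [Function.Periodic.qParam, Function.Periodic.qParam, ← Complex.exp_add, coe_T_inv_smul]
  congr 1
  push_cast
  ring

theorem norm_exp_neg_two_pi_I_div (N : ℕ) : ‖Complex.exp (-(2 * π * I / N))‖ = 1 := by
  have : (-(2 * π * I / N) : ℂ) = ((-(2 * π / N) : ℝ) : ℂ) * I := by
    push_cast
    ring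
  rw [this, Complex.norm_exp_ofReal_mul_I]

/-- The cusp valuation is invariant under `T`. -/
theorem nuInf_act_T (N : ℕ) [NeZero N] (a : Mer)
    (ha : a ∈ Algebra.adjoin ℂ (Mod.conjSet act Jd N)) (ha0 : a ≠ 0) :
    nuInf N (act ModularGroup.T a) = nuInf N a := by
  obtain ⟨f, ⟨M, F, hf⟩, rfl⟩ := exists_of_mem_adjoin ha
  have hf0 : f ≠ 0 := fun h => ha0 (by rw [h, map_zero])
  have hTf0 : ModularGroup.T • f ≠ 0 := by
    intro h
    apply hf0
    have := congrArg (fun F => (ModularGroup.T)⁻¹ • F) h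
    simpa using this
  rw [act_apply, Mer.smul_algebraMap, nuInf_algebraMap, nuInf_algebraMap]
  have hfun : ((ModularGroup.T • f : Hol) : ℍ → ℂ) =
      fun τ => (f : ℍ → ℂ) (ModularGroup.T⁻¹ • τ) := by
    funext τ
    rw [Hol.smul_apply]
  rw [hfun]
  refine cuspOrd_comp_of_qN_eq hf (coe_ne_zero hf0) (fun τ => ModularGroup.T⁻¹ • τ) _
    (norm_exp_neg_two_pi_I_div N) (qN_T_inv_smul N) ?_
  rw [← hfun]
  exact coe_ne_zero hTf0

/-- **AI-valinf** for the concrete model. -/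
theorem val_inf (N : ℕ) [NeZero N] :
    ∃ ν : Mer → ℤ, Mod.IsValFunOn (Algebra.adjoin ℂ (Mod.conjSet act Jd N)) ν ∧
      ν (Jd 1) < 0 ∧ -(N : ℤ) ≤ ν (Jd 1) ∧
      ∀ a ∈ Algebra.adjoin ℂ (Mod.conjSet act Jd N), a ≠ 0 →
        ν (act ModularGroup.T a) = ν a := by
  refine ⟨nuInf N, isValFunOn_nuInf N, ?_, ?_, fun a ha ha0 => nuInf_act_T N a ha ha0⟩
  · rw [nuInf_Jd_one]
    have : (0 : ℤ) < N := by exact_mod_cast Nat.pos_of_ne_zero (NeZero.ne N)
    omega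
  · rw [nuInf_Jd_one]

/-! ### Invariants -/

/-- evaluation at a point, as an algebra homomorphism -/
noncomputable def evalHom (τ : ℍ) : Hol →ₐ[ℂ] ℂ :=
  (Pi.evalAlgHom ℂ (fun _ : ℍ => ℂ) τ).comp Hol.val

@[simp] theorem evalHom_apply (τ : ℍ) (f : Hol) : evalHom τ f = (f : ℍ → ℂ) τ := rfl

theorem aeval_jd_one_apply (P : Polynomial ℂ) (τ : ℍ) :
    ((Polynomial.aeval (jd 1) P : Hol) : ℍ → ℂ) τ = P.eval (JAnalytic.jFun τ) := by
  rw [← evalHom_apply, ← Polynomial.aeval_algHom_apply, evalHom_apply, jd_one_apply,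
    Polynomial.coe_aeval_eq_eval]

/-- **AI-fix** for the concrete model: invariant elements of the ring generated by the
conjugates are polynomials in `j`. -/
theorem inv_mem (N : ℕ) [NeZero N] (b : Mer)
    (hb : b ∈ Algebra.adjoin ℂ (Mod.conjSet act Jd N)) (hinv : ∀ g, act g b = b) :
    b ∈ Algebra.adjoin ℂ {Jd 1} := by
  obtain ⟨f, ⟨M, F, hf⟩, rfl⟩ := exists_of_mem_adjoin hb
  have hinv' : ∀ (γ : SL(2, ℤ)) (τ : ℍ), (f : ℍ → ℂ) (γ • τ) = (f : ℍ → ℂ) τ := by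
    intro γ τ
    have h1 := hinv γ⁻¹
    rw [act_apply, Mer.smul_algebraMap] at h1
    have h2 := algebraMap_Hol_Mer_injective h1
    have h3 := congrArg (fun F : Hol => (F : ℍ → ℂ) τ) h2
    simpa using h3
  have hb' := CuspGrowth.isBoundedAtImInfty_discriminant_pow_mul (N := N) (M := M)
    (f : ℍ → ℂ) F hf.analyticAt.continuousAt hf.eq
  obtain ⟨P, -, hP⟩ := JAnalytic.exists_polynomial_jFun M (f : ℍ → ℂ) f.2 hinv' hb'
  have hfP : f = Polynomial.aeval (jd 1) P := by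
    ext τ
    rw [aeval_jd_one_apply, hP τ]
  have : algebraMap Hol Mer f = Polynomial.aeval (Jd 1) P := by
    rw [hfP, Jd_eq, ← ofHol_apply, ← ofHol_apply, Polynomial.aeval_algHom_apply]
  rw [this]
  exact Polynomial.aeval_mem_adjoin_singleton ℂ (Jd 1)

end Fermat.Agent.S24.TowerCusp
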