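import Mathlib

/-!
# Analytic facts about `j = E₄³/Δ` on the upper half plane (S24, modular layer)

* `D_discriminant` : `D Δ = E2 * Δ`
* `serreE4_eq` : `serreDerivative 4 E₄ = c • E₆`
-/

set_option autoImplicit false

open UpperHalfPlane hiding I
open Real Complex
open scoped Manifold MatrixGroups ModularForm Topology
open ModularForm EisensteinSeries Derivative

noncomputable section

namespace Fermat.Agent.S24.JDeriv

/-- `D Δ = E2 · Δ`. -/
theorem D_discriminant (z : ℍ) :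
    D ModularForm.discriminant z = E2 z * ModularForm.discriminant z := by
  have hz : (z : ℂ) ∈ upperHalfPlaneSet := z.im_pos
  have heta : DifferentiableAt ℂ ModularForm.eta (z : ℂ) := differentiableAt_eta_of_mem_upperHalfPlaneSet hz
  have hne : ModularForm.eta (z : ℂ) ≠ 0 := eta_ne_zero hz
  have hEq : (ModularForm.discriminant ∘ ofComplex) =ᶠ[𝓝 (z : ℂ)] fun w => ModularForm.eta w ^ 24 := by
    filter_upwards [isOpen_upperHalfPlaneSet.mem_nhds hz] with w hw
    simp [ModularForm.discriminant, ofComplex_apply_of_im_pos hw]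
  have hderiv : deriv (ModularForm.discriminant ∘ ofComplex) (z : ℂ)
      = 24 * ModularForm.eta (z : ℂ) ^ 23 * deriv ModularForm.eta (z : ℂ) := by
    rw [hEq.deriv_eq]
    have := (heta.hasDerivAt.pow 24).deriv
    have h2 : (fun w => ModularForm.eta w ^ 24) = ModularForm.eta ^ 24 := rfl
    rw [h2]
    simpa using this
  have hlog := logDeriv_eta_eq_E2 z
  rw [logDeriv_apply] at hlog
  have hd : deriv ModularForm.eta (z : ℂ) = (↑π * I / 12 * E2 z) * ModularForm.eta (z : ℂ) := by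
    field_simp at hlog ⊢
    linear_combination hlog
  have hpi : (2 * (π : ℂ) * I) ≠ 0 := by
    simp [Real.pi_ne_zero]
  simp only [normalizedDerivOfComplex]
  rw [hderiv, hd]
  have hD : ModularForm.discriminant z = ModularForm.eta (z : ℂ) ^ 24 := rfl
  rw [hD]
  field_simp
  ring

/-- Cauchy estimate: the normalised derivative of a holomorphic function bounded at `i∞` is
bounded at `i∞`. -/
theorem isBoundedAtImInfty_D {F : ℍ → ℂ} (hF : MDiff F) (hb : IsBoundedAtImInfty F) :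
    IsBoundedAtImInfty (D F) := by
  rw [UpperHalfPlane.isBoundedAtImInfty_iff] at hb ⊢
  obtain ⟨M, A, hMA⟩ := hb
  have hdiff : DifferentiableOn ℂ (F ∘ ofComplex) upperHalfPlaneSet :=
    UpperHalfPlane.mdifferentiable_iff.mp hF
  refine ⟨‖(2 * (π : ℂ) * I)⁻¹‖ * (M / (1 / 2)), max A 0 + 1, fun z hz => ?_⟩
  have hzim : max A 0 + 1 ≤ (z : ℂ).im := hz
  have hsub : Metric.closedBall (z : ℂ) (1 / 2) ⊆ upperHalfPlaneSet := by
    intro w hw
    have h1 : |(w - (z : ℂ)).im| ≤ ‖w - (z : ℂ)‖ := Complex.abs_im_le_norm _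
    have h2 : ‖w - (z : ℂ)‖ ≤ 1 / 2 := by simpa [dist_eq_norm] using hw
    have h3 := abs_le.mp (h1.trans h2)
    simp only [Complex.sub_im] at h3
    have h4 : (0 : ℝ) ≤ max A 0 := le_max_right _ _
    show 0 < w.im
    linarith [h3.1]
  have hcl : DiffContOnCl ℂ (F ∘ ofComplex) (Metric.ball (z : ℂ) (1 / 2)) :=
    hdiff.diffContOnCl_ball hsub
  have hbound : ∀ w ∈ Metric.sphere (z : ℂ) (1 / 2), ‖(F ∘ ofComplex) w‖ ≤ M := by
    intro w hw
    have hwc : w ∈ Metric.closedBall (z : ℂ) (1 / 2) := Metric.sphere_subset_closedBall hw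
    have hwpos : 0 < w.im := hsub hwc
    have h1 : |(w - (z : ℂ)).im| ≤ ‖w - (z : ℂ)‖ := Complex.abs_im_le_norm _
    have h2 : ‖w - (z : ℂ)‖ ≤ 1 / 2 := by simpa [dist_eq_norm] using hwc
    have h3 := abs_le.mp (h1.trans h2)
    simp only [Complex.sub_im] at h3
    have h4 : A ≤ max A 0 := le_max_left _ _
    have : A ≤ (ofComplex w).im := by
      rw [ofComplex_apply_of_im_pos hwpos]
      show A ≤ w.im
      linarith [h3.1]
    simpa using hMA (ofComplex w) this
  have := Complex.norm_deriv_le_of_forall_mem_sphere_norm_le (by norm_num : (0 : ℝ) < 1 / 2)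
    hcl hbound
  simp only [normalizedDerivOfComplex, norm_mul]
  gcongr

theorem serreDerivative_E4_slash (γ : SL(2, ℤ)) :
    serreDerivative ((4 : ℤ) : ℂ) E₄ ∣[(6 : ℤ)] γ = serreDerivative ((4 : ℤ) : ℂ) E₄ := by
  have hγ : (γ : GL (Fin 2) ℝ) ∈ 𝒮ℒ := ⟨γ, rfl⟩
  have h : (⇑E₄ : ℍ → ℂ) ∣[(4 : ℤ)] γ = ⇑E₄ := by
    rw [SL_slash]
    exact SlashInvariantFormClass.slash_action_eq E₄ _ hγ
  have := serreDerivative_slash_invariant (k := 4) (F := ⇑E₄) E₄.holo' (γ := γ) h
  simpa using this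

theorem isBoundedAtImInfty_serreDerivative_E4 :
    IsBoundedAtImInfty (serreDerivative ((4 : ℤ) : ℂ) E₄) := by
  have hE4 : IsBoundedAtImInfty (⇑E₄ : ℍ → ℂ) := ModularFormClass.bdd_at_infty E₄
  have h1 : IsBoundedAtImInfty (D (⇑E₄ : ℍ → ℂ)) := isBoundedAtImInfty_D E₄.holo' hE4
  have hc : IsBoundedAtImInfty (fun _ : ℍ => ((4 : ℤ) : ℂ) * 12⁻¹) :=
    Filter.const_boundedAtFilter _ _
  have h2 : IsBoundedAtImInfty
      ((fun _ : ℍ => ((4 : ℤ) : ℂ) * 12⁻¹) * E2 * (⇑E₄ : ℍ → ℂ)) :=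
    (hc.mul isBoundedAtImInfty_E2).mul hE4
  have h3 := h1.add h2.neg
  have hfun : serreDerivative ((4 : ℤ) : ℂ) E₄
      = D (⇑E₄ : ℍ → ℂ) + -((fun _ : ℍ => ((4 : ℤ) : ℂ) * 12⁻¹) * E2 * (⇑E₄ : ℍ → ℂ)) := by
    funext z
    simp [serreDerivative_apply, sub_eq_add_neg]
  rw [hfun]
  exact h3

/-- The Serre derivative of `E₄` as a modular form of weight 6 and level one. -/
def serreE4 : ModularForm 𝒮ℒ 6 where
  toFun := serreDerivative ((4 : ℤ) : ℂ) E₄
  slash_action_eq' := fun _ ⟨γ, hγ⟩ => hγ ▸ serreDerivative_E4_slash γ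
  holo' := serreDerivative_mdifferentiable _ E₄.holo'
  bdd_at_cusps' {c} hc := by
    rw [Subgroup.IsArithmetic.isCusp_iff_isCusp_SL2Z] at hc
    rw [OnePoint.isBoundedAt_iff_forall_SL2Z hc]
    intro γ _
    rw [serreDerivative_E4_slash γ]
    exact isBoundedAtImInfty_serreDerivative_E4

theorem serreE4_apply (z : ℍ) : serreE4 z = D (⇑E₄ : ℍ → ℂ) z - 3⁻¹ * E2 z * E₄ z := by
  show serreDerivative ((4 : ℤ) : ℂ) E₄ z = _
  rw [serreDerivative_apply]
  push_cast
  ring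

/-- Ramanujan's identity up to the constant: `∂₄ E₄ = c • E₆`. -/
theorem exists_serreE4_eq : ∃ c : ℂ, ∀ z : ℍ, serreE4 z = c * E₆ z := by
  have hE6 : (E₆ : ModularForm 𝒮ℒ 6) ≠ 0 := E_ne_zero (by norm_num) ⟨3, rfl⟩
  obtain ⟨c, hc⟩ := (finrank_eq_one_iff_of_nonzero' _ hE6).mp
    (Module.rank_eq_one_iff_finrank_eq_one.mp levelOne_weight_six_rank_one) serreE4
  refine ⟨c, fun z => ?_⟩
  rw [← hc]
  rfl

/-- The modular invariant `j = E₄³ / Δ` as a function on the upper half plane. -/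
def jF (z : ℍ) : ℂ := E₄ z ^ 3 / ModularForm.discriminant z

theorem jF_def : jF = fun z : ℍ => E₄ z ^ 3 / ModularForm.discriminant z := rfl

theorem mdifferentiable_discriminant : MDiff ModularForm.discriminant :=
  CuspForm.discriminant.holo'

theorem mdifferentiable_jF : MDiff jF := by
  have h : MDiff ((⇑E₄ : ℍ → ℂ) ^ 3) := E₄.holo'.pow 3
  exact h.div mdifferentiable_discriminant discriminant_ne_zero

theorem jF_mul_discriminant : jF * ModularForm.discriminant = (⇑E₄ : ℍ → ℂ) ^ 3 := by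
  funext z
  simp only [Pi.mul_apply, Pi.pow_apply, jF]
  exact div_mul_cancel₀ _ (discriminant_ne_zero z)

/-- `D j · Δ = 3 E₄² · ∂₄E₄`. -/
theorem D_jF_mul_discriminant (z : ℍ) :
    D jF z * ModularForm.discriminant z = 3 * E₄ z ^ 2 * serreE4 z := by
  have h := congrArg (fun f => D f z) jF_mul_discriminant
  have hE4 : MDiff (⇑E₄ : ℍ → ℂ) := E₄.holo'
  rw [normalizedDerivOfComplex_mul _ _ mdifferentiable_jF mdifferentiable_discriminant,
    normalizedDerivOfComplex_pow _ _ hE4] at h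
  simp only [Pi.add_apply, Pi.mul_apply, Pi.pow_apply, D_discriminant] at h
  rw [serreE4_apply]
  have hj : jF z * ModularForm.discriminant z = E₄ z ^ 3 := by
    have := congrFun jF_mul_discriminant z
    simpa using this
  have h3 : ((3 : ℕ) : ℍ → ℂ) z = 3 := rfl
  simp only [h3] at h
  norm_num at h
  linear_combination h - E2 z * hj

/-! ### Transformation law and the special points `i`, `ρ` -/

theorem levelOne_smul_eq {k : ℤ} (f : ModularForm 𝒮ℒ k) (g : SL(2, ℤ)) (z : ℍ) :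
    f (g • z) = ((g 1 0 : ℂ) * z + (g 1 1 : ℂ)) ^ k * f z := by
  have hg : (Matrix.SpecialLinearGroup.mapGL ℝ g : GL (Fin 2) ℝ) ∈ 𝒮ℒ := ⟨g, rfl⟩
  have := SlashInvariantForm.slash_action_eqn' f hg z
  have h2 : (Matrix.SpecialLinearGroup.mapGL ℝ g : GL (Fin 2) ℝ) • z = g • z := rfl
  rw [h2] at this
  simpa using this

theorem S_smul_I : ModularGroup.S • UpperHalfPlane.I = UpperHalfPlane.I := by
  rw [modular_S_smul]
  ext
  simp

theorem E6_I : E₆ UpperHalfPlane.I = 0 := by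
  have h := levelOne_smul_eq E₆ ModularGroup.S UpperHalfPlane.I
  rw [S_smul_I] at h
  have h10 : (ModularGroup.S 1 0 : ℤ) = 1 := by simp [ModularGroup.S]
  have h11 : (ModularGroup.S 1 1 : ℤ) = 0 := by simp [ModularGroup.S]
  rw [h10, h11] at h
  simp only [Int.cast_one, one_mul, Int.cast_zero, add_zero, coe_I] at h
  have hI6 : (I : ℂ) ^ (6 : ℤ) = -1 := by
    have : (I : ℂ) ^ (6 : ℤ) = I ^ (6 : ℕ) := by norm_cast
    rw [this]
    have : (I : ℂ) ^ 6 = (I ^ 2) ^ 3 := by ring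
    rw [this, I_sq]; norm_num
  rw [hI6] at h
  have : (2 : ℂ) * E₆ UpperHalfPlane.I = 0 := by linear_combination h
  simpa using this

/-- The point `ρ = e^{2πi/3}` of the upper half plane. -/
def rho : ℍ := ⟨-1 / 2 + (Real.sqrt 3 / 2 : ℝ) * I, by simp⟩

theorem coe_rho : (rho : ℂ) = -1 / 2 + (Real.sqrt 3 / 2 : ℝ) * I := rfl

theorem sqrt3_sq : ((Real.sqrt 3 : ℝ) : ℂ) ^ 2 = 3 := by
  have : (Real.sqrt 3) ^ 2 = 3 := Real.sq_sqrt (by norm_num)
  exact_mod_cast this

theorem rho_sq : (rho : ℂ) ^ 2 + (rho : ℂ) + 1 = 0 := by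
  rw [coe_rho]
  push_cast
  have h := sqrt3_sq
  have hI := I_sq
  ring_nf
  rw [hI, h]
  ring

theorem ST_smul_rho : (ModularGroup.S * ModularGroup.T) • rho = rho := by
  ext
  rw [UpperHalfPlane.coe_specialLinearGroup_apply]
  have h := rho_sq
  have hne : (rho : ℂ) + 1 ≠ 0 := by
    intro h0
    have : (rho : ℂ) ^ 2 = 0 := by linear_combination h - h0
    have h2 : (rho : ℂ) = 0 := by simpa using this
    exact rho.ne_zero h2
  simp [ModularGroup.coe_S, ModularGroup.coe_T]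
  field_simp
  linear_combination -h

theorem E4_rho : E₄ rho = 0 := by
  have h := levelOne_smul_eq E₄ (ModularGroup.S * ModularGroup.T) rho
  rw [ST_smul_rho] at h
  have h10 : ((ModularGroup.S * ModularGroup.T : SL(2, ℤ)) 1 0 : ℤ) = 1 := by
    simp [ModularGroup.coe_S, ModularGroup.coe_T]
  have h11 : ((ModularGroup.S * ModularGroup.T : SL(2, ℤ)) 1 1 : ℤ) = 1 := by
    simp [ModularGroup.coe_S, ModularGroup.coe_T]
  rw [h10, h11] at h
  simp only [Int.cast_one, one_mul] at h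
  have hr := rho_sq
  have h4 : ((rho : ℂ) + 1) ^ (4 : ℤ) = (rho : ℂ) ^ 2 := by
    have : ((rho : ℂ) + 1) ^ (4 : ℤ) = ((rho : ℂ) + 1) ^ (4 : ℕ) := by norm_cast
    rw [this]
    linear_combination ((rho : ℂ) ^ 2 + 3 * (rho : ℂ) + 1) * hr
  rw [h4] at h
  have hne : (1 : ℂ) - (rho : ℂ) ^ 2 ≠ 0 := by
    intro h0
    have h2 : (rho : ℂ) = -2 := by linear_combination hr + h0
    have him := congrArg Complex.im h2
    have hpos := rho.im_pos
    simp at him
    linarith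
  have : (1 - (rho : ℂ) ^ 2) * E₄ rho = 0 := by linear_combination h
  exact (mul_eq_zero.mp this).resolve_left hne

/-! ### Values of `j` -/

theorem E4_cube_sub_E6_sq (z : ℍ) :
    E₄ z ^ 3 - E₆ z ^ 2 = 1728 * ModularForm.discriminant z := by
  have := discriminant_eq_E₄_cube_sub_E₆_sq z
  linear_combination (-1728 : ℂ) * this

theorem E6_ne_zero_of_E4_eq_zero {z : ℍ} (h : E₄ z = 0) : E₆ z ≠ 0 := by
  intro h6
  have := E4_cube_sub_E6_sq z
  rw [h, h6] at this
  have hΔ := discriminant_ne_zero z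
  apply hΔ
  have : (1728 : ℂ) * ModularForm.discriminant z = 0 := by rw [← this]; ring
  simpa using this

theorem E4_ne_zero_of_E6_eq_zero {z : ℍ} (h : E₆ z = 0) : E₄ z ≠ 0 :=
  fun h4 => E6_ne_zero_of_E4_eq_zero h4 h

theorem jF_sub_1728 (z : ℍ) : jF z - 1728 = E₆ z ^ 2 / ModularForm.discriminant z := by
  have hΔ := discriminant_ne_zero z
  have := E4_cube_sub_E6_sq z
  rw [jF]
  field_simp
  linear_combination this

theorem jF_eq_zero_iff {z : ℍ} : jF z = 0 ↔ E₄ z = 0 := by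
  have hΔ := discriminant_ne_zero z
  simp [jF, hΔ]

theorem jF_eq_1728_iff {z : ℍ} : jF z = 1728 ↔ E₆ z = 0 := by
  have hΔ := discriminant_ne_zero z
  rw [← sub_eq_zero, jF_sub_1728]
  simp [hΔ]

theorem jF_I : jF UpperHalfPlane.I = 1728 := jF_eq_1728_iff.mpr E6_I

theorem jF_rho : jF rho = 0 := jF_eq_zero_iff.mpr E4_rho

/-! ### The derivative of `j` -/

theorem isPreconnected_upperHalfPlaneSet : IsPreconnected upperHalfPlaneSet :=
  (convex_halfSpace_im_gt 0).isPreconnected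

theorem differentiableOn_jF : DifferentiableOn ℂ (jF ∘ ofComplex) upperHalfPlaneSet :=
  UpperHalfPlane.mdifferentiable_iff.mp mdifferentiable_jF

theorem two_pi_I_ne_zero : (2 * (π : ℂ) * I) ≠ 0 := by
  simp [Real.pi_ne_zero]

theorem deriv_jF (z : ℍ) : deriv (jF ∘ ofComplex) (z : ℂ) = 2 * π * I * D jF z := by
  simp only [normalizedDerivOfComplex]
  field_simp [two_pi_I_ne_zero]

/-- `D j = c · E₄² E₆ / Δ` with `c ≠ 0` (in fact `c = -1`). -/
theorem exists_D_jF : ∃ c : ℂ, c ≠ 0 ∧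
    ∀ z : ℍ, D jF z = c * E₄ z ^ 2 * E₆ z / ModularForm.discriminant z := by
  obtain ⟨c, hc⟩ := exists_serreE4_eq
  have hD : ∀ z : ℍ, D jF z = (3 * c) * E₄ z ^ 2 * E₆ z / ModularForm.discriminant z := by
    intro z
    have hΔ := discriminant_ne_zero z
    have h := D_jF_mul_discriminant z
    rw [hc z] at h
    field_simp
    linear_combination h
  refine ⟨3 * c, ?_, hD⟩
  intro h0
  have hzero : Set.EqOn (deriv (jF ∘ ofComplex)) 0 upperHalfPlaneSet := by
    intro w hw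
    have : w = ((⟨w, hw⟩ : ℍ) : ℂ) := rfl
    rw [this, deriv_jF, hD, h0]
    simp
  have hconst := isOpen_upperHalfPlaneSet.is_const_of_deriv_eq_zero
    isPreconnected_upperHalfPlaneSet differentiableOn_jF hzero
    (x := (UpperHalfPlane.I : ℂ)) (y := (rho : ℂ)) UpperHalfPlane.I.im_pos rho.im_pos
  simp only [Function.comp_apply, ofComplex_apply] at hconst
  rw [jF_I, jF_rho] at hconst
  norm_num at hconst

/-! ### Ramification orders of `j` -/

theorem analyticAt_comp_ofComplex {F : ℍ → ℂ} (hF : MDiff F) (z : ℍ) :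
    AnalyticAt ℂ (F ∘ ofComplex) (z : ℂ) :=
  (UpperHalfPlane.mdifferentiable_iff.mp hF).analyticAt
    (isOpen_upperHalfPlaneSet.mem_nhds z.im_pos)

theorem analyticOnNhd_comp_ofComplex {F : ℍ → ℂ} (hF : MDiff F) :
    AnalyticOnNhd ℂ (F ∘ ofComplex) upperHalfPlaneSet :=
  (UpperHalfPlane.mdifferentiable_iff.mp hF).analyticOnNhd isOpen_upperHalfPlaneSet

/-- A holomorphic function on `ℍ` which is not identically zero has finite order everywhere. -/
theorem analyticOrderAt_ne_top_of_ne_zero {F : ℍ → ℂ} (hF : MDiff F) {w : ℍ} (hw : F w ≠ 0)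
    (z : ℍ) : analyticOrderAt (F ∘ ofComplex) (z : ℂ) ≠ ⊤ := by
  refine (analyticOnNhd_comp_ofComplex hF).analyticOrderAt_ne_top_of_isPreconnected
    isPreconnected_upperHalfPlaneSet w.im_pos z.im_pos ?_
  have h0 : analyticOrderAt (F ∘ ofComplex) (w : ℂ) = 0 := by
    rw [analyticOrderAt_eq_zero]
    right
    simpa using hw
  rw [h0]
  simp

theorem eventuallyEq_deriv_jF (z : ℍ) : ∃ c : ℂ, c ≠ 0 ∧
    deriv (jF ∘ ofComplex) =ᶠ[𝓝 (z : ℂ)]
      (fun _ => c) * ((⇑E₄ ∘ ofComplex) ^ 2 * (⇑E₆ ∘ ofComplex) *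
        (fun w => (ModularForm.discriminant (ofComplex w))⁻¹)) := by
  obtain ⟨c, hc0, hc⟩ := exists_D_jF
  refine ⟨2 * π * I * c, mul_ne_zero two_pi_I_ne_zero hc0, ?_⟩
  filter_upwards [isOpen_upperHalfPlaneSet.mem_nhds z.im_pos] with w hw
  have hof : ofComplex w = ⟨w, hw⟩ := ofComplex_apply_of_im_pos hw
  have h1 : deriv (jF ∘ ofComplex) w = 2 * π * I * D jF ⟨w, hw⟩ := deriv_jF ⟨w, hw⟩
  simp only [Pi.mul_apply, Pi.pow_apply, Function.comp_apply, hof]
  rw [h1, hc]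
  ring

theorem analyticAt_inv_discriminant (z : ℍ) :
    AnalyticAt ℂ (fun w => (ModularForm.discriminant (ofComplex w))⁻¹) (z : ℂ) := by
  have h := analyticAt_comp_ofComplex mdifferentiable_discriminant z
  exact h.inv (by simpa using discriminant_ne_zero z)

theorem analyticOrderAt_inv_discriminant (z : ℍ) :
    analyticOrderAt (fun w => (ModularForm.discriminant (ofComplex w))⁻¹) (z : ℂ) = 0 := by
  rw [analyticOrderAt_eq_zero]
  right
  simpa using discriminant_ne_zero z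

/-- The order of `deriv j` at `z` is `2 ord E₄ + ord E₆`. -/
theorem analyticOrderAt_deriv_jF (z : ℍ) :
    analyticOrderAt (deriv (jF ∘ ofComplex)) (z : ℂ)
      = 2 • analyticOrderAt (⇑E₄ ∘ ofComplex) (z : ℂ) + analyticOrderAt (⇑E₆ ∘ ofComplex) (z : ℂ) := by
  obtain ⟨c, hc0, hc⟩ := eventuallyEq_deriv_jF z
  have hE4 := analyticAt_comp_ofComplex (F := ⇑E₄) E₄.holo' z
  have hE6 := analyticAt_comp_ofComplex (F := ⇑E₆) E₆.holo' z
  have hΔ := analyticAt_inv_discriminant z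
  have hconst : analyticOrderAt (fun _ : ℂ => c) (z : ℂ) = 0 := by
    rw [analyticOrderAt_eq_zero]; right; exact hc0
  rw [analyticOrderAt_congr hc, analyticOrderAt_mul analyticAt_const ((hE4.pow 2).mul hE6 |>.mul hΔ),
    analyticOrderAt_mul ((hE4.pow 2).mul hE6) hΔ, analyticOrderAt_mul (hE4.pow 2) hE6,
    analyticOrderAt_pow hE4, hconst, analyticOrderAt_inv_discriminant]
  simp

theorem jF_comp_ofComplex_apply (z : ℍ) : (jF ∘ ofComplex) (z : ℂ) = jF z := by
  simp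

/-- Away from `j = 0, 1728` the function `j` is unramified. -/
theorem deriv_jF_ne_zero {z : ℍ} (h0 : jF z ≠ 0) (h1 : jF z ≠ 1728) :
    deriv (jF ∘ ofComplex) (z : ℂ) ≠ 0 := by
  obtain ⟨c, hc0, hc⟩ := exists_D_jF
  rw [deriv_jF, hc]
  have h4 : E₄ z ≠ 0 := fun h => h0 (jF_eq_zero_iff.mpr h)
  have h6 : E₆ z ≠ 0 := fun h => h1 (jF_eq_1728_iff.mpr h)
  have hΔ := discriminant_ne_zero z
  have := two_pi_I_ne_zero
  positivity

theorem analyticOrderAt_jF_sub_of_ne {z : ℍ} (h0 : jF z ≠ 0) (h1 : jF z ≠ 1728) :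
    analyticOrderAt (fun w => jF (ofComplex w) - jF z) (z : ℂ) = 1 := by
  have hf := analyticAt_comp_ofComplex mdifferentiable_jF z
  have := hf.analyticOrderAt_sub_eq_one_of_deriv_ne_zero (deriv_jF_ne_zero h0 h1)
  simpa using this

theorem eventuallyEq_jF_sub_1728 (z : ℍ) :
    (fun w => jF (ofComplex w) - 1728) =ᶠ[𝓝 (z : ℂ)]
      (⇑E₆ ∘ ofComplex) ^ 2 * (fun w => (ModularForm.discriminant (ofComplex w))⁻¹) := by
  filter_upwards with w
  simp only [Pi.mul_apply, Pi.pow_apply, Function.comp_apply]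
  rw [jF_sub_1728, div_eq_mul_inv]

theorem eventuallyEq_jF (z : ℍ) :
    (jF ∘ ofComplex) =ᶠ[𝓝 (z : ℂ)]
      (⇑E₄ ∘ ofComplex) ^ 3 * (fun w => (ModularForm.discriminant (ofComplex w))⁻¹) := by
  filter_upwards with w
  simp only [Pi.mul_apply, Pi.pow_apply, Function.comp_apply, jF, div_eq_mul_inv]

/-- At a zero of `E₆` the zero is simple and `j - 1728` vanishes to order exactly 2. -/
theorem analyticOrderAt_of_E6_eq_zero {z : ℍ} (h6 : E₆ z = 0) :
    analyticOrderAt (⇑E₆ ∘ ofComplex) (z : ℂ) = 1 ∧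
      analyticOrderAt (fun w => jF (ofComplex w) - 1728) (z : ℂ) = 2 := by
  have hE4 := analyticAt_comp_ofComplex (F := ⇑E₄) E₄.holo' z
  have hE6 := analyticAt_comp_ofComplex (F := ⇑E₆) E₆.holo' z
  have hΔ := analyticAt_inv_discriminant z
  have hf := analyticAt_comp_ofComplex mdifferentiable_jF z
  have h4 : E₄ z ≠ 0 := E4_ne_zero_of_E6_eq_zero h6
  have ho4 : analyticOrderAt (⇑E₄ ∘ ofComplex) (z : ℂ) = 0 := by
    rw [analyticOrderAt_eq_zero]; right; simpa using h4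
  have hfin : analyticOrderAt (⇑E₆ ∘ ofComplex) (z : ℂ) ≠ ⊤ :=
    analyticOrderAt_ne_top_of_ne_zero (F := ⇑E₆) E₆.holo'
      (E6_ne_zero_of_E4_eq_zero E4_rho) z
  have hord : analyticOrderAt (fun w => jF (ofComplex w) - 1728) (z : ℂ)
      = 2 • analyticOrderAt (⇑E₆ ∘ ofComplex) (z : ℂ) := by
    rw [analyticOrderAt_congr (eventuallyEq_jF_sub_1728 z), analyticOrderAt_mul (hE6.pow 2) hΔ,
      analyticOrderAt_pow hE6, analyticOrderAt_inv_discriminant]
    simp
  have hd := hf.analyticOrderAt_deriv_add_one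
  rw [analyticOrderAt_deriv_jF, ho4] at hd
  have hval : (jF ∘ ofComplex) (z : ℂ) = 1728 := by
    rw [jF_comp_ofComplex_apply]; exact jF_eq_1728_iff.mpr h6
  have hd2 : analyticOrderAt (fun w => (jF ∘ ofComplex) w - (jF ∘ ofComplex) (z : ℂ)) (z : ℂ)
      = analyticOrderAt (fun w => jF (ofComplex w) - 1728) (z : ℂ) := by
    rw [hval]; rfl
  rw [hd2, hord] at hd
  obtain ⟨n, hn⟩ := ENat.ne_top_iff_exists.mp hfin
  rw [← hn] at hd hord ⊢
  have hn' : n + 1 = 2 * n := by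
    have : ((n + 1 : ℕ) : ℕ∞) = ((2 * n : ℕ) : ℕ∞) := by
      push_cast
      simpa using hd
    exact_mod_cast this
  have hn1 : n = 1 := by omega
  subst hn1
  refine ⟨rfl, ?_⟩
  rw [hord]
  rfl

/-- At a zero of `E₄` the zero is simple and `j` vanishes to order exactly 3. -/
theorem analyticOrderAt_of_E4_eq_zero {z : ℍ} (h4 : E₄ z = 0) :
    analyticOrderAt (⇑E₄ ∘ ofComplex) (z : ℂ) = 1 ∧
      analyticOrderAt (jF ∘ ofComplex) (z : ℂ) = 3 := by
  have hE4 := analyticAt_comp_ofComplex (F := ⇑E₄) E₄.holo' z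
  have hE6 := analyticAt_comp_ofComplex (F := ⇑E₆) E₆.holo' z
  have hΔ := analyticAt_inv_discriminant z
  have hf := analyticAt_comp_ofComplex mdifferentiable_jF z
  have h6 : E₆ z ≠ 0 := E6_ne_zero_of_E4_eq_zero h4
  have ho6 : analyticOrderAt (⇑E₆ ∘ ofComplex) (z : ℂ) = 0 := by
    rw [analyticOrderAt_eq_zero]; right; simpa using h6
  have hfin : analyticOrderAt (⇑E₄ ∘ ofComplex) (z : ℂ) ≠ ⊤ :=
    analyticOrderAt_ne_top_of_ne_zero (F := ⇑E₄) E₄.holo'
      (E4_ne_zero_of_E6_eq_zero E6_I) z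
  have hord : analyticOrderAt (jF ∘ ofComplex) (z : ℂ)
      = 3 • analyticOrderAt (⇑E₄ ∘ ofComplex) (z : ℂ) := by
    rw [analyticOrderAt_congr (eventuallyEq_jF z), analyticOrderAt_mul (hE4.pow 3) hΔ,
      analyticOrderAt_pow hE4, analyticOrderAt_inv_discriminant]
    simp
  have hd := hf.analyticOrderAt_deriv_add_one
  rw [analyticOrderAt_deriv_jF, ho6] at hd
  have hval : (jF ∘ ofComplex) (z : ℂ) = 0 := by
    rw [jF_comp_ofComplex_apply]; exact jF_eq_zero_iff.mpr h4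
  have hd2 : analyticOrderAt (fun w => (jF ∘ ofComplex) w - (jF ∘ ofComplex) (z : ℂ)) (z : ℂ)
      = analyticOrderAt (jF ∘ ofComplex) (z : ℂ) := by
    rw [hval]; simp only [sub_zero]
  rw [hd2, hord] at hd
  obtain ⟨n, hn⟩ := ENat.ne_top_iff_exists.mp hfin
  rw [← hn] at hd hord ⊢
  have hn' : 2 * n + 1 = 3 * n := by
    have : ((2 * n + 1 : ℕ) : ℕ∞) = ((3 * n : ℕ) : ℕ∞) := by
      push_cast
      simpa using hd
    exact_mod_cast this
  have hn1 : n = 1 := by omega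
  subst hn1
  refine ⟨rfl, ?_⟩
  rw [hord]
  rfl

end Fermat.Agent.S24.JDeriv
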