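import Fermat.Agent.S24.JAnalytic
import Fermat.Agent.S24.JDeriv

/-!
# MOD-ORD: ramification orders of the analytic `j`-function (final shape)

Everything is proved in `JDeriv.lean` for `JDeriv.jF`; here it is restated for
`JAnalytic.jFun` (the two functions are definitionally equal).
-/

set_option autoImplicit false

open UpperHalfPlane hiding I
open Complex
open scoped MatrixGroups
open ModularForm EisensteinSeries

noncomputable section

namespace Fermat.Agent.S24.JOrders

open Fermat.Agent.S24.JAnalytic Fermat.Agent.S24.JDeriv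

theorem jFun_eq_jF : jFun = jF := rfl

/-- `i` is fixed by `S`. -/
theorem S_smul_I : ModularGroup.S • UpperHalfPlane.I = UpperHalfPlane.I := JDeriv.S_smul_I

/-- `ρ = -1/2 + (√3/2) i` is fixed by `S * T`. -/
theorem ST_smul_rho : (ModularGroup.S * ModularGroup.T) • rho = rho := JDeriv.ST_smul_rho

theorem jFun_I : jFun UpperHalfPlane.I = 1728 := jF_I

theorem jFun_rho : jFun rho = 0 := jF_rho

/-- (a) Over every `c ∉ {0, 1728}` there is an unramified point. -/
theorem exists_unramified (c : ℂ) (h0 : c ≠ 0) (h1 : c ≠ 1728) :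
    ∃ τ₀ : ℍ, jFun τ₀ = c ∧
      analyticOrderAt (fun z => jFun (ofComplex z) - c) (τ₀ : ℂ) = 1 := by
  obtain ⟨τ₀, hτ⟩ := jFun_surjective c
  refine ⟨τ₀, hτ, ?_⟩
  have hj : jF τ₀ = c := hτ
  have := analyticOrderAt_jF_sub_of_ne (z := τ₀) (by rw [hj]; exact h0) (by rw [hj]; exact h1)
  rw [hj] at this
  exact this

/-- (a') At ANY point over `c ∉ {0, 1728}` the function `j` is unramified. -/
theorem analyticOrderAt_jFun_sub_of_ne {τ₀ : ℍ} (h0 : jFun τ₀ ≠ 0) (h1 : jFun τ₀ ≠ 1728) :
    analyticOrderAt (fun z => jFun (ofComplex z) - jFun τ₀) (τ₀ : ℂ) = 1 :=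
  analyticOrderAt_jF_sub_of_ne h0 h1

/-- (b) `j - 1728` vanishes to order exactly 2 at `i`. -/
theorem analyticOrderAt_jFun_sub_1728_I :
    analyticOrderAt (fun z => jFun (ofComplex z) - 1728) ((UpperHalfPlane.I : ℍ) : ℂ) = 2 :=
  (analyticOrderAt_of_E6_eq_zero E6_I).2

/-- (c) `j` vanishes to order exactly 3 at `ρ`. -/
theorem analyticOrderAt_jFun_rho :
    analyticOrderAt (fun z => jFun (ofComplex z)) ((rho : ℍ) : ℂ) = 3 :=
  (analyticOrderAt_of_E4_eq_zero E4_rho).2

end Fermat.Agent.S24.JOrders
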