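/-
S24 / MOD-TOWER (helper84), part 2: the point valuations (`val_fin` of `Mod.AnalyticInput`).
-/
import Fermat.Agent.S24.Tower
import Fermat.Agent.S24.JOrders
import Fermat.Agent.S24.Mod.Interface

set_option autoImplicit false

open UpperHalfPlane Complex Filter Topology
open scoped MatrixGroups Manifold

namespace Fermat.Agent.S24.TowerVal

open Fermat.Agent.S24.HolH Fermat.Agent.S24.Tower

/-- The additive valuation of a meromorphic function at the point `τ₀`. -/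
noncomputable def nuAt (τ₀ : ℍ) (x : Mer) : ℤ := -(WithZero.log (valAt τ₀ x))

theorem valAt_ne_zero (τ₀ : ℍ) {a : Mer} (ha : a ≠ 0) : valAt τ₀ a ≠ 0 :=
  (Valuation.ne_zero_iff _).mpr ha

theorem nuAt_mul (τ₀ : ℍ) {a b : Mer} (ha : a ≠ 0) (hb : b ≠ 0) :
    nuAt τ₀ (a * b) = nuAt τ₀ a + nuAt τ₀ b := by
  unfold nuAt
  rw [map_mul, WithZero.log_mul (valAt_ne_zero τ₀ ha) (valAt_ne_zero τ₀ hb)]
  ring

theorem nuAt_add (τ₀ : ℍ) {a b : Mer} (ha : a ≠ 0) (hb : b ≠ 0) (hab : a + b ≠ 0) :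
    min (nuAt τ₀ a) (nuAt τ₀ b) ≤ nuAt τ₀ (a + b) := by
  unfold nuAt
  have h := Valuation.map_add (valAt τ₀) a b
  rcases le_max_iff.mp h with h1 | h1
  · have := (WithZero.log_le_log (valAt_ne_zero τ₀ hab) (valAt_ne_zero τ₀ ha)).mpr h1
    exact (min_le_left _ _).trans (neg_le_neg this)
  · have := (WithZero.log_le_log (valAt_ne_zero τ₀ hab) (valAt_ne_zero τ₀ hb)).mpr h1
    exact (min_le_right _ _).trans (neg_le_neg this)

theorem nuAt_algebraMap_complex (τ₀ : ℍ) {c : ℂ} (hc : c ≠ 0) :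
    nuAt τ₀ (algebraMap ℂ Mer c) = 0 := by
  unfold nuAt
  rw [valAt_algebraMap_complex τ₀ hc]
  simp

theorem nuAt_algebraMap_Hol (τ₀ : ℍ) {f : Hol} (hf : f ≠ 0) :
    nuAt τ₀ (algebraMap Hol Mer f) = ((ordAt τ₀ f).toNat : ℤ) := by
  unfold nuAt
  rw [valAt_algebraMap, holVal_apply hf, WithZero.log_exp, neg_neg]

theorem nuAt_smul (g : SL(2, ℤ)) (τ₀ : ℍ) (x : Mer) : nuAt (g • τ₀) (g • x) = nuAt τ₀ x := by
  unfold nuAt
  rw [valAt_smul]

theorem isValFunOn_nuAt (A : Subalgebra ℂ Mer) (τ₀ : ℍ) : Mod.IsValFunOn A (nuAt τ₀) where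
  map_mul _ _ _ _ ha hb := nuAt_mul τ₀ ha hb
  map_add _ _ _ _ ha hb hab := nuAt_add τ₀ ha hb hab
  map_const _ hc := nuAt_algebraMap_complex τ₀ hc

/-- `j - z` as a holomorphic function. -/
theorem ordAt_jd_one_sub (τ₀ : ℍ) (z : ℂ) :
    ordAt τ₀ (jd 1 - algebraMap ℂ Hol z) =
      analyticOrderAt (fun w => JAnalytic.jFun (ofComplex w) - z) (τ₀ : ℂ) := by
  unfold ordAt
  congr 1
  funext w
  simp only [Function.comp_apply]
  show (jd 1 : ℍ → ℂ) (ofComplex w) - (algebraMap ℂ Hol z : ℍ → ℂ) (ofComplex w) = _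
  rw [jd_one_apply]
  rfl

theorem Jd_one_sub_eq (z : ℂ) :
    Jd 1 - algebraMap ℂ Mer z = algebraMap Hol Mer (jd 1 - algebraMap ℂ Hol z) := by
  rw [Jd_eq, map_sub, ← IsScalarTower.algebraMap_apply ℂ Hol Mer]

theorem jd_one_sub_ne_zero (z : ℂ) : jd 1 - algebraMap ℂ Hol z ≠ 0 := by
  intro h
  obtain ⟨τ, hτ⟩ := JAnalytic.jFun_surjective (z + 1)
  have := congrArg (fun F : Hol => (F : ℍ → ℂ) τ) h
  have h2 : (jd 1 : ℍ → ℂ) τ - (algebraMap ℂ Hol z : ℍ → ℂ) τ = 0 := this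
  rw [jd_one_apply, hτ] at h2
  have h3 : (algebraMap ℂ Hol z : ℍ → ℂ) τ = z := rfl
  rw [h3] at h2
  simp at h2

theorem nuAt_Jd_one_sub (τ₀ : ℍ) (z : ℂ) :
    nuAt τ₀ (Jd 1 - algebraMap ℂ Mer z) =
      ((analyticOrderAt (fun w => JAnalytic.jFun (ofComplex w) - z) (τ₀ : ℂ)).toNat : ℤ) := by
  rw [Jd_one_sub_eq, nuAt_algebraMap_Hol τ₀ (jd_one_sub_ne_zero z), ordAt_jd_one_sub]

theorem iota_eq_zero_iff (c : Kbar) : iota c = 0 ↔ c = 0 :=
  map_eq_zero_iff iota iota_injective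

theorem iota_eq_1728_iff (c : Kbar) : iota c = 1728 ↔ c = 1728 := by
  constructor
  · intro h
    apply iota_injective
    rw [h, map_ofNat]
  · rintro rfl
    rw [map_ofNat]

/-- **AI-valfin** for the concrete model. -/
theorem val_fin (N : ℕ) (c : Kbar) :
    ∃ ν : Mer → ℤ, Mod.IsValFunOn (Algebra.adjoin ℂ (Mod.conjSet act Jd N)) ν ∧
      0 < ν (Jd 1 - algebraMap ℂ Mer (iota c)) ∧
      ν (Jd 1 - algebraMap ℂ Mer (iota c)) ≤ ellOrder c ∧
      (c = 1728 → ∀ a ∈ Algebra.adjoin ℂ (Mod.conjSet act Jd N), a ≠ 0 →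
        ν (act ModularGroup.S a) = ν a) ∧
      (c = 0 → ∀ a ∈ Algebra.adjoin ℂ (Mod.conjSet act Jd N), a ≠ 0 →
        ν (act (ModularGroup.S * ModularGroup.T) a) = ν a) := by
  classical
  by_cases h0 : c = 0
  · -- the point `ρ`
    subst h0
    refine ⟨nuAt JDeriv.rho, isValFunOn_nuAt _ _, ?_, ?_, ?_, ?_⟩
    · rw [nuAt_Jd_one_sub, map_zero]
      simp only [sub_zero]
      rw [JOrders.analyticOrderAt_jFun_rho]
      norm_num
    · rw [nuAt_Jd_one_sub, map_zero]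
      simp only [sub_zero]
      rw [JOrders.analyticOrderAt_jFun_rho]
      simp [ellOrder]
    · intro h
      exact absurd h (by norm_num)
    · intro _ a _ _
      rw [act_apply]
      conv_lhs => rw [← JOrders.ST_smul_rho]
      exact nuAt_smul _ _ _
  by_cases h1 : c = 1728
  · subst h1
    have hi : iota 1728 = 1728 := map_ofNat iota 1728
    refine ⟨nuAt UpperHalfPlane.I, isValFunOn_nuAt _ _, ?_, ?_, ?_, ?_⟩
    · rw [nuAt_Jd_one_sub, hi, JOrders.analyticOrderAt_jFun_sub_1728_I]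
      norm_num
    · rw [nuAt_Jd_one_sub, hi, JOrders.analyticOrderAt_jFun_sub_1728_I]
      simp [ellOrder]
    · intro _ a _ _
      rw [act_apply]
      conv_lhs => rw [← JOrders.S_smul_I]
      exact nuAt_smul _ _ _
    · intro h
      exact absurd h (by norm_num)
  · obtain ⟨τ₀, _, hτ⟩ := JOrders.exists_unramified (iota c)
      (fun h => h0 ((iota_eq_zero_iff c).mp h)) (fun h => h1 ((iota_eq_1728_iff c).mp h))
    refine ⟨nuAt τ₀, isValFunOn_nuAt _ _, ?_, ?_, fun h => absurd h h1, fun h => absurd h h0⟩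
    · rw [nuAt_Jd_one_sub, hτ]
      norm_num
    · rw [nuAt_Jd_one_sub, hτ]
      simp [ellOrder, h0, h1]

end Fermat.Agent.S24.TowerVal
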