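/-
S24 / MOD-TOWER (helper84), part 4: the concrete instance of `Mod.AnalyticInput N`:
`C := ℂ` (via `Tower.iota`), `M := HolH.Mer`, `act g x = g • x`, `Jd d = (τ ↦ j (d τ))`.
-/
import Fermat.Agent.S24.TowerVal
import Fermat.Agent.S24.TowerCusp
import Fermat.Agent.S24.RelJ

set_option autoImplicit false

open Complex Filter Topology
open UpperHalfPlane hiding I
open scoped MatrixGroups Manifold

namespace Fermat.Agent.S24.TowerInput

open Fermat.Agent.S24.HolH Fermat.Agent.S24.Tower Fermat.Agent.S24.TowerCusp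

/-- pointwise evaluation of a polynomial expression in the `j (d τ)` -/
theorem aeval_jd_apply {N : ℕ} [NeZero N] (P : MvPolynomial (Mod.Dv N) ℂ) (τ : ℍ) :
    ((MvPolynomial.aeval (fun d : Mod.Dv N => jd d.1) P : Hol) : ℍ → ℂ) τ =
      MvPolynomial.eval (fun d : Mod.Dv N => JAnalytic.jFun (dpt d.1 τ)) P := by
  rw [← evalHom_apply, MvPolynomial.comp_aeval_apply]
  rfl

theorem aeval_Jd_eq {N : ℕ} [NeZero N] (P : MvPolynomial (Mod.Dv N) ℂ) :
    MvPolynomial.aeval (fun d : Mod.Dv N => Jd d.1) P =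
      algebraMap Hol Mer (MvPolynomial.aeval (fun d : Mod.Dv N => jd d.1) P) := by
  rw [← ofHol_apply, MvPolynomial.comp_aeval_apply]
  congr 2
  funext d
  rw [ofHol_apply, Jd_eq]

/-- **AI-rel** for the concrete model. -/
theorem rel (N : ℕ) [NeZero N] (P : MvPolynomial (Mod.Dv N) ℂ) :
    letI := iota.toAlgebra
    MvPolynomial.aeval (fun d : Mod.Dv N => Jd d.1) P = 0 ↔
      MvPolynomial.aeval (Mod.xC ℂ N) P = 0 := by
  rw [← RelJ.rel_iff_xC N iota (fun d τ => dpt d.1 τ) (fun d τ => coe_dpt d.1 τ) P, aeval_Jd_eq,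
    map_eq_zero_iff _ algebraMap_Hol_Mer_injective]
  constructor
  · intro h τ
    rw [← aeval_jd_apply, h]
    rfl
  · intro h
    ext τ
    rw [aeval_jd_apply, h τ]
    rfl

/-- The concrete analytic input of package MOD. -/
noncomputable def analyticInput (N : ℕ) [NeZero N] : Mod.AnalyticInput N :=
  letI : Algebra Kbar ℂ := iota.toAlgebra
  { C := ℂ
    M := Mer
    act := act
    act_neg_one := act_neg_one
    Jd := Jd
    act_J := act_J
    act_Jd := fun d hd g hg => act_Jd d hd g hg
    stab_JN := fun g h => stab_JN g h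
    inv_mem := fun b hb hinv => inv_mem N b hb hinv
    rel := fun P => rel N P
    val_fin := fun c => TowerVal.val_fin N c
    val_inf := val_inf N }

theorem nonempty_analyticInput (N : ℕ) [NeZero N] : Nonempty (Mod.AnalyticInput N) :=
  ⟨analyticInput N⟩

end Fermat.Agent.S24.TowerInput
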