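/-
S24 package MOD: existence of the modular tower.
Concrete analytic input: `TowerInput.analyticInput` (helper84 and the MOD team);
glue: `Mod/Glue24.lean`.
-/
import Fermat.Agent.S24.Defs
import Fermat.Agent.S24.Mod.Glue24
import Fermat.Agent.S24.TowerInput

set_option autoImplicit false

namespace Fermat.Agent.S24

theorem exists_modularTower (N : ℕ) [NeZero N] : Nonempty (ModularTower N) :=
  Mod.Glue24.nonempty_modularTower (TowerInput.analyticInput N)

end Fermat.Agent.S24
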