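import Fermat.Agent.S24.ScottRee

/-!
# Package SCOTT of the S24 skeleton (final deliverable)

The theorem `Fermat.Agent.S24.scott_ree` (verbatim skeleton statement) is proved in
`Fermat/Agent/S24/ScottRee.lean`, on top of `Fermat/Agent/S24/Ree.lean`
(Scott's lemma on the permutation module + parity through `Equiv.Perm.sign`).
This file only re-exports it under the agreed package file name.
-/

set_option autoImplicit false

namespace Fermat.Agent.S24

/-- Re-export check: the skeleton statement of package SCOTT. -/
example {G X : Type*} [Group G] [MulAction G X] [Finite X] [Nonempty X]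
    [MulAction.IsPretransitive G X] (a b c : G) (habc : a * b * c = 1)
    (hgen : Subgroup.closure {a, b, c} = ⊤) :
    2 * (Nat.card X : ℤ) - 2 ≤
        ((Nat.card X : ℤ) - numOrbits X a) + ((Nat.card X : ℤ) - numOrbits X b) +
          ((Nat.card X : ℤ) - numOrbits X c) ∧
      Even (((Nat.card X : ℤ) - numOrbits X a) + ((Nat.card X : ℤ) - numOrbits X b) +
          ((Nat.card X : ℤ) - numOrbits X c)) :=
  scott_ree a b c habc hgen

end Fermat.Agent.S24
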