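/-
S24: collects the package files (all Skeleton statements are proved there).
-/
import Fermat.Agent.S24.Defs
import Fermat.Agent.S24.Pkg_COMB_card
import Fermat.Agent.S24.Pkg_COMB_ell
import Fermat.Agent.S24.Pkg_COMB_cusp
import Fermat.Agent.S24.Pkg_SCOTT
import Fermat.Agent.S24.Pkg_FF1a
import Fermat.Agent.S24.Pkg_FF1b
import Fermat.Agent.S24.Pkg_FF2
import Fermat.Agent.S24.Pkg_FF3_86
import Fermat.Agent.S24.Pkg_GALa
import Fermat.Agent.S24.Pkg_FF0
import Fermat.Agent.S24.Pkg_GALb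
import Fermat.Agent.S24.Pkg_GALc
import Fermat.Agent.S24.Pkg_MOD

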