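/-
S24 assembly, part 1: Riemann–Hurwitz from the FF packages.
(Imports the landed package files through Packages.lean.)
-/
import Fermat.Agent.S24.Packages

set_option autoImplicit false

open AlgebraicCurve KaehlerDifferential IntermediateField

namespace Fermat.Agent.S24


section RH

variable {K F : Type*} [Field K] [Field F] [Algebra K F] [IsAlgClosed K] [CharZero K]
variable {x : F} (hF : IsFunctionFieldOver K x)
include hF

theorem degree_eq_finsum (D : Divisor K F) : Divisor.degree D = ∑ᶠ v, D v := by
  have h1 : Divisor.degree D = D.sum fun v n => n * (v.deg : ℤ) := by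
    simp [Divisor.degree, Finsupp.liftAddHom_apply]
  rw [h1, Finsupp.sum]
  rw [finsum_eq_sum_of_support_subset (s := D.support)]
  · refine Finset.sum_congr rfl fun v _ => ?_
    rw [place_deg_eq_one hF v]; simp
  · intro v hv
    simpa [Function.mem_support, Finsupp.mem_support_iff] using hv

theorem placesOver_disjoint {c c' : K} (hcc : c ≠ c') (v : Place K F) (hv : v ∈ placesOver x c) :
    v ∉ placesOver x c' := by
  intro hv'
  simp only [placesOver, Set.mem_setOf_eq] at hv hv'
  have hxc : x - algebraMap K F c ≠ 0 := fun h => by simp [h] at hv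
  have hxc' : x - algebraMap K F c' ≠ 0 := fun h => by simp [h] at hv'
  have hne : (c' - c) ≠ 0 := sub_ne_zero.mpr (Ne.symm hcc)
  have key : (x - algebraMap K F c) + -(x - algebraMap K F c') = algebraMap K F (c' - c) := by
    rw [map_sub]; ring
  have hne' : (x - algebraMap K F c) + -(x - algebraMap K F c') ≠ 0 := by
    rw [key]; exact (map_ne_zero_iff _ (algebraMap K F).injective).mpr hne
  have h := ord_add_ge v hxc (neg_ne_zero.mpr hxc') hne'
  rw [key, ord_algebraMap v hne, ord_neg] at h
  have := lt_min hv hv'
  omega

theorem placesOver_disjoint_infty {c : K} (v : Place K F) (hv : v ∈ placesOver x c) :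
    v ∉ placesOverInfty K x := by
  intro hv'
  simp only [placesOver, placesOverInfty, Set.mem_setOf_eq] at hv hv'
  have hxc : x - algebraMap K F c ≠ 0 := fun h => by simp [h] at hv
  have hx0 : x ≠ 0 := fun h => by simp [h] at hv'
  by_cases hc : c = 0
  · subst hc; simp only [map_zero, sub_zero] at hv; omega
  have hc' : algebraMap K F c ≠ 0 := (map_ne_zero_iff _ (algebraMap K F).injective).mpr hc
  have key : (x - algebraMap K F c) + algebraMap K F c = x := by ring
  have h := ord_add_ge v hxc hc' (by rw [key]; exact hx0)
  rw [key, ord_algebraMap v hc] at h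
  have : 0 ≤ min (v.ord (x - algebraMap K F c)) 0 := by
    rw [min_eq_right hv.le]
  omega


/-- if the number of places over `c` is `n`, all ramification indices over `c` are one -/
theorem ord_eq_one_of_ncard_eq {c : K} (hc : (placesOver x c).ncard = degOver K x)
    (v : Place K F) (hv : v ∈ placesOver x c) : v.ord (x - algebraMap K F c) = 1 := by
  classical
  have hfin := finite_placesOver hF c
  have hsum := sum_ord_placesOver hF c
  rw [finsum_mem_eq_finite_toFinset_sum _ hfin] at hsum
  have hcard : (hfin.toFinset.card : ℤ) = degOver K x := by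
    rw [← Set.ncard_eq_toFinset_card _ hfin, hc]
  have hpos : ∀ w ∈ hfin.toFinset, (1 : ℤ) ≤ w.ord (x - algebraMap K F c) := by
    intro w hw
    have : w ∈ placesOver x c := by simpa using hw
    exact this
  by_contra hne
  have hv' : v ∈ hfin.toFinset := by simpa using hv
  have hlt : (1 : ℤ) < v.ord (x - algebraMap K F c) := lt_of_le_of_ne (hpos v hv') (Ne.symm hne)
  have : ∑ w ∈ hfin.toFinset, (1 : ℤ) < ∑ w ∈ hfin.toFinset, w.ord (x - algebraMap K F c) :=
    Finset.sum_lt_sum hpos ⟨v, hv', hlt⟩
  simp only [Finset.sum_const, nsmul_eq_mul, mul_one] at this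
  omega

theorem sum_placesOver_sub_one (c : K) :
    ∑ᶠ v ∈ placesOver x c, (v.ord (x - algebraMap K F c) - 1) =
      (degOver K x : ℤ) - (placesOver x c).ncard := by
  classical
  have hfin := finite_placesOver hF c
  have hsum := sum_ord_placesOver hF c
  rw [finsum_mem_eq_finite_toFinset_sum _ hfin] at hsum ⊢
  rw [Finset.sum_sub_distrib, hsum, Set.ncard_eq_toFinset_card _ hfin]
  simp

theorem sum_placesOverInfty_sub_one :
    ∑ᶠ v ∈ placesOverInfty K x, (v.ord x - 1) =
      - (degOver K x : ℤ) - (placesOverInfty K x).ncard := by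
  classical
  have hfin := finite_placesOverInfty hF
  have hsum := sum_ord_placesOverInfty hF
  rw [finsum_mem_eq_finite_toFinset_sum _ hfin] at hsum ⊢
  rw [Finset.sum_sub_distrib, Set.ncard_eq_toFinset_card _ hfin]
  rw [Finset.sum_neg_distrib] at hsum
  simp only [Finset.sum_const, nsmul_eq_mul, mul_one]
  omega

theorem degree_canonical [HasCanonicalDivisor (K := K) (F := F)]
    (ω : Ω[F⁄K]) (hω : ω ≠ 0) (Dω : Divisor K F) (hD : ∀ v, Dω v = v.ordDifferential ω)
    (S : Finset K) (hS : ∀ c ∉ S, (placesOver x c).ncard = degOver K x) :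
    Divisor.degree Dω = ∑ c ∈ S, ((degOver K x : ℤ) - (placesOver x c).ncard)
      - degOver K x - (placesOverInfty K x).ncard := by
  classical
  have : Nontrivial Ω[F⁄K] := ⟨⟨D K F x, 0, D_ne_zero hF⟩⟩
  have hgen : ∀ v : Place K F, v.DCoordGenerates := dCoordGenerates hF
  -- ω = f • dx
  obtain ⟨f, hf⟩ : ∃ f : F, f • D K F x = ω := by
    have hmem : ω ∈ Submodule.span F {D K F x} := by rw [span_D_eq_top hF]; trivial
    exact Submodule.mem_span_singleton.mp hmem
  have hf0 : f ≠ 0 := by rintro rfl; exact hω (by rw [← hf, zero_smul])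
  obtain ⟨D0, hD0⟩ := HasCanonicalDivisor.exists_divisor (D K F x) (D_ne_zero hF)
  have hcoef : ∀ v : Place K F, v.differentialCoeff (D K F x) ≠ 0 := by
    intro v h0
    have h := v.differentialCoeff_smul_dCoord (D K F x)
    rw [h0, zero_smul] at h
    exact D_ne_zero hF h.symm
  have hsplit : ∀ v : Place K F, Dω v = v.ord f + D0 v := by
    intro v
    rw [hD v, hD0 v, ← hf, Place.ordDifferential_smul v hf0 (hcoef v)]
  -- degree of Dω equals degree of D0
  have hdeg : Divisor.degree Dω = ∑ᶠ v, D0 v := by
    rw [degree_eq_finsum hF]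
    have h1 : (fun v => Dω v) = fun v => v.ord f + D0 v := funext hsplit
    rw [h1, finsum_add_distrib, finsum_ord_eq_zero hF hf0, zero_add]
    · exact (finite_support_ord hF hf0).subset (fun v hv => by simpa using hv)
    · exact D0.hasFiniteSupport.subset (fun v hv => by simpa [Function.mem_support] using hv)
  rw [hdeg]
  -- the finite set of relevant places
  set P : K → Finset (Place K F) := fun c => (finite_placesOver hF c).toFinset with hP
  set Pinf : Finset (Place K F) := (finite_placesOverInfty hF).toFinset with hPinf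
  have hzero : ∀ v, v ∉ (S.biUnion P ∪ Pinf : Finset (Place K F)) → D0 v = 0 := by
    intro v hv
    rcases exists_center hF v with h | ⟨c, hc⟩
    · exact absurd (Finset.mem_union_right _ (by simpa [hPinf] using h)) hv
    · have hcS : c ∉ S := by
        intro hcS
        refine hv (Finset.mem_union_left _ (Finset.mem_biUnion.mpr ⟨c, hcS, ?_⟩))
        simpa [hP] using hc
      rw [hD0 v, ordDifferential_D_of_pos hF v c hc, ord_eq_one_of_ncard_eq hF (hS c hcS) v hc]
      simp
  have hsupp : Function.support (fun v => D0 v) ⊆ ↑(S.biUnion P ∪ Pinf : Finset (Place K F)) := by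
    intro v hv
    by_contra h
    exact hv (hzero v h)
  rw [finsum_eq_sum_of_support_subset _ hsupp]
  have hdisj1 : Disjoint (S.biUnion P) Pinf := by
    rw [Finset.disjoint_left]
    intro v hv hv'
    obtain ⟨c, _, hc⟩ := Finset.mem_biUnion.mp hv
    have hc' : v ∈ placesOver x c := by simpa [hP] using hc
    have hinf : v ∈ placesOverInfty K x := by simpa [hPinf] using hv'
    exact placesOver_disjoint_infty hF v hc' hinf
  have hdisj2 : (S : Set K).PairwiseDisjoint P := by
    intro c _ c' _ hcc
    rw [Function.onFun, Finset.disjoint_left]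
    intro v hv hv'
    have h1 : v ∈ placesOver x c := by simpa [hP] using hv
    have h2 : v ∈ placesOver x c' := by simpa [hP] using hv'
    exact placesOver_disjoint hF hcc v h1 h2
  rw [Finset.sum_union hdisj1, Finset.sum_biUnion hdisj2]
  have hin : ∀ c ∈ S, ∑ v ∈ P c, D0 v = (degOver K x : ℤ) - (placesOver x c).ncard := by
    intro c _
    rw [← sum_placesOver_sub_one hF c, finsum_mem_eq_finite_toFinset_sum _ (finite_placesOver hF c)]
    refine Finset.sum_congr rfl fun v hv => ?_
    have hv' : v ∈ placesOver x c := by simpa [hP] using hv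
    rw [hD0 v, ordDifferential_D_of_pos hF v c hv']
  have hinf : ∑ v ∈ Pinf, D0 v = - (degOver K x : ℤ) - (placesOverInfty K x).ncard := by
    rw [← sum_placesOverInfty_sub_one hF,
      finsum_mem_eq_finite_toFinset_sum _ (finite_placesOverInfty hF)]
    refine Finset.sum_congr rfl fun v hv => ?_
    have hv' : v ∈ placesOverInfty K x := by simpa [hPinf] using hv
    rw [hD0 v, ordDifferential_D_of_neg hF v hv']
  rw [Finset.sum_congr rfl hin, hinf]
  ring


end RH

end Fermat.Agent.S24
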