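import Mathlib
import Fermat.Prelude.Def_ModularCurve_LaurentCoeff

/-!
# S24 / MOD, step F3: descent of algebraic relations between formal series from `C` to `K`

`K ⊆ C` fields.  A non-trivial polynomial relation with coefficients in `C` between (the images in
`C((q))` of) series with coefficients in `K` gives a non-trivial relation with coefficients in `K`.

* `exists_rational_relation` : the linear-algebra core (apply a `K`-linear functional `C → K`).
* `exists_mvPolynomial_descent` : `MvPolynomial` form.
* `exists_bivariate_descent` : bivariate form `K[X][X]`, in the shape used by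
  `FixedField.exists_bivariate_of_isAlgebraic` / `FixedField.isAlgebraic_of_bivariate`.
-/

set_option autoImplicit false

open ModularCurve Polynomial

namespace Fermat.Agent.S24.Br46

section Descent

variable {K C : Type*} [Field K] [Field C] [Algebra K C]

/-- **(D1)** A non-trivial `C`-linear relation between finitely many `K`-valued functions gives a
non-trivial `K`-linear relation. -/
theorem exists_rational_relation {ι X : Type*} (s : Finset ι) (e : ι → X → K) (a : ι → C)
    (ha : ∃ i ∈ s, a i ≠ 0) (h : ∀ x, ∑ i ∈ s, a i * algebraMap K C (e i x) = 0) :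
    ∃ r : ι → K, (∃ i ∈ s, r i ≠ 0) ∧ ∀ x, ∑ i ∈ s, r i * e i x = 0 := by
  obtain ⟨i0, hi0, hai0⟩ := ha
  obtain ⟨φ, hφ⟩ : ∃ φ : Module.Dual K C, φ (a i0) ≠ 0 := by
    by_contra hcon
    exact hai0 ((Module.forall_dual_apply_eq_zero_iff K (a i0)).mp fun φ =>
      by_contra fun hne => hcon ⟨φ, hne⟩)
  refine ⟨fun i => φ (a i), ⟨i0, hi0, hφ⟩, fun x => ?_⟩
  have h1 := congrArg φ (h x)
  rw [map_sum, map_zero] at h1
  rw [← h1]
  refine Finset.sum_congr rfl fun i _ => ?_
  rw [mul_comm (a i), ← Algebra.smul_def, map_smul, smul_eq_mul, mul_comm]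

lemma coeff_algebraMap_mul_coeffMap (c : C) (z : LaurentSeries K) (n : ℤ) :
    (algebraMap C (LaurentSeries C) c * coeffMap (algebraMap K C) z).coeff n
      = c * algebraMap K C (z.coeff n) := by
  rw [algebraMap_laurentSeries_eq_single, HahnSeries.coeff_single_zero_mul, coeffMap_coeff]

lemma coeff_algebraMap_mul' (c : K) (z : LaurentSeries K) (n : ℤ) :
    (algebraMap K (LaurentSeries K) c * z).coeff n = c * z.coeff n := by
  rw [algebraMap_laurentSeries_eq_single, HahnSeries.coeff_single_zero_mul]

/-- **(D2)** `MvPolynomial` form of the descent. -/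
theorem exists_mvPolynomial_descent {σ : Type*} (x : σ → LaurentSeries K)
    (P : MvPolynomial σ C) (hP : P ≠ 0)
    (h : MvPolynomial.aeval (fun i => coeffMap (algebraMap K C) (x i)) P = 0) :
    ∃ P0 : MvPolynomial σ K, P0 ≠ 0 ∧ P0.support ⊆ P.support ∧ MvPolynomial.aeval x P0 = 0 := by
  classical
  set mon : (σ →₀ ℕ) → LaurentSeries K := fun m => m.prod fun i k => x i ^ k with hmon
  have hmonC : ∀ m : σ →₀ ℕ, (m.prod fun i k => coeffMap (algebraMap K C) (x i) ^ k)
      = coeffMap (algebraMap K C) (mon m) := by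
    intro m
    rw [hmon]
    simp only [Finsupp.prod, map_prod, map_pow]
  have h' := h
  rw [MvPolynomial.as_sum P, map_sum] at h'
  simp only [MvPolynomial.aeval_monomial, hmonC] at h'
  have hrel : ∀ n : ℤ, ∑ m ∈ P.support,
      MvPolynomial.coeff m P * algebraMap K C ((mon m).coeff n) = 0 := by
    intro n
    have h2 := congrArg (fun z : LaurentSeries C => z.coeff n) h'
    simp only [HahnSeries.coeff_sum, coeff_algebraMap_mul_coeffMap, HahnSeries.coeff_zero] at h2
    exact h2
  have hne : ∃ m ∈ P.support, MvPolynomial.coeff m P ≠ 0 := by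
    obtain ⟨m0, hm0⟩ := MvPolynomial.support_nonempty.mpr hP
    exact ⟨m0, hm0, MvPolynomial.mem_support_iff.mp hm0⟩
  obtain ⟨r, ⟨m1, hm1, hr1⟩, hr⟩ := exists_rational_relation P.support
    (fun m n => (mon m).coeff n) (fun m => MvPolynomial.coeff m P) hne hrel
  set P0 : MvPolynomial σ K := ∑ m ∈ P.support, MvPolynomial.monomial m (r m) with hP0
  have hcoeff : ∀ m, MvPolynomial.coeff m P0 = if m ∈ P.support then r m else 0 := by
    intro m
    rw [hP0, MvPolynomial.coeff_sum]
    simp only [MvPolynomial.coeff_monomial]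
    rw [Finset.sum_ite_eq' P.support m]
  refine ⟨P0, ?_, ?_, ?_⟩
  · intro h0
    have := hcoeff m1
    rw [h0, MvPolynomial.coeff_zero, if_pos hm1] at this
    exact hr1 this.symm
  · intro m hm
    by_contra hmP
    have := hcoeff m
    rw [if_neg hmP] at this
    exact (MvPolynomial.mem_support_iff.mp hm) this
  · rw [hP0, map_sum]
    simp only [MvPolynomial.aeval_monomial]
    ext n
    rw [HahnSeries.coeff_sum, HahnSeries.coeff_zero]
    simp only [coeff_algebraMap_mul']
    exact hr n

/-- **(D3)** bivariate form of the descent, in the shapes of `FixedField.lean`. -/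
theorem exists_bivariate_descent (x y : LaurentSeries K) (A : C[X][X]) (hA : A ≠ 0)
    (h : (A.map ((aeval (coeffMap (algebraMap K C) x) : C[X] →ₐ[C] LaurentSeries C) :
        C[X] →+* LaurentSeries C)).eval (coeffMap (algebraMap K C) y) = 0) :
    ∃ A0 : K[X][X], A0 ≠ 0 ∧
      (A0.map ((aeval x : K[X] →ₐ[K] LaurentSeries K) : K[X] →+* LaurentSeries K)).eval y
        = 0 := by
  classical
  set n2 : ℕ := A.natDegree + 1 with hn2
  set n1 : ℕ := (A.support.sup fun j => (A.coeff j).natDegree) + 1 with hn1
  have hdeg : ∀ j, (A.coeff j).natDegree < n1 := by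
    intro j
    by_cases hj : j ∈ A.support
    · exact Nat.lt_succ_of_le (Finset.le_sup (f := fun j => (A.coeff j).natDegree) hj)
    · rw [Polynomial.notMem_support_iff.mp hj, natDegree_zero]
      exact Nat.succ_pos _
  set s : Finset (ℕ × ℕ) := Finset.range n1 ×ˢ Finset.range n2 with hs
  have hrel : ∀ n : ℤ, ∑ p ∈ s,
      (A.coeff p.2).coeff p.1 * algebraMap K C ((x ^ p.1 * y ^ p.2).coeff n) = 0 := by
    intro n
    have h2 := congrArg (fun z : LaurentSeries C => z.coeff n) h
    simp only [HahnSeries.coeff_zero] at h2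
    rw [← h2, eval_map, eval₂_eq_sum_range' _ (Nat.lt_succ_self A.natDegree), hs,
      Finset.sum_product_right, HahnSeries.coeff_sum]
    refine Finset.sum_congr rfl fun j _ => ?_
    rw [RingHom.coe_coe, aeval_eq_sum_range' (hdeg j), Finset.sum_mul, HahnSeries.coeff_sum]
    refine Finset.sum_congr rfl fun i _ => ?_
    rw [Algebra.smul_def, mul_assoc, ← map_pow, ← map_pow, ← map_mul,
      coeff_algebraMap_mul_coeffMap]
  have hne : ∃ p ∈ s, (A.coeff p.2).coeff p.1 ≠ 0 := by
    have hj : A.coeff A.natDegree ≠ 0 := by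
      rwa [coeff_natDegree, Ne, leadingCoeff_eq_zero]
    refine ⟨((A.coeff A.natDegree).natDegree, A.natDegree), ?_, ?_⟩
    · rw [hs, Finset.mem_product, Finset.mem_range, Finset.mem_range]
      exact ⟨hdeg _, Nat.lt_succ_self _⟩
    · show (A.coeff A.natDegree).coeff (A.coeff A.natDegree).natDegree ≠ 0
      rwa [coeff_natDegree, Ne, leadingCoeff_eq_zero]
  obtain ⟨r, ⟨p1, hp1, hr1⟩, hr⟩ := exists_rational_relation s
    (fun p n => (x ^ p.1 * y ^ p.2).coeff n) (fun p => (A.coeff p.2).coeff p.1) hne hrel
  set A0 : K[X][X] := ∑ p ∈ s, monomial p.2 (monomial p.1 (r p)) with hA0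
  refine ⟨A0, ?_, ?_⟩
  · intro h0
    have h3 : (A0.coeff p1.2).coeff p1.1 = r p1 := by
      rw [hA0, finsetSum_coeff, finsetSum_coeff]
      rw [Finset.sum_eq_single p1]
      · rw [coeff_monomial, if_pos rfl, coeff_monomial, if_pos rfl]
      · intro p _ hpne
        rw [coeff_monomial]
        split_ifs with h4
        · rw [coeff_monomial, if_neg]
          intro h5
          exact hpne (Prod.ext h5 h4)
        · rw [coeff_zero]
      · intro hp
        exact absurd hp1 hp
    rw [h0, coeff_zero, coeff_zero] at h3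
    exact hr1 h3.symm
  · rw [hA0, Polynomial.map_sum, eval_finsetSum]
    ext n
    rw [HahnSeries.coeff_sum, HahnSeries.coeff_zero, ← hr n]
    refine Finset.sum_congr rfl fun p _ => ?_
    rw [map_monomial, eval_monomial, RingHom.coe_coe, aeval_monomial, mul_assoc,
      coeff_algebraMap_mul']

end Descent

end Fermat.Agent.S24.Br46
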