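import Mathlib
import Fermat.Prelude.Def_ModularCurve_X0ModL
import Fermat.Agent.S24.Mod.Interface
import Fermat.Agent.S24.Mod.Aux16
import Fermat.Agent.S24.FixedField
import Fermat.Agent.S24.Br46Rel
import Fermat.Agent.S24.Br46Descent

/-!
# S24 / MOD, step F3: `j(dτ)` is algebraic over `Q̄(j)`; the `fixed` field of the tower

For an abstract `A : Mod.AnalyticInput N`:

* `transcendental_Jd_one A : Transcendental A.C (A.Jd 1)`;
* `isAlgebraic_Jd A hd : IsAlgebraic Q̄(Jd 1) (Jd d)` for `d ∣ N`;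
* `isAlgebraic_conjSet A`: the same for all conjugates;
* `fixed_mem_adjoin A`: invariant elements of `Q̄(conjSet)` lie in `Q̄(Jd 1)` (ambient form of
  `ModularTower.fixed`).
-/

set_option autoImplicit false

open ModularCurve Polynomial IntermediateField Fermat.Agent.S24
open scoped MatrixGroups

namespace Fermat.Agent.S24.Br46

section Generic

/-- Transport of a bivariate relation along an algebra homomorphism. -/
lemma map_bivariate_eval {k R S : Type*} [CommRing k] [CommRing R] [CommRing S] [Algebra k R]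
    [Algebra k S] (f : R →ₐ[k] S) (B : k[X][X]) (t y : R) :
    f ((B.map ((aeval t : k[X] →ₐ[k] R) : k[X] →+* R)).eval y)
      = (B.map ((aeval (f t) : k[X] →ₐ[k] S) : k[X] →+* S)).eval (f y) := by
  rw [eval_map, eval_map]
  have h := Polynomial.hom_eval₂ B ((aeval t : k[X] →ₐ[k] R) : k[X] →+* R) (f : R →+* S) y
  have hcomp : (f : R →+* S).comp ((aeval t : k[X] →ₐ[k] R) : k[X] →+* R)
      = ((aeval (f t) : k[X] →ₐ[k] S) : k[X] →+* S) := by
    refine Polynomial.ringHom_ext (fun a => ?_) ?_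
    · simp
    · simp
  rw [hcomp] at h
  exact h

variable {C M : Type*} [Field C] [Field M] [Algebra C M]
variable {Γ : Type*} [Group Γ] (act : Γ →* (M ≃ₐ[C] M))

/-- **Orbit polynomial**: if `S` is a finite stable set and invariants of `C[S]` lie in `C[t]`,
then every `s ∈ S` is a root of a non-zero polynomial with coefficients in `C[t]`. -/
theorem exists_bivariate_of_orbit {S : Set M} (hSfin : S.Finite)
    (hSstab : ∀ g : Γ, ∀ s ∈ S, act g s ∈ S) {t : M}
    (hfix : ∀ b ∈ Algebra.adjoin C S, (∀ g : Γ, act g b = b) → b ∈ Algebra.adjoin C {t})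
    {s : M} (hs : s ∈ S) :
    ∃ B : C[X][X], B ≠ 0 ∧
      (B.map ((aeval t : C[X] →ₐ[C] M) : C[X] →+* M)).eval s = 0 := by
  classical
  have hfin : (Set.range fun g : Γ => act g s).Finite :=
    hSfin.subset (by rintro _ ⟨g, rfl⟩; exact hSstab g s hs)
  set O : Finset M := hfin.toFinset with hO
  have hmemO : ∀ x, x ∈ O ↔ ∃ g : Γ, act g s = x := fun x => by
    rw [hO, Set.Finite.mem_toFinset, Set.mem_range]
  have hsO : s ∈ O := (hmemO s).mpr ⟨1, by rw [map_one]; rfl⟩
  have hOS : ∀ x ∈ O, x ∈ S := fun x hx => by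
    obtain ⟨g, rfl⟩ := (hmemO x).mp hx
    exact hSstab g s hs
  set F : M[X] := ∏ x ∈ O, (X - Polynomial.C x) with hF
  have hFmonic : F.Monic := monic_prod_of_monic _ _ fun x _ => monic_X_sub_C x
  have hFs : F.eval s = 0 := by
    rw [hF, eval_prod]
    exact Finset.prod_eq_zero hsO (by simp)
  -- invariance
  have hFmap : ∀ g : Γ, F.map ((act g : M ≃ₐ[C] M) : M →+* M) = F := by
    intro g
    have himg : O.image (act g) = O := by
      ext x
      rw [Finset.mem_image]
      constructor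
      · rintro ⟨x', hx', rfl⟩
        obtain ⟨h, rfl⟩ := (hmemO x').mp hx'
        exact (hmemO _).mpr ⟨g * h, by rw [map_mul]; rfl⟩
      · intro hx
        obtain ⟨h, rfl⟩ := (hmemO x).mp hx
        refine ⟨act (g⁻¹ * h) s, (hmemO _).mpr ⟨_, rfl⟩, ?_⟩
        rw [map_mul, map_inv]
        exact (act g).apply_symm_apply _
    rw [hF, Polynomial.map_prod]
    conv_rhs => rw [← himg]
    rw [Finset.prod_image fun x _ x' _ h => (act g).injective h]
    refine Finset.prod_congr rfl fun x _ => ?_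
    rw [Polynomial.map_sub, map_X, map_C]
    rfl
  have hcoeff_fix : ∀ n (g : Γ), act g (F.coeff n) = F.coeff n := by
    intro n g
    have h1 := congrArg (fun p : M[X] => p.coeff n) (hFmap g)
    simp only [coeff_map] at h1
    exact h1
  -- coefficients lie in `C[S]`
  have hcoeff_mem : ∀ n, F.coeff n ∈ Algebra.adjoin C S := by
    have hFl : F ∈ Polynomial.lifts (algebraMap (Algebra.adjoin C S) M) := by
      rw [lifts_iff_liftsRing, hF]
      refine Subring.prod_mem _ fun x hx => Subring.sub_mem _ ?_ ?_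
      · rw [← lifts_iff_liftsRing]; exact X_mem_lifts _
      · rw [← lifts_iff_liftsRing]
        exact C_mem_lifts (algebraMap (Algebra.adjoin C S) M)
          ⟨x, Algebra.subset_adjoin (hOS x hx)⟩
    intro n
    obtain ⟨b, hb⟩ := (lifts_iff_coeff_lifts F).mp hFl n
    rw [← hb]
    exact b.2
  -- hence in `C[t]`
  have hFl2 : F ∈ Polynomial.lifts ((aeval t : C[X] →ₐ[C] M) : C[X] →+* M) := by
    rw [lifts_iff_coeff_lifts]
    intro n
    have h1 := hfix _ (hcoeff_mem n) (hcoeff_fix n)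
    rw [Algebra.adjoin_singleton_eq_range_aeval] at h1
    obtain ⟨p, hp⟩ := h1
    exact ⟨p, hp⟩
  obtain ⟨B, hB⟩ := (mem_lifts F).mp hFl2
  refine ⟨B, ?_, ?_⟩
  · rintro rfl
    rw [Polynomial.map_zero] at hB
    exact hFmonic.ne_zero hB.symm
  · rw [hB]; exact hFs

end Generic

section Pole

/-- A Laurent series with a simple pole whose powers have leading coefficient `1` is
transcendental over the coefficient field. -/
theorem transcendental_of_simple_pole {k : Type*} [Field k] (t : LaurentSeries k)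
    (h1 : ∀ n : ℕ, (t ^ n).coeff (-(n : ℤ)) = 1)
    (h2 : ∀ (n : ℕ) (m : ℤ), m < -(n : ℤ) → (t ^ n).coeff m = 0) : Transcendental k t := by
  rw [transcendental_iff]
  intro p hp
  by_contra hp0
  have hlead : p.coeff p.natDegree ≠ 0 := by
    rwa [Polynomial.coeff_natDegree, Ne, Polynomial.leadingCoeff_eq_zero]
  have h3 := congrArg (fun f : LaurentSeries k => f.coeff (-(p.natDegree : ℤ))) hp
  simp only [HahnSeries.coeff_zero] at h3
  rw [Polynomial.aeval_eq_sum_range, HahnSeries.coeff_sum] at h3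
  rw [Finset.sum_eq_single_of_mem p.natDegree (Finset.self_mem_range_succ _)] at h3
  · rw [Algebra.smul_def, coeff_algebraMap_mul', h1, mul_one] at h3
    exact hlead h3
  · intro i hi hne
    have hlt : i < p.natDegree :=
      lt_of_le_of_ne (Nat.lt_succ_iff.1 (Finset.mem_range.1 hi)) hne
    rw [Algebra.smul_def, coeff_algebraMap_mul', h2 i _ (by omega), mul_zero]

theorem transcendental_jqModC' (k : Type*) [Field k] : Transcendental k (jqModC k) :=
  transcendental_of_simple_pole _ (fun n => coeff_jqModC_pow_self k n)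
    (fun _ _ hm => coeff_jqModC_pow_of_lt k hm)

/-- The generator `x_1 = j(q)` over `C` is the series `jqModC C`. -/
lemma xC_one_eq (C : Type*) [Field C] [Algebra Kbar C] (N : ℕ) [NeZero N] :
    Mod.xC C N ⟨1, one_dvd N⟩ = jqModC C := by
  rw [Mod.xC, xK_one_eq, coeffEmb, coeffMap_coeffMap, ← jqModC_rat, coeffMap_jqModC]

end Pole

section Input

variable {N : ℕ} [NeZero N] (A : Mod.AnalyticInput N)

/-- the family `d ↦ Jd d`, `d ∣ N` -/
def JdFam : Mod.Dv N → A.M := fun d => A.Jd d.1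

lemma JdFam_mem (d : Mod.Dv N) :
    JdFam A d ∈ IntermediateField.adjoin A.C (Set.range (JdFam A)) :=
  IntermediateField.subset_adjoin A.C _ ⟨d, rfl⟩

/-- The `q`-expansion embedding of `C(Jd d : d ∣ N)` into `C((q))` given by `rel`. -/
theorem exists_qExp_algHom :
    ∃ ψ : IntermediateField.adjoin A.C (Set.range (JdFam A)) →ₐ[A.C] LaurentSeries A.C,
      ∀ d : Mod.Dv N, ψ ⟨JdFam A d, JdFam_mem A d⟩ = Mod.xC A.C N d :=
  exists_algHom_adjoin_of_ker_eq (K := A.C) (JdFam A) (Mod.xC A.C N) fun P => (A.rel P).symm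

/-- `j` is transcendental over the big constant field. -/
theorem transcendental_Jd_one : Transcendental A.C (A.Jd 1) := by
  obtain ⟨ψ, hψ⟩ := exists_qExp_algHom A
  rw [transcendental_iff]
  intro p hp
  set t' : IntermediateField.adjoin A.C (Set.range (JdFam A)) :=
    ⟨JdFam A ⟨1, one_dvd N⟩, JdFam_mem A _⟩ with ht'
  have h1 : aeval t' p = 0 := by
    apply Subtype.ext
    have := Polynomial.aeval_algHom_apply
      (IntermediateField.adjoin A.C (Set.range (JdFam A))).val t' p
    rw [IntermediateField.val_mk] at this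
    show (IntermediateField.adjoin A.C (Set.range (JdFam A))).val (aeval t' p) = 0
    rw [← this]
    exact hp
  have h2 : aeval (ψ t') p = 0 := by
    rw [Polynomial.aeval_algHom_apply, h1, map_zero]
  rw [hψ, xC_one_eq] at h2
  exact (transcendental_iff.mp (transcendental_jqModC' A.C)) p h2

variable [Algebra Kbar A.M] [IsScalarTower Kbar A.C A.M]

/-- **(F3)** `j(dτ)` is algebraic over `Q̄(j)`. -/
theorem isAlgebraic_Jd {d : ℕ} (hd : d ∣ N) :
    IsAlgebraic (IntermediateField.adjoin Kbar {A.Jd 1}) (A.Jd d) := by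
  -- the relation over `C` from the orbit polynomial
  obtain ⟨B, hB0, hB⟩ := exists_bivariate_of_orbit A.act
    (Mod.Aux16.conjSet_finite A.act A.Jd N A.act_Jd)
    (fun g _ hs => Mod.Aux16.act_mem_conjSet A.act A.Jd N g hs) A.inv_mem
    (Mod.Aux16.Jd_mem_conjSet A.act A.Jd N hd)
  -- transfer to `C((q))`
  obtain ⟨ψ, hψ⟩ := exists_qExp_algHom A
  have ht'ψ := hψ ⟨1, one_dvd N⟩
  have hy'ψ := hψ ⟨d, hd⟩
  generalize ht' : (⟨JdFam A ⟨1, one_dvd N⟩, JdFam_mem A _⟩ :
    IntermediateField.adjoin A.C (Set.range (JdFam A))) = t' at ht'ψ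
  generalize hy' : (⟨JdFam A ⟨d, hd⟩, JdFam_mem A _⟩ :
    IntermediateField.adjoin A.C (Set.range (JdFam A))) = y' at hy'ψ
  have h1 : (B.map ((aeval t' : A.C[X] →ₐ[A.C] _) : A.C[X] →+* _)).eval y' = 0 := by
    apply Subtype.ext
    have := map_bivariate_eval (IntermediateField.adjoin A.C (Set.range (JdFam A))).val B t' y'
    show (IntermediateField.adjoin A.C (Set.range (JdFam A))).val _ = 0
    rw [this, ← ht', ← hy']
    exact hB
  have h2 := map_bivariate_eval ψ B t' y'
  rw [h1, map_zero, ht'ψ, hy'ψ] at h2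
  -- descent to `Kbar`
  obtain ⟨B0, hB00, hB0⟩ := exists_bivariate_descent (K := Kbar) (C := A.C)
    (Mod.xK N ⟨1, one_dvd N⟩) (Mod.xK N ⟨d, hd⟩) B hB0 h2.symm
  -- back to `M`
  obtain ⟨Φ, hΦ, -⟩ := exists_algHom_FN_of_relC N (C := A.C) (JdFam A) A.rel
  have ht0Φ := hΦ ⟨1, one_dvd N⟩
  have hy0Φ := hΦ ⟨d, hd⟩
  generalize ht0 : (⟨Mod.xK N ⟨1, one_dvd N⟩, xK_mem N _⟩ : FN N) = t0 at ht0Φ
  generalize hy0 : (⟨Mod.xK N ⟨d, hd⟩, xK_mem N _⟩ : FN N) = y0 at hy0Φ
  have h3 : (B0.map ((aeval t0 : Kbar[X] →ₐ[Kbar] FN N) : Kbar[X] →+* FN N)).eval y0 = 0 := by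
    apply Subtype.ext
    have := map_bivariate_eval (modularFunctionFieldBar N).val B0 t0 y0
    show (modularFunctionFieldBar N).val _ = 0
    rw [this, ← ht0, ← hy0]
    exact hB0
  have h4 := map_bivariate_eval Φ B0 t0 y0
  rw [h3, map_zero, ht0Φ, hy0Φ] at h4
  exact FixedField.isAlgebraic_of_bivariate
    (Transcendental.of_tower_top Kbar (transcendental_Jd_one A)) hB00 h4.symm

/-- All conjugates are algebraic over `Q̄(j)`. -/
theorem isAlgebraic_conjSet :
    ∀ s ∈ Mod.conjSet A.act A.Jd N, IsAlgebraic (IntermediateField.adjoin Kbar {A.Jd 1}) s := by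
  rintro _ ⟨d, hd, g, rfl⟩
  exact FixedField.isAlgebraic_act A.act (transcendental_Jd_one A) g (A.act_J g)
    (isAlgebraic_Jd A hd)

/-- **`fixed`, ambient form**: invariant elements of `Q̄(conjugates)` lie in `Q̄(j)`. -/
theorem fixed_mem_adjoin {y : A.M}
    (hy : y ∈ IntermediateField.adjoin Kbar (Mod.conjSet A.act A.Jd N))
    (hyfix : ∀ g : SL(2, ℤ), A.act g y = y) :
    y ∈ IntermediateField.adjoin Kbar {A.Jd 1} :=
  FixedField.fixed_mem_adjoin A.act (Mod.Aux16.conjSet_finite A.act A.Jd N A.act_Jd)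
    (fun g _ hs => Mod.Aux16.act_mem_conjSet A.act A.Jd N g hs) (transcendental_Jd_one A)
    (Algebra.adjoin A.C (Mod.conjSet A.act A.Jd N)) Algebra.subset_adjoin A.inv_mem
    (isAlgebraic_conjSet A) hy hyfix

end Input

end Fermat.Agent.S24.Br46
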