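/-
S24 bridge, part 1 (helper96): the Taylor series at `0` of the analytic eta product
`q ↦ ∏' n, (1 - q^(n+1))` is the formal Pi-topology product `ModularCurve.etaProd`.
-/
import Mathlib
import Fermat.Prelude.Def_ModularCurve_X0

set_option autoImplicit false

open Filter Topology Complex Metric
open scoped PowerSeries.WithPiTopology

namespace Fermat.Agent.S24.Bridge

/-- Iterated derivatives of a locally uniformly convergent family of holomorphic functions
converge locally uniformly. -/
theorem tendstoLocallyUniformlyOn_iteratedDeriv {ι : Type*} {φ : Filter ι}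
    {F : ι → ℂ → ℂ} {f : ℂ → ℂ} {U : Set ℂ} (hU : IsOpen U)
    (hf : TendstoLocallyUniformlyOn F f φ U)
    (hF : ∀ᶠ n in φ, DifferentiableOn ℂ (F n) U) (m : ℕ) :
    TendstoLocallyUniformlyOn (fun i => iteratedDeriv m (F i)) (iteratedDeriv m f) φ U ∧
      ∀ᶠ n in φ, DifferentiableOn ℂ (iteratedDeriv m (F n)) U := by
  induction m with
  | zero =>
    simp only [iteratedDeriv_zero]
    exact ⟨hf, hF⟩
  | succ m ih =>
    obtain ⟨h1, h2⟩ := ih
    refine ⟨?_, ?_⟩
    · have := h1.deriv h2 hU
      simpa only [iteratedDeriv_succ, Function.comp_def] using this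
    · filter_upwards [h2] with n hn
      rw [iteratedDeriv_succ]
      exact hn.deriv hU

/-- Iterated derivative of a polynomial function. -/
theorem iteratedDeriv_polynomial_eval (p : Polynomial ℂ) (m : ℕ) :
    iteratedDeriv m (fun x => p.eval x) = fun x => ((⇑Polynomial.derivative)^[m] p).eval x := by
  induction m generalizing p with
  | zero => simp
  | succ m ih =>
    rw [iteratedDeriv_succ, ih]
    funext x
    rw [Polynomial.deriv, Function.iterate_succ_apply']

theorem iteratedDeriv_polynomial_eval_zero (p : Polynomial ℂ) (m : ℕ) :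
    iteratedDeriv m (fun x => p.eval x) 0 = (m.factorial : ℂ) * p.coeff m := by
  rw [iteratedDeriv_polynomial_eval]
  simp only
  rw [← Polynomial.coeff_zero_eq_eval_zero, Polynomial.coeff_iterate_derivative]
  simp [Nat.descFactorial_self]

/-- The analytic eta product on the unit disc. -/
noncomputable def etaG (q : ℂ) : ℂ := ∏' n : ℕ, (1 - q ^ (n + 1))

theorem differentiableOn_etaG : DifferentiableOn ℂ etaG (ball 0 1) :=
  ModularForm.differentiableOn_tprod_one_sub_pow

/-- Partial products as integer polynomials. -/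
noncomputable def etaPoly (s : Finset ℕ) : Polynomial ℤ :=
  ∏ n ∈ s, (1 - Polynomial.X ^ (n + 1))

theorem etaPoly_eval (s : Finset ℕ) (q : ℂ) :
    ((etaPoly s).map (Int.castRingHom ℂ)).eval q = ∏ n ∈ s, (1 - q ^ (n + 1)) := by
  simp [etaPoly, Polynomial.map_prod, Polynomial.eval_prod]

theorem etaPoly_coe (s : Finset ℕ) :
    ((etaPoly s : Polynomial ℤ) : PowerSeries ℤ) = ∏ n ∈ s, (1 - PowerSeries.X ^ (n + 1)) := by
  rw [etaPoly, ← Polynomial.coeToPowerSeries.ringHom_apply, map_prod]
  refine Finset.prod_congr rfl fun n _ => ?_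
  simp [Polynomial.coeToPowerSeries.ringHom_apply]

theorem tendsto_etaPoly_coeff (m : ℕ) :
    Tendsto (fun s : Finset ℕ => (etaPoly s).coeff m) atTop
      (𝓝 (ModularCurve.etaProd.coeff m)) := by
  have h := (PowerSeries.WithPiTopology.multipliable_one_sub_X_pow ℤ).hasProd
  have h2 := ((PowerSeries.WithPiTopology.continuous_coeff ℤ m).tendsto _).comp h
  refine h2.congr fun s => ?_
  simp only [Function.comp_apply]
  rw [← etaPoly_coe, Polynomial.coeff_coe]

theorem taylor_etaG (m : ℕ) :
    ((m.factorial : ℂ))⁻¹ * iteratedDeriv m etaG 0 = ((ModularCurve.etaProd.coeff m : ℤ) : ℂ) := by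
  have hloc := ModularForm.multipliableLocallyUniformlyOn_one_sub_pow.hasProdLocallyUniformlyOn
  have hF : ∀ᶠ s : Finset ℕ in atTop,
      DifferentiableOn ℂ (fun q : ℂ => ∏ n ∈ s, (1 - q ^ (n + 1))) (ball 0 1) :=
    Eventually.of_forall fun s => by fun_prop
  have h1 := (tendstoLocallyUniformlyOn_iteratedDeriv isOpen_ball hloc hF m).1.tendsto_at
    (mem_ball_self one_pos)
  have h2 : ∀ s : Finset ℕ, iteratedDeriv m (fun q : ℂ => ∏ n ∈ s, (1 - q ^ (n + 1))) 0 =
      (m.factorial : ℂ) * (((etaPoly s).coeff m : ℤ) : ℂ) := by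
    intro s
    have : (fun q : ℂ => ∏ n ∈ s, (1 - q ^ (n + 1))) =
        fun q => ((etaPoly s).map (Int.castRingHom ℂ)).eval q := by
      funext q; rw [etaPoly_eval]
    rw [this, iteratedDeriv_polynomial_eval_zero, Polynomial.coeff_map]
    simp
  have h3 : Tendsto (fun s : Finset ℕ => (m.factorial : ℂ) * (((etaPoly s).coeff m : ℤ) : ℂ)) atTop
      (𝓝 ((m.factorial : ℂ) * ((ModularCurve.etaProd.coeff m : ℤ) : ℂ))) := by
    refine Tendsto.const_mul _ ?_
    exact (continuous_of_discreteTopology (f := fun n : ℤ => (n : ℂ))).continuousAt.tendsto.comp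
      (tendsto_etaPoly_coeff m)
  have h4 : iteratedDeriv m etaG 0 = (m.factorial : ℂ) * ((ModularCurve.etaProd.coeff m : ℤ) : ℂ) := by
    refine tendsto_nhds_unique ?_ h3
    refine h1.congr fun s => ?_
    exact h2 s
  rw [h4, ← mul_assoc, inv_mul_cancel₀ (by exact_mod_cast Nat.factorial_ne_zero m), one_mul]

/-- Taylor series at `0` as a formal power series. -/
noncomputable def taylorPS (G : ℂ → ℂ) : PowerSeries ℂ :=
  .mk fun m => ((m.factorial : ℂ))⁻¹ * iteratedDeriv m G 0

@[simp] theorem coeff_taylorPS (G : ℂ → ℂ) (m : ℕ) :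
    (taylorPS G).coeff m = ((m.factorial : ℂ))⁻¹ * iteratedDeriv m G 0 := by
  simp [taylorPS]

theorem taylorPS_congr {G H : ℂ → ℂ} (h : G =ᶠ[𝓝 0] H) : taylorPS G = taylorPS H := by
  ext m
  simp only [coeff_taylorPS]
  rw [h.iteratedDeriv_eq m]

theorem taylorPS_mul {G H : ℂ → ℂ} (hG : AnalyticAt ℂ G 0) (hH : AnalyticAt ℂ H 0) :
    taylorPS (G * H) = taylorPS G * taylorPS H := by
  ext m
  simp only [coeff_taylorPS, iteratedDeriv_mul hG.contDiffAt hH.contDiffAt, Finset.mul_sum,
    PowerSeries.coeff_mul, Finset.Nat.sum_antidiagonal_eq_sum_range_succ_mk, Nat.succ_eq_add_one]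
  refine Finset.sum_congr rfl fun i hi ↦ ?_
  rw [Nat.cast_choose _ (by grind)]
  field_simp [Nat.factorial_ne_zero]

theorem taylorPS_one : taylorPS (1 : ℂ → ℂ) = 1 := by
  ext m
  have h2 : iteratedDeriv m (1 : ℂ → ℂ) 0 = if m = 0 then 1 else 0 := by
    simpa [ite_apply] using! iteratedDeriv_const
  simp +contextual [h2]

theorem taylorPS_pow {G : ℂ → ℂ} (hG : AnalyticAt ℂ G 0) (n : ℕ) :
    taylorPS (G ^ n) = taylorPS G ^ n := by
  induction n with
  | zero => simpa using taylorPS_one
  | succ n ih =>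
    rw [pow_succ, pow_succ, taylorPS_mul (hG.pow n) hG, ih]

theorem hasSum_taylorPS {G : ℂ → ℂ} (hG : DifferentiableOn ℂ G (ball 0 1)) {q : ℂ}
    (hq : ‖q‖ < 1) : HasSum (fun n => (taylorPS G).coeff n * q ^ n) (G q) := by
  have := hasSum_taylorSeries_on_ball hG (z := q) (by simpa using hq)
  refine this.congr_fun fun n => ?_
  simp [mul_comm, mul_left_comm]

theorem taylorPS_etaG :
    taylorPS etaG = PowerSeries.map (Int.castRingHom ℂ) ModularCurve.etaProd := by
  ext m
  rw [coeff_taylorPS, taylor_etaG, PowerSeries.coeff_map]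
  simp

end Fermat.Agent.S24.Bridge
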