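/-
S24 bridge, part 2 (helper96): Taylor series of `q·j = E₄³ / ∏(1-qⁿ)²⁴` on the disc is the
formal series `ModularCurve.jNum`.
-/
import Mathlib
import Fermat.Prelude.Def_ModularCurve_X0
import Fermat.Agent.S24.BridgeEta

set_option autoImplicit false

open Filter Topology Complex Metric UpperHalfPlane ModularForm EisensteinSeries
open scoped PowerSeries.WithPiTopology MatrixGroups

local notation "𝕢" => Function.Periodic.qParam

namespace Fermat.Agent.S24.Bridge

theorem qExpansion_E4_eq :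
    qExpansion 1 E₄ = PowerSeries.map (Int.castRingHom ℂ) ModularCurve.eisenstein4 := by
  ext m
  rw [E_qExpansion_coeff _ ⟨2, rfl⟩ m, show bernoulli 4 = -1 / 30 by decide +kernel]
  simp only [PowerSeries.coeff_map, ModularCurve.eisenstein4, PowerSeries.coeff_mk]
  split_ifs with h
  · simp
  · simp [ArithmeticFunction.sigma_apply]
    norm_num

/-- The cusp function of `E₄`. -/
noncomputable def cuspE4 : ℂ → ℂ := cuspFunction 1 (E₄ : ℍ → ℂ)

theorem differentiableOn_cuspE4 : DifferentiableOn ℂ cuspE4 (ball 0 1) := fun q hq =>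
  (ModularFormClass.differentiableAt_cuspFunction E₄ one_pos one_mem_strictPeriods_SL
    (by simpa using hq)).differentiableWithinAt

theorem analyticAt_cuspE4 : AnalyticAt ℂ cuspE4 0 :=
  ModularFormClass.analyticAt_cuspFunction_zero E₄ one_pos one_mem_strictPeriods_SL

theorem cuspE4_qParam (τ : ℍ) : cuspE4 (𝕢 1 τ) = E₄ τ :=
  SlashInvariantFormClass.eq_cuspFunction E₄ τ one_mem_strictPeriods_SL one_ne_zero

theorem taylorPS_cuspE4 :
    taylorPS cuspE4 = PowerSeries.map (Int.castRingHom ℂ) ModularCurve.eisenstein4 := by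
  rw [← qExpansion_E4_eq]
  ext m
  rw [coeff_taylorPS, qExpansion_coeff]
  rfl

theorem etaG_ne_zero {q : ℂ} (hq : ‖q‖ < 1) : etaG q ≠ 0 := by
  unfold etaG
  simp_rw [sub_eq_add_neg]
  refine tprod_one_add_ne_zero_of_summable (f := fun n : ℕ => -q ^ (n + 1)) ?_ ?_
  · intro i h
    have h1 : q ^ (i + 1) = 1 := by
      have := h; rw [← sub_eq_add_neg, sub_eq_zero] at this; exact this.symm
    have h2 : ‖q‖ ^ (i + 1) = 1 := by rw [← norm_pow, h1, norm_one]
    have h3 : ‖q‖ ^ (i + 1) < 1 := pow_lt_one₀ (norm_nonneg _) hq (by omega)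
    linarith
  · simpa using (summable_nat_add_iff 1).mpr (summable_geometric_of_lt_one (norm_nonneg _) hq)

/-- `q · j` on the disc: `E₄³ / ∏ (1 - qⁿ)²⁴`. -/
noncomputable def jDisc (q : ℂ) : ℂ := cuspE4 q ^ 3 * (etaG q ^ 24)⁻¹

theorem differentiableOn_jDisc : DifferentiableOn ℂ jDisc (ball 0 1) := by
  unfold jDisc
  refine (differentiableOn_cuspE4.pow 3).mul ((differentiableOn_etaG.pow 24).inv ?_)
  intro q hq
  exact pow_ne_zero _ (etaG_ne_zero (by simpa using hq))

theorem analyticAt_etaG : AnalyticAt ℂ etaG 0 :=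
  differentiableOn_etaG.analyticAt (isOpen_ball.mem_nhds (mem_ball_self one_pos))

theorem analyticAt_jDisc : AnalyticAt ℂ jDisc 0 :=
  differentiableOn_jDisc.analyticAt (isOpen_ball.mem_nhds (mem_ball_self one_pos))

theorem taylorPS_jDisc :
    taylorPS jDisc = PowerSeries.map (Int.castRingHom ℂ) ModularCurve.jNum := by
  have h1 : taylorPS (jDisc * etaG ^ 24) = taylorPS (cuspE4 ^ 3) := by
    refine taylorPS_congr ?_
    filter_upwards [isOpen_ball.mem_nhds (mem_ball_self (x := (0:ℂ)) one_pos)] with q hq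
    have := etaG_ne_zero (q := q) (by simpa using hq)
    simp only [Pi.mul_apply, Pi.pow_apply, jDisc]
    field_simp
  rw [taylorPS_mul analyticAt_jDisc (analyticAt_etaG.pow 24), taylorPS_pow analyticAt_etaG,
    taylorPS_pow analyticAt_cuspE4, taylorPS_etaG, taylorPS_cuspE4] at h1
  have h2 : PowerSeries.map (Int.castRingHom ℂ) ModularCurve.dedekindEtaUnit *
      PowerSeries.map (Int.castRingHom ℂ) ModularCurve.dedekindEtaUnitInv = 1 := by
    rw [← map_mul, ModularCurve.dedekindEtaUnit_mul_inv, map_one]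
  calc taylorPS jDisc
      = taylorPS jDisc * (PowerSeries.map (Int.castRingHom ℂ) ModularCurve.dedekindEtaUnit *
          PowerSeries.map (Int.castRingHom ℂ) ModularCurve.dedekindEtaUnitInv) := by
        rw [h2, mul_one]
    _ = (taylorPS jDisc * PowerSeries.map (Int.castRingHom ℂ) ModularCurve.etaProd ^ 24) *
          PowerSeries.map (Int.castRingHom ℂ) ModularCurve.dedekindEtaUnitInv := by
        rw [ModularCurve.dedekindEtaUnit, map_pow]; ring
    _ = PowerSeries.map (Int.castRingHom ℂ) ModularCurve.jNum := by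
        rw [h1, ModularCurve.jNum, map_mul, map_pow]

/-- The analytic `j`-function `E₄³ / Δ` on the upper half plane. -/
noncomputable def jAn (τ : ℍ) : ℂ := E₄ τ ^ 3 / discriminant τ

theorem norm_qParam_lt_one (τ : ℍ) : ‖𝕢 1 (τ : ℂ)‖ < 1 :=
  by simpa using UpperHalfPlane.norm_qParam_lt_one 1 τ

theorem discriminant_eq_q_mul_etaG (τ : ℍ) :
    discriminant τ = 𝕢 1 (τ : ℂ) * etaG (𝕢 1 (τ : ℂ)) ^ 24 := by
  rw [discriminant_eq_q_prod, etaG]
  congr 1
  rw [← Multipliable.tprod_pow]
  exact ModularForm.multipliable_one_sub_pow (norm_qParam_lt_one τ)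

theorem jDisc_qParam (τ : ℍ) : jDisc (𝕢 1 (τ : ℂ)) = 𝕢 1 (τ : ℂ) * jAn τ := by
  have hq : 𝕢 1 (τ : ℂ) ≠ 0 := Function.Periodic.qParam_ne_zero _
  have hG := etaG_ne_zero (norm_qParam_lt_one τ)
  rw [jDisc, jAn, cuspE4_qParam, discriminant_eq_q_mul_etaG]
  field_simp

/-- (B2) The formal series `jNum` evaluated at `q = exp(2πiτ)` is `q · j(τ)`. -/
theorem hasSum_jNum (τ : ℍ) :
    HasSum (fun n : ℕ => ((ModularCurve.jNum.coeff n : ℤ) : ℂ) * 𝕢 1 (τ : ℂ) ^ n)
      (𝕢 1 (τ : ℂ) * jAn τ) := by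
  have h := hasSum_taylorPS differentiableOn_jDisc (norm_qParam_lt_one τ)
  rw [taylorPS_jDisc, jDisc_qParam] at h
  refine h.congr_fun fun n => ?_
  simp

end Fermat.Agent.S24.Bridge
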