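import Mathlib
import Fermat.Prelude.Def_ModularCurve_GenusNumerics

set_option autoImplicit false

/-!
# S24, layer (D): the coset space `SL(2,ℤ) ⧸ Γ₀(N)` and the first column modulo `N`

Basic facts: the first column of `γ` modulo `N`, the cross relation characterising
cosets of `Γ₀(N)`, and the action of `S`, `T` on first columns.
-/

namespace Fermat.Agent.S24.Count

open Matrix Matrix.SpecialLinearGroup CongruenceSubgroup ModularGroup
open scoped MatrixGroups

variable (N : ℕ)

/-- upper-left entry mod `N`. -/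
def colA (γ : SL(2, ℤ)) : ZMod N := ((γ 0 0 : ℤ) : ZMod N)

/-- lower-left entry mod `N`. -/
def colC (γ : SL(2, ℤ)) : ZMod N := ((γ 1 0 : ℤ) : ZMod N)

/-- upper-right entry mod `N`. -/
def colB (γ : SL(2, ℤ)) : ZMod N := ((γ 0 1 : ℤ) : ZMod N)

/-- lower-right entry mod `N`. -/
def colD (γ : SL(2, ℤ)) : ZMod N := ((γ 1 1 : ℤ) : ZMod N)

lemma det_int (γ : SL(2, ℤ)) : γ 0 0 * γ 1 1 - γ 0 1 * γ 1 0 = 1 := by
  have := γ.det_coe
  rw [Matrix.det_fin_two] at this
  exact this

lemma det_mod (γ : SL(2, ℤ)) : colA N γ * colD N γ - colB N γ * colC N γ = 1 := by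
  have := congrArg (fun z : ℤ => (z : ZMod N)) (det_int γ)
  simpa [colA, colB, colC, colD] using this

lemma isCoprime_col (γ : SL(2, ℤ)) : IsCoprime (colA N γ) (colC N γ) :=
  ⟨colD N γ, -colB N γ, by have := det_mod N γ; linear_combination this⟩

lemma inv_mul_apply_one_zero (γ γ' : SL(2, ℤ)) :
    (γ⁻¹ * γ') 1 0 = γ 0 0 * γ' 1 0 - γ 1 0 * γ' 0 0 := by
  simp [Matrix.adjugate_fin_two, Matrix.mul_apply, Fin.sum_univ_two]
  ring

lemma inv_mul_mem_Gamma0_iff (γ γ' : SL(2, ℤ)) :
    γ⁻¹ * γ' ∈ Gamma0 N ↔ colA N γ * colC N γ' = colC N γ * colA N γ' := by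
  rw [Gamma0_mem, inv_mul_apply_one_zero]
  simp only [colA, colC]
  push_cast
  rw [sub_eq_zero]

lemma colA_mul (g γ : SL(2, ℤ)) :
    colA N (g * γ) = colA N g * colA N γ + colB N g * colC N γ := by
  simp [colA, colB, colC, Matrix.mul_apply, Fin.sum_univ_two]

lemma colC_mul (g γ : SL(2, ℤ)) :
    colC N (g * γ) = colC N g * colA N γ + colD N g * colC N γ := by
  simp [colA, colD, colC, Matrix.mul_apply, Fin.sum_univ_two]

/-- the elliptic-type element `S * T ^ t = [[0,-1],[1,t]]`. -/
def ell (t : ℤ) : SL(2, ℤ) := S * T ^ t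

lemma coe_ell (t : ℤ) : (ell t : Matrix (Fin 2) (Fin 2) ℤ) = !![0, -1; 1, t] := by
  simp [ell, coe_S, coe_T_zpow]

lemma colA_ell (t : ℤ) : colA N (ell t) = 0 := by simp [colA, coe_ell]
lemma colB_ell (t : ℤ) : colB N (ell t) = -1 := by simp [colB, coe_ell]
lemma colC_ell (t : ℤ) : colC N (ell t) = 1 := by simp [colC, coe_ell]
lemma colD_ell (t : ℤ) : colD N (ell t) = t := by simp [colD, coe_ell]

/-- The coset space. -/
abbrev X : Type := SL(2, ℤ) ⧸ Gamma0 N

lemma mk_eq_mk_iff (γ γ' : SL(2, ℤ)) :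
    (QuotientGroup.mk γ : X N) = QuotientGroup.mk γ' ↔
      colA N γ * colC N γ' = colC N γ * colA N γ' := by
  rw [QuotientGroup.eq, inv_mul_mem_Gamma0_iff]

lemma smul_mk (g γ : SL(2, ℤ)) : g • (QuotientGroup.mk γ : X N) = QuotientGroup.mk (g * γ) := rfl

lemma ell_smul_mk_eq_iff (t : ℤ) (γ : SL(2, ℤ)) :
    ell t • (QuotientGroup.mk γ : X N) = QuotientGroup.mk γ ↔
      colA N γ ^ 2 + t * colA N γ * colC N γ + colC N γ ^ 2 = 0 := by
  rw [smul_mk, mk_eq_mk_iff, colA_mul, colC_mul, colA_ell, colB_ell, colC_ell, colD_ell]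
  constructor
  · intro h; linear_combination -h
  · intro h; linear_combination -h

/-- the matrix `[[x,-1],[1,0]]`. -/
def rootMat (x : ℤ) : SL(2, ℤ) := ⟨!![x, -1; 1, 0], by simp [Matrix.det_fin_two]⟩

lemma colA_rootMat (x : ℤ) : colA N (rootMat x) = x := by simp [colA, rootMat]
lemma colC_rootMat (x : ℤ) : colC N (rootMat x) = 1 := by simp [colC, rootMat]

/-- roots of `x^2 + t x + 1` give fixed points of `ell t`. -/
def rootToFixed (t : ℤ) (x : {x : ZMod N // x ^ 2 + t * x + 1 = 0}) :
    MulAction.fixedBy (X N) (ell t) :=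
  ⟨QuotientGroup.mk (rootMat (ZMod.cast x.1 : ℤ)), by
    rw [MulAction.mem_fixedBy, ell_smul_mk_eq_iff, colA_rootMat, colC_rootMat,
      ZMod.intCast_zmod_cast]
    have := x.2
    linear_combination this⟩

lemma rootToFixed_bijective (t : ℤ) : Function.Bijective (rootToFixed N t) := by
  constructor
  · intro x y h
    have h' := congrArg Subtype.val h
    simp only [rootToFixed] at h'
    rw [mk_eq_mk_iff, colA_rootMat, colC_rootMat, colA_rootMat, colC_rootMat,
      ZMod.intCast_zmod_cast, ZMod.intCast_zmod_cast] at h'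
    apply Subtype.ext
    linear_combination h'
  · rintro ⟨x, hx⟩
    induction x using QuotientGroup.induction_on with
    | H γ =>
      rw [MulAction.mem_fixedBy, ell_smul_mk_eq_iff] at hx
      have hdet := det_mod N γ
      set a := colA N γ
      set b := colB N γ
      set c := colC N γ
      set d := colD N γ
      -- c is a unit with explicit inverse
      set e : ZMod N := -(t : ZMod N) * a * d ^ 2 - c * d ^ 2 - 2 * a * b * d + b ^ 2 * c with he
      have hce : c * e = 1 := by
        have : (a * d - b * c) ^ 2 = 1 := by rw [hdet]; ring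
        linear_combination this - d ^ 2 * hx
      have hroot : (a * e) ^ 2 + t * (a * e) + 1 = 0 := by
        have h1 : (a * e) ^ 2 + t * (a * e) + 1
            = e ^ 2 * (a ^ 2 + t * a * c + c ^ 2)
              + (1 - c * e) * (t * a * e + 1 + c * e) := by ring
        rw [h1, hx, hce]; ring
      refine ⟨⟨a * e, hroot⟩, ?_⟩
      apply Subtype.ext
      simp only [rootToFixed]
      rw [mk_eq_mk_iff, colA_rootMat, colC_rootMat, ZMod.intCast_zmod_cast]
      show a * e * c = 1 * a
      linear_combination a * hce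

theorem card_fixedBy_ell (t : ℤ) :
    Nat.card (MulAction.fixedBy (X N) (ell t)) =
      Nat.card {x : ZMod N // x ^ 2 + t * x + 1 = 0} :=
  (Nat.card_congr (Equiv.ofBijective _ (rootToFixed_bijective N t))).symm

theorem card_fixedBy_S : Nat.card (MulAction.fixedBy (X N) S) = ModularCurve.nuTwo N := by
  have h := card_fixedBy_ell N 0
  have h0 : ell 0 = S := by simp [ell]
  rw [h0] at h
  rw [h, ModularCurve.nuTwo]
  congr 1
  simp

theorem card_fixedBy_ST : Nat.card (MulAction.fixedBy (X N) (S * T)) = ModularCurve.nuThree N := by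
  have h := card_fixedBy_ell N 1
  have h0 : ell 1 = S * T := by simp [ell]
  rw [h0] at h
  rw [h, ModularCurve.nuThree]
  simp

end Fermat.Agent.S24.Count
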