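import Fermat.Agent.S24.CountBasic

set_option autoImplicit false

/-!
# S24, layer (D): primitive vectors modulo `N` and the lifting lemma

`Prim N` = primitive vectors in `(ZMod N)²`, with the free scaling action of `(ZMod N)ˣ`.
Cosets of `Γ₀(N)` correspond to unit-orbits of primitive vectors, via the first column.
-/

namespace Fermat.Agent.S24.Count

open Matrix Matrix.SpecialLinearGroup CongruenceSubgroup ModularGroup
open scoped MatrixGroups

variable (N : ℕ)

/-- primitive vectors of `(ZMod N)²`. -/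
def Prim : Type := {v : ZMod N × ZMod N // IsCoprime v.1 v.2}

/-- first column of `γ` as a primitive vector. -/
def col (γ : SL(2, ℤ)) : Prim N := ⟨(colA N γ, colC N γ), isCoprime_col N γ⟩

variable {N}

/-- the cross relation. -/
def Cross (v w : Prim N) : Prop := v.1.1 * w.1.2 = v.1.2 * w.1.1

instance : SMul (ZMod N)ˣ (Prim N) where
  smul u v := ⟨((u : ZMod N) * v.1.1, (u : ZMod N) * v.1.2), by
    obtain ⟨x, y, h⟩ := v.2
    refine ⟨x * ((u⁻¹ : (ZMod N)ˣ) : ZMod N), y * ((u⁻¹ : (ZMod N)ˣ) : ZMod N), ?_⟩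
    have hu : ((u⁻¹ : (ZMod N)ˣ) : ZMod N) * (u : ZMod N) = 1 := by
      rw [← Units.val_mul]; simp
    linear_combination (x * v.1.1 + y * v.1.2) * hu + h⟩

lemma smul_fst (u : (ZMod N)ˣ) (v : Prim N) : (u • v).1.1 = (u : ZMod N) * v.1.1 := rfl
lemma smul_snd (u : (ZMod N)ˣ) (v : Prim N) : (u • v).1.2 = (u : ZMod N) * v.1.2 := rfl

lemma Prim.ext' {v w : Prim N} (h1 : v.1.1 = w.1.1) (h2 : v.1.2 = w.1.2) : v = w :=
  Subtype.ext (Prod.ext h1 h2)

instance : MulAction (ZMod N)ˣ (Prim N) where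
  one_smul v := Prim.ext' (by simp [smul_fst]) (by simp [smul_snd])
  mul_smul u u' v := Prim.ext' (by simp [smul_fst, mul_assoc]) (by simp [smul_snd, mul_assoc])

/-- the scaling action is free. -/
lemma smul_eq_self_iff (u : (ZMod N)ˣ) (v : Prim N) : u • v = v ↔ u = 1 := by
  constructor
  · intro h
    obtain ⟨x, y, hxy⟩ := v.2
    have h1 : (u : ZMod N) * v.1.1 = v.1.1 := by rw [← smul_fst, h]
    have h2 : (u : ZMod N) * v.1.2 = v.1.2 := by rw [← smul_snd, h]
    apply Units.ext
    rw [Units.val_one]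
    linear_combination x * h1 + y * h2 + (1 - (u : ZMod N)) * hxy
  · rintro rfl; simp

lemma smul_injective (v : Prim N) : Function.Injective (fun u : (ZMod N)ˣ => u • v) := by
  intro u u' h
  have h' : (u'⁻¹ * u) • v = v := by
    rw [mul_smul]
    show u'⁻¹ • (u • v) = v
    have : u • v = u' • v := h
    rw [this, ← mul_smul]; simp
  have := (smul_eq_self_iff _ v).mp h'
  rw [inv_mul_eq_one] at this
  exact this.symm

/-- the cross relation is the orbit relation of the unit action. -/
lemma cross_iff_exists_smul (v w : Prim N) : Cross v w ↔ ∃ u : (ZMod N)ˣ, w = u • v := by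
  constructor
  · intro h
    obtain ⟨x, y, hxy⟩ := v.2
    obtain ⟨x', y', hxy'⟩ := w.2
    unfold Cross at h
    set a := v.1.1
    set c := v.1.2
    set a' := w.1.1
    set c' := w.1.2
    -- u = a' x + c' y, inverse a x' + c y'
    have hu1 : (a' * x + c' * y) * a = a' := by
      linear_combination a' * hxy + y * h
    have hu2 : (a' * x + c' * y) * c = c' := by
      linear_combination c' * hxy - x * h
    have hu1' : (a * x' + c * y') * a' = a := by
      linear_combination a * hxy' - y' * h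
    have hu2' : (a * x' + c * y') * c' = c := by
      linear_combination c * hxy' + x' * h
    have hinv : (a' * x + c' * y) * (a * x' + c * y') = 1 := by
      linear_combination (a * x' + c * y') * x * hu1 + (a * x' + c * y') * y * hu2
        + x * hu1' + y * hu2' + hxy - (a' * x + c' * y) * (a * x' + c * y') * hxy
    refine ⟨⟨a' * x + c' * y, a * x' + c * y', hinv, by rw [mul_comm]; exact hinv⟩, ?_⟩
    apply Prim.ext'
    · rw [smul_fst]; exact hu1.symm
    · rw [smul_snd]; exact hu2.symm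
  · rintro ⟨u, rfl⟩
    unfold Cross
    rw [smul_fst, smul_snd]; ring

lemma cross_refl (v : Prim N) : Cross v v := by unfold Cross; ring

lemma cross_symm {v w : Prim N} (h : Cross v w) : Cross w v := by
  unfold Cross at *; linear_combination -h

lemma cross_trans {v w z : Prim N} (h1 : Cross v w) (h2 : Cross w z) : Cross v z := by
  rw [cross_iff_exists_smul] at *
  obtain ⟨u, rfl⟩ := h1
  obtain ⟨u', rfl⟩ := h2
  exact ⟨u' * u, by rw [mul_smul]⟩

lemma mk_eq_mk_iff_cross (γ γ' : SL(2, ℤ)) :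
    (QuotientGroup.mk γ : X N) = QuotientGroup.mk γ' ↔ Cross (col N γ) (col N γ') :=
  mk_eq_mk_iff N γ γ'

/-- coprimality in `ZMod N` in terms of gcd's. -/
lemma isCoprime_natCast_iff (x y : ℕ) :
    IsCoprime ((x : ZMod N)) ((y : ZMod N)) ↔ Nat.Coprime x (Nat.gcd y N) := by
  constructor
  · rintro ⟨r, s, h⟩
    set g := Nat.gcd x (Nat.gcd y N) with hg
    have hgN : g ∣ N := (Nat.gcd_dvd_right _ _).trans (Nat.gcd_dvd_right _ _)
    have hgx : g ∣ x := Nat.gcd_dvd_left _ _
    have hgy : g ∣ y := (Nat.gcd_dvd_right _ _).trans (Nat.gcd_dvd_left _ _)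
    have h' := congrArg (ZMod.castHom hgN (ZMod g)) h
    simp only [map_add, map_mul, map_natCast, map_one] at h'
    rw [(ZMod.natCast_eq_zero_iff x g).mpr hgx, (ZMod.natCast_eq_zero_iff y g).mpr hgy] at h'
    simp only [mul_zero, add_zero] at h'
    have : Subsingleton (ZMod g) := subsingleton_of_zero_eq_one h'
    rw [ZMod.subsingleton_iff] at this
    exact this
  · intro h
    have h1 : IsCoprime (x : ℤ) ((Nat.gcd y N : ℕ) : ℤ) := Nat.isCoprime_iff_coprime.mpr h
    obtain ⟨s, t, hst⟩ := h1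
    have h2 : ((Nat.gcd y N : ℕ) : ℤ) = (y : ℤ) * Nat.gcdA y N + (N : ℤ) * Nat.gcdB y N :=
      Nat.gcd_eq_gcd_ab y N
    rw [h2] at hst
    refine ⟨(s : ZMod N), ((t * Nat.gcdA y N : ℤ) : ZMod N), ?_⟩
    have := congrArg (fun z : ℤ => (z : ZMod N)) hst
    simp only [Int.cast_add, Int.cast_mul, Int.cast_natCast, ZMod.natCast_self, zero_mul,
      Int.cast_one] at this
    push_cast
    linear_combination this

/-- every element of `ZMod N` is a unit times a divisor of `N`. -/
lemma exists_unit_mul_gcd [NeZero N] (c : ZMod N) :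
    ∃ u : (ZMod N)ˣ, c = (u : ZMod N) * ((Nat.gcd c.val N : ℕ) : ZMod N) := by
  set d := Nat.gcd c.val N with hd
  have hN : 0 < N := Nat.pos_of_ne_zero (NeZero.ne N)
  have hdpos : 0 < d := Nat.gcd_pos_of_pos_right _ hN
  have hdN : d ∣ N := Nat.gcd_dvd_right _ _
  have hdc : d ∣ c.val := Nat.gcd_dvd_left _ _
  obtain ⟨e, he⟩ := hdN
  obtain ⟨c', hc'⟩ := hdc
  have hcop : Nat.Coprime c' e := by
    have := Nat.coprime_div_gcd_div_gcd (m := c.val) (n := N) hdpos
    rw [← hd] at this
    rwa [hc', he, Nat.mul_div_cancel_left _ hdpos, Nat.mul_div_cancel_left _ hdpos] at this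
  have heN : e ∣ N := ⟨d, by rw [he]; ring⟩
  obtain ⟨u, hu⟩ := ZMod.unitsMap_surjective heN (ZMod.unitOfCoprime c' hcop)
  refine ⟨u, ?_⟩
  have hu' : (ZMod.castHom heN (ZMod e)) (u : ZMod N) = (c' : ZMod e) := by
    have := congrArg Units.val hu
    simpa [ZMod.unitsMap] using this
  have hu'' : ((u : ZMod N).val : ZMod e) = (c' : ZMod e) := by
    rw [← hu']
    conv_rhs => rw [← ZMod.natCast_zmod_val (u : ZMod N)]
    rw [map_natCast]
  rw [ZMod.natCast_eq_natCast_iff] at hu''
  have h3 : d * (u : ZMod N).val ≡ d * c' [MOD d * e] := Nat.ModEq.mul_left' d hu''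
  rw [← he, ← ZMod.natCast_eq_natCast_iff] at h3
  conv_lhs => rw [← ZMod.natCast_zmod_val c, hc']
  push_cast at h3 ⊢
  rw [ZMod.natCast_zmod_val] at h3
  rw [← h3]; ring

lemma gcd_val_natCast_of_dvd [NeZero N] {d : ℕ} (hd : d ∣ N) :
    Nat.gcd ((d : ZMod N)).val N = d := by
  rw [ZMod.val_natCast, ← Nat.gcd_rec, Nat.gcd_comm, Nat.gcd_eq_left hd]

/-- lifting lemma: every primitive vector is, up to a unit, the first column of an element of
`SL(2,ℤ)`. -/
lemma exists_col_cross [NeZero N] (v : Prim N) : ∃ γ : SL(2, ℤ), Cross (col N γ) v := by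
  obtain ⟨u, hu⟩ := exists_unit_mul_gcd v.1.2
  set d := Nat.gcd v.1.2.val N with hd
  have hdN : d ∣ N := Nat.gcd_dvd_right _ _
  set w : Prim N := u⁻¹ • v with hw
  have hw2 : w.1.2 = (d : ZMod N) := by
    rw [hw, smul_snd, hu, ← mul_assoc, ← Units.val_mul]; simp
  have hcop : IsCoprime ((w.1.1.val : ℕ) : ZMod N) ((d : ℕ) : ZMod N) := by
    rw [ZMod.natCast_zmod_val, ← hw2]; exact w.2
  rw [isCoprime_natCast_iff, Nat.gcd_eq_left hdN] at hcop
  obtain ⟨s, t, hst⟩ := Nat.isCoprime_iff_coprime.mpr hcop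
  refine ⟨⟨!![(w.1.1.val : ℤ), -t; (d : ℤ), s], by
    rw [Matrix.det_fin_two_of]; linear_combination hst⟩, ?_⟩
  have hcw : Cross (col N ⟨!![(w.1.1.val : ℤ), -t; (d : ℤ), s], by
    rw [Matrix.det_fin_two_of]; linear_combination hst⟩) w := by
    unfold Cross
    simp only [col, colA, colC, hw2]
    simp [mul_comm]
  exact cross_trans hcw ((cross_iff_exists_smul _ _).mpr ⟨u, by rw [hw, ← mul_smul]; simp⟩)

lemma mk_out (x : X N) : (QuotientGroup.mk (Quotient.out x) : X N) = x :=
  Quotient.out_eq' x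

/-- counting primitive vectors satisfying a unit-invariant predicate through cosets. -/
theorem card_prim_subtype [NeZero N] (q : Prim N → Prop) (qX : X N → Prop)
    (hq : ∀ (u : (ZMod N)ˣ) (v : Prim N), q (u • v) ↔ q v)
    (hqX : ∀ γ : SL(2, ℤ), qX (QuotientGroup.mk γ) ↔ q (col N γ)) :
    Nat.card {v : Prim N // q v} = Nat.totient N * Nat.card {x : X N // qX x} := by
  have hmem : ∀ (u : (ZMod N)ˣ) (x : {x : X N // qX x}), q (u • col N (Quotient.out x.1)) := by
    intro u x
    rw [hq, ← hqX, mk_out]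
    exact x.2
  let Ψ : (ZMod N)ˣ × {x : X N // qX x} → {v : Prim N // q v} :=
    fun p => ⟨p.1 • col N (Quotient.out p.2.1), hmem p.1 p.2⟩
  have hΨ : Function.Bijective Ψ := by
    constructor
    · rintro ⟨u, x⟩ ⟨u', x'⟩ h
      have h' : u • col N (Quotient.out x.1) = u' • col N (Quotient.out x'.1) :=
        congrArg Subtype.val h
      have hx : x = x' := by
        apply Subtype.ext
        rw [← mk_out x.1, ← mk_out x'.1, mk_eq_mk_iff_cross, cross_iff_exists_smul]
        refine ⟨u'⁻¹ * u, ?_⟩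
        rw [mul_smul, h', ← mul_smul]; simp
      subst hx
      have := smul_injective _ h'
      subst this
      rfl
    · rintro ⟨v, hv⟩
      obtain ⟨γ, hγ⟩ := exists_col_cross v
      set x : X N := QuotientGroup.mk γ with hx
      have h1 : Cross (col N (Quotient.out x)) (col N γ) := by
        rw [← mk_eq_mk_iff_cross, mk_out]
      obtain ⟨u, hu⟩ := (cross_iff_exists_smul _ _).mp (cross_trans h1 hγ)
      have hqx : qX x := by
        rw [hx, hqX]
        obtain ⟨u', hu'⟩ := (cross_iff_exists_smul _ _).mp hγ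
        rw [hu', hq] at hv
        exact hv
      refine ⟨⟨u, ⟨x, hqx⟩⟩, ?_⟩
      apply Subtype.ext
      exact hu.symm
  rw [← Nat.card_congr (Equiv.ofBijective Ψ hΨ), Nat.card_prod, Nat.card_eq_fintype_card,
    ZMod.card_units_eq_totient]

end Fermat.Agent.S24.Count
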