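import Fermat.Agent.S24.Defs
import Fermat.Agent.S24.Count87

/-!
# Assist file for `numOrbits_T` (cusp count), by helper37

* `numOrbits_eq_natCard_of_invariant` : abstract plumbing, orbits of `zpowers t` classified by a
  complete invariant.
* `numOrbits_T_eq_natCard` : the same for `X0Cosets N` and `T`, in terms of first columns.
-/

set_option autoImplicit false

namespace Fermat.Agent.S24.CuspAssist37

open Matrix MatrixGroups ModularGroup CongruenceSubgroup
open Fermat.Agent.S24.Count87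

section Plumbing

/-- If `Φ` is a complete invariant for the orbits of `⟨t⟩` on `X` and is surjective, then the
number of orbits is the cardinality of the target. -/
theorem numOrbits_eq_natCard_of_invariant {G X S : Type*} [Group G] [MulAction G X] (t : G)
    (Φ : X → S) (hΦ : ∀ x y, Φ x = Φ y ↔ ∃ k : ℤ, t ^ k • x = y)
    (hsurj : Function.Surjective Φ) : numOrbits X t = Nat.card S := by
  unfold numOrbits
  have hrel : ∀ x y : X, MulAction.orbitRel (Subgroup.zpowers t) X x y ↔ Φ x = Φ y := by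
    intro x y
    rw [MulAction.orbitRel_apply, MulAction.mem_orbit_iff, hΦ]
    constructor
    · rintro ⟨⟨z, hz⟩, hzy⟩
      obtain ⟨k, rfl⟩ := Subgroup.mem_zpowers_iff.mp hz
      refine ⟨-k, ?_⟩
      rw [_root_.zpow_neg, inv_smul_eq_iff]
      exact hzy.symm
    · rintro ⟨k, hk⟩
      refine ⟨⟨t ^ (-k), Subgroup.zpow_mem_zpowers t (-k)⟩, ?_⟩
      show t ^ (-k) • y = x
      rw [_root_.zpow_neg, inv_smul_eq_iff]
      exact hk.symm
  refine Nat.card_congr (Equiv.ofBijective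
    (Quotient.lift (s := MulAction.orbitRel (Subgroup.zpowers t) X) Φ
      (fun x y h => (hrel x y).1 h)) ⟨?_, ?_⟩)
  · intro a b
    induction a using Quotient.inductionOn with | h x =>
    induction b using Quotient.inductionOn with | h y =>
    intro h
    exact Quotient.sound (s := MulAction.orbitRel (Subgroup.zpowers t) X) ((hrel x y).2 h)
  · intro s
    obtain ⟨x, hx⟩ := hsurj s
    exact ⟨Quotient.mk _ x, hx⟩

/-- Plumbing for the cusp count: a complete invariant of the relation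
`∃ k, N ∣ (a + k c) c' - c a'` on first columns computes `numOrbits (X0Cosets N) T`. -/
theorem numOrbits_T_eq_natCard (N : ℕ) {S : Type*} (Φ : SL(2, ℤ) → S)
    (hΦ : ∀ g h, Φ g = Φ h ↔
      ∃ k : ℤ, (N : ℤ) ∣ (colA g + k * colC g) * colC h - colC g * colA h)
    (hsurj : Function.Surjective Φ) : numOrbits (X0Cosets N) T = Nat.card S := by
  have hmk : ∀ g h : SL(2, ℤ), (QuotientGroup.mk g : X0Cosets N) = QuotientGroup.mk h → Φ g = Φ h := by
    intro g h e
    rw [hΦ]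
    refine ⟨0, ?_⟩
    rw [mk_eq_mk_iff] at e
    simpa using e
  refine numOrbits_eq_natCard_of_invariant (X := X0Cosets N) T
    (Quotient.lift (s := QuotientGroup.leftRel (Gamma0 N)) Φ
      (fun g h e => hmk g h (Quotient.sound (s := QuotientGroup.leftRel (Gamma0 N)) e))) ?_ ?_
  · intro x y
    induction x using QuotientGroup.induction_on with | H g =>
    induction y using QuotientGroup.induction_on with | H h =>
    show Φ g = Φ h ↔ _
    rw [hΦ]
    refine exists_congr fun k => ?_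
    rw [smul_mk, mk_eq_mk_iff, colA_T_zpow_mul, colC_T_zpow_mul]
  · intro s
    obtain ⟨g, hg⟩ := hsurj s
    exact ⟨QuotientGroup.mk g, hg⟩

end Plumbing

section Index

/-- `gcd(d, N/d)`. -/
def cuspG (N d : ℕ) : ℕ := Nat.gcd d (N / d)

/-- The index set of the cusps of `Γ₀(N)`: pairs `(d, r)` with `d ∣ N`, `r < gcd(d, N/d)` and
`r` coprime to `gcd(d, N/d)`. -/
def cuspIdx (N : ℕ) : Finset (Σ _ : ℕ, ℕ) :=
  N.divisors.sigma fun d => (Finset.range (cuspG N d)).filter fun r => (cuspG N d).Coprime r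

theorem card_cuspIdx (N : ℕ) : (cuspIdx N).card = ModularCurve.cuspCount N := by
  unfold cuspIdx ModularCurve.cuspCount
  rw [Finset.card_sigma]
  refine Finset.sum_congr rfl fun d _ => ?_
  rw [Nat.totient_eq_card_coprime]
  rfl

theorem mem_cuspIdx {N : ℕ} {p : Σ _ : ℕ, ℕ} :
    p ∈ cuspIdx N ↔ p.1 ∈ N.divisors ∧ p.2 < cuspG N p.1 ∧ (cuspG N p.1).Coprime p.2 := by
  unfold cuspIdx
  rw [Finset.mem_sigma, Finset.mem_filter, Finset.mem_range]

theorem natCard_cuspIdx (N : ℕ) : Nat.card (cuspIdx N) = ModularCurve.cuspCount N := by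
  rw [Nat.card_eq_fintype_card, Fintype.card_coe, card_cuspIdx]

theorem cuspG_dvd_left (N d : ℕ) : cuspG N d ∣ d := Nat.gcd_dvd_left _ _

theorem cuspG_dvd_right (N d : ℕ) : cuspG N d ∣ N / d := Nat.gcd_dvd_right _ _

theorem cuspG_pos {N d : ℕ} (hd : 0 < d) : 0 < cuspG N d := Nat.gcd_pos_of_pos_left _ hd

end Index

section Invariant

variable (N : ℕ) [NeZero N]

/-- The second cusp invariant `a * (c/d)⁻¹ mod gcd(d, N/d)`. -/
noncomputable def cuspW (d : ℕ) (a c : ℤ) : ZMod (cuspG N d) :=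
  ((a : ℤ) : ZMod (cuspG N d)) * (((c / (d : ℤ) : ℤ)) : ZMod (cuspG N d))⁻¹

/-- The cusp invariant of a matrix: `(gcd(c,N), a * (c/d)⁻¹ mod gcd(d,N/d))`. -/
noncomputable def cuspInv (g : SL(2, ℤ)) : Σ _ : ℕ, ℕ :=
  ⟨Int.gcd (colC g) N, (cuspW N (Int.gcd (colC g) N) (colA g) (colC g)).val⟩

theorem gcd_pos' (c : ℤ) : 0 < Int.gcd c N :=
  Int.gcd_pos_of_ne_zero_right _ (by exact_mod_cast NeZero.ne N)

omit [NeZero N] in
theorem gcd_dvd_N (c : ℤ) : Int.gcd c N ∣ N :=
  Int.natCast_dvd_natCast.mp (Int.gcd_dvd_right c N)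

theorem isCoprime_div (c : ℤ) :
    IsCoprime (c / (Int.gcd c N : ℤ)) (((N / Int.gcd c N : ℕ)) : ℤ) := by
  have h := Int.gcd_ediv_gcd_ediv_gcd (i := c) (j := (N : ℤ)) (gcd_pos' N c)
  rw [← Int.isCoprime_iff_gcd_eq_one] at h
  rwa [Int.natCast_div]

theorem isUnit_div (c : ℤ) :
    IsUnit (((c / (Int.gcd c N : ℤ) : ℤ)) : ZMod (cuspG N (Int.gcd c N))) := by
  rw [ZMod.coe_int_isUnit_iff_isCoprime]
  exact ((isCoprime_div N c).of_isCoprime_of_dvd_right
    (Int.natCast_dvd_natCast.mpr (cuspG_dvd_right N _))).symm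

omit [NeZero N] in
theorem isUnit_left {a c : ℤ} (h : IsCoprime a c) :
    IsUnit ((a : ℤ) : ZMod (cuspG N (Int.gcd c N))) := by
  rw [ZMod.coe_int_isUnit_iff_isCoprime]
  refine (h.of_isCoprime_of_dvd_right ?_).symm
  exact (Int.natCast_dvd_natCast.mpr (cuspG_dvd_left N _)).trans (Int.gcd_dvd_left c N)

theorem isUnit_cuspW {a c : ℤ} (h : IsCoprime a c) :
    IsUnit (cuspW N (Int.gcd c N) a c) :=
  (isUnit_left N h).mul (ZMod.isUnit_inv (isUnit_div N c))

theorem cuspInv_mem (g : SL(2, ℤ)) : cuspInv N g ∈ cuspIdx N := by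
  rw [mem_cuspIdx]
  have hpos := gcd_pos' N (colC g)
  have : NeZero (cuspG N (Int.gcd (colC g) N)) := ⟨(cuspG_pos hpos).ne'⟩
  refine ⟨Nat.mem_divisors.mpr ⟨gcd_dvd_N N _, NeZero.ne N⟩, ZMod.val_lt _, ?_⟩
  obtain ⟨u, hu⟩ := isUnit_cuspW N (isCoprime_col g)
  show (cuspG N (Int.gcd (colC g) N)).Coprime (cuspW N (Int.gcd (colC g) N) (colA g) (colC g)).val
  rw [← hu]
  exact (ZMod.val_coe_unit_coprime u).symm

/-- Equality of the second invariants, as a divisibility. -/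
theorem cuspW_eq_iff {a c a' c' : ℤ} (hd : Int.gcd c N = Int.gcd c' N) :
    cuspW N (Int.gcd c N) a c = cuspW N (Int.gcd c N) a' c' ↔
      ((cuspG N (Int.gcd c N) : ℕ) : ℤ) ∣
        a * (c' / (Int.gcd c N : ℤ)) - a' * (c / (Int.gcd c N : ℤ)) := by
  have hu := isUnit_div N c
  have hu' := isUnit_div N c'
  rw [← hd] at hu'
  unfold cuspW
  set u : ZMod (cuspG N (Int.gcd c N)) := Int.cast (c / (Int.gcd c N : ℤ)) with hu_def
  set u' : ZMod (cuspG N (Int.gcd c N)) := Int.cast (c' / (Int.gcd c N : ℤ)) with hu'_def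
  have e1 : u * u⁻¹ = 1 := ZMod.mul_inv_of_unit _ hu
  have e2 : u' * u'⁻¹ = 1 := ZMod.mul_inv_of_unit _ hu'
  have key : ((a : ℤ) : ZMod (cuspG N (Int.gcd c N))) * u⁻¹ = (a' : ℤ) * u'⁻¹ ↔
      ((a' : ℤ) : ZMod (cuspG N (Int.gcd c N))) * u = (a : ℤ) * u' := by
    constructor
    · intro e
      linear_combination (-(u * u')) * e + ((a : ℤ) : ZMod (cuspG N (Int.gcd c N))) * u' * e1
        - ((a' : ℤ) : ZMod (cuspG N (Int.gcd c N))) * u * e2
    · intro e
      linear_combination (-(u⁻¹ * u'⁻¹)) * e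
        - ((a : ℤ) : ZMod (cuspG N (Int.gcd c N))) * u⁻¹ * e2
        + ((a' : ℤ) : ZMod (cuspG N (Int.gcd c N))) * u'⁻¹ * e1
  rw [key, hu_def, hu'_def, ← Int.cast_mul, ← Int.cast_mul, ZMod.intCast_eq_intCast_iff_dvd_sub]

theorem cuspInv_eq_iff (g h : SL(2, ℤ)) :
    cuspInv N g = cuspInv N h ↔
      Int.gcd (colC g) N = Int.gcd (colC h) N ∧
      ((cuspG N (Int.gcd (colC g) N) : ℕ) : ℤ) ∣
        colA g * (colC h / (Int.gcd (colC g) N : ℤ)) -
          colA h * (colC g / (Int.gcd (colC g) N : ℤ)) := by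
  have hpos := gcd_pos' N (colC g)
  have : NeZero (cuspG N (Int.gcd (colC g) N)) := ⟨(cuspG_pos hpos).ne'⟩
  unfold cuspInv
  rw [Sigma.mk.injEq]
  constructor
  · rintro ⟨hd, hw⟩
    refine ⟨hd, ?_⟩
    rw [← cuspW_eq_iff N hd]
    rw [← hd] at hw
    exact ZMod.val_injective _ (eq_of_heq hw)
  · rintro ⟨hd, hw⟩
    refine ⟨hd, ?_⟩
    rw [← cuspW_eq_iff N hd] at hw
    rw [← hd, hw]

/-- Every index is the invariant of some matrix. -/
theorem exists_cuspInv_eq {p : Σ _ : ℕ, ℕ} (hp : p ∈ cuspIdx N) :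
    ∃ g : SL(2, ℤ), cuspInv N g = p := by
  obtain ⟨d, r⟩ := p
  rw [mem_cuspIdx] at hp
  obtain ⟨hdN, hr, hcop⟩ := hp
  simp only at hdN hr hcop
  have hdvd : d ∣ N := (Nat.mem_divisors.mp hdN).1
  have hdpos : 0 < d := Nat.pos_of_dvd_of_pos hdvd (Nat.pos_of_ne_zero (NeZero.ne N))
  have : NeZero d := ⟨hdpos.ne'⟩
  have : NeZero (cuspG N d) := ⟨(cuspG_pos hdpos).ne'⟩
  -- lift the unit `r mod gg` to a unit mod `d`
  obtain ⟨u, hu⟩ := ZMod.unitsMap_surjective (cuspG_dvd_left N d) (ZMod.unitOfCoprime r hcop.symm)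
  have hu' : ((u : ZMod d).val : ZMod (cuspG N d)) = (r : ZMod (cuspG N d)) := by
    have := congrArg (fun x : (ZMod (cuspG N d))ˣ => (x : ZMod (cuspG N d))) hu
    simp only [ZMod.unitsMap_def, Units.coe_map, MonoidHom.coe_coe, ZMod.castHom_apply,
      ZMod.coe_unitOfCoprime] at this
    rw [ZMod.natCast_val]
    exact this
  have hcopa : IsCoprime (((u : ZMod d).val : ℕ) : ℤ) (d : ℤ) :=
    Nat.isCoprime_iff_coprime.mpr (ZMod.val_coe_unit_coprime u)
  obtain ⟨g, hgA, hgC⟩ := exists_col hcopa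
  refine ⟨g, ?_⟩
  have hgcd : Int.gcd (colC g) N = d := by
    rw [hgC, Int.gcd_natCast_natCast]
    exact Nat.gcd_eq_left hdvd
  unfold cuspInv
  rw [hgcd, hgA, hgC]
  congr 1
  unfold cuspW
  rw [Int.ediv_self (by exact_mod_cast hdpos.ne'), Int.cast_one]
  have h1 : (1 : ZMod (cuspG N d))⁻¹ = 1 := by
    have := ZMod.mul_inv_of_unit (1 : ZMod (cuspG N d)) isUnit_one
    rwa [one_mul] at this
  rw [h1, mul_one, Int.cast_natCast, hu', ZMod.val_natCast_of_lt hr]

end Invariant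

section Final

variable (N : ℕ) [NeZero N]

/-- `numOrbits_T`, given the arithmetic core (I) as a hypothesis. -/
theorem numOrbits_T_of_core
    (hcore : ∀ g h : SL(2, ℤ),
      (∃ k : ℤ, (N : ℤ) ∣ (colA g + k * colC g) * colC h - colC g * colA h) ↔
        (Int.gcd (colC g) N = Int.gcd (colC h) N ∧
          ((cuspG N (Int.gcd (colC g) N) : ℕ) : ℤ) ∣
            colA g * (colC h / (Int.gcd (colC g) N : ℤ)) -
              colA h * (colC g / (Int.gcd (colC g) N : ℤ)))) :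
    numOrbits (X0Cosets N) T = ModularCurve.cuspCount N := by
  rw [← natCard_cuspIdx N]
  refine numOrbits_T_eq_natCard N (fun g => (⟨cuspInv N g, cuspInv_mem N g⟩ : cuspIdx N)) ?_ ?_
  · intro g h
    rw [Subtype.mk.injEq, cuspInv_eq_iff, hcore]
  · rintro ⟨p, hp⟩
    obtain ⟨g, hg⟩ := exists_cuspInv_eq N hp
    exact ⟨g, Subtype.ext hg⟩

end Final

end Fermat.Agent.S24.CuspAssist37
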