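import Mathlib
import Fermat.Prelude.Def_ModularCurve_LaurentCoeff
import Fermat.Prelude.Def_ModularCurve_X0
import Fermat.Agent.S24.JBridge
import Fermat.Agent.S24.Hermite

/-!
# S24, MOD-UT: explicit `q_N`-expansions of the upper triangular conjugates of `j`

For integers `a, e > 0`, `b`, the function `τ ↦ j ((a τ + b) / e)` has, for every level
`N = e * k`, the convergent expansion in `q_N = exp (2 π i τ / N)`

  `j ((a τ + b) / e) = ∑ₙ cₙ ζ^(b n) q_N ^ (a k n)`,   `ζ = exp (2 π i / e)`, `cₙ = jq.coeff n`,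

i.e. the Laurent series `EU = qExpand (a k) (twist (ζ^b) jq)`.  It is defined over `ℚ̄` (any
subfield containing the `e`-th roots of unity), has order `-(a k)` and leading coefficient
`ζ^(-b)`.
-/

open ModularCurve Complex Filter Topology
open UpperHalfPlane hiding I
open scoped Real

noncomputable section

namespace Fermat.Agent.S24.JUExp

open Fermat.Agent.S24.JBridge Fermat.Agent.S24.Hermite

local notation "𝕢" => Function.Periodic.qParam

/-! ### The level one expansion, `ℤ`-indexed -/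

/-- coefficient of `jq` at `n - 1` -/
lemma jq_coeff_natCast_sub_one (n : ℕ) :
    jq.coeff ((n : ℤ) - 1) = ((PowerSeries.coeff n jNum : ℤ) : ℚ) := by
  rw [jq, HahnSeries.coeff_single_mul, one_mul]
  have : ((n : ℤ) - 1 - (-1)) = (n : ℤ) := by ring
  rw [this, HahnSeries.ofPowerSeries_apply_coeff, jNumQ, PowerSeries.coeff_map]
  rfl

/-- **Level one `q`-expansion of `j`, `ℤ`-indexed**: `j τ = ∑ₘ (jq)ₘ qᵐ`. -/
theorem hasSum_jq (τ : ℍ) :
    HasSum (fun m : ℤ => ((jq.coeff m : ℚ) : ℂ) * (𝕢 1 τ) ^ m) (jFun τ) := by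
  have hq0 : 𝕢 1 (τ : ℂ) ≠ 0 := Function.Periodic.qParam_ne_zero _
  have h1 := (hasSum_jNum τ).mul_right (𝕢 1 (τ : ℂ))⁻¹
  have h2 : 𝕢 1 (τ : ℂ) * jFun τ * (𝕢 1 (τ : ℂ))⁻¹ = jFun τ := by
    field_simp
  rw [h2] at h1
  let i : ℕ → ℤ := fun n => (n : ℤ) - 1
  have hi : Function.Injective i := fun m n h => by
    simp only [i] at h
    omega
  have hzero : ∀ m : ℤ, m ∉ Set.range i →
      ((jq.coeff m : ℚ) : ℂ) * (𝕢 1 (τ : ℂ)) ^ m = 0 := by
    intro m hm
    have hlt : m < -1 := by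
      by_contra hge
      push Not at hge
      exact hm ⟨(m + 1).toNat, by simp only [i]; omega⟩
    rw [coeff_jq_of_lt hlt]
    simp
  refine (hi.hasSum_iff hzero).mp ?_
  have hfun : ((fun m : ℤ => ((jq.coeff m : ℚ) : ℂ) * (𝕢 1 (τ : ℂ)) ^ m) ∘ i)
      = fun n : ℕ => ((PowerSeries.coeff n jNum : ℤ) : ℂ) * (𝕢 1 (τ : ℂ)) ^ n
          * (𝕢 1 (τ : ℂ))⁻¹ := by
    funext n
    simp only [Function.comp_apply, i]
    rw [jq_coeff_natCast_sub_one, zpow_sub₀ hq0, zpow_natCast, zpow_one]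
    push_cast
    ring
  rw [hfun]
  exact h1

/-! ### Twists of Laurent series -/

section Twist

variable {R S : Type*} [Field R] [Field S]

/-- Multiply the `n`-th coefficient of a Laurent series by `w ^ n`. -/
def twist (w : R) (E : LaurentSeries R) : LaurentSeries R where
  coeff n := w ^ n * E.coeff n
  isPWO_support' := E.isPWO_support.mono fun n hn => by
    simp only [Function.mem_support, ne_eq] at hn ⊢
    exact right_ne_zero_of_mul hn

@[simp]
lemma twist_coeff (w : R) (E : LaurentSeries R) (n : ℤ) :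
    (twist w E).coeff n = w ^ n * E.coeff n := rfl

lemma coeffMap_twist (f : R →+* S) (w : R) (E : LaurentSeries R) :
    coeffMap f (twist w E) = twist (f w) (coeffMap f E) := by
  ext n
  simp [map_zpow₀]

lemma coeffMap_qExpand (f : R →+* S) (M : ℕ) [NeZero M] (E : LaurentSeries R) :
    coeffMap f (qExpand R M E) = qExpand S M (coeffMap f E) := by
  ext n
  by_cases hn : (M : ℤ) ∣ n
  · obtain ⟨m, rfl⟩ := hn
    simp [qExpand_coeff_mul]
  · rw [coeffMap_coeff, qExpand_coeff_of_not_dvd M _ hn, qExpand_coeff_of_not_dvd M _ hn, map_zero]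

end Twist

/-- The series `jq` with complex coefficients. -/
def jqC : LaurentSeries ℂ := coeffMap (algebraMap ℚ ℂ) jq

@[simp]
lemma jqC_coeff (m : ℤ) : jqC.coeff m = ((jq.coeff m : ℚ) : ℂ) := rfl

/-- The expansion of `τ ↦ j ((a τ + b) / e)` in `q_{e k}`:
`qExpand (a k) (twist (ζ_e ^ b) jq)` for a given `e`-th root of unity `ζ_e`. -/
def EU {R : Type*} [Field R] (E : LaurentSeries R) (ζ : R) (a k : ℕ) [NeZero a] [NeZero k]
    (b : ℤ) : LaurentSeries R :=
  qExpand R (a * k) (twist (ζ ^ b) E)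

lemma EU_coeff_mul {R : Type*} [Field R] (E : LaurentSeries R) (ζ : R) (a k : ℕ) [NeZero a]
    [NeZero k] (b m : ℤ) :
    (EU E ζ a k b).coeff (((a * k : ℕ) : ℤ) * m) = (ζ ^ b) ^ m * E.coeff m := by
  rw [EU, qExpand_coeff_mul, twist_coeff]

lemma EU_coeff_of_not_dvd {R : Type*} [Field R] (E : LaurentSeries R) (ζ : R) (a k : ℕ)
    [NeZero a] [NeZero k] (b : ℤ) {m : ℤ} (hm : ¬ ((a * k : ℕ) : ℤ) ∣ m) :
    (EU E ζ a k b).coeff m = 0 :=
  qExpand_coeff_of_not_dvd (a * k) _ hm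

lemma coeffMap_EU {R S : Type*} [Field R] [Field S] (f : R →+* S) (E : LaurentSeries R) (ζ : R)
    (a k : ℕ) [NeZero a] [NeZero k] (b : ℤ) :
    coeffMap f (EU E ζ a k b) = EU (coeffMap f E) (f ζ) a k b := by
  rw [EU, EU, coeffMap_qExpand, coeffMap_twist, map_zpow₀]

/-- The standard `e`-th root of unity `exp (2 π i / e)`. -/
def zetaC (e : ℕ) : ℂ := Complex.exp (2 * π * I / e)

/-- `q_N(τ) = exp (2 π i τ / N)`. -/
def qN (N : ℕ) (τ : ℍ) : ℂ := Complex.exp (2 * π * I * τ / N)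

lemma qN_ne_zero (N : ℕ) (τ : ℍ) : qN N τ ≠ 0 := Complex.exp_ne_zero _

/-- `q(W) = ζ_e^b q_{ek}(τ)^{ak}` for `W = (a τ + b) / e`. -/
lemma qParam_affPoint (a e k : ℕ) [NeZero a] [NeZero e] [NeZero k] (b : ℤ) (τ : ℍ) :
    𝕢 1 (affPoint a b e (by exact_mod_cast NeZero.pos a) (by exact_mod_cast NeZero.pos e) τ : ℍ)
      = zetaC e ^ b * qN (e * k) τ ^ (((a * k : ℕ) : ℤ)) := by
  have he : (e : ℂ) ≠ 0 := Nat.cast_ne_zero.mpr (NeZero.ne e)
  have hk : (k : ℂ) ≠ 0 := Nat.cast_ne_zero.mpr (NeZero.ne k)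
  rw [Function.Periodic.qParam, zetaC, qN, ← Complex.exp_int_mul, ← Complex.exp_int_mul,
    ← Complex.exp_add, coe_affPoint]
  congr 1
  push_cast
  field_simp
  ring

/-- **MOD-UT, analytic form.** `j ((a τ + b) / e) = ∑ₘ (EU)ₘ q_{e k}(τ)ᵐ`. -/
theorem hasSum_EU (a e k : ℕ) [NeZero a] [NeZero e] [NeZero k] (b : ℤ) (τ : ℍ) :
    HasSum (fun m : ℤ => (EU jqC (zetaC e) a k b).coeff m * qN (e * k) τ ^ m)
      (jFun (affPoint a b e (by exact_mod_cast NeZero.pos a) (by exact_mod_cast NeZero.pos e) τ)) := by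
  set W := affPoint a b e (by exact_mod_cast NeZero.pos a) (by exact_mod_cast NeZero.pos e) τ
    with hW
  have h1 := hasSum_jq W
  rw [qParam_affPoint a e k b τ] at h1
  let i : ℤ → ℤ := fun m => ((a * k : ℕ) : ℤ) * m
  have hak : ((a * k : ℕ) : ℤ) ≠ 0 := by
    exact_mod_cast NeZero.ne (a * k)
  have hi : Function.Injective i := fun m n h => mul_left_cancel₀ hak h
  have hzero : ∀ m : ℤ, m ∉ Set.range i →
      (EU jqC (zetaC e) a k b).coeff m * qN (e * k) τ ^ m = 0 := by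
    intro m hm
    rw [EU_coeff_of_not_dvd, zero_mul]
    rintro ⟨c, rfl⟩
    exact hm ⟨c, rfl⟩
  refine (hi.hasSum_iff hzero).mp ?_
  have hfun : ((fun m : ℤ => (EU jqC (zetaC e) a k b).coeff m * qN (e * k) τ ^ m) ∘ i)
      = fun m : ℤ => ((jq.coeff m : ℚ) : ℂ)
          * (zetaC e ^ b * qN (e * k) τ ^ (((a * k : ℕ) : ℤ))) ^ m := by
    funext m
    simp only [Function.comp_apply, i]
    rw [EU_coeff_mul, jqC_coeff, mul_zpow, zpow_mul]
    ring
  rw [hfun]
  exact h1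

/-! ### Order and leading coefficient -/

lemma order_eq_of_coeff {R : Type*} [Field R] {x : LaurentSeries R} {g : ℤ}
    (h0 : x.coeff g ≠ 0) (hlt : ∀ m < g, x.coeff m = 0) : x.order = g := by
  have hx : x ≠ 0 := fun h => h0 (by rw [h]; rfl)
  refine le_antisymm (HahnSeries.order_le_of_coeff_ne_zero h0) ?_
  by_contra hlt'
  push Not at hlt'
  exact hx (HahnSeries.coeff_order_eq_zero.mp (hlt _ hlt'))

section Leading

variable {R : Type*} [Field R] (E : LaurentSeries R) (ζ : R) (a k : ℕ) [NeZero a] [NeZero k]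
  (b : ℤ)

lemma EU_coeff_of_lt (hE : ∀ n < -1, E.coeff n = 0) {m : ℤ} (hm : m < -((a * k : ℕ) : ℤ)) :
    (EU E ζ a k b).coeff m = 0 := by
  by_cases hdvd : ((a * k : ℕ) : ℤ) ∣ m
  · obtain ⟨c, rfl⟩ := hdvd
    rw [EU_coeff_mul]
    have hpos : (0 : ℤ) < ((a * k : ℕ) : ℤ) := by exact_mod_cast NeZero.pos (a * k)
    have hc : c < -1 := by
      by_contra hc
      push Not at hc
      nlinarith
    rw [hE c hc, mul_zero]
  · exact EU_coeff_of_not_dvd E ζ a k b hdvd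

lemma EU_coeff_neg (hE1 : E.coeff (-1) = 1) :
    (EU E ζ a k b).coeff (-((a * k : ℕ) : ℤ)) = ζ ^ (-b) := by
  have : -((a * k : ℕ) : ℤ) = ((a * k : ℕ) : ℤ) * (-1) := by ring
  rw [this, EU_coeff_mul, hE1, mul_one, zpow_neg_one, zpow_neg]

/-- The expansion has order `-(a k)`. -/
theorem EU_order (hζ : ζ ≠ 0) (hE : ∀ n < -1, E.coeff n = 0) (hE1 : E.coeff (-1) = 1) :
    (EU E ζ a k b).order = -((a * k : ℕ) : ℤ) := by
  refine order_eq_of_coeff ?_ fun m hm => EU_coeff_of_lt E ζ a k b hE hm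
  rw [EU_coeff_neg E ζ a k b hE1]
  exact zpow_ne_zero _ hζ

end Leading

lemma jqC_coeff_of_lt {n : ℤ} (hn : n < -1) : jqC.coeff n = 0 := by
  rw [jqC_coeff, coeff_jq_of_lt hn, Rat.cast_zero]

lemma jqC_coeff_neg_one : jqC.coeff (-1) = 1 := by
  rw [jqC_coeff, coeff_jq_neg_one, Rat.cast_one]

lemma zetaC_ne_zero (e : ℕ) : zetaC e ≠ 0 := Complex.exp_ne_zero _

theorem EU_jqC_order (a e k : ℕ) [NeZero a] [NeZero e] [NeZero k] (b : ℤ) :
    (EU jqC (zetaC e) a k b).order = -((a * k : ℕ) : ℤ) :=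
  EU_order jqC (zetaC e) a k b (zetaC_ne_zero e) (fun _ hn => jqC_coeff_of_lt hn)
    jqC_coeff_neg_one

theorem EU_jqC_leadingCoeff (a e k : ℕ) [NeZero a] [NeZero e] [NeZero k] (b : ℤ) :
    (EU jqC (zetaC e) a k b).coeff (-((a * k : ℕ) : ℤ)) = zetaC e ^ (-b) :=
  EU_coeff_neg jqC (zetaC e) a k b jqC_coeff_neg_one

/-! ### Rationality over an algebraically closed subfield -/

lemma zetaC_pow (e : ℕ) [NeZero e] : zetaC e ^ e = 1 := by
  have he : (e : ℂ) ≠ 0 := Nat.cast_ne_zero.mpr (NeZero.ne e)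
  rw [zetaC, ← Complex.exp_nat_mul]
  have : (e : ℂ) * (2 * π * I / e) = 2 * π * I := by field_simp
  rw [this, Complex.exp_two_pi_mul_I]

/-- `exp (2 π i / e)` lies in the image of any embedding of an algebraically closed field of
characteristic zero. -/
theorem exists_map_eq_zetaC {K : Type*} [Field K] [IsAlgClosed K] [CharZero K] (ι : K →+* ℂ)
    (e : ℕ) [NeZero e] : ∃ z : K, ι z = zetaC e ∧ z ^ e = 1 := by
  obtain ⟨ζ₀, hζ₀⟩ := HasEnoughRootsOfUnity.exists_primitiveRoot K e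
  have hprim : IsPrimitiveRoot (ι ζ₀) e := hζ₀.map_of_injective ι.injective
  obtain ⟨i, -, hi⟩ := hprim.eq_pow_of_pow_eq_one (zetaC_pow e)
  refine ⟨ζ₀ ^ i, by rw [map_pow, hi], ?_⟩
  rw [← pow_mul, mul_comm, pow_mul, hζ₀.pow_eq_one, one_pow]

/-- **MOD-UT, rationality.** The expansion `EU` of `j ((a τ + b) / e)` is the image under `ι` of
the corresponding series over `K` (for instance `K = ℚ̄`). -/
theorem exists_EU_rational {K : Type*} [Field K] [IsAlgClosed K] [CharZero K] [Algebra ℚ K]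
    (ι : K →+* ℂ) (a e k : ℕ) [NeZero a] [NeZero e] [NeZero k] (b : ℤ) :
    ∃ ζ : K, ι ζ = zetaC e ∧ ζ ^ e = 1 ∧
      coeffMap ι (EU (coeffEmb K jq) ζ a k b) = EU jqC (zetaC e) a k b := by
  obtain ⟨ζ, hζ, hζe⟩ := exists_map_eq_zetaC ι e
  refine ⟨ζ, hζ, hζe, ?_⟩
  rw [coeffMap_EU, hζ, coeffEmb, coeffMap_coeffMap]
  congr 1
  exact coeffMap_congr (RingHom.ext fun c => by simp) jq

/-! ### Packaged form for integer Hermite data -/

/-- **MOD-UT, packaged.** For integers `a, e > 0`, `b`, and a level `N` with `e ∣ N`, the function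
`τ ↦ j ((a τ + b) / e)` has a `q_N`-expansion `coeffMap ι EK` with `EK` defined over `K`
(e.g. `K = ℚ̄`), of order `-(a * (N / e))`, whose leading coefficient is an `e`-th root of unity. -/
theorem exists_qExp_affPoint {K : Type*} [Field K] [IsAlgClosed K] [CharZero K] [Algebra ℚ K]
    (ι : K →+* ℂ) (a b e : ℤ) (ha : 0 < a) (he : 0 < e) (N : ℕ) [NeZero N] (hN : e ∣ (N : ℤ)) :
    ∃ EK : LaurentSeries K,
      EK.order = -(a * ((N : ℤ) / e)) ∧
      (∀ m < -(a * ((N : ℤ) / e)), EK.coeff m = 0) ∧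
      (EK.coeff (-(a * ((N : ℤ) / e)))) ^ e.toNat = 1 ∧
      (∀ m : ℤ, ¬ (a * ((N : ℤ) / e)) ∣ m → EK.coeff m = 0) ∧
      ∀ τ : ℍ, HasSum
        (fun m : ℤ => (coeffMap ι EK).coeff m * Complex.exp (2 * π * I * τ / N) ^ m)
        (jFun (affPoint a b e ha he τ)) := by
  lift a to ℕ using ha.le
  lift e to ℕ using he.le
  obtain ⟨k, hk⟩ := hN
  have hkpos : 0 < k := by
    have hNpos : (0 : ℤ) < (N : ℤ) := by exact_mod_cast NeZero.pos N
    rw [hk] at hNpos
    exact pos_of_mul_pos_right hNpos he.le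
  lift k to ℕ using hkpos.le
  have hNek : N = e * k := by exact_mod_cast hk
  have : NeZero a := ⟨by rintro rfl; exact lt_irrefl _ ha⟩
  have : NeZero e := ⟨by rintro rfl; exact lt_irrefl _ he⟩
  have : NeZero k := ⟨by rintro rfl; exact lt_irrefl _ hkpos⟩
  have hdiv : ((N : ℤ) / (e : ℤ)) = k := by
    rw [hk]
    exact Int.mul_ediv_cancel_left _ (by exact_mod_cast NeZero.ne e)
  have hak : (a : ℤ) * ((N : ℤ) / (e : ℤ)) = ((a * k : ℕ) : ℤ) := by
    rw [hdiv]; push_cast; ring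
  obtain ⟨ζ, hζ, hζe, hmap⟩ := exists_EU_rational ι a e k b
  have hζ0 : ζ ≠ 0 := by
    rintro rfl
    rw [zero_pow (NeZero.ne e)] at hζe
    exact zero_ne_one hζe
  have hE : ∀ n < -1, (coeffEmb K jq).coeff n = 0 := fun n hn => by
    rw [coeffEmb_coeff, coeff_jq_of_lt hn, map_zero]
  have hE1 : (coeffEmb K jq).coeff (-1) = 1 := by
    rw [coeffEmb_coeff, coeff_jq_neg_one, map_one]
  refine ⟨EU (coeffEmb K jq) ζ a k b, ?_, ?_, ?_, ?_, ?_⟩
  · rw [hak]
    exact EU_order _ ζ a k b hζ0 hE hE1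
  · intro m hm
    rw [hak] at hm
    exact EU_coeff_of_lt _ ζ a k b hE hm
  · rw [hak, EU_coeff_neg _ ζ a k b hE1, Int.toNat_natCast, ← zpow_natCast, ← zpow_mul,
      mul_comm, zpow_mul, zpow_natCast, hζe, one_zpow]
  · intro m hm
    rw [hak] at hm
    exact EU_coeff_of_not_dvd _ ζ a k b hm
  · intro τ
    rw [hmap]
    have := hasSum_EU a e k b τ
    simp only [qN] at this
    rw [hNek]
    exact this

end Fermat.Agent.S24.JUExp
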