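/-
S24, package MOD: the CUSP VALUATION (`AnalyticInput.val_inf`) via `q_N`-expansions.

* function level: functions `ℍ → ℂ` having a `q_N`-expansion (helper47's `HasQExp`) form a
  `ℂ`-subalgebra `qExpSubalgebra N`; `cuspOrd N f` := order of the expansion; it is additive on
  products, satisfies the ultrametric inequality, vanishes on nonzero constants, is invariant under
  `τ ↦ T^k τ`, and `cuspOrd N j = -N`.  Every conjugate `τ ↦ j (d (g τ))`, `d ∣ N`, has a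
  `q_N`-expansion (Hermite normal form + `JUExp.exists_qExp_affPoint`).
* `Mer` level: `val_inf_core` is the field `val_inf` of `Mod.AnalyticInput N` *verbatim* for
  `C := ℂ`, `M := HolH.Mer`, with `act` and `Jd` as parameters.

This file is complete: every statement is proved.
-/
import Fermat.Agent.S24.HasQExp
import Fermat.Agent.S24.JUExp
import Fermat.Agent.S24.Hermite
import Fermat.Agent.S24.JAnalytic
import Fermat.Agent.S24.HolH
import Fermat.Agent.S24.Mod.Interface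

set_option autoImplicit false

open UpperHalfPlane hiding I
open Complex Filter Topology
open scoped Real MatrixGroups Manifold
open ModularCurve

namespace Fermat.Agent.S24.CuspVal

open Fermat.Agent.S24.JAnalytic Fermat.Agent.S24.Hermite Fermat.Agent.S24.HolH

/-! ### The subalgebra of functions with a `q_N`-expansion -/

/-- The functions `ℍ → ℂ` which have a `q_N`-expansion. -/
def qExpSubalgebra (N : ℕ) : Subalgebra ℂ (ℍ → ℂ) where
  carrier := {f | ∃ E : LaurentSeries ℂ, HasQExp N f E}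
  mul_mem' := by
    rintro f g ⟨E₁, h₁⟩ ⟨E₂, h₂⟩
    exact ⟨E₁ * E₂, h₁.mul h₂⟩
  add_mem' := by
    rintro f g ⟨E₁, h₁⟩ ⟨E₂, h₂⟩
    exact ⟨E₁ + E₂, h₁.add h₂⟩
  algebraMap_mem' := fun c => ⟨HahnSeries.C c, HasQExp.const N c⟩

lemma mem_qExpSubalgebra {N : ℕ} {f : ℍ → ℂ} :
    f ∈ qExpSubalgebra N ↔ ∃ E : LaurentSeries ℂ, HasQExp N f E := Iff.rfl

/-- The chosen `q_N`-expansion of `f` (`0` if there is none). -/
noncomputable def expOf (N : ℕ) (f : ℍ → ℂ) : LaurentSeries ℂ :=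
  letI := Classical.propDecidable
  if h : ∃ E : LaurentSeries ℂ, HasQExp N f E then h.choose else 0

lemma expOf_eq {N : ℕ} (hN : 0 < N) {f : ℍ → ℂ} {E : LaurentSeries ℂ} (h : HasQExp N f E) :
    expOf N f = E := by
  have hex : ∃ E : LaurentSeries ℂ, HasQExp N f E := ⟨E, h⟩
  unfold expOf
  rw [dif_pos hex]
  exact HasQExp.unique hN hex.choose_spec h

/-- The order of `f` at the cusp `∞`, measured in the parameter `q_N`. -/
noncomputable def cuspOrd (N : ℕ) (f : ℍ → ℂ) : ℤ := (expOf N f).order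

lemma cuspOrd_eq {N : ℕ} (hN : 0 < N) {f : ℍ → ℂ} {E : LaurentSeries ℂ} (h : HasQExp N f E) :
    cuspOrd N f = E.order := by
  rw [cuspOrd, expOf_eq hN h]

lemma exp_ne_zero_of_ne_zero {N : ℕ} {f : ℍ → ℂ} {E : LaurentSeries ℂ} (h : HasQExp N f E)
    (hf : f ≠ 0) : E ≠ 0 := by
  rintro rfl
  exact hf (funext fun τ => h.eq_zero_of_zero τ)

theorem cuspOrd_mul {N : ℕ} (hN : 0 < N) {f g : ℍ → ℂ} (hf : f ∈ qExpSubalgebra N)
    (hg : g ∈ qExpSubalgebra N) (hf0 : f ≠ 0) (hg0 : g ≠ 0) :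
    cuspOrd N (f * g) = cuspOrd N f + cuspOrd N g := by
  obtain ⟨E₁, h₁⟩ := hf
  obtain ⟨E₂, h₂⟩ := hg
  rw [cuspOrd_eq hN h₁, cuspOrd_eq hN h₂, cuspOrd_eq hN (f := f * g) (h₁.mul h₂)]
  exact HahnSeries.order_mul (exp_ne_zero_of_ne_zero h₁ hf0) (exp_ne_zero_of_ne_zero h₂ hg0)

theorem cuspOrd_add {N : ℕ} (hN : 0 < N) {f g : ℍ → ℂ} (hf : f ∈ qExpSubalgebra N)
    (hg : g ∈ qExpSubalgebra N) (hfg : f + g ≠ 0) :
    min (cuspOrd N f) (cuspOrd N g) ≤ cuspOrd N (f + g) := by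
  obtain ⟨E₁, h₁⟩ := hf
  obtain ⟨E₂, h₂⟩ := hg
  rw [cuspOrd_eq hN h₁, cuspOrd_eq hN h₂, cuspOrd_eq hN (f := f + g) (h₁.add h₂)]
  exact HahnSeries.min_order_le_order_add (exp_ne_zero_of_ne_zero (f := f + g) (h₁.add h₂) hfg)

theorem cuspOrd_const {N : ℕ} (hN : 0 < N) (c : ℂ) : cuspOrd N (fun _ => c) = 0 := by
  rw [cuspOrd_eq hN (HasQExp.const N c)]
  exact HahnSeries.order_C

/-- Invariance of the cusp order under translations `τ ↦ T^k τ`. -/
theorem cuspOrd_translate {N : ℕ} (hN : 0 < N) {f : ℍ → ℂ} (hf : f ∈ qExpSubalgebra N) (k : ℤ) :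
    cuspOrd N (fun τ => f (ModularGroup.T ^ k • τ)) = cuspOrd N f := by
  obtain ⟨E, h⟩ := hf
  rw [cuspOrd_eq hN h, cuspOrd_eq hN (h.translate k)]
  exact HasQExp.order_twistBy (Complex.exp_ne_zero _) E

theorem translate_mem {N : ℕ} {f : ℍ → ℂ} (hf : f ∈ qExpSubalgebra N) (k : ℤ) :
    (fun τ => f (ModularGroup.T ^ k • τ)) ∈ qExpSubalgebra N := by
  obtain ⟨E, h⟩ := hf
  exact ⟨_, h.translate k⟩

/-! ### The generators: conjugates of `j` -/

/-- `τ ↦ j ((aτ+b)/e)` has a `q_N`-expansion of order `-(a * (N / e))` when `e ∣ N`. -/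
theorem hasQExp_jFun_affPoint (N : ℕ) [NeZero N] (a b e : ℤ) (ha : 0 < a) (he : 0 < e)
    (hN : e ∣ (N : ℤ)) :
    ∃ E : LaurentSeries ℂ, E.order = -(a * ((N : ℤ) / e)) ∧
      HasQExp N (fun τ => jFun (affPoint a b e ha he τ)) E := by
  obtain ⟨EK, hord, -, -, -, hsum⟩ :=
    JUExp.exists_qExp_affPoint (K := ℂ) (RingHom.id ℂ) a b e ha he N hN
  refine ⟨coeffMap (RingHom.id ℂ) EK, ?_, fun τ => ?_⟩
  · rw [HasQExp.order_coeffMap, hord]
  · have h := hsum τ
    rw [show JBridge.jFun = jFun from rfl] at h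
    simpa [HasQExp.qN_eq] using h

/-- Every conjugate `τ ↦ j (d (g τ))`, `d ∣ N`, has a `q_N`-expansion. The function is given as
any `c` with `c τ = jFun z` whenever `z = d * (g • τ)`. -/
theorem conj_mem_qExpSubalgebra (N : ℕ) [NeZero N] (d : ℕ) (hd : d ∣ N) (g : SL(2, ℤ))
    (c : ℍ → ℂ) (hc : ∀ τ z : ℍ, (z : ℂ) = (d : ℂ) * ((g • τ : ℍ) : ℂ) → c τ = jFun z) :
    c ∈ qExpSubalgebra N := by
  have hd0 : 0 < d := Nat.pos_of_dvd_of_pos hd (NeZero.pos N)
  obtain ⟨g', a, b, e, hae, ha, -, -, he, h⟩ :=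
    exists_hermite_smul (d : ℤ) (by exact_mod_cast hd0) g
  have hc' : c = fun τ : ℍ => jFun (affPoint a b e ha he τ) := by
    funext τ
    rw [hc τ (g' • affPoint a b e ha he τ) (by rw [← h τ]; push_cast; rfl), jFun_smul]
  have heN : e ∣ (N : ℤ) := by
    have h1 : e ∣ (d : ℤ) := ⟨a, by rw [← hae]; ring⟩
    exact h1.trans (by exact_mod_cast hd)
  obtain ⟨E, -, hE⟩ := hasQExp_jFun_affPoint N a b e ha he heN
  rw [hc']
  exact ⟨E, hE⟩

/-- `j` itself has a `q_N`-expansion of order `-N`. -/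
theorem hasQExp_jFun (N : ℕ) [NeZero N] :
    ∃ E : LaurentSeries ℂ, E.order = -(N : ℤ) ∧ HasQExp N jFun E := by
  obtain ⟨E, hord, hE⟩ := hasQExp_jFun_affPoint N 1 0 1 one_pos one_pos (one_dvd _)
  refine ⟨E, by simpa using hord, ?_⟩
  have : (fun τ => jFun (affPoint 1 0 1 one_pos one_pos τ)) = jFun := by
    funext τ
    congr 1
    apply UpperHalfPlane.ext
    simp
  rwa [this] at hE

theorem jFun_mem_qExpSubalgebra (N : ℕ) [NeZero N] : jFun ∈ qExpSubalgebra N := by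
  obtain ⟨E, -, hE⟩ := hasQExp_jFun N
  exact ⟨E, hE⟩

theorem cuspOrd_jFun (N : ℕ) [NeZero N] : cuspOrd N jFun = -(N : ℤ) := by
  obtain ⟨E, hord, hE⟩ := hasQExp_jFun N
  rw [cuspOrd_eq (NeZero.pos N) hE, hord]

/-! ### Transport to `Mer = Frac (Hol)` -/

/-- The holomorphic functions with a `q_N`-expansion, as a subalgebra of `Hol`. -/
def qExpHol (N : ℕ) : Subalgebra ℂ Hol := (qExpSubalgebra N).comap Hol.val

lemma mem_qExpHol {N : ℕ} {f : Hol} : f ∈ qExpHol N ↔ (f : ℍ → ℂ) ∈ qExpSubalgebra N := Iff.rfl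

/-- The image of `qExpHol N` in `Mer`. -/
noncomputable def qExpMer (N : ℕ) : Subalgebra ℂ Mer :=
  (qExpHol N).map (IsScalarTower.toAlgHom ℂ Hol Mer)

lemma mem_qExpMer {N : ℕ} {m : Mer} :
    m ∈ qExpMer N ↔ ∃ f : Hol, f ∈ qExpHol N ∧ algebraMap Hol Mer f = m := by
  rw [qExpMer, Subalgebra.mem_map]
  rfl

lemma algebraMap_injective : Function.Injective (algebraMap Hol Mer) :=
  IsFractionRing.injective Hol Mer

/-- The cusp valuation function on `Mer` (only meaningful on the image of `Hol`). -/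
noncomputable def nuInf (N : ℕ) (m : Mer) : ℤ :=
  letI := Classical.propDecidable
  if h : ∃ f : Hol, algebraMap Hol Mer f = m then cuspOrd N ((h.choose : Hol) : ℍ → ℂ) else 0

lemma nuInf_algebraMap (N : ℕ) (f : Hol) :
    nuInf N (algebraMap Hol Mer f) = cuspOrd N (f : ℍ → ℂ) := by
  have hex : ∃ f' : Hol, algebraMap Hol Mer f' = algebraMap Hol Mer f := ⟨f, rfl⟩
  unfold nuInf
  rw [dif_pos hex]
  rw [algebraMap_injective hex.choose_spec]

lemma coe_ne_zero_of_algebraMap_ne_zero {f : Hol} (h : algebraMap Hol Mer f ≠ 0) :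
    (f : ℍ → ℂ) ≠ 0 := by
  intro h0
  apply h
  have : f = 0 := Subtype.ext h0
  rw [this, map_zero]

/-- The valuation axioms for `nuInf` on `qExpMer N`. -/
theorem isValFunOn_nuInf (N : ℕ) [NeZero N] : Mod.IsValFunOn (qExpMer N) (nuInf N) where
  map_mul := by
    intro a ha b hb ha0 hb0
    obtain ⟨f, hf, rfl⟩ := mem_qExpMer.mp ha
    obtain ⟨g, hg, rfl⟩ := mem_qExpMer.mp hb
    rw [← map_mul, nuInf_algebraMap, nuInf_algebraMap, nuInf_algebraMap]
    exact cuspOrd_mul (NeZero.pos N) hf hg (coe_ne_zero_of_algebraMap_ne_zero ha0)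
      (coe_ne_zero_of_algebraMap_ne_zero hb0)
  map_add := by
    intro a ha b hb _ _ hab
    obtain ⟨f, hf, rfl⟩ := mem_qExpMer.mp ha
    obtain ⟨g, hg, rfl⟩ := mem_qExpMer.mp hb
    rw [← map_add] at hab ⊢
    rw [nuInf_algebraMap, nuInf_algebraMap, nuInf_algebraMap]
    exact cuspOrd_add (NeZero.pos N) hf hg (coe_ne_zero_of_algebraMap_ne_zero hab)
  map_const := by
    intro c _
    rw [IsScalarTower.algebraMap_apply ℂ Hol Mer, nuInf_algebraMap]
    exact cuspOrd_const (NeZero.pos N) c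

/-- Restriction of a valuation function to a smaller subalgebra. -/
theorem isValFunOn_mono {C M : Type*} [Field C] [Field M] [Algebra C M] {A B : Subalgebra C M}
    (hAB : A ≤ B) {ν : M → ℤ} (h : Mod.IsValFunOn B ν) : Mod.IsValFunOn A ν where
  map_mul := fun a ha b hb => h.map_mul a (hAB ha) b (hAB hb)
  map_add := fun a ha b hb => h.map_add a (hAB ha) b (hAB hb)
  map_const := h.map_const

/-- `T`-invariance of `nuInf` on `qExpMer N`. -/
theorem nuInf_T_smul (N : ℕ) [NeZero N] {a : Mer} (ha : a ∈ qExpMer N) :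
    nuInf N (ModularGroup.T • a) = nuInf N a := by
  obtain ⟨f, hf, rfl⟩ := mem_qExpMer.mp ha
  rw [Mer.smul_algebraMap, nuInf_algebraMap, nuInf_algebraMap]
  have h := cuspOrd_translate (NeZero.pos N) (mem_qExpHol.mp hf) (-1)
  rw [← h]
  congr 1

/-- **`AnalyticInput.val_inf` for `M = Mer`**, with the action and the generators as parameters. -/
theorem val_inf_core (N : ℕ) [NeZero N]
    (act : SL(2, ℤ) →* (Mer ≃ₐ[ℂ] Mer)) (hact : ∀ g x, act g x = g • x)
    (jd : ℕ → Hol)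
    (hjd : ∀ d : ℕ, d ∣ N → ∀ τ z : ℍ, (z : ℂ) = (d : ℂ) * (τ : ℂ) →
      (jd d : ℍ → ℂ) τ = jFun z)
    (Jd : ℕ → Mer) (hJd : ∀ d : ℕ, d ∣ N → Jd d = algebraMap Hol Mer (jd d)) :
    ∃ ν : Mer → ℤ, Mod.IsValFunOn (Algebra.adjoin ℂ (Mod.conjSet act Jd N)) ν ∧
      ν (Jd 1) < 0 ∧ -(N : ℤ) ≤ ν (Jd 1) ∧
      ∀ a ∈ Algebra.adjoin ℂ (Mod.conjSet act Jd N), a ≠ 0 →
        ν (act ModularGroup.T a) = ν a := by
  have hle : Algebra.adjoin ℂ (Mod.conjSet act Jd N) ≤ qExpMer N := by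
    refine Algebra.adjoin_le ?_
    rintro s ⟨d, hd, g, rfl⟩
    rw [hact, hJd d hd, Mer.smul_algebraMap]
    refine mem_qExpMer.mpr ⟨g • jd d, ?_, rfl⟩
    refine mem_qExpHol.mpr ?_
    refine conj_mem_qExpSubalgebra N d hd g⁻¹ _ fun τ z hz => ?_
    rw [Hol.smul_apply]
    exact hjd d hd _ z hz
  have hj1 : ((jd 1 : Hol) : ℍ → ℂ) = jFun := by
    funext τ
    exact hjd 1 (one_dvd N) τ τ (by simp)
  have hν1 : nuInf N (Jd 1) = -(N : ℤ) := by
    rw [hJd 1 (one_dvd N), nuInf_algebraMap, hj1, cuspOrd_jFun]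
  refine ⟨nuInf N, isValFunOn_mono hle (isValFunOn_nuInf N), ?_, ?_, ?_⟩
  · rw [hν1]
    have : 0 < (N : ℤ) := by exact_mod_cast NeZero.pos N
    omega
  · rw [hν1]
  · intro a ha _
    rw [hact]
    exact nuInf_T_smul N (hle ha)

end Fermat.Agent.S24.CuspVal
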