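/-
S24 helper (helper70): LOCAL computation of the order of a differential at a place.

For a place `v` of `F/K` (Prelude `AlgebraicCurve.Place`) whose residue field is `K`, in
characteristic zero, with `Ω[F⁄K] = F · dt` (`v.DCoordGenerates`), we prove
`v.ordDifferential (D K F f) = v.ord f - 1` whenever `v.ord f ≠ 0`.

The proof is purely local: the `t`-adic expansion embeds `O_v` into `K⟦X⟧`, and the derivation
`d/dt` of `F` is compared with `d/dX` through uniqueness of derivations.
-/
import Mathlib
import Fermat.Prelude.Def_ModularCurve_CanonicalDivisor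

set_option autoImplicit false

noncomputable section

open KaehlerDifferential IsLocalRing

namespace Fermat.Agent.S24.LocalDiffPS

/-! ### Part 1: `t`-adic expansion of a discrete valuation ring with residue field `K` -/

section Expansion

variable {K O : Type*} [Field K] [CommRing O] [IsDomain O] [IsDiscreteValuationRing O]
  [Algebra K O]

/-- The residue field of `O` identified with `K`. -/
def resEquiv (hres : Function.Surjective (algebraMap K (ResidueField O))) :
    K ≃+* ResidueField O :=
  RingEquiv.ofBijective (algebraMap K (ResidueField O))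
    ⟨(algebraMap K (ResidueField O)).injective, hres⟩

/-- The residue map `O → K`. -/
def resK (hres : Function.Surjective (algebraMap K (ResidueField O))) : O →+* K :=
  ((resEquiv hres).symm : ResidueField O →+* K).comp (residue O)

variable (hres : Function.Surjective (algebraMap K (ResidueField O)))

theorem residue_algebraMap_resK (g : O) :
    algebraMap K (ResidueField O) (resK hres g) = residue O g := by
  have := (resEquiv hres).apply_symm_apply (residue O g)
  exact this

theorem resK_algebraMap (a : K) : resK hres (algebraMap K O a) = a := by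
  apply (algebraMap K (ResidueField O)).injective
  rw [residue_algebraMap_resK, IsScalarTower.algebraMap_apply K O (ResidueField O),
    ResidueField.algebraMap_eq]

theorem resK_eq_zero_iff (g : O) : resK hres g = 0 ↔ g ∈ maximalIdeal O := by
  rw [← residue_eq_zero_iff, ← residue_algebraMap_resK hres g]
  exact (map_eq_zero_iff _ (algebraMap K (ResidueField O)).injective).symm

theorem sub_algebraMap_resK_mem (g : O) :
    g - algebraMap K O (resK hres g) ∈ maximalIdeal O := by
  rw [← residue_eq_zero_iff, map_sub, sub_eq_zero, ← residue_algebraMap_resK hres g,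
    IsScalarTower.algebraMap_apply K O (ResidueField O), ResidueField.algebraMap_eq]

variable {t : O} (ht : Irreducible t)

include ht in
theorem exists_shift (g : O) : ∃ g' : O, g - algebraMap K O (resK hres g) = t * g' := by
  have h := sub_algebraMap_resK_mem hres g
  rw [ht.maximalIdeal_eq, Ideal.mem_span_singleton'] at h
  obtain ⟨a, ha⟩ := h
  exact ⟨a, by rw [← ha, mul_comm]⟩

/-- The shift operator `g ↦ (g - g(0)) / t`. -/
def shiftFun (g : O) : O := (exists_shift hres ht g).choose

theorem t_mul_shiftFun (g : O) :
    t * shiftFun hres ht g = g - algebraMap K O (resK hres g) :=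
  (exists_shift hres ht g).choose_spec.symm

theorem eq_add_t_mul_shiftFun (g : O) :
    g = algebraMap K O (resK hres g) + t * shiftFun hres ht g := by
  rw [t_mul_shiftFun]; ring

/-- The shift operator as a `K`-linear map. -/
def shift : O →ₗ[K] O where
  toFun := shiftFun hres ht
  map_add' g h := by
    apply mul_left_cancel₀ ht.ne_zero
    rw [mul_add, t_mul_shiftFun, t_mul_shiftFun, t_mul_shiftFun, map_add, map_add]
    ring
  map_smul' a g := by
    apply mul_left_cancel₀ ht.ne_zero
    rw [RingHom.id_apply, mul_smul_comm, t_mul_shiftFun, t_mul_shiftFun]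
    simp only [Algebra.smul_def, map_mul, resK_algebraMap]
    ring

theorem t_mul_shift (g : O) :
    t * shift hres ht g = g - algebraMap K O (resK hres g) :=
  t_mul_shiftFun hres ht g

/-- twisted Leibniz rule for the shift. -/
theorem shift_mul (g h : O) :
    shift hres ht (g * h) = algebraMap K O (resK hres g) * shift hres ht h
      + shift hres ht g * h := by
  apply mul_left_cancel₀ ht.ne_zero
  rw [mul_add, t_mul_shift, map_mul, map_mul]
  have h1 := t_mul_shift hres ht g
  have h2 := t_mul_shift hres ht h
  linear_combination (-(algebraMap K O (resK hres g))) * h2 - h * h1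

theorem shift_algebraMap (a : K) : shift hres ht (algebraMap K O a) = 0 := by
  apply mul_left_cancel₀ ht.ne_zero
  rw [t_mul_shift, resK_algebraMap, sub_self, mul_zero]

include ht in
theorem resK_t : resK hres t = 0 := by
  rw [resK_eq_zero_iff]
  exact ht.maximalIdeal_eq ▸ Ideal.mem_span_singleton_self t

theorem shift_t : shift hres ht t = 1 := by
  apply mul_left_cancel₀ ht.ne_zero
  rw [t_mul_shift, resK_t hres ht, map_zero, sub_zero, mul_one]

/-- `resK` as a `K`-linear map. -/
def resKₗ : O →ₗ[K] K where
  toFun := resK hres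
  map_add' := map_add _
  map_smul' a g := by
    rw [RingHom.id_apply, Algebra.smul_def, map_mul, resK_algebraMap, smul_eq_mul]

/-- The `t`-adic expansion, as a `K`-linear map. -/
def expandₗ : O →ₗ[K] PowerSeries K where
  toFun g := PowerSeries.mk fun k => resK hres ((shift hres ht ^ k) g)
  map_add' g h := by
    ext k
    simp only [PowerSeries.coeff_mk, map_add]
  map_smul' a g := by
    ext k
    simp only [PowerSeries.coeff_mk, map_smul, RingHom.id_apply]
    exact (resKₗ hres).map_smul a _

theorem coeff_expandₗ (k : ℕ) (g : O) :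
    PowerSeries.coeff k (expandₗ hres ht g) = resK hres ((shift hres ht ^ k) g) := by
  simp [expandₗ]

theorem expandₗ_eq (g : O) :
    expandₗ hres ht g
      = PowerSeries.C (resK hres g) + PowerSeries.X * expandₗ hres ht (shift hres ht g) := by
  ext k
  cases k with
  | zero => simp [coeff_expandₗ]
  | succ k =>
    rw [map_add, PowerSeries.coeff_succ_X_mul, coeff_expandₗ, coeff_expandₗ, pow_succ,
      Module.End.mul_apply, PowerSeries.coeff_C, if_neg (Nat.succ_ne_zero k), zero_add]

theorem coeff_zero_expandₗ (g : O) :
    PowerSeries.coeff 0 (expandₗ hres ht g) = resK hres g := by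
  simp [coeff_expandₗ]

theorem constantCoeff_expandₗ (g : O) :
    PowerSeries.constantCoeff (expandₗ hres ht g) = resK hres g := by
  rw [← PowerSeries.coeff_zero_eq_constantCoeff_apply, coeff_zero_expandₗ]

theorem coeff_succ_expandₗ (k : ℕ) (g : O) :
    PowerSeries.coeff (k + 1) (expandₗ hres ht g)
      = PowerSeries.coeff k (expandₗ hres ht (shift hres ht g)) := by
  rw [coeff_expandₗ, coeff_expandₗ, pow_succ, Module.End.mul_apply]

theorem expandₗ_algebraMap (a : K) : expandₗ hres ht (algebraMap K O a) = PowerSeries.C a := by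
  rw [expandₗ_eq, shift_algebraMap, map_zero, mul_zero, add_zero, resK_algebraMap]

theorem expandₗ_mul (g h : O) :
    expandₗ hres ht (g * h) = expandₗ hres ht g * expandₗ hres ht h := by
  ext n
  induction n generalizing g h with
  | zero =>
    rw [PowerSeries.coeff_zero_eq_constantCoeff_apply, PowerSeries.coeff_zero_eq_constantCoeff_apply,
      constantCoeff_expandₗ, map_mul PowerSeries.constantCoeff, constantCoeff_expandₗ,
      constantCoeff_expandₗ, map_mul]
  | succ n ih =>
    have hL : PowerSeries.coeff (n + 1) (expandₗ hres ht (g * h))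
        = resK hres g * PowerSeries.coeff n (expandₗ hres ht (shift hres ht h))
          + PowerSeries.coeff n (expandₗ hres ht (shift hres ht g) * expandₗ hres ht h) := by
      rw [coeff_succ_expandₗ, shift_mul, map_add, map_add, ih, ih, expandₗ_algebraMap,
        PowerSeries.coeff_C_mul]
    have hR : PowerSeries.coeff (n + 1) (expandₗ hres ht g * expandₗ hres ht h)
        = resK hres g * PowerSeries.coeff n (expandₗ hres ht (shift hres ht h))
          + PowerSeries.coeff n (expandₗ hres ht (shift hres ht g) * expandₗ hres ht h) := by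
      conv_lhs => rw [expandₗ_eq hres ht g, add_mul, map_add, mul_assoc,
        PowerSeries.coeff_succ_X_mul, PowerSeries.coeff_C_mul, coeff_succ_expandₗ]
    rw [hL, hR]

/-- The `t`-adic expansion `O →ₐ[K] K⟦X⟧`. -/
def expand : O →ₐ[K] PowerSeries K where
  toFun := expandₗ hres ht
  map_one' := by
    have := expandₗ_algebraMap hres ht (1 : K)
    simpa using this
  map_mul' := expandₗ_mul hres ht
  map_zero' := map_zero _
  map_add' := map_add _
  commutes' a := by
    rw [expandₗ_algebraMap]; rfl

theorem expand_apply (g : O) : expand hres ht g = expandₗ hres ht g := rfl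

theorem constantCoeff_expand (g : O) :
    PowerSeries.constantCoeff (expand hres ht g) = resK hres g := by
  rw [← PowerSeries.coeff_zero_eq_constantCoeff, expand_apply, coeff_zero_expandₗ]

theorem expand_t : expand hres ht t = PowerSeries.X := by
  rw [expand_apply, expandₗ_eq, resK_t hres ht, shift_t, map_zero, zero_add]
  have := expandₗ_algebraMap hres ht (1 : K)
  rw [map_one] at this
  rw [this, map_one, mul_one]

theorem pow_dvd_of_coeff_eq_zero (n : ℕ) (g : O)
    (h : ∀ k < n, PowerSeries.coeff k (expand hres ht g) = 0) : t ^ n ∣ g := by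
  induction n generalizing g with
  | zero => simp
  | succ n ih =>
    have h0 : resK hres g = 0 := by
      have := h 0 (Nat.succ_pos n)
      rwa [expand_apply, coeff_zero_expandₗ] at this
    have hg : g = t * shift hres ht g := by
      have := eq_add_t_mul_shiftFun hres ht g
      rw [h0, map_zero, zero_add] at this
      exact this
    have := ih (shift hres ht g) (fun k hk => by
      have := h (k + 1) (Nat.succ_lt_succ hk)
      rwa [expand_apply, coeff_succ_expandₗ] at this)
    rw [hg, pow_succ']
    exact mul_dvd_mul_left t this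

theorem expand_injective : Function.Injective (expand hres ht) := by
  rw [injective_iff_map_eq_zero]
  intro g hg
  by_contra hne
  have hdvd : ∀ n : ℕ, t ^ n ∣ g := fun n =>
    pow_dvd_of_coeff_eq_zero hres ht n g (fun k _ => by rw [hg, map_zero])
  have hfin : FiniteMultiplicity t g := FiniteMultiplicity.of_not_isUnit ht.not_isUnit hne
  exact (FiniteMultiplicity.not_iff_forall.mpr hdvd) hfin

end Expansion

/-! ### Part 2: the derivation `d/dt` preserves the valuation ring -/

section Deriv

open AlgebraicCurve

variable {K F : Type*} [Field K] [Field F] [Algebra K F] (v : Place K F)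

theorem exists_mem_smul_D
    (hres : Function.Surjective (algebraMap K v.ResidueField))
    {t : v.toValuationSubring} (ht : Irreducible t)
    (hgen : Submodule.span F {D K F (t : F)} = ⊤) (f : v.toValuationSubring) :
    ∃ h : v.toValuationSubring, D K F (f : F) = (h : F) • D K F (t : F) := by
  have hmem : D K F (f : F) ∈ Submodule.span F {D K F (t : F)} := hgen ▸ Submodule.mem_top
  obtain ⟨h₀, hh₀⟩ := Submodule.mem_span_singleton.mp hmem
  by_cases hO : h₀ ∈ v.toValuationSubring
  · exact ⟨⟨h₀, hO⟩, hh₀.symm⟩
  exfalso
  have h₀ne : h₀ ≠ 0 := fun h => hO (h ▸ v.toValuationSubring.zero_mem)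
  have hwO : h₀⁻¹ ∈ v.toValuationSubring :=
    (v.toValuationSubring.mem_or_inv_mem h₀).resolve_left hO
  set w : v.toValuationSubring := ⟨h₀⁻¹, hwO⟩ with hw
  have hwmax : w ∈ maximalIdeal v.toValuationSubring := by
    rw [mem_maximalIdeal, mem_nonunits_iff]
    intro hu
    obtain ⟨w', hw'⟩ := hu.exists_right_inv
    apply hO
    have : (w' : F) = h₀ := by
      have h1 : (w : F) * (w' : F) = 1 := by exact_mod_cast congrArg Subtype.val hw'
      have h2 : (w : F) = h₀⁻¹ := rfl
      rw [h2] at h1
      field_simp at h1
      exact h1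
    exact this ▸ w'.2
  -- the relation `w • df = dt` in `Ω[F/K]`
  have hrel : (w : F) • D K F (f : F) = D K F (t : F) := by
    rw [← hh₀, smul_smul]
    have : (w : F) * h₀ = 1 := inv_mul_cancel₀ h₀ne
    rw [this, one_smul]
  -- pull back to `Ω[O/K]`
  set x : Ω[v.toValuationSubring⁄K] := w • D K v.toValuationSubring f - D K v.toValuationSubring t
    with hx
  have hmap : KaehlerDifferential.map K K v.toValuationSubring F x = 0 := by
    rw [hx, map_sub, map_smul, KaehlerDifferential.map_D, KaehlerDifferential.map_D, sub_eq_zero]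
    exact hrel
  have := KaehlerDifferential.isLocalizedModule_map K (S := v.toValuationSubring) (T := F)
    (nonZeroDivisors v.toValuationSubring)
  obtain ⟨s, hs⟩ := (IsLocalizedModule.eq_zero_iff (nonZeroDivisors v.toValuationSubring)
    (KaehlerDifferential.map K K v.toValuationSubring F)).mp hmap
  -- apply the derivation `d/dX ∘ expand`
  let _ : Algebra v.toValuationSubring (PowerSeries K) := (expand hres ht).toRingHom.toAlgebra
  have : IsScalarTower K v.toValuationSubring (PowerSeries K) :=
    IsScalarTower.of_algebraMap_eq (fun a => ((expand hres ht).commutes a).symm)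
  let δ : Derivation K v.toValuationSubring (PowerSeries K) :=
    (PowerSeries.derivative K).compAlgebraMap v.toValuationSubring
  have hδ : ∀ g : v.toValuationSubring, δ g = PowerSeries.derivative K (expand hres ht g) :=
    fun g => rfl
  rw [Submonoid.smul_def] at hs
  have hφ := congrArg δ.liftKaehlerDifferential hs
  rw [map_zero, map_smul, hx, map_sub, map_smul, Derivation.liftKaehlerDifferential_comp_D,
    Derivation.liftKaehlerDifferential_comp_D, hδ, hδ, expand_t,
    PowerSeries.derivative_X] at hφ
  have hsne : expand hres ht (s : v.toValuationSubring) ≠ 0 := by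
    intro h0
    have := expand_injective hres ht (h0.trans (map_zero _).symm)
    exact nonZeroDivisors.coe_ne_zero s this
  have hφ' : expand hres ht (s : v.toValuationSubring)
      * (expand hres ht w * PowerSeries.derivative K (expand hres ht f) - 1) = 0 := hφ
  have h1 : expand hres ht w * PowerSeries.derivative K (expand hres ht f) = 1 := by
    rcases mul_eq_zero.mp hφ' with h | h
    · exact absurd h hsne
    · exact sub_eq_zero.mp h
  have h2 := congrArg PowerSeries.constantCoeff h1
  rw [map_mul, constantCoeff_expand, (resK_eq_zero_iff hres w).mpr hwmax, zero_mul, map_one] at h2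
  exact zero_ne_one h2

end Deriv

/-! ### Part 3: the order of `df` at a place -/

section Main

open AlgebraicCurve

variable {K F : Type*} [Field K] [Field F] [Algebra K F] (v : Place K F)

/-- The (private) uniformizer used by the Prelude to define `v.dCoord`. -/
theorem exists_uniformizer_dCoord :
    ∃ t : F, v.ord t = 1 ∧ v.dCoord = D K F t := by
  unfold Place.dCoord
  refine ⟨_, ?_, rfl⟩
  have hirr := (IsDiscreteValuationRing.exists_irreducible v.toValuationSubring).choose_spec
  exact v.ord_coe_irreducible hirr

/-- An element of order one is (the coercion of) an irreducible element of the valuation ring. -/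
theorem exists_irreducible_of_ord_eq_one {t : F} (ht : v.ord t = 1) :
    ∃ τ : v.toValuationSubring, Irreducible τ ∧ (τ : F) = t := by
  have ht0 : t ≠ 0 := by
    rintro rfl
    rw [Place.ord_zero] at ht
    exact zero_ne_one ht
  obtain ⟨π, hπ⟩ := IsDiscreteValuationRing.exists_irreducible v.toValuationSubring
  obtain ⟨u, hu⟩ := v.exists_unit_mul_zpow ht0 hπ
  rw [ht, zpow_one] at hu
  refine ⟨(u : v.toValuationSubring) * π, ?_, ?_⟩
  · exact (associated_unit_mul_left π _ u.isUnit).symm.irreducible hπ
  · rw [hu]; rfl

/-- Core computation: `d(u t^n) = c dt` with `ord c = n - 1`, for `n ≠ 0`. -/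
theorem exists_coeff_D [CharZero K]
    (hres : Function.Surjective (algebraMap K v.ResidueField))
    {t : v.toValuationSubring} (ht : Irreducible t)
    (hgen : Submodule.span F {D K F (t : F)} = ⊤) {f : F} (hf : v.ord f ≠ 0) :
    ∃ c : F, c ≠ 0 ∧ D K F f = c • D K F (t : F) ∧ v.ord c = v.ord f - 1 := by
  have hf0 : f ≠ 0 := by
    rintro rfl
    exact hf v.ord_zero
  have : CharZero F := charZero_of_injective_algebraMap (algebraMap K F).injective
  obtain ⟨u, hu⟩ := v.exists_unit_mul_zpow hf0 ht
  set n : ℤ := v.ord f with hn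
  obtain ⟨h, hh⟩ := exists_mem_smul_D v hres ht hgen (u : v.toValuationSubring)
  have htF : (t : F) ≠ 0 := by
    simpa [ne_eq, ZeroMemClass.coe_eq_zero] using ht.ne_zero
  -- the unit `n u + t h`
  set y : v.toValuationSubring := algebraMap K v.toValuationSubring (n : K) * u + t * h with hy
  have hyunit : IsUnit y := by
    rw [← IsLocalRing.notMem_maximalIdeal]
    intro hmem
    have h1 : t * h ∈ maximalIdeal v.toValuationSubring :=
      Ideal.mul_mem_right _ _ (ht.maximalIdeal_eq ▸ Ideal.mem_span_singleton_self t)
    have h2 : algebraMap K v.toValuationSubring (n : K) * u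
        ∈ maximalIdeal v.toValuationSubring := by
      have : algebraMap K v.toValuationSubring (n : K) * u = y - t * h := by rw [hy]; ring
      rw [this]
      exact Ideal.sub_mem _ hmem h1
    have h3 : IsUnit (algebraMap K v.toValuationSubring (n : K) * u) := by
      refine IsUnit.mul ?_ u.isUnit
      exact (IsUnit.mk0 (n : K) (by exact_mod_cast hf)).map _
    exact (IsLocalRing.notMem_maximalIdeal.mpr h3) h2
  have hyF0 : (y : F) ≠ 0 := by
    simpa [ne_eq, ZeroMemClass.coe_eq_zero] using hyunit.ne_zero
  refine ⟨(t : F) ^ (n - 1) * (y : F), mul_ne_zero (zpow_ne_zero _ htF) hyF0, ?_, ?_⟩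
  · rw [hu, Derivation.leibniz, Derivation.leibniz_zpow, hh]
    have hyF : (y : F) = (n : F) * (u : v.toValuationSubring) + (t : F) * (h : F) := by
      rw [hy]
      push_cast
      congr 2
      simp
    rw [hyF, ← Int.cast_smul_eq_zsmul F, smul_smul, smul_smul, smul_smul, ← add_smul]
    congr 1
    have : (t : F) ^ n = (t : F) ^ (n - 1) * t := by
      rw [← zpow_add_one₀ htF, sub_add_cancel]
    rw [this]
    ring
  · rw [v.ord_mul (zpow_ne_zero _ htF) hyF0, v.ord_zpow,
      v.ord_coe_irreducible ht, mul_one]
    have := v.ord_coe_unit hyunit.unit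
    rw [IsUnit.unit_spec] at this
    rw [this, add_zero]

theorem span_dCoord_eq_top [v.DCoordGenerates] :
    Submodule.span F {v.dCoord} = ⊤ := Place.DCoordGenerates.span_eq_top

/-- **Main local theorem**: `ord_v(df) = ord_v(f) - 1` if `ord_v(f) ≠ 0`. -/
theorem ordDifferential_D [CharZero K] [v.DCoordGenerates] [Nontrivial Ω[F⁄K]]
    (hres : Function.Surjective (algebraMap K v.ResidueField))
    {f : F} (hf : v.ord f ≠ 0) :
    v.ordDifferential (D K F f) = v.ord f - 1 := by
  obtain ⟨t₀, ht₀, hd⟩ := exists_uniformizer_dCoord v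
  obtain ⟨τ, hτ, hτt⟩ := exists_irreducible_of_ord_eq_one v ht₀
  have hgen : Submodule.span F {D K F (τ : F)} = ⊤ := by
    rw [hτt, ← hd]; exact span_dCoord_eq_top v
  obtain ⟨c, -, hc, hordc⟩ := exists_coeff_D v hres hτ hgen hf
  rw [hτt, ← hd] at hc
  rw [Place.ordDifferential, v.differentialCoeff_unique hc, hordc]

/-- The coefficient of `df` with respect to `v.dCoord` is nonzero when `ord_v f ≠ 0`. -/
theorem differentialCoeff_D_ne_zero [CharZero K] [v.DCoordGenerates] [Nontrivial Ω[F⁄K]]
    (hres : Function.Surjective (algebraMap K v.ResidueField))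
    {f : F} (hf : v.ord f ≠ 0) :
    v.differentialCoeff (D K F f) ≠ 0 := by
  obtain ⟨t₀, ht₀, hd⟩ := exists_uniformizer_dCoord v
  obtain ⟨τ, hτ, hτt⟩ := exists_irreducible_of_ord_eq_one v ht₀
  have hgen : Submodule.span F {D K F (τ : F)} = ⊤ := by
    rw [hτt, ← hd]; exact span_dCoord_eq_top v
  obtain ⟨c, hc0, hc, -⟩ := exists_coeff_D v hres hτ hgen hf
  rw [hτt, ← hd] at hc
  rw [v.differentialCoeff_unique hc]
  exact hc0

/-- `ord_v(g df) = ord_v g + ord_v f - 1` if `g ≠ 0` and `ord_v f ≠ 0`. -/
theorem ordDifferential_smul_D [CharZero K] [v.DCoordGenerates] [Nontrivial Ω[F⁄K]]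
    (hres : Function.Surjective (algebraMap K v.ResidueField))
    {g f : F} (hg : g ≠ 0) (hf : v.ord f ≠ 0) :
    v.ordDifferential (g • D K F f) = v.ord g + v.ord f - 1 := by
  rw [v.ordDifferential_smul hg (differentialCoeff_D_ne_zero v hres hf),
    ordDifferential_D v hres hf]
  ring

/-- Version with a constant subtracted: if `x - c` has nonzero order `e` at `v` then
`ord_v(dx) = e - 1`. -/
theorem ordDifferential_D_of_sub_algebraMap [CharZero K] [v.DCoordGenerates]
    [Nontrivial Ω[F⁄K]] (hres : Function.Surjective (algebraMap K v.ResidueField))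
    (x : F) (c : K) (h : v.ord (x - algebraMap K F c) ≠ 0) :
    v.ordDifferential (D K F x) = v.ord (x - algebraMap K F c) - 1 := by
  rw [← ordDifferential_D v hres h, map_sub, Derivation.map_algebraMap, sub_zero]

/-- Any element of order one is as good as the Prelude's uniformizer: `ord_v(dt') = 0`. -/
theorem ordDifferential_D_of_ord_eq_one [CharZero K] [v.DCoordGenerates] [Nontrivial Ω[F⁄K]]
    (hres : Function.Surjective (algebraMap K v.ResidueField))
    {t' : F} (ht' : v.ord t' = 1) :
    v.ordDifferential (D K F t') = 0 := by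
  rw [ordDifferential_D v hres (by rw [ht']; exact one_ne_zero), ht', sub_self]

/-! #### membership in the valuation ring and the sign of `ord` -/

theorem ord_nonneg_of_mem {f : F} (hf : f ∈ v.toValuationSubring) : 0 ≤ v.ord f := by
  rcases eq_or_ne f 0 with rfl | hf0
  · rw [v.ord_zero]
  obtain ⟨π, hπ⟩ := IsDiscreteValuationRing.exists_irreducible v.toValuationSubring
  obtain ⟨u, hu⟩ := v.exists_unit_mul_zpow hf0 hπ
  by_contra hneg
  rw [not_le] at hneg
  have hπF : (π : F) ≠ 0 := by
    simpa [ne_eq, ZeroMemClass.coe_eq_zero] using hπ.ne_zero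
  obtain ⟨m, hm⟩ : ∃ m : ℕ, v.ord f = -((m : ℤ) + 1) :=
    ⟨(-(v.ord f) - 1).toNat, by omega⟩
  -- `f * π^(m+1) = u`
  have h1 : f * (π : F) ^ (m + 1) = (u : v.toValuationSubring) := by
    rw [hu, hm, mul_assoc, ← zpow_natCast, ← zpow_add₀ hπF]
    push_cast
    rw [neg_add_cancel, zpow_zero, mul_one]
  have h2 : (⟨f, hf⟩ : v.toValuationSubring) * π ^ (m + 1) = u := by
    apply Subtype.ext
    push_cast
    exact h1
  have h3 : IsUnit (π ^ (m + 1)) := isUnit_of_mul_isUnit_right (h2 ▸ u.isUnit)
  exact hπ.not_isUnit (isUnit_of_dvd_unit (dvd_pow_self π (Nat.succ_ne_zero m)) h3)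

theorem mem_of_ord_nonneg {f : F} (hf : 0 ≤ v.ord f) : f ∈ v.toValuationSubring := by
  rcases eq_or_ne f 0 with rfl | hf0
  · exact v.toValuationSubring.zero_mem
  obtain ⟨π, hπ⟩ := IsDiscreteValuationRing.exists_irreducible v.toValuationSubring
  obtain ⟨u, hu⟩ := v.exists_unit_mul_zpow hf0 hπ
  obtain ⟨m, hm⟩ : ∃ m : ℕ, v.ord f = (m : ℤ) := ⟨(v.ord f).toNat, by omega⟩
  rw [hu, hm, zpow_natCast]
  exact ((u : v.toValuationSubring) * π ^ m).2

theorem ord_nonneg_iff_mem {f : F} : 0 ≤ v.ord f ↔ f ∈ v.toValuationSubring :=
  ⟨mem_of_ord_nonneg v, ord_nonneg_of_mem v⟩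

/-- The derivation `d/dt` preserves the valuation ring, in Prelude terms: for `f ∈ O_v`,
`df` has nonnegative order (is holomorphic) at `v`. -/
theorem ordDifferential_D_nonneg_of_mem [v.DCoordGenerates] [Nontrivial Ω[F⁄K]]
    (hres : Function.Surjective (algebraMap K v.ResidueField))
    {f : F} (hf : f ∈ v.toValuationSubring) :
    0 ≤ v.ordDifferential (D K F f) := by
  obtain ⟨t₀, ht₀, hd⟩ := exists_uniformizer_dCoord v
  obtain ⟨τ, hτ, hτt⟩ := exists_irreducible_of_ord_eq_one v ht₀
  have hgen : Submodule.span F {D K F (τ : F)} = ⊤ := by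
    rw [hτt, ← hd]; exact span_dCoord_eq_top v
  obtain ⟨h, hh⟩ := exists_mem_smul_D v hres hτ hgen ⟨f, hf⟩
  rw [hτt, ← hd] at hh
  rw [Place.ordDifferential, v.differentialCoeff_unique hh]
  exact ord_nonneg_of_mem v h.2

end Main

end Fermat.Agent.S24.LocalDiffPS
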