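/-
S24 package FF3b (helper70), core: the two Skeleton statements `ordDifferential_D_of_pos`,
`ordDifferential_D_of_neg`, with the single external input `v.deg = 1` (Skeleton `place_deg_eq_one`,
package FF1a) as an explicit hypothesis.
-/
import Fermat.Agent.S24.Defs
import Fermat.Agent.S24.Differentials
import Fermat.Agent.S24.LocalDiffPS

set_option autoImplicit false

open AlgebraicCurve KaehlerDifferential IntermediateField

namespace Fermat.Agent.S24.FF3bCore

variable {K F : Type*} [Field K] [Field F] [Algebra K F]

/-- A place of degree one has residue field `K`. -/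
theorem surjective_algebraMap_of_deg_eq_one (v : Place K F) (h : v.deg = 1) :
    Function.Surjective (algebraMap K v.ResidueField) := by
  intro y
  have h1 : Module.finrank K v.ResidueField = 1 := h
  obtain ⟨c, hc⟩ := (finrank_eq_one_iff_of_nonzero' (1 : v.ResidueField) one_ne_zero).mp h1 y
  exact ⟨c, by rw [← hc, Algebra.smul_def, mul_one]⟩

variable [CharZero K] {x : F} (hF : IsFunctionFieldOver K x)

include hF in
theorem isAlgebraic : Algebra.IsAlgebraic (↥K⟮x⟯) F :=
  haveI := hF.finite
  Algebra.IsAlgebraic.of_finite _ _

include hF in
theorem ordDifferential_D_of_pos (v : Place K F) (hdeg : v.deg = 1) (c : K)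
    (hv : v ∈ placesOver x c) :
    v.ordDifferential (D K F x) = v.ord (x - algebraMap K F c) - 1 := by
  haveI := isAlgebraic hF
  haveI := Diff.dCoordGenerates (x := x) v
  haveI := Diff.nontrivial_kaehler (x := x) hF.transcendental
  exact LocalDiffPS.ordDifferential_D_of_sub_algebraMap v
    (surjective_algebraMap_of_deg_eq_one v hdeg) x c (ne_of_gt hv)

include hF in
theorem ordDifferential_D_of_neg (v : Place K F) (hdeg : v.deg = 1)
    (hv : v ∈ placesOverInfty K x) :
    v.ordDifferential (D K F x) = v.ord x - 1 := by
  haveI := isAlgebraic hF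
  haveI := Diff.dCoordGenerates (x := x) v
  haveI := Diff.nontrivial_kaehler (x := x) hF.transcendental
  exact LocalDiffPS.ordDifferential_D v
    (surjective_algebraMap_of_deg_eq_one v hdeg) (ne_of_lt hv)

end Fermat.Agent.S24.FF3bCore
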