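/-
S24 packages GAL0 (Artin: finiteness of `F / K(x)` from the Galois tower) and the degree part of
GAL (`isFunctionFieldOver_top`, `degOver_eq_index`).  Statements as in `Skeleton.lean`.
-/
import Fermat.Agent.S24.Defs

set_option autoImplicit false

open AlgebraicCurve IntermediateField

namespace Fermat.Agent.S24

/-- Transfer of a finite spanning set between two scalar rings acting "through the same
elements". -/
theorem galArtin_finite_of_smul {R R' M : Type*} [Semiring R] [Semiring R'] [AddCommMonoid M]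
    [Module R M] [Module R' M] [Module.Finite R M]
    (hsmul : ∀ (c : R) (z : M), ∃ c' : R', c • z = c' • z) : Module.Finite R' M := by
  obtain ⟨s, hs⟩ := Module.finite_def.mp (inferInstance : Module.Finite R M)
  refine Module.finite_def.mpr ⟨s, ?_⟩
  have key : ∀ y ∈ Submodule.span R (s : Set M), y ∈ Submodule.span R' (s : Set M) := by
    intro y hy
    induction hy using Submodule.span_induction with
    | mem z hz => exact Submodule.subset_span hz
    | zero => exact Submodule.zero_mem _
    | add a b _ _ ha hb => exact Submodule.add_mem _ ha hb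
    | smul c z _ hz =>
      obtain ⟨c', hc'⟩ := hsmul c z
      rw [hc']
      exact Submodule.smul_mem _ _ hz
  rw [eq_top_iff]
  intro y _
  exact key y (hs ▸ Submodule.mem_top)

section GAL0

variable {K F L : Type*} [Field K] [Field F] [Field L] [Algebra K F] [Algebra F L] [Algebra K L]
  [IsScalarTower K F L]

omit [Algebra K F] [IsScalarTower K F L] in
/-- The fixed subfield of `G` is `K(x)` (as sets). -/
theorem galArtin_mem_fixed_iff {x : F} (G : Subgroup (L ≃ₐ[K] L))
    (hGx : ∀ g ∈ G, g (algebraMap F L x) = algebraMap F L x)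
    (hG : ∀ y : L, (∀ g ∈ G, g y = y) → y ∈ K⟮algebraMap F L x⟯) (y : L) :
    y ∈ FixedPoints.subfield G L ↔ y ∈ K⟮algebraMap F L x⟯ := by
  constructor
  · intro hy
    refine hG y fun g hg => ?_
    exact hy ⟨g, hg⟩
  · intro hy
    have hle : K⟮algebraMap F L x⟯ ≤ IntermediateField.fixedField G := by
      rw [IntermediateField.adjoin_le_iff]
      rintro _ rfl
      intro g
      exact hGx g.1 g.2
    intro g
    exact hle hy g

omit [Algebra K F] [IsScalarTower K F L] in
/-- `L` is finite over `K(x_L)`. -/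
theorem galArtin_finite_top {x : F} (G : Subgroup (L ≃ₐ[K] L)) [Finite G]
    (hGx : ∀ g ∈ G, g (algebraMap F L x) = algebraMap F L x)
    (hG : ∀ y : L, (∀ g ∈ G, g y = y) → y ∈ K⟮algebraMap F L x⟯) :
    FiniteDimensional (↥K⟮algebraMap F L x⟯) L := by
  have hfin : Module.Finite (FixedPoints.subfield G L) L := inferInstance
  refine galArtin_finite_of_smul (R := FixedPoints.subfield G L) fun c z => ?_
  have hc : (c : L) ∈ K⟮algebraMap F L x⟯ := (galArtin_mem_fixed_iff G hGx hG _).mp c.2
  exact ⟨⟨(c : L), hc⟩, rfl⟩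

theorem galArtin_adjoin_map (x : F) :
    K⟮algebraMap F L x⟯ = (K⟮x⟯).map (IsScalarTower.toAlgHom K F L) := by
  rw [IntermediateField.adjoin_map, Set.image_singleton]
  rfl

theorem isFunctionFieldOver_of_fixed {x : F} (hx : Transcendental K x)
    (G : Subgroup (L ≃ₐ[K] L)) [Finite G]
    (hGx : ∀ g ∈ G, g (algebraMap F L x) = algebraMap F L x)
    (hG : ∀ y : L, (∀ g ∈ G, g y = y) → y ∈ K⟮algebraMap F L x⟯) :
    IsFunctionFieldOver K x := by
  refine ⟨hx, ?_⟩
  have hfin := galArtin_finite_top G hGx hG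
  -- transfer finiteness of `L` over `K(x_L)` to finiteness over `K(x)`
  have hfin' : FiniteDimensional (↥K⟮x⟯) L := by
    refine galArtin_finite_of_smul (R := ↥K⟮algebraMap F L x⟯) fun c z => ?_
    have hc : (c : L) ∈ (K⟮x⟯).map (IsScalarTower.toAlgHom K F L) :=
      galArtin_adjoin_map (K := K) (L := L) x ▸ c.2
    obtain ⟨e, he, hec⟩ := hc
    refine ⟨⟨e, he⟩, ?_⟩
    rw [Algebra.smul_def, Algebra.smul_def]
    congr 1
    exact hec.symm
  exact FiniteDimensional.left (↥K⟮x⟯) F L

end GAL0

section GAL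

set_option linter.unusedSectionVars false

variable {K F L : Type*} [Field K] [Field F] [Field L] [Algebra K F] [Algebra F L] [Algebra K L]
  [IsScalarTower K F L] [IsAlgClosed K] [CharZero K]
variable {x : F} (hF : IsFunctionFieldOver K x)
variable (G : Subgroup (L ≃ₐ[K] L)) [Finite G]
  (hGx : ∀ g ∈ G, g (algebraMap F L x) = algebraMap F L x)
  (hG : ∀ y : L, (∀ g ∈ G, g y = y) → y ∈ K⟮algebraMap F L x⟯)
include hF hGx hG

theorem isFunctionFieldOver_top : IsFunctionFieldOver K (algebraMap F L x) :=
  ⟨(transcendental_algebraMap_iff (algebraMap F L).injective).mpr hF.transcendental,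
    galArtin_finite_top G hGx hG⟩

/-- The image of `F` in `L` as an intermediate field over the fixed field of `G`. -/
def galArtinRange : IntermediateField (FixedPoints.subfield G L) L where
  carrier := Set.range (algebraMap F L)
  mul_mem' := by rintro _ _ ⟨a, rfl⟩ ⟨b, rfl⟩; exact ⟨a * b, map_mul _ _ _⟩
  add_mem' := by rintro _ _ ⟨a, rfl⟩ ⟨b, rfl⟩; exact ⟨a + b, map_add _ _ _⟩
  algebraMap_mem' := by
    intro c
    have hc : (c : L) ∈ (K⟮x⟯).map (IsScalarTower.toAlgHom K F L) :=
      galArtin_adjoin_map (K := K) (L := L) x ▸ (galArtin_mem_fixed_iff G hGx hG _).mp c.2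
    obtain ⟨e, -, hec⟩ := hc
    exact ⟨e, hec⟩
  inv_mem' := by rintro _ ⟨a, rfl⟩; exact ⟨a⁻¹, map_inv₀ _ _⟩

theorem degOver_eq_index : degOver K x = (fixingSub F G).index := by
  classical
  have : IsGalois (FixedPoints.subfield G L) L := ⟨⟩
  set FL := galArtinRange G hGx hG with hFL
  have h1 : Module.finrank (FixedPoints.subfield G L) FL = FL.fixingSubgroup.index :=
    IntermediateField.finrank_eq_fixingSubgroup_index L FL
  -- (a) transport of the degree
  have ha : Module.finrank (↥K⟮x⟯) F = Module.finrank (FixedPoints.subfield G L) FL := by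
    let j₀ : F →+* FL := (algebraMap F L).codRestrict FL (fun a => ⟨a, rfl⟩)
    have hj₀ : Function.Bijective j₀ := by
      refine ⟨j₀.injective, ?_⟩
      rintro ⟨_, a, rfl⟩
      exact ⟨a, rfl⟩
    let i₀ : ↥K⟮x⟯ →+* FixedPoints.subfield G L :=
      ((algebraMap F L).comp (algebraMap (↥K⟮x⟯) F)).codRestrict (FixedPoints.subfield G L)
        (fun e => by
          refine (galArtin_mem_fixed_iff G hGx hG _).mpr ?_
          rw [galArtin_adjoin_map (K := K) (L := L) x]
          exact ⟨e.1, e.2, rfl⟩)
    have hi₀ : Function.Bijective i₀ := by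
      refine ⟨i₀.injective, ?_⟩
      rintro ⟨y, hy⟩
      have hc : y ∈ (K⟮x⟯).map (IsScalarTower.toAlgHom K F L) :=
        galArtin_adjoin_map (K := K) (L := L) x ▸ (galArtin_mem_fixed_iff G hGx hG _).mp hy
      obtain ⟨e, he, hec⟩ := hc
      exact ⟨⟨e, he⟩, Subtype.ext hec⟩
    refine Algebra.finrank_eq_of_equiv_equiv (RingEquiv.ofBijective i₀ hi₀)
      (RingEquiv.ofBijective j₀ hj₀) ?_
    ext e
    rfl
  -- (b) transport of the index
  have hb : FL.fixingSubgroup.index = (fixingSub F G).index := by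
    rw [← Subgroup.index_map_equiv (fixingSub F G) (FixedPoints.toAlgAutMulEquiv G L)]
    congr 1
    ext σ
    obtain ⟨g, rfl⟩ := (FixedPoints.toAlgAutMulEquiv G L).surjective σ
    rw [IntermediateField.mem_fixingSubgroup_iff]
    constructor
    · intro h
      refine ⟨g, ?_, rfl⟩
      intro a
      exact h _ ⟨a, rfl⟩
    · rintro ⟨g', hg', hgg'⟩
      obtain rfl : g' = g := (FixedPoints.toAlgAutMulEquiv G L).injective hgg'
      rintro _ ⟨a, rfl⟩
      exact hg' a
  rw [degOver, ha, h1, hb]

end GAL

end Fermat.Agent.S24
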