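import Mathlib

/-!
# S24 layer (B): primes of an intermediate ring of invariants and double cosets

`A ⊆ B ⊆ C` commutative rings, a finite group `G` acting on `C` with invariants `A`,
a subgroup `H ≤ G` acting on `C` with invariants `B`.  For a prime `P` of `C` over `p`:

* the primes of `B` over `p` are in bijection with the orbits of the decomposition group
  `stabilizer G P` acting on `G ⧸ H` by left multiplication
  (`(g⁻¹ • P) ∩ B` corresponds to the orbit of `gH`).
-/

set_option autoImplicit false

namespace Fermat.Agent.S24.GaloisLayer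

open Pointwise MulAction

section setoid

/-- Two surjections with the same kernel have equinumerous codomains. -/
theorem natCard_eq_of_surjective_of_ker_eq {G X Y : Type*} (f : G → X) (f' : G → Y)
    (hf : Function.Surjective f) (hf' : Function.Surjective f')
    (h : ∀ a b, f a = f b ↔ f' a = f' b) : Nat.card X = Nat.card Y := by
  have hker : Setoid.ker f = Setoid.ker f' := by
    ext a b
    exact h a b
  have e1 : Quotient (Setoid.ker f) ≃ X := Setoid.quotientKerEquivOfSurjective f hf
  have e2 : Quotient (Setoid.ker f') ≃ Y := Setoid.quotientKerEquivOfSurjective f' hf'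
  rw [← Nat.card_congr e1, ← Nat.card_congr e2, hker]

/-- Two surjections with the same kernel have equivalent codomains, compatibly. -/
theorem exists_equiv_of_surjective_of_ker_eq {G X Y : Type*} (f : G → X) (f' : G → Y)
    (hf : Function.Surjective f) (hf' : Function.Surjective f')
    (h : ∀ a b, f a = f b ↔ f' a = f' b) : ∃ e : X ≃ Y, ∀ g, e (f g) = f' g := by
  have hker : Setoid.ker f = Setoid.ker f' := by
    ext a b
    exact h a b
  let e1 : Quotient (Setoid.ker f) ≃ X := Setoid.quotientKerEquivOfSurjective f hf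
  let e2 : Quotient (Setoid.ker f') ≃ Y := Setoid.quotientKerEquivOfSurjective f' hf'
  refine ⟨e1.symm.trans ((Quotient.congrRight (fun a b => by rw [hker])).trans e2), fun g => ?_⟩
  have h1 : e1.symm (f g) = Quotient.mk'' g := by
    rw [Equiv.symm_apply_eq]; rfl
  simp only [Equiv.trans_apply, h1]
  rfl

end setoid

variable {A B C : Type*} [CommRing A] [CommRing B] [CommRing C]
  [Algebra A B] [Algebra B C] [Algebra A C] [IsScalarTower A B C]
  {G : Type*} [Group G] [Finite G] [MulSemiringAction G C] [SMulCommClass G A C]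
  [Algebra.IsInvariant A C G]
  (H : Subgroup G) [SMulCommClass H B C] [Algebra.IsInvariant B C H]

omit [Finite G] [Algebra.IsInvariant A C G] [Algebra.IsInvariant B C H] [SMulCommClass H B C] in
/-- `(g • P) ∩ B` is a prime of `B` over `p`. -/
theorem under_smul_mem_primesOver (p : Ideal A) (P : Ideal C) [P.IsPrime] [P.LiesOver p]
    (g : G) : ((g • P).under B) ∈ p.primesOver B := by
  have h2 : (g • P).LiesOver p := inferInstance
  refine ⟨inferInstance, ⟨?_⟩⟩
  rw [Ideal.under_under]
  exact h2.over

/-- The map `g ↦ (g⁻¹ • P) ∩ B` from `G` to the primes of `B` over `p`. -/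
noncomputable def toPrimesOver (p : Ideal A) (P : Ideal C) [P.IsPrime] [P.LiesOver p]
    (g : G) : p.primesOver B :=
  ⟨(g⁻¹ • P).under B, under_smul_mem_primesOver p P g⁻¹⟩

omit [SMulCommClass (↥H) B C] in
include H in
theorem toPrimesOver_surjective [FaithfulSMul B C] (p : Ideal A) (P : Ideal C) [P.IsPrime]
    [P.LiesOver p] : Function.Surjective (toPrimesOver (B := B) (G := G) p P) := by
  rintro ⟨q, hq1, hq2⟩
  have : Algebra.IsIntegral B C := Algebra.IsInvariant.isIntegral B C H
  obtain ⟨Q, -, hQ1, hQ2⟩ := Ideal.exists_ideal_over_prime_of_isIntegral q (⊥ : Ideal C)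
    (by
      rw [← RingHom.ker_eq_comap_bot, (RingHom.injective_iff_ker_eq_bot _).mp
        (FaithfulSMul.algebraMap_injective B C)]
      exact bot_le)
  have hQp : Q.under A = P.under A := by
    rw [← Ideal.under_under (B := B) Q, Ideal.under_def B, hQ2, ← hq2.over, ← Ideal.over_def P p]
  obtain ⟨g, hg⟩ := Algebra.IsInvariant.exists_smul_of_under_eq A C G P Q hQp.symm
  refine ⟨g⁻¹, Subtype.ext ?_⟩
  simp only [toPrimesOver, inv_inv]
  rw [← hg]
  exact hQ2

omit [Algebra.IsInvariant A C G] in
include H in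
theorem toPrimesOver_eq_iff (p : Ideal A) (P : Ideal C) [P.IsPrime] [P.LiesOver p] (g g' : G) :
    toPrimesOver (B := B) p P g = toPrimesOver (B := B) p P g' ↔
      ∃ d ∈ stabilizer G P, ∃ h ∈ H, g' * h = d * g := by
  simp only [toPrimesOver, Subtype.mk.injEq]
  constructor
  · intro hgg'
    obtain ⟨h, hh⟩ := Algebra.IsInvariant.exists_smul_of_under_eq B C H (g⁻¹ • P) (g'⁻¹ • P) hgg'
    refine ⟨g' * h * g⁻¹, ?_, h, h.2, by group⟩
    rw [mem_stabilizer_iff, mul_smul, mul_smul]
    have : (h : G) • g⁻¹ • P = g'⁻¹ • P := hh.symm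
    rw [this, smul_inv_smul]
  · rintro ⟨d, hd, h, hh, hgh⟩
    have hg' : g'⁻¹ = h * g⁻¹ * d⁻¹ := by
      have : g' = d * g * h⁻¹ := by rw [← hgh]; group
      rw [this]; group
    have hd' : d⁻¹ • P = P := by
      rw [inv_smul_eq_iff]; exact (mem_stabilizer_iff.mp hd).symm
    rw [hg', mul_smul, mul_smul, hd']
    exact (Ideal.under_smul B (g⁻¹ • P) (⟨h, hh⟩ : H)).symm


section orbits

variable {G : Type*} [Group G] (H D : Subgroup G)

/-- The map `g ↦ D-orbit of gH` from `G` to the orbits of `D` on `G ⧸ H`. -/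
def toOrbit (g : G) : orbitRel.Quotient D (G ⧸ H) :=
  Quotient.mk'' (g : G ⧸ H)

theorem toOrbit_surjective : Function.Surjective (toOrbit H D) := by
  intro x
  induction x using Quotient.inductionOn' with
  | h x =>
    induction x using QuotientGroup.induction_on with
    | H g => exact ⟨g, rfl⟩

theorem toOrbit_eq_iff (g g' : G) :
    toOrbit H D g = toOrbit H D g' ↔ ∃ d ∈ D, ∃ h ∈ H, g' * h = d * g := by
  unfold toOrbit
  rw [Quotient.eq'', orbitRel_apply, mem_orbit_iff]
  constructor
  · rintro ⟨d, hd⟩
    -- `d • g'H = gH`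
    have hd' : ((d : G) * g' : G) = (g : G ⧸ H) := hd
    rw [QuotientGroup.eq] at hd'
    refine ⟨(d : G)⁻¹, D.inv_mem d.2, ((d : G) * g')⁻¹ * g, hd', by group⟩
  · rintro ⟨d, hd, h, hh, hgh⟩
    refine ⟨⟨d⁻¹, D.inv_mem hd⟩, ?_⟩
    change ((d⁻¹ * g' : G) : G ⧸ H) = (g : G ⧸ H)
    rw [QuotientGroup.eq]
    have : (d⁻¹ * g')⁻¹ * g = h := by
      have : g' = d * g * h⁻¹ := by rw [← hgh]; group
      rw [this]; group
    rw [this]
    exact hh

end orbits

variable {A B C : Type*} [CommRing A] [CommRing B] [CommRing C]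
  [Algebra A B] [Algebra B C] [Algebra A C] [IsScalarTower A B C]
  {G : Type*} [Group G] [Finite G] [MulSemiringAction G C] [SMulCommClass G A C]
  [Algebra.IsInvariant A C G]
  (H : Subgroup G) [SMulCommClass H B C] [Algebra.IsInvariant B C H]

/-- **Layer (B1).** The number of primes of `B = C^H` over `p` equals the number of orbits of the
decomposition group `stabilizer G P` on `G ⧸ H` (left multiplication), for any prime `P` of `C`
over `p`. -/
theorem natCard_primesOver_eq_natCard_orbits [FaithfulSMul B C] (p : Ideal A) (P : Ideal C)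
    [P.IsPrime] [P.LiesOver p] :
    Nat.card (p.primesOver B) = Nat.card (orbitRel.Quotient (stabilizer G P) (G ⧸ H)) :=
  natCard_eq_of_surjective_of_ker_eq (toPrimesOver (B := B) p P) (toOrbit H (stabilizer G P))
    (toPrimesOver_surjective H p P) (toOrbit_surjective H _)
    (fun g g' => (toPrimesOver_eq_iff H p P g g').trans (toOrbit_eq_iff H _ g g').symm)


/-- **Layer (B1), explicit form.** A bijection between the orbits of `stabilizer G P` on `G ⧸ H`
and the primes of `B` over `p`, sending the orbit of `gH` to `(g⁻¹ • P) ∩ B`. -/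
theorem exists_equiv_orbits_primesOver [FaithfulSMul B C] (p : Ideal A) (P : Ideal C)
    [P.IsPrime] [P.LiesOver p] :
    ∃ e : orbitRel.Quotient (stabilizer G P) (G ⧸ H) ≃ p.primesOver B,
      ∀ g : G, (e (toOrbit H (stabilizer G P) g) : Ideal B) = (g⁻¹ • P).under B := by
  obtain ⟨e, he⟩ := exists_equiv_of_surjective_of_ker_eq (toOrbit H (stabilizer G P))
    (toPrimesOver (B := B) p P) (toOrbit_surjective H _) (toPrimesOver_surjective H p P)
    (fun g g' => (toOrbit_eq_iff H _ g g').trans (toPrimesOver_eq_iff H p P g g').symm)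
  exact ⟨e, fun g => by rw [he g]; rfl⟩

end Fermat.Agent.S24.GaloisLayer
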