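import Mathlib
import Fermat.Agent.S24.Defs
import Fermat.Agent.S24.Pkg_GALa
import Fermat.Agent.S24.GaloisLayer
import Fermat.Agent.S24.GalStab56

/-!
# S24 project, package GALc (helper56): number of places of `F` over a point of the `x`-line

`K(x) ⊆ F ⊆ L`, `L / K(x)` finite Galois with group `G ≤ Aut_K(L)`, `H = fixingSub F G`.
For a place `w` of `L` over `x = c`, the number of places of `F` over `x = c` is the number of
orbits of `Stab_G(w)` on `G ⧸ H`.  Prime-ideal level proof: `A = K[x]`, `B` = integral closure of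
`A` in `F`, `C` = integral closure of `K[X]` in `L`; `GaloisLayer.natCard_primesOver_eq_natCard_orbits`.
-/

set_option autoImplicit false
set_option linter.unusedVariables false
set_option linter.unusedSectionVars false
set_option linter.style.haveILetI false

open AlgebraicCurve IntermediateField IsDedekindDomain
open scoped IntermediateField.algebraAdjoinAdjoin Pointwise

namespace Fermat.Agent.S24.GalCount56

open Fermat.Agent.S24.FFBase Fermat.Agent.S24.PlaceDedekind Fermat.Agent.S24.GalStab56

variable {K F L : Type*} [Field K] [Field F] [Field L] [Algebra K F] [Algebra F L] [Algebra K L]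
  [IsScalarTower K F L]

section maps

variable {x : F}

theorem algebraMap_mem_A {a : F} (ha : a ∈ A K x) : algebraMap F L a ∈ A K (algebraMap F L x) := by
  have h := AlgHom.map_adjoin_singleton (IsScalarTower.toAlgHom K F L) x
  have h2 : (IsScalarTower.toAlgHom K F L) a ∈ (A K x).map (IsScalarTower.toAlgHom K F L) :=
    ⟨a, ha, rfl⟩
  rw [h] at h2
  exact h2

theorem exists_of_mem_A {b : L} (hb : b ∈ A K (algebraMap F L x)) :
    ∃ a ∈ A K x, algebraMap F L a = b := by
  have h := AlgHom.map_adjoin_singleton (IsScalarTower.toAlgHom K F L) x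
  have h2 : b ∈ (A K x).map (IsScalarTower.toAlgHom K F L) := by
    rw [h]; exact hb
  obtain ⟨a, ha, rfl⟩ := h2
  exact ⟨a, ha, rfl⟩

/-- `K[x] → K[X]`. -/
noncomputable def phiA : A K x →+* A K (algebraMap F L x) :=
  ((algebraMap F L).comp (A K x).val.toRingHom).codRestrict (A K (algebraMap F L x)).toSubring
    (fun a => algebraMap_mem_A a.2)

theorem coe_phiA (a : A K x) : ((phiA (L := L) a : A K (algebraMap F L x)) : L) =
    algebraMap F L (a : F) := rfl

theorem phiA_surjective : Function.Surjective (phiA (K := K) (L := L) (x := x)) := by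
  rintro ⟨b, hb⟩
  obtain ⟨a, ha, rfl⟩ := exists_of_mem_A hb
  exact ⟨⟨a, ha⟩, rfl⟩

theorem isIntegral_algebraMap_FL {b : F} (hb : IsIntegral (A K x) b) :
    IsIntegral (A K (algebraMap F L x)) (algebraMap F L b) := by
  refine hb.map_of_comp_eq (phiA (L := L)) (algebraMap F L) ?_
  ext a
  rfl

/-- `B_F → B_L`. -/
noncomputable def phiB : B K x →+* B K (algebraMap F L x) :=
  ((algebraMap F L).comp (B K x).val.toRingHom).codRestrict
    (B K (algebraMap F L x)).toSubring (fun b => isIntegral_algebraMap_FL b.2)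

theorem coe_phiB (b : B K x) : ((phiB (L := L) b : B K (algebraMap F L x)) : L) =
    algebraMap F L (b : F) := rfl

end maps

section tower

variable [CharZero K] {x : F} (hF : IsFunctionFieldOver K x)
  (hL : IsFunctionFieldOver K (algebraMap F L x))

/-- Algebra structure `B_F → B_L`. -/
@[reducible] noncomputable def algBC : Algebra (Bx hF) (Bx hL) :=
  RingHom.toAlgebra (show Bx hF →+* Bx hL from phiB (K := K) (L := L) (x := x))

attribute [local instance] algBC

/-- Algebra structure `K[x] → B_L`. -/
@[reducible] noncomputable def algAC : Algebra (Ax hF) (Bx hL) :=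
  RingHom.toAlgebra ((algebraMap (Bx hF) (Bx hL)).comp (algebraMap (Ax hF) (Bx hF)))

attribute [local instance] algAC

instance isScalarTower_ABC : IsScalarTower (Ax hF) (Bx hF) (Bx hL) :=
  IsScalarTower.of_algebraMap_eq (fun _ => rfl)

theorem algebraMap_BC (b : Bx hF) :
    algebraMap (Bx hL) L (algebraMap (Bx hF) (Bx hL) b) = algebraMap F L (algebraMap (Bx hF) F b) :=
  rfl

theorem algebraMap_AC (a : Ax hF) :
    algebraMap (Bx hL) L (algebraMap (Ax hF) (Bx hL) a) = algebraMap F L (algebraMap (Ax hF) F a) :=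
  rfl

instance faithfulSMul_BC : FaithfulSMul (Bx hF) (Bx hL) := by
  rw [faithfulSMul_iff_algebraMap_injective]
  intro b b' h
  have h1 := congrArg (algebraMap (Bx hL) L) h
  rw [algebraMap_BC, algebraMap_BC] at h1
  exact IsFractionRing.injective (Bx hF) F ((algebraMap F L).injective h1)

section invariants

variable (G : Subgroup (L ≃ₐ[K] L))
  (hGx : ∀ g ∈ G, g (algebraMap F L x) = algebraMap F L x)
  (hG : ∀ y : L, (∀ g ∈ G, g y = y) → y ∈ K⟮algebraMap F L x⟯)

theorem smulCommClass_AC :
    letI := actionB hL G hGx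
    SMulCommClass G (Ax hF) (Bx hL) := by
  letI := actionB hL G hGx
  refine ⟨fun g a c => ?_⟩
  apply IsFractionRing.injective (Bx hL) L
  show (g : L ≃ₐ[K] L) (algebraMap (Bx hL) L (a • c)) = algebraMap (Bx hL) L (a • (g • c))
  rw [Algebra.smul_def, Algebra.smul_def, map_mul, map_mul, map_mul]
  congr 1
  exact fixes_A G hGx g g.2 (algebraMap_mem_A (a : A K x).2)

include hG in
theorem isInvariant_AC :
    letI := actionB hL G hGx
    Algebra.IsInvariant (Ax hF) (Bx hL) G := by
  letI := actionB hL G hGx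
  have h := isGaloisGroup hL G hGx hG
  refine ⟨fun c hc => ?_⟩
  obtain ⟨a, ha⟩ := h.isInvariant.isInvariant c hc
  obtain ⟨a', rfl⟩ := phiA_surjective (K := K) (L := L) (x := x) a
  exact ⟨a', ha⟩

theorem smulCommClass_BC :
    letI := actionB hL G hGx
    SMulCommClass (fixingSub F G) (Bx hF) (Bx hL) := by
  letI := actionB hL G hGx
  refine ⟨fun h b c => ?_⟩
  apply IsFractionRing.injective (Bx hL) L
  show ((h : G) : L ≃ₐ[K] L) (algebraMap (Bx hL) L (b • c)) =
    algebraMap (Bx hL) L (b • ((h : G) • c))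
  rw [Algebra.smul_def, Algebra.smul_def, map_mul, map_mul, map_mul]
  congr 1
  rw [algebraMap_BC]
  exact h.2 _

end invariants

section invariantsH

variable (G : Subgroup (L ≃ₐ[K] L)) [Finite G]
  (hGx : ∀ g ∈ G, g (algebraMap F L x) = algebraMap F L x)
  (hG : ∀ y : L, (∀ g ∈ G, g y = y) → y ∈ K⟮algebraMap F L x⟯)

omit [CharZero K] in
theorem phiA_injective : Function.Injective (phiA (K := K) (L := L) (x := x)) := by
  intro a a' h
  have h1 : algebraMap F L (a : F) = algebraMap F L (a' : F) := congrArg Subtype.val h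
  exact Subtype.ext ((algebraMap F L).injective h1)

omit [CharZero K] in
theorem isIntegral_of_algebraMap {f : F}
    (h : IsIntegral (A K (algebraMap F L x)) (algebraMap F L f)) : IsIntegral (A K x) f := by
  let e : A K x ≃+* A K (algebraMap F L x) :=
    RingEquiv.ofBijective (phiA (K := K) (L := L) (x := x)) ⟨phiA_injective, phiA_surjective⟩
  have h1 : IsIntegral (A K x) (algebraMap F L f) := by
    refine h.map_of_comp_eq e.symm.toRingHom (RingHom.id L) ?_
    ext b
    obtain ⟨a, rfl⟩ := e.surjective b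
    simp only [RingHom.coe_comp, Function.comp_apply, RingEquiv.toRingHom_eq_coe,
      RingHom.coe_coe, RingEquiv.symm_apply_apply, RingHom.id_apply]
    rfl
  exact (isIntegral_algebraMap_iff (algebraMap F L).injective).mp h1

include hG in
theorem isInvariant_BC :
    letI := actionB hL G hGx
    Algebra.IsInvariant (Bx hF) (Bx hL) (fixingSub F G) := by
  letI := actionB hL G hGx
  refine ⟨fun c hc => ?_⟩
  haveI := GALa.isGaloisGroup_top (F := F) G hGx hG
  have hgal := IsGaloisGroup.of_isScalarTower G (↥K⟮x⟯) L F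
  have hfix : ∀ h : fixingSubgroup G (Set.range (algebraMap F L)),
      h • (algebraMap (Bx hL) L c) = algebraMap (Bx hL) L c := by
    intro h
    have hmem : (h : G) ∈ fixingSub F G := by
      rw [GALa.fixingSub_eq G F]; exact h.2
    exact congrArg (algebraMap (Bx hL) L) (hc ⟨h, hmem⟩)
  obtain ⟨f, hf⟩ := hgal.isInvariant.isInvariant (algebraMap (Bx hL) L c) hfix
  have hint : IsIntegral (A K x) f := by
    apply isIntegral_of_algebraMap (L := L)
    rw [hf]
    exact (c : B K (algebraMap F L x)).2
  refine ⟨(show Bx hF from (⟨f, hint⟩ : B K x)), ?_⟩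
  apply IsFractionRing.injective (Bx hL) L
  exact hf

end invariantsH

section places

variable [IsAlgClosed K]

/-- Primes of `B_F` over `(x - c)` correspond to places of `F` over `c`. -/
theorem ncard_placesOver_eq_card_primesOver (c : K) :
    (placesOver x c).ncard = Nat.card ((Ideal.span {tc hF c}).primesOver (Bx hF)) := by
  rw [← Nat.card_coe_set_eq]
  symm
  have hmemQ : ∀ Q : (Ideal.span {tc hF c}).primesOver (Bx hF),
      algebraMap (Ax hF) (Bx hF) (tc hF c) ∈ Q.1 := by
    intro Q
    have h1 : tc hF c ∈ Ideal.span {tc hF c} := Ideal.mem_span_singleton_self _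
    have h2 := Q.2.2.over
    rw [h2] at h1
    exact h1
  have hne : ∀ Q : (Ideal.span {tc hF c}).primesOver (Bx hF), Q.1 ≠ ⊥ := by
    intro Q hQ
    have h1 := hmemQ Q
    rw [hQ, Ideal.mem_bot] at h1
    exact algebraMap_tc_ne_zero hF c h1
  let Φ : (Ideal.span {tc hF c}).primesOver (Bx hF) → placesOver x c := fun Q =>
    ⟨Place.ofHeightOneSpectrum (K := K) (F := F) ⟨Q.1, Q.2.1, hne Q⟩, by
      show 0 < (Place.ofHeightOneSpectrum (K := K) (F := F) ⟨Q.1, Q.2.1, hne Q⟩).ord
        (x - algebraMap K F c)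
      rw [← coe_tc' hF c, ← mem_asIdeal_iff (K := K) (F := F) _ (algebraMap_tc_ne_zero hF c)]
      exact hmemQ Q⟩
  refine Nat.card_congr (Equiv.ofBijective Φ ⟨?_, ?_⟩)
  · intro Q Q' h
    have h1 : Place.ofHeightOneSpectrum (K := K) (F := F) ⟨Q.1, Q.2.1, hne Q⟩ =
        Place.ofHeightOneSpectrum (K := K) (F := F) ⟨Q'.1, Q'.2.1, hne Q'⟩ :=
      congrArg Subtype.val h
    have h2 := ofHeightOneSpectrum_injective h1
    exact Subtype.ext (congrArg HeightOneSpectrum.asIdeal h2)
  · rintro ⟨v, hv⟩
    have hv' : 0 < v.ord (x - algebraMap K F c) := hv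
    have hxmem : x ∈ v.toValuationSubring := by
      have h1 : x - algebraMap K F c ∈ v.toValuationSubring := FF.mem_of_ord_pos v hv'
      have h2 := v.toValuationSubring.add_mem _ _ h1 (v.algebraMap_mem' c)
      simpa using h2
    obtain ⟨P, rfl⟩ := FF86.exists_ofHeightOneSpectrum_eq_of_mem hF v hxmem
    have hlies := liesOver hF P c hv'
    refine ⟨⟨P.asIdeal, P.isPrime, hlies⟩, ?_⟩
    apply Subtype.ext
    rfl

end places

section main

variable [IsAlgClosed K] (G : Subgroup (L ≃ₐ[K] L)) [Finite G]
  (hGx : ∀ g ∈ G, g (algebraMap F L x) = algebraMap F L x)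
  (hG : ∀ y : L, (∀ g ∈ G, g y = y) → y ∈ K⟮algebraMap F L x⟯)

theorem liesOver_AC (P : HeightOneSpectrum (Bx hL)) (c : K)
    (hc : 0 < (Place.ofHeightOneSpectrum (K := K) (F := L) P).ord
      (algebraMap F L x - algebraMap K L c)) :
    P.asIdeal.LiesOver (Ideal.span {tc hF c}) := by
  constructor
  have hmax := isMaximal_span_tc hF c
  refine hmax.eq_of_le ?_ ?_
  · exact (Ideal.IsPrime.under (Ax hF) P.asIdeal).ne_top
  · have hne : algebraMap (Ax hF) (Bx hL) (tc hF c) ≠ 0 := by
      intro h
      have h1 := congrArg (algebraMap (Bx hL) L) h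
      rw [algebraMap_AC, map_zero, coe_tc, map_sub] at h1
      have h2 : algebraMap F L x = algebraMap K L c := by
        rw [IsScalarTower.algebraMap_apply K F L]
        exact sub_eq_zero.mp h1
      rw [h2] at hL
      exact hL.transcendental (isAlgebraic_algebraMap c)
    rw [Ideal.span_singleton_le_iff_mem, Ideal.under_def, Ideal.mem_comap,
      mem_asIdeal_iff (K := K) (F := L) P hne, algebraMap_AC, coe_tc, map_sub,
      ← IsScalarTower.algebraMap_apply K F L]
    exact hc

include hF hL hGx hG in
theorem ncard_placesOver_eq_orbits (c : K) (w : Place K L)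
    (hw : 0 < w.ord (algebraMap F L x - algebraMap K L c)) :
    (placesOver x c).ncard =
      Nat.card (MulAction.orbitRel.Quotient (stabSub G w) (G ⧸ fixingSub F G)) := by
  letI := actionB hL G hGx
  haveI := smulCommClass_AC hF hL G hGx
  haveI := isInvariant_AC hF hL G hGx hG
  haveI := smulCommClass_BC hF hL G hGx
  haveI := isInvariant_BC hF hL G hGx hG
  have hXmem : algebraMap F L x ∈ w.toValuationSubring := by
    have h1 : algebraMap F L x - algebraMap K L c ∈ w.toValuationSubring := FF.mem_of_ord_pos w hw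
    have h2 := w.toValuationSubring.add_mem _ _ h1 (w.algebraMap_mem' c)
    simpa using h2
  obtain ⟨P, rfl⟩ := FF86.exists_ofHeightOneSpectrum_eq_of_mem hL w hXmem
  haveI : P.asIdeal.LiesOver (Ideal.span {tc hF c}) := liesOver_AC hF hL P c hw
  rw [ncard_placesOver_eq_card_primesOver hF c,
    GaloisLayer.natCard_primesOver_eq_natCard_orbits (fixingSub F G) (Ideal.span {tc hF c})
      P.asIdeal]
  have hstab : MulAction.stabilizer G P.asIdeal =
      stabSub G (Place.ofHeightOneSpectrum (K := K) (F := L) P) := by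
    ext g
    rw [MulAction.mem_stabilizer_iff]
    exact (smul_eq_iff hL G hGx P g).symm
  rw [hstab]

end main

end tower

section final

variable [CharZero K] [IsAlgClosed K] {x : F} (hF : IsFunctionFieldOver K x)
  (G : Subgroup (L ≃ₐ[K] L)) [Finite G]
  (hGx : ∀ g ∈ G, g (algebraMap F L x) = algebraMap F L x)
  (hG : ∀ y : L, (∀ g ∈ G, g y = y) → y ∈ K⟮algebraMap F L x⟯)

include hF hGx hG in
/-- **GALc, finite point.** -/
theorem ncard_placesOver_eq' (c : K) (w : Place K L)
    (hw : w ∈ placesOver (algebraMap F L x) c) :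
    (placesOver x c).ncard =
      Nat.card (MulAction.orbitRel.Quotient (stabSub G w) (G ⧸ fixingSub F G)) :=
  ncard_placesOver_eq_orbits hF (isFunctionFieldOver_top hF G hGx hG) G hGx hG c w hw

omit [CharZero K] [IsAlgClosed K] in
theorem placesOverInfty_eq (y : F) : placesOverInfty K y = placesOver y⁻¹ (0 : K) := by
  ext v
  show v.ord y < 0 ↔ 0 < v.ord (y⁻¹ - algebraMap K F 0)
  rw [map_zero, sub_zero, Place.ord_inv]
  omega

include hF hGx hG in
/-- **GALc, point at infinity.** -/
theorem ncard_placesOverInfty_eq' (w : Place K L)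
    (hw : w ∈ placesOverInfty K (algebraMap F L x)) :
    (placesOverInfty K x).ncard =
      Nat.card (MulAction.orbitRel.Quotient (stabSub G w) (G ⧸ fixingSub F G)) := by
  have hF' := FF86.isFunctionFieldOver_inv hF
  have hGx' : ∀ g ∈ G, g (algebraMap F L x⁻¹) = algebraMap F L x⁻¹ := fun g hg => by
    rw [map_inv₀, map_inv₀, hGx g hg]
  have hG' : ∀ y : L, (∀ g ∈ G, g y = y) → y ∈ K⟮algebraMap F L x⁻¹⟯ := fun y hy => by
    rw [map_inv₀, FF86.adjoin_inv_eq]; exact hG y hy
  have hw' : w ∈ placesOver (algebraMap F L x⁻¹) (0 : K) := by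
    rw [map_inv₀, ← placesOverInfty_eq]; exact hw
  rw [placesOverInfty_eq]
  exact ncard_placesOver_eq' hF' G hGx' hG' 0 w hw'

end final

end Fermat.Agent.S24.GalCount56
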