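import Mathlib

/-!
# S24, layer (B): Galois orbit counting (interface independent)

* `card_orbits_eq_card_orbits_quotient` : for a transitive `G`-set `X` with base point `x₀`
  (stabiliser `D`) and a subgroup `H ≤ G`, the number of `H`-orbits on `X` equals the number of
  `D`-orbits on `G ⧸ H`.
-/

set_option autoImplicit false

open MulAction

namespace Fermat.Agent.S24.GaloisOrbits

section GroupTheory

variable {G X : Type*} [Group G] [MulAction G X]

/-- The class of `g⁻¹ H` in `D \ (G ⧸ H)`. -/
def invClass (x₀ : X) (H : Subgroup G) (g : G) :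
    orbitRel.Quotient (stabilizer G x₀) (G ⧸ H) :=
  Quotient.mk'' ((g⁻¹ : G) : G ⧸ H)

theorem invClass_eq_iff (x₀ : X) (H : Subgroup G) (g g' : G) :
    invClass x₀ H g = invClass x₀ H g' ↔
      ∃ h ∈ H, ∃ d ∈ stabilizer G x₀, g' = h * g * d := by
  unfold invClass
  rw [Quotient.eq'']
  change ((g⁻¹ : G) : G ⧸ H) ∈ orbit (stabilizer G x₀) ((g'⁻¹ : G) : G ⧸ H) ↔ _
  constructor
  · rintro ⟨⟨d, hd⟩, hd'⟩
    have h1 : ((d * g'⁻¹ : G) : G ⧸ H) = ((g⁻¹ : G) : G ⧸ H) := hd'
    rw [QuotientGroup.eq] at h1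
    -- (d * g'⁻¹)⁻¹ * g⁻¹ ∈ H
    refine ⟨(d * g'⁻¹)⁻¹ * g⁻¹, h1, d, hd, ?_⟩
    group
  · rintro ⟨h, hh, d, hd, rfl⟩
    refine ⟨⟨d, hd⟩, ?_⟩
    change ((d * (h * g * d)⁻¹ : G) : G ⧸ H) = ((g⁻¹ : G) : G ⧸ H)
    rw [QuotientGroup.eq]
    have : (d * (h * g * d)⁻¹)⁻¹ * g⁻¹ = h := by group
    rw [this]
    exact hh

theorem orbit_eq_iff (x₀ : X) (H : Subgroup G) (g g' : G) :
    (Quotient.mk'' (g • x₀) : orbitRel.Quotient H X) = Quotient.mk'' (g' • x₀) ↔
      ∃ h ∈ H, ∃ d ∈ stabilizer G x₀, g' = h * g * d := by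
  rw [Quotient.eq'']
  change g • x₀ ∈ orbit H (g' • x₀) ↔ _
  constructor
  · rintro ⟨⟨h, hh⟩, hx⟩
    have hx' : (h * g') • x₀ = g • x₀ := by rw [mul_smul]; exact hx
    have hd : (g⁻¹ * (h * g')) ∈ stabilizer G x₀ := by
      rw [mem_stabilizer_iff, mul_smul, hx', inv_smul_smul]
    refine ⟨h⁻¹, H.inv_mem hh, _, hd, ?_⟩
    group
  · rintro ⟨h, hh, d, hd, rfl⟩
    refine ⟨⟨h⁻¹, H.inv_mem hh⟩, ?_⟩
    change h⁻¹ • ((h * g * d) • x₀) = g • x₀
    rw [mul_smul, mul_smul, mem_stabilizer_iff.mp hd, inv_smul_smul]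

/-- **Double coset count**: for a transitive action of `G` on `X` with base point `x₀`, the number
of orbits of a subgroup `H` on `X` equals the number of orbits of the stabiliser of `x₀` on the
coset space `G ⧸ H`. -/
theorem card_orbits_eq_card_orbits_quotient [IsPretransitive G X] (x₀ : X) (H : Subgroup G) :
    Nat.card (orbitRel.Quotient H X) =
      Nat.card (orbitRel.Quotient (stabilizer G x₀) (G ⧸ H)) := by
  classical
  -- the map `X → D \ (G ⧸ H)`
  have hex : ∀ x : X, ∃ g : G, g • x₀ = x := fun x => exists_smul_eq G x₀ x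
  let f : X → orbitRel.Quotient (stabilizer G x₀) (G ⧸ H) :=
    fun x => invClass x₀ H (hex x).choose
  have hf : ∀ (g : G), f (g • x₀) = invClass x₀ H g := by
    intro g
    have h1 : (hex (g • x₀)).choose • x₀ = g • x₀ := (hex (g • x₀)).choose_spec
    show invClass x₀ H (hex (g • x₀)).choose = invClass x₀ H g
    generalize (hex (g • x₀)).choose = c at h1
    rw [invClass_eq_iff]
    have hd : (c⁻¹ * g) ∈ stabilizer G x₀ := by
      rw [mem_stabilizer_iff, mul_smul, ← h1, inv_smul_smul]
    exact ⟨1, H.one_mem, _, hd, by group⟩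
  have hresp : ∀ x y : X, (orbitRel H X) x y → f x = f y := by
    intro x y hxy
    obtain ⟨g, rfl⟩ := hex x
    obtain ⟨g', rfl⟩ := hex y
    rw [hf, hf, invClass_eq_iff, ← orbit_eq_iff]
    exact Quotient.sound' hxy
  let Φ : orbitRel.Quotient H X → orbitRel.Quotient (stabilizer G x₀) (G ⧸ H) :=
    Quotient.lift f hresp
  refine Nat.card_congr (Equiv.ofBijective Φ ⟨?_, ?_⟩)
  · intro a b hab
    induction a using Quotient.inductionOn' with | _ x => ?_
    induction b using Quotient.inductionOn' with | _ y => ?_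
    obtain ⟨g, rfl⟩ := hex x
    obtain ⟨g', rfl⟩ := hex y
    have : f (g • x₀) = f (g' • x₀) := hab
    rw [hf, hf, invClass_eq_iff, ← orbit_eq_iff] at this
    exact this
  · intro c
    induction c using Quotient.inductionOn' with | _ q => ?_
    obtain ⟨a, rfl⟩ := QuotientGroup.mk_surjective q
    refine ⟨Quotient.mk'' (a⁻¹ • x₀), ?_⟩
    show f (a⁻¹ • x₀) = _
    rw [hf]
    unfold invClass
    rw [inv_inv]

end GroupTheory

section Primes

open Ideal
open scoped Pointwise

variable {A T B : Type*} [CommRing A] [CommRing T] [CommRing B] [Algebra A T] [Algebra T B]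
  [Algebra A B] [IsScalarTower A T B]
  {G : Type*} [Group G] [Finite G] [MulSemiringAction G B] [SMulCommClass G A B]

/-- Contraction of primes over `p` from `B` to the intermediate ring `T`. -/
def underMap (p : Ideal A) (Q : p.primesOver B) : p.primesOver T :=
  have : Q.1.IsPrime := Q.2.1
  haveI : Q.1.LiesOver p := Q.2.2
  ⟨Q.1.under T, ⟨inferInstance, ⟨by rw [Ideal.under_under]; exact (Q.1.over_def p)⟩⟩⟩

@[simp]
theorem coe_underMap (p : Ideal A) (Q : p.primesOver B) :
    ((underMap (T := T) p Q : p.primesOver T) : Ideal T) = Q.1.under T := rfl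

theorem under_smul_eq (H : Subgroup G) [SMulCommClass H T B] (h : H) (Q : Ideal B) :
    (h • Q).under T = Q.under T := by
  ext x
  simp only [Ideal.under_def, Ideal.mem_comap]
  show (algebraMap T B) x ∈ (h : G) • Q ↔ _
  rw [Ideal.mem_pointwise_smul_iff_inv_smul_mem]
  have : ((h : G)⁻¹) • (algebraMap T B) x = (algebraMap T B) x := by
    have h2 : (h⁻¹ : H) • (algebraMap T B) x = (algebraMap T B) x := smul_algebraMap _ _
    exact h2
  rw [this]

theorem underMap_surjective (H : Subgroup G) [Algebra.IsInvariant T B H]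
    (hinj : Function.Injective (algebraMap T B)) (p : Ideal A) :
    Function.Surjective (underMap (T := T) (B := B) p) := by
  rintro ⟨q, hq1, hq2⟩
  haveI := hq1
  haveI : Algebra.IsIntegral T B := Algebra.IsInvariant.isIntegral T B H
  obtain ⟨Q, -, hQ1, hQ2⟩ := Ideal.exists_ideal_over_prime_of_isIntegral q (⊥ : Ideal B) (by
    rw [Ideal.comap_bot_of_injective _ hinj]; exact bot_le)
  have hQ3 : Q.LiesOver p := ⟨by
    rw [← Ideal.under_under (B := T), Ideal.under_def T, hQ2]; exact hq2.over⟩
  exact ⟨⟨Q, hQ1, hQ3⟩, Subtype.ext hQ2⟩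

theorem underMap_eq_iff (H : Subgroup G) [SMulCommClass H T B] [Algebra.IsInvariant T B H]
    (p : Ideal A) (Q Q' : p.primesOver B) :
    underMap (T := T) p Q = underMap p Q' ↔ ∃ h : H, h • Q = Q' := by
  have : Q.1.IsPrime := Q.2.1
  have : Q'.1.IsPrime := Q'.2.1
  constructor
  · intro h
    have h' : Q.1.under T = Q'.1.under T := congrArg Subtype.val h
    obtain ⟨g, hg⟩ := Algebra.IsInvariant.exists_smul_of_under_eq T B H Q.1 Q'.1 h'
    exact ⟨g, Subtype.ext hg.symm⟩
  · rintro ⟨h, rfl⟩
    refine Subtype.ext ?_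
    show Q.1.under T = (h • Q.1).under T
    rw [under_smul_eq]

/-- Primes of the intermediate ring `T = B^H` over `p` are the `H`-orbits of primes of `B`
over `p`. -/
theorem card_primesOver_eq_card_orbits (H : Subgroup G) [SMulCommClass H T B]
    [Algebra.IsInvariant T B H] (hinj : Function.Injective (algebraMap T B)) (p : Ideal A) :
    Nat.card (p.primesOver T) = Nat.card (orbitRel.Quotient H (p.primesOver B)) := by
  have hresp : ∀ Q Q' : p.primesOver B, (orbitRel H (p.primesOver B)) Q Q' →
      underMap (T := T) p Q = underMap p Q' := by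
    intro Q Q' hQ
    obtain ⟨h, hh⟩ := hQ
    exact ((underMap_eq_iff H p Q' Q).mpr ⟨h, hh⟩).symm
  symm
  refine Nat.card_congr (Equiv.ofBijective (Quotient.lift (underMap (T := T) p) hresp) ⟨?_, ?_⟩)
  · intro a b hab
    induction a using Quotient.inductionOn' with | _ Q => ?_
    induction b using Quotient.inductionOn' with | _ Q' => ?_
    have h1 : underMap (T := T) p Q = underMap p Q' := hab
    obtain ⟨h, hh⟩ := (underMap_eq_iff H p Q Q').mp h1
    exact Quotient.sound' ⟨h⁻¹, by show h⁻¹ • Q' = Q; rw [← hh, inv_smul_smul]⟩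
  · intro q
    obtain ⟨Q, hQ⟩ := underMap_surjective H hinj p q
    exact ⟨Quotient.mk'' Q, hQ⟩

/-- **Layer (B), main count.**  `G` finite acting on `B` with invariants `A`, `H ≤ G` with
invariants `T`.  For a prime `P` of `B` over `p`, the number of primes of `T` over `p` is the
number of orbits of the decomposition group of `P` on `G ⧸ H`. -/
theorem card_primesOver_eq_card_orbits_stabilizer [IsGaloisGroup G A B]
    (H : Subgroup G) [SMulCommClass H T B] [Algebra.IsInvariant T B H]
    (hinj : Function.Injective (algebraMap T B)) (p : Ideal A) (P : p.primesOver B) :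
    Nat.card (p.primesOver T) =
      Nat.card (orbitRel.Quotient (stabilizer G P) (G ⧸ H)) := by
  rw [card_primesOver_eq_card_orbits H hinj p]
  have : P.1.IsPrime := P.2.1
  have : P.1.LiesOver p := P.2.2
  have : IsPretransitive G (p.primesOver B) := Ideal.isPretransitive_of_isGaloisGroup p G
  exact card_orbits_eq_card_orbits_quotient P H

omit [Finite G] in
theorem stabilizer_primesOver_eq (p : Ideal A) (P : p.primesOver B) :
    stabilizer G P = stabilizer G (P.1 : Ideal B) := by
  ext g
  simp only [mem_stabilizer_iff]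
  constructor
  · intro h; exact congrArg Subtype.val h
  · intro h; exact Subtype.ext h

end Primes

section Decomposition

open scoped Pointwise

/-- Over an algebraically closed constant field all inertia degrees are `1`. -/
theorem inertiaDeg_eq_one_of_isAlgClosed {K R S : Type*} [Field K] [IsAlgClosed K] [CommRing R]
    [CommRing S] [Algebra K R] [Algebra R S] [Algebra K S] [IsScalarTower K R S]
    [Module.Finite R S] (p : Ideal R) [p.IsMaximal] (q : Ideal S) [q.IsMaximal] [q.LiesOver p]
    (hp : Function.Surjective (algebraMap K (R ⧸ p))) : q.inertiaDeg R = 1 := by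
  rw [Ideal.inertiaDeg_eq_of_isMaximal p q]
  let : Field (R ⧸ p) := Ideal.Quotient.field p
  let : Field (S ⧸ q) := Ideal.Quotient.field q
  have hfin : Module.Finite (R ⧸ p) (S ⧸ q) := inferInstance
  have hfinK : Module.Finite K (R ⧸ p) :=
    Module.Finite.of_surjective (Algebra.linearMap K (R ⧸ p)) hp
  have hfinK' : Module.Finite K (S ⧸ q) := Module.Finite.trans (R ⧸ p) (S ⧸ q)
  have : Algebra.IsIntegral K (S ⧸ q) := Algebra.IsIntegral.of_finite K (S ⧸ q)
  have hb : Function.Bijective (algebraMap K (S ⧸ q)) :=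
    IsAlgClosed.algebraMap_bijective_of_isIntegral
  apply Module.finrank_of_bijective_algebraMap
  refine ⟨(algebraMap (R ⧸ p) (S ⧸ q)).injective, ?_⟩
  intro y
  obtain ⟨a, rfl⟩ := hb.2 y
  exact ⟨algebraMap K (R ⧸ p) a, by rw [← IsScalarTower.algebraMap_apply]⟩

variable {A B : Type*} [CommRing A] [CommRing B] [Algebra A B]
  {G : Type*} [Group G] [Finite G] [MulSemiringAction G B]

/-- The decomposition group has order `e` when the inertia degree is `1`. -/
theorem card_stabilizer_eq_ramificationIdx [IsGaloisGroup G A B] [IsDomain A] [IsDomain B]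
    [Module.Finite A B] [Module.Flat A B] (p : Ideal A) [p.IsPrime] (P : Ideal B) [P.IsPrime]
    [P.LiesOver p] [PerfectField p.ResidueField] (hf : P.inertiaDeg A = 1) :
    Nat.card (stabilizer G P) = P.ramificationIdx A := by
  rw [Ideal.card_stabilizer_eq p P, Ideal.ramificationIdxIn_eq_ramificationIdx p P G,
    Ideal.inertiaDegIn_eq_inertiaDeg p P G, hf, mul_one]

end Decomposition

end Fermat.Agent.S24.GaloisOrbits
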