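import Mathlib

/-!
# Layer (B) for S24: primes in a non-normal intermediate extension of a Galois extension of rings

Let `A ⊆ C ⊆ B` be commutative rings, `G` a finite group acting on `B` with `B^G = A`
(`Algebra.IsInvariant A B G`) and `H ≤ G` a subgroup with `B^H = C` (`Algebra.IsInvariant C B H`);
e.g. `[IsGaloisGroup G A B] [IsGaloisGroup H C B]` in Mathlib's sense.
Fix a prime `p` of `A` and a prime `P` of `B` over `p`, with decomposition group
`D = MulAction.stabilizer G P`.

* `exists_under_eq`: every prime of `C` over `p` is of the form `Q ∩ C`, `Q` a prime of `B` over `p`.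
* `under_eq_under_iff`: `Q ∩ C = Q' ∩ C` iff `Q' = h • Q` for some `h ∈ H`.
* `primeBelow G P g := (g⁻¹ • P) ∩ C`, with `primeBelow_eq_iff` (double coset criterion) and
  `primeBelow_surjective`.
* `card_primesOver_eq_card_orbits`: the number of primes of `C` over `p` is the number of orbits of
  `D` acting on `G ⧸ H` by left multiplication.
-/

namespace Fermat.Agent.S24.GaloisOrbits88

open Pointwise MulAction

variable {A C B : Type*} [CommRing A] [CommRing C] [CommRing B]
  [Algebra A C] [Algebra C B] [Algebra A B] [IsScalarTower A C B]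
  (G : Type*) [Group G] [Finite G] [MulSemiringAction G B] [SMulCommClass G A B]
  [Algebra.IsInvariant A B G]
  (H : Subgroup G) [SMulCommClass H C B] [Algebra.IsInvariant C B H]
  (p : Ideal A) (P : Ideal B) [hPprime : P.IsPrime] [hPp : P.LiesOver p]

omit [Finite G] [Algebra.IsInvariant A B G] [Algebra.IsInvariant C B H] [SMulCommClass G A B]
  [Algebra A C] [Algebra A B] [IsScalarTower A C B] in
/-- Elements of `H` do not change the contraction to `C`. -/
theorem under_smul_subgroup (h : H) (Q : Ideal B) : ((h : G) • Q).under C = Q.under C :=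
  Ideal.under_smul C Q h

omit [Algebra.IsInvariant A B G] [SMulCommClass G A B]
  [Algebra A C] [Algebra A B] [IsScalarTower A C B] in
/-- Two primes of `B` have the same contraction to `C` iff they are conjugate under `H`. -/
theorem under_eq_under_iff (Q Q' : Ideal B) [Q.IsPrime] [Q'.IsPrime] :
    Q.under C = Q'.under C ↔ ∃ h : H, Q' = (h : G) • Q := by
  constructor
  · intro hQ
    obtain ⟨h, hh⟩ := Algebra.IsInvariant.exists_smul_of_under_eq C B H Q Q' hQ
    exact ⟨h, hh⟩
  · rintro ⟨h, rfl⟩
    exact (under_smul_subgroup G H h Q).symm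

omit [SMulCommClass G A B] [Algebra.IsInvariant A B G] [SMulCommClass (↥H) C B] in
include H in
/-- Every prime of `C` over `p` is the contraction of a prime of `B` over `p`. -/
theorem exists_under_eq [FaithfulSMul C B] (q : Ideal C) [q.IsPrime] [hq : q.LiesOver p] :
    ∃ Q : Ideal B, Q.IsPrime ∧ Q.LiesOver p ∧ Q.under C = q := by
  have : Algebra.IsIntegral C B := Algebra.IsInvariant.isIntegral C B H
  obtain ⟨Q, -, hQ1, hQ2⟩ := Ideal.exists_ideal_over_prime_of_isIntegral q (⊥ : Ideal B)
    (by simp [← RingHom.ker_eq_comap_bot,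
      (RingHom.injective_iff_ker_eq_bot _).mp (FaithfulSMul.algebraMap_injective C B)])
  refine ⟨Q, hQ1, ⟨?_⟩, hQ2⟩
  rw [hq.over, ← hQ2]
  exact Ideal.under_under (A := A) (B := C) Q

variable {p} in
omit [Finite G] [Algebra.IsInvariant A B G] in
/-- The prime of `C` below `g⁻¹ • P`, as an element of `p.primesOver C`. -/
def primeBelow (g : G) : p.primesOver C :=
  ⟨(g⁻¹ • P).under C, inferInstance,
    ⟨by
      have h1 : (g⁻¹ • P).LiesOver p := inferInstance
      rw [h1.over]
      exact (Ideal.under_under (A := A) (B := C) (g⁻¹ • P)).symm⟩⟩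


variable {p} in
omit [Finite G] [Algebra.IsInvariant A B G] in
@[simp] theorem coe_primeBelow (g : G) :
    ((primeBelow G P g : p.primesOver C) : Ideal C) = (g⁻¹ • P).under C := rfl

variable {p} in
omit [Finite G] [Algebra.IsInvariant A B G] [Algebra.IsInvariant C B H] in
theorem primeBelow_mul_subgroup (g : G) (h : H) :
    (primeBelow G P (g * h) : p.primesOver C) = primeBelow G P g := by
  apply Subtype.ext
  simp only [coe_primeBelow, mul_inv_rev, mul_smul]
  exact under_smul_subgroup G H (h⁻¹) (g⁻¹ • P)

variable {p} in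
omit [Finite G] [Algebra.IsInvariant A B G] in
theorem primeBelow_stabilizer_mul (d : stabilizer G P) (g : G) :
    (primeBelow G P ((d : G) * g) : p.primesOver C) = primeBelow G P g := by
  apply Subtype.ext
  simp only [coe_primeBelow, mul_inv_rev, mul_smul]
  have : (d : G)⁻¹ • P = P := by
    have := d.2
    rw [mem_stabilizer_iff] at this
    rw [inv_smul_eq_iff, this]
  rw [this]

variable {p} in
omit [Algebra.IsInvariant A B G] in
theorem primeBelow_eq_iff (g g' : G) :
    (primeBelow G P g : p.primesOver C) = primeBelow G P g' ↔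
      ∃ d : stabilizer G P, ∃ h : H, g' = (d : G) * g * (h : G) := by
  constructor
  · intro hgg
    have h1 : (g⁻¹ • P).under C = (g'⁻¹ • P).under C := congrArg Subtype.val hgg
    obtain ⟨h, hh⟩ := (under_eq_under_iff G H (g⁻¹ • P) (g'⁻¹ • P)).mp h1
    -- `g'⁻¹ • P = h • g⁻¹ • P`, so `g' * h * g⁻¹` stabilizes `P`
    have hd : g' * (h : G) * g⁻¹ ∈ stabilizer G P := by
      rw [mem_stabilizer_iff, mul_smul, mul_smul, ← hh, smul_inv_smul]
    refine ⟨⟨_, hd⟩, h⁻¹, ?_⟩
    simp [mul_assoc]
  · rintro ⟨d, h, rfl⟩
    rw [primeBelow_mul_subgroup G H P, primeBelow_stabilizer_mul G P]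

variable {p} in
omit [SMulCommClass (↥H) C B] in
include H in
theorem primeBelow_surjective [FaithfulSMul C B] :
    Function.Surjective (primeBelow G P : G → p.primesOver C) := by
  rintro ⟨q, hq1, hq2⟩
  obtain ⟨Q, hQ1, hQ2, hQ3⟩ := exists_under_eq (B := B) G H p q
  obtain ⟨g, hg⟩ := Algebra.IsInvariant.exists_smul_of_under_eq A B G P Q
    (hPp.over.symm.trans hQ2.over)
  refine ⟨g⁻¹, Subtype.ext ?_⟩
  simp only [coe_primeBelow, inv_inv, ← hg, hQ3]


variable {p} in
omit [Finite G] [Algebra.IsInvariant A B G] [Algebra.IsInvariant C B H] in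
/-- `primeBelow` descends to `G ⧸ H`. -/
def primeBelowQuot : G ⧸ H → p.primesOver C :=
  Quotient.lift (s := QuotientGroup.leftRel H) (primeBelow G P) (by
    intro a b hab
    have hab' : a⁻¹ * b ∈ H := QuotientGroup.leftRel_apply.mp hab
    have : b = a * (⟨a⁻¹ * b, hab'⟩ : H) := by simp
    rw [this, primeBelow_mul_subgroup G H P])

variable {p} in
omit [Finite G] [Algebra.IsInvariant A B G] [Algebra.IsInvariant C B H] in
@[simp] theorem primeBelowQuot_mk (g : G) :
    (primeBelowQuot G H P (g : G ⧸ H) : p.primesOver C) = primeBelow G P g := rfl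

variable {p} in
omit [Finite G] [Algebra.IsInvariant A B G] [Algebra.IsInvariant C B H] in
theorem primeBelowQuot_smul (d : stabilizer G P) (x : G ⧸ H) :
    (primeBelowQuot G H P (d • x) : p.primesOver C) = primeBelowQuot G H P x := by
  induction x using QuotientGroup.induction_on with
  | H g =>
    change primeBelowQuot G H P (((d : G) * g : G) : G ⧸ H) = _
    rw [primeBelowQuot_mk, primeBelowQuot_mk, primeBelow_stabilizer_mul G P]

variable {p} in
omit [Finite G] [Algebra.IsInvariant A B G] [Algebra.IsInvariant C B H] in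
/-- The map from orbits of the decomposition group on `G ⧸ H` to primes of `C` over `p`. -/
def orbitToPrime : orbitRel.Quotient (stabilizer G P) (G ⧸ H) → p.primesOver C :=
  Quotient.lift (s := orbitRel (stabilizer G P) (G ⧸ H)) (primeBelowQuot G H P) (by
    intro a b hab
    obtain ⟨d, rfl⟩ := (orbitRel_apply.mp hab)
    exact primeBelowQuot_smul G H P d b)

variable {p} in
theorem orbitToPrime_bijective [FaithfulSMul C B] :
    Function.Bijective (orbitToPrime G H P : _ → p.primesOver C) := by
  constructor
  · intro x y hxy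
    induction x using Quotient.inductionOn' with | h x => ?_
    induction y using Quotient.inductionOn' with | h y => ?_
    induction x using QuotientGroup.induction_on with | H g => ?_
    induction y using QuotientGroup.induction_on with | H g' => ?_
    have h1 : (primeBelow G P g : p.primesOver C) = primeBelow G P g' := hxy
    obtain ⟨d, h, rfl⟩ := (primeBelow_eq_iff G H P g g').mp h1
    apply Quotient.sound'
    rw [orbitRel_apply]
    refine ⟨d⁻¹, ?_⟩
    change (((d⁻¹ : stabilizer G P) : G) * ((d : G) * g * (h : G)) : G ⧸ H) = (g : G ⧸ H)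
    rw [QuotientGroup.eq]
    simp [mul_assoc]
  · intro q
    obtain ⟨g, hg⟩ := primeBelow_surjective G H P q
    exact ⟨Quotient.mk'' (g : G ⧸ H), hg⟩

variable {p} in
/-- **Orbit count**: the number of primes of `C = B^H` over `p` equals the number of orbits of the
decomposition group `D = Stab_G(P)` acting on `G ⧸ H` by left multiplication. -/
theorem card_primesOver_eq_card_orbits [FaithfulSMul C B] :
    Nat.card (p.primesOver C) = Nat.card (orbitRel.Quotient (stabilizer G P) (G ⧸ H)) :=
  (Nat.card_congr (Equiv.ofBijective _ (orbitToPrime_bijective G H P))).symm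

end Fermat.Agent.S24.GaloisOrbits88
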