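import Mathlib

/-!
# S24 project, MOD-HERMITE part b: conjugating `Γ(N)` by integer matrices, finiteness of range

* `exists_mul_eq_mul` : for an integer matrix `M` with `det M ≠ 0`, `det M ∣ N` and `g ∈ Γ(N)`
  there is `γ ∈ SL(2,ℤ)` with `M * g = γ * M`.
* `finite_range_of_Gamma_le_ker` : a monoid hom from `SL(2,ℤ)` which is trivial on `Γ(N)` has
  finite range.
-/

set_option autoImplicit false

open scoped MatrixGroups
open CongruenceSubgroup Matrix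

namespace Fermat.Agent.S24.GammaConj

/-- An element of `Γ(N)` is `1 + N • h` for an integer matrix `h`. -/
lemma exists_eq_one_add_smul {N : ℕ} {g : SL(2, ℤ)} (hg : g ∈ Gamma N) :
    ∃ h : Matrix (Fin 2) (Fin 2) ℤ, (g : Matrix (Fin 2) (Fin 2) ℤ) = 1 + (N : ℤ) • h := by
  rw [Gamma_mem] at hg
  obtain ⟨h00, h01, h10, h11⟩ := hg
  have d00 : (N : ℤ) ∣ g 0 0 - 1 := by
    have : ((g 0 0 : ℤ) : ZMod N) = ((1 : ℤ) : ZMod N) := by rw [h00]; simp
    exact (ZMod.intCast_eq_intCast_iff_dvd_sub _ _ N).mp this.symm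
  have d01 : (N : ℤ) ∣ g 0 1 := by
    exact (ZMod.intCast_zmod_eq_zero_iff_dvd _ N).mp h01
  have d10 : (N : ℤ) ∣ g 1 0 := by
    exact (ZMod.intCast_zmod_eq_zero_iff_dvd _ N).mp h10
  have d11 : (N : ℤ) ∣ g 1 1 - 1 := by
    have : ((g 1 1 : ℤ) : ZMod N) = ((1 : ℤ) : ZMod N) := by rw [h11]; simp
    exact (ZMod.intCast_eq_intCast_iff_dvd_sub _ _ N).mp this.symm
  obtain ⟨a, ha⟩ := d00
  obtain ⟨b, hb⟩ := d01
  obtain ⟨c, hc⟩ := d10
  obtain ⟨d, hd⟩ := d11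
  refine ⟨!![a, b; c, d], ?_⟩
  have e1 : (g : Matrix (Fin 2) (Fin 2) ℤ) = !![g 0 0, g 0 1; g 1 0, g 1 1] :=
    Matrix.eta_fin_two _
  have e2 : (1 : Matrix (Fin 2) (Fin 2) ℤ) + (N : ℤ) • !![a, b; c, d] =
      !![1 + N * a, N * b; N * c, 1 + N * d] := by
    ext i j
    fin_cases i <;> fin_cases j <;> simp [Matrix.add_apply]
  rw [e2, e1]
  have f00 : g 0 0 = 1 + N * a := by linarith
  have f11 : g 1 1 = 1 + N * d := by linarith
  rw [f00, hb, hc, f11]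

/-- **Conjugation of `Γ(N)` by an integer matrix of determinant dividing `N`.** -/
theorem exists_mul_eq_mul (M : Matrix (Fin 2) (Fin 2) ℤ) (hM : M.det ≠ 0) {N : ℕ}
    (hdvd : M.det ∣ (N : ℤ)) {g : SL(2, ℤ)} (hg : g ∈ Gamma N) :
    ∃ γ : SL(2, ℤ), M * (g : Matrix (Fin 2) (Fin 2) ℤ) = (γ : Matrix (Fin 2) (Fin 2) ℤ) * M := by
  obtain ⟨h, hh⟩ := exists_eq_one_add_smul hg
  obtain ⟨k, hk⟩ := hdvd
  set γm : Matrix (Fin 2) (Fin 2) ℤ := 1 + k • (M * h * M.adjugate) with hγm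
  have hmul : γm * M = M * (g : Matrix (Fin 2) (Fin 2) ℤ) := by
    rw [hγm, hh, add_mul, one_mul, mul_add, mul_one, smul_mul_assoc, mul_assoc (M * h),
      adjugate_mul, mul_smul_comm, mul_one, smul_smul, mul_smul_comm, hk, mul_comm k]
  have hdet : γm.det = 1 := by
    have h1 : γm.det * M.det = M.det * 1 := by
      rw [← det_mul, hmul, det_mul, g.det_coe]
    rw [mul_comm] at h1
    exact mul_left_cancel₀ hM h1
  exact ⟨⟨γm, hdet⟩, hmul.symm⟩

/-- A monoid hom from `SL(2,ℤ)` which is trivial on `Γ(N)` has finite range. -/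
theorem finite_range_of_Gamma_le_ker {G : Type*} [Group G] (ρ : SL(2, ℤ) →* G) (N : ℕ) [NeZero N]
    (h : ∀ g ∈ Gamma N, ρ g = 1) : Finite ρ.range := by
  have hle : Gamma N ≤ ρ.ker := fun g hg => (MonoidHom.mem_ker).mpr (h g hg)
  have : ρ.ker.FiniteIndex := Subgroup.finiteIndex_of_le hle
  have : Finite (SL(2, ℤ) ⧸ ρ.ker) := Subgroup.finite_quotient_of_finiteIndex
  exact Finite.of_equiv _ (QuotientGroup.quotientKerEquivRange ρ).toEquiv

end Fermat.Agent.S24.GammaConj
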