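/-
S24 (helper30): principal divisors of a one-variable function field over an algebraically closed
field of characteristic zero have finite support and degree zero.
-/
import Fermat.Agent.S24.Defs
import Fermat.Agent.S24.Pkg_FF1b

set_option autoImplicit false
set_option linter.unusedSectionVars false
set_option linter.style.haveILetI false

open AlgebraicCurve IntermediateField

namespace Fermat.Agent.S24.H30Principal

open Fermat.Agent.S24.H30Zeros
open scoped IntermediateField.algebraAdjoinAdjoin

variable {K F : Type*} [Field K] [Field F] [Algebra K F]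

/-- transcendence degree one exchange: `F` is algebraic over `K(t)` for any transcendental `t`. -/
theorem isAlgebraic_adjoin_of_transcendental {x t : F}
    [halg : Algebra.IsAlgebraic K⟮x⟯ F] (ht : Transcendental K t) :
    Algebra.IsAlgebraic K⟮t⟯ F := by
  have h1 : Algebra.IsAlgebraic (Algebra.adjoin K {x}) F :=
    (IsFractionRing.comap_isAlgebraic_iff (A := Algebra.adjoin K {x}) (K := K⟮x⟯) (C := F)).mpr halg
  have h2 : Algebra.trdeg K F ≤ Cardinal.mk ({x} : Set F) :=
    Algebra.IsAlgebraic.trdeg_le_cardinalMk K {x}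
  have h3 : AlgebraicIndependent K (fun _ : PUnit => t) := by
    rw [algebraicIndependent_unique_type_iff]
    exact ht
  have h4 : IsTranscendenceBasis K (fun _ : PUnit => t) := by
    apply h3.isTranscendenceBasis_of_trdeg_le_of_finite
    refine h2.trans ?_
    simp
  have h5 := h4.isAlgebraic_field
  have : Set.range (fun _ : PUnit => t) = {t} := by
    ext; simp
  rwa [this] at h5

/-- `F` is finite over `K(t)` for every transcendental `t`. -/
theorem finiteDimensional_adjoin_of_transcendental {x : F} (hF : IsFunctionFieldOver K x)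
    {t : F} (ht : Transcendental K t) : FiniteDimensional K⟮t⟯ F := by
  haveI := hF.finite
  haveI h1 : Algebra.EssFiniteType K K⟮x⟯ :=
    IntermediateField.essFiniteType_iff.mpr ⟨{x}, by simp⟩
  haveI h3 : Algebra.EssFiniteType K F := Algebra.EssFiniteType.comp K K⟮x⟯ F
  haveI h4 : Algebra.EssFiniteType K⟮t⟯ F := Algebra.EssFiniteType.of_comp K K⟮t⟯ F
  haveI h5 : Algebra.IsAlgebraic K⟮t⟯ F := isAlgebraic_adjoin_of_transcendental (x := x) ht
  exact Algebra.finite_of_essFiniteType_of_isAlgebraic

theorem isFunctionFieldOver_of_transcendental {x : F} (hF : IsFunctionFieldOver K x)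
    {t : F} (ht : Transcendental K t) : IsFunctionFieldOver K t :=
  ⟨ht, finiteDimensional_adjoin_of_transcendental hF ht⟩

theorem ord_algebraMap_eq_zero (v : Place K F) (a : K) : v.ord (algebraMap K F a) = 0 := by
  rcases eq_or_ne a 0 with rfl | ha
  · simp
  have h1 := ord_nonneg_of_mem v (v.algebraMap_mem' a)
  have h2 := ord_nonneg_of_mem v (v.algebraMap_mem' a⁻¹)
  rw [map_inv₀, Place.ord_inv] at h2
  omega

section main

variable [IsAlgClosed K] [CharZero K]

theorem exists_eq_algebraMap_of_isAlgebraic {f : F} (hf : IsAlgebraic K f) :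
    ∃ a : K, algebraMap K F a = f := by
  haveI : Algebra.IsAlgebraic K K⟮f⟯ := IntermediateField.isAlgebraic_adjoin_simple hf.isIntegral
  obtain ⟨a, ha⟩ := (IsAlgClosed.algebraMap_bijective_of_isIntegral (k := K) (K := K⟮f⟯)).2
    (AdjoinSimple.gen K f)
  refine ⟨a, ?_⟩
  have := congrArg (algebraMap K⟮f⟯ F) ha
  rwa [← IsScalarTower.algebraMap_apply, AdjoinSimple.algebraMap_gen] at this

/-- the Finset form of "principal divisors have finite support and degree zero" -/
theorem exists_finset_ord {x : F} (hF : IsFunctionFieldOver K x) {f : F} (hf : f ≠ 0) :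
    ∃ s : Finset (Place K F), (∀ v : Place K F, v ∈ s ↔ v.ord f ≠ 0) ∧ ∑ v ∈ s, v.ord f = 0 := by
  classical
  by_cases halg : IsAlgebraic K f
  · obtain ⟨a, rfl⟩ := exists_eq_algebraMap_of_isAlgebraic halg
    refine ⟨∅, fun v => ?_, by simp⟩
    simp [ord_algebraMap_eq_zero]
  · have ht : Transcendental K f := halg
    have hF' := isFunctionFieldOver_of_transcendental hF ht
    obtain ⟨s0, hs0, hsum0⟩ := exists_finset_placesOver hF' 0
    obtain ⟨s1, hs1, hsum1⟩ := exists_finset_placesOverInfty hF'
    simp only [map_zero, sub_zero] at hsum0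
    replace hs0 : ∀ v : Place K F, v ∈ s0 ↔ 0 < v.ord f := fun v => by
      rw [hs0 v]; show 0 < v.ord (f - algebraMap K F 0) ↔ _; rw [map_zero, sub_zero]
    replace hs1 : ∀ v : Place K F, v ∈ s1 ↔ v.ord f < 0 := fun v => by
      rw [hs1 v]; rfl
    have hdisj : Disjoint s0 s1 := by
      rw [Finset.disjoint_left]
      intro v h0 h1
      have := (hs0 v).mp h0
      have := (hs1 v).mp h1
      omega
    refine ⟨s0 ∪ s1, fun v => ?_, ?_⟩
    · rw [Finset.mem_union, hs0 v, hs1 v]
      omega
    · rw [Finset.sum_union hdisj, hsum0]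
      have : ∑ v ∈ s1, v.ord f = - ∑ v ∈ s1, - v.ord f := by
        rw [Finset.sum_neg_distrib, neg_neg]
      rw [this, hsum1]
      ring

end main

end Fermat.Agent.S24.H30Principal
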