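/-
S24, package MOD: `AnalyticInput.inv_mem` for `M = HolH.Mer`.

`inv_mem_core` is the field `inv_mem` of `Mod.AnalyticInput N` *verbatim* for `C := ℂ`,
`M := HolH.Mer`, with `act` and `Jd` as parameters: an `SL(2,ℤ)`-invariant element of the
`ℂ`-algebra generated by the conjugates of the `j (d τ)` is a polynomial in `j`.
It is the transport of `ModGrowth.exists_polynomial_of_mem_adjoin` along `Hol → Mer`.

This file is complete: every statement is proved.
-/
import Fermat.Agent.S24.ModGrowth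
import Fermat.Agent.S24.HolH
import Fermat.Agent.S24.Mod.Interface

set_option autoImplicit false

open UpperHalfPlane hiding I
open Complex Filter Topology
open scoped Real MatrixGroups Manifold

namespace Fermat.Agent.S24.InvMemMer

open Fermat.Agent.S24.JAnalytic Fermat.Agent.S24.HolH Fermat.Agent.S24.ModGrowth

/-- The conjugates `g • jd d` inside `Hol`. -/
def conjSetHol (jd : ℕ → Hol) (N : ℕ) : Set Hol :=
  {s | ∃ d : ℕ, d ∣ N ∧ ∃ g : SL(2, ℤ), s = g • jd d}

lemma conjSet_eq_image (N : ℕ)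
    (act : SL(2, ℤ) →* (Mer ≃ₐ[ℂ] Mer)) (hact : ∀ g x, act g x = g • x)
    (jd : ℕ → Hol) (Jd : ℕ → Mer) (hJd : ∀ d : ℕ, d ∣ N → Jd d = algebraMap Hol Mer (jd d)) :
    Mod.conjSet act Jd N = (IsScalarTower.toAlgHom ℂ Hol Mer) '' conjSetHol jd N := by
  ext s
  constructor
  · rintro ⟨d, hd, g, rfl⟩
    refine ⟨g • jd d, ⟨d, hd, g, rfl⟩, ?_⟩
    rw [hact, hJd d hd, Mer.smul_algebraMap]
    rfl
  · rintro ⟨f, ⟨d, hd, g, rfl⟩, rfl⟩
    refine ⟨d, hd, g, ?_⟩
    rw [hact, hJd d hd, Mer.smul_algebraMap]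
    rfl

/-- **`AnalyticInput.inv_mem` for `M = Mer`**, with the action and the generators as parameters. -/
theorem inv_mem_core (N : ℕ) [NeZero N]
    (act : SL(2, ℤ) →* (Mer ≃ₐ[ℂ] Mer)) (hact : ∀ g x, act g x = g • x)
    (jd : ℕ → Hol)
    (hjd : ∀ d : ℕ, d ∣ N → ∀ τ z : ℍ, (z : ℂ) = (d : ℂ) * (τ : ℂ) →
      (jd d : ℍ → ℂ) τ = jFun z)
    (Jd : ℕ → Mer) (hJd : ∀ d : ℕ, d ∣ N → Jd d = algebraMap Hol Mer (jd d)) :
    ∀ b ∈ Algebra.adjoin ℂ (Mod.conjSet act Jd N), (∀ g, act g b = b) →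
      b ∈ Algebra.adjoin ℂ {Jd 1} := by
  intro b hb hinv
  rw [conjSet_eq_image N act hact jd Jd hJd, ← AlgHom.map_adjoin, Subalgebra.mem_map] at hb
  obtain ⟨f, hf, rfl⟩ := hb
  -- `f` as a function lies in the algebra generated by moderate growth functions
  have hf' : (f : ℍ → ℂ) ∈ Algebra.adjoin ℂ (Hol.val '' conjSetHol jd N) := by
    rw [← AlgHom.map_adjoin]
    exact ⟨f, hf, rfl⟩
  have hS : ∀ s ∈ Hol.val '' conjSetHol jd N, ModerateGrowth s := by
    rintro s ⟨-, ⟨d, hd, g, rfl⟩, rfl⟩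
    have hd0 : 0 < d := Nat.pos_of_dvd_of_pos hd (NeZero.pos N)
    refine moderateGrowth_conj (d : ℤ) (by exact_mod_cast hd0) g⁻¹ _ fun τ z hz => ?_
    show ((g • jd d : Hol) : ℍ → ℂ) τ = jFun z
    rw [Hol.smul_apply]
    exact hjd d hd _ z (by rw [hz]; push_cast; rfl)
  have hfinv : ∀ (γ : SL(2, ℤ)) (τ : ℍ), (f : ℍ → ℂ) (γ • τ) = (f : ℍ → ℂ) τ := by
    intro γ τ
    have h1 := hinv γ⁻¹
    rw [hact] at h1
    have h2 : γ⁻¹ • f = f := by
      apply IsFractionRing.injective Hol Mer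
      rw [← Mer.smul_algebraMap]
      exact h1
    have h3 := congrArg (fun F : Hol => (F : ℍ → ℂ) τ) h2
    simpa using h3
  obtain ⟨P, hP⟩ := exists_polynomial_of_mem_adjoin hS hf' hfinv
  have hj1 : ((jd 1 : Hol) : ℍ → ℂ) = jFun := by
    funext τ
    exact hjd 1 (one_dvd N) τ τ (by simp)
  have hfP : f = Polynomial.aeval (jd 1) P := by
    apply Subtype.ext
    funext τ
    rw [hP τ]
    have h4 : ((Polynomial.aeval (jd 1) P : Hol) : ℍ → ℂ) =
        Polynomial.aeval ((jd 1 : Hol) : ℍ → ℂ) P := by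
      have := Polynomial.aeval_algHom_apply Hol.val (jd 1) P
      exact this.symm
    rw [h4, hj1]
    have h5 : (Polynomial.aeval jFun P) τ = Polynomial.aeval (jFun τ) P := by
      have := Polynomial.aeval_algHom_apply (Pi.evalAlgHom ℂ (fun _ : ℍ => ℂ) τ) jFun P
      exact this.symm
    rw [h5, Polynomial.aeval_def, Polynomial.eval₂_eq_eval_map]
    simp
  have : (IsScalarTower.toAlgHom ℂ Hol Mer) f = Polynomial.aeval (Jd 1) P := by
    rw [hfP, ← Polynomial.aeval_algHom_apply, hJd 1 (one_dvd N)]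
    rfl
  rw [this]
  exact Polynomial.aeval_mem_adjoin_singleton _ _

end Fermat.Agent.S24.InvMemMer
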