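import Mathlib

/-!
# S24 layer (C1): the derivative of the `j`-function and exact vanishing orders

Interface-independent analytic input for the ramification analysis of `X₀(N) → X(1)`
(helper81).  Everything is stated for `j := E₄ ^ 3 / Δ` on `UpperHalfPlane`, with
`D = (2πi)⁻¹ d/dz` the normalised derivative of Mathlib (`Derivative.normalizedDerivOfComplex`).

Main results (namespace `Fermat.Agent.S24.JDeriv81`):

* `R_eq`, `cR_ne_zero`: the Rankin-Cohen bracket `R = 2 E₄ D(E₆) - 3 D(E₄) E₆` equals `cR * Δ`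
  with `cR ≠ 0` (weight 12 cusp form; the `E₂` terms of the Serre derivatives cancel).
* `D_j_eq`: `D j = cR / 1728 * (E₄ ^ 2 * E₆ / Δ)`.
* `deriv_j_ne_zero`: `deriv (j ∘ ofComplex) z ≠ 0` when `j z ≠ 0` and `j z ≠ 1728`.
* `D_E₆_ne_zero`, `D_E₄_ne_zero`: zeros of `E₆`, `E₄` are simple.
* `analyticOrderAt_j_sub`, `analyticOrderAt_j_sub_1728`, `analyticOrderAt_j_of_eq_zero`:
  the order of vanishing of `j - j z` at `z` is `1`, `2`, `3` in the three cases.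
* `E₆_I`, `E₄_ρ`, `j_I`, `j_ρ`, `S_smul_I`, `ST_smul_ρ`, `analyticOrderAt_j_I`,
  `analyticOrderAt_j_ρ`: the elliptic points `i` and `ρ`.
-/

namespace Fermat.Agent.S24.JDeriv81

open UpperHalfPlane ModularForm EisensteinSeries Derivative MatrixGroups Filter Topology
open scoped Manifold

noncomputable section

/-- A level-one modular form tends to its value at infinity. -/
theorem tendsto_valueAtInfty {k : ℤ} (f : ModularForm 𝒮ℒ k) :
    Tendsto (fun τ : ℍ => f τ) atImInfty (𝓝 (valueAtInfty f)) := by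
  obtain ⟨c, hc, hO⟩ := ModularFormClass.exp_decay_sub_atImInfty' f
  have h0 : Tendsto (fun τ : ℍ => Real.exp (-c * τ.im)) atImInfty (𝓝 0) := by
    have : Tendsto (fun τ : ℍ => -c * τ.im) atImInfty atBot := by
      have h1 : Tendsto (fun τ : ℍ => τ.im) atImInfty atTop := tendsto_comap
      exact (tendsto_neg_atTop_atBot.comp (h1.const_mul_atTop hc)).congr (fun τ => by simp)
    exact Real.tendsto_exp_atBot.comp this
  have h1 := hO.trans_tendsto h0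
  have h2 : Tendsto (fun τ : ℍ => (f τ - valueAtInfty f) + valueAtInfty f) atImInfty
      (𝓝 (0 + valueAtInfty f)) := h1.add tendsto_const_nhds
  simpa using h2

/-- Cauchy estimate: if a holomorphic function on `ℍ` has a limit at `i∞`, its normalised
derivative tends to `0` at `i∞`. -/
theorem tendsto_D_zero {F : ℍ → ℂ} (hF : MDiff F) {v : ℂ}
    (hv : Tendsto F atImInfty (𝓝 v)) : Tendsto (D F) atImInfty (𝓝 0) := by
  rw [Metric.tendsto_nhds]
  intro ε hε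
  have h1 : ∀ᶠ τ in atImInfty, dist (F τ) v < ε := (Metric.tendsto_nhds.mp hv) ε hε
  rw [Filter.Eventually, UpperHalfPlane.atImInfty_mem] at h1
  obtain ⟨A, hA⟩ := h1
  rw [Filter.Eventually, UpperHalfPlane.atImInfty_mem]
  refine ⟨max A 0 + 2, fun z hz => ?_⟩
  have hzA : A + 2 ≤ z.im := le_trans (by gcongr; exact le_max_left _ _) hz
  have hz0 : 2 ≤ z.im := le_trans (by linarith [le_max_right A 0]) hz
  have hdiff : DifferentiableOn ℂ (F ∘ ofComplex) upperHalfPlaneSet :=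
    UpperHalfPlane.mdifferentiable_iff.mp hF
  -- the closed ball of radius 1 around z
  have hball : ∀ w ∈ Metric.closedBall (z : ℂ) 1, 0 < w.im ∧ A ≤ w.im := by
    intro w hw
    have : |w.im - (z : ℂ).im| ≤ 1 := by
      have h2 : ‖w - (z : ℂ)‖ ≤ 1 := by simpa [dist_eq_norm] using hw
      calc |w.im - (z : ℂ).im| = |(w - (z : ℂ)).im| := by simp
        _ ≤ ‖w - (z : ℂ)‖ := Complex.abs_im_le_norm _
        _ ≤ 1 := h2
    have h3 := abs_le.mp this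
    have h4 : (z : ℂ).im = z.im := rfl
    constructor <;> linarith [h3.1]
  have hsub : Metric.closedBall (z : ℂ) 1 ⊆ upperHalfPlaneSet := fun w hw => (hball w hw).1
  have hd : DiffContOnCl ℂ (fun w => (F ∘ ofComplex) w - v) (Metric.ball (z : ℂ) 1) := by
    have : DifferentiableOn ℂ (fun w => (F ∘ ofComplex) w - v) (Metric.closedBall (z : ℂ) 1) :=
      (hdiff.mono hsub).sub_const v
    exact this.diffContOnCl_ball (subset_refl _)
  have hC : ∀ w ∈ Metric.sphere (z : ℂ) 1, ‖(fun w => (F ∘ ofComplex) w - v) w‖ ≤ ε := by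
    intro w hw
    have hw' : w ∈ Metric.closedBall (z : ℂ) 1 := Metric.sphere_subset_closedBall hw
    obtain ⟨hw0, hwA⟩ := hball w hw'
    have := hA (ofComplex w) (by rw [ofComplex_apply_of_im_pos hw0]; exact hwA)
    simp only [Set.mem_ofPred_eq] at this
    simp only [Function.comp_apply]
    rw [← dist_eq_norm]
    exact this.le
  have key := Complex.norm_deriv_le_of_forall_mem_sphere_norm_le one_pos hd hC
  have hderiv : deriv (fun w => (F ∘ ofComplex) w - v) (z : ℂ) = deriv (F ∘ ofComplex) (z : ℂ) :=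
    deriv_sub_const (f := F ∘ ofComplex) (x := (z : ℂ)) v
  rw [hderiv] at key
  simp only [Set.mem_ofPred_eq, dist_zero_right, normalizedDerivOfComplex]
  rw [norm_mul]
  have h2pi : ‖(2 * (Real.pi : ℂ) * Complex.I)⁻¹‖ ≤ 1 / 2 := by
    rw [norm_inv]
    simp only [norm_mul, Complex.norm_I, mul_one, Complex.norm_real, Complex.norm_ofNat]
    rw [Real.norm_of_nonneg Real.pi_pos.le]
    rw [inv_le_comm₀ (by positivity) (by positivity)]
    nlinarith [Real.pi_gt_three]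
  calc ‖(2 * (Real.pi : ℂ) * Complex.I)⁻¹‖ * ‖deriv (F ∘ ofComplex) (z : ℂ)‖
      ≤ (1 / 2) * (ε / 1) := by gcongr
    _ < ε := by linarith

theorem slash_eq_self {k : ℤ} (f : ModularForm 𝒮ℒ k) (γ : SL(2, ℤ)) :
    (f : ℍ → ℂ) ∣[k] γ = f := by
  have hγ : (γ : GL (Fin 2) ℝ) ∈ 𝒮ℒ := ⟨γ, rfl⟩
  rw [SL_slash]
  exact SlashInvariantForm.slash_action_eqn f _ hγ

/-- The Rankin–Cohen bracket `2 E₄ D(E₆) - 3 D(E₄) E₆`. -/
def R : ℍ → ℂ := fun z => 2 * E₄ z * D (E₆ : ℍ → ℂ) z - 3 * D (E₄ : ℍ → ℂ) z * E₆ z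

/-- The same function written with Serre derivatives (the `E₂` terms cancel). -/
def R' : ℍ → ℂ :=
  (2 : ℂ) • ((E₄ : ℍ → ℂ) * serreDerivative ((6 : ℤ) : ℂ) (E₆ : ℍ → ℂ)) -
    (3 : ℂ) • (serreDerivative ((4 : ℤ) : ℂ) (E₄ : ℍ → ℂ) * (E₆ : ℍ → ℂ))

theorem R'_eq_R : R' = R := by
  ext z
  simp only [R', R, Pi.sub_apply, Pi.smul_apply, Pi.mul_apply, smul_eq_mul, serreDerivative_apply]
  push_cast
  ring

theorem R'_slash (γ : SL(2, ℤ)) : R' ∣[(12 : ℤ)] γ = R' := by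
  have h4 : serreDerivative ((4 : ℤ) : ℂ) (E₄ : ℍ → ℂ) ∣[(4 : ℤ) + 2] γ =
      serreDerivative ((4 : ℤ) : ℂ) (E₄ : ℍ → ℂ) :=
    serreDerivative_slash_invariant E₄.holo' (slash_eq_self E₄ γ)
  have h6 : serreDerivative ((6 : ℤ) : ℂ) (E₆ : ℍ → ℂ) ∣[(6 : ℤ) + 2] γ =
      serreDerivative ((6 : ℤ) : ℂ) (E₆ : ℍ → ℂ) :=
    serreDerivative_slash_invariant E₆.holo' (slash_eq_self E₆ γ)
  have e1 : ((E₄ : ℍ → ℂ) * serreDerivative ((6 : ℤ) : ℂ) (E₆ : ℍ → ℂ)) ∣[(12 : ℤ)] γ =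
      (E₄ : ℍ → ℂ) * serreDerivative ((6 : ℤ) : ℂ) (E₆ : ℍ → ℂ) := by
    have := mul_slash_SL2 4 ((6 : ℤ) + 2) γ (E₄ : ℍ → ℂ)
      (serreDerivative ((6 : ℤ) : ℂ) (E₆ : ℍ → ℂ))
    rw [h6, slash_eq_self E₄ γ] at this
    exact this
  have e2 : (serreDerivative ((4 : ℤ) : ℂ) (E₄ : ℍ → ℂ) * (E₆ : ℍ → ℂ)) ∣[(12 : ℤ)] γ =
      serreDerivative ((4 : ℤ) : ℂ) (E₄ : ℍ → ℂ) * (E₆ : ℍ → ℂ) := by
    have := mul_slash_SL2 ((4 : ℤ) + 2) 6 γ
      (serreDerivative ((4 : ℤ) : ℂ) (E₄ : ℍ → ℂ)) (E₆ : ℍ → ℂ)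
    rw [h4, slash_eq_self E₆ γ] at this
    exact this
  unfold R'
  rw [sub_eq_add_neg, SlashAction.add_slash, SlashAction.neg_slash, SL_smul_slash, SL_smul_slash,
    e1, e2, ← sub_eq_add_neg]

theorem R_slash (γ : SL(2, ℤ)) : R ∣[(12 : ℤ)] γ = R := R'_eq_R ▸ R'_slash γ

theorem R_mdiff : MDiff R := by
  have h4 : MDiff (D (E₄ : ℍ → ℂ)) := normalizedDerivOfComplex_mdifferentiable E₄.holo'
  have h6 : MDiff (D (E₆ : ℍ → ℂ)) := normalizedDerivOfComplex_mdifferentiable E₆.holo'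
  have : R = (2 : ℂ) • ((E₄ : ℍ → ℂ) * D (E₆ : ℍ → ℂ)) - (3 : ℂ) • (D (E₄ : ℍ → ℂ) * (E₆ : ℍ → ℂ)) := by
    ext z; simp [R]; ring
  rw [this]
  exact ((E₄.holo'.mul h6).const_smul _).sub ((h4.mul E₆.holo').const_smul _)


theorem R_isZeroAtImInfty : IsZeroAtImInfty R := by
  have t4 := tendsto_valueAtInfty E₄
  have t6 := tendsto_valueAtInfty E₆
  have d4 := tendsto_D_zero E₄.holo' t4
  have d6 := tendsto_D_zero E₆.holo' t6
  have := ((t4.const_mul 2).mul d6).sub ((d4.const_mul 3).mul t6)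
  simp only [mul_zero, zero_mul, sub_zero] at this
  refine this.congr (fun z => ?_)
  simp [R, mul_assoc]

/-- `R` as a cusp form of weight 12 and level one. -/
def Rform : CuspForm 𝒮ℒ 12 where
  toFun := R
  slash_action_eq' := fun _ ⟨γ, hγ⟩ => hγ ▸ R_slash γ
  holo' := R_mdiff
  zero_at_cusps' {c} hc := by
    rw [Subgroup.IsArithmetic.isCusp_iff_isCusp_SL2Z] at hc
    rw [OnePoint.isZeroAt_iff_forall_SL2Z hc]
    intro γ _
    rw [R_slash γ]
    exact R_isZeroAtImInfty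

theorem exists_R_eq : ∃ c : ℂ, ∀ z : ℍ, R z = c * ModularForm.discriminant z := by
  obtain ⟨c, hc⟩ := CuspForm.exists_smul_discriminant_of_weight_eq_twelve Rform
  refine ⟨c, fun z => ?_⟩
  have := congrArg (fun f : CuspForm 𝒮ℒ 12 => f z) hc
  have h2 : Rform z = R z := rfl
  rw [← h2]
  exact this.symm


local notation "Δ" => ModularForm.discriminant

theorem valueAtInfty_E₄ : valueAtInfty (E₄ : ℍ → ℂ) = 1 := by
  rw [← UpperHalfPlane.qExpansion_coeff_zero one_pos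
      (ModularFormClass.analyticAt_cuspFunction_zero E₄ one_pos one_mem_strictPeriods_SL)
      (SlashInvariantFormClass.periodic_comp_ofComplex E₄ one_mem_strictPeriods_SL)]
  exact E_qExpansion_coeff_zero _ ⟨2, rfl⟩

theorem tendsto_E₄ : Tendsto (fun τ : ℍ => E₄ τ) atImInfty (𝓝 1) :=
  valueAtInfty_E₄ ▸ tendsto_valueAtInfty E₄

theorem mdiff_Δ : MDiff (Δ : ℍ → ℂ) := CuspForm.discriminant.holo'

/-- The modular `j`-function `E₄³ / Δ`. -/
def j : ℍ → ℂ := fun z => E₄ z ^ 3 / Δ z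

theorem j_apply (z : ℍ) : j z = E₄ z ^ 3 / Δ z := rfl

theorem mdiff_j : MDiff j :=
  ((E₄.holo'.pow 3).div mdiff_Δ discriminant_ne_zero)

theorem j_mul_Δ (z : ℍ) : j z * Δ z = E₄ z ^ 3 := by
  rw [j_apply, div_mul_cancel₀ _ (discriminant_ne_zero z)]

theorem Δ_eq (z : ℍ) : 1728 * Δ z = E₄ z ^ 3 - E₆ z ^ 2 := by
  rw [discriminant_eq_E₄_cube_sub_E₆_sq z]; ring

theorem j_sub_1728 (z : ℍ) : j z - 1728 = E₆ z ^ 2 / Δ z := by
  rw [j_apply, eq_div_iff (discriminant_ne_zero z), sub_mul,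
    div_mul_cancel₀ _ (discriminant_ne_zero z)]
  linear_combination - Δ_eq z

theorem D_j_mul (z : ℍ) :
    D j z * Δ z + j z * D (Δ : ℍ → ℂ) z = 3 * E₄ z ^ 2 * D (E₄ : ℍ → ℂ) z := by
  have h1 : j * (Δ : ℍ → ℂ) = (E₄ : ℍ → ℂ) ^ 3 := by
    ext z; simpa using j_mul_Δ z
  have h2 := congrArg (fun F => D F z) h1
  simp only [normalizedDerivOfComplex_mul j Δ mdiff_j mdiff_Δ,
    normalizedDerivOfComplex_pow (E₄ : ℍ → ℂ) 3 E₄.holo'] at h2
  simpa using h2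

theorem D_Δ (z : ℍ) :
    1728 * D (Δ : ℍ → ℂ) z =
      3 * E₄ z ^ 2 * D (E₄ : ℍ → ℂ) z - 2 * E₆ z * D (E₆ : ℍ → ℂ) z := by
  have h1 : (1728 : ℂ) • (Δ : ℍ → ℂ) = (E₄ : ℍ → ℂ) ^ 3 - (E₆ : ℍ → ℂ) ^ 2 := by
    ext z; simpa using Δ_eq z
  have hp4 : MDiff ((E₄ : ℍ → ℂ) ^ 3) := E₄.holo'.pow 3
  have hp6 : MDiff ((E₆ : ℍ → ℂ) ^ 2) := E₆.holo'.pow 2
  have h2 := congrArg (fun F => D F z) h1
  simp only [normalizedDerivOfComplex_smul _ _ mdiff_Δ,
    normalizedDerivOfComplex_sub ((E₄ : ℍ → ℂ) ^ 3) ((E₆ : ℍ → ℂ) ^ 2) hp4 hp6,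
    normalizedDerivOfComplex_pow (E₄ : ℍ → ℂ) 3 E₄.holo',
    normalizedDerivOfComplex_pow (E₆ : ℍ → ℂ) 2 E₆.holo'] at h2
  simpa using h2

/-- The derivative of `j` in terms of the Rankin–Cohen bracket. -/
theorem D_j (z : ℍ) : 1728 * Δ z ^ 2 * D j z = E₄ z ^ 2 * E₆ z * R z := by
  have h1 := D_j_mul z
  have h2 := D_Δ z
  have h3 := Δ_eq z
  have hj := j_mul_Δ z
  simp only [R]
  linear_combination (1728 * Δ z) * h1 - (1728 * D (Δ : ℍ → ℂ) z) * hj - (E₄ z ^ 3) * h2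
    + (3 * E₄ z ^ 2 * D (E₄ : ℍ → ℂ) z) * h3


theorem two_pi_I_inv_ne_zero : (2 * (Real.pi : ℂ) * Complex.I)⁻¹ ≠ 0 := by
  apply inv_ne_zero
  simp [Real.pi_ne_zero]

theorem D_apply (F : ℍ → ℂ) (z : ℍ) :
    D F z = (2 * (Real.pi : ℂ) * Complex.I)⁻¹ * deriv (F ∘ ofComplex) (z : ℂ) := rfl

theorem D_eq_zero_iff (F : ℍ → ℂ) (z : ℍ) : D F z = 0 ↔ deriv (F ∘ ofComplex) (z : ℂ) = 0 := by
  rw [D_apply, mul_eq_zero]
  simp

/-- A holomorphic function on `ℍ` with vanishing derivative is constant. -/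
theorem exists_const_of_D_eq_zero {F : ℍ → ℂ} (hF : MDiff F) (h : ∀ z, D F z = 0) :
    ∃ a : ℂ, ∀ z : ℍ, F z = a := by
  have hdiff : DifferentiableOn ℂ (F ∘ ofComplex) upperHalfPlaneSet :=
    UpperHalfPlane.mdifferentiable_iff.mp hF
  have hder : upperHalfPlaneSet.EqOn (deriv (F ∘ ofComplex)) 0 := by
    intro w hw
    have := (D_eq_zero_iff F ⟨w, hw⟩).mp (h ⟨w, hw⟩)
    simpa using this
  obtain ⟨a, ha⟩ := isOpen_upperHalfPlaneSet.exists_is_const_of_deriv_eq_zero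
    (Convex.isPreconnected (convex_halfSpace_im_gt 0)) hdiff hder
  refine ⟨a, fun z => ?_⟩
  have := ha (z : ℂ) z.im_pos
  simpa using this

/-- The Rankin–Cohen bracket is a **nonzero** multiple of `Δ`. -/
theorem exists_R_eq_ne_zero : ∃ c : ℂ, c ≠ 0 ∧ ∀ z : ℍ, R z = c * Δ z := by
  obtain ⟨c, hc⟩ := exists_R_eq
  refine ⟨c, ?_, hc⟩
  rintro rfl
  have hDj : ∀ z, D j z = 0 := by
    intro z
    have h1 := D_j z
    rw [hc z, zero_mul, mul_zero] at h1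
    have h2 : (1728 : ℂ) * Δ z ^ 2 ≠ 0 :=
      mul_ne_zero (by norm_num) (pow_ne_zero _ (discriminant_ne_zero z))
    exact (mul_eq_zero.mp h1).resolve_left h2
  obtain ⟨a, ha⟩ := exists_const_of_D_eq_zero mdiff_j hDj
  have h3 : ∀ z : ℍ, E₄ z ^ 3 = a * Δ z := fun z => by rw [← ha z, j_mul_Δ]
  have t1 : Tendsto (fun τ : ℍ => E₄ τ ^ 3) atImInfty (𝓝 (1 ^ 3)) := tendsto_E₄.pow 3
  have t2 : Tendsto (fun τ : ℍ => a * Δ τ) atImInfty (𝓝 (a * 0)) :=
    (discriminant_isZeroAtImInfty).const_mul a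
  have t3 : Tendsto (fun τ : ℍ => E₄ τ ^ 3) atImInfty (𝓝 (a * 0)) :=
    t2.congr (fun z => (h3 z).symm)
  have := tendsto_nhds_unique t1 t3
  norm_num at this

/-- The constant `c` with `R = c Δ` (in fact `c = -1728`, which we do not need). -/
def cR : ℂ := exists_R_eq_ne_zero.choose

theorem cR_ne_zero : cR ≠ 0 := exists_R_eq_ne_zero.choose_spec.1

theorem R_eq (z : ℍ) : R z = cR * Δ z := exists_R_eq_ne_zero.choose_spec.2 z

theorem R_ne_zero (z : ℍ) : R z ≠ 0 := by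
  rw [R_eq]; exact mul_ne_zero cR_ne_zero (discriminant_ne_zero z)

/-- `D j = (c / 1728) E₄² E₆ / Δ` with `c ≠ 0`. -/
theorem D_j_eq (z : ℍ) : D j z = cR / 1728 * (E₄ z ^ 2 * E₆ z / Δ z) := by
  have h1 := D_j z
  rw [R_eq] at h1
  have hΔ := discriminant_ne_zero z
  have h2 : (1728 : ℂ) * Δ z ^ 2 ≠ 0 := mul_ne_zero (by norm_num) (pow_ne_zero _ hΔ)
  apply mul_left_cancel₀ h2
  rw [h1]
  field_simp

theorem E₄_ne_zero_of_j_ne_zero {z : ℍ} (h : j z ≠ 0) : E₄ z ≠ 0 := by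
  intro h0; apply h; rw [j_apply, h0]; simp

theorem E₆_ne_zero_of_j_ne {z : ℍ} (h : j z ≠ 1728) : E₆ z ≠ 0 := by
  intro h0; apply h
  have := j_sub_1728 z
  rw [h0] at this
  simp at this
  linear_combination this

theorem D_j_ne_zero {z : ℍ} (h0 : j z ≠ 0) (h1 : j z ≠ 1728) : D j z ≠ 0 := by
  rw [D_j_eq]
  have hΔ := discriminant_ne_zero z
  have h4 := E₄_ne_zero_of_j_ne_zero h0
  have h6 := E₆_ne_zero_of_j_ne h1
  have hc := cR_ne_zero
  exact mul_ne_zero (div_ne_zero hc (by norm_num))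
    (div_ne_zero (mul_ne_zero (pow_ne_zero _ h4) h6) hΔ)

theorem deriv_j_ne_zero {z : ℍ} (h0 : j z ≠ 0) (h1 : j z ≠ 1728) :
    deriv (j ∘ ofComplex) (z : ℂ) ≠ 0 := fun h =>
  D_j_ne_zero h0 h1 ((D_eq_zero_iff j z).mpr h)

/-- At a zero of `E₆` (e.g. `z = i`), `E₆` has a simple zero and `E₄ ≠ 0`. -/
theorem D_E₆_ne_zero {z : ℍ} (h : E₆ z = 0) : D (E₆ : ℍ → ℂ) z ≠ 0 ∧ E₄ z ≠ 0 := by
  have h1 := R_ne_zero z
  simp only [R, h, mul_zero, sub_zero] at h1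
  constructor
  · rintro h2; apply h1; rw [h2]; simp
  · rintro h2; apply h1; rw [h2]; simp

/-- At a zero of `E₄` (e.g. `z = ρ`), `E₄` has a simple zero and `E₆ ≠ 0`. -/
theorem D_E₄_ne_zero {z : ℍ} (h : E₄ z = 0) : D (E₄ : ℍ → ℂ) z ≠ 0 ∧ E₆ z ≠ 0 := by
  have h1 := R_ne_zero z
  simp only [R, h, mul_zero, zero_mul, zero_sub, neg_ne_zero] at h1
  constructor
  · rintro h2; apply h1; rw [h2]; simp
  · rintro h2; apply h1; rw [h2]; simp


/-! ### Vanishing at elliptic points -/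

/-- A level one modular form vanishes at a fixed point `z` of `γ` unless `(cz+d)^k = 1`. -/
theorem eq_zero_of_smul_eq {k : ℤ} (f : ModularForm 𝒮ℒ k) (γ : SL(2, ℤ)) (z : ℍ)
    (hz : γ • z = z) (hd : denom γ z ^ k ≠ 1) : f z = 0 := by
  have h1 := congrFun (slash_eq_self f γ) z
  rw [SL_slash_apply, hz, zpow_neg] at h1
  have hne : denom γ z ^ k ≠ 0 := zpow_ne_zero _ (denom_ne_zero γ z)
  by_contra hf
  apply hd
  have h2 : f z * (denom γ z ^ k)⁻¹ * denom γ z ^ k = f z * denom γ z ^ k := by rw [h1]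
  rw [mul_assoc, inv_mul_cancel₀ hne, mul_one] at h2
  have h3 : f z * (denom γ z ^ k - 1) = 0 := by linear_combination -h2
  rcases mul_eq_zero.mp h3 with h | h
  · exact absurd h hf
  · linear_combination h

theorem S_smul_I : ModularGroup.S • UpperHalfPlane.I = UpperHalfPlane.I :=
  ModularGroup.stabilizer_I.mpr (by simp)

theorem ST_smul_ρ : (ModularGroup.S * ModularGroup.T) • ρ = ρ :=
  ModularGroup.stabilizer_ρ.mpr (by simp)

theorem ST_apply_10 : (ModularGroup.S * ModularGroup.T) 1 0 = 1 := by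
  rw [Matrix.SpecialLinearGroup.coe_mul]
  simp [ModularGroup.S, ModularGroup.T, Matrix.mul_apply, Fin.sum_univ_two]

theorem ST_apply_11 : (ModularGroup.S * ModularGroup.T) 1 1 = 1 := by
  rw [Matrix.SpecialLinearGroup.coe_mul]
  simp [ModularGroup.S, ModularGroup.T, Matrix.mul_apply, Fin.sum_univ_two]

theorem denom_ST (z : ℍ) :
    denom ((ModularGroup.S * ModularGroup.T : SL(2, ℤ)) : GL (Fin 2) ℝ) z = z + 1 := by
  rw [ModularGroup.denom_apply, ST_apply_10, ST_apply_11]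
  simp

theorem E₆_I : E₆ UpperHalfPlane.I = 0 := by
  apply eq_zero_of_smul_eq E₆ ModularGroup.S _ S_smul_I
  rw [ModularGroup.denom_S]
  have : ((UpperHalfPlane.I : ℍ) : ℂ) = Complex.I := rfl
  rw [this]
  have h6 : (Complex.I : ℂ) ^ (6 : ℤ) = -1 := by
    have : (Complex.I : ℂ) ^ (6 : ℤ) = (Complex.I ^ 2) ^ 3 := by
      rw [← pow_mul]; norm_cast
    rw [this, Complex.I_sq]; norm_num
  rw [h6]; norm_num

theorem E₄_ρ : E₄ ρ = 0 := by
  apply eq_zero_of_smul_eq E₄ (ModularGroup.S * ModularGroup.T) _ ST_smul_ρ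
  rw [denom_ST]
  have h1 : (ρ : ℂ) + 1 = -(ρ : ℂ) ^ 2 := by linear_combination ρ_sq
  have h3 : (ρ : ℂ) ^ 3 = 1 := by
    have := ρ_sq
    linear_combination ((ρ : ℂ) - 1) * this
  have h4 : ((ρ : ℂ) + 1) ^ (4 : ℤ) = (ρ : ℂ) ^ 2 := by
    have : ((ρ : ℂ) + 1) ^ (4 : ℤ) = ((ρ : ℂ) + 1) ^ 4 := by norm_cast
    rw [this, h1]
    linear_combination ((ρ : ℂ) ^ 5 + (ρ : ℂ) ^ 2) * h3
  rw [h4]
  intro h
  -- ρ^2 = 1 and ρ^3 = 1 give ρ = 1, contradicting ρ^2 + ρ + 1 = 0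
  have h5 : (ρ : ℂ) = 1 := by linear_combination h3 - (ρ : ℂ) * h
  have := ρ_sq
  rw [h5] at this
  norm_num at this

theorem j_I : j UpperHalfPlane.I = 1728 := by
  have := j_sub_1728 UpperHalfPlane.I
  rw [E₆_I] at this
  simp at this
  linear_combination this

theorem j_ρ : j ρ = 0 := by
  rw [j_apply, E₄_ρ]; simp

/-! ### Exact vanishing orders -/

theorem analyticAt_comp_ofComplex {F : ℍ → ℂ} (hF : MDiff F) (z : ℍ) :
    AnalyticAt ℂ (F ∘ ofComplex) (z : ℂ) :=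
  DifferentiableOn.analyticAt (UpperHalfPlane.mdifferentiable_iff.mp hF)
    (isOpen_upperHalfPlaneSet.mem_nhds z.im_pos)

/-- Away from `j = 0, 1728` the function `j - j(z)` has a simple zero at `z`. -/
theorem analyticOrderAt_j_sub {z : ℍ} (h0 : j z ≠ 0) (h1 : j z ≠ 1728) :
    analyticOrderAt (fun w : ℂ => j (ofComplex w) - j z) (z : ℂ) = 1 := by
  have h := (analyticAt_comp_ofComplex mdiff_j z).analyticOrderAt_sub_eq_one_of_deriv_ne_zero
    (deriv_j_ne_zero h0 h1)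
  simpa using h

theorem analyticOrderAt_of_D_ne_zero {F : ℍ → ℂ} (hF : MDiff F) {z : ℍ} (h0 : F z = 0)
    (h1 : D F z ≠ 0) : analyticOrderAt (F ∘ ofComplex) (z : ℂ) = 1 := by
  apply (analyticAt_comp_ofComplex hF z).analyticOrderAt_eq_one_of_zero_deriv_ne_zero
  · simpa using h0
  · exact fun h => h1 ((D_eq_zero_iff F z).mpr h)

theorem analyticOrderAt_inv_Δ (z : ℍ) :
    analyticOrderAt ((Δ ∘ ofComplex)⁻¹ : ℂ → ℂ) (z : ℂ) = 0 := by
  have hΔ : AnalyticAt ℂ ((Δ : ℍ → ℂ) ∘ ofComplex) (z : ℂ) := analyticAt_comp_ofComplex mdiff_Δ z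
  have hne : ((Δ : ℍ → ℂ) ∘ ofComplex) (z : ℂ) ≠ 0 := by
    simpa using discriminant_ne_zero z
  rw [(hΔ.inv hne).analyticOrderAt_eq_zero]
  simpa using discriminant_ne_zero z

/-- If `j z = 1728` (e.g. `z = i`), then `j - 1728` vanishes to order exactly `2` at `z`. -/
theorem analyticOrderAt_j_sub_1728 {z : ℍ} (h : j z = 1728) :
    analyticOrderAt (fun w : ℂ => j (ofComplex w) - 1728) (z : ℂ) = 2 := by
  have h6 : E₆ z = 0 := by
    have := j_sub_1728 z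
    rw [h, sub_self, eq_comm, div_eq_zero_iff] at this
    rcases this with h' | h'
    · exact pow_eq_zero_iff (two_ne_zero) |>.mp h'
    · exact absurd h' (discriminant_ne_zero z)
  have hfun : (fun w : ℂ => j (ofComplex w) - 1728) =
      ((E₆ : ℍ → ℂ) ∘ ofComplex) ^ 2 * ((Δ : ℍ → ℂ) ∘ ofComplex)⁻¹ := by
    ext w
    simp [j_sub_1728, div_eq_mul_inv]
  have hE : AnalyticAt ℂ ((E₆ : ℍ → ℂ) ∘ ofComplex) (z : ℂ) := analyticAt_comp_ofComplex (ModularFormClass.holo E₆) z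
  have hΔ : AnalyticAt ℂ ((Δ : ℍ → ℂ) ∘ ofComplex) (z : ℂ) := analyticAt_comp_ofComplex mdiff_Δ z
  have hne : ((Δ : ℍ → ℂ) ∘ ofComplex) (z : ℂ) ≠ 0 := by simpa using discriminant_ne_zero z
  rw [hfun, analyticOrderAt_mul (hE.pow 2) (hΔ.inv hne), analyticOrderAt_pow hE,
    analyticOrderAt_of_D_ne_zero (ModularFormClass.holo E₆) h6 (D_E₆_ne_zero h6).1, analyticOrderAt_inv_Δ]
  rfl

/-- If `j z = 0` (e.g. `z = ρ`), then `j` vanishes to order exactly `3` at `z`. -/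
theorem analyticOrderAt_j_of_eq_zero {z : ℍ} (h : j z = 0) :
    analyticOrderAt (fun w : ℂ => j (ofComplex w)) (z : ℂ) = 3 := by
  have h4 : E₄ z = 0 := by
    rw [j_apply, div_eq_zero_iff] at h
    rcases h with h' | h'
    · exact pow_eq_zero_iff (three_ne_zero) |>.mp h'
    · exact absurd h' (discriminant_ne_zero z)
  have hfun : (fun w : ℂ => j (ofComplex w)) =
      ((E₄ : ℍ → ℂ) ∘ ofComplex) ^ 3 * ((Δ : ℍ → ℂ) ∘ ofComplex)⁻¹ := by
    ext w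
    simp [j_apply, div_eq_mul_inv]
  have hE : AnalyticAt ℂ ((E₄ : ℍ → ℂ) ∘ ofComplex) (z : ℂ) := analyticAt_comp_ofComplex (ModularFormClass.holo E₄) z
  have hΔ : AnalyticAt ℂ ((Δ : ℍ → ℂ) ∘ ofComplex) (z : ℂ) := analyticAt_comp_ofComplex mdiff_Δ z
  have hne : ((Δ : ℍ → ℂ) ∘ ofComplex) (z : ℂ) ≠ 0 := by simpa using discriminant_ne_zero z
  rw [hfun, analyticOrderAt_mul (hE.pow 3) (hΔ.inv hne), analyticOrderAt_pow hE,
    analyticOrderAt_of_D_ne_zero (ModularFormClass.holo E₄) h4 (D_E₄_ne_zero h4).1, analyticOrderAt_inv_Δ]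
  rfl

theorem analyticOrderAt_j_I :
    analyticOrderAt (fun w : ℂ => j (ofComplex w) - 1728) ((UpperHalfPlane.I : ℍ) : ℂ) = 2 :=
  analyticOrderAt_j_sub_1728 j_I

theorem analyticOrderAt_j_ρ :
    analyticOrderAt (fun w : ℂ => j (ofComplex w)) ((ρ : ℍ) : ℂ) = 3 :=
  analyticOrderAt_j_of_eq_zero j_ρ

end

end Fermat.Agent.S24.JDeriv81
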