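import Mathlib

/-!
# S24 project, analytic core: `j` is injective modulo `SL(2,ℤ)`

Mathlib has no valence formula.  We prove injectivity of `j` on `SL(2,ℤ) \ ℍ` through lattices:
two period pairs with the same invariants `g₂, g₃` have the same lattice (uniqueness of the
Weierstrass `℘`-function as a solution of `℘'² = 4℘³ - g₂℘ - g₃` with a double pole at `0`).
-/

set_option autoImplicit false

open Filter Topology Complex PeriodPair

namespace Fermat.Agent.S24.JInj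

/-! ## Local uniqueness of `℘` at `0` -/

section local_uniqueness

variable (L L' : PeriodPair)

lemma weierstrassPExcept_zero_zero : ℘[L - (0 : ℂ)] 0 = 0 := by
  simp [PeriodPair.weierstrassPExcept]

lemma weierstrassP_eq_except (z : ℂ) : ℘[L] z = ℘[L - (0 : ℂ)] z + 1 / z ^ 2 := by
  have := L.weierstrassPExcept_def (0 : L.lattice) z
  simp only [ZeroMemClass.coe_zero, sub_zero] at this
  rw [this]
  simp

lemma derivWeierstrassP_eq_except (z : ℂ) : ℘'[L] z = ℘'[L - (0 : ℂ)] z - 2 / z ^ 3 := by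
  have := L.derivWeierstrassPExcept_def (0 : L.lattice) z
  simp only [ZeroMemClass.coe_zero, sub_zero] at this
  rw [this]
  ring

/-- Near `0` (outside `0`), points are not in the lattice. -/
lemma eventually_notMem_lattice : ∀ᶠ z in 𝓝[≠] (0 : ℂ), z ∉ L.lattice := by
  have h1 : ∀ᶠ z in 𝓝 (0 : ℂ), z ∈ ((L.lattice : Set ℂ) \ {(0 : ℂ)})ᶜ :=
    L.compl_lattice_sdiff_singleton_mem_nhds 0
  have h2 : ∀ᶠ z in 𝓝[≠] (0 : ℂ), z ≠ 0 := self_mem_nhdsWithin
  filter_upwards [h1.filter_mono nhdsWithin_le_nhds, h2] with z hz hz0 hmem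
  exact hz ⟨hmem, hz0⟩

/-- Polynomial form of the Weierstrass differential equation near `0`. -/
lemma ode_poly {z : ℂ} (hz0 : z ≠ 0) (hz : z ∉ L.lattice) :
    (z ^ 3 * ℘'[L - (0 : ℂ)] z - 2) ^ 2 =
      4 * (z ^ 2 * ℘[L - (0 : ℂ)] z + 1) ^ 3 - L.g₂ * z ^ 4 * (z ^ 2 * ℘[L - (0 : ℂ)] z + 1)
        - L.g₃ * z ^ 6 := by
  have h := L.derivWeierstrassP_sq z hz
  rw [weierstrassP_eq_except, derivWeierstrassP_eq_except] at h
  have h1 : z ^ 3 * ℘'[L - (0 : ℂ)] z - 2 = z ^ 3 * (℘'[L - (0 : ℂ)] z - 2 / z ^ 3) := by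
    field_simp
  have h2 : z ^ 2 * ℘[L - (0 : ℂ)] z + 1 = z ^ 2 * (℘[L - (0 : ℂ)] z + 1 / z ^ 2) := by
    field_simp
  rw [h1, h2, mul_pow, h]
  ring

/-- **Local uniqueness**: two period pairs with the same `g₂, g₃` have `℘`-functions agreeing in a
punctured neighbourhood of `0`. -/
theorem eventually_weierstrassP_eq (h2 : L.g₂ = L'.g₂) (h3 : L.g₃ = L'.g₃) :
    ∀ᶠ z in 𝓝[≠] (0 : ℂ), ℘[L] z = ℘[L'] z := by
  have hEa : AnalyticAt ℂ ℘[L - (0 : ℂ)] 0 := L.analyticAt_weierstrassPExcept 0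
  have hE'a : AnalyticAt ℂ ℘[L' - (0 : ℂ)] 0 := L'.analyticAt_weierstrassPExcept 0
  have hDa : AnalyticAt ℂ ℘'[L - (0 : ℂ)] 0 := L.analyticAt_derivWeierstrassPExcept 0
  have hD'a : AnalyticAt ℂ ℘'[L' - (0 : ℂ)] 0 := L'.analyticAt_derivWeierstrassPExcept 0
  set h : ℂ → ℂ := fun z => ℘[L - (0 : ℂ)] z - ℘[L' - (0 : ℂ)] z with hh
  have hha : AnalyticAt ℂ h 0 := hEa.sub hE'a
  -- it suffices that `h` is eventually zero
  suffices hz : ∀ᶠ z in 𝓝 (0 : ℂ), h z = 0 by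
    filter_upwards [hz.filter_mono nhdsWithin_le_nhds] with z hz
    rw [weierstrassP_eq_except, weierstrassP_eq_except L']
    have : ℘[L - (0 : ℂ)] z = ℘[L' - (0 : ℂ)] z := sub_eq_zero.mp hz
    rw [this]
  by_contra hne
  obtain ⟨n, g, hga, hg0, hfg⟩ := (hha.exists_eventuallyEq_pow_smul_nonzero_iff).mpr hne
  simp only [sub_zero, smul_eq_mul] at hfg
  -- `n ≥ 1`
  have hn : n ≠ 0 := by
    rintro rfl
    have := hfg.self_of_nhds
    simp only [hh, weierstrassPExcept_zero_zero, sub_self, pow_zero, one_mul] at this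
    exact hg0 this.symm
  -- derivative of `h` near `0`
  have hderiv : ∀ᶠ z in 𝓝 (0 : ℂ), ℘'[L - (0 : ℂ)] z - ℘'[L' - (0 : ℂ)] z =
      n * z ^ (n - 1) * g z + z ^ n * deriv g z := by
    have e1 : ∀ᶠ z in 𝓝 (0 : ℂ), deriv h z = ℘'[L - (0 : ℂ)] z - ℘'[L' - (0 : ℂ)] z := by
      filter_upwards [hEa.eventually_analyticAt, hE'a.eventually_analyticAt,
        L.compl_lattice_sdiff_singleton_mem_nhds 0, L'.compl_lattice_sdiff_singleton_mem_nhds 0]
        with z hz1 hz2 hz3 hz4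
      rw [hh, deriv_fun_sub hz1.differentiableAt hz2.differentiableAt,
        L.eqOn_deriv_weierstrassPExcept_derivWeierstrassPExcept 0 hz3,
        L'.eqOn_deriv_weierstrassPExcept_derivWeierstrassPExcept 0 hz4]
    have e2 : ∀ᶠ z in 𝓝 (0 : ℂ), deriv h z = deriv (fun z => z ^ n * g z) z :=
      (EventuallyEq.deriv hfg)
    have e3 : ∀ᶠ z in 𝓝 (0 : ℂ), deriv (fun z => z ^ n * g z) z =
        n * z ^ (n - 1) * g z + z ^ n * deriv g z := by
      filter_upwards [hga.eventually_analyticAt] with z hz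
      rw [deriv_fun_mul (differentiableAt_pow n) hz.differentiableAt]
      simp
    filter_upwards [e1, e2, e3] with z h1 h2 h3
    rw [← h1, h2, h3]
  -- the functions `A` and `B`
  set A : ℂ → ℂ := fun z => z ^ 3 * (℘'[L - (0 : ℂ)] z + ℘'[L' - (0 : ℂ)] z) - 4 with hA
  set B : ℂ → ℂ := fun z => 4 * ((z ^ 2 * ℘[L - (0 : ℂ)] z + 1) ^ 2 +
    (z ^ 2 * ℘[L - (0 : ℂ)] z + 1) * (z ^ 2 * ℘[L' - (0 : ℂ)] z + 1) +
    (z ^ 2 * ℘[L' - (0 : ℂ)] z + 1) ^ 2) - L.g₂ * z ^ 4 with hB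
  set F : ℂ → ℂ := fun z => (n * g z + z * deriv g z) * A z - g z * B z with hF
  have hFc : ContinuousAt F 0 := by
    have hg' : ContinuousAt (deriv g) 0 := hga.deriv.continuousAt
    have hgc := hga.continuousAt
    have c1 := hEa.continuousAt
    have c2 := hE'a.continuousAt
    have c3 := hDa.continuousAt
    have c4 := hD'a.continuousAt
    simp only [hF, hA, hB]
    fun_prop
  have hF0 : ∀ᶠ z in 𝓝[≠] (0 : ℂ), F z = 0 := by
    have hz0 : ∀ᶠ z in 𝓝[≠] (0 : ℂ), z ≠ 0 := self_mem_nhdsWithin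
    filter_upwards [hz0, eventually_notMem_lattice L, eventually_notMem_lattice L',
      hderiv.filter_mono nhdsWithin_le_nhds, hfg.filter_mono nhdsWithin_le_nhds]
      with z hz0 hzL hzL' hd hf
    have o1 := ode_poly L hz0 hzL
    have o2 := ode_poly L' hz0 hzL'
    rw [← h2, ← h3] at o2
    -- key identity
    have key : z * (℘'[L - (0 : ℂ)] z - ℘'[L' - (0 : ℂ)] z) * A z = h z * B z := by
      have hz2 : z ^ 2 ≠ 0 := pow_ne_zero _ hz0
      apply mul_left_cancel₀ hz2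
      simp only [hA, hB, hh]
      linear_combination o1 - o2
    rw [hd, hf] at key
    have hzn : z ^ n ≠ 0 := pow_ne_zero _ hz0
    have hpow : z * z ^ (n - 1) = z ^ n := by
      rw [← pow_succ']
      congr 1
      omega
    have key2 : z ^ n * ((n * g z + z * deriv g z) * A z) = z ^ n * (g z * B z) := by
      rw [← hpow] at key ⊢
      linear_combination key
    have := mul_left_cancel₀ hzn key2
    simp only [hF]
    rw [this, sub_self]
  have hF00 : F 0 = 0 := by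
    have t1 : Tendsto F (𝓝[≠] (0 : ℂ)) (𝓝 (F 0)) := hFc.tendsto.mono_left nhdsWithin_le_nhds
    have t2 : Tendsto F (𝓝[≠] (0 : ℂ)) (𝓝 0) :=
      (tendsto_const_nhds (x := (0 : ℂ))).congr' (by
        filter_upwards [hF0] with z hz using hz.symm)
    exact tendsto_nhds_unique t1 t2
  simp only [hF, hA, hB] at hF00
  norm_num at hF00
  have : ((n : ℂ) * (-4) - 12) * g 0 = 0 := by linear_combination hF00
  rcases mul_eq_zero.mp this with h0 | h0
  · have h5 : ((4 * n + 12 : ℕ) : ℂ) = 0 := by push_cast; linear_combination -h0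
    have : 4 * n + 12 = 0 := by exact_mod_cast h5
    omega
  · exact hg0 h0

end local_uniqueness

/-! ## Global uniqueness: the lattice is determined by `g₂, g₃` -/

section global_uniqueness

variable (L L' : PeriodPair)

lemma weierstrassP_eventuallyEq (h2 : L.g₂ = L'.g₂) (h3 : L.g₃ = L'.g₃) (u : ℂ) :
    ℘[L] =ᶠ[𝓝[≠] u] ℘[L'] := by
  set f : ℂ → ℂ := fun z => ℘[L] z - ℘[L'] z with hf
  have hfm : Meromorphic f := L.meromorphic_weierstrassP.sub L'.meromorphic_weierstrassP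
  have h0 : meromorphicOrderAt f 0 = ⊤ := by
    rw [meromorphicOrderAt_eq_top_iff]
    filter_upwards [eventually_weierstrassP_eq L L' h2 h3] with z hz
    simp [hf, hz]
  have hall : ∀ u, meromorphicOrderAt f u = ⊤ := by
    by_contra hcon
    have hex : ∃ u, meromorphicOrderAt f u ≠ ⊤ := by
      by_contra hne
      exact hcon fun u => by
        by_contra hu
        exact hne ⟨u, hu⟩
    exact (hfm.exists_meromorphicOrderAt_ne_top_iff_forall.mp hex) 0 h0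
  have := meromorphicOrderAt_eq_top_iff.mp (hall u)
  filter_upwards [this] with z hz
  exact sub_eq_zero.mp hz

lemma mem_lattice_of_mem (h2 : L.g₂ = L'.g₂) (h3 : L.g₃ = L'.g₃) {u : ℂ} (hu : u ∈ L.lattice) :
    u ∈ L'.lattice := by
  by_contra hu'
  have h1 : meromorphicOrderAt ℘[L] u = -2 := L.order_weierstrassP u hu
  have h4 : meromorphicOrderAt ℘[L] u = meromorphicOrderAt ℘[L'] u :=
    meromorphicOrderAt_congr (weierstrassP_eventuallyEq L L' h2 h3 u)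
  have h5 : 0 ≤ meromorphicOrderAt ℘[L'] u :=
    (L'.analyticOnNhd_weierstrassP u hu').meromorphicOrderAt_nonneg
  rw [← h4, h1] at h5
  exact absurd h5 (by decide)

/-- **The lattice is determined by `g₂` and `g₃`.** -/
theorem lattice_eq_of_g₂_g₃_eq (h2 : L.g₂ = L'.g₂) (h3 : L.g₃ = L'.g₃) :
    L.lattice = L'.lattice := by
  ext u
  exact ⟨mem_lattice_of_mem L L' h2 h3, mem_lattice_of_mem L' L h2.symm h3.symm⟩

end global_uniqueness

/-! ## Scaling period pairs, and the lattice `ℤ τ + ℤ` -/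

section scaling

/-- The lattice sum `G n` as a sum over `ℤ × ℤ`. -/
lemma G_eq_tsum_prod (M : PeriodPair) (n : ℕ) :
    M.G n = ∑' x : ℤ × ℤ, ((((x.1 : ℂ) * M.ω₁ + (x.2 : ℂ) * M.ω₂) ^ n)⁻¹) := by
  unfold PeriodPair.G
  rw [← M.latticeEquivProd.symm.toEquiv.tsum_eq]
  refine tsum_congr fun x => ?_
  simp only [LinearEquiv.coe_toEquiv]
  rw [M.latticeEquiv_symm_apply]

/-- The period pair `c • L`. -/
noncomputable def scale (L : PeriodPair) (c : ℂ) (hc : c ≠ 0) : PeriodPair where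
  ω₁ := c * L.ω₁
  ω₂ := c * L.ω₂
  indep := by
    have hker : LinearMap.ker (LinearMap.mulLeft ℝ c) = ⊥ := by
      rw [LinearMap.ker_eq_bot]
      intro x y hxy
      exact mul_left_cancel₀ hc hxy
    have := L.indep.map' (LinearMap.mulLeft ℝ c) hker
    have heq : (⇑(LinearMap.mulLeft ℝ c) ∘ ![L.ω₁, L.ω₂]) = ![c * L.ω₁, c * L.ω₂] := by
      funext i
      fin_cases i <;> rfl
    rw [heq] at this
    exact this

@[simp] lemma scale_ω₁ (L : PeriodPair) (c : ℂ) (hc : c ≠ 0) : (scale L c hc).ω₁ = c * L.ω₁ := rfl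
@[simp] lemma scale_ω₂ (L : PeriodPair) (c : ℂ) (hc : c ≠ 0) : (scale L c hc).ω₂ = c * L.ω₂ := rfl

lemma G_scale (L : PeriodPair) (c : ℂ) (hc : c ≠ 0) (n : ℕ) :
    (scale L c hc).G n = (c ^ n)⁻¹ * L.G n := by
  rw [G_eq_tsum_prod, G_eq_tsum_prod, ← tsum_mul_left]
  refine tsum_congr fun x => ?_
  rw [scale_ω₁, scale_ω₂, ← mul_inv, ← mul_pow]
  congr 2
  ring

lemma g₂_scale (L : PeriodPair) (c : ℂ) (hc : c ≠ 0) :
    (scale L c hc).g₂ = (c ^ 4)⁻¹ * L.g₂ := by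
  simp only [PeriodPair.g₂, G_scale]
  ring

lemma g₃_scale (L : PeriodPair) (c : ℂ) (hc : c ≠ 0) :
    (scale L c hc).g₃ = (c ^ 6)⁻¹ * L.g₃ := by
  simp only [PeriodPair.g₃, G_scale]
  ring

end scaling

/-! ## The lattice `ℤ τ + ℤ` and Eisenstein series -/

section tau

open UpperHalfPlane ModularForm EisensteinSeries

/-- The period pair `(τ, 1)`. -/
noncomputable def pp (τ : ℍ) : PeriodPair where
  ω₁ := τ
  ω₂ := 1
  indep := by
    rw [LinearIndependent.pair_iff]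
    intro s t hst
    have him := congrArg Complex.im hst
    simp only [Complex.real_smul, add_im, mul_im, ofReal_re, ofReal_im, zero_mul, add_zero,
      one_im, mul_zero, zero_im, UpperHalfPlane.coe_im] at him
    have hs : s = 0 := by
      rcases mul_eq_zero.mp him with h | h
      · exact h
      · exact absurd h τ.im_pos.ne'
    subst hs
    have hre := congrArg Complex.re hst
    simp at hre
    exact ⟨rfl, hre⟩

@[simp] lemma pp_ω₁ (τ : ℍ) : (pp τ).ω₁ = τ := rfl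
@[simp] lemma pp_ω₂ (τ : ℍ) : (pp τ).ω₂ = 1 := rfl

lemma G_pp (τ : ℍ) {k : ℕ} (hk : 3 ≤ k) :
    (pp τ).G k = 2 * riemannZeta k * E hk τ := by
  have h1 : (pp τ).G k = ∑' v : Fin 2 → ℤ, eisSummand k v τ := by
    rw [G_eq_tsum_prod, ← (finTwoArrowEquiv ℤ).tsum_eq]
    refine tsum_congr fun v => ?_
    simp only [finTwoArrowEquiv_apply, pp_ω₁, pp_ω₂, mul_one, eisSummand, zpow_neg,
      zpow_natCast]
    rfl
  rw [h1, tsum_eisSummand_eq_riemannZeta_mul_eisensteinSeries hk τ]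
  have h2 : E hk τ = (1 / 2 : ℂ) * eisensteinSeries (N := 1) 0 k τ := by
    rw [show E hk τ = (1 / 2 : ℂ) • eisensteinSeriesSIF (N := 1) 0 k τ from rfl,
      eisensteinSeriesSIF_apply 0 k τ, smul_eq_mul]
  rw [h2]
  ring

end tau

/-! ## Main theorem -/

section main

open UpperHalfPlane ModularForm EisensteinSeries MatrixGroups

lemma g₂_pp (τ : ℍ) : (pp τ).g₂ = 120 * riemannZeta 4 * E₄ τ := by
  rw [PeriodPair.g₂, G_pp τ (by norm_num : 3 ≤ 4)]
  push_cast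
  ring

lemma g₃_pp (τ : ℍ) : (pp τ).g₃ = 280 * riemannZeta 6 * E₆ τ := by
  rw [PeriodPair.g₃, G_pp τ (by norm_num : 3 ≤ 6)]
  push_cast
  ring

lemma int_linearIndependent (τ : ℍ) (X Y : ℤ) (h : (X : ℂ) * τ + Y = 0) : X = 0 ∧ Y = 0 := by
  have him := congrArg Complex.im h
  simp only [add_im, mul_im, intCast_re, intCast_im, zero_mul, add_zero, zero_im,
    UpperHalfPlane.coe_im] at him
  have hX : X = 0 := by
    rcases mul_eq_zero.mp him with h1 | h1
    · exact_mod_cast h1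
    · exact absurd h1 τ.im_pos.ne'
  subst hX
  have hre := congrArg Complex.re h
  simp at hre
  exact ⟨rfl, hre⟩

/-- If the lattices `ℤτ₂ + ℤ` and `d (ℤτ₁ + ℤ)` coincide, then `τ₁, τ₂` are `SL(2,ℤ)`-equivalent. -/
theorem exists_smul_eq_of_lattice_eq (τ₁ τ₂ : ℍ) (d : ℂ) (hd : d ≠ 0)
    (hlat : (scale (pp τ₁) d hd).lattice = (pp τ₂).lattice) :
    ∃ γ : SL(2, ℤ), γ • τ₁ = τ₂ := by
  -- memberships
  obtain ⟨a, b, hab⟩ : ∃ a b : ℤ, (a : ℂ) * (d * τ₁) + b * (d * 1) = τ₂ := by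
    have : (τ₂ : ℂ) ∈ (scale (pp τ₁) d hd).lattice := by
      rw [hlat]; exact (pp τ₂).ω₁_mem_lattice
    exact PeriodPair.mem_lattice.mp this
  obtain ⟨c, e, hce⟩ : ∃ c e : ℤ, (c : ℂ) * (d * τ₁) + e * (d * 1) = 1 := by
    have : (1 : ℂ) ∈ (scale (pp τ₁) d hd).lattice := by
      rw [hlat]; exact (pp τ₂).ω₂_mem_lattice
    exact PeriodPair.mem_lattice.mp this
  obtain ⟨a', b', hab'⟩ : ∃ a' b' : ℤ, (a' : ℂ) * τ₂ + b' * 1 = d * τ₁ := by
    have : d * (τ₁ : ℂ) ∈ (pp τ₂).lattice := by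
      rw [← hlat]; exact (scale (pp τ₁) d hd).ω₁_mem_lattice
    exact PeriodPair.mem_lattice.mp this
  obtain ⟨c', e', hce'⟩ : ∃ c' e' : ℤ, (c' : ℂ) * τ₂ + e' * 1 = d * 1 := by
    have : d * (1 : ℂ) ∈ (pp τ₂).lattice := by
      rw [← hlat]; exact (scale (pp τ₁) d hd).ω₂_mem_lattice
    exact PeriodPair.mem_lattice.mp this
  simp only [mul_one] at hab hce hab' hce'
  -- the integer relations
  have r1 : ((a * a' + b * c' - 1 : ℤ) : ℂ) * τ₂ + ((a * b' + b * e' : ℤ) : ℂ) = 0 := by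
    push_cast
    linear_combination hab + (a : ℂ) * hab' + (b : ℂ) * hce'
  have r2 : ((c * a' + e * c' : ℤ) : ℂ) * τ₂ + ((c * b' + e * e' - 1 : ℤ) : ℂ) = 0 := by
    push_cast
    linear_combination hce + (c : ℂ) * hab' + (e : ℂ) * hce'
  obtain ⟨e1, e2⟩ := int_linearIndependent τ₂ _ _ r1
  obtain ⟨e3, e4⟩ := int_linearIndependent τ₂ _ _ r2
  have hdet : (a * e - b * c) * (a' * e' - b' * c') = 1 := by
    linear_combination (c * b' + e * e') * e1 + e4 - (c * a' + e * c') * e2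
  -- the Möbius relation
  have hmoeb : (τ₂ : ℂ) * ((c : ℂ) * τ₁ + e) = (a : ℂ) * τ₁ + b := by
    have h1 : d * ((c : ℂ) * τ₁ + e) = 1 := by linear_combination hce
    have h2 : d * ((a : ℂ) * τ₁ + b) = τ₂ := by linear_combination hab
    calc (τ₂ : ℂ) * ((c : ℂ) * τ₁ + e) = ((a : ℂ) * τ₁ + b) * (d * ((c : ℂ) * τ₁ + e)) := by
          rw [← h2]; ring
      _ = (a : ℂ) * τ₁ + b := by rw [h1, mul_one]
  have hden : (c : ℂ) * τ₁ + e ≠ 0 := by
    intro h0
    have h1 : d * ((c : ℂ) * τ₁ + e) = 1 := by linear_combination hce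
    rw [h0, mul_zero] at h1
    exact zero_ne_one h1
  -- positivity of the determinant
  have hpos : 0 < a * e - b * c := by
    have hy1 : 0 < (τ₁ : ℂ).im := τ₁.im_pos
    have hy2 : 0 < (τ₂ : ℂ).im := τ₂.im_pos
    have hre := congrArg Complex.re hmoeb
    have him := congrArg Complex.im hmoeb
    simp only [mul_re, mul_im, add_re, add_im, intCast_re, intCast_im, zero_mul, sub_zero,
      add_zero] at hre him
    have hden2 : 0 < ((c : ℝ) * (τ₁ : ℂ).re + e) ^ 2 + ((c : ℝ) * (τ₁ : ℂ).im) ^ 2 := by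
      by_contra hneg
      have h0 : ((c : ℝ) * (τ₁ : ℂ).re + e) ^ 2 + ((c : ℝ) * (τ₁ : ℂ).im) ^ 2 = 0 :=
        le_antisymm (not_lt.mp hneg) (by positivity)
      have h1 : (c : ℝ) * (τ₁ : ℂ).re + e = 0 := by
        nlinarith [sq_nonneg ((c : ℝ) * (τ₁ : ℂ).re + e), sq_nonneg ((c : ℝ) * (τ₁ : ℂ).im)]
      have h2 : (c : ℝ) * (τ₁ : ℂ).im = 0 := by
        nlinarith [sq_nonneg ((c : ℝ) * (τ₁ : ℂ).re + e), sq_nonneg ((c : ℝ) * (τ₁ : ℂ).im)]
      apply hden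
      apply Complex.ext
      · simp only [add_re, mul_re, intCast_re, intCast_im, zero_mul, sub_zero, zero_re]
        exact h1
      · simp only [add_im, mul_im, intCast_re, intCast_im, zero_mul, add_zero, zero_im]
        exact h2
    generalize (τ₁ : ℂ).re = x1 at hre him hden2 hy1
    generalize (τ₁ : ℂ).im = y1 at hre him hden2 hy1
    generalize (τ₂ : ℂ).re = x2 at hre him hy2
    generalize (τ₂ : ℂ).im = y2 at hre him hy2
    have hkey : ((a * e - b * c : ℤ) : ℝ) * y1 =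
        y2 * (((c : ℝ) * x1 + e) ^ 2 + ((c : ℝ) * y1) ^ 2) := by
      push_cast
      linear_combination ((c : ℝ) * y1) * hre - ((c : ℝ) * x1 + e) * him
    have h3 : 0 < ((a * e - b * c : ℤ) : ℝ) * y1 := by
      rw [hkey]; positivity
    have h4 : 0 < ((a * e - b * c : ℤ) : ℝ) := by
      by_contra hneg
      have : ((a * e - b * c : ℤ) : ℝ) * y1 ≤ 0 :=
        mul_nonpos_of_nonpos_of_nonneg (not_lt.mp hneg) hy1.le
      linarith
    exact_mod_cast h4
  have hdet1 : a * e - b * c = 1 := by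
    rcases Int.eq_one_or_neg_one_of_mul_eq_one hdet with h | h
    · exact h
    · omega
  -- the matrix
  obtain ⟨γ, hγ⟩ : ∃ γ : SL(2, ℤ), (γ : Matrix (Fin 2) (Fin 2) ℤ) = !![a, b; c, e] :=
    ⟨⟨!![a, b; c, e], by rw [Matrix.det_fin_two_of]; exact hdet1⟩, rfl⟩
  have g00 : γ 0 0 = a := by rw [hγ]; rfl
  have g01 : γ 0 1 = b := by rw [hγ]; rfl
  have g10 : γ 1 0 = c := by rw [hγ]; rfl
  have g11 : γ 1 1 = e := by rw [hγ]; rfl
  refine ⟨γ, ?_⟩
  apply UpperHalfPlane.ext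
  rw [coe_specialLinearGroup_apply, g00, g01, g10, g11]
  simp only [algebraMap_int_eq, eq_intCast, ofReal_intCast]
  rw [div_eq_iff hden]
  exact hmoeb.symm

/-- If `(E₄, E₆)(τ₂) = (c⁴ E₄, c⁶ E₆)(τ₁)` for some `c ≠ 0`, then `τ₁, τ₂` are equivalent. -/
theorem exists_smul_eq_of_scaled (τ₁ τ₂ : ℍ) (c : ℂ) (hc : c ≠ 0)
    (h4 : E₄ τ₂ = c ^ 4 * E₄ τ₁) (h6 : E₆ τ₂ = c ^ 6 * E₆ τ₁) :
    ∃ γ : SL(2, ℤ), γ • τ₁ = τ₂ := by
  have hd : c⁻¹ ≠ 0 := inv_ne_zero hc
  apply exists_smul_eq_of_lattice_eq τ₁ τ₂ c⁻¹ hd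
  apply lattice_eq_of_g₂_g₃_eq
  · rw [g₂_scale, g₂_pp, g₂_pp, h4, inv_pow, inv_inv]
    ring
  · rw [g₃_scale, g₃_pp, g₃_pp, h6, inv_pow, inv_inv]
    ring

/-- **`j` is injective modulo `SL(2,ℤ)`**: if `E₄(τ₁)³ Δ(τ₂) = E₄(τ₂)³ Δ(τ₁)` (i.e. `j τ₁ = j τ₂`)
then `τ₂ = γ τ₁` for some `γ ∈ SL(2,ℤ)`. -/
theorem exists_smul_eq_of_j_eq (τ₁ τ₂ : ℍ)
    (h : E₄ τ₁ ^ 3 * ModularForm.discriminant τ₂ = E₄ τ₂ ^ 3 * ModularForm.discriminant τ₁) :
    ∃ γ : SL(2, ℤ), γ • τ₁ = τ₂ := by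
  have hΔ1 := ModularForm.discriminant_ne_zero τ₁
  have hΔ2 := ModularForm.discriminant_ne_zero τ₂
  rw [discriminant_eq_E₄_cube_sub_E₆_sq] at hΔ1 hΔ2
  rw [discriminant_eq_E₄_cube_sub_E₆_sq τ₁, discriminant_eq_E₄_cube_sub_E₆_sq τ₂] at h
  suffices hex : ∃ c : ℂ, c ≠ 0 ∧ E₄ τ₂ = c ^ 4 * E₄ τ₁ ∧ E₆ τ₂ = c ^ 6 * E₆ τ₁ by
    obtain ⟨c, hc, h4, h6⟩ := hex
    exact exists_smul_eq_of_scaled τ₁ τ₂ c hc h4 h6
  generalize E₄ τ₁ = a4 at *
  generalize E₆ τ₁ = a6 at *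
  generalize E₄ τ₂ = b4 at *
  generalize E₆ τ₂ = b6 at *
  have hΔ1' : a4 ^ 3 - a6 ^ 2 ≠ 0 := fun h0 => hΔ1 (by rw [h0, zero_div])
  have hΔ2' : b4 ^ 3 - b6 ^ 2 ≠ 0 := fun h0 => hΔ2 (by rw [h0, zero_div])
  have hrel : a4 ^ 3 * b6 ^ 2 = b4 ^ 3 * a6 ^ 2 := by
    have : a4 ^ 3 * (b4 ^ 3 - b6 ^ 2) = b4 ^ 3 * (a4 ^ 3 - a6 ^ 2) := by
      field_simp at h
      linear_combination h
    linear_combination -this
  by_cases ha4 : a4 = 0
  · -- `j = 0`
    subst ha4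
    have ha6 : a6 ≠ 0 := by
      intro h0; apply hΔ1'; rw [h0]; ring
    have hb4 : b4 = 0 := by
      have : b4 ^ 3 * a6 ^ 2 = 0 := by rw [← hrel]; ring
      rcases mul_eq_zero.mp this with h1 | h1
      · exact pow_eq_zero_iff (by norm_num) |>.mp h1
      · exact absurd (pow_eq_zero_iff (by norm_num) |>.mp h1) ha6
    subst hb4
    have hb6 : b6 ≠ 0 := by
      intro h0; apply hΔ2'; rw [h0]; ring
    obtain ⟨c, hc⟩ := IsAlgClosed.exists_pow_nat_eq (b6 / a6) (n := 6) (by norm_num)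
    refine ⟨c, ?_, by ring, ?_⟩
    · intro h0
      rw [h0] at hc
      have : b6 / a6 = 0 := by rw [← hc]; ring
      exact (div_ne_zero hb6 ha6) this
    · rw [hc]; field_simp
  · by_cases ha6 : a6 = 0
    · -- `j = 1728`
      subst ha6
      have hb6 : b6 = 0 := by
        have : a4 ^ 3 * b6 ^ 2 = 0 := by rw [hrel]; ring
        rcases mul_eq_zero.mp this with h1 | h1
        · exact absurd (pow_eq_zero_iff (by norm_num) |>.mp h1) ha4
        · exact pow_eq_zero_iff (by norm_num) |>.mp h1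
      subst hb6
      have hb4 : b4 ≠ 0 := by
        intro h0; apply hΔ2'; rw [h0]; ring
      obtain ⟨c, hc⟩ := IsAlgClosed.exists_pow_nat_eq (b4 / a4) (n := 4) (by norm_num)
      refine ⟨c, ?_, ?_, by ring⟩
      · intro h0
        rw [h0] at hc
        have : b4 / a4 = 0 := by rw [← hc]; ring
        exact (div_ne_zero hb4 ha4) this
      · rw [hc]; field_simp
    · -- generic case
      have hb4 : b4 ≠ 0 := by
        intro h0
        rw [h0] at hrel hΔ2'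
        have : a4 ^ 3 * b6 ^ 2 = 0 := by rw [hrel]; ring
        rcases mul_eq_zero.mp this with h1 | h1
        · exact ha4 (pow_eq_zero_iff (by norm_num) |>.mp h1)
        · apply hΔ2'
          rw [pow_eq_zero_iff (by norm_num) |>.mp h1]; ring
      have hb6 : b6 ≠ 0 := by
        intro h0
        rw [h0] at hrel
        have : b4 ^ 3 * a6 ^ 2 = 0 := by rw [← hrel]; ring
        rcases mul_eq_zero.mp this with h1 | h1
        · exact hb4 (pow_eq_zero_iff (by norm_num) |>.mp h1)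
        · exact ha6 (pow_eq_zero_iff (by norm_num) |>.mp h1)
      obtain ⟨c, hc⟩ := IsAlgClosed.exists_pow_nat_eq ((b6 / a6) / (b4 / a4)) (n := 2) (by norm_num)
      have hst : (b4 / a4) ^ 3 = (b6 / a6) ^ 2 := by
        field_simp
        linear_combination -hrel
      have hs : b4 / a4 ≠ 0 := div_ne_zero hb4 ha4
      have ht : b6 / a6 ≠ 0 := div_ne_zero hb6 ha6
      have hc4 : c ^ 4 = b4 / a4 := by
        have : c ^ 4 = (c ^ 2) ^ 2 := by ring
        rw [this, hc, div_pow, ← hst]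
        field_simp
      have hc6 : c ^ 6 = b6 / a6 := by
        have : c ^ 6 = (c ^ 2) ^ 3 := by ring
        rw [this, hc, div_pow, hst]
        field_simp
      refine ⟨c, ?_, ?_, ?_⟩
      · intro h0
        rw [h0] at hc4
        exact hs (by rw [← hc4]; ring)
      · rw [hc4]; field_simp
      · rw [hc6]; field_simp

/-- Any two zeros of `E₄` are `SL(2,ℤ)`-equivalent. -/
theorem exists_smul_eq_of_E₄_eq_zero (τ₁ τ₂ : ℍ) (h1 : E₄ τ₁ = 0) (h2 : E₄ τ₂ = 0) :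
    ∃ γ : SL(2, ℤ), γ • τ₁ = τ₂ :=
  exists_smul_eq_of_j_eq τ₁ τ₂ (by rw [h1, h2]; ring)

/-- Any two zeros of `E₆` are `SL(2,ℤ)`-equivalent. -/
theorem exists_smul_eq_of_E₆_eq_zero (τ₁ τ₂ : ℍ) (h1 : E₆ τ₁ = 0) (h2 : E₆ τ₂ = 0) :
    ∃ γ : SL(2, ℤ), γ • τ₁ = τ₂ :=
  exists_smul_eq_of_j_eq τ₁ τ₂ (by
    rw [discriminant_eq_E₄_cube_sub_E₆_sq τ₁, discriminant_eq_E₄_cube_sub_E₆_sq τ₂, h1, h2]; ring)

/-- The transformation law of a level one modular form at a point. -/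
theorem levelOne_apply_smul (k : ℤ) (f : ModularForm 𝒮ℒ k) (γ : SL(2, ℤ)) (z : ℍ) :
    f (γ • z) = ((γ 1 0 : ℂ) * z + γ 1 1) ^ k * f z := by
  have hmem : Matrix.SpecialLinearGroup.mapGL ℝ γ ∈ (𝒮ℒ : Subgroup (GL (Fin 2) ℝ)) := ⟨γ, rfl⟩
  have := SlashInvariantForm.slash_action_eqn' f hmem z
  have h2 : (Matrix.SpecialLinearGroup.mapGL ℝ γ) • z = γ • z := rfl
  rw [h2] at this
  rw [this]
  simp

/-- `E₆(i) = 0`. -/
theorem E₆_I : E₆ UpperHalfPlane.I = 0 := by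
  have hS : ModularGroup.S • UpperHalfPlane.I = UpperHalfPlane.I := by
    rw [modular_S_smul]
    ext
    simp
  have h := levelOne_apply_smul 6 E₆ ModularGroup.S UpperHalfPlane.I
  rw [hS] at h
  have h10 : (ModularGroup.S 1 0 : ℤ) = 1 := rfl
  have h11 : (ModularGroup.S 1 1 : ℤ) = 0 := rfl
  rw [h10, h11] at h
  have hI : ((1 : ℤ) : ℂ) * (UpperHalfPlane.I : ℂ) + ((0 : ℤ) : ℂ) = Complex.I := by
    simp
  rw [hI] at h
  have hI6 : (Complex.I : ℂ) ^ (6 : ℤ) = -1 := by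
    have : (Complex.I : ℂ) ^ (6 : ℤ) = (Complex.I ^ 2) ^ 3 := by
      rw [← pow_mul]; norm_cast
    rw [this, Complex.I_sq]; norm_num
  rw [hI6] at h
  have : (2 : ℂ) * E₆ UpperHalfPlane.I = 0 := by linear_combination h
  rcases mul_eq_zero.mp this with h0 | h0
  · norm_num at h0
  · exact h0

/-- The point `ρ = e^{2πi/3} = -1/2 + (√3/2) i` of the upper half plane. -/
noncomputable def rho : ℍ :=
  ⟨-1 / 2 + (Real.sqrt 3 / 2 : ℝ) * Complex.I, by
    simp⟩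

lemma coe_rho : (rho : ℂ) = -1 / 2 + (Real.sqrt 3 / 2 : ℝ) * Complex.I := rfl

lemma rho_sq_add : (rho : ℂ) ^ 2 + rho + 1 = 0 := by
  have h3 : ((Real.sqrt 3 : ℝ) : ℂ) ^ 2 = 3 := by
    rw [← ofReal_pow, Real.sq_sqrt (by norm_num : (0 : ℝ) ≤ 3)]; norm_num
  rw [coe_rho]
  push_cast
  have hI := Complex.I_sq
  linear_combination (1 / 4 : ℂ) * Complex.I ^ 2 * h3 + (3 / 4 : ℂ) * hI

/-- `E₄(ρ) = 0`. -/
theorem E₄_rho : E₄ rho = 0 := by
  set γ : SL(2, ℤ) := ModularGroup.S * ModularGroup.T with hγ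
  have g00 : (γ 0 0 : ℤ) = 0 := by rw [hγ]; decide
  have g01 : (γ 0 1 : ℤ) = -1 := by rw [hγ]; decide
  have g10 : (γ 1 0 : ℤ) = 1 := by rw [hγ]; decide
  have g11 : (γ 1 1 : ℤ) = 1 := by rw [hγ]; decide
  have hden : (rho : ℂ) + 1 ≠ 0 := by
    intro h0
    have := rho_sq_add
    have h1 : (rho : ℂ) = -1 := by linear_combination h0
    rw [h1] at this
    norm_num at this
  have hfix : γ • rho = rho := by
    apply UpperHalfPlane.ext
    rw [coe_specialLinearGroup_apply, g00, g01, g10, g11]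
    simp only [algebraMap_int_eq, eq_intCast, Int.cast_zero, ofReal_zero, zero_mul, Int.cast_neg,
      Int.cast_one, ofReal_neg, ofReal_one, zero_add, one_mul]
    rw [div_eq_iff hden]
    linear_combination -rho_sq_add
  have h := levelOne_apply_smul 4 E₄ γ rho
  rw [hfix, g10, g11] at h
  have hpow : (((1 : ℤ) : ℂ) * (rho : ℂ) + ((1 : ℤ) : ℂ)) ^ (4 : ℤ) = -(rho : ℂ) - 1 := by
    have e1 : (((1 : ℤ) : ℂ) * (rho : ℂ) + ((1 : ℤ) : ℂ)) ^ (4 : ℤ) = ((rho : ℂ) + 1) ^ 4 := by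
      norm_cast
      simp
    rw [e1]
    have hr := rho_sq_add
    have h2 : ((rho : ℂ) + 1) ^ 2 = rho := by linear_combination hr
    have : ((rho : ℂ) + 1) ^ 4 = (((rho : ℂ) + 1) ^ 2) ^ 2 := by ring
    rw [this, h2]
    linear_combination hr
  rw [hpow] at h
  have : ((rho : ℂ) + 2) * E₄ rho = 0 := by linear_combination h
  rcases mul_eq_zero.mp this with h0 | h0
  · exfalso
    have := rho_sq_add
    have h1 : (rho : ℂ) = -2 := by linear_combination h0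
    rw [h1] at this
    norm_num at this
  · exact h0

/-- The zeros of `E₄` are exactly the `SL(2,ℤ)`-orbit of `ρ`. -/
theorem E₄_eq_zero_iff (τ : ℍ) : E₄ τ = 0 ↔ ∃ γ : SL(2, ℤ), γ • rho = τ := by
  constructor
  · intro h
    exact exists_smul_eq_of_E₄_eq_zero rho τ E₄_rho h
  · rintro ⟨γ, rfl⟩
    rw [levelOne_apply_smul 4 E₄ γ rho, E₄_rho, mul_zero]

/-- The zeros of `E₆` are exactly the `SL(2,ℤ)`-orbit of `i`. -/
theorem E₆_eq_zero_iff (τ : ℍ) : E₆ τ = 0 ↔ ∃ γ : SL(2, ℤ), γ • UpperHalfPlane.I = τ := by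
  constructor
  · intro h
    exact exists_smul_eq_of_E₆_eq_zero UpperHalfPlane.I τ E₆_I h
  · rintro ⟨γ, rfl⟩
    rw [levelOne_apply_smul 6 E₆ γ UpperHalfPlane.I, E₆_I, mul_zero]

end main

end Fermat.Agent.S24.JInj
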