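/-
Helper file for S24 (layer C): local orders of the analytic `j`-function.
Author: helper25.  Mathlib only.

Main results (namespace `Fermat.Agent.S24.JOrders25`):
* `D_E4`, `D_E6`, `D_discriminant`: Ramanujan's identities
  `D E₄ = (E₂E₄ - E₆)/3`, `D E₆ = (E₂E₆ - E₄²)/2`, `D Δ = E₂ Δ`.
* `jA` : the analytic `j = E₄³/Δ`, `D_jA : D j = -E₄²E₆/Δ`.
* `analyticOrderAt_jA_sub` : the order of vanishing of `j - j(τ₀)` at `τ₀ ∈ ℍ` is
  `3` if `j τ₀ = 0`, `2` if `j τ₀ = 1728`, `1` otherwise.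
* `E6_I`, `E4_rho`, `jA_I`, `jA_rho`, `S_smul_I`, `ST_smul_rho`.
-/
import Mathlib

set_option autoImplicit false

open UpperHalfPlane hiding I
open Complex Filter Topology ModularForm EisensteinSeries Derivative MatrixGroups
open scoped Real Manifold

namespace Fermat.Agent.S24.JOrders25

local notation "Δ" => ModularForm.discriminant

/-! ### Limits at `i∞` -/

/-- limit of a level-one modular form at i∞ -/
lemma tendsto_modularForm_atImInfty {k : ℤ} (f : ModularForm 𝒮ℒ k) :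
    Tendsto f atImInfty (𝓝 ((qExpansion 1 f).coeff 0)) := by
  have han := ModularFormClass.analyticAt_cuspFunction_zero f one_pos one_mem_strictPeriods_SL
  have hper := SlashInvariantFormClass.periodic_comp_ofComplex f one_mem_strictPeriods_SL
  have h0 : (qExpansion 1 f).coeff 0 = cuspFunction 1 f 0 := by
    rw [qExpansion_coeff_zero one_pos han hper, cuspFunction_apply_zero one_pos han hper]
  have : (cuspFunction 1 f ∘ fun τ : ℍ ↦ Function.Periodic.qParam 1 τ) = f := by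
    funext τ
    simpa using eq_cuspFunction τ one_ne_zero hper
  rw [h0]
  simpa [this] using han.continuousAt.tendsto.comp (qParam_tendsto_atImInfty one_pos)

lemma tendsto_E4 : Tendsto E₄ atImInfty (𝓝 1) := by
  have := tendsto_modularForm_atImInfty E₄
  rwa [E_qExpansion_coeff_zero _ ⟨2, rfl⟩] at this

lemma tendsto_E6 : Tendsto E₆ atImInfty (𝓝 1) := by
  have := tendsto_modularForm_atImInfty E₆
  rwa [E_qExpansion_coeff_zero _ ⟨3, rfl⟩] at this

lemma E2_periodic : Function.Periodic (E2 ∘ ofComplex) ((1 : ℝ) : ℂ) := by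
  rw [ofReal_one]
  intro w
  by_cases hw : 0 < im w
  · have hw1 : 0 < im (w + 1) := by simp [hw]
    simp only [Function.comp_apply, ofComplex_apply_of_im_pos hw1, ofComplex_apply_of_im_pos hw]
    refine (hasSum_qExpansion_E2 (z := ⟨w + 1, hw1⟩)).unique ?_
    convert hasSum_qExpansion_E2 (z := ⟨w, hw⟩) using 3
    congr 1
    show cexp (2 * π * I * (w + 1)) = cexp (2 * π * I * w)
    rw [mul_add, Complex.exp_add]
    simp
  · have hw' : im w ≤ 0 := not_lt.mp hw
    have hw1 : im (w + 1) ≤ 0 := by simpa using hw'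
    simp only [Function.comp_apply, ofComplex_apply_of_im_nonpos hw1, ofComplex_apply_of_im_nonpos hw']

/-- coefficients of the `q`-expansion of `E2`. -/
noncomputable def cE2 (m : ℕ) : ℂ := if m = 0 then 1 else -24 * ((ArithmeticFunction.sigma 1 m : ℕ) : ℂ)

lemma hasSum_E2_qParam (τ : ℍ) : HasSum (fun m : ℕ ↦ cE2 m • Function.Periodic.qParam 1 τ ^ m) (E2 τ) := by
  simpa only [cE2, Function.Periodic.qParam, ofReal_one, div_one] using hasSum_qExpansion_E2 (z := τ)

lemma analyticAt_cuspFunction_E2 : AnalyticAt ℂ (cuspFunction 1 E2) 0 :=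
  analyticAt_cuspFunction_zero (h := 1) one_pos E2_periodic E2_mdifferentiable isBoundedAtImInfty_E2

lemma cuspFunction_E2_zero : cuspFunction 1 E2 0 = 1 := by
  have han := analyticAt_cuspFunction_E2
  have h1 := hasFPowerSeriesOnBall_cuspFunction (h := 1) (c := cE2) one_pos han hasSum_E2_qParam
  have h2 := h1.coeff_zero (fun _ => 0)
  rw [← h2]
  simp [FormalMultilinearSeries.ofScalars, cE2]

lemma tendsto_E2 : Tendsto E2 atImInfty (𝓝 1) := by
  have han := analyticAt_cuspFunction_E2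
  have : (cuspFunction 1 E2 ∘ fun τ : ℍ ↦ Function.Periodic.qParam 1 τ) = E2 := by
    funext τ
    simpa using eq_cuspFunction (h := 1) τ one_ne_zero E2_periodic
  rw [← cuspFunction_E2_zero]
  simpa [this] using han.continuousAt.tendsto.comp (qParam_tendsto_atImInfty one_pos)

/-- Cauchy estimate: if a holomorphic `F` on `ℍ` has a limit at `i∞` then `D F → 0` at `i∞`. -/
lemma tendsto_D_atImInfty {F : ℍ → ℂ} (hF : MDiff F) {c : ℂ} (h : Tendsto F atImInfty (𝓝 c)) :
    Tendsto (D F) atImInfty (𝓝 0) := by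
  rw [Metric.tendsto_nhds]
  intro ε hε
  have h1 : ∀ᶠ z in atImInfty, dist (F z) c < ε / 2 := (Metric.tendsto_nhds.mp h) (ε / 2) (by positivity)
  rw [Filter.Eventually, UpperHalfPlane.atImInfty_mem] at h1
  obtain ⟨A, hA⟩ := h1
  rw [Filter.Eventually, UpperHalfPlane.atImInfty_mem]
  refine ⟨max A 1 + 1, fun z hz => ?_⟩
  have hdiff : DifferentiableOn ℂ (F ∘ ofComplex) upperHalfPlaneSet :=
    UpperHalfPlane.mdifferentiable_iff.mp hF
  set G : ℂ → ℂ := fun w => (F ∘ ofComplex) w - c with hG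
  have hball : Metric.closedBall (z : ℂ) 1 ⊆ upperHalfPlaneSet := by
    intro w hw
    have h2 : |(w - z).im| ≤ ‖w - z‖ := Complex.abs_im_le_norm _
    have h3 : ‖w - z‖ ≤ 1 := by simpa [dist_eq_norm] using hw
    have h4 : (w - (z:ℂ)).im = w.im - z.im := by simp
    have h5 : z.im - 1 ≤ w.im := by
      have := abs_le.mp (h2.trans h3)
      rw [h4] at this
      linarith [this.1]
    have h6 : (1 : ℝ) ≤ max A 1 := le_max_right _ _
    show 0 < w.im
    linarith
  have hGd : DiffContOnCl ℂ G (Metric.ball (z : ℂ) 1) := by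
    exact DifferentiableOn.diffContOnCl_ball ((hdiff.mono hball).sub_const c) (subset_refl _)
  have hGb : ∀ w ∈ Metric.sphere (z : ℂ) 1, ‖G w‖ ≤ ε / 2 := by
    intro w hw
    have hwU : w ∈ upperHalfPlaneSet := hball (Metric.sphere_subset_closedBall hw)
    have h2 : |(w - z).im| ≤ ‖w - z‖ := Complex.abs_im_le_norm _
    have h3 : ‖w - z‖ = 1 := by simpa [dist_eq_norm] using hw
    have h4 : (w - (z:ℂ)).im = w.im - z.im := by simp
    have h5 : z.im - 1 ≤ w.im := by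
      have := abs_le.mp (h2.trans h3.le)
      rw [h4] at this
      linarith [this.1]
    have h6 : A ≤ max A 1 := le_max_left _ _
    have h7 : A ≤ (ofComplex w).im := by
      rw [ofComplex_apply_of_im_pos hwU]
      show A ≤ w.im
      linarith
    have := hA (ofComplex w) h7
    simp only [Set.mem_ofPred_eq, dist_eq_norm] at this
    exact this.le
  have hderiv := Complex.norm_deriv_le_of_forall_mem_sphere_norm_le one_pos hGd hGb
  have hderiv' : deriv G z = deriv (F ∘ ofComplex) z := by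
    rw [hG]; exact deriv_sub_const _
  rw [hderiv', div_one] at hderiv
  have h2pi : ‖(2 * π * I : ℂ)‖ = 2 * π := by
    simp [abs_of_pos Real.pi_pos]
  show dist (D F z) 0 < ε
  rw [dist_zero_right, normalizedDerivOfComplex, norm_mul, norm_inv, h2pi]
  have hpi : (1 : ℝ) < 2 * π := by linarith [Real.pi_gt_three]
  calc (2 * π)⁻¹ * ‖deriv (F ∘ ofComplex) z‖ ≤ 1 * (ε / 2) := by
        apply mul_le_mul _ hderiv (norm_nonneg _) zero_le_one
        exact inv_le_one_of_one_le₀ hpi.le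
    _ < ε := by linarith

/-! ### `D Δ = E₂ Δ` and the Serre derivative as a map `M_k → M_{k+2}` -/

lemma D_discriminant (z : ℍ) : D Δ z = E2 z * Δ z := by
  have hz : (z : ℂ) ∈ upperHalfPlaneSet := z.2
  have hev : (Δ ∘ ofComplex) =ᶠ[𝓝 (z:ℂ)] fun w => ModularForm.eta w ^ 24 := by
    filter_upwards [isOpen_upperHalfPlaneSet.mem_nhds hz] with w hw
    simp [ModularForm.discriminant, ofComplex_apply_of_im_pos hw]
  have hη : DifferentiableAt ℂ ModularForm.eta z := differentiableAt_eta_of_mem_upperHalfPlaneSet hz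
  have hlog := logDeriv_eta_eq_E2 z
  have hηne : ModularForm.eta z ≠ 0 := eta_ne_zero hz
  have hderiv : deriv ModularForm.eta z = (π * I / 12) * E2 z * ModularForm.eta z := by
    rw [← hlog, logDeriv_apply]; field_simp
  rw [normalizedDerivOfComplex, hev.deriv_eq]
  have h24 : deriv (fun w => ModularForm.eta w ^ 24) z = 24 * ModularForm.eta z ^ 23 * deriv ModularForm.eta z := by
    have := (hη.hasDerivAt.pow 24).deriv
    simpa [show (ModularForm.eta ^ 24 : ℂ → ℂ) = fun w => ModularForm.eta w ^ 24 from rfl] using this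
  rw [h24, hderiv, ModularForm.discriminant]
  have h2pi : (2 * π * I : ℂ) ≠ 0 := by
    simp [Real.pi_ne_zero]
  field_simp
  ring

lemma slash_SL_eq {k : ℤ} (F : ModularForm 𝒮ℒ k) (γ : SL(2, ℤ)) : (F : ℍ → ℂ) ∣[k] γ = F :=
  F.slash_action_eq' _ ⟨γ, rfl⟩

lemma mdiff_coe {k : ℤ} (F : ModularForm 𝒮ℒ k) : MDiff (F : ℍ → ℂ) := ModularFormClass.holo F

lemma tendsto_serreDerivative {k : ℤ} (F : ModularForm 𝒮ℒ k) :
    Tendsto (serreDerivative k F) atImInfty (𝓝 (-(k * 12⁻¹ * (qExpansion 1 F).coeff 0))) := by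
  have h1 := tendsto_modularForm_atImInfty F
  have h2 := tendsto_D_atImInfty (mdiff_coe F) h1
  have h3 := ((tendsto_const_nhds (x := (k : ℂ) * 12⁻¹)).mul tendsto_E2).mul h1
  have h4 := h2.sub h3
  simp only [mul_one, zero_sub] at h4
  exact h4

lemma isBoundedAtImInfty_serreDerivative {k : ℤ} (F : ModularForm 𝒮ℒ k) :
    IsBoundedAtImInfty (serreDerivative k F) :=
  (tendsto_serreDerivative F).isBigO_one ℝ

/-- The Serre derivative of a level one modular form, as a modular form of weight `k + 2`. -/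
noncomputable def serreDerivMF {k : ℤ} (F : ModularForm 𝒮ℒ k) : ModularForm 𝒮ℒ (k + 2) where
  toFun := serreDerivative k F
  slash_action_eq' := fun _ ⟨γ, hγ⟩ ↦ hγ ▸
    (serreDerivative_slash_invariant (γ := γ) (mdiff_coe F) (slash_SL_eq F γ))
  holo' := serreDerivative_mdifferentiable k (mdiff_coe F)
  bdd_at_cusps' {c} hc := by
    rw [Subgroup.IsArithmetic.isCusp_iff_isCusp_SL2Z] at hc
    rw [OnePoint.isBoundedAt_iff_forall_SL2Z hc]
    intro γ _
    rw [serreDerivative_slash_invariant (γ := γ) (mdiff_coe F) (slash_SL_eq F γ)]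
    exact isBoundedAtImInfty_serreDerivative F

lemma serreDerivMF_apply {k : ℤ} (F : ModularForm 𝒮ℒ k) (z : ℍ) :
    serreDerivMF F z = D F z - k * 12⁻¹ * E2 z * F z := rfl

/-! ### Ramanujan's identities -/

/-- Ramanujan: `D E₄ = (E₂ E₄ - E₆) / 3`. -/
theorem D_E4 (z : ℍ) : D E₄ z = (E2 z * E₄ z - E₆ z) / 3 := by
  set G : ModularForm 𝒮ℒ 6 := ModularForm.mcast (by norm_num) (serreDerivMF E₄) with hG
  obtain ⟨c, hc⟩ : ∃ c : ℂ, c • E₆ = G :=
    (finrank_eq_one_iff_of_nonzero' E₆ (E_ne_zero _ ⟨3, rfl⟩)).mp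
      (Module.rank_eq_one_iff_finrank_eq_one.mp levelOne_weight_six_rank_one) _
  have hGz : ∀ w : ℍ, G w = D E₄ w - 4 * 12⁻¹ * E2 w * E₄ w := fun w => by
    rw [hG, ModularForm.coe_mcast, serreDerivMF_apply]; norm_num
  have hcz : ∀ w : ℍ, c * E₆ w = G w := fun w => by
    rw [← hc]; rfl
  -- limits
  have hlimG : Tendsto G atImInfty (𝓝 (-(4 * 12⁻¹ * 1))) := by
    have := tendsto_serreDerivative E₄
    rw [E_qExpansion_coeff_zero _ ⟨2, rfl⟩] at this
    refine this.congr' ?_ |>.trans ?_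
    · exact Eventually.of_forall fun w => by rw [hGz]; simp [serreDerivative]
    · norm_num
  have hlimE : Tendsto (fun w => c * E₆ w) atImInfty (𝓝 (c * 1)) := tendsto_E6.const_mul c
  have hc' : c * 1 = -(4 * 12⁻¹ * 1) :=
    tendsto_nhds_unique (hlimE.congr hcz) hlimG
  have hc3 : c = -1/3 := by rw [mul_one] at hc'; rw [hc']; norm_num
  have := hcz z
  rw [hGz, hc3] at this
  linear_combination -this

/-- Ramanujan: `D E₆ = (E₂ E₆ - E₄²) / 2`. -/
theorem D_E6 (z : ℍ) : D E₆ z = (E2 z * E₆ z - E₄ z ^ 2) / 2 := by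
  set G : ModularForm 𝒮ℒ ((8 : ℕ) : ℤ) := ModularForm.mcast (by norm_num) (serreDerivMF E₆) with hG
  set E44 : ModularForm 𝒮ℒ ((8 : ℕ) : ℤ) := ModularForm.mcast (by norm_num) (E₄.mul E₄) with hE44
  have hrank : Module.rank ℂ (ModularForm 𝒮ℒ ((8 : ℕ) : ℤ)) = 1 := by
    rw [dimension_level_one 8 ⟨4, rfl⟩]
    simp [Nat.ModEq]
  have hE44z : ∀ w : ℍ, E44 w = E₄ w ^ 2 := fun w => by
    rw [hE44, ModularForm.coe_mcast, ModularForm.coe_mul, Pi.mul_apply, sq]
  have hlimE44 : Tendsto E44 atImInfty (𝓝 (1 ^ 2)) :=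
    (tendsto_E4.pow 2).congr fun w => (hE44z w).symm
  have hne : E44 ≠ 0 := by
    intro h
    have h0 : Tendsto E44 atImInfty (𝓝 0) := by
      rw [h]; exact tendsto_const_nhds
    have := tendsto_nhds_unique hlimE44 h0
    norm_num at this
  obtain ⟨c, hc⟩ : ∃ c : ℂ, c • E44 = G :=
    (finrank_eq_one_iff_of_nonzero' E44 hne).mp
      (Module.rank_eq_one_iff_finrank_eq_one.mp hrank) _
  have hGz : ∀ w : ℍ, G w = D E₆ w - 6 * 12⁻¹ * E2 w * E₆ w := fun w => by
    rw [hG, ModularForm.coe_mcast, serreDerivMF_apply]; norm_num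
  have hcz : ∀ w : ℍ, c * E44 w = G w := fun w => by
    rw [← hc]; rfl
  have hlimG : Tendsto G atImInfty (𝓝 (-(6 * 12⁻¹ * 1))) := by
    have := tendsto_serreDerivative E₆
    rw [E_qExpansion_coeff_zero _ ⟨3, rfl⟩] at this
    refine this.congr' ?_ |>.trans ?_
    · exact Eventually.of_forall fun w => by rw [hGz]; simp [serreDerivative]
    · norm_num
  have hlimE : Tendsto (fun w => c * E44 w) atImInfty (𝓝 (c * 1 ^ 2)) := hlimE44.const_mul c
  have hc' : c * 1 ^ 2 = -(6 * 12⁻¹ * 1) :=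
    tendsto_nhds_unique (hlimE.congr hcz) hlimG
  have hc3 : c = -1/2 := by rw [one_pow, mul_one] at hc'; rw [hc']; norm_num
  have := hcz z
  rw [hGz, hc3, hE44z] at this
  linear_combination -this

/-! ### The analytic `j`-function -/

/-- The analytic `j`-function on the upper half plane, `j = E₄³ / Δ`. -/
noncomputable def jA (z : ℍ) : ℂ := E₄ z ^ 3 / Δ z

lemma mdiff_discriminant : MDiff (Δ : ℍ → ℂ) := CuspForm.discriminant.holo'

lemma mdiff_jA : MDiff jA :=
  ((mdiff_coe E₄).pow 3).div mdiff_discriminant discriminant_ne_zero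

lemma jA_mul_discriminant (z : ℍ) : jA z * Δ z = E₄ z ^ 3 := by
  rw [jA, div_mul_cancel₀ _ (discriminant_ne_zero z)]

/-- `1728 Δ = E₄³ - E₆²`. -/
lemma discriminant_mul (z : ℍ) : 1728 * Δ z = E₄ z ^ 3 - E₆ z ^ 2 := by
  rw [discriminant_eq_E₄_cube_sub_E₆_sq z]; ring

/-- `j - 1728 = E₆² / Δ`. -/
lemma jA_sub (z : ℍ) : jA z - 1728 = E₆ z ^ 2 / Δ z := by
  have h := discriminant_mul z
  have hΔ := discriminant_ne_zero z
  rw [jA]
  field_simp
  linear_combination -h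

lemma jA_eq_zero_iff (z : ℍ) : jA z = 0 ↔ E₄ z = 0 := by
  simp [jA, discriminant_ne_zero z]

lemma jA_eq_1728_iff (z : ℍ) : jA z = 1728 ↔ E₆ z = 0 := by
  rw [← sub_eq_zero, jA_sub]
  simp [discriminant_ne_zero z]

/-- `D j = - E₄² E₆ / Δ`. -/
theorem D_jA (z : ℍ) : D jA z = - (E₄ z ^ 2 * E₆ z) / Δ z := by
  have h1 := congrFun (normalizedDerivOfComplex_mul jA Δ mdiff_jA mdiff_discriminant) z
  have h2 : jA * (Δ : ℍ → ℂ) = (E₄ : ℍ → ℂ) ^ 3 := by
    ext w; exact jA_mul_discriminant w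
  have h3 := congrFun (normalizedDerivOfComplex_pow (E₄ : ℍ → ℂ) 3 (mdiff_coe E₄)) z
  rw [h2, h3] at h1
  simp only [Pi.mul_apply, Pi.add_apply, Pi.pow_apply] at h1
  rw [D_discriminant, D_E4] at h1
  have hΔ := discriminant_ne_zero z
  have hj := jA_mul_discriminant z
  field_simp
  norm_num at h1
  linear_combination (-1 : ℂ) * h1 - E2 z * hj

/-! ### Local orders -/

lemma analyticAt_comp_ofComplex {F : ℍ → ℂ} (hF : MDiff F) (z : ℍ) :
    AnalyticAt ℂ (F ∘ ofComplex) z :=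
  (UpperHalfPlane.mdifferentiable_iff.mp hF).analyticAt (isOpen_upperHalfPlaneSet.mem_nhds z.2)

lemma two_pi_I_ne_zero : (2 * π * I : ℂ) ≠ 0 := by
  simp [Real.pi_ne_zero]

lemma deriv_comp_ofComplex (F : ℍ → ℂ) (z : ℍ) :
    deriv (F ∘ ofComplex) z = 2 * π * I * D F z := by
  rw [normalizedDerivOfComplex, ← mul_assoc, mul_inv_cancel₀ two_pi_I_ne_zero, one_mul]

lemma deriv_comp_ofComplex_eventuallyEq (F : ℍ → ℂ) (z : ℍ) :
    deriv (F ∘ ofComplex) =ᶠ[𝓝 (z : ℂ)] fun w => 2 * π * I * (D F ∘ ofComplex) w := by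
  filter_upwards [isOpen_upperHalfPlaneSet.mem_nhds z.2] with w hw
  have := deriv_comp_ofComplex F ⟨w, hw⟩
  simpa [ofComplex_apply_of_im_pos hw] using this

/-- order of vanishing `1` from nonvanishing normalised derivative. -/
lemma analyticOrderAt_eq_one_of_D_ne_zero {F : ℍ → ℂ} (hF : MDiff F) (z : ℍ) (h0 : F z = 0)
    (h1 : D F z ≠ 0) : analyticOrderAt (F ∘ ofComplex) z = 1 := by
  apply (analyticAt_comp_ofComplex hF z).analyticOrderAt_eq_one_of_zero_deriv_ne_zero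
  · simpa using h0
  · rw [deriv_comp_ofComplex]
    exact mul_ne_zero two_pi_I_ne_zero h1

lemma analyticOrderAt_eq_zero_of_ne_zero {F : ℍ → ℂ} (hF : MDiff F) (z : ℍ) (h0 : F z ≠ 0) :
    analyticOrderAt (F ∘ ofComplex) z = 0 := by
  rw [(analyticAt_comp_ofComplex hF z).analyticOrderAt_eq_zero]
  simpa using h0

/-- the order of `deriv (j ∘ ofComplex)` at a point of `ℍ`. -/
lemma analyticOrderAt_deriv_jA (z : ℍ) :
    analyticOrderAt (deriv (jA ∘ ofComplex)) z =
      2 * analyticOrderAt ((E₄ : ℍ → ℂ) ∘ ofComplex) z + analyticOrderAt ((E₆ : ℍ → ℂ) ∘ ofComplex) z := by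
  have hE4 := analyticAt_comp_ofComplex (mdiff_coe E₄) z
  have hE6 := analyticAt_comp_ofComplex (mdiff_coe E₆) z
  have hΔ := analyticAt_comp_ofComplex mdiff_discriminant z
  have hΔne : ((Δ : ℍ → ℂ) ∘ ofComplex) z ≠ 0 := by
    simpa using discriminant_ne_zero z
  set u : ℂ → ℂ := fun w => -(2 * π * I) * (((Δ : ℍ → ℂ) ∘ ofComplex) w)⁻¹ with hu
  have hua : AnalyticAt ℂ u z := analyticAt_const.mul (hΔ.inv hΔne)
  have hune : u z ≠ 0 := by
    simp only [hu]
    exact mul_ne_zero (neg_ne_zero.mpr two_pi_I_ne_zero) (inv_ne_zero hΔne)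
  have hev : deriv (jA ∘ ofComplex) =ᶠ[𝓝 (z : ℂ)]
      (((E₄ : ℍ → ℂ) ∘ ofComplex) ^ 2 * ((E₆ : ℍ → ℂ) ∘ ofComplex)) * u := by
    filter_upwards [deriv_comp_ofComplex_eventuallyEq jA z] with w hw
    rw [hw]
    simp only [Function.comp_apply, D_jA, Pi.mul_apply, Pi.pow_apply, hu]
    ring
  rw [analyticOrderAt_congr hev, analyticOrderAt_mul ((hE4.pow 2).mul hE6) hua,
    analyticOrderAt_mul (hE4.pow 2) hE6, analyticOrderAt_pow hE4,
    hua.analyticOrderAt_eq_zero.mpr hune, add_zero, nsmul_eq_mul, Nat.cast_ofNat]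

/-- **Local order of `j - j(τ₀)`**: it is `3` if `j τ₀ = 0`, `2` if `j τ₀ = 1728`, and `1`
otherwise. -/
theorem analyticOrderAt_jA_sub (z : ℍ) :
    analyticOrderAt (fun w => (jA ∘ ofComplex) w - jA z) z =
      if jA z = 0 then 3 else if jA z = 1728 then 2 else 1 := by
  have hj := analyticAt_comp_ofComplex mdiff_jA z
  have hjz : (jA ∘ ofComplex) z = jA z := by simp
  have key := hj.analyticOrderAt_deriv_add_one
  rw [hjz] at key
  rw [← key, analyticOrderAt_deriv_jA]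
  have hΔ := discriminant_ne_zero z
  have h1728 := discriminant_mul z
  by_cases h4 : E₄ z = 0
  · -- `j z = 0`
    have h6 : E₆ z ≠ 0 := by
      intro h6
      rw [h4, h6] at h1728
      norm_num at h1728
      exact hΔ h1728
    have hD4 : D E₄ z ≠ 0 := by
      rw [D_E4, h4]
      simp [h6]
    rw [if_pos ((jA_eq_zero_iff z).mpr h4),
      analyticOrderAt_eq_one_of_D_ne_zero (mdiff_coe E₄) z h4 hD4,
      analyticOrderAt_eq_zero_of_ne_zero (mdiff_coe E₆) z h6]
    rfl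
  · have hj0 : jA z ≠ 0 := fun h => h4 ((jA_eq_zero_iff z).mp h)
    rw [if_neg hj0, analyticOrderAt_eq_zero_of_ne_zero (mdiff_coe E₄) z h4]
    by_cases h6 : E₆ z = 0
    · have hD6 : D E₆ z ≠ 0 := by
        rw [D_E6, h6]
        simp [h4]
      rw [if_pos ((jA_eq_1728_iff z).mpr h6),
        analyticOrderAt_eq_one_of_D_ne_zero (mdiff_coe E₆) z h6 hD6]
      rfl
    · have hj1 : jA z ≠ 1728 := fun h => h6 ((jA_eq_1728_iff z).mp h)
      rw [if_neg hj1, analyticOrderAt_eq_zero_of_ne_zero (mdiff_coe E₆) z h6]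
      rfl

/-! ### Elliptic points -/

/-- A level one modular form of weight `k` vanishes at a fixed point `z` of `γ ∈ SL(2,ℤ)`
whenever `(c z + d) ^ k ≠ 1`. -/
lemma modularForm_eq_zero_of_fixed {k : ℤ} (F : ModularForm 𝒮ℒ k) (γ : SL(2, ℤ)) (z : ℍ)
    (hfix : γ • z = z) (hne : (((γ 1 0 : ℤ) : ℂ) * z + ((γ 1 1 : ℤ) : ℂ)) ^ k ≠ 1) : F z = 0 := by
  have hmem : Matrix.SpecialLinearGroup.mapGL ℝ γ ∈ 𝒮ℒ := ⟨γ, rfl⟩
  have h := SlashInvariantForm.slash_action_eqn' F hmem z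
  have hsm : (Matrix.SpecialLinearGroup.mapGL ℝ γ) • z = γ • z := rfl
  rw [hsm, hfix] at h
  have h2 : ((Matrix.SpecialLinearGroup.mapGL ℝ γ) 1 0 : ℝ) = ((γ 1 0 : ℤ) : ℝ) := by simp
  have h3 : ((Matrix.SpecialLinearGroup.mapGL ℝ γ) 1 1 : ℝ) = ((γ 1 1 : ℤ) : ℝ) := by simp
  rw [h2, h3] at h
  have h4 : (1 - (((γ 1 0 : ℤ) : ℂ) * z + ((γ 1 1 : ℤ) : ℂ)) ^ k) * F z = 0 := by
    push_cast at h ⊢
    linear_combination h
  rcases mul_eq_zero.mp h4 with h5 | h5
  · exact absurd (sub_eq_zero.mp h5).symm hne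
  · exact h5

/-- `S` fixes `i`. -/
lemma S_smul_I : ModularGroup.S • UpperHalfPlane.I = UpperHalfPlane.I := by
  rw [UpperHalfPlane.modular_S_smul]
  ext
  simp [UpperHalfPlane.I]

theorem E6_I : E₆ UpperHalfPlane.I = 0 := by
  apply modularForm_eq_zero_of_fixed E₆ ModularGroup.S _ S_smul_I
  have h10 : (ModularGroup.S 1 0 : ℤ) = 1 := by simp [ModularGroup.S]
  have h11 : (ModularGroup.S 1 1 : ℤ) = 0 := by simp [ModularGroup.S]
  rw [h10, h11]
  have : ((UpperHalfPlane.I : ℍ) : ℂ) = Complex.I := rfl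
  rw [this]
  norm_num
  have h6 : (Complex.I : ℂ) ^ 6 = -1 := by
    rw [show (6 : ℕ) = 2 * 3 by norm_num, pow_mul, Complex.I_sq]; norm_num
  rw [h6]; norm_num

/-- the point `ρ = -1/2 + (√3/2) i`. -/
noncomputable def rho : ℍ := ⟨-1/2 + (Real.sqrt 3 / 2 : ℝ) * Complex.I, by
  simp⟩

lemma rho_coe : (rho : ℂ) = -1/2 + (Real.sqrt 3 / 2 : ℝ) * Complex.I := rfl

lemma rho_sq_add : (rho : ℂ) ^ 2 + rho + 1 = 0 := by
  rw [rho_coe]
  have h3 : ((Real.sqrt 3 : ℝ) : ℂ) ^ 2 = 3 := by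
    rw [← Complex.ofReal_pow, Real.sq_sqrt (by norm_num : (0:ℝ) ≤ 3)]; norm_num
  push_cast
  ring_nf
  rw [Complex.I_sq, h3]
  ring

/-- `S * T` fixes `ρ`. -/
lemma ST_smul_rho : (ModularGroup.S * ModularGroup.T) • rho = rho := by
  rw [mul_smul, UpperHalfPlane.modular_T_smul, UpperHalfPlane.modular_S_smul]
  ext
  have h := rho_sq_add
  have hne : (rho : ℂ) + 1 ≠ 0 := by
    intro h0
    have : (rho : ℂ) = -1 := by linear_combination h0
    rw [this] at h; norm_num at h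
  simp only [UpperHalfPlane.coe_vadd]
  push_cast
  rw [inv_eq_iff_eq_inv, ← one_div, eq_div_iff (UpperHalfPlane.ne_zero rho)]
  linear_combination (-1 : ℂ) * h

theorem E4_rho : E₄ rho = 0 := by
  apply modularForm_eq_zero_of_fixed E₄ (ModularGroup.S * ModularGroup.T) _ ST_smul_rho
  have h10 : ((ModularGroup.S * ModularGroup.T) 1 0 : ℤ) = 1 := by
    simp [Matrix.SpecialLinearGroup.coe_mul, ModularGroup.coe_S, ModularGroup.coe_T,
      Matrix.mul_apply, Fin.sum_univ_two]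
  have h11 : ((ModularGroup.S * ModularGroup.T) 1 1 : ℤ) = 1 := by
    simp [Matrix.SpecialLinearGroup.coe_mul, ModularGroup.coe_S, ModularGroup.coe_T,
      Matrix.mul_apply, Fin.sum_univ_two]
  rw [h10, h11]
  have h := rho_sq_add
  intro h4
  have h4' : ((1 : ℂ) * rho + 1) ^ (4 : ℕ) = 1 := by
    have : ((1 : ℂ) * rho + 1) ^ (4 : ℤ) = ((1 : ℂ) * rho + 1) ^ (4 : ℕ) := by norm_cast
    rw [← this]; exact_mod_cast h4
  -- `(ρ+1)^2 = ρ`, `(ρ+1)^4 = ρ^2 = -ρ-1`, so `-ρ - 1 = 1`, `ρ = -2`, contradiction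
  have h5 : ((1 : ℂ) * rho + 1) ^ 4 = -(rho : ℂ) - 1 := by
    linear_combination ((rho : ℂ) ^ 2 + 3 * rho + 2) * h
  rw [h5] at h4'
  have h6 : (rho : ℂ) = -2 := by linear_combination (-1 : ℂ) * h4'
  rw [h6] at h
  norm_num at h

/-! ### Values and orders at the elliptic points, invariance -/

theorem jA_I : jA UpperHalfPlane.I = 1728 := (jA_eq_1728_iff _).mpr E6_I

theorem jA_rho : jA rho = 0 := (jA_eq_zero_iff _).mpr E4_rho

/-- `j - 1728` vanishes to order exactly `2` at `i`. -/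
theorem analyticOrderAt_jA_sub_I :
    analyticOrderAt (fun w => (jA ∘ ofComplex) w - 1728) (UpperHalfPlane.I : ℂ) = 2 := by
  have h := analyticOrderAt_jA_sub UpperHalfPlane.I
  rw [jA_I] at h
  rw [h]
  norm_num

/-- `j` vanishes to order exactly `3` at `ρ`. -/
theorem analyticOrderAt_jA_rho :
    analyticOrderAt (jA ∘ ofComplex) (rho : ℂ) = 3 := by
  have h := analyticOrderAt_jA_sub rho
  rw [jA_rho] at h
  have h' : (fun w => (jA ∘ ofComplex) w - 0) = jA ∘ ofComplex := by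
    funext w; simp
  rw [h'] at h
  simpa using h

/-- `j - j(τ₀)` vanishes to order exactly `1` at `τ₀` when `j τ₀ ∉ {0, 1728}`. -/
theorem analyticOrderAt_jA_sub_generic (z : ℍ) (h0 : jA z ≠ 0) (h1 : jA z ≠ 1728) :
    analyticOrderAt (fun w => (jA ∘ ofComplex) w - jA z) (z : ℂ) = 1 := by
  rw [analyticOrderAt_jA_sub, if_neg h0, if_neg h1]

/-- In all cases the order of `j - j(τ₀)` at `τ₀` is at most `3`. -/
theorem analyticOrderAt_jA_sub_le (z : ℍ) :
    analyticOrderAt (fun w => (jA ∘ ofComplex) w - jA z) (z : ℂ) ≤ 3 := by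
  rw [analyticOrderAt_jA_sub]
  split_ifs <;> norm_num

/-- the derivative of `j` does not vanish away from `j ∈ {0, 1728}`. -/
theorem deriv_jA_ne_zero (z : ℍ) (h0 : jA z ≠ 0) (h1 : jA z ≠ 1728) :
    deriv (jA ∘ ofComplex) z ≠ 0 := by
  rw [deriv_comp_ofComplex, D_jA]
  have h4 : E₄ z ≠ 0 := fun h => h0 ((jA_eq_zero_iff z).mpr h)
  have h6 : E₆ z ≠ 0 := fun h => h1 ((jA_eq_1728_iff z).mpr h)
  refine mul_ne_zero two_pi_I_ne_zero (div_ne_zero (neg_ne_zero.mpr ?_) (discriminant_ne_zero z))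
  exact mul_ne_zero (pow_ne_zero 2 h4) h6

/-- `SL(2,ℤ)`-invariance of `j`. -/
theorem jA_smul (γ : SL(2, ℤ)) (z : ℍ) : jA (γ • z) = jA z := by
  have hmem : Matrix.SpecialLinearGroup.mapGL ℝ γ ∈ 𝒮ℒ := ⟨γ, rfl⟩
  have h4 := SlashInvariantForm.slash_action_eqn'' E₄ hmem z
  have hd := SlashInvariantForm.slash_action_eqn'' CuspForm.discriminant hmem z
  have hsm : (Matrix.SpecialLinearGroup.mapGL ℝ γ) • z = γ • z := rfl
  rw [hsm] at h4 hd
  have hden : denom (Matrix.SpecialLinearGroup.mapGL ℝ γ) z ≠ 0 := denom_ne_zero _ z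
  have hd' : Δ (γ • z) = denom (Matrix.SpecialLinearGroup.mapGL ℝ γ) z ^ (12 : ℤ) * Δ z := hd
  rw [jA, jA, h4, hd', mul_pow, ← zpow_natCast, ← zpow_mul]
  rw [show ((4 : ℤ) * ((3 : ℕ) : ℤ)) = 12 by norm_num]
  rw [mul_div_mul_left _ _ (zpow_ne_zero _ hden)]


end Fermat.Agent.S24.JOrders25
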