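import Mathlib

/-!
# S24 / layer (A): `d x ≠ 0` and `Ω[F⁄K] = F · d x` for a separating transcendental element

`x : F` transcendental over `K`, `F` finite separable over `K(x)`.  Then `D K F x ≠ 0`
(in particular `Ω[F⁄K]` is nontrivial) and `D K F x` spans `Ω[F⁄K]`.
Route: the derivation `d/dx` of `K[x] ≃ K[X]`, localization `K[x] → K(x)`
(`KaehlerDifferential.isLocalizedModule_map`), and `F ⊗ Ω[K(x)⁄K] ≃ Ω[F⁄K]` for the formally
étale extension `F / K(x)` (`KaehlerDifferential.tensorKaehlerEquivOfFormallyEtale`).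
-/

set_option autoImplicit false
set_option linter.style.haveILetI false

open KaehlerDifferential IntermediateField TensorProduct
open scoped IntermediateField.algebraAdjoinAdjoin

namespace Fermat.Agent.S24.KaehlerNontrivial

variable {K F : Type*} [Field K] [Field F] [Algebra K F]

/-- The derivation `d/dx` on `K[x]`. -/
noncomputable def derivAdjoin {x : F} (hx : Transcendental K x) :
    Derivation K (Algebra.adjoin K {x}) (Algebra.adjoin K {x}) :=
  Derivation.mk'
    ((Polynomial.algEquivOfTranscendental K x hx).toLinearMap ∘ₗ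
      (Polynomial.derivative' (R := K)).toLinearMap ∘ₗ
      (Polynomial.algEquivOfTranscendental K x hx).symm.toLinearMap)
    (by
      intro a b
      simp only [LinearMap.coe_comp, Function.comp_apply, AlgEquiv.toLinearMap_apply, map_mul,
        Derivation.coeFn_coe, Derivation.leibniz, map_add, smul_eq_mul, AlgEquiv.apply_symm_apply])

theorem derivAdjoin_gen {x : F} (hx : Transcendental K x) :
    derivAdjoin hx ⟨x, Algebra.self_mem_adjoin_singleton K x⟩ = 1 := by
  show (Polynomial.algEquivOfTranscendental K x hx)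
    (Polynomial.derivative' ((Polynomial.algEquivOfTranscendental K x hx).symm
      ⟨x, Algebra.self_mem_adjoin_singleton K x⟩)) = 1
  rw [Polynomial.algEquivOfTranscendental_symm_gen]
  simp

/-- `d x ≠ 0` in `Ω[K(x)⁄K]`. -/
theorem D_gen_ne_zero {x : F} (hx : Transcendental K x) :
    D K K⟮x⟯ (AdjoinSimple.gen K x) ≠ 0 := by
  intro h
  have h1 : KaehlerDifferential.map K K (Algebra.adjoin K {x}) K⟮x⟯
      (D K (Algebra.adjoin K {x}) ⟨x, Algebra.self_mem_adjoin_singleton K x⟩) = 0 := by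
    rw [KaehlerDifferential.map_D]
    exact h
  rw [IsLocalizedModule.eq_zero_iff (nonZeroDivisors (Algebra.adjoin K {x}))] at h1
  obtain ⟨s, hs⟩ := h1
  have h2 := congrArg (derivAdjoin hx).liftKaehlerDifferential hs
  rw [Submonoid.smul_def, map_smul, Derivation.liftKaehlerDifferential_comp_D, derivAdjoin_gen,
    map_zero, smul_eq_mul, mul_one] at h2
  exact nonZeroDivisors.coe_ne_zero s h2

/-- `d x ≠ 0` in `Ω[F⁄K]` for `F` finite separable over `K(x)`. -/
theorem D_ne_zero {x : F} (hx : Transcendental K x) [FiniteDimensional K⟮x⟯ F]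
    [Algebra.IsSeparable K⟮x⟯ F] : D K F x ≠ 0 := by
  intro h
  haveI : Algebra.FormallyEtale K⟮x⟯ F := Algebra.FormallyEtale.of_isSeparable K⟮x⟯ F
  have h1 := tensorKaehlerEquivOfFormallyEtale_symm_D_algebraMap K K⟮x⟯ F (AdjoinSimple.gen K x)
  rw [show algebraMap K⟮x⟯ F (AdjoinSimple.gen K x) = x from rfl, h, map_zero] at h1
  -- a functional with nonzero value on `d x`
  obtain ⟨φ, hφ⟩ : ∃ φ : Module.Dual K⟮x⟯ Ω[K⟮x⟯⁄K], φ (D K K⟮x⟯ (AdjoinSimple.gen K x)) ≠ 0 := by
    by_contra hcon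
    push Not at hcon
    exact D_gen_ne_zero hx ((Module.forall_dual_apply_eq_zero_iff K⟮x⟯ _).mp hcon)
  have h2 := congrArg (LinearMap.baseChange F φ) h1.symm
  rw [LinearMap.baseChange_tmul, map_zero] at h2
  have h3 := congrArg (Algebra.TensorProduct.rid K⟮x⟯ F F) h2
  rw [Algebra.TensorProduct.rid_tmul, map_zero] at h3
  rcases smul_eq_zero.mp h3 with h4 | h4
  · exact hφ h4
  · exact one_ne_zero h4

theorem nontrivial_kaehler {x : F} (hx : Transcendental K x) [FiniteDimensional K⟮x⟯ F]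
    [Algebra.IsSeparable K⟮x⟯ F] : Nontrivial Ω[F⁄K] :=
  ⟨⟨D K F x, 0, D_ne_zero hx⟩⟩

/-- `Ω[K[x]⁄K]` is spanned by `d x`. -/
theorem D_adjoin_mem_span (x : F) (a : Algebra.adjoin K {x}) :
    D K (Algebra.adjoin K {x}) a ∈ Submodule.span (Algebra.adjoin K {x})
      {D K (Algebra.adjoin K {x}) ⟨x, Algebra.self_mem_adjoin_singleton K x⟩} := by
  obtain ⟨a, ha⟩ := a
  induction ha using Algebra.adjoin_induction with
  | mem z hz =>
    rw [Set.mem_singleton_iff] at hz
    subst hz
    exact Submodule.subset_span rfl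
  | algebraMap k =>
    have : (⟨algebraMap K F k, Subalgebra.algebraMap_mem _ k⟩ : Algebra.adjoin K {x}) =
        algebraMap K (Algebra.adjoin K {x}) k := rfl
    rw [this, Derivation.map_algebraMap]
    exact Submodule.zero_mem _
  | add a b ha hb iha ihb =>
    have : (⟨a + b, Subalgebra.add_mem _ ha hb⟩ : Algebra.adjoin K {x}) = ⟨a, ha⟩ + ⟨b, hb⟩ := rfl
    rw [this, map_add]
    exact Submodule.add_mem _ iha ihb
  | mul a b ha hb iha ihb =>
    have : (⟨a * b, Subalgebra.mul_mem _ ha hb⟩ : Algebra.adjoin K {x}) = ⟨a, ha⟩ * ⟨b, hb⟩ := rfl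
    rw [this, Derivation.leibniz]
    exact Submodule.add_mem _ (Submodule.smul_mem _ _ ihb) (Submodule.smul_mem _ _ iha)

/-- `Ω[K(x)⁄K]` is spanned by `d x`. -/
theorem span_D_gen_eq_top (x : F) :
    Submodule.span K⟮x⟯ {D K K⟮x⟯ (AdjoinSimple.gen K x)} = ⊤ := by
  rw [eq_top_iff, ← span_range_map_derivation_of_isLocalization K (Algebra.adjoin K {x}) K⟮x⟯
    (nonZeroDivisors (Algebra.adjoin K {x})), Submodule.span_le]
  rintro _ ⟨a, rfl⟩
  have h := D_adjoin_mem_span x a
  obtain ⟨b, hb⟩ := Submodule.mem_span_singleton.mp h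
  rw [Function.comp_apply, ← hb, map_smul, KaehlerDifferential.map_D, SetLike.mem_coe,
    algebra_compatible_smul K⟮x⟯]
  exact Submodule.smul_mem _ _ (Submodule.subset_span rfl)

/-- `Ω[F⁄K]` is spanned by `d x`. -/
theorem span_D_eq_top (x : F) [FiniteDimensional K⟮x⟯ F] [Algebra.IsSeparable K⟮x⟯ F] :
    Submodule.span F {D K F x} = ⊤ := by
  haveI : Algebra.FormallyEtale K⟮x⟯ F := Algebra.FormallyEtale.of_isSeparable K⟮x⟯ F
  rw [eq_top_iff]
  intro ω _
  obtain ⟨t, rfl⟩ := (tensorKaehlerEquivOfFormallyEtale K K⟮x⟯ F).surjective ω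
  clear ‹_ ∈ (⊤ : Submodule F Ω[F⁄K])›
  induction t using TensorProduct.induction_on with
  | zero => simp
  | add a b ha hb => rw [map_add]; exact Submodule.add_mem _ ha hb
  | tmul f η =>
    have hη : η ∈ Submodule.span K⟮x⟯ {D K K⟮x⟯ (AdjoinSimple.gen K x)} := by
      rw [span_D_gen_eq_top]; exact Submodule.mem_top
    obtain ⟨e, rfl⟩ := Submodule.mem_span_singleton.mp hη
    rw [tensorKaehlerEquivOfFormallyEtale_apply, mapBaseChange_tmul, map_smul,
      KaehlerDifferential.map_D, algebra_compatible_smul F e, smul_smul]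
    exact Submodule.smul_mem _ _ (Submodule.subset_span rfl)

end Fermat.Agent.S24.KaehlerNontrivial
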