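import Mathlib
import Fermat.Prelude.Def_AlgebraicCurve_DivisorClassGroup

set_option autoImplicit false

noncomputable section

namespace Fermat.Agent.S24.Mer

open UpperHalfPlane Complex Filter Topology
open scoped Manifold MatrixGroups

/-! ## The ring of holomorphic functions on the upper half plane -/

/-- Holomorphic functions on `ℍ`, as a `ℂ`-subalgebra of all functions. -/
def HolH : Subalgebra ℂ (ℍ → ℂ) where
  carrier := {f | MDiff f}
  mul_mem' hf hg := hf.mul hg
  one_mem' := mdifferentiable_const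
  add_mem' hf hg := hf.add hg
  zero_mem' := mdifferentiable_const
  algebraMap_mem' _ := mdifferentiable_const

theorem mem_HolH {f : ℍ → ℂ} : f ∈ HolH ↔ MDiff f := Iff.rfl

theorem HolH.mdiff (f : HolH) : MDiff (f : ℍ → ℂ) := f.2

instance : IsDomain HolH := by
  have : NoZeroDivisors HolH := ⟨by
    intro a b hab
    have h := congrArg (Subtype.val) hab
    have h' : (a : ℍ → ℂ) * (b : ℍ → ℂ) = 0 := by simpa using h
    rcases (UpperHalfPlane.mul_eq_zero_iff a.2 b.2).mp h' with h0 | h0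
    · exact Or.inl (Subtype.ext h0)
    · exact Or.inr (Subtype.ext h0)⟩
  have : Nontrivial HolH := ⟨⟨0, 1, by
    intro h
    have h1 := congrFun (congrArg Subtype.val h) UpperHalfPlane.I
    simp at h1⟩⟩
  exact NoZeroDivisors.to_isDomain _

/-- The field of meromorphic functions on `ℍ` (fraction field of the holomorphic functions). -/
abbrev MerH : Type := FractionRing HolH

example : Field MerH := inferInstance
example : Algebra ℂ MerH := inferInstance
example : Algebra HolH MerH := inferInstance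

/-- The inclusion of holomorphic functions into meromorphic functions. -/
abbrev ofHol : HolH →+* MerH := algebraMap HolH MerH

theorem ofHol_injective : Function.Injective ofHol := IsFractionRing.injective HolH MerH

theorem exists_ofHol_div (x : MerH) : ∃ f g : HolH, g ≠ 0 ∧ x = ofHol f / ofHol g := by
  obtain ⟨f, g, hg, rfl⟩ := IsFractionRing.div_surjective (A := HolH) x
  exact ⟨f, g, nonZeroDivisors.ne_zero hg, rfl⟩

/-! ## Holomorphic group actions on `ℍ` act on `HolH` and `MerH` -/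

/-- Precomposition with a holomorphic self-map of `ℍ`, as a `ℂ`-algebra endomorphism of `HolH`. -/
def compHol (φ : ℍ → ℍ) (hφ : MDiff φ) : HolH →ₐ[ℂ] HolH where
  toFun f := ⟨fun τ => (f : ℍ → ℂ) (φ τ), f.2.comp hφ⟩
  map_one' := rfl
  map_mul' _ _ := rfl
  map_zero' := rfl
  map_add' _ _ := rfl
  commutes' _ := rfl

@[simp] theorem compHol_apply (φ : ℍ → ℍ) (hφ : MDiff φ) (f : HolH) (τ : ℍ) :
    (compHol φ hφ f : ℍ → ℂ) τ = (f : ℍ → ℂ) (φ τ) := rfl

theorem compHol_injective (φ : ℍ → ℍ) (hφ : MDiff φ) (hsurj : Function.Surjective φ) :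
    Function.Injective (compHol φ hφ) := by
  intro f g h
  apply Subtype.ext
  funext τ
  obtain ⟨σ, rfl⟩ := hsurj τ
  exact congrFun (congrArg Subtype.val h) σ

/-- A group acting on `ℍ` by holomorphic maps. -/
class HolomorphicSMul (G : Type*) [Group G] [MulAction G ℍ] : Prop where
  mdiff_smul : ∀ g : G, MDiff (fun τ : ℍ => g • τ)

theorem mdiff_smul {G : Type*} [Group G] [MulAction G ℍ] [HolomorphicSMul G] (g : G) :
    MDiff (fun τ : ℍ => g • τ) := HolomorphicSMul.mdiff_smul g

theorem mdiff_glPos_smul {g : GL (Fin 2) ℝ} (hg : 0 < g.det.val) : MDiff (fun τ : ℍ => g • τ) :=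
  mdifferentiable_smul hg

instance : HolomorphicSMul SL(2, ℤ) := ⟨fun g => by
  have h : (fun τ : ℍ => g • τ) = fun τ : ℍ => (g : GL (Fin 2) ℝ) • τ := rfl
  rw [h]
  exact mdifferentiable_smul (by simp)⟩

section Action

variable {G : Type*} [Group G] [MulAction G ℍ] [HolomorphicSMul G]

/-- `G` acts on holomorphic functions by `(g • f) τ = f (g⁻¹ • τ)`. -/
instance : MulSemiringAction G HolH where
  smul g f := compHol (fun τ => g⁻¹ • τ) (mdiff_smul g⁻¹) f
  one_smul f := by
    apply Subtype.ext; funext τ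
    show (f : ℍ → ℂ) ((1 : G)⁻¹ • τ) = (f : ℍ → ℂ) τ
    rw [inv_one, one_smul]
  mul_smul g h f := by
    apply Subtype.ext; funext τ
    show (f : ℍ → ℂ) ((g * h)⁻¹ • τ) = (f : ℍ → ℂ) (h⁻¹ • g⁻¹ • τ)
    rw [mul_inv_rev, mul_smul]
  smul_zero _ := rfl
  smul_add _ _ _ := rfl
  smul_one _ := rfl
  smul_mul _ _ _ := rfl

theorem smul_hol_apply (g : G) (f : HolH) (τ : ℍ) :
    ((g • f : HolH) : ℍ → ℂ) τ = (f : ℍ → ℂ) (g⁻¹ • τ) := rfl

theorem smul_hol_algebraMap (g : G) (c : ℂ) : g • (algebraMap ℂ HolH c) = algebraMap ℂ HolH c := rfl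

instance : SMulCommClass G ℂ HolH := ⟨fun g c f => by
  apply Subtype.ext; funext τ; rfl⟩

/-- `G` acts on meromorphic functions (extension of the action on `HolH`). -/
instance : MulSemiringAction G MerH := IsFractionRing.mulSemiringAction G HolH MerH

theorem smul_ofHol (g : G) (f : HolH) : g • (ofHol f) = ofHol (g • f) := by
  show (IsFractionRing.ringEquivOfRingEquivHom HolH MerH)
      (MulSemiringAction.toRingEquiv G HolH g) (algebraMap HolH MerH f) = _
  exact IsFractionRing.ringEquivOfRingEquiv_algebraMap _ _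

theorem smul_mer_algebraMap (g : G) (c : ℂ) : g • (algebraMap ℂ MerH c) = algebraMap ℂ MerH c := by
  rw [IsScalarTower.algebraMap_apply ℂ HolH MerH, smul_ofHol, smul_hol_algebraMap]

instance : SMulCommClass G ℂ MerH := ⟨fun g c x => by
  rw [Algebra.smul_def, Algebra.smul_def, smul_mul', smul_mer_algebraMap]⟩

end Action

/-! ## Order of vanishing at a point -/

theorem analyticAt_comp_ofComplex {f : ℍ → ℂ} (hf : MDiff f) (τ : ℍ) :
    AnalyticAt ℂ (f ∘ ofComplex) (τ : ℂ) :=
  (UpperHalfPlane.mdifferentiable_iff.mp hf).analyticAt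
    (isOpen_upperHalfPlaneSet.mem_nhds τ.im_pos)

theorem analyticOnNhd_comp_ofComplex {f : ℍ → ℂ} (hf : MDiff f) :
    AnalyticOnNhd ℂ (f ∘ ofComplex) upperHalfPlaneSet :=
  (UpperHalfPlane.mdifferentiable_iff.mp hf).analyticOnNhd isOpen_upperHalfPlaneSet

theorem isPreconnected_upperHalfPlaneSet : IsPreconnected upperHalfPlaneSet :=
  (Complex.isConnected_of_upperHalfPlane (r := 0) subset_rfl (by
    intro z hz; exact le_of_lt (show (0 : ℝ) < z.im from hz))).isPreconnected

/-- The order of vanishing at `τ` of a function on `ℍ`. -/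
def vanishingOrder (f : ℍ → ℂ) (τ : ℍ) : ℕ∞ := analyticOrderAt (f ∘ ofComplex) (τ : ℂ)

theorem vanishingOrder_eq_top_iff {f : ℍ → ℂ} (hf : MDiff f) (τ : ℍ) :
    vanishingOrder f τ = ⊤ ↔ f = 0 := by
  constructor
  · intro h
    have h0 : (f ∘ ofComplex) =ᶠ[𝓝 (τ : ℂ)] 0 := analyticOrderAt_eq_top.mp h
    have hE := (analyticOnNhd_comp_ofComplex hf).eqOn_zero_of_preconnected_of_eventuallyEq_zero
      isPreconnected_upperHalfPlaneSet τ.im_pos h0
    funext w
    have := hE w.im_pos
    simpa [Function.comp_apply, ofComplex_apply] using this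
  · rintro rfl
    exact analyticOrderAt_eq_top.mpr (Eventually.of_forall fun _ => rfl)

theorem vanishingOrder_mul {f g : ℍ → ℂ} (hf : MDiff f) (hg : MDiff g) (τ : ℍ) :
    vanishingOrder (f * g) τ = vanishingOrder f τ + vanishingOrder g τ :=
  analyticOrderAt_mul (analyticAt_comp_ofComplex hf τ) (analyticAt_comp_ofComplex hg τ)

theorem le_vanishingOrder_add (f g : ℍ → ℂ) (τ : ℍ) :
    min (vanishingOrder f τ) (vanishingOrder g τ) ≤ vanishingOrder (f + g) τ :=
  le_analyticOrderAt_add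

theorem vanishingOrder_eq_zero_iff {f : ℍ → ℂ} (hf : MDiff f) (τ : ℍ) :
    vanishingOrder f τ = 0 ↔ f τ ≠ 0 := by
  rw [vanishingOrder, (analyticAt_comp_ofComplex hf τ).analyticOrderAt_eq_zero]
  simp [Function.comp_apply, ofComplex_apply]

theorem vanishingOrder_const {c : ℂ} (hc : c ≠ 0) (τ : ℍ) :
    vanishingOrder (fun _ => c) τ = 0 :=
  (vanishingOrder_eq_zero_iff mdifferentiable_const τ).mpr hc

/-- `n ↦ exp (-n)`, `⊤ ↦ 0`. -/
def toVal (n : ℕ∞) : WithZero (Multiplicative ℤ) :=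
  if n = ⊤ then 0 else WithZero.exp (-(n.toNat : ℤ))

@[simp] theorem toVal_top : toVal ⊤ = 0 := by simp [toVal]

@[simp] theorem toVal_coe (n : ℕ) : toVal (n : ℕ∞) = WithZero.exp (-(n : ℤ)) := by
  simp [toVal]

@[simp] theorem toVal_zero : toVal 0 = 1 := by
  have := toVal_coe 0
  simpa using this

theorem toVal_eq_zero_iff {n : ℕ∞} : toVal n = 0 ↔ n = ⊤ := by
  constructor
  · intro h
    by_contra hn
    simp [toVal, hn] at h
  · rintro rfl; simp

theorem toVal_add (a b : ℕ∞) : toVal (a + b) = toVal a * toVal b := by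
  induction a using ENat.recTopCoe with
  | top => simp
  | coe a =>
    induction b using ENat.recTopCoe with
    | top => simp
    | coe b =>
      rw [← Nat.cast_add, toVal_coe, toVal_coe, toVal_coe, ← WithZero.exp_add]
      congr 1
      push_cast
      ring

theorem toVal_anti {a b : ℕ∞} (h : a ≤ b) : toVal b ≤ toVal a := by
  induction b using ENat.recTopCoe with
  | top => simp
  | coe b =>
    induction a using ENat.recTopCoe with
    | top => simp at h
    | coe a =>
      rw [toVal_coe, toVal_coe, WithZero.exp_le_exp]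
      have : a ≤ b := by exact_mod_cast h
      omega

theorem toVal_min (a b : ℕ∞) : toVal (min a b) = max (toVal a) (toVal b) := by
  rcases le_total a b with h | h
  · rw [min_eq_left h, max_eq_left (toVal_anti h)]
  · rw [min_eq_right h, max_eq_right (toVal_anti h)]

/-- The valuation on `HolH` given by the order of vanishing at `τ`. -/
def ordValHol (τ : ℍ) : Valuation HolH (WithZero (Multiplicative ℤ)) where
  toFun f := toVal (vanishingOrder (f : ℍ → ℂ) τ)
  map_zero' := by
    rw [toVal_eq_zero_iff]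
    exact (vanishingOrder_eq_top_iff (f := (0 : ℍ → ℂ)) mdifferentiable_const τ).mpr rfl
  map_one' := by
    have : vanishingOrder ((1 : HolH) : ℍ → ℂ) τ = 0 :=
      vanishingOrder_const (c := 1) one_ne_zero τ
    rw [this, toVal_zero]
  map_mul' f g := by
    show toVal (vanishingOrder ((f : ℍ → ℂ) * (g : ℍ → ℂ)) τ) = _
    rw [vanishingOrder_mul f.2 g.2, toVal_add]
  map_add_le_max' f g := by
    show toVal (vanishingOrder ((f : ℍ → ℂ) + (g : ℍ → ℂ)) τ) ≤ _
    rw [← toVal_min]
    exact toVal_anti (le_vanishingOrder_add _ _ τ)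

theorem ordValHol_apply (τ : ℍ) (f : HolH) :
    ordValHol τ f = toVal (vanishingOrder (f : ℍ → ℂ) τ) := rfl

theorem ordValHol_eq_zero_iff (τ : ℍ) (f : HolH) : ordValHol τ f = 0 ↔ f = 0 := by
  rw [ordValHol_apply, toVal_eq_zero_iff, vanishingOrder_eq_top_iff f.2]
  exact ⟨fun h => Subtype.ext h, fun h => by rw [h]; rfl⟩

theorem ordValHol_le_one (τ : ℍ) (f : HolH) : ordValHol τ f ≤ 1 := by
  rw [ordValHol_apply, ← toVal_zero]
  exact toVal_anti zero_le

theorem ordValHol_lt_one_iff (τ : ℍ) (f : HolH) : ordValHol τ f < 1 ↔ (f : ℍ → ℂ) τ = 0 := by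
  rw [lt_iff_le_and_ne, and_iff_right (ordValHol_le_one τ f), ordValHol_apply]
  constructor
  · intro h
    by_contra h0
    exact h (by rw [(vanishingOrder_eq_zero_iff f.2 τ).mpr h0, toVal_zero])
  · intro h0 h1
    have hne : vanishingOrder (f : ℍ → ℂ) τ ≠ 0 := by
      rw [Ne, vanishingOrder_eq_zero_iff f.2 τ]; exact not_not.mpr h0
    induction hv : vanishingOrder (f : ℍ → ℂ) τ using ENat.recTopCoe with
    | top => rw [hv] at h1; simp at h1
    | coe n =>
      rw [hv, toVal_coe, WithZero.exp_eq_one] at h1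
      rw [hv] at hne
      apply hne
      have : n = 0 := by omega
      simp [this]

theorem nonZeroDivisors_le_supp_primeCompl (τ : ℍ) :
    nonZeroDivisors HolH ≤ (ordValHol τ).supp.primeCompl := by
  intro f hf hmem
  have hmem' : ordValHol τ f = 0 := (Valuation.mem_supp_iff _ _).mp hmem
  rw [ordValHol_eq_zero_iff] at hmem'
  exact nonZeroDivisors.ne_zero hf hmem'

/-- The point valuation at `τ` on the field of meromorphic functions. -/
def ordVal (τ : ℍ) : Valuation MerH (WithZero (Multiplicative ℤ)) :=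
  (ordValHol τ).extendToLocalization (nonZeroDivisors_le_supp_primeCompl τ) MerH

@[simp] theorem ordVal_ofHol (τ : ℍ) (f : HolH) : ordVal τ (ofHol f) = ordValHol τ f :=
  Valuation.extendToLocalization_apply_map_apply _ _ _ f

theorem ordVal_algebraMap (τ : ℍ) {c : ℂ} (hc : c ≠ 0) : ordVal τ (algebraMap ℂ MerH c) = 1 := by
  rw [IsScalarTower.algebraMap_apply ℂ HolH MerH, ordVal_ofHol, ordValHol_apply]
  have : vanishingOrder ((algebraMap ℂ HolH c : HolH) : ℍ → ℂ) τ = 0 :=
    vanishingOrder_const hc τ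
  rw [this, toVal_zero]

/-! ## Equivariance of the point valuations -/

section Equivariance

variable {G : Type*} [Group G] [MulAction G ℍ] [HolomorphicSMul G]

/-- The map `z ↦ g • z` transported to `ℂ` (junk outside the upper half plane). -/
def liftSMul (g : G) (z : ℂ) : ℂ := ((g • ofComplex z : ℍ) : ℂ)

omit [HolomorphicSMul G] in
theorem liftSMul_coe (g : G) (τ : ℍ) : liftSMul g (τ : ℂ) = ((g • τ : ℍ) : ℂ) := by
  simp [liftSMul, ofComplex_apply]

theorem differentiableAt_liftSMul (g : G) (τ : ℍ) : DifferentiableAt ℂ (liftSMul g) (τ : ℂ) := by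
  have h : MDiff (fun σ : ℍ => ((g • σ : ℍ) : ℂ)) := mdifferentiable_coe.comp (mdiff_smul g)
  exact UpperHalfPlane.mdifferentiableAt_iff.mp (h τ)

theorem analyticAt_liftSMul (g : G) (τ : ℍ) : AnalyticAt ℂ (liftSMul g) (τ : ℂ) :=
  DifferentiableOn.analyticAt (s := upperHalfPlaneSet)
    (fun z hz => (differentiableAt_liftSMul g ⟨z, hz⟩).differentiableWithinAt)
    (isOpen_upperHalfPlaneSet.mem_nhds τ.im_pos)

omit [HolomorphicSMul G] in
theorem liftSMul_inv_liftSMul (g : G) (τ : ℍ) :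
    ∀ᶠ z in 𝓝 (τ : ℂ), liftSMul g⁻¹ (liftSMul g z) = z := by
  filter_upwards [isOpen_upperHalfPlaneSet.mem_nhds τ.im_pos] with z hz
  have h1 : liftSMul g z = ((g • (⟨z, hz⟩ : ℍ) : ℍ) : ℂ) := liftSMul_coe g ⟨z, hz⟩
  rw [h1, liftSMul_coe, inv_smul_smul]

theorem deriv_liftSMul_ne_zero (g : G) (τ : ℍ) : deriv (liftSMul g) (τ : ℂ) ≠ 0 := by
  have h1 : HasDerivAt (liftSMul g) (deriv (liftSMul g) τ) τ :=
    (differentiableAt_liftSMul g τ).hasDerivAt
  have h2 : HasDerivAt (liftSMul g⁻¹) (deriv (liftSMul g⁻¹) (liftSMul g τ)) (liftSMul g τ) := by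
    rw [liftSMul_coe]
    exact (differentiableAt_liftSMul g⁻¹ (g • τ)).hasDerivAt
  have h3 := h2.comp (τ : ℂ) h1
  have h4 : HasDerivAt (liftSMul g⁻¹ ∘ liftSMul g) 1 (τ : ℂ) :=
    (hasDerivAt_id (τ : ℂ)).congr_of_eventuallyEq (liftSMul_inv_liftSMul g τ)
  have h5 := h3.unique h4
  intro h0
  rw [h0, mul_zero] at h5
  exact zero_ne_one h5

theorem vanishingOrder_smul (g : G) (f : HolH) (τ : ℍ) :
    vanishingOrder ((g • f : HolH) : ℍ → ℂ) τ = vanishingOrder (f : ℍ → ℂ) (g⁻¹ • τ) := by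
  have hfun : ((g • f : HolH) : ℍ → ℂ) ∘ ofComplex
      = ((f : ℍ → ℂ) ∘ ofComplex) ∘ liftSMul g⁻¹ := by
    funext z
    simp only [Function.comp_apply, liftSMul, ofComplex_apply]
    rfl
  rw [vanishingOrder, hfun,
    analyticOrderAt_comp_of_deriv_ne_zero (analyticAt_liftSMul g⁻¹ τ) (deriv_liftSMul_ne_zero g⁻¹ τ),
    liftSMul_coe]
  rfl

theorem ordValHol_smul (g : G) (f : HolH) (τ : ℍ) :
    ordValHol τ (g • f) = ordValHol (g⁻¹ • τ) f := by
  rw [ordValHol_apply, ordValHol_apply, vanishingOrder_smul]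

theorem ordVal_smul (g : G) (x : MerH) (τ : ℍ) :
    ordVal τ (g • x) = ordVal (g⁻¹ • τ) x := by
  obtain ⟨f, h, -, rfl⟩ := exists_ofHol_div x
  rw [smul_div₀', smul_ofHol, smul_ofHol, map_div₀, map_div₀, ordVal_ofHol, ordVal_ofHol,
    ordVal_ofHol, ordVal_ofHol, ordValHol_smul, ordValHol_smul]

/-- Elements of the stabiliser of `τ` preserve the point valuation at `τ`. -/
theorem ordVal_smul_of_mem_stabilizer {g : G} {τ : ℍ} (hg : g ∈ MulAction.stabilizer G τ)
    (x : MerH) : ordVal τ (g • x) = ordVal τ x := by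
  rw [ordVal_smul]
  have : g⁻¹ • τ = τ := by
    rw [inv_smul_eq_iff]; exact (MulAction.mem_stabilizer_iff.mp hg).symm
  rw [this]

end Equivariance

/-! ## Places from discrete valuations -/

section PlaceOfValuation

open AlgebraicCurve

variable {K F : Type*} [Field K] [Field F] [Algebra K F]

theorem isCyclic_valueGroup (w : Valuation F (WithZero (Multiplicative ℤ))) :
    IsCyclic (MonoidWithZeroHom.valueGroup (MonoidWithZeroHom.ofClass w)) := by
  have : IsCyclic (WithZero (Multiplicative ℤ))ˣ :=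
    isCyclic_of_surjective (WithZero.unitsWithZeroEquiv (α := Multiplicative ℤ)).symm
      (WithZero.unitsWithZeroEquiv (α := Multiplicative ℤ)).symm.surjective
  infer_instance

theorem nontrivial_valueGroup (w : Valuation F (WithZero (Multiplicative ℤ)))
    (hnt : ∃ x : F, w x ≠ 0 ∧ w x ≠ 1) :
    Nontrivial (MonoidWithZeroHom.valueGroup (MonoidWithZeroHom.ofClass w)) := by
  obtain ⟨x, hx0, hx1⟩ := hnt
  refine ⟨⟨⟨Units.mk0 (w x) hx0, MonoidWithZeroHom.mem_valueGroup _ ⟨x, rfl⟩⟩, 1, ?_⟩⟩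
  intro h
  apply hx1
  have := congrArg (fun u : MonoidWithZeroHom.valueGroup (MonoidWithZeroHom.ofClass w) =>
    ((u : (WithZero (Multiplicative ℤ))ˣ) : WithZero (Multiplicative ℤ))) h
  simpa using this

/-- A nontrivial `ℤᵐ⁰`-valued valuation on `F` which is `≤ 1` on `K` defines a place of `F/K`. -/
def placeOfValuation (w : Valuation F (WithZero (Multiplicative ℤ)))
    (hK : ∀ a : K, w (algebraMap K F a) ≤ 1) (hnt : ∃ x : F, w x ≠ 0 ∧ w x ≠ 1) :
    Place K F where
  toValuationSubring := w.valuationSubring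
  algebraMap_mem' a := (Valuation.mem_valuationSubring_iff _ _).mpr (hK a)
  ne_top' := by
    obtain ⟨x, hx0, hx1⟩ := hnt
    intro htop
    have hx : x ≠ 0 := fun h => hx0 (by rw [h, map_zero])
    have h1 : w x ≤ 1 := (Valuation.mem_valuationSubring_iff _ _).mp (htop ▸ ValuationSubring.mem_top x)
    have h2 : w x⁻¹ ≤ 1 :=
      (Valuation.mem_valuationSubring_iff _ _).mp (htop ▸ ValuationSubring.mem_top x⁻¹)
    rw [map_inv₀, inv_le_one₀ (zero_lt_iff.mpr hx0)] at h2
    exact hx1 (le_antisymm h1 h2)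
  isPrincipalIdealRing' := by
    have := isCyclic_valueGroup w
    have := nontrivial_valueGroup w hnt
    exact Valuation.valuationSubring_isPrincipalIdealRing w

@[simp] theorem placeOfValuation_toValuationSubring (w : Valuation F (WithZero (Multiplicative ℤ)))
    (hK : ∀ a : K, w (algebraMap K F a) ≤ 1) (hnt : ∃ x : F, w x ≠ 0 ∧ w x ≠ 1) :
    (placeOfValuation w hK hnt).toValuationSubring = w.valuationSubring := rfl

theorem valuation_unit_eq_one (w : Valuation F (WithZero (Multiplicative ℤ)))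
    (u : (w.valuationSubring)ˣ) : w ((u : w.valuationSubring) : F) = 1 := by
  have h1 : w ((u : w.valuationSubring) : F) ≤ 1 :=
    (Valuation.mem_valuationSubring_iff _ _).mp (u : w.valuationSubring).2
  have h2 : w (((u⁻¹ : (w.valuationSubring)ˣ) : w.valuationSubring) : F) ≤ 1 :=
    (Valuation.mem_valuationSubring_iff _ _).mp ((u⁻¹ : (w.valuationSubring)ˣ) : w.valuationSubring).2
  have h3 : ((u : w.valuationSubring) : F) * (((u⁻¹ : (w.valuationSubring)ˣ) : w.valuationSubring) : F)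
      = 1 := by
    have h := congrArg (fun x : w.valuationSubring => (x : F)) (u.mul_inv)
    exact h
  have h4 : w ((u : w.valuationSubring) : F)
      * w (((u⁻¹ : (w.valuationSubring)ˣ) : w.valuationSubring) : F) = 1 := by
    rw [← map_mul, h3, map_one]
  rcases lt_or_eq_of_le h1 with hlt | heq
  · exfalso
    have : w ((u : w.valuationSubring) : F)
        * w (((u⁻¹ : (w.valuationSubring)ˣ) : w.valuationSubring) : F) < 1 := by
      calc _ ≤ w ((u : w.valuationSubring) : F) * 1 := by gcongr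
        _ = w ((u : w.valuationSubring) : F) := mul_one _
        _ < 1 := hlt
    exact absurd h4 (ne_of_lt this)
  · exact heq

/-- The order function of the place attached to `w` is `w` normalised: there is `m > 0` with
`-log (w f) = m * ord f` for all nonzero `f`. -/
theorem exists_mul_ord_placeOfValuation (w : Valuation F (WithZero (Multiplicative ℤ)))
    (hK : ∀ a : K, w (algebraMap K F a) ≤ 1) (hnt : ∃ x : F, w x ≠ 0 ∧ w x ≠ 1) :
    ∃ m : ℕ, 0 < m ∧ ∀ f : F, f ≠ 0 →
      -(WithZero.log (w f)) = (m : ℤ) * (placeOfValuation w hK hnt).ord f := by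
  set P := placeOfValuation w hK hnt with hP
  obtain ⟨π, hπ⟩ := IsDiscreteValuationRing.exists_irreducible P.toValuationSubring
  have hπ0 : (π : F) ≠ 0 := by
    intro h
    exact hπ.ne_zero (Subtype.ext h)
  have hwπ0 : w (π : F) ≠ 0 := (Valuation.ne_zero_iff _).mpr hπ0
  have hwπle : w (π : F) ≤ 1 := (Valuation.mem_valuationSubring_iff _ _).mp π.2
  have hwπlt : w (π : F) < 1 := by
    rcases lt_or_eq_of_le hwπle with h | h
    · exact h
    · exfalso
      apply hπ.not_isUnit
      have hinv : (π : F)⁻¹ ∈ w.valuationSubring := by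
        rw [Valuation.mem_valuationSubring_iff, map_inv₀, h, inv_one]
      refine isUnit_iff_exists_inv.mpr ⟨⟨(π : F)⁻¹, hinv⟩, ?_⟩
      apply Subtype.ext
      show (π : F) * (π : F)⁻¹ = 1
      exact mul_inv_cancel₀ hπ0
  have hlogneg : WithZero.log (w (π : F)) < 0 := by
    have := (WithZero.log_lt_log hwπ0 one_ne_zero).mpr hwπlt
    simpa using this
  refine ⟨(-(WithZero.log (w (π : F)))).toNat, by omega, fun f hf => ?_⟩
  obtain ⟨u, hu⟩ := P.exists_unit_mul_zpow hf hπ
  have hwu : w ((u : P.toValuationSubring) : F) = 1 := valuation_unit_eq_one w u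
  have hwf : w f = w (π : F) ^ (P.ord f) := by
    conv_lhs => rw [hu]
    rw [map_mul, hwu, one_mul, map_zpow₀]
  rw [hwf, WithZero.log_zpow]
  have : ((-(WithZero.log (w (π : F)))).toNat : ℤ) = -(WithZero.log (w (π : F))) :=
    Int.toNat_of_nonneg (by omega)
  rw [this, smul_eq_mul]
  ring

/-- In particular `ord f ≤ -log (w f)` when `w f ≤ 1`. -/
theorem ord_placeOfValuation_le (w : Valuation F (WithZero (Multiplicative ℤ)))
    (hK : ∀ a : K, w (algebraMap K F a) ≤ 1) (hnt : ∃ x : F, w x ≠ 0 ∧ w x ≠ 1)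
    {f : F} (hf : f ≠ 0) (hle : w f ≤ 1) :
    (placeOfValuation w hK hnt).ord f ≤ -(WithZero.log (w f)) := by
  obtain ⟨m, hm, h⟩ := exists_mul_ord_placeOfValuation w hK hnt
  rw [h f hf]
  have hwf0 : w f ≠ 0 := (Valuation.ne_zero_iff _).mpr hf
  have hlog : WithZero.log (w f) ≤ 0 := by
    have := (WithZero.log_le_log hwf0 one_ne_zero).mpr hle
    simpa using this
  have hnn : 0 ≤ (m : ℤ) * (placeOfValuation w hK hnt).ord f := by
    rw [← h f hf]; omega
  have hordnn : 0 ≤ (placeOfValuation w hK hnt).ord f := by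
    by_contra hneg
    rw [not_le] at hneg
    have : (m : ℤ) * (placeOfValuation w hK hnt).ord f < 0 :=
      mul_neg_of_pos_of_neg (by exact_mod_cast hm) hneg
    omega
  calc (placeOfValuation w hK hnt).ord f = 1 * (placeOfValuation w hK hnt).ord f := (one_mul _).symm
    _ ≤ (m : ℤ) * (placeOfValuation w hK hnt).ord f := by
        apply mul_le_mul_of_nonneg_right _ hordnn
        exact_mod_cast hm

/-- `0 < ord f` iff `w f < 1`. -/
theorem ord_placeOfValuation_pos_iff (w : Valuation F (WithZero (Multiplicative ℤ)))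
    (hK : ∀ a : K, w (algebraMap K F a) ≤ 1) (hnt : ∃ x : F, w x ≠ 0 ∧ w x ≠ 1)
    {f : F} (hf : f ≠ 0) :
    0 < (placeOfValuation w hK hnt).ord f ↔ w f < 1 := by
  obtain ⟨m, hm, h⟩ := exists_mul_ord_placeOfValuation w hK hnt
  have hwf0 : w f ≠ 0 := (Valuation.ne_zero_iff _).mpr hf
  have hm' : (0 : ℤ) < m := by exact_mod_cast hm
  rw [← WithZero.log_lt_log hwf0 one_ne_zero, WithZero.log_one]
  have := h f hf
  constructor
  · intro hpos
    have : 0 < (m : ℤ) * (placeOfValuation w hK hnt).ord f := mul_pos hm' hpos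
    omega
  · intro hlt
    by_contra hneg
    rw [not_lt] at hneg
    have : (m : ℤ) * (placeOfValuation w hK hnt).ord f ≤ 0 :=
      mul_nonpos_of_nonneg_of_nonpos hm'.le hneg
    omega

end PlaceOfValuation

/-! ## Point places on subfields of `MerH` -/

section PointPlaces

open AlgebraicCurve

theorem ordVal_algebraMap_le_one (τ : ℍ) (c : ℂ) : ordVal τ (algebraMap ℂ MerH c) ≤ 1 := by
  rcases eq_or_ne c 0 with rfl | hc
  · simp
  · exact (ordVal_algebraMap τ hc).le

theorem ordVal_ofHol_le_one (τ : ℍ) (f : HolH) : ordVal τ (ofHol f) ≤ 1 := by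
  rw [ordVal_ofHol]; exact ordValHol_le_one τ f

theorem ordVal_ofHol_lt_one_iff (τ : ℍ) (f : HolH) :
    ordVal τ (ofHol f) < 1 ↔ (f : ℍ → ℂ) τ = 0 := by
  rw [ordVal_ofHol]; exact ordValHol_lt_one_iff τ f

theorem ordVal_ofHol_ne_zero (τ : ℍ) {f : HolH} (hf : f ≠ 0) : ordVal τ (ofHol f) ≠ 0 := by
  rw [ordVal_ofHol, Ne, ordValHol_eq_zero_iff]; exact hf

/-- `-log` of the point valuation of a holomorphic function is its order of vanishing. -/
theorem neg_log_ordVal_ofHol (τ : ℍ) {f : HolH} (hf : f ≠ 0) :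
    -(WithZero.log (ordVal τ (ofHol f))) = ((vanishingOrder (f : ℍ → ℂ) τ).toNat : ℤ) := by
  rw [ordVal_ofHol, ordValHol_apply]
  have hne : vanishingOrder (f : ℍ → ℂ) τ ≠ ⊤ := by
    rw [Ne, vanishingOrder_eq_top_iff f.2]
    intro h; exact hf (Subtype.ext h)
  obtain ⟨n, hn⟩ := ENat.ne_top_iff_exists.mp hne
  rw [← hn, toVal_coe, WithZero.log_exp]
  simp

variable {K L : Type*} [Field K] [Field L] [Algebra K L] [Algebra L MerH]

variable (L) in
/-- The point valuation at `τ` restricted to a field `L` mapping to `MerH`. -/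
def ordValOn (τ : ℍ) : Valuation L (WithZero (Multiplicative ℤ)) :=
  (ordVal τ).comap (algebraMap L MerH)

@[simp] theorem ordValOn_apply (τ : ℍ) (x : L) :
    ordValOn L τ x = ordVal τ (algebraMap L MerH x) := rfl

variable (K) in
/-- The place of `L/K` cut out by the point `τ`, provided the constants are `τ`-integral and some
element of `L` has nontrivial valuation at `τ`. -/
def placeAt (τ : ℍ) (hK : ∀ a : K, ordValOn L τ (algebraMap K L a) ≤ 1)
    (hnt : ∃ x : L, ordValOn L τ x ≠ 0 ∧ ordValOn L τ x ≠ 1) : Place K L :=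
  placeOfValuation (ordValOn L τ) hK hnt

theorem mem_placeAt_iff (τ : ℍ) (hK : ∀ a : K, ordValOn L τ (algebraMap K L a) ≤ 1)
    (hnt : ∃ x : L, ordValOn L τ x ≠ 0 ∧ ordValOn L τ x ≠ 1) (x : L) :
    x ∈ (placeAt K τ hK hnt).toValuationSubring ↔ ordVal τ (algebraMap L MerH x) ≤ 1 :=
  Valuation.mem_valuationSubring_iff _ _

/-- The order of `x` at the place `placeAt τ` is at most the `τ`-adic order of `x` in `MerH`. -/
theorem ord_placeAt_le (τ : ℍ) (hK : ∀ a : K, ordValOn L τ (algebraMap K L a) ≤ 1)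
    (hnt : ∃ x : L, ordValOn L τ x ≠ 0 ∧ ordValOn L τ x ≠ 1) {x : L} (hx : x ≠ 0)
    (hle : ordVal τ (algebraMap L MerH x) ≤ 1) :
    (placeAt K τ hK hnt).ord x ≤ -(WithZero.log (ordVal τ (algebraMap L MerH x))) :=
  ord_placeOfValuation_le (ordValOn L τ) hK hnt hx hle

theorem ord_placeAt_pos_iff (τ : ℍ) (hK : ∀ a : K, ordValOn L τ (algebraMap K L a) ≤ 1)
    (hnt : ∃ x : L, ordValOn L τ x ≠ 0 ∧ ordValOn L τ x ≠ 1) {x : L} (hx : x ≠ 0) :
    0 < (placeAt K τ hK hnt).ord x ↔ ordVal τ (algebraMap L MerH x) < 1 :=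
  ord_placeOfValuation_pos_iff (ordValOn L τ) hK hnt hx

/-- If `x ∈ L` is the image of a holomorphic function `f ≠ 0`, then the order of `x` at
`placeAt τ` is at most the order of vanishing of `f` at `τ`. -/
theorem ord_placeAt_le_vanishingOrder (τ : ℍ)
    (hK : ∀ a : K, ordValOn L τ (algebraMap K L a) ≤ 1)
    (hnt : ∃ x : L, ordValOn L τ x ≠ 0 ∧ ordValOn L τ x ≠ 1) {x : L} {f : HolH} (hf : f ≠ 0)
    (hxf : algebraMap L MerH x = ofHol f) :
    (placeAt K τ hK hnt).ord x ≤ ((vanishingOrder (f : ℍ → ℂ) τ).toNat : ℤ) := by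
  have hx : x ≠ 0 := by
    rintro rfl
    rw [map_zero] at hxf
    exact hf (ofHol_injective (by rw [← hxf, map_zero]))
  have := ord_placeAt_le (K := K) τ hK hnt hx (by rw [hxf]; exact ordVal_ofHol_le_one τ f)
  rwa [hxf, neg_log_ordVal_ofHol τ hf] at this

/-- ... and it is positive iff `f τ = 0`. -/
theorem ord_placeAt_pos_iff_apply_eq_zero (τ : ℍ)
    (hK : ∀ a : K, ordValOn L τ (algebraMap K L a) ≤ 1)
    (hnt : ∃ x : L, ordValOn L τ x ≠ 0 ∧ ordValOn L τ x ≠ 1) {x : L} {f : HolH} (hf : f ≠ 0)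
    (hxf : algebraMap L MerH x = ofHol f) :
    0 < (placeAt K τ hK hnt).ord x ↔ (f : ℍ → ℂ) τ = 0 := by
  have hx : x ≠ 0 := by
    rintro rfl
    rw [map_zero] at hxf
    exact hf (ofHol_injective (by rw [← hxf, map_zero]))
  rw [ord_placeAt_pos_iff (K := K) τ hK hnt hx, hxf, ordVal_ofHol_lt_one_iff]

section Galois

open scoped Pointwise

variable {G : Type*} [Group G] [MulAction G ℍ] [HolomorphicSMul G]

/-- If the `K`-automorphism `σ` of `L` is induced by `g ∈ G` (acting on `MerH`), then `σ` moves the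
place at `τ` to the place at `g • τ`. -/
theorem smul_placeAt (σ : L ≃ₐ[K] L) (g : G)
    (hσ : ∀ x : L, algebraMap L MerH (σ x) = g • algebraMap L MerH x) (τ : ℍ)
    (hK : ∀ a : K, ordValOn L τ (algebraMap K L a) ≤ 1)
    (hnt : ∃ x : L, ordValOn L τ x ≠ 0 ∧ ordValOn L τ x ≠ 1)
    (hK' : ∀ a : K, ordValOn L (g • τ) (algebraMap K L a) ≤ 1)
    (hnt' : ∃ x : L, ordValOn L (g • τ) x ≠ 0 ∧ ordValOn L (g • τ) x ≠ 1) :
    σ • placeAt K τ hK hnt = placeAt K (g • τ) hK' hnt' := by
  apply Place.ext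
  rw [Place.smul_toValuationSubring]
  ext y
  rw [ValuationSubring.mem_pointwise_smul_iff_inv_smul_mem, mem_placeAt_iff, mem_placeAt_iff]
  have h1 : algebraMap L MerH (σ⁻¹ • y) = g⁻¹ • algebraMap L MerH y := by
    have h2 := hσ (σ⁻¹ • y)
    have h3 : σ (σ⁻¹ • y) = y := by
      show σ (σ.symm y) = y
      exact σ.apply_symm_apply y
    rw [h3] at h2
    rw [h2, inv_smul_smul]
  rw [h1, ordVal_smul, inv_inv]

/-- If moreover `g` fixes `τ`, then `σ` fixes the place at `τ`. -/
theorem smul_placeAt_of_mem_stabilizer (σ : L ≃ₐ[K] L) (g : G)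
    (hσ : ∀ x : L, algebraMap L MerH (σ x) = g • algebraMap L MerH x) (τ : ℍ)
    (hg : g ∈ MulAction.stabilizer G τ)
    (hK : ∀ a : K, ordValOn L τ (algebraMap K L a) ≤ 1)
    (hnt : ∃ x : L, ordValOn L τ x ≠ 0 ∧ ordValOn L τ x ≠ 1) :
    σ • placeAt K τ hK hnt = placeAt K τ hK hnt := by
  have hgτ : g • τ = τ := MulAction.mem_stabilizer_iff.mp hg
  have := smul_placeAt σ g hσ τ hK hnt (by rw [hgτ]; exact hK) (by rw [hgτ]; exact hnt)
  rw [this]
  congr 1

end Galois

end PointPlaces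

end Fermat.Agent.S24.Mer
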