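import Mathlib
import Fermat.Prelude.Thm_UpperHalfPlane_qExpansion_coeff_nat_mul
import Fermat.Agent.S24.MerField

set_option autoImplicit false

noncomputable section

namespace Fermat.Agent.S24.Mer

open UpperHalfPlane Complex Filter Topology Function
open scoped Manifold MatrixGroups

local notation "𝕢" => Periodic.qParam

/-! ## Holomorphic periodic functions bounded at `i∞` -/

/-- Holomorphic functions on `ℍ` which are `h`-periodic and bounded at `i∞`. -/
def BddInf (h : ℝ) : Subalgebra ℂ HolH where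
  carrier := {f | Periodic ((f : ℍ → ℂ) ∘ ofComplex) h ∧ IsBoundedAtImInfty (f : ℍ → ℂ)}
  mul_mem' := by
    rintro f g ⟨hf, hf'⟩ ⟨hg, hg'⟩
    refine ⟨fun z => ?_, hf'.mul hg'⟩
    show (f : ℍ → ℂ) (ofComplex (z + h)) * (g : ℍ → ℂ) (ofComplex (z + h)) = _
    have h1 := hf z
    have h2 := hg z
    simp only [Function.comp_apply] at h1 h2
    rw [h1, h2]; rfl
  one_mem' := ⟨fun _ => rfl, Filter.const_boundedAtFilter _ _⟩
  add_mem' := by
    rintro f g ⟨hf, hf'⟩ ⟨hg, hg'⟩
    refine ⟨fun z => ?_, hf'.add hg'⟩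
    show (f : ℍ → ℂ) (ofComplex (z + h)) + (g : ℍ → ℂ) (ofComplex (z + h)) = _
    have h1 := hf z
    have h2 := hg z
    simp only [Function.comp_apply] at h1 h2
    rw [h1, h2]; rfl
  zero_mem' := ⟨fun _ => rfl, Filter.const_boundedAtFilter _ _⟩
  algebraMap_mem' c := ⟨fun _ => rfl, Filter.const_boundedAtFilter _ _⟩

theorem mem_BddInf {h : ℝ} {f : HolH} :
    f ∈ BddInf h ↔ Periodic ((f : ℍ → ℂ) ∘ ofComplex) h ∧ IsBoundedAtImInfty (f : ℍ → ℂ) :=
  Iff.rfl

variable {h : ℝ}

/-- The underlying function of an element of `BddInf h`. -/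
abbrev bfn (f : BddInf h) : ℍ → ℂ := ((f : HolH) : ℍ → ℂ)

theorem bfn_periodic (f : BddInf h) : Periodic (bfn f ∘ ofComplex) h := f.2.1
theorem bfn_bdd (f : BddInf h) : IsBoundedAtImInfty (bfn f) := f.2.2
theorem bfn_mdiff (f : BddInf h) : MDiff (bfn f) := (f : HolH).2

/-- The cusp function (function of `q = exp (2πiτ/h)`) of an element of `BddInf h`. -/
abbrev bcusp (f : BddInf h) : ℂ → ℂ := cuspFunction h (bfn f)

theorem analyticAt_bcusp (hh : 0 < h) (f : BddInf h) : AnalyticAt ℂ (bcusp f) 0 :=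
  analyticAt_cuspFunction_zero hh (bfn_periodic f) (bfn_mdiff f) (bfn_bdd f)

theorem bcusp_qParam (hh : 0 < h) (f : BddInf h) (τ : ℍ) : bcusp f (𝕢 h τ) = bfn f τ :=
  eq_cuspFunction τ hh.ne' (bfn_periodic f)

theorem bcusp_mul (hh : 0 < h) (f g : BddInf h) : bcusp (f * g) = bcusp f * bcusp g :=
  cuspFunction_mul (analyticAt_bcusp hh f).continuousAt (analyticAt_bcusp hh g).continuousAt

theorem bcusp_add (hh : 0 < h) (f g : BddInf h) : bcusp (f + g) = bcusp f + bcusp g :=
  cuspFunction_add (analyticAt_bcusp hh f).continuousAt (analyticAt_bcusp hh g).continuousAt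

/-- The order of vanishing at `i∞` (in the parameter `q_h`). -/
def ordInf (f : BddInf h) : ℕ∞ := analyticOrderAt (bcusp f) 0

theorem bcusp_zero : bcusp (0 : BddInf h) = 0 := by
  have h1 : bfn (0 : BddInf h) = 0 := rfl
  show cuspFunction h (bfn (0 : BddInf h)) = 0
  rw [h1]
  funext q
  by_cases hq : q = 0
  · subst hq
    simpa [cuspFunction, Periodic.cuspFunction]
      using! (tendsto_const_nhds.mono_left nhdsWithin_le_nhds).limUnder_eq
  · simp [cuspFunction, Periodic.cuspFunction_eq_of_nonzero h _ hq]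

theorem ordInf_eq_top_iff (hh : 0 < h) (f : BddInf h) : ordInf f = ⊤ ↔ f = 0 := by
  constructor
  · intro hf
    have h0 : bcusp f =ᶠ[𝓝 0] 0 := analyticOrderAt_eq_top.mp hf
    have hq : qExpansion h (bfn f) = 0 := by
      ext n
      rw [qExpansion_coeff, map_zero]
      have := h0.iteratedDeriv_eq n
      rw [this]
      simp
    have := (qExpansion_eq_zero_iff hh (bfn_periodic f) (bfn_mdiff f) (bfn_bdd f)).mp hq
    exact Subtype.ext (Subtype.ext this)
  · rintro rfl
    rw [ordInf, bcusp_zero]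
    exact analyticOrderAt_eq_top.mpr (Eventually.of_forall fun _ => rfl)

theorem ordInf_mul (hh : 0 < h) (f g : BddInf h) : ordInf (f * g) = ordInf f + ordInf g := by
  rw [ordInf, bcusp_mul hh]
  exact analyticOrderAt_mul (analyticAt_bcusp hh f) (analyticAt_bcusp hh g)

theorem le_ordInf_add (hh : 0 < h) (f g : BddInf h) :
    min (ordInf f) (ordInf g) ≤ ordInf (f + g) := by
  rw [ordInf, ordInf, ordInf, bcusp_add hh]
  exact le_analyticOrderAt_add

theorem bcusp_zero_eq (hh : 0 < h) (f : BddInf h) : bcusp f 0 = valueAtInfty (bfn f) :=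
  cuspFunction_apply_zero hh (analyticAt_bcusp hh f) (bfn_periodic f)

theorem ordInf_eq_zero_iff (hh : 0 < h) (f : BddInf h) :
    ordInf f = 0 ↔ valueAtInfty (bfn f) ≠ 0 := by
  rw [ordInf, (analyticAt_bcusp hh f).analyticOrderAt_eq_zero, bcusp_zero_eq hh]

theorem ordInf_algebraMap (hh : 0 < h) {c : ℂ} (hc : c ≠ 0) :
    ordInf (algebraMap ℂ (BddInf h) c) = 0 := by
  rw [ordInf_eq_zero_iff hh]
  have : valueAtInfty (bfn (algebraMap ℂ (BddInf h) c)) = c := by
    have h1 : bfn (algebraMap ℂ (BddInf h) c) = fun _ => c := rfl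
    rw [h1]
    exact tendsto_const_nhds.limUnder_eq
  rw [this]; exact hc

/-- The valuation on `BddInf h` given by the order of vanishing at `i∞`. -/
def ordValBdd (hh : 0 < h) :
    @Valuation (BddInf h) (WithZero (Multiplicative ℤ)) _ CommRing.toRing where
  toFun f := toVal (ordInf f)
  map_zero' := by rw [toVal_eq_zero_iff, ordInf_eq_top_iff hh]
  map_one' := by
    have : ordInf (1 : BddInf h) = 0 := by
      have := ordInf_algebraMap (h := h) hh (c := 1) one_ne_zero
      rwa [map_one] at this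
    rw [this, toVal_zero]
  map_mul' f g := by rw [ordInf_mul hh, toVal_add]
  map_add_le_max' f g := by
    rw [← toVal_min]
    exact toVal_anti (le_ordInf_add hh f g)

theorem ordValBdd_apply (hh : 0 < h) (f : BddInf h) : ordValBdd hh f = toVal (ordInf f) := rfl

theorem ordValBdd_eq_zero_iff (hh : 0 < h) (f : BddInf h) : ordValBdd hh f = 0 ↔ f = 0 := by
  rw [ordValBdd_apply, toVal_eq_zero_iff, ordInf_eq_top_iff hh]

theorem ordValBdd_le_one (hh : 0 < h) (f : BddInf h) : ordValBdd hh f ≤ 1 := by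
  rw [ordValBdd_apply, ← toVal_zero]
  exact toVal_anti zero_le

instance : IsDomain (BddInf h) := inferInstance

/-- The field of `h`-periodic meromorphic functions on `ℍ` which are meromorphic at `i∞`
(abstractly: the fraction field of `BddInf h`). -/
abbrev MerInf (h : ℝ) : Type := FractionRing (BddInf h)

theorem nonZeroDivisors_le_supp_primeCompl_bdd (hh : 0 < h) :
    nonZeroDivisors (BddInf h) ≤ (ordValBdd hh).supp.primeCompl := by
  intro f hf hmem
  have hmem' : ordValBdd hh f = 0 := (Valuation.mem_supp_iff _ _).mp hmem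
  rw [ordValBdd_eq_zero_iff] at hmem'
  exact nonZeroDivisors.ne_zero hf hmem'

/-- The valuation at `i∞` on `MerInf h`. -/
def ordValInf (hh : 0 < h) : Valuation (MerInf h) (WithZero (Multiplicative ℤ)) :=
  (ordValBdd hh).extendToLocalization (nonZeroDivisors_le_supp_primeCompl_bdd hh) (MerInf h)

@[simp] theorem ordValInf_algebraMap_bdd (hh : 0 < h) (f : BddInf h) :
    ordValInf hh (algebraMap (BddInf h) (MerInf h) f) = ordValBdd hh f :=
  Valuation.extendToLocalization_apply_map_apply _ _ _ f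

/-- The canonical embedding of `MerInf h` into `MerH`. -/
def merInfToMerH (h : ℝ) : MerInf h →+* MerH :=
  IsFractionRing.lift (A := BddInf h) (K := MerInf h) (L := MerH)
    (g := (ofHol).comp (BddInf h).val.toRingHom)
    (ofHol_injective.comp Subtype.val_injective)

@[simp] theorem merInfToMerH_algebraMap (f : BddInf h) :
    merInfToMerH h (algebraMap (BddInf h) (MerInf h) f) = ofHol (f : HolH) :=
  IsFractionRing.lift_algebraMap _ f

/-- The subfield of `MerH` of `h`-periodic functions meromorphic at `i∞`. -/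
def merInfRange (h : ℝ) : Subfield MerH := (merInfToMerH h).fieldRange

/-- `MerInf h` is isomorphic to its image in `MerH`. -/
def merInfEquiv (h : ℝ) : MerInf h ≃+* merInfRange h := (merInfToMerH h).rangeRestrictFieldEquiv

theorem coe_merInfEquiv (x : MerInf h) : ((merInfEquiv h x : merInfRange h) : MerH) = merInfToMerH h x :=
  rfl

theorem ofHol_mem_merInfRange (f : BddInf h) : ofHol (f : HolH) ∈ merInfRange h :=
  ⟨algebraMap (BddInf h) (MerInf h) f, merInfToMerH_algebraMap f⟩

theorem algebraMap_mem_merInfRange (c : ℂ) : algebraMap ℂ MerH c ∈ merInfRange h := by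
  have := ofHol_mem_merInfRange (algebraMap ℂ (BddInf h) c)
  rwa [show ofHol ((algebraMap ℂ (BddInf h) c : BddInf h) : HolH) = algebraMap ℂ MerH c from
    (IsScalarTower.algebraMap_apply ℂ HolH MerH c).symm] at this

/-- Every element of `merInfRange h` is a quotient of two elements of `BddInf h`. -/
theorem exists_div_of_mem_merInfRange {x : MerH} (hx : x ∈ merInfRange h) :
    ∃ f g : BddInf h, g ≠ 0 ∧ x = ofHol (f : HolH) / ofHol (g : HolH) := by
  obtain ⟨y, rfl⟩ := hx
  obtain ⟨f, g, hg, rfl⟩ := IsFractionRing.div_surjective (A := BddInf h) y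
  exact ⟨f, g, nonZeroDivisors.ne_zero hg, by
    rw [map_div₀, merInfToMerH_algebraMap, merInfToMerH_algebraMap]⟩

/-! ### Comparison with `qExpansion` and change of period -/

/-- The order at `i∞` is the order of the `q`-expansion. -/
theorem ordInf_eq_order_qExpansion (hh : 0 < h) (f : BddInf h) :
    ordInf f = (qExpansion h (bfn f)).order := by
  apply le_antisymm
  · refine PowerSeries.le_order _ _ fun i hi => ?_
    have hi' : ((i + 1 : ℕ) : ℕ∞) ≤ ordInf f := by
      rw [Nat.cast_add, Nat.cast_one]; exact Order.add_one_le_of_lt hi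
    rw [ordInf, natCast_le_analyticOrderAt_iff_iteratedDeriv_eq_zero (analyticAt_bcusp hh f)] at hi'
    rw [qExpansion_coeff, hi' i (Nat.lt_succ_self i), mul_zero]
  · rcases eq_or_ne (ordInf f) ⊤ with htop | hne
    · rw [htop]; exact le_top
    · obtain ⟨n, hn⟩ := ENat.ne_top_iff_exists.mp hne
      rw [← hn]
      by_contra hlt
      rw [not_le] at hlt
      have h1 : ((n + 1 : ℕ) : ℕ∞) ≤ (qExpansion h (bfn f)).order := by
        rw [Nat.cast_add, Nat.cast_one]; exact Order.add_one_le_of_lt hlt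
      have h2 : ((n + 1 : ℕ) : ℕ∞) ≤ ordInf f := by
        rw [ordInf, natCast_le_analyticOrderAt_iff_iteratedDeriv_eq_zero (analyticAt_bcusp hh f)]
        intro i hi
        have hc : (qExpansion h (bfn f)).coeff i = 0 :=
          PowerSeries.coeff_of_lt_order i (lt_of_lt_of_le (by exact_mod_cast hi) h1)
        rw [qExpansion_coeff] at hc
        have hfac : ((i.factorial : ℂ))⁻¹ ≠ 0 := by
          apply inv_ne_zero; exact_mod_cast i.factorial_ne_zero
        exact (mul_eq_zero.mp hc).resolve_left hfac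
      rw [← hn] at h2
      have : (n + 1 : ℕ) ≤ n := by exact_mod_cast h2
      omega

/-- An `h`-periodic function is also `n * h`-periodic. -/
theorem mem_BddInf_nat_mul {n : ℕ} (f : BddInf h) : (f : HolH) ∈ BddInf (n * h) := by
  refine ⟨?_, bfn_bdd f⟩
  have h2 := (bfn_periodic f).nat_mul n
  have h3 : (((n : ℝ) * h : ℝ) : ℂ) = (n : ℂ) * (h : ℂ) := by
    rw [Complex.ofReal_mul, Complex.ofReal_natCast]
  intro z
  have h4 := h2 z
  rw [h3]
  exact h4

/-- The inclusion `BddInf h → BddInf (n * h)`. -/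
def inclBdd (n : ℕ) (f : BddInf h) : BddInf (n * h) := ⟨(f : HolH), mem_BddInf_nat_mul f⟩

@[simp] theorem coe_inclBdd (n : ℕ) (f : BddInf h) : ((inclBdd n f : BddInf (n * h)) : HolH) = f :=
  rfl

/-- Passing from the parameter `q_h` to `q_{nh}` multiplies the order at `i∞` by `n`. -/
theorem ordInf_inclBdd (hh : 0 < h) {n : ℕ} (hn : 0 < n) (f : BddInf h) :
    ordInf (inclBdd n f) = n * ordInf f := by
  have hnh : 0 < (n : ℝ) * h := mul_pos (by exact_mod_cast hn) hh
  rw [ordInf_eq_order_qExpansion hnh, ordInf_eq_order_qExpansion hh]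
  have hcoeff : ∀ m : ℕ, (qExpansion ((n : ℝ) * h) (bfn f)).coeff m
      = if n ∣ m then (qExpansion h (bfn f)).coeff (m / n) else 0 := fun m =>
    UpperHalfPlane.qExpansion_coeff_nat_mul hh (bfn_periodic f) (bfn_mdiff f) (bfn_bdd f) hn m
  show (qExpansion ((n : ℝ) * h) (bfn f)).order = _
  apply le_antisymm
  · rcases eq_or_ne ((qExpansion h (bfn f)).order) ⊤ with htop | hne
    · rw [htop, ENat.mul_top (by exact_mod_cast hn.ne')]; exact le_top
    · obtain ⟨d, hd⟩ := ENat.ne_top_iff_exists.mp hne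
      rw [← hd, ← Nat.cast_mul]
      apply PowerSeries.order_le
      rw [hcoeff, if_pos (dvd_mul_right n d), Nat.mul_div_cancel_left d hn]
      have hord : (qExpansion h (bfn f)).order = d := hd.symm
      have hne0 : qExpansion h (bfn f) ≠ 0 := by
        intro h0
        rw [h0, PowerSeries.order_zero] at hne
        exact hne rfl
      have h2 := PowerSeries.coeff_order hne0
      rwa [hord, ENat.toNat_natCast] at h2
  · refine PowerSeries.le_order _ _ fun i hi => ?_
    rw [hcoeff]
    split_ifs with hdvd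
    · obtain ⟨e, rfl⟩ := hdvd
      rw [Nat.mul_div_cancel_left e hn]
      apply PowerSeries.coeff_of_lt_order
      by_contra hle
      rw [not_lt] at hle
      have : (n : ℕ∞) * (qExpansion h (bfn f)).order ≤ n * e := by gcongr
      have h3 := lt_of_lt_of_le hi this
      rw [Nat.cast_mul] at h3
      exact lt_irrefl _ h3
    · rfl

/-! ### Translations `τ ↦ τ + k` preserve the order at `i∞` -/

theorem T_zpow_smul_hol_apply (k : ℤ) (f : HolH) (τ : ℍ) :
    ((ModularGroup.T ^ k • f : HolH) : ℍ → ℂ) τ = (f : ℍ → ℂ) (((-k : ℤ) : ℝ) +ᵥ τ) := by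
  rw [smul_hol_apply, ← zpow_neg, UpperHalfPlane.modular_T_zpow_smul]

theorem ofComplex_add_real_of_im_pos {z : ℂ} (hz : 0 < z.im) (r : ℝ) :
    ofComplex (z + r) = r +ᵥ ofComplex z := by
  have hz' : 0 < (z + r).im := by simpa using hz
  rw [ofComplex_apply_of_im_pos hz', ofComplex_apply_of_im_pos hz]
  ext
  simp [UpperHalfPlane.coe_vadd, add_comm]

theorem T_zpow_smul_mem_BddInf (k : ℤ) (f : BddInf h) :
    (ModularGroup.T ^ k • (f : HolH) : HolH) ∈ BddInf h := by
  refine ⟨fun z => ?_, ?_⟩
  · simp only [Function.comp_apply, T_zpow_smul_hol_apply]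
    by_cases hz : 0 < z.im
    · have h1 := bfn_periodic f (z + ((-k : ℤ) : ℝ))
      simp only [Function.comp_apply] at h1
      have hzh : 0 < (z + h).im := by simpa using hz
      rw [← ofComplex_add_real_of_im_pos hzh, ← ofComplex_add_real_of_im_pos hz,
        add_right_comm]
      exact h1
    · have hz' : (z + h).im ≤ 0 := by simpa using not_lt.mp hz
      rw [ofComplex_apply_of_im_nonpos hz', ofComplex_apply_of_im_nonpos (not_lt.mp hz)]
  · have hb := bfn_bdd f
    have ht : Tendsto (fun τ : ℍ => ((-k : ℤ) : ℝ) +ᵥ τ) atImInfty atImInfty := by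
      rw [atImInfty, tendsto_comap_iff]
      have : (UpperHalfPlane.im ∘ fun τ : ℍ => ((-k : ℤ) : ℝ) +ᵥ τ) = UpperHalfPlane.im := by
        funext τ; simp [UpperHalfPlane.vadd_im]
      rw [this]
      exact tendsto_comap
    have := hb.comp_tendsto ht
    refine this.congr' (Eventually.of_forall fun τ => ?_) (Eventually.of_forall fun _ => rfl)
    simp only [Function.comp_apply]
    exact (T_zpow_smul_hol_apply k f τ).symm

/-- Translation by `k` on `BddInf h`. -/
def translateBdd (k : ℤ) (f : BddInf h) : BddInf h :=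
  ⟨ModularGroup.T ^ k • (f : HolH), T_zpow_smul_mem_BddInf k f⟩

@[simp] theorem coe_translateBdd (k : ℤ) (f : BddInf h) :
    ((translateBdd k f : BddInf h) : HolH) = ModularGroup.T ^ k • (f : HolH) := rfl

theorem translateBdd_ne_zero (k : ℤ) {f : BddInf h} (hf : f ≠ 0) : translateBdd k f ≠ 0 := by
  intro h0
  apply hf
  have h1 : (ModularGroup.T ^ k • (f : HolH) : HolH) = 0 := congrArg Subtype.val h0
  have h2 : (f : HolH) = 0 := by
    have := congrArg (fun x : HolH => (ModularGroup.T ^ k)⁻¹ • x) h1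
    simpa using this
  exact Subtype.ext h2

theorem qParam_vadd (hh : 0 < h) (k : ℤ) (τ : ℍ) :
    𝕢 h ((((-k : ℤ) : ℝ) +ᵥ τ : ℍ) : ℂ) = 𝕢 h τ * Complex.exp (-(2 * Real.pi * Complex.I * k / h)) := by
  rw [UpperHalfPlane.coe_vadd, Periodic.qParam, Periodic.qParam, ← Complex.exp_add]
  congr 1
  have hh' : (h : ℂ) ≠ 0 := by exact_mod_cast hh.ne'
  field_simp
  push_cast
  ring

theorem bcusp_translateBdd_eventuallyEq (hh : 0 < h) (k : ℤ) (f : BddInf h) :
    bcusp (translateBdd k f) =ᶠ[𝓝 0]
      (bcusp f) ∘ (fun q => q * Complex.exp (-(2 * Real.pi * Complex.I * k / h))) := by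
  set c : ℂ := Complex.exp (-(2 * Real.pi * Complex.I * k / h)) with hc
  have hc0 : c ≠ 0 := Complex.exp_ne_zero _
  -- equality on the punctured unit disc
  have hpunct : ∀ q : ℂ, q ≠ 0 → ‖q‖ < 1 →
      bcusp (translateBdd k f) q = bcusp f (q * c) := by
    intro q hq0 hq1
    have him : 0 < (Periodic.invQParam h q).im :=
      Periodic.im_invQParam_pos_of_norm_lt_one hh hq1 hq0
    set τ : ℍ := ⟨Periodic.invQParam h q, him⟩ with hτ
    have hqτ : 𝕢 h τ = q := Periodic.qParam_right_inv hh.ne' hq0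
    rw [← hqτ, bcusp_qParam hh, ← qParam_vadd hh, bcusp_qParam hh]
    exact T_zpow_smul_hol_apply k f τ
  have hball : ∀ᶠ q in 𝓝 (0 : ℂ), ‖q‖ < 1 := by
    have : Metric.ball (0 : ℂ) 1 ∈ 𝓝 (0 : ℂ) := Metric.ball_mem_nhds 0 one_pos
    filter_upwards [this] with q hq
    simpa using hq
  -- both sides are continuous at 0, and agree on the punctured neighbourhood
  have hcontL : ContinuousAt (bcusp (translateBdd k f)) 0 :=
    (analyticAt_bcusp hh (translateBdd k f)).continuousAt
  have hcontR : ContinuousAt ((bcusp f) ∘ (fun q => q * c)) 0 := by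
    have h1 : ContinuousAt (fun q : ℂ => q * c) 0 := by fun_prop
    exact (analyticAt_bcusp hh f).continuousAt.comp_of_eq h1 (by simp)
  have hev : ∀ᶠ q in 𝓝[≠] (0 : ℂ), bcusp (translateBdd k f) q = ((bcusp f) ∘ (fun q => q * c)) q := by
    have h1 : ∀ᶠ q in 𝓝[≠] (0 : ℂ), ‖q‖ < 1 := hball.filter_mono nhdsWithin_le_nhds
    filter_upwards [h1, self_mem_nhdsWithin] with q hq1 hq0
    exact hpunct q hq0 hq1
  have h0 : bcusp (translateBdd k f) 0 = ((bcusp f) ∘ (fun q => q * c)) 0 := by
    have hL := hcontL.tendsto.mono_left (nhdsWithin_le_nhds (s := {0}ᶜ))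
    have hR := hcontR.tendsto.mono_left (nhdsWithin_le_nhds (s := {0}ᶜ))
    exact tendsto_nhds_unique (hL.congr' hev) hR
  rw [eventually_nhdsWithin_iff] at hev
  filter_upwards [hev] with q hq
  by_cases hq0 : q = 0
  · rw [hq0]; exact h0
  · exact hq hq0

theorem ordInf_translateBdd (hh : 0 < h) (k : ℤ) (f : BddInf h) :
    ordInf (translateBdd k f) = ordInf f := by
  rw [ordInf, analyticOrderAt_congr (bcusp_translateBdd_eventuallyEq hh k f)]
  have hg : AnalyticAt ℂ (fun q : ℂ => q * Complex.exp (-(2 * Real.pi * Complex.I * k / h))) 0 := by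
    fun_prop
  have hg' : deriv (fun q : ℂ => q * Complex.exp (-(2 * Real.pi * Complex.I * k / h))) 0 ≠ 0 := by
    rw [deriv_mul_const_field, deriv_id'', one_mul]
    exact Complex.exp_ne_zero _
  rw [analyticOrderAt_comp_of_deriv_ne_zero hg hg']
  simp [ordInf]

theorem ordValBdd_translateBdd (hh : 0 < h) (k : ℤ) (f : BddInf h) :
    ordValBdd hh (translateBdd k f) = ordValBdd hh f := by
  rw [ordValBdd_apply, ordValBdd_apply, ordInf_translateBdd hh]

section OnField

variable {K L : Type*} [Field K] [Field L] [Algebra K L] [Algebra L MerH]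

variable (L) in
/-- A field `L` all of whose elements are `h`-periodic and meromorphic at `i∞` maps to `MerInf h`. -/
def liftInf (h : ℝ) (hL : ∀ x : L, algebraMap L MerH x ∈ merInfRange h) : L →+* MerInf h :=
  ((merInfEquiv h).symm : merInfRange h →+* MerInf h).comp
    ((algebraMap L MerH).codRestrict (merInfRange h) hL)

theorem merInfToMerH_liftInf (hL : ∀ x : L, algebraMap L MerH x ∈ merInfRange h) (x : L) :
    merInfToMerH h (liftInf L h hL x) = algebraMap L MerH x := by
  have h1 : merInfEquiv h (liftInf L h hL x) = ⟨algebraMap L MerH x, hL x⟩ := by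
    simp only [liftInf, RingHom.coe_comp, RingHom.coe_coe, Function.comp_apply,
      RingEquiv.apply_symm_apply]
    rfl
  have h2 := congrArg (fun y : merInfRange h => (y : MerH)) h1
  simpa [coe_merInfEquiv] using h2

variable (L) in
/-- The valuation at `i∞` on such a field `L`. -/
def ordValInfOn (hh : 0 < h) (hL : ∀ x : L, algebraMap L MerH x ∈ merInfRange h) :
    Valuation L (WithZero (Multiplicative ℤ)) :=
  (ordValInf hh).comap (liftInf L h hL)

theorem ordValInfOn_eq_div (hh : 0 < h) (hL : ∀ x : L, algebraMap L MerH x ∈ merInfRange h)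
    {x : L} {f g : BddInf h}
    (hx : algebraMap L MerH x = ofHol (f : HolH) / ofHol (g : HolH)) :
    ordValInfOn L hh hL x = ordValBdd hh f / ordValBdd hh g := by
  have h1 : liftInf L h hL x
      = algebraMap (BddInf h) (MerInf h) f / algebraMap (BddInf h) (MerInf h) g := by
    apply (merInfToMerH h).injective
    rw [merInfToMerH_liftInf, hx, map_div₀, merInfToMerH_algebraMap, merInfToMerH_algebraMap]
  show ordValInf hh (liftInf L h hL x) = _
  rw [h1, map_div₀, ordValInf_algebraMap_bdd, ordValInf_algebraMap_bdd]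

theorem ordValInfOn_eq_of_eq_ofHol (hh : 0 < h)
    (hL : ∀ x : L, algebraMap L MerH x ∈ merInfRange h)
    {x : L} {f : BddInf h} (hx : algebraMap L MerH x = ofHol (f : HolH)) :
    ordValInfOn L hh hL x = ordValBdd hh f := by
  have := ordValInfOn_eq_div (L := L) hh hL (x := x) (f := f) (g := 1)
    (by rw [hx]; simp)
  rw [this, map_one, div_one]

theorem ordValInfOn_le_one_of_eq_ofHol (hh : 0 < h)
    (hL : ∀ x : L, algebraMap L MerH x ∈ merInfRange h)
    {x : L} {f : BddInf h} (hx : algebraMap L MerH x = ofHol (f : HolH)) :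
    ordValInfOn L hh hL x ≤ 1 := by
  rw [ordValInfOn_eq_of_eq_ofHol hh hL hx]; exact ordValBdd_le_one hh f

theorem ordValInfOn_le_one_of_eq_const (hh : 0 < h)
    (hL : ∀ x : L, algebraMap L MerH x ∈ merInfRange h)
    {x : L} {c : ℂ} (hx : algebraMap L MerH x = algebraMap ℂ MerH c) :
    ordValInfOn L hh hL x ≤ 1 := by
  apply ordValInfOn_le_one_of_eq_ofHol hh hL (f := algebraMap ℂ (BddInf h) c)
  rw [hx]
  exact IsScalarTower.algebraMap_apply ℂ HolH MerH c

open AlgebraicCurve

variable (K) in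
/-- The place of `L/K` at the cusp `i∞`. -/
def placeAtInf (hh : 0 < h) (hL : ∀ x : L, algebraMap L MerH x ∈ merInfRange h)
    (hK : ∀ a : K, ordValInfOn L hh hL (algebraMap K L a) ≤ 1)
    (hnt : ∃ x : L, ordValInfOn L hh hL x ≠ 0 ∧ ordValInfOn L hh hL x ≠ 1) : Place K L :=
  placeOfValuation (ordValInfOn L hh hL) hK hnt

theorem mem_placeAtInf_iff (hh : 0 < h) (hL : ∀ x : L, algebraMap L MerH x ∈ merInfRange h)
    (hK : ∀ a : K, ordValInfOn L hh hL (algebraMap K L a) ≤ 1)
    (hnt : ∃ x : L, ordValInfOn L hh hL x ≠ 0 ∧ ordValInfOn L hh hL x ≠ 1) (x : L) :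
    x ∈ (placeAtInf K hh hL hK hnt).toValuationSubring ↔ ordValInfOn L hh hL x ≤ 1 :=
  Valuation.mem_valuationSubring_iff _ _

/-- If `x = f / g` with `f, g ∈ BddInf h`, `f ≠ 0` and `g` nonvanishing at `i∞`, then the order of
`x` at the cusp place is at most the order of vanishing of `f` at `i∞` (in the parameter `q_h`). -/
theorem ord_placeAtInf_le (hh : 0 < h) (hL : ∀ x : L, algebraMap L MerH x ∈ merInfRange h)
    (hK : ∀ a : K, ordValInfOn L hh hL (algebraMap K L a) ≤ 1)
    (hnt : ∃ x : L, ordValInfOn L hh hL x ≠ 0 ∧ ordValInfOn L hh hL x ≠ 1)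
    {x : L} {f g : BddInf h} (hf : f ≠ 0) (hg : ordInf g = 0)
    (hx : algebraMap L MerH x = ofHol (f : HolH) / ofHol (g : HolH)) :
    (placeAtInf K hh hL hK hnt).ord x ≤ ((ordInf f).toNat : ℤ) := by
  have hval : ordValInfOn L hh hL x = ordValBdd hh f := by
    rw [ordValInfOn_eq_div hh hL hx, ordValBdd_apply hh g, hg, toVal_zero, div_one]
  have hg0 : g ≠ 0 := by
    rintro rfl
    rw [(ordInf_eq_top_iff hh 0).mpr rfl] at hg
    exact absurd hg (by simp)
  have hx0 : x ≠ 0 := by
    rintro rfl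
    rw [map_zero] at hx
    have h1 : ofHol (f : HolH) = 0 := by
      have hgne : ofHol (g : HolH) ≠ 0 := by
        intro h0
        exact hg0 (Subtype.ext (ofHol_injective (h0.trans (map_zero ofHol).symm)))
      have := hx.symm
      rwa [div_eq_zero_iff, or_iff_left hgne] at this
    exact hf (Subtype.ext (ofHol_injective (h1.trans (map_zero ofHol).symm)))
  have hle : ordValInfOn L hh hL x ≤ 1 := by rw [hval]; exact ordValBdd_le_one hh f
  have := ord_placeOfValuation_le (K := K) (ordValInfOn L hh hL) hK hnt hx0 hle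
  refine this.trans (le_of_eq ?_)
  rw [hval, ordValBdd_apply]
  have hne : ordInf f ≠ ⊤ := by rw [Ne, ordInf_eq_top_iff hh]; exact hf
  obtain ⟨n, hn⟩ := ENat.ne_top_iff_exists.mp hne
  rw [← hn, toVal_coe, WithZero.log_exp]
  simp

/-- Under the same hypotheses, `x` has positive order at the cusp place iff `f` vanishes at `i∞`. -/
theorem ord_placeAtInf_pos_iff (hh : 0 < h) (hL : ∀ x : L, algebraMap L MerH x ∈ merInfRange h)
    (hK : ∀ a : K, ordValInfOn L hh hL (algebraMap K L a) ≤ 1)
    (hnt : ∃ x : L, ordValInfOn L hh hL x ≠ 0 ∧ ordValInfOn L hh hL x ≠ 1)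
    {x : L} (hx0 : x ≠ 0) {f g : BddInf h} (hg : ordInf g = 0)
    (hx : algebraMap L MerH x = ofHol (f : HolH) / ofHol (g : HolH)) :
    0 < (placeAtInf K hh hL hK hnt).ord x ↔ ordInf f ≠ 0 := by
  have hval : ordValInfOn L hh hL x = ordValBdd hh f := by
    rw [ordValInfOn_eq_div hh hL hx, ordValBdd_apply hh g, hg, toVal_zero, div_one]
  rw [placeAtInf, ord_placeOfValuation_pos_iff (K := K) (ordValInfOn L hh hL) hK hnt hx0, hval,
    ordValBdd_apply]
  constructor
  · intro hlt h0
    rw [h0, toVal_zero] at hlt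
    exact lt_irrefl _ hlt
  · intro hne
    rcases lt_or_eq_of_le (ordValBdd_le_one hh f) with hlt | heq
    · exact hlt
    · exfalso
      apply hne
      rw [ordValBdd_apply] at heq
      induction hv : ordInf f using ENat.recTopCoe with
      | top => rw [hv] at heq; simp at heq
      | coe n =>
        rw [hv, toVal_coe, WithZero.exp_eq_one] at heq
        have : n = 0 := by omega
        simp [this]

section GaloisInf

open scoped Pointwise

/-- If `σ` is induced by the translation `T ^ k`, it preserves the valuation at `i∞`. -/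
theorem ordValInfOn_apply_of_T_zpow (hh : 0 < h)
    (hL : ∀ x : L, algebraMap L MerH x ∈ merInfRange h) (σ : L ≃ₐ[K] L) (k : ℤ)
    (hσ : ∀ x : L, algebraMap L MerH (σ x) = ModularGroup.T ^ k • algebraMap L MerH x) (x : L) :
    ordValInfOn L hh hL (σ x) = ordValInfOn L hh hL x := by
  obtain ⟨f, g, -, hfg⟩ := exists_div_of_mem_merInfRange (hL x)
  have h1 : algebraMap L MerH (σ x)
      = ofHol ((translateBdd k f : BddInf h) : HolH) / ofHol ((translateBdd k g : BddInf h) : HolH) := by
    rw [hσ, hfg, smul_div₀', smul_ofHol, smul_ofHol]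
    rfl
  rw [ordValInfOn_eq_div hh hL h1, ordValInfOn_eq_div hh hL hfg, ordValBdd_translateBdd,
    ordValBdd_translateBdd]

/-- Hence such a `σ` fixes the place at `i∞`: the decomposition group of the cusp place contains
the image of `⟨T⟩`. -/
theorem smul_placeAtInf_of_T_zpow (hh : 0 < h)
    (hL : ∀ x : L, algebraMap L MerH x ∈ merInfRange h)
    (hK : ∀ a : K, ordValInfOn L hh hL (algebraMap K L a) ≤ 1)
    (hnt : ∃ x : L, ordValInfOn L hh hL x ≠ 0 ∧ ordValInfOn L hh hL x ≠ 1)
    (σ : L ≃ₐ[K] L) (k : ℤ)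
    (hσ : ∀ x : L, algebraMap L MerH (σ x) = ModularGroup.T ^ k • algebraMap L MerH x) :
    σ • placeAtInf K hh hL hK hnt = placeAtInf K hh hL hK hnt := by
  apply Place.ext
  rw [Place.smul_toValuationSubring]
  ext y
  rw [ValuationSubring.mem_pointwise_smul_iff_inv_smul_mem, mem_placeAtInf_iff, mem_placeAtInf_iff]
  have h3 : σ (σ⁻¹ • y) = y := by
    show σ (σ.symm y) = y
    exact σ.apply_symm_apply y
  have := ordValInfOn_apply_of_T_zpow hh hL σ k hσ (σ⁻¹ • y)
  rw [h3] at this
  rw [this]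

end GaloisInf

end OnField

end Fermat.Agent.S24.Mer
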