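import Mathlib

/-!
# The projective line over a commutative ring, as a model of `SL(2,ℤ) ⧸ Γ₀(N)`

`P1 R` is the set of unimodular column vectors `(a, c) : R × R` (`IsCoprime a c`) modulo the
relation `a * c' = c * a'` (which, for unimodular vectors, is proportionality by a unit).
-/

set_option autoImplicit false

namespace Fermat.Agent.S24.P1Count

open Matrix MatrixGroups

section Model

variable (R : Type*) [CommRing R]

/-- Unimodular column vectors. -/
def Unimod : Type _ := {v : R × R // IsCoprime v.1 v.2}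

variable {R}

/-- Proportionality of unimodular vectors. -/
def Unimod.Rel (v w : Unimod R) : Prop := v.1.1 * w.1.2 = v.1.2 * w.1.1

theorem Unimod.rel_refl (v : Unimod R) : Unimod.Rel v v := mul_comm _ _

theorem Unimod.rel_symm {v w : Unimod R} (h : Unimod.Rel v w) : Unimod.Rel w v := by
  unfold Unimod.Rel at *
  rw [mul_comm, ← h, mul_comm]

theorem Unimod.rel_trans {u v w : Unimod R} (h1 : Unimod.Rel u v) (h2 : Unimod.Rel v w) :
    Unimod.Rel u w := by
  unfold Unimod.Rel at *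
  obtain ⟨x, y, hxy⟩ := v.2
  have : u.1.1 * w.1.2 * (x * v.1.1 + y * v.1.2) = u.1.2 * w.1.1 * (x * v.1.1 + y * v.1.2) := by
    linear_combination (y * w.1.2) * h1 + (x * u.1.1) * h2
      + (x * w.1.1) * h1 + (y * u.1.2) * h2
  rwa [hxy, mul_one, mul_one] at this

variable (R) in
/-- The setoid of proportionality. -/
def Unimod.setoid : Setoid (Unimod R) :=
  ⟨Unimod.Rel, Unimod.rel_refl, Unimod.rel_symm, Unimod.rel_trans⟩

variable (R) in
/-- The projective line over `R`. -/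
def P1 : Type _ := Quotient (Unimod.setoid R)

/-- The point `(a : c)`. -/
def P1.mk (a c : R) (h : IsCoprime a c) : P1 R := Quotient.mk (Unimod.setoid R) ⟨(a, c), h⟩

theorem P1.mk_eq_mk {a c a' c' : R} (h : IsCoprime a c) (h' : IsCoprime a' c') :
    P1.mk a c h = P1.mk a' c' h' ↔ a * c' = c * a' :=
  ⟨fun e => Quotient.exact (s := Unimod.setoid R) e, fun e => Quotient.sound (s := Unimod.setoid R) e⟩

theorem P1.ind {motive : P1 R → Prop} (h : ∀ a c (hac : IsCoprime a c), motive (P1.mk a c hac))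
    (x : P1 R) : motive x := by
  induction x using Quotient.inductionOn with
  | h v => exact h v.1.1 v.1.2 v.2

/-- Proportional unimodular vectors differ by a unit. -/
theorem exists_unit_of_rel {a c a' c' : R} (h : IsCoprime a c) (h' : IsCoprime a' c')
    (e : a * c' = c * a') : ∃ u : Rˣ, a' = u * a ∧ c' = u * c := by
  obtain ⟨x, y, hxy⟩ := h
  obtain ⟨x', y', hxy'⟩ := h'
  have h1 : (x * a' + y * c') * a = a' := by linear_combination y * e + a' * hxy
  have h2 : (x * a' + y * c') * c = c' := by linear_combination (-x) * e + c' * hxy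
  have hu : (x * a' + y * c') * (x' * a + y' * c) = 1 := by
    linear_combination x' * h1 + y' * h2 + hxy'
  refine ⟨⟨x * a' + y * c', x' * a + y' * c, hu, by rw [mul_comm]; exact hu⟩, h1.symm, h2.symm⟩

end Model

section Action

variable {R : Type*} [CommRing R]

theorem det_cast (g : SL(2, ℤ)) :
    ((g 0 0 : ℤ) : R) * ((g 1 1 : ℤ) : R) - ((g 0 1 : ℤ) : R) * ((g 1 0 : ℤ) : R) = 1 := by
  have h : (g 0 0 : ℤ) * g 1 1 - g 0 1 * g 1 0 = 1 := by
    have := g.det_coe
    rwa [Matrix.det_fin_two] at this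
  have := congrArg (Int.cast : ℤ → R) h
  push_cast at this
  exact this

theorem isCoprime_smul (g : SL(2, ℤ)) {a c : R} (h : IsCoprime a c) :
    IsCoprime (((g 0 0 : ℤ) : R) * a + ((g 0 1 : ℤ) : R) * c)
      (((g 1 0 : ℤ) : R) * a + ((g 1 1 : ℤ) : R) * c) := by
  obtain ⟨x, y, hxy⟩ := h
  refine ⟨x * ((g 1 1 : ℤ) : R) - y * ((g 1 0 : ℤ) : R),
    -x * ((g 0 1 : ℤ) : R) + y * ((g 0 0 : ℤ) : R), ?_⟩
  have hd := det_cast (R := R) g
  linear_combination (x * a + y * c) * hd + hxy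

/-- The action of `SL(2,ℤ)` on unimodular column vectors over any commutative ring. -/
def Unimod.smul (g : SL(2, ℤ)) (v : Unimod R) : Unimod R :=
  ⟨(((g 0 0 : ℤ) : R) * v.1.1 + ((g 0 1 : ℤ) : R) * v.1.2,
    ((g 1 0 : ℤ) : R) * v.1.1 + ((g 1 1 : ℤ) : R) * v.1.2), isCoprime_smul g v.2⟩

theorem Unimod.smul_rel (g : SL(2, ℤ)) {v w : Unimod R} (h : Unimod.Rel v w) :
    Unimod.Rel (Unimod.smul g v) (Unimod.smul g w) := by
  unfold Unimod.Rel at *
  have hd := det_cast (R := R) g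
  simp only [Unimod.smul]
  linear_combination (((g 0 0 : ℤ) : R) * ((g 1 1 : ℤ) : R) - ((g 0 1 : ℤ) : R) * ((g 1 0 : ℤ) : R)) * h

/-- The action of `SL(2,ℤ)` on `P1 R`. -/
def P1.smul (g : SL(2, ℤ)) : P1 R → P1 R :=
  Quotient.map (sa := Unimod.setoid R) (sb := Unimod.setoid R) (Unimod.smul g)
    (fun _ _ h => Unimod.smul_rel g h)

theorem P1.smul_mk (g : SL(2, ℤ)) (a c : R) (h : IsCoprime a c) :
    P1.smul g (P1.mk a c h) =
      P1.mk (((g 0 0 : ℤ) : R) * a + ((g 0 1 : ℤ) : R) * c)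
        (((g 1 0 : ℤ) : R) * a + ((g 1 1 : ℤ) : R) * c) (isCoprime_smul g h) := rfl

theorem P1.one_smul' (x : P1 R) : P1.smul 1 x = x := by
  induction x using P1.ind with
  | h a c hac =>
    refine (P1.mk_eq_mk _ _).2 ?_
    simp only [Matrix.SpecialLinearGroup.coe_one, Matrix.one_apply_eq, Int.cast_one, one_mul,
      ne_eq, zero_ne_one, not_false_eq_true, Matrix.one_apply_ne, Int.cast_zero, zero_mul,
      add_zero, one_ne_zero, zero_add]
    ring

theorem P1.mul_smul' (g h : SL(2, ℤ)) (x : P1 R) :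
    P1.smul (g * h) x = P1.smul g (P1.smul h x) := by
  induction x using P1.ind with
  | h a c hac =>
    refine (P1.mk_eq_mk _ _).2 ?_
    simp only [Unimod.smul, Matrix.SpecialLinearGroup.coe_mul, Matrix.mul_apply, Fin.sum_univ_two]
    push_cast
    ring

instance : MulAction SL(2, ℤ) (P1 R) where
  smul := P1.smul
  one_smul := P1.one_smul'
  mul_smul := P1.mul_smul'

theorem P1.smul_def (g : SL(2, ℤ)) (a c : R) (h : IsCoprime a c) :
    g • (P1.mk a c h) =
      P1.mk (((g 0 0 : ℤ) : R) * a + ((g 0 1 : ℤ) : R) * c)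
        (((g 1 0 : ℤ) : R) * a + ((g 1 1 : ℤ) : R) * c) (isCoprime_smul g h) := rfl

end Action

section Lift

theorem exists_coprime_add_mul (A C N : ℕ) (hA : A ≠ 0) (h : Nat.gcd (Nat.gcd A C) N = 1) :
    ∃ k : ℕ, (C + k * N).Coprime A := by
  let ps : Finset ℕ := {p ∈ A.primeFactors | ¬p ∣ C}
  use ps.prod id
  apply Nat.coprime_of_dvd
  intro p pp hp hpA
  by_cases hpC : p ∣ C
  · have h1 := (Nat.dvd_add_right hpC).mp hp
    rcases pp.dvd_mul.mp h1 with h2 | h2
    · have ⟨q, hq, hq'⟩ := (pp.prime.dvd_finsetProd_iff id).mp h2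
      rw [Finset.mem_filter, Nat.mem_primeFactors,
        ← (Nat.prime_dvd_prime_iff_eq pp hq.1.1).mp hq'] at hq
      exact hq.2 hpC
    · have : p ∣ 1 := h ▸ Nat.dvd_gcd (Nat.dvd_gcd hpA hpC) h2
      exact pp.one_lt.ne' (Nat.dvd_one.mp this)
  · have pps : p ∈ ps := Finset.mem_filter.mpr ⟨Nat.mem_primeFactors.mpr ⟨pp, hpA, hA⟩, hpC⟩
    have h1 : p ∣ ps.prod id * N := (Finset.dvd_prod_of_mem id pps).mul_right N
    exact hpC ((Nat.dvd_add_left h1).mp hp)

theorem gcd_val_eq_one (N : ℕ) [NeZero N] (a c : ZMod N) (h : IsCoprime a c) :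
    Nat.gcd (Nat.gcd a.val c.val) N = 1 := by
  obtain ⟨x, y, hxy⟩ := h
  have h1 : ((x.val * a.val + y.val * c.val : ℕ) : ZMod N) = ((1 : ℕ) : ZMod N) := by
    push_cast
    simp only [ZMod.natCast_zmod_val]
    exact hxy
  rw [ZMod.natCast_eq_natCast_iff] at h1
  apply Nat.eq_one_of_dvd_one
  have hd : Nat.gcd (Nat.gcd a.val c.val) N ∣ N := Nat.gcd_dvd_right _ _
  rw [← Nat.ModEq.dvd_iff h1 hd]
  have ha : Nat.gcd (Nat.gcd a.val c.val) N ∣ a.val :=
    (Nat.gcd_dvd_left _ _).trans (Nat.gcd_dvd_left _ _)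
  have hc : Nat.gcd (Nat.gcd a.val c.val) N ∣ c.val :=
    (Nat.gcd_dvd_left _ _).trans (Nat.gcd_dvd_right _ _)
  exact Dvd.dvd.add (ha.mul_left _) (hc.mul_left _)

theorem exists_lift (N : ℕ) [NeZero N] (a c : ZMod N) (h : IsCoprime a c) :
    ∃ a' c' : ℤ, IsCoprime a' c' ∧ (a' : ZMod N) = a ∧ (c' : ZMod N) = c := by
  have hg := gcd_val_eq_one N a c h
  -- a nonzero representative of `a`
  obtain ⟨A, hA0, hAa, hAg⟩ : ∃ A : ℕ, A ≠ 0 ∧ (A : ZMod N) = a ∧
      Nat.gcd (Nat.gcd A c.val) N = 1 := by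
    by_cases ha : a.val = 0
    · refine ⟨N, NeZero.ne N, ?_, ?_⟩
      · rw [ZMod.natCast_self, (ZMod.val_eq_zero a).mp ha]
      · rw [ha, Nat.gcd_zero_left] at hg
        rw [Nat.gcd_comm N, Nat.gcd_assoc, Nat.gcd_self]
        exact hg
    · exact ⟨a.val, ha, ZMod.natCast_zmod_val a, hg⟩
  obtain ⟨k, hk⟩ := exists_coprime_add_mul A c.val N hA0 hAg
  refine ⟨(A : ℤ), ((c.val + k * N : ℕ) : ℤ), ?_, ?_, ?_⟩
  · exact Nat.isCoprime_iff_coprime.mpr hk.symm
  · simpa using hAa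
  · push_cast
    simp

end Lift

section Coset

open CongruenceSubgroup

/-- The base point `(1 : 0)`. -/
def P1.base (R : Type*) [CommRing R] : P1 R := P1.mk 1 0 isCoprime_one_left

theorem P1.smul_base_eq_base_iff (N : ℕ) (g : SL(2, ℤ)) :
    g • P1.base (ZMod N) = P1.base (ZMod N) ↔ g ∈ Gamma0 N := by
  rw [Gamma0_mem]
  unfold P1.base
  rw [P1.smul_def, P1.mk_eq_mk]
  simp only [mul_one, mul_zero, add_zero]
  exact eq_comm

theorem P1.smul_base_eq_iff (N : ℕ) (g h : SL(2, ℤ)) :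
    g • P1.base (ZMod N) = h • P1.base (ZMod N) ↔ g⁻¹ * h ∈ Gamma0 N := by
  rw [← P1.smul_base_eq_base_iff, mul_smul, eq_comm, inv_smul_eq_iff]

theorem P1.exists_smul_base_eq (N : ℕ) [NeZero N] (x : P1 (ZMod N)) :
    ∃ g : SL(2, ℤ), g • P1.base (ZMod N) = x := by
  induction x using P1.ind with
  | h a c hac =>
    obtain ⟨a', c', hcop, ha, hc⟩ := exists_lift N a c hac
    obtain ⟨g, hg0, hg1⟩ := hcop.exists_SL2_col 0
    refine ⟨g, ?_⟩
    unfold P1.base
    rw [P1.smul_def, P1.mk_eq_mk]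
    simp only [mul_one, mul_zero, add_zero]
    rw [hg0, hg1, ha, hc, mul_comm]

/-- The `SL(2,ℤ)`-equivariant bijection `SL(2,ℤ) ⧸ Γ₀(N) ≃ P¹(ℤ/N)`, `g Γ₀(N) ↦ g • (1 : 0)`. -/
noncomputable def cosetEquiv (N : ℕ) [NeZero N] : SL(2, ℤ) ⧸ Gamma0 N ≃ P1 (ZMod N) :=
  Equiv.ofBijective
    (Quotient.lift (s := QuotientGroup.leftRel (Gamma0 N)) (fun g => g • P1.base (ZMod N))
      (fun g h hgh => (P1.smul_base_eq_iff N g h).2 (QuotientGroup.leftRel_apply.1 hgh)))
    ⟨by
      intro x y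
      induction x using Quotient.inductionOn with | h g =>
      induction y using Quotient.inductionOn with | h h =>
      intro e
      exact Quotient.sound (s := QuotientGroup.leftRel (Gamma0 N))
        (QuotientGroup.leftRel_apply.2 ((P1.smul_base_eq_iff N g h).1 e)),
    by
      intro x
      obtain ⟨g, hg⟩ := P1.exists_smul_base_eq N x
      exact ⟨Quotient.mk _ g, hg⟩⟩

theorem cosetEquiv_mk (N : ℕ) [NeZero N] (g : SL(2, ℤ)) :
    cosetEquiv N (QuotientGroup.mk g) = g • P1.base (ZMod N) := rfl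

theorem cosetEquiv_smul (N : ℕ) [NeZero N] (g : SL(2, ℤ)) (q : SL(2, ℤ) ⧸ Gamma0 N) :
    cosetEquiv N (g • q) = g • cosetEquiv N q := by
  induction q using QuotientGroup.induction_on with
  | H h =>
    rw [MulAction.Quotient.smul_mk, cosetEquiv_mk, cosetEquiv_mk, smul_eq_mul, mul_smul]

end Coset

end Fermat.Agent.S24.P1Count
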