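import Fermat.Agent.S24.P1Basic
import Fermat.Prelude.Def_ModularCurve_GenusNumerics

/-!
# Fixed points of `S` and `S * T` on `SL(2,ℤ) ⧸ Γ₀(N)`
-/

set_option autoImplicit false

namespace Fermat.Agent.S24.P1Count

open Matrix MatrixGroups ModularGroup CongruenceSubgroup

section Affine

variable {R : Type*} [CommRing R]

/-- The affine point `(x : 1)`. -/
def P1.aff (x : R) : P1 R := P1.mk x 1 isCoprime_one_right

theorem P1.aff_injective : Function.Injective (P1.aff (R := R)) := by
  intro x y h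
  unfold P1.aff at h
  rw [P1.mk_eq_mk] at h
  simpa using h

theorem P1.mk_eq_aff {a c : R} (h : IsCoprime a c) (u : Rˣ) (hu : (u : R) = c) :
    P1.mk a c h = P1.aff (a * ((u⁻¹ : Rˣ) : R)) := by
  unfold P1.aff
  rw [P1.mk_eq_mk]
  rw [← hu]
  rw [mul_one, mul_comm (u : R), mul_assoc, Units.inv_mul, mul_one]

theorem S_smul_mk (a c : R) (h : IsCoprime a c) :
    S • P1.mk a c h = P1.mk (-c) a h.symm.neg_left := by
  rw [P1.smul_def, P1.mk_eq_mk]
  simp only [ModularGroup.coe_S, Matrix.of_apply, Matrix.cons_val', Matrix.cons_val_zero,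
    Matrix.cons_val_one, Matrix.cons_val_fin_one, Int.cast_zero, zero_mul, Int.cast_neg,
    Int.cast_one, neg_mul, one_mul, zero_add, add_zero]
  ring

theorem ST_smul_mk (a c : R) (h : IsCoprime a c) :
    (S * T) • P1.mk a c h = P1.mk (-c) (a + c)
      (by simpa using (IsCoprime.add_mul_right_right h.symm 1).neg_left) := by
  rw [P1.smul_def, P1.mk_eq_mk]
  simp only [Matrix.SpecialLinearGroup.coe_mul, ModularGroup.coe_S, ModularGroup.coe_T,
    Matrix.mul_apply, Fin.sum_univ_two, Matrix.of_apply, Matrix.cons_val', Matrix.cons_val_zero,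
    Matrix.cons_val_one, Matrix.cons_val_fin_one]
  push_cast
  ring

theorem S_smul_aff_eq_iff (x : R) : S • P1.aff x = P1.aff x ↔ x ^ 2 + 1 = 0 := by
  unfold P1.aff
  rw [S_smul_mk, P1.mk_eq_mk]
  constructor
  · intro h; linear_combination -h
  · intro h; linear_combination -h

theorem ST_smul_aff_eq_iff (x : R) : (S * T) • P1.aff x = P1.aff x ↔ x ^ 2 + x + 1 = 0 := by
  unfold P1.aff
  rw [ST_smul_mk, P1.mk_eq_mk]
  constructor
  · intro h; linear_combination -h
  · intro h; linear_combination -h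

theorem exists_aff_of_S_fixed (p : P1 R) (hp : S • p = p) : ∃ x : R, p = P1.aff x := by
  induction p using P1.ind with
  | h a c hac =>
    rw [S_smul_mk, P1.mk_eq_mk] at hp
    have hc : IsUnit c := by
      refine IsCoprime.isUnit_of_dvd' (hac.mul_left hac) ⟨-c, ?_⟩ dvd_rfl
      linear_combination -hp
    obtain ⟨u, hu⟩ := hc
    exact ⟨_, P1.mk_eq_aff hac u hu⟩

theorem exists_aff_of_ST_fixed (p : P1 R) (hp : (S * T) • p = p) : ∃ x : R, p = P1.aff x := by
  induction p using P1.ind with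
  | h a c hac =>
    rw [ST_smul_mk, P1.mk_eq_mk] at hp
    have hc : IsUnit c := by
      refine IsCoprime.isUnit_of_dvd' (hac.mul_left hac) ⟨-c - a, ?_⟩ dvd_rfl
      linear_combination -hp
    obtain ⟨u, hu⟩ := hc
    exact ⟨_, P1.mk_eq_aff hac u hu⟩

variable (R) in
/-- Roots of `x^2+1` correspond to the fixed points of `S` on `P1 R`. -/
noncomputable def fixedSEquiv : {x : R // x ^ 2 + 1 = 0} ≃ MulAction.fixedBy (P1 R) S :=
  Equiv.ofBijective (fun x => ⟨P1.aff x.1, (S_smul_aff_eq_iff x.1).2 x.2⟩)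
    ⟨fun x y h => Subtype.ext (P1.aff_injective (congrArg Subtype.val h)), fun p => by
      obtain ⟨x, hx⟩ := exists_aff_of_S_fixed p.1 p.2
      refine ⟨⟨x, ?_⟩, Subtype.ext hx.symm⟩
      rw [← S_smul_aff_eq_iff, ← hx]
      exact p.2⟩

variable (R) in
/-- Roots of `x^2+x+1` correspond to the fixed points of `S * T` on `P1 R`. -/
noncomputable def fixedSTEquiv :
    {x : R // x ^ 2 + x + 1 = 0} ≃ MulAction.fixedBy (P1 R) (S * T) :=
  Equiv.ofBijective (fun x => ⟨P1.aff x.1, (ST_smul_aff_eq_iff x.1).2 x.2⟩)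
    ⟨fun x y h => Subtype.ext (P1.aff_injective (congrArg Subtype.val h)), fun p => by
      obtain ⟨x, hx⟩ := exists_aff_of_ST_fixed p.1 p.2
      refine ⟨⟨x, ?_⟩, Subtype.ext hx.symm⟩
      rw [← ST_smul_aff_eq_iff, ← hx]
      exact p.2⟩

end Affine

section Transport

/-- An equivariant bijection identifies fixed points. -/
def fixedByEquivOfEquivariant {G α β : Type*} [Group G] [MulAction G α] [MulAction G β]
    (e : α ≃ β) (he : ∀ (g : G) (a : α), e (g • a) = g • e a) (g : G) :
    MulAction.fixedBy α g ≃ MulAction.fixedBy β g :=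
  e.subtypeEquiv (fun a => by
    simp only [MulAction.mem_fixedBy]
    rw [← he, e.injective.eq_iff])

variable (N : ℕ) [NeZero N]

/-- **(D2)** The number of fixed points of `S` on `SL(2,ℤ) ⧸ Γ₀(N)` is `ν₂(N)`. -/
theorem card_fixedBy_S :
    Nat.card (MulAction.fixedBy (SL(2, ℤ) ⧸ Gamma0 N) S) = ModularCurve.nuTwo N := by
  unfold ModularCurve.nuTwo
  exact Nat.card_congr
    ((fixedByEquivOfEquivariant (cosetEquiv N) (cosetEquiv_smul N) S).trans
      (fixedSEquiv (ZMod N)).symm)

/-- **(D3)** The number of fixed points of `S * T` on `SL(2,ℤ) ⧸ Γ₀(N)` is `ν₃(N)`. -/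
theorem card_fixedBy_ST :
    Nat.card (MulAction.fixedBy (SL(2, ℤ) ⧸ Gamma0 N) (S * T)) = ModularCurve.nuThree N := by
  unfold ModularCurve.nuThree
  exact Nat.card_congr
    ((fixedByEquivOfEquivariant (cosetEquiv N) (cosetEquiv_smul N) (S * T)).trans
      (fixedSTEquiv (ZMod N)).symm)

end Transport

end Fermat.Agent.S24.P1Count
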