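/-
S24, package COMB: pure re-export of ALL FOUR final Skeleton shapes:
`card_X0Cosets` (Pkg_COMB_card), `numOrbits_T` (Pkg_COMB_cusp),
`two_mul_numOrbits_S`, `three_mul_numOrbits_ST` (Pkg_COMB_ell).
-/
import Fermat.Agent.S24.Pkg_COMB_card
import Fermat.Agent.S24.Pkg_COMB_ell
import Fermat.Agent.S24.Pkg_COMB_cusp
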