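/-
S24 package FF3b (helper70): the Skeleton statements `ordDifferential_D_of_pos`,
`ordDifferential_D_of_neg`, exactly as in `Fermat/Agent/S24/Skeleton.lean` (section FF3),
in namespace `Fermat.Agent.S24`.

Inputs: `place_deg_eq_one` (Pkg_FF1a, helper86), `Diff.dCoordGenerates`, `Diff.nontrivial_kaehler`
(Differentials.lean, helper40), and the local computation `LocalDiffPS.ordDifferential_D`
(power-series route, helper70).
-/
import Fermat.Agent.S24.Defs
import Fermat.Agent.S24.Pkg_FF1a
import Fermat.Agent.S24.FF3bCore

set_option autoImplicit false

open AlgebraicCurve KaehlerDifferential IntermediateField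

namespace Fermat.Agent.S24

section FF3

variable {K F : Type*} [Field K] [Field F] [Algebra K F] [IsAlgClosed K] [CharZero K]
variable {x : F} (hF : IsFunctionFieldOver K x)
include hF

theorem ordDifferential_D_of_pos (v : Place K F) (c : K) (hv : v ∈ placesOver x c) :
    v.ordDifferential (D K F x) = v.ord (x - algebraMap K F c) - 1 :=
  FF3bCore.ordDifferential_D_of_pos hF v (place_deg_eq_one hF v) c hv

theorem ordDifferential_D_of_neg (v : Place K F) (hv : v ∈ placesOverInfty K x) :
    v.ordDifferential (D K F x) = v.ord x - 1 :=
  FF3bCore.ordDifferential_D_of_neg hF v (place_deg_eq_one hF v) hv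

end FF3

end Fermat.Agent.S24
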