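import Fermat.Agent.S24.Defs
import Fermat.Agent.S24.DedekindModel
import Fermat.Agent.S24.KaehlerNontrivial

/-!
# S24 package FF3b (BACKUP by helper14; primary is Pkg_FF3_86.lean; namespace Fermat.Agent.S24.H14): `ord_v (dx)` at finite places and at places over infinity

Exact statements of `Fermat.Agent.S24.Skeleton` (section FF3), proved via the Nakayama route:
`LocalDiff` (local computation) + `PlaceDedekind`/`PlaceEssFinite`/`DedekindModel` (every place
comes from a finite-type Dedekind model) + `KaehlerNontrivial` (`dx ≠ 0`).
-/

set_option autoImplicit false
set_option linter.style.haveILetI false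

open AlgebraicCurve KaehlerDifferential IntermediateField

namespace Fermat.Agent.S24.H14

section FF3b

variable {K F : Type*} [Field K] [Field F] [Algebra K F] [IsAlgClosed K] [CharZero K]
variable {x : F} (hF : IsFunctionFieldOver K x)
include hF

theorem ordDifferential_D_of_pos (v : Place K F) (c : K) (hv : v ∈ placesOver x c) :
    v.ordDifferential (D K F x) = v.ord (x - algebraMap K F c) - 1 := by
  haveI := hF.finite
  haveI : Nontrivial Ω[F⁄K] := KaehlerNontrivial.nontrivial_kaehler hF.transcendental
  exact DedekindModel.ordDifferential_D_of_pos hF v c hv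

theorem ordDifferential_D_of_neg (v : Place K F) (hv : v ∈ placesOverInfty K x) :
    v.ordDifferential (D K F x) = v.ord x - 1 := by
  haveI := hF.finite
  haveI : Nontrivial Ω[F⁄K] := KaehlerNontrivial.nontrivial_kaehler hF.transcendental
  exact DedekindModel.ordDifferential_D_of_neg hF v hv

end FF3b

end Fermat.Agent.S24.H14
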