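/-
S24 package GALb (helper56): decomposition groups in the Galois tower.
`card_stab_eq_ord`, `card_stab_eq_ord_infty` -- statements EXACTLY those of
`Fermat/Agent/S24/Skeleton.lean` (section GAL).  Proof: `Fermat/Agent/S24/GalStab56.lean`
(Mathlib's `Ideal.card_stabilizer_eq` on the integral closure of `K[x]` in `L`).
-/
import Fermat.Agent.S24.Defs
import Fermat.Agent.S24.Pkg_GALa
import Fermat.Agent.S24.GalStab56

set_option autoImplicit false

open AlgebraicCurve KaehlerDifferential IntermediateField

namespace Fermat.Agent.S24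

section GAL

variable {K F L : Type*} [Field K] [Field F] [Field L] [Algebra K F] [Algebra F L] [Algebra K L]
  [IsScalarTower K F L] [IsAlgClosed K] [CharZero K]
variable {x : F} (hF : IsFunctionFieldOver K x)
variable (G : Subgroup (L ≃ₐ[K] L)) [Finite G]
  (hGx : ∀ g ∈ G, g (algebraMap F L x) = algebraMap F L x)
  (hG : ∀ y : L, (∀ g ∈ G, g y = y) → y ∈ K⟮algebraMap F L x⟯)
include hF hGx hG

theorem card_stab_eq_ord (c : K) (w : Place K L) (hw : w ∈ placesOver (algebraMap F L x) c) :
    (Nat.card (stabSub G w) : ℤ) = w.ord (algebraMap F L x - algebraMap K L c) :=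
  GalStab56.card_stabSub_eq_ord (isFunctionFieldOver_top hF G hGx hG) G hGx hG c w hw

theorem card_stab_eq_ord_infty (w : Place K L) (hw : w ∈ placesOverInfty K (algebraMap F L x)) :
    (Nat.card (stabSub G w) : ℤ) = - w.ord (algebraMap F L x) :=
  GalStab56.card_stabSub_eq_neg_ord (isFunctionFieldOver_top hF G hGx hG) G hGx hG w hw

end GAL

end Fermat.Agent.S24
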