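/-
S24 package GALc, BACKUP by helper56 (primary: helper3's `Pkg_GALc.lean`).
`H56.ncard_placesOver_eq`, `H56.ncard_placesOverInfty_eq` -- statements EXACTLY those of
`Fermat/Agent/S24/Skeleton.lean` (section GAL), in namespace `Fermat.Agent.S24.H56` to avoid a
name clash with the primary package.  Proof: `Fermat/Agent/S24/GalCount56.lean`
(prime-ideal level: `GaloisLayer.natCard_primesOver_eq_natCard_orbits` for
`K[x] ⊆ integralClosure in F ⊆ integralClosure in L`).
-/
import Fermat.Agent.S24.Defs
import Fermat.Agent.S24.GalCount56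

set_option autoImplicit false

open AlgebraicCurve KaehlerDifferential IntermediateField

namespace Fermat.Agent.S24.H56

section GAL

variable {K F L : Type*} [Field K] [Field F] [Field L] [Algebra K F] [Algebra F L] [Algebra K L]
  [IsScalarTower K F L] [IsAlgClosed K] [CharZero K]
variable {x : F} (hF : IsFunctionFieldOver K x)
variable (G : Subgroup (L ≃ₐ[K] L)) [Finite G]
  (hGx : ∀ g ∈ G, g (algebraMap F L x) = algebraMap F L x)
  (hG : ∀ y : L, (∀ g ∈ G, g y = y) → y ∈ K⟮algebraMap F L x⟯)
include hF hGx hG

theorem ncard_placesOver_eq (c : K) (w : Place K L) (hw : w ∈ placesOver (algebraMap F L x) c) :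
    (placesOver x c).ncard =
      Nat.card (MulAction.orbitRel.Quotient (stabSub G w) (G ⧸ fixingSub F G)) :=
  GalCount56.ncard_placesOver_eq' hF G hGx hG c w hw

theorem ncard_placesOverInfty_eq (w : Place K L)
    (hw : w ∈ placesOverInfty K (algebraMap F L x)) :
    (placesOverInfty K x).ncard =
      Nat.card (MulAction.orbitRel.Quotient (stabSub G w) (G ⧸ fixingSub F G)) :=
  GalCount56.ncard_placesOverInfty_eq' hF G hGx hG w hw

end GAL

end Fermat.Agent.S24.H56
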