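import Mathlib

/-!
# Ree's theorem via Scott's lemma (layer (E) of the S24 plan)
-/

set_option autoImplicit false

namespace Fermat.Agent.S24.Ree

open Module

section Scott

variable {k : Type*} [Field k] {V : Type*} [AddCommGroup V] [Module k V] [FiniteDimensional k V]

/-- `1 - X` as a linear map. -/
abbrev om (X : V →ₗ[k] V) : V →ₗ[k] V := LinearMap.id - X

omit [FiniteDimensional k V] in
theorem om_apply (X : V →ₗ[k] V) (v : V) : om X v = v - X v := rfl

/-- **Scott's lemma** for three operators with `X ∘ Y ∘ Z = 1`. -/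
theorem scott (X Y Z : V →ₗ[k] V) (h : ∀ v, X (Y (Z v)) = v) :
    finrank k V +
      finrank k ↥(LinearMap.range (om X) ⊔ LinearMap.range (om Y) ⊔ LinearMap.range (om Z))
    ≤ finrank k ↥(LinearMap.range (om X)) + finrank k ↥(LinearMap.range (om Y)) +
      finrank k ↥(LinearMap.range (om Z)) +
      finrank k ↥(LinearMap.ker (om X) ⊓ LinearMap.ker (om Y) ⊓ LinearMap.ker (om Z)) := by
  set Rx := LinearMap.range (om X) with hRx
  set Ry := LinearMap.range (om Y) with hRy
  set Rz := LinearMap.range (om Z) with hRz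
  -- β : V → Rx × Ry × Rz
  let β : V →ₗ[k] (Rx × Ry × Rz) :=
    LinearMap.prod (om X).rangeRestrict
      (LinearMap.prod (om Y).rangeRestrict (om Z).rangeRestrict)
  -- δ : Rx × Ry × Rz → V
  let δ : (Rx × Ry × Rz) →ₗ[k] V :=
    LinearMap.coprod Rx.subtype
      (LinearMap.coprod (X ∘ₗ Ry.subtype) ((X ∘ₗ Y) ∘ₗ Rz.subtype))
  have hβ : ∀ v, β v = (⟨om X v, ⟨v, rfl⟩⟩, ⟨om Y v, ⟨v, rfl⟩⟩, ⟨om Z v, ⟨v, rfl⟩⟩) := fun v => rfl
  have hδ : ∀ a b c, δ (a, b, c) = (a : V) + (X (b : V) + X (Y (c : V))) := by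
    intro a b c
    simp [δ, LinearMap.coprod_apply]
  have hδβ : ∀ v, δ (β v) = 0 := by
    intro v
    rw [hβ, hδ]
    simp only [om_apply, map_sub, h v]
    abel
  have hle : LinearMap.range β ≤ LinearMap.ker δ := by
    rintro _ ⟨v, rfl⟩
    rw [LinearMap.mem_ker, hδβ]
  have h1 := LinearMap.finrank_range_add_finrank_ker β
  have h2 := LinearMap.finrank_range_add_finrank_ker δ
  have h3 : finrank k (Rx × Ry × Rz) = finrank k Rx + (finrank k Ry + finrank k Rz) := by
    rw [Module.finrank_prod, Module.finrank_prod]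
  have h4 := Submodule.finrank_mono hle
  -- kernel of β
  have hker : LinearMap.ker β = LinearMap.ker (om X) ⊓ LinearMap.ker (om Y) ⊓
      LinearMap.ker (om Z) := by
    ext v
    simp only [LinearMap.mem_ker, Submodule.mem_inf, hβ, Prod.mk_eq_zero, and_assoc]
    constructor
    · rintro ⟨a, b, c⟩
      exact ⟨congrArg Subtype.val a, congrArg Subtype.val b, congrArg Subtype.val c⟩
    · rintro ⟨a, b, c⟩
      exact ⟨Subtype.ext a, Subtype.ext b, Subtype.ext c⟩
  -- range of δ contains Rx ⊔ Ry ⊔ Rz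
  have hRxδ : Rx ≤ LinearMap.range δ := by
    intro w hw
    exact ⟨(⟨w, hw⟩, 0, 0), by rw [hδ]; simp⟩
  have hXRyδ : ∀ w ∈ Ry, X w ∈ LinearMap.range δ := by
    intro w hw
    exact ⟨(0, ⟨w, hw⟩, 0), by rw [hδ]; simp⟩
  have hXYRzδ : ∀ w ∈ Rz, X (Y w) ∈ LinearMap.range δ := by
    intro w hw
    exact ⟨(0, 0, ⟨w, hw⟩), by rw [hδ]; simp⟩
  have hRyδ : Ry ≤ LinearMap.range δ := by
    intro w hw
    have e : w = X w + om X w := by rw [om_apply]; abel
    rw [e]
    exact Submodule.add_mem _ (hXRyδ w hw) (hRxδ ⟨w, rfl⟩)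
  have hRzδ : Rz ≤ LinearMap.range δ := by
    intro w hw
    have e : w = X (Y w) + (X (om Y w) + om X w) := by
      simp only [om_apply, map_sub]; abel
    rw [e]
    exact Submodule.add_mem _ (hXYRzδ w hw)
      (Submodule.add_mem _ (hXRyδ _ ⟨w, rfl⟩) (hRxδ ⟨w, rfl⟩))
  have hsup : Rx ⊔ Ry ⊔ Rz ≤ LinearMap.range δ := sup_le (sup_le hRxδ hRyδ) hRzδ
  have h5 := Submodule.finrank_mono hsup
  rw [hker] at h1
  omega

end Scott

theorem finrank_span_singleton_le_one {k : Type*} [Field k] {V : Type*} [AddCommGroup V]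
    [Module k V] (v : V) : finrank k ↥(Submodule.span k {v}) ≤ 1 := by
  classical
  exact (finrank_span_le_card ({v} : Set V)).trans (by simp)

section PermModule

variable {G : Type*} [Group G] {Ω : Type*} [MulAction G Ω]

/-- The number of orbits of the cyclic group `⟨g⟩` on `Ω`. -/
noncomputable def orb (Ω : Type*) [MulAction G Ω] (g : G) : ℕ :=
  Nat.card (MulAction.orbitRel.Quotient (Subgroup.zpowers g) Ω)

/-- The permutation action of `g` on functions: `(P g f) a = f (g⁻¹ • a)`. -/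
def P (g : G) : (Ω → ℚ) →ₗ[ℚ] (Ω → ℚ) := LinearMap.funLeft ℚ ℚ (fun a => g⁻¹ • a)

theorem P_apply (g : G) (f : Ω → ℚ) (a : Ω) : P g f a = f (g⁻¹ • a) := rfl

theorem P_mul (g h : G) (f : Ω → ℚ) : P (g * h) f = P g (P h f) := by
  ext a
  simp [P_apply, mul_smul]

theorem P_one (f : Ω → ℚ) : P (1 : G) f = f := by
  ext a
  simp [P_apply]

theorem P_single [DecidableEq Ω] (g : G) (a : Ω) :
    P g (Pi.single a (1 : ℚ)) = Pi.single (g • a) 1 := by
  ext b
  rw [P_apply]
  by_cases h : b = g • a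
  · subst h
    simp
  · rw [Pi.single_eq_of_ne h, Pi.single_eq_of_ne]
    intro h'
    exact h (by rw [← h', smul_inv_smul])

/-- The subgroup of elements fixing a function. -/
def fixer (f : Ω → ℚ) : Subgroup G where
  carrier := {h | ∀ a, f (h • a) = f a}
  one_mem' := fun a => by simp
  mul_mem' := fun {g h} hg hh a => by rw [mul_smul, hg, hh]
  inv_mem' := fun {g} hg a => by
    have := hg (g⁻¹ • a)
    rw [smul_inv_smul] at this
    exact this.symm

theorem mem_fixer_iff (f : Ω → ℚ) (h : G) : h ∈ fixer f ↔ ∀ a, f (h • a) = f a := Iff.rfl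

theorem mem_ker_om_P_iff (g : G) (f : Ω → ℚ) :
    f ∈ LinearMap.ker (om (P g)) ↔ g ∈ fixer f := by
  rw [LinearMap.mem_ker, om_apply, sub_eq_zero, mem_fixer_iff]
  constructor
  · intro h a
    have := congrFun h (g • a)
    rw [P_apply, inv_smul_smul] at this
    exact this
  · intro h
    ext a
    rw [P_apply]
    have := h (g⁻¹ • a)
    rw [smul_inv_smul] at this
    exact this

theorem range_funLeft_mk_eq_ker (g : G) :
    LinearMap.range (LinearMap.funLeft ℚ ℚ
      (Quotient.mk'' : Ω → MulAction.orbitRel.Quotient (Subgroup.zpowers g) Ω)) =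
    LinearMap.ker (om (P g : (Ω → ℚ) →ₗ[ℚ] (Ω → ℚ))) := by
  ext f
  rw [mem_ker_om_P_iff]
  constructor
  · rintro ⟨φ, rfl⟩
    intro a
    simp only [LinearMap.funLeft_apply]
    congr 1
    apply Quotient.sound'
    rw [MulAction.orbitRel_apply]
    exact ⟨⟨g, Subgroup.mem_zpowers g⟩, rfl⟩
  · intro hg
    have hle : Subgroup.zpowers g ≤ fixer f := by
      rw [Subgroup.zpowers_le]; exact hg
    refine ⟨fun q => Quotient.liftOn' q f ?_, ?_⟩
    · intro a b hab
      rw [MulAction.orbitRel_apply] at hab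
      obtain ⟨⟨h, hh⟩, rfl⟩ := hab
      exact (hle hh) b
    · ext a
      simp only [LinearMap.funLeft_apply]
      rfl

theorem finrank_ker_om_P [Finite Ω] (g : G) :
    finrank ℚ ↥(LinearMap.ker (om (P g : (Ω → ℚ) →ₗ[ℚ] (Ω → ℚ)))) = orb Ω g := by
  classical
  have := Fintype.ofFinite Ω
  rw [← range_funLeft_mk_eq_ker,
    LinearMap.finrank_range_of_inj
      (LinearMap.funLeft_injective_of_surjective ℚ ℚ _ Quotient.mk''_surjective),
    Module.finrank_fintype_fun_eq_card, orb, Nat.card_eq_fintype_card]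

theorem finrank_range_om_P [Finite Ω] (g : G) :
    finrank ℚ ↥(LinearMap.range (om (P g : (Ω → ℚ) →ₗ[ℚ] (Ω → ℚ)))) + orb Ω g = Nat.card Ω := by
  classical
  have := Fintype.ofFinite Ω
  have h := LinearMap.finrank_range_add_finrank_ker (om (P g : (Ω → ℚ) →ₗ[ℚ] (Ω → ℚ)))
  rw [finrank_ker_om_P, Module.finrank_fintype_fun_eq_card, ← Nat.card_eq_fintype_card] at h
  exact h

/-- Invariants of a generating set under a pretransitive action are constant functions:
their space has dimension at most one. -/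
theorem finrank_inv_le_one [Finite Ω] [MulAction.IsPretransitive G Ω] (x y z : G)
    (hgen : Subgroup.closure {x, y, z} = (⊤ : Subgroup G)) :
    finrank ℚ ↥(LinearMap.ker (om (P x : (Ω → ℚ) →ₗ[ℚ] (Ω → ℚ))) ⊓ LinearMap.ker (om (P y)) ⊓
      LinearMap.ker (om (P z))) ≤ 1 := by
  classical
  have hle : LinearMap.ker (om (P x : (Ω → ℚ) →ₗ[ℚ] (Ω → ℚ))) ⊓ LinearMap.ker (om (P y)) ⊓
      LinearMap.ker (om (P z)) ≤ Submodule.span ℚ {(fun _ => (1 : ℚ) : Ω → ℚ)} := by
    intro f hf
    simp only [Submodule.mem_inf, mem_ker_om_P_iff] at hf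
    obtain ⟨⟨hx, hy⟩, hz⟩ := hf
    have htop : (⊤ : Subgroup G) ≤ fixer f := by
      rw [← hgen, Subgroup.closure_le]
      rintro g (rfl | rfl | rfl)
      · exact hx
      · exact hy
      · exact hz
    rcases isEmpty_or_nonempty Ω with hΩ | ⟨⟨a₀⟩⟩
    · have : f = 0 := Subsingleton.elim _ _
      rw [this]; exact Submodule.zero_mem _
    · rw [Submodule.mem_span_singleton]
      refine ⟨f a₀, ?_⟩
      ext b
      obtain ⟨h, rfl⟩ := MulAction.exists_smul_eq G a₀ b
      simp only [Pi.smul_apply, smul_eq_mul, mul_one]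
      exact ((htop (Subgroup.mem_top h)) a₀).symm
  exact (Submodule.finrank_mono hle).trans (finrank_span_singleton_le_one _)

/-- The subgroup of elements `h` with `e_{h a} - e_a ∈ U` for all `a`. -/
def mover [DecidableEq Ω] (U : Submodule ℚ (Ω → ℚ)) : Subgroup G where
  carrier := {h | ∀ a, (Pi.single (h • a) (1 : ℚ) - Pi.single a 1 : Ω → ℚ) ∈ U}
  one_mem' := fun a => by simp
  mul_mem' := fun {g h} hg hh a => by
    have e : (Pi.single ((g * h) • a) (1 : ℚ) - Pi.single a 1 : Ω → ℚ) =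
        (Pi.single (g • (h • a)) 1 - Pi.single (h • a) 1) +
          (Pi.single (h • a) 1 - Pi.single a 1) := by
      rw [mul_smul]; abel
    rw [e]
    exact U.add_mem (hg _) (hh _)
  inv_mem' := fun {g} hg a => by
    have := hg (g⁻¹ • a)
    rw [smul_inv_smul] at this
    have e : (Pi.single (g⁻¹ • a) (1 : ℚ) - Pi.single a 1 : Ω → ℚ) =
        -(Pi.single a 1 - Pi.single (g⁻¹ • a) 1) := by abel
    rw [e]
    exact U.neg_mem this

theorem range_om_P_le_mover [DecidableEq Ω] (g : G) (U : Submodule ℚ (Ω → ℚ))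
    (hU : LinearMap.range (om (P g : (Ω → ℚ) →ₗ[ℚ] (Ω → ℚ))) ≤ U) : g ∈ mover (G := G) U := by
  intro a
  have : (Pi.single (g • a) (1 : ℚ) - Pi.single a 1 : Ω → ℚ) =
      -(om (P g) (Pi.single a 1)) := by
    rw [om_apply, P_single]; abel
  rw [this]
  exact U.neg_mem (hU ⟨_, rfl⟩)

theorem card_le_finrank_sup_add_one [Finite Ω] [MulAction.IsPretransitive G Ω] (x y z : G)
    (hgen : Subgroup.closure {x, y, z} = (⊤ : Subgroup G)) :
    Nat.card Ω ≤ finrank ℚ ↥(LinearMap.range (om (P x : (Ω → ℚ) →ₗ[ℚ] (Ω → ℚ))) ⊔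
      LinearMap.range (om (P y)) ⊔ LinearMap.range (om (P z))) + 1 := by
  classical
  have := Fintype.ofFinite Ω
  set U := LinearMap.range (om (P x : (Ω → ℚ) →ₗ[ℚ] (Ω → ℚ))) ⊔
      LinearMap.range (om (P y)) ⊔ LinearMap.range (om (P z)) with hU
  rcases isEmpty_or_nonempty Ω with hΩ | ⟨⟨a₀⟩⟩
  · simp
  have htop : (⊤ : Subgroup G) ≤ mover (G := G) U := by
    rw [← hgen, Subgroup.closure_le]
    rintro g (rfl | rfl | rfl)
    · exact range_om_P_le_mover _ U (le_sup_of_le_left le_sup_left)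
    · exact range_om_P_le_mover _ U (le_sup_of_le_left le_sup_right)
    · exact range_om_P_le_mover _ U le_sup_right
  have hall : (⊤ : Submodule ℚ (Ω → ℚ)) ≤ U ⊔ Submodule.span ℚ {(Pi.single a₀ (1 : ℚ) : Ω → ℚ)} := by
    rw [← (Pi.basisFun ℚ Ω).span_eq, Submodule.span_le]
    rintro _ ⟨b, rfl⟩
    obtain ⟨h, rfl⟩ := MulAction.exists_smul_eq G a₀ b
    have hm := (htop (Subgroup.mem_top h)) a₀
    have e : ((Pi.basisFun ℚ Ω) (h • a₀) : Ω → ℚ) =
        (Pi.single (h • a₀) (1 : ℚ) - Pi.single a₀ 1) + Pi.single a₀ 1 := by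
      rw [Pi.basisFun_apply]; abel
    rw [SetLike.mem_coe, e]
    exact Submodule.add_mem _ (Submodule.mem_sup_left hm)
      (Submodule.mem_sup_right (Submodule.mem_span_singleton_self _))
  have h1 := Submodule.finrank_mono hall
  rw [finrank_top, Module.finrank_fintype_fun_eq_card, ← Nat.card_eq_fintype_card] at h1
  have h2 := Submodule.finrank_add_le_finrank_add_finrank U
    (Submodule.span ℚ {(Pi.single a₀ (1 : ℚ) : Ω → ℚ)})
  have h3 := finrank_span_singleton_le_one (k := ℚ) (Pi.single a₀ (1 : ℚ) : Ω → ℚ)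
  omega

/-- **Ree's theorem** (three generators): if `x, y, z` generate a group acting pretransitively
on a finite nonempty set `Ω` and `x * y * z = 1`, then
`2 * (n - 1) ≤ (n - orb x) + (n - orb y) + (n - orb z)`, stated without subtraction. -/
theorem ree_scott_add [Finite Ω] [Nonempty Ω] [MulAction.IsPretransitive G Ω] (x y z : G)
    (hxyz : x * y * z = 1) (hgen : Subgroup.closure {x, y, z} = (⊤ : Subgroup G)) :
    orb Ω x + orb Ω y + orb Ω z ≤ Nat.card Ω + 2 := by
  classical
  have := Fintype.ofFinite Ω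
  have hS := scott (P x : (Ω → ℚ) →ₗ[ℚ] (Ω → ℚ)) (P y) (P z) (by
    intro v
    rw [← P_mul, ← P_mul, hxyz, P_one])
  have h1 := finrank_inv_le_one (Ω := Ω) x y z hgen
  have h2 := card_le_finrank_sup_add_one (Ω := Ω) x y z hgen
  have hx := finrank_range_om_P (Ω := Ω) x
  have hy := finrank_range_om_P (Ω := Ω) y
  have hz := finrank_range_om_P (Ω := Ω) z
  rw [Module.finrank_fintype_fun_eq_card, ← Nat.card_eq_fintype_card] at hS
  omega

end PermModule

section Sign

open Equiv Equiv.Perm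


variable {Ω : Type*} [Fintype Ω] [DecidableEq Ω]

/-- the classifying map: a point of the support goes to its cycle, a fixed point to itself -/
noncomputable def cyc (σ : Perm Ω) (a : Ω) :
    {c // c ∈ σ.cycleFactorsFinset} ⊕ {a // a ∉ σ.support} :=
  if h : a ∈ σ.support then Sum.inl ⟨σ.cycleOf a, cycleOf_mem_cycleFactorsFinset_iff.mpr h⟩
  else Sum.inr ⟨a, h⟩

theorem cyc_eq_iff (σ : Perm Ω) (a b : Ω) : cyc σ a = cyc σ b ↔ σ.SameCycle a b := by
  unfold cyc
  by_cases ha : a ∈ σ.support <;> by_cases hb : b ∈ σ.support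
  · rw [dif_pos ha, dif_pos hb]
    simp only [Sum.inl.injEq, Subtype.mk.injEq]
    constructor
    · intro h
      have : a ∈ (σ.cycleOf b).support := by
        rw [← h, mem_support_cycleOf_iff]; exact ⟨SameCycle.refl _ _, ha⟩
      rw [mem_support_cycleOf_iff] at this
      exact this.1.symm
    · intro h; exact h.cycleOf_eq
  · rw [dif_pos ha, dif_neg hb]
    simp only [reduceCtorEq, false_iff]
    intro h
    exact hb ((h.mem_support_iff).mp ha)
  · rw [dif_neg ha, dif_pos hb]
    simp only [reduceCtorEq, false_iff]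
    intro h
    exact ha ((h.mem_support_iff).mpr hb)
  · rw [dif_neg ha, dif_neg hb]
    simp only [Sum.inr.injEq, Subtype.mk.injEq]
    constructor
    · rintro rfl; exact SameCycle.refl _ _
    · rintro ⟨k, rfl⟩
      rw [notMem_support] at ha
      exact (zpow_apply_eq_self_of_apply_eq_self ha k).symm

theorem cyc_surjective (σ : Perm Ω) : Function.Surjective (cyc σ) := by
  rintro (⟨c, hc⟩ | ⟨a, ha⟩)
  · obtain ⟨a, ha⟩ := (mem_cycleFactorsFinset_iff.mp hc).1.nonempty_support
    refine ⟨a, ?_⟩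
    have hs : a ∈ σ.support := mem_cycleFactorsFinset_support_le hc ha
    unfold cyc
    rw [dif_pos hs]
    simp only [Sum.inl.injEq, Subtype.mk.injEq]
    exact (cycle_is_cycleOf ha hc).symm
  · exact ⟨a, by unfold cyc; rw [dif_neg ha]⟩

/-- number of `SameCycle` classes = number of cycles + number of fixed points -/
theorem card_sameCycle_quotient (σ : Perm Ω) :
    Nat.card (Quotient (SameCycle.setoid σ)) + σ.support.card =
      Multiset.card σ.cycleType + Fintype.card Ω := by
  classical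
  let F : Quotient (SameCycle.setoid σ) → {c // c ∈ σ.cycleFactorsFinset} ⊕ {a // a ∉ σ.support} :=
    Quotient.lift (cyc σ) (fun a b h => (cyc_eq_iff σ a b).mpr h)
  have hF : Function.Bijective F := by
    constructor
    · rintro ⟨a⟩ ⟨b⟩ h
      exact Quotient.sound ((cyc_eq_iff σ a b).mp h)
    · intro y
      obtain ⟨a, rfl⟩ := cyc_surjective σ y
      exact ⟨Quotient.mk _ a, rfl⟩
  rw [Nat.card_congr (Equiv.ofBijective F hF), Nat.card_eq_fintype_card, Fintype.card_sum,
    Fintype.card_coe, Fintype.card_subtype_compl, Fintype.card_coe, cycleType_def]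
  simp only [Multiset.card_map, Finset.card_val]
  have := Finset.card_le_univ σ.support
  omega


end Sign

section Parity

open Equiv Equiv.Perm

variable {G : Type*} [Group G] {Ω : Type*} [MulAction G Ω]

theorem toPerm_zpow_apply (g : G) (k : ℤ) (b : Ω) :
    ((MulAction.toPerm g : Perm Ω) ^ k) b = g ^ k • b := by
  have h : (MulAction.toPerm g : Perm Ω) ^ k = MulAction.toPermHom G Ω (g ^ k) := by
    rw [map_zpow]; rfl
  rw [h]; rfl

/-- `orb g` is the number of `SameCycle` classes of the permutation `toPerm g`. -/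
theorem orb_eq_card_sameCycle (g : G) :
    orb Ω g = Nat.card (Quotient (SameCycle.setoid (MulAction.toPerm g : Perm Ω))) := by
  unfold orb MulAction.orbitRel.Quotient
  refine Nat.card_congr (Quotient.congrRight ?_)
  intro a b
  change MulAction.orbitRel (Subgroup.zpowers g) Ω a b ↔ SameCycle (MulAction.toPerm g) a b
  rw [MulAction.orbitRel_apply]
  constructor
  · rintro ⟨⟨h, hh⟩, rfl⟩
    obtain ⟨k, rfl⟩ := Subgroup.mem_zpowers_iff.mp hh
    refine SameCycle.symm ⟨k, ?_⟩
    rw [toPerm_zpow_apply]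
    rfl
  · intro hs
    obtain ⟨k, hk⟩ := hs.symm
    refine ⟨⟨g ^ k, Subgroup.zpow_mem_zpowers g k⟩, ?_⟩
    rw [← hk, toPerm_zpow_apply]
    rfl

theorem orb_add_card_support [Fintype Ω] [DecidableEq Ω] (g : G) :
    orb Ω g + (MulAction.toPerm g : Perm Ω).support.card =
      Multiset.card (MulAction.toPerm g : Perm Ω).cycleType + Fintype.card Ω := by
  rw [orb_eq_card_sameCycle, card_sameCycle_quotient]

theorem orb_le_card [Finite Ω] (g : G) : orb Ω g ≤ Nat.card Ω :=
  Nat.card_le_card_of_surjective _ Quotient.mk''_surjective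

/-- `sign (toPerm g) = (-1) ^ (n + orb g)`. -/
theorem sign_toPerm_eq [Fintype Ω] [DecidableEq Ω] (g : G) :
    Equiv.Perm.sign (MulAction.toPerm g : Perm Ω) = (-1 : ℤˣ) ^ (Fintype.card Ω + orb Ω g) := by
  have h := orb_add_card_support (Ω := Ω) g
  rw [sign_of_cycleType, sum_cycleType]
  set s := (MulAction.toPerm g : Perm Ω).support.card
  set c := Multiset.card (MulAction.toPerm g : Perm Ω).cycleType
  -- s + c ≡ n + orb (mod 2) since orb + s = c + n
  have e : Fintype.card Ω + orb Ω g + 2 * s = s + c + 2 * Fintype.card Ω := by omega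
  have : (-1 : ℤˣ) ^ (Fintype.card Ω + orb Ω g + 2 * s) = (-1 : ℤˣ) ^ (s + c + 2 * Fintype.card Ω) := by
    rw [e]
  simpa [pow_add, pow_mul] using this.symm

/-- **Parity**: if `x * y * z = 1` then `n + orb x + orb y + orb z` is even. -/
theorem ree_parity [Finite Ω] (x y z : G) (hxyz : x * y * z = 1) :
    Even (Nat.card Ω + orb Ω x + orb Ω y + orb Ω z) := by
  classical
  have := Fintype.ofFinite Ω
  have h1 : Equiv.Perm.sign (MulAction.toPerm x : Perm Ω) * Equiv.Perm.sign (MulAction.toPerm y : Perm Ω) *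
      Equiv.Perm.sign (MulAction.toPerm z : Perm Ω) = 1 := by
    rw [← map_mul, ← map_mul]
    have : (MulAction.toPerm x : Perm Ω) * MulAction.toPerm y * MulAction.toPerm z = 1 := by
      have h := congrArg (MulAction.toPermHom G Ω) hxyz
      rw [map_mul, map_mul, map_one] at h
      exact h
    rw [this, map_one]
  rw [sign_toPerm_eq, sign_toPerm_eq, sign_toPerm_eq, ← pow_add, ← pow_add] at h1
  have h2 : Even (Fintype.card Ω + orb Ω x + (Fintype.card Ω + orb Ω y) + (Fintype.card Ω + orb Ω z)) := by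
    rcases Nat.even_or_odd (Fintype.card Ω + orb Ω x + (Fintype.card Ω + orb Ω y) +
      (Fintype.card Ω + orb Ω z)) with he | ho
    · exact he
    · rw [ho.neg_one_pow] at h1
      exact absurd h1 (by decide)
  rw [Nat.card_eq_fintype_card]
  have h3 : Fintype.card Ω + orb Ω x + (Fintype.card Ω + orb Ω y) + (Fintype.card Ω + orb Ω z) =
      (Fintype.card Ω + orb Ω x + orb Ω y + orb Ω z) + 2 * Fintype.card Ω := by ring
  rw [h3] at h2
  exact (Nat.even_add.mp h2).mpr (even_two_mul _)

/-- **Ree + parity, packaged**: there is a natural number `g₀` (the "genus") with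
`orb x + orb y + orb z + 2 * g₀ = n + 2`, i.e. `2 * g₀ - 2 = -2 * n + Σ (n - orb)`. -/
theorem exists_genus [Finite Ω] [Nonempty Ω] [MulAction.IsPretransitive G Ω] (x y z : G)
    (hxyz : x * y * z = 1) (hgen : Subgroup.closure {x, y, z} = (⊤ : Subgroup G)) :
    ∃ g₀ : ℕ, orb Ω x + orb Ω y + orb Ω z + 2 * g₀ = Nat.card Ω + 2 := by
  have h1 := ree_scott_add (Ω := Ω) x y z hxyz hgen
  obtain ⟨m, hm⟩ := ree_parity (Ω := Ω) x y z hxyz
  refine ⟨m + 1 - (orb Ω x + orb Ω y + orb Ω z), ?_⟩
  omega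

theorem orb_inv (g : G) : orb Ω g⁻¹ = orb Ω g := by
  unfold orb
  rw [Subgroup.zpowers_inv]

/-- Two-generator form: `G = ⟨x, y⟩`; the third element is `x * y`. -/
theorem exists_genus_two_gen [Finite Ω] [Nonempty Ω] [MulAction.IsPretransitive G Ω] (x y : G)
    (hgen : Subgroup.closure {x, y} = (⊤ : Subgroup G)) :
    ∃ g₀ : ℕ, orb Ω x + orb Ω y + orb Ω (x * y) + 2 * g₀ = Nat.card Ω + 2 := by
  have hgen' : Subgroup.closure {x, y, (x * y)⁻¹} = (⊤ : Subgroup G) := by
    apply top_unique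
    rw [← hgen]
    apply Subgroup.closure_mono
    intro g hg
    rcases hg with rfl | rfl
    · exact Set.mem_insert _ _
    · exact Set.mem_insert_of_mem _ (Set.mem_insert _ _)
  have := exists_genus (Ω := Ω) x y (x * y)⁻¹ (by group) hgen'
  rwa [orb_inv] at this

end Parity

section PrimeOrder

open Equiv Equiv.Perm


variable {G : Type*} [Group G] {Ω : Type*} [MulAction G Ω]

/-- Orbit count of an element acting with prime order `p` (or trivially):
`p * orb g = n + (p - 1) * #Fix(g)`. -/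
theorem prime_mul_orb [Finite Ω] (g : G) (p : ℕ) (hp : p.Prime)
    (hg : ∀ a : Ω, g ^ p • a = a) :
    p * orb Ω g = Nat.card Ω + (p - 1) * Nat.card (MulAction.fixedBy Ω g) := by
  classical
  have := Fintype.ofFinite Ω
  set σ : Perm Ω := MulAction.toPerm g with hσ
  have hσp : σ ^ p = 1 := by
    ext a
    have := toPerm_zpow_apply (Ω := Ω) g (p : ℤ) a
    rw [zpow_natCast, zpow_natCast] at this
    rw [this, hg a]; rfl
  have hall : ∀ k ∈ σ.cycleType, k = p := by
    intro k hk
    have h1 : k ∣ p := (dvd_of_mem_cycleType hk).trans (orderOf_dvd_of_pow_eq_one hσp)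
    have h2 := two_le_of_mem_cycleType hk
    rcases (Nat.dvd_prime hp).mp h1 with h | h
    · omega
    · exact h
  have hs : σ.support.card = Multiset.card σ.cycleType * p := by
    rw [← sum_cycleType, Multiset.eq_replicate_of_mem hall, Multiset.sum_replicate,
      Multiset.card_replicate, smul_eq_mul]
  have horb := orb_add_card_support (Ω := Ω) g
  have hfix : Nat.card (MulAction.fixedBy Ω g) + σ.support.card = Fintype.card Ω := by
    have h1 : Nat.card (MulAction.fixedBy Ω g) = Fintype.card (Function.fixedPoints σ) := by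
      rw [Nat.card_eq_fintype_card]
      exact Fintype.card_congr (Equiv.refl _)
    rw [h1, card_fixedPoints, sum_cycleType]
    have := Finset.card_le_univ σ.support
    omega
  rw [Nat.card_eq_fintype_card (α := Ω)]
  obtain ⟨q, rfl⟩ : ∃ q, p = q + 1 := ⟨p - 1, by have := hp.pos; omega⟩
  rw [← hσ] at horb
  simp only [Nat.add_sub_cancel]
  zify at *
  linear_combination ((q : ℤ) + 1) * horb - (q : ℤ) * hfix - hs


/-- **Modular packaging.** `G = ⟨s, t⟩` acts pretransitively on a finite nonempty `Ω`, `s ^ 2` and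
`(s * t) ^ 3` act trivially.  Then the number
`1 + n / 12 - #Fix(s) / 4 - #Fix(s t) / 3 - #orbits(t) / 2` is a natural number `g₀`, and
`2 * g₀ - 2 = - 2 * n + Σ (n - orb)` (written additively). -/
theorem exists_genus_modular [Finite Ω] [Nonempty Ω] [MulAction.IsPretransitive G Ω] (s t : G)
    (hgen : Subgroup.closure {s, t} = (⊤ : Subgroup G))
    (hs : ∀ a : Ω, s ^ 2 • a = a) (hst : ∀ a : Ω, (s * t) ^ 3 • a = a) :
    ∃ g₀ : ℕ, orb Ω s + orb Ω t + orb Ω (s * t) + 2 * g₀ = Nat.card Ω + 2 ∧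
      (g₀ : ℚ) = 1 + (Nat.card Ω : ℚ) / 12 - (Nat.card (MulAction.fixedBy Ω s) : ℚ) / 4
        - (Nat.card (MulAction.fixedBy Ω (s * t)) : ℚ) / 3 - (orb Ω t : ℚ) / 2 := by
  obtain ⟨g₀, hg₀⟩ := exists_genus_two_gen (Ω := Ω) s t hgen
  refine ⟨g₀, hg₀, ?_⟩
  have h2 := prime_mul_orb (Ω := Ω) s 2 Nat.prime_two hs
  have h3 := prime_mul_orb (Ω := Ω) (s * t) 3 Nat.prime_three hst
  have h2' : (2 : ℚ) * orb Ω s = Nat.card Ω + Nat.card (MulAction.fixedBy Ω s) := by
    have := congrArg (Nat.cast : ℕ → ℚ) h2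
    push_cast at this
    linarith
  have h3' : (3 : ℚ) * orb Ω (s * t) = Nat.card Ω + 2 * Nat.card (MulAction.fixedBy Ω (s * t)) := by
    have := congrArg (Nat.cast : ℕ → ℚ) h3
    push_cast at this
    linarith
  have h1' : (orb Ω s : ℚ) + orb Ω t + orb Ω (s * t) + 2 * g₀ = Nat.card Ω + 2 := by
    have := congrArg (Nat.cast : ℕ → ℚ) hg₀
    push_cast at this
    linarith
  linarith

end PrimeOrder

end Fermat.Agent.S24.Ree
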