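/-
S24 layer (E): Ree's theorem (via Scott's lemma) for three generators with product one,
and the parity statement via signs of permutations.  helper74.  Imports Mathlib only.
-/
import Mathlib

set_option autoImplicit false

namespace Fermat.Agent.S24.Ree74

open MulAction

section Scott

variable {k V : Type*} [Field k] [AddCommGroup V] [Module k V] [FiniteDimensional k V]

/-- **Scott's lemma**, operator form, for three operators with `A ∘ B ∘ C = 1`. -/
theorem scott_three (A B C : V →ₗ[k] V) (h : A ∘ₗ B ∘ₗ C = LinearMap.id) :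
    (Module.finrank k V -
        Module.finrank k ↥(LinearMap.ker (LinearMap.id - A) ⊓ LinearMap.ker (LinearMap.id - B) ⊓
          LinearMap.ker (LinearMap.id - C)))
      + Module.finrank k
          ↥(LinearMap.range (LinearMap.id - A) ⊔ LinearMap.range (LinearMap.id - A ∘ₗ B))
    ≤ Module.finrank k ↥(LinearMap.range (LinearMap.id - A))
      + Module.finrank k ↥(LinearMap.range (LinearMap.id - B))
      + Module.finrank k ↥(LinearMap.range (LinearMap.id - C)) := by
  set P₁ : V →ₗ[k] V := LinearMap.id - A with hP₁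
  set P₂ : V →ₗ[k] V := LinearMap.id - B with hP₂
  set P₃ : V →ₗ[k] V := LinearMap.id - C with hP₃
  let β : V →ₗ[k] (↥(LinearMap.range P₁) × ↥(LinearMap.range P₂) × ↥(LinearMap.range P₃)) :=
    P₁.rangeRestrict.prod (P₂.rangeRestrict.prod P₃.rangeRestrict)
  let δ : (↥(LinearMap.range P₁) × ↥(LinearMap.range P₂) × ↥(LinearMap.range P₃)) →ₗ[k] V :=
    (LinearMap.range P₁).subtype.coprod
      ((A ∘ₗ (LinearMap.range P₂).subtype).coprod ((A ∘ₗ B) ∘ₗ (LinearMap.range P₃).subtype))
  have hABC : ∀ v, A (B (C v)) = v := fun v => by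
    have := LinearMap.congr_fun h v
    simpa using this
  have hδβ : ∀ v, δ (β v) = 0 := by
    intro v
    have e : δ (β v) = P₁ v + (A (P₂ v) + A (B (P₃ v))) := rfl
    rw [e, hP₁, hP₂, hP₃]
    simp only [LinearMap.sub_apply, LinearMap.id_apply, map_sub, hABC]
    abel
  have hker : LinearMap.ker β =
      LinearMap.ker P₁ ⊓ LinearMap.ker P₂ ⊓ LinearMap.ker P₃ := by
    simp only [β, LinearMap.ker_prod, LinearMap.ker_rangeRestrict, inf_assoc]
  have hrange : LinearMap.range P₁ ⊔ LinearMap.range (LinearMap.id - A ∘ₗ B) ≤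
      LinearMap.range δ := by
    refine sup_le ?_ ?_
    · rintro _ ⟨v, rfl⟩
      refine ⟨(⟨P₁ v, LinearMap.mem_range_self _ v⟩, 0, 0), ?_⟩
      simp [δ]
    · rintro _ ⟨w, rfl⟩
      refine ⟨(⟨P₁ w, LinearMap.mem_range_self _ w⟩, ⟨P₂ w, LinearMap.mem_range_self _ w⟩, 0), ?_⟩
      simp [δ, hP₁, hP₂]
  have h1 := LinearMap.finrank_range_add_finrank_ker δ
  have h2 := LinearMap.finrank_range_add_finrank_ker β
  have h3 : Module.finrank k ↥(LinearMap.range β) ≤ Module.finrank k ↥(LinearMap.ker δ) := by
    apply Submodule.finrank_mono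
    rintro _ ⟨v, rfl⟩
    exact hδβ v
  have h4 := Submodule.finrank_mono hrange
  have h5 : Module.finrank k
      (↥(LinearMap.range P₁) × ↥(LinearMap.range P₂) × ↥(LinearMap.range P₃)) =
      Module.finrank k ↥(LinearMap.range P₁) + Module.finrank k ↥(LinearMap.range P₂)
        + Module.finrank k ↥(LinearMap.range P₃) := by
    rw [Module.finrank_prod, Module.finrank_prod, add_assoc]
  rw [hker] at h2
  omega

end Scott

section Perm

variable {G : Type*} [Group G] (X : Type*) [MulAction G X]

/-- number of orbits on `X` of the cyclic subgroup generated by `g`. -/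
noncomputable def orb (g : G) : ℕ := Nat.card (orbitRel.Quotient (Subgroup.zpowers g) X)

/-- the operator `f ↦ f ∘ (g • ·)` on functions `X → ℚ` (an anti-homomorphism in `g`). -/
noncomputable def R (g : G) : (X → ℚ) →ₗ[ℚ] (X → ℚ) := LinearMap.funLeft ℚ ℚ (fun x => g • x)

variable {X}

@[simp] lemma R_apply (g : G) (f : X → ℚ) (x : X) : R X g f x = f (g • x) := rfl

lemma R_mul (g h : G) : R X (g * h) = R X h ∘ₗ R X g := by
  ext f x
  simp [mul_smul]

lemma R_one : R X (1 : G) = LinearMap.id := by
  ext f x
  simp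

/-- the subgroup of elements leaving a function invariant -/
def stabFun (f : X → ℚ) : Subgroup G where
  carrier := {h | ∀ x, f (h • x) = f x}
  one_mem' := fun x => by simp
  mul_mem' := fun {g h} hg hh x => by rw [mul_smul, hg, hh]
  inv_mem' := fun {g} hg x => by
    have := hg (g⁻¹ • x)
    rw [smul_inv_smul] at this
    exact this.symm

lemma mem_stabFun {f : X → ℚ} {h : G} : h ∈ stabFun (G := G) f ↔ ∀ x, f (h • x) = f x := Iff.rfl

lemma mem_ker_iff (g : G) (f : X → ℚ) :
    f ∈ LinearMap.ker (LinearMap.id - R X g) ↔ g ∈ stabFun (G := G) f := by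
  rw [LinearMap.mem_ker, mem_stabFun]
  constructor
  · intro h x
    have := congrFun h x
    simp only [LinearMap.sub_apply, LinearMap.id_apply, Pi.sub_apply, R_apply, Pi.zero_apply] at this
    linarith
  · intro h
    ext x
    simp [h x]

lemma finrank_ker_eq_orb [Finite X] (g : G) :
    Module.finrank ℚ ↥(LinearMap.ker (LinearMap.id - R X g)) = orb X g := by
  classical
  let Ω := orbitRel.Quotient (Subgroup.zpowers g) X
  haveI : Finite Ω := Quotient.finite _
  haveI : Fintype Ω := Fintype.ofFinite Ω
  let π : X → Ω := Quotient.mk''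
  have hπ : Function.Surjective π := Quotient.mk''_surjective
  let Φ : (Ω → ℚ) →ₗ[ℚ] (X → ℚ) := LinearMap.funLeft ℚ ℚ π
  have hΦ : Function.Injective Φ := LinearMap.funLeft_injective_of_surjective ℚ ℚ π hπ
  have hrange : LinearMap.range Φ = LinearMap.ker (LinearMap.id - R X g) := by
    ext f
    rw [mem_ker_iff, mem_stabFun]
    constructor
    · rintro ⟨φ, rfl⟩ x
      show φ (π (g • x)) = φ (π x)
      congr 1
      apply Quotient.sound
      show g • x ∈ orbit (Subgroup.zpowers g) x
      exact ⟨⟨g, Subgroup.mem_zpowers g⟩, rfl⟩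
    · intro h
      have hle : Subgroup.zpowers g ≤ stabFun (G := G) f := by
        rw [Subgroup.zpowers_le]
        exact h
      refine ⟨Quotient.lift f ?_, ?_⟩
      · rintro x y ⟨⟨u, hu⟩, rfl⟩
        exact hle hu y
      · ext x
        rfl
  rw [← hrange, LinearMap.finrank_range_of_inj hΦ, Module.finrank_fintype_fun_eq_card, orb,
    Nat.card_eq_fintype_card]

lemma finrank_span_singleton_le_one {V : Type*} [AddCommGroup V] [Module ℚ V] (v : V) :
    Module.finrank ℚ ↥(Submodule.span ℚ {v}) ≤ 1 := by
  have := finrank_span_le_card (R := ℚ) ({v} : Set V)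
  simpa using this

/-- the subgroup of `g` such that all `e_x - e_{g x}` lie in a given subspace -/
def diffSub [DecidableEq X] (W : Submodule ℚ (X → ℚ)) : Subgroup G where
  carrier := {g | ∀ x : X, (Pi.single x (1 : ℚ) - Pi.single (g • x) (1 : ℚ) : X → ℚ) ∈ W}
  one_mem' := fun x => by simp
  mul_mem' := fun {g h} hg hh x => by
    have h1 := hh x
    have h2 := hg (h • x)
    have := W.add_mem h1 h2
    rw [mul_smul]
    convert this using 1
    abel
  inv_mem' := fun {g} hg x => by
    have h1 := hg (g⁻¹ • x)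
    rw [smul_inv_smul] at h1
    have := W.neg_mem h1
    convert this using 1
    abel

lemma single_sub_mem_range [DecidableEq X] (g : G) (y : X) :
    (Pi.single y (1 : ℚ) - Pi.single (g⁻¹ • y) (1 : ℚ) : X → ℚ) ∈
      LinearMap.range (LinearMap.id - R X g) := by
  refine ⟨Pi.single y 1, ?_⟩
  ext x
  simp only [LinearMap.sub_apply, LinearMap.id_apply, Pi.sub_apply, R_apply, Pi.single_apply]
  have : (g • x = y) ↔ (x = g⁻¹ • y) := by
    constructor
    · rintro rfl; simp
    · rintro rfl; simp
  simp only [this]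

/-- **Ree's theorem** for three elements with product one generating a transitive group:
the numbers of cycles satisfy `c(a) + c(b) + c(c) ≤ n + 2`. -/
theorem ree_three [Finite X] [IsPretransitive G X] (a b c : G) (habc : a * b * c = 1)
    (hgen : Subgroup.closure {a, b, c} = ⊤) :
    orb X a + orb X b + orb X c ≤ Nat.card X + 2 := by
  classical
  haveI : Fintype X := Fintype.ofFinite X
  rcases isEmpty_or_nonempty X with hX | hX
  · have h0 : ∀ g : G, orb X g = 0 := fun g => by
      unfold orb
      haveI : IsEmpty (orbitRel.Quotient (Subgroup.zpowers g) X) := Quotient.instIsEmpty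
      exact Nat.card_of_isEmpty
    simp [h0]
  obtain ⟨x₀⟩ := hX
  have hcomp : R X c ∘ₗ R X b ∘ₗ R X a = LinearMap.id := by
    rw [← R_mul, ← R_mul, habc, R_one]
  have key := scott_three (R X c) (R X b) (R X a) hcomp
  have hn : Module.finrank ℚ (X → ℚ) = Nat.card X := by
    rw [Module.finrank_fintype_fun_eq_card, Nat.card_eq_fintype_card]
  -- ranks
  have hr : ∀ g : G, Module.finrank ℚ ↥(LinearMap.range (LinearMap.id - R X g)) + orb X g
      = Nat.card X := fun g => by
    rw [← finrank_ker_eq_orb, LinearMap.finrank_range_add_finrank_ker, hn]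
  -- invariants
  have hinv : Module.finrank ℚ ↥(LinearMap.ker (LinearMap.id - R X c) ⊓
      LinearMap.ker (LinearMap.id - R X b) ⊓ LinearMap.ker (LinearMap.id - R X a)) ≤ 1 := by
    have hle : LinearMap.ker (LinearMap.id - R X c) ⊓
        LinearMap.ker (LinearMap.id - R X b) ⊓ LinearMap.ker (LinearMap.id - R X a) ≤
        Submodule.span ℚ {(fun _ => (1 : ℚ) : X → ℚ)} := by
      rintro f ⟨⟨hc, hb⟩, ha⟩
      rw [SetLike.mem_coe, mem_ker_iff] at hc hb ha
      have htop : stabFun (G := G) f = ⊤ := by
        rw [eq_top_iff, ← hgen, Subgroup.closure_le]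
        rintro g (rfl | rfl | rfl)
        · exact ha
        · exact hb
        · exact hc
      have hconst : ∀ x, f x = f x₀ := fun x => by
        obtain ⟨g, rfl⟩ := exists_smul_eq G x₀ x
        have : g ∈ stabFun (G := G) f := htop ▸ Subgroup.mem_top g
        exact this x₀
      rw [Submodule.mem_span_singleton]
      refine ⟨f x₀, ?_⟩
      ext x
      simp [hconst x]
    exact (Submodule.finrank_mono hle).trans (finrank_span_singleton_le_one _)
  -- the range part
  have hW : Nat.card X ≤ Module.finrank ℚ ↥(LinearMap.range (LinearMap.id - R X c) ⊔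
      LinearMap.range (LinearMap.id - R X c ∘ₗ R X b)) + 1 := by
    set W := LinearMap.range (LinearMap.id - R X c) ⊔
      LinearMap.range (LinearMap.id - R X c ∘ₗ R X b) with hWdef
    have hc : c ∈ diffSub (G := G) W := by
      have : c⁻¹ ∈ diffSub (G := G) W := fun x =>
        (le_sup_left : _ ≤ W) (single_sub_mem_range c x)
      simpa using (diffSub (G := G) W).inv_mem this
    have hbc : b * c ∈ diffSub (G := G) W := by
      have : (b * c)⁻¹ ∈ diffSub (G := G) W := fun x => by
        have := single_sub_mem_range (b * c) x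
        rw [R_mul] at this
        exact (le_sup_right : _ ≤ W) this
      simpa using (diffSub (G := G) W).inv_mem this
    have hb : b ∈ diffSub (G := G) W := by
      have := (diffSub (G := G) W).mul_mem hbc ((diffSub (G := G) W).inv_mem hc)
      simpa using this
    have ha : a ∈ diffSub (G := G) W := by
      have h1 : a = (b * c)⁻¹ := eq_inv_of_mul_eq_one_left (by rw [← mul_assoc]; exact habc)
      rw [h1]
      exact (diffSub (G := G) W).inv_mem hbc
    have htop : diffSub (G := G) W = ⊤ := by
      rw [eq_top_iff, ← hgen, Subgroup.closure_le]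
      rintro g (rfl | rfl | rfl)
      · exact ha
      · exact hb
      · exact hc
    have hdiff : ∀ x : X, (Pi.single x (1 : ℚ) - Pi.single x₀ (1 : ℚ) : X → ℚ) ∈ W := fun x => by
      obtain ⟨g, rfl⟩ := exists_smul_eq G x x₀
      have : g ∈ diffSub (G := G) W := htop ▸ Subgroup.mem_top g
      exact this x
    have hsup : W ⊔ Submodule.span ℚ {(Pi.single x₀ (1 : ℚ) : X → ℚ)} = ⊤ := by
      rw [eq_top_iff, ← (Pi.basisFun ℚ X).span_eq, Submodule.span_le]
      rintro _ ⟨x, rfl⟩
      have h1 : (Pi.basisFun ℚ X x : X → ℚ) =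
          (Pi.single x (1 : ℚ) - Pi.single x₀ (1 : ℚ)) + Pi.single x₀ (1 : ℚ) := by
        rw [Pi.basisFun_apply]
        abel
      rw [h1]
      exact Submodule.add_mem_sup (hdiff x) (Submodule.mem_span_singleton_self _)
    have h2 := Submodule.finrank_add_le_finrank_add_finrank W
      (Submodule.span ℚ {(Pi.single x₀ (1 : ℚ) : X → ℚ)})
    rw [hsup, finrank_top, hn] at h2
    have h3 := finrank_span_singleton_le_one (Pi.single x₀ (1 : ℚ) : X → ℚ)
    omega
  have ha := hr a
  have hb := hr b
  have hc := hr c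
  rw [hn] at key
  omega

end Perm

section Sign

open Equiv Equiv.Perm

variable {X : Type*} [Fintype X] [DecidableEq X]

/-- auxiliary classifying map: the cycle through `x`, and `x` itself if it is a fixed point -/
def classify (σ : Perm X) (x : X) : Perm X × Option X :=
  (σ.cycleOf x, if σ x = x then some x else none)

lemma sameCycle_iff_classify (σ : Perm X) (x y : X) :
    σ.SameCycle x y ↔ classify σ x = classify σ y := by
  unfold classify
  by_cases hx : σ x = x
  · rw [if_pos hx]
    constructor
    · intro h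
      have : x = y := h.eq_of_left hx
      subst this
      rw [if_pos hx]
    · intro h
      by_cases hy : σ y = y
      · rw [if_pos hy] at h
        have : x = y := Option.some_injective _ (congrArg Prod.snd h)
        subst this
        exact SameCycle.refl _ _
      · rw [if_neg hy] at h
        exact absurd (congrArg Prod.snd h) (by simp)
  · rw [if_neg hx]
    constructor
    · intro h
      have hy : σ y ≠ y := fun hy => hx (by
        have : x = y := h.eq_of_right hy
        rw [this]; exact hy)
      rw [if_neg hy, h.cycleOf_eq]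
    · intro h
      by_cases hy : σ y = y
      · rw [if_pos hy] at h
        exact absurd (congrArg Prod.snd h) (by simp)
      · exact (sameCycle_iff_cycleOf_eq_of_mem_support (mem_support.mpr hx)
          (mem_support.mpr hy)).mpr (congrArg Prod.fst h)

lemma image_classify (σ : Perm X) :
    Finset.univ.image (classify σ) =
      σ.cycleFactorsFinset.image (fun c => (c, (none : Option X))) ∪
        σ.supportᶜ.image (fun x => ((1 : Perm X), some x)) := by
  ext ⟨c, o⟩
  simp only [Finset.mem_image, Finset.mem_univ, true_and, Finset.mem_union, Finset.mem_compl,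
    mem_support, not_not, Prod.mk.injEq]
  constructor
  · rintro ⟨x, hx⟩
    unfold classify at hx
    by_cases hfix : σ x = x
    · right
      rw [if_pos hfix] at hx
      refine ⟨x, hfix, ?_, (Prod.mk.inj hx).2⟩
      rw [← (Prod.mk.inj hx).1]
      exact ((cycleOf_eq_one_iff σ).mpr hfix).symm
    · left
      rw [if_neg hfix] at hx
      refine ⟨σ.cycleOf x, ?_, (Prod.mk.inj hx).1, (Prod.mk.inj hx).2⟩
      rw [cycleOf_mem_cycleFactorsFinset_iff]
      exact mem_support.mpr hfix
  · rintro (⟨d, hd, rfl, rfl⟩ | ⟨x, hfix, rfl, rfl⟩)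
    · have hcyc : d.IsCycle := (mem_cycleFactorsFinset_iff.mp hd).1
      obtain ⟨x, hx⟩ := hcyc.nonempty_support
      have hxσ : x ∈ σ.support := mem_cycleFactorsFinset_support_le hd hx
      refine ⟨x, ?_⟩
      unfold classify
      rw [if_neg (mem_support.mp hxσ), ← cycle_is_cycleOf hx hd]
    · refine ⟨x, ?_⟩
      unfold classify
      rw [if_pos hfix, (cycleOf_eq_one_iff σ).mpr hfix]

lemma card_quotient_sameCycle (σ : Perm X) :
    Nat.card (Quotient (SameCycle.setoid σ)) =
      Multiset.card σ.cycleType + (Fintype.card X - σ.support.card) := by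
  have hsetoid : SameCycle.setoid σ = Setoid.ker (classify σ) := by
    ext x y
    exact sameCycle_iff_classify σ x y
  rw [hsetoid, Nat.card_congr (Setoid.quotientKerEquivRange (classify σ)),
    Nat.card_eq_fintype_card, ← Set.toFinset_card, Set.toFinset_range, image_classify,
    Finset.card_union_of_disjoint, Finset.card_image_of_injective, Finset.card_image_of_injective,
    Finset.card_compl, cycleType_def, Multiset.card_map]
  · rfl
  · intro x y h
    exact Option.some_injective _ (Prod.mk.inj h).2
  · intro c d h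
    exact (Prod.mk.inj h).1
  · rw [Finset.disjoint_left]
    intro p hp hq
    simp only [Finset.mem_image] at hp hq
    obtain ⟨c, -, rfl⟩ := hp
    obtain ⟨x, -, h⟩ := hq
    exact absurd (Prod.mk.inj h).2 (by simp)

lemma sign_eq_neg_one_pow (σ : Perm X) :
    Perm.sign σ = (-1 : ℤˣ) ^ (Fintype.card X + Nat.card (Quotient (SameCycle.setoid σ))) := by
  rw [sign_of_cycleType, card_quotient_sameCycle, sum_cycleType]
  have hle : σ.support.card ≤ Fintype.card X := Finset.card_le_univ _
  have : Fintype.card X + (Multiset.card σ.cycleType + (Fintype.card X - σ.support.card)) =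
      (σ.support.card + Multiset.card σ.cycleType) + 2 * (Fintype.card X - σ.support.card) := by
    omega
  rw [this, pow_add (-1 : ℤˣ) (σ.support.card + Multiset.card σ.cycleType), pow_mul]
  simp

end Sign

section Parity

open Equiv Equiv.Perm

variable {G : Type*} [Group G] {X : Type*} [MulAction G X]

lemma orb_eq_card_sameCycle (g : G) :
    orb X g = Nat.card (Quotient (SameCycle.setoid (MulAction.toPerm g : Perm X))) := by
  unfold orb
  refine Nat.card_congr (Quotient.congrRight ?_)
  intro x y
  show x ∈ orbit (Subgroup.zpowers g) y ↔ SameCycle (MulAction.toPerm g : Perm X) x y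
  have hpow : ∀ (i : ℤ) (z : X), ((MulAction.toPerm g : Perm X) ^ i) z = g ^ i • z := by
    intro i z
    have := map_zpow (MulAction.toPermHom G X) g i
    rw [MulAction.toPermHom_apply, MulAction.toPermHom_apply] at this
    rw [← this]
    rfl
  constructor
  · rintro ⟨⟨h, hh⟩, rfl⟩
    obtain ⟨i, rfl⟩ := Subgroup.mem_zpowers_iff.mp hh
    refine SameCycle.symm ⟨i, ?_⟩
    rw [hpow]
    rfl
  · intro h
    obtain ⟨i, hi⟩ := h.symm
    rw [hpow] at hi
    exact ⟨⟨g ^ i, Subgroup.zpow_mem_zpowers g i⟩, hi⟩

lemma sign_toPerm_eq [Fintype X] [DecidableEq X] (g : G) :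
    Perm.sign (MulAction.toPerm g : Perm X) = (-1 : ℤˣ) ^ (Fintype.card X + orb X g) := by
  rw [orb_eq_card_sameCycle, sign_eq_neg_one_pow]

/-- **Parity**: for three elements with product one acting on a finite set,
`n + c(a) + c(b) + c(c)` is even. -/
theorem even_card_add_orb [Finite X] (a b c : G) (habc : a * b * c = 1) :
    Even (Nat.card X + orb X a + orb X b + orb X c) := by
  classical
  haveI : Fintype X := Fintype.ofFinite X
  have h1 : Perm.sign (MulAction.toPerm a : Perm X) * Perm.sign (MulAction.toPerm b : Perm X) *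
      Perm.sign (MulAction.toPerm c : Perm X) = 1 := by
    rw [← Perm.sign_mul, ← Perm.sign_mul]
    have : (MulAction.toPerm a : Perm X) * MulAction.toPerm b * MulAction.toPerm c
        = MulAction.toPerm (a * b * c) := by
      ext x
      simp [mul_smul]
    rw [this, habc]
    have : (MulAction.toPerm (1 : G) : Perm X) = 1 := by
      ext x
      simp
    rw [this, Perm.sign_one]
  rw [sign_toPerm_eq, sign_toPerm_eq, sign_toPerm_eq, ← pow_add, ← pow_add] at h1
  rw [Nat.card_eq_fintype_card]
  have h2 : Even (Fintype.card X + orb X a + (Fintype.card X + orb X b) +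
      (Fintype.card X + orb X c)) := by
    by_contra hodd
    rw [Nat.not_even_iff_odd] at hodd
    rw [hodd.neg_one_pow] at h1
    exact absurd h1 (by decide)
  have h3 : Fintype.card X + orb X a + (Fintype.card X + orb X b) + (Fintype.card X + orb X c)
      = (Fintype.card X + orb X a + orb X b + orb X c) + 2 * Fintype.card X := by ring
  rw [h3] at h2
  exact (Nat.even_add.mp h2).mpr (even_two_mul _)

lemma orb_inv (g : G) : orb X g⁻¹ = orb X g := by
  unfold orb
  rw [Subgroup.zpowers_inv]

end Parity

section SL2Z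

open Matrix.SpecialLinearGroup ModularGroup

open scoped MatrixGroups

variable {X : Type*} [MulAction SL(2, ℤ) X]

/-- **Genus is a natural number**: for a finite transitive `SL(2,ℤ)`-set `X` of size `n`, with
`cS, cST, cT` the numbers of orbits of `S`, `S * T`, `T`, there is `g : ℕ` with
`n - cS - cST - cT = 2 g - 2`. -/
theorem exists_genus [Finite X] [IsPretransitive SL(2, ℤ) X] :
    ∃ g : ℕ, (Nat.card X : ℤ) - orb X (S : SL(2, ℤ)) - orb X (S * T : SL(2, ℤ))
      - orb X (T : SL(2, ℤ)) = 2 * (g : ℤ) - 2 := by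
  have habc : (S : SL(2, ℤ)) * T * (S * T)⁻¹ = 1 := by group
  have hgen : Subgroup.closure {(S : SL(2, ℤ)), T, (S * T)⁻¹} = ⊤ := by
    rw [eq_top_iff, ← _root_.SpecialLinearGroup.SL2Z_generators]
    apply Subgroup.closure_mono
    intro x hx
    rcases hx with rfl | rfl
    · exact Set.mem_insert _ _
    · exact Set.mem_insert_of_mem _ (Set.mem_insert _ _)
  have h1 := ree_three (X := X) _ _ _ habc hgen
  have h2 := even_card_add_orb (X := X) _ _ _ habc
  rw [orb_inv] at h1 h2
  obtain ⟨m, hm⟩ := h2
  -- n + cS + cT + cST = 2 m, cS + cT + cST ≤ n + 2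
  refine ⟨Nat.card X + 1 - m, ?_⟩
  have hle : m ≤ Nat.card X + 1 := by omega
  rw [Nat.cast_sub hle]
  push_cast
  omega

/-- The shape in which the Prelude's `AlgebraicCurve.genus` is computed:
`(deg K + 2).toNat / 2` with `deg K = n - cS - cST - cT`. -/
theorem toNat_div_two_eq [Finite X] [IsPretransitive SL(2, ℤ) X] (d : ℤ)
    (hd : d = (Nat.card X : ℤ) - orb X (S : SL(2, ℤ)) - orb X (S * T : SL(2, ℤ))
      - orb X (T : SL(2, ℤ))) :
    (((d + 2).toNat / 2 : ℕ) : ℚ) = 1 + (d : ℚ) / 2 := by
  obtain ⟨g, hg⟩ := exists_genus (X := X)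
  rw [← hd] at hg
  have h1 : (d + 2).toNat = 2 * g := by
    rw [hg]
    have : (2 * (g : ℤ) - 2 + 2) = ((2 * g : ℕ) : ℤ) := by push_cast; ring
    rw [this, Int.toNat_natCast]
  rw [h1, Nat.mul_div_cancel_left g (by norm_num), hg]
  push_cast
  ring

/-- Final arithmetic: the genus formula from the four counts. -/
theorem genus_formula_of_counts [Finite X] [IsPretransitive SL(2, ℤ) X] (d : ℤ)
    (hd : d = (Nat.card X : ℤ) - orb X (S : SL(2, ℤ)) - orb X (S * T : SL(2, ℤ))
      - orb X (T : SL(2, ℤ)))
    (ν₂ ν₃ : ℕ) (h2 : 2 * orb X (S : SL(2, ℤ)) = Nat.card X + ν₂)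
    (h3 : 3 * orb X (S * T : SL(2, ℤ)) = Nat.card X + 2 * ν₃) :
    (((d + 2).toNat / 2 : ℕ) : ℚ) =
      1 + (Nat.card X : ℚ) / 12 - (ν₂ : ℚ) / 4 - (ν₃ : ℚ) / 3 - (orb X (T : SL(2, ℤ)) : ℚ) / 2 := by
  rw [toNat_div_two_eq (X := X) d hd, hd]
  have h2' : (2 : ℚ) * (orb X (S : SL(2, ℤ)) : ℚ) = (Nat.card X : ℚ) + ν₂ := by exact_mod_cast h2
  have h3' : (3 : ℚ) * (orb X (S * T : SL(2, ℤ)) : ℚ) = (Nat.card X : ℚ) + 2 * ν₃ := by
    exact_mod_cast h3
  push_cast
  linarith

end SL2Z

end Fermat.Agent.S24.Ree74
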