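import Fermat.Agent.S24.Defs
import Fermat.Agent.S24.Ree

/-!
# Package SCOTT of the S24 skeleton, in the exact skeleton shape

`Fermat.Agent.S24.scott_ree` : Ree / Scott inequality and parity for three elements with
product `1` generating a group acting pretransitively on a finite nonempty set, stated with
`Fermat.Agent.S24.numOrbits`.  Also `exists_genus_numOrbits` (packaged natural-number genus) and the
conversions between `numOrbits` and fixed-point counts for elements acting with prime order.
-/

set_option autoImplicit false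

namespace Fermat.Agent.S24

theorem numOrbits_eq_orb {G X : Type*} [Group G] [MulAction G X] (g : G) :
    numOrbits X g = Ree.orb X g := rfl

/-- Package SCOTT (exact skeleton statement). -/
theorem scott_ree {G X : Type*} [Group G] [MulAction G X] [Finite X] [Nonempty X]
    [MulAction.IsPretransitive G X] (a b c : G) (habc : a * b * c = 1)
    (hgen : Subgroup.closure {a, b, c} = ⊤) :
    2 * (Nat.card X : ℤ) - 2 ≤
        ((Nat.card X : ℤ) - numOrbits X a) + ((Nat.card X : ℤ) - numOrbits X b) +
          ((Nat.card X : ℤ) - numOrbits X c) ∧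
      Even (((Nat.card X : ℤ) - numOrbits X a) + ((Nat.card X : ℤ) - numOrbits X b) +
          ((Nat.card X : ℤ) - numOrbits X c)) := by
  simp only [numOrbits_eq_orb]
  obtain ⟨g₀, hg₀⟩ := Ree.exists_genus (Ω := X) a b c habc hgen
  have h : ((Nat.card X : ℤ) - Ree.orb X a) + ((Nat.card X : ℤ) - Ree.orb X b) +
      ((Nat.card X : ℤ) - Ree.orb X c) = 2 * ((Nat.card X : ℤ) + g₀ - 1) := by
    have := congrArg (Nat.cast : ℕ → ℤ) hg₀
    push_cast at this
    linarith
  rw [h]
  refine ⟨by nlinarith [Int.natCast_nonneg g₀], even_two_mul _⟩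

/-- Packaged form: the Riemann–Hurwitz number is `2 g₀ - 2` for a natural number `g₀`. -/
theorem exists_genus_numOrbits {G X : Type*} [Group G] [MulAction G X] [Finite X] [Nonempty X]
    [MulAction.IsPretransitive G X] (a b c : G) (habc : a * b * c = 1)
    (hgen : Subgroup.closure {a, b, c} = ⊤) :
    ∃ g₀ : ℕ, (2 * (g₀ : ℤ) - 2 = -2 * (Nat.card X : ℤ) +
        (((Nat.card X : ℤ) - numOrbits X a) + ((Nat.card X : ℤ) - numOrbits X b) +
          ((Nat.card X : ℤ) - numOrbits X c))) := by
  simp only [numOrbits_eq_orb]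
  obtain ⟨g₀, hg₀⟩ := Ree.exists_genus (Ω := X) a b c habc hgen
  refine ⟨g₀, ?_⟩
  have := congrArg (Nat.cast : ℕ → ℤ) hg₀
  push_cast at this
  linarith

theorem numOrbits_inv {G X : Type*} [Group G] [MulAction G X] (g : G) :
    numOrbits X g⁻¹ = numOrbits X g := Ree.orb_inv g

/-- `p * numOrbits g = n + (p - 1) * #Fix(g)` when `g ^ p` acts trivially, `p` prime. -/
theorem prime_mul_numOrbits {G X : Type*} [Group G] [MulAction G X] [Finite X] (g : G) (p : ℕ)
    (hp : p.Prime) (hg : ∀ a : X, g ^ p • a = a) :
    p * numOrbits X g = Nat.card X + (p - 1) * Nat.card (MulAction.fixedBy X g) :=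
  Ree.prime_mul_orb g p hp hg

end Fermat.Agent.S24
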