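/-
S24 team blueprint: SKELETON of package statements (all `sorry`).
NOT imported by `Fermat/Agent/S24.lean`.  Each package owner proves the statements of one
section in their OWN file (same statement, namespace `Fermat.Agent.S24`), see claims table.
The file `Fermat/Agent/S24/Assembly.lean` derives S24 from these statements.
-/
import Fermat.Agent.S24.Defs

set_option autoImplicit false

open AlgebraicCurve KaehlerDifferential IntermediateField
open scoped MatrixGroups

namespace Fermat.Agent.S24.Skeleton

/-! ## Package FF0 : basic lemmas on `Place.ord` (no hypotheses on `K`, `F`) -/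
section FF0

variable {K F : Type*} [Field K] [Field F] [Algebra K F]

theorem ord_nonneg_iff (v : Place K F) {y : F} (hy : y ≠ 0) :
    0 ≤ v.ord y ↔ y ∈ v.toValuationSubring := sorry

theorem ord_pos_iff (v : Place K F) {y : F} (hy : y ≠ 0) :
    0 < v.ord y ↔ y ∈ v.toValuationSubring ∧ y⁻¹ ∉ v.toValuationSubring := sorry

theorem ord_neg (v : Place K F) (y : F) : v.ord (-y) = v.ord y := sorry

theorem ord_add_ge (v : Place K F) {y z : F} (hy : y ≠ 0) (hz : z ≠ 0) (hyz : y + z ≠ 0) :
    min (v.ord y) (v.ord z) ≤ v.ord (y + z) := sorry

theorem ord_algebraMap (v : Place K F) {a : K} (ha : a ≠ 0) : v.ord (algebraMap K F a) = 0 := sorry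

/-- two valuation subrings, one a place, comparable => equal -/
theorem place_eq_of_le (v : Place K F) (V : ValuationSubring F) (hV : V ≠ ⊤)
    (hle : v.toValuationSubring ≤ V) : v.toValuationSubring = V := sorry

end FF0

/-! ## Package FF1 : places of a function field over an algebraically closed field -/
section FF1

variable {K F : Type*} [Field K] [Field F] [Algebra K F] [IsAlgClosed K] [CharZero K]
variable {x : F} (hF : IsFunctionFieldOver K x)
include hF

theorem isPrincipalIdealRing_of_valuationSubring (V : ValuationSubring F)
    (hK : ∀ a : K, algebraMap K F a ∈ V) (hV : V ≠ ⊤) : IsPrincipalIdealRing V := sorry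

theorem place_deg_eq_one (v : Place K F) : v.deg = 1 := sorry

theorem exists_center (v : Place K F) : v ∈ placesOverInfty K x ∨ ∃ c : K, v ∈ placesOver x c := sorry

theorem finite_placesOver (c : K) : (placesOver x c).Finite := sorry

theorem sum_ord_placesOver (c : K) :
    ∑ᶠ v ∈ placesOver x c, v.ord (x - algebraMap K F c) = (degOver K x : ℤ) := sorry

theorem finite_placesOverInfty : (placesOverInfty K x).Finite := sorry

theorem sum_ord_placesOverInfty :
    ∑ᶠ v ∈ placesOverInfty K x, - v.ord x = (degOver K x : ℤ) := sorry

end FF1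

/-! ## Package FF2 : principal divisors have degree zero -/
section FF2

variable {K F : Type*} [Field K] [Field F] [Algebra K F] [IsAlgClosed K] [CharZero K]
variable {x : F} (hF : IsFunctionFieldOver K x)
include hF

theorem finite_support_ord {f : F} (hf : f ≠ 0) : {v : Place K F | v.ord f ≠ 0}.Finite := sorry

theorem finsum_ord_eq_zero {f : F} (hf : f ≠ 0) : ∑ᶠ v : Place K F, v.ord f = 0 := sorry

end FF2

/-! ## Package FF3 : differentials -/
section FF3

variable {K F : Type*} [Field K] [Field F] [Algebra K F] [IsAlgClosed K] [CharZero K]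
variable {x : F} (hF : IsFunctionFieldOver K x)
include hF

theorem span_D_eq_top : Submodule.span F {D K F x} = ⊤ := sorry

theorem D_ne_zero : D K F x ≠ 0 := sorry

theorem dCoordGenerates (v : Place K F) : v.DCoordGenerates := sorry

theorem ordDifferential_D_of_pos (v : Place K F) (c : K) (hv : v ∈ placesOver x c) :
    v.ordDifferential (D K F x) = v.ord (x - algebraMap K F c) - 1 := sorry

theorem ordDifferential_D_of_neg (v : Place K F) (hv : v ∈ placesOverInfty K x) :
    v.ordDifferential (D K F x) = v.ord x - 1 := sorry

end FF3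

/-! ## Package GAL : Galois descent of the number of places -/
section GAL

variable {K F L : Type*} [Field K] [Field F] [Field L] [Algebra K F] [Algebra F L] [Algebra K L]
  [IsScalarTower K F L] [IsAlgClosed K] [CharZero K]
variable {x : F} (hF : IsFunctionFieldOver K x)
variable (G : Subgroup (L ≃ₐ[K] L)) [Finite G]
  (hGx : ∀ g ∈ G, g (algebraMap F L x) = algebraMap F L x)
  (hG : ∀ y : L, (∀ g ∈ G, g y = y) → y ∈ K⟮algebraMap F L x⟯)
include hF hGx hG

theorem isFunctionFieldOver_top : IsFunctionFieldOver K (algebraMap F L x) := sorry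

theorem degOver_eq_index : degOver K x = (fixingSub F G).index := sorry

theorem card_stab_eq_ord (c : K) (w : Place K L) (hw : w ∈ placesOver (algebraMap F L x) c) :
    (Nat.card (stabSub G w) : ℤ) = w.ord (algebraMap F L x - algebraMap K L c) := sorry

theorem ncard_placesOver_eq (c : K) (w : Place K L) (hw : w ∈ placesOver (algebraMap F L x) c) :
    (placesOver x c).ncard =
      Nat.card (MulAction.orbitRel.Quotient (stabSub G w) (G ⧸ fixingSub F G)) := sorry

theorem card_stab_eq_ord_infty (w : Place K L) (hw : w ∈ placesOverInfty K (algebraMap F L x)) :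
    (Nat.card (stabSub G w) : ℤ) = - w.ord (algebraMap F L x) := sorry

theorem ncard_placesOverInfty_eq (w : Place K L)
    (hw : w ∈ placesOverInfty K (algebraMap F L x)) :
    (placesOverInfty K x).ncard =
      Nat.card (MulAction.orbitRel.Quotient (stabSub G w) (G ⧸ fixingSub F G)) := sorry

end GAL

/-! ## Package GAL0 : finiteness of `F / K(x)` from the Galois tower (Artin) -/
section GAL0

variable {K F L : Type*} [Field K] [Field F] [Field L] [Algebra K F] [Algebra F L] [Algebra K L]
  [IsScalarTower K F L]

theorem isFunctionFieldOver_of_fixed {x : F} (hx : Transcendental K x)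
    (G : Subgroup (L ≃ₐ[K] L)) [Finite G]
    (hGx : ∀ g ∈ G, g (algebraMap F L x) = algebraMap F L x)
    (hG : ∀ y : L, (∀ g ∈ G, g y = y) → y ∈ K⟮algebraMap F L x⟯) :
    IsFunctionFieldOver K x := sorry

end GAL0

/-! ## Package COMB : counting on `SL(2,ℤ)/Γ₀(N) ≃ ℙ¹(ℤ/N)` -/
section COMB

open ModularCurve

variable (N : ℕ) [NeZero N]

theorem card_X0Cosets : Nat.card (X0Cosets N) = dedekindPsi N := sorry

theorem two_mul_numOrbits_S :
    2 * numOrbits (X0Cosets N) ModularGroup.S = dedekindPsi N + nuTwo N := sorry

theorem three_mul_numOrbits_ST :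
    3 * numOrbits (X0Cosets N) (ModularGroup.S * ModularGroup.T) =
      dedekindPsi N + 2 * nuThree N := sorry

theorem numOrbits_T : numOrbits (X0Cosets N) ModularGroup.T = cuspCount N := sorry

end COMB

/-! ## Package SCOTT : Ree / Scott inequality and parity for three permutations with product 1 -/
section SCOTT

theorem scott_ree {G X : Type*} [Group G] [MulAction G X] [Finite X] [Nonempty X]
    [MulAction.IsPretransitive G X] (a b c : G) (habc : a * b * c = 1)
    (hgen : Subgroup.closure {a, b, c} = ⊤) :
    2 * (Nat.card X : ℤ) - 2 ≤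
        ((Nat.card X : ℤ) - numOrbits X a) + ((Nat.card X : ℤ) - numOrbits X b) +
          ((Nat.card X : ℤ) - numOrbits X c) ∧
      Even (((Nat.card X : ℤ) - numOrbits X a) + ((Nat.card X : ℤ) - numOrbits X b) +
          ((Nat.card X : ℤ) - numOrbits X c)) := sorry

end SCOTT

/-! ## Package MOD : the modular tower (analytic part) -/
section MOD

theorem exists_modularTower (N : ℕ) [NeZero N] : Nonempty (ModularTower N) := sorry

end MOD

end Fermat.Agent.S24.Skeleton
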