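/-
S24 / MOD-TOWER (helper84), part 5: the realisation `φ_N : F_N → Mer` of the function field of
`X₀(N)` over `ℚ̄` inside the field of meromorphic functions on `ℍ` (concrete model of
`TowerInput.lean`): `φ_N (j(q^d)) = (τ ↦ j(dτ))`, `Γ₀(N)`-invariance, and meromorphy at all cusps.
-/
import Fermat.Agent.S24.TowerInput
import Fermat.Agent.S24.Br46Rel
import Fermat.Agent.S24.Mod.ValGlue14
import Fermat.Agent.S24.Mod.Aux16

set_option autoImplicit false
set_option linter.style.haveILetI false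

open Complex Filter Topology ModularCurve
open UpperHalfPlane hiding I
open scoped MatrixGroups Manifold

namespace Fermat.Agent.S24.TowerPhi

open Fermat.Agent.S24.HolH Fermat.Agent.S24.Tower Fermat.Agent.S24.TowerCusp
open Fermat.Agent.S24.TowerInput

/-- An algebra homomorphism out of a field generated by `s` lands in an intermediate field `T`
as soon as it does so on the generators. -/
theorem algHom_mem_of_eq_adjoin {F E K : Type*} [Field F] [Field E] [Field K] [Algebra F E]
    [Algebra F K] {S : IntermediateField F E} {s : Set E} (hS : S = IntermediateField.adjoin F s)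
    (ψ : S →ₐ[F] K) (T : IntermediateField F K)
    (h : ∀ x hx, ψ ⟨x, hS.ge (IntermediateField.subset_adjoin _ _ hx)⟩ ∈ T) (y : S) :
    ψ y ∈ T := by
  subst hS
  obtain ⟨y, hy⟩ := y
  induction hy using IntermediateField.adjoin_induction with
  | mem x hx => exact h x hx
  | algebraMap c =>
    have : ψ ⟨algebraMap F E c, IntermediateField.algebraMap_mem _ c⟩ = algebraMap F K c :=
      ψ.commutes c
    rw [this]
    exact T.algebraMap_mem c
  | add x y hx hy ihx ihy =>
    have : ψ ⟨x + y, add_mem hx hy⟩ = ψ ⟨x, hx⟩ + ψ ⟨y, hy⟩ := by rw [← map_add]; rfl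
    rw [this]
    exact add_mem ihx ihy
  | inv x hx ihx =>
    have : ψ ⟨x⁻¹, inv_mem hx⟩ = (ψ ⟨x, hx⟩)⁻¹ := by rw [← map_inv₀]; rfl
    rw [this]
    exact inv_mem ihx
  | mul x y hx hy ihx ihy =>
    have : ψ ⟨x * y, mul_mem hx hy⟩ = ψ ⟨x, hx⟩ * ψ ⟨y, hy⟩ := by rw [← map_mul]; rfl
    rw [this]
    exact mul_mem ihx ihy

/-- `ℂ` as a `ℚ̄`-algebra via `Tower.iota` (not an instance). -/
@[reducible] noncomputable def algKC : Algebra Kbar ℂ := iota.toAlgebra

/-- `Mer` as a `ℚ̄`-algebra via `Tower.iota` (not an instance). -/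
@[reducible] noncomputable def algKMer : Algebra Kbar Mer :=
  ((algebraMap ℂ Mer).comp iota).toAlgebra

theorem isScalarTower_K_C_Mer :
    @IsScalarTower Kbar ℂ Mer algKC.toSMul Algebra.toSMul algKMer.toSMul := by
  refine @IsScalarTower.mk _ _ _ algKC.toSMul Algebra.toSMul algKMer.toSMul (fun r c x => ?_)
  have h1 : @HSMul.hSMul Kbar ℂ ℂ (@instHSMul _ _ algKC.toSMul) r c = iota r * c := rfl
  have h2 : ∀ y : Mer, @HSMul.hSMul Kbar Mer Mer (@instHSMul _ _ algKMer.toSMul) r y =
      algebraMap ℂ Mer (iota r) * y := fun _ => rfl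
  rw [h1, h2, Algebra.smul_def, Algebra.smul_def, map_mul, mul_assoc]

theorem exists_phi (N : ℕ) [NeZero N] :
    letI := algKMer
    ∃ ψ : FN N →ₐ[Kbar] Mer,
      (∀ d : Mod.Dv N, ψ ⟨Mod.xK N d, Br46.xK_mem N d⟩ = Jd d.1) ∧ ψ (jF N) = Jd 1 := by
  exact @Br46.exists_algHom_FN_of_relC N _ ℂ Mer _ algKC _ _ algKMer isScalarTower_K_C_Mer
    (fun d : Mod.Dv N => Jd d.1) (fun P => TowerInput.rel N P)

/-- The realisation `F_N → Mer` as a `ℚ̄`-algebra homomorphism. -/
noncomputable def phiAlg (N : ℕ) [NeZero N] :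
    letI := algKMer
    FN N →ₐ[Kbar] Mer :=
  letI := algKMer
  (exists_phi N).choose

/-- The realisation `F_N → Mer` as a ring homomorphism. -/
noncomputable def phi (N : ℕ) [NeZero N] : FN N →+* Mer :=
  letI := algKMer
  (phiAlg N : FN N →+* Mer)

theorem phi_xK (N : ℕ) [NeZero N] (d : Mod.Dv N) :
    phi N ⟨Mod.xK N d, Br46.xK_mem N d⟩ = Jd d.1 :=
  letI := algKMer
  (exists_phi N).choose_spec.1 d

theorem phi_jF (N : ℕ) [NeZero N] : phi N (jF N) = Jd 1 :=
  letI := algKMer
  (exists_phi N).choose_spec.2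

theorem phi_algebraMap (N : ℕ) [NeZero N] (c : Kbar) :
    phi N (algebraMap Kbar (FN N) c) = algebraMap ℂ Mer (iota c) :=
  letI := algKMer
  (phiAlg N).commutes c

theorem phi_injective (N : ℕ) [NeZero N] : Function.Injective (phi N) := (phi N).injective

/-- The image of `φ_N` lies in the field generated over `ℚ̄` by the `j(dτ)`, `d ∣ N`. -/
theorem phi_mem_adjoin_range (N : ℕ) [NeZero N] (x : FN N) :
    letI := algKMer
    phi N x ∈ IntermediateField.adjoin Kbar (Set.range fun d : Mod.Dv N => Jd d.1) := by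
  letI := algKMer
  refine algHom_mem_of_eq_adjoin (Br46.modularFunctionFieldBar_eq_adjoin N) (phiAlg N) _ ?_ x
  rintro _ ⟨d, rfl⟩
  have : phiAlg N ⟨Mod.xK N d, _⟩ = Jd d.1 := phi_xK N d
  rw [this]
  exact IntermediateField.subset_adjoin _ _ ⟨d, rfl⟩

/-- The image of `φ_N` lies in the field generated over `ℚ̄` by all conjugates. -/
theorem phi_mem_adjoin_conjSet (N : ℕ) [NeZero N] (x : FN N) :
    letI := algKMer
    phi N x ∈ IntermediateField.adjoin Kbar (Mod.conjSet act Jd N) := by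
  letI := algKMer
  have hle : IntermediateField.adjoin Kbar (Set.range fun d : Mod.Dv N => Jd d.1) ≤
      IntermediateField.adjoin Kbar (Mod.conjSet act Jd N) := by
    apply IntermediateField.adjoin.mono
    rintro _ ⟨d, rfl⟩
    exact Mod.Aux16.Jd_mem_conjSet act Jd N d.2
  exact hle (phi_mem_adjoin_range N x)

/-- **`Γ₀(N)`-invariance** of the realisation. -/
theorem smul_phi_of_mem_Gamma0 (N : ℕ) [NeZero N] {g : SL(2, ℤ)}
    (hg : g ∈ CongruenceSubgroup.Gamma0 N) (x : FN N) : g • phi N x = phi N x := by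
  letI := algKMer
  let σ : Mer →ₐ[Kbar] Mer :=
    { ((act g : Mer ≃ₐ[ℂ] Mer) : Mer →+* Mer) with
      commutes' := fun c => (act g).commutes (iota c) }
  have hσ : ∀ y : Mer, σ y = g • y := fun _ => rfl
  have key : σ.comp (phiAlg N) = phiAlg N := by
    refine IntermediateField.algHom_ext_of_eq_adjoin Kbar
      (Br46.modularFunctionFieldBar_eq_adjoin N) ?_
    rintro _ ⟨d, rfl⟩
    have h1 : phiAlg N ⟨Mod.xK N d, _⟩ = Jd d.1 := phi_xK N d
    show σ (phiAlg N ⟨Mod.xK N d, _⟩) = phiAlg N ⟨Mod.xK N d, _⟩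
    rw [h1, hσ, ← act_apply]
    exact act_Jd d.1 d.2 g hg
  have h2 := congrArg (fun χ : FN N →ₐ[Kbar] Mer => χ x) key
  rw [← hσ]
  exact h2

/-- Every element of the image of `φ_N` is a quotient of two elements of the ring generated by
the conjugates. -/
theorem phi_isFrac (N : ℕ) [NeZero N] (x : FN N) :
    Mod.ValGlue14.IsFrac (Algebra.adjoin ℂ (Mod.conjSet act Jd N)) (phi N x) := by
  exact @Mod.ValGlue14.isFrac_of_mem_adjoin ℂ Mer _ _ _ Kbar _ algKC algKMer isScalarTower_K_C_Mer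
    _ _ (phi_mem_adjoin_conjSet N x)

/-- **Meromorphy at all cusps**: for every `δ ∈ SL(2,ℤ)` and `x ∈ F_N`, the translate
`δ • φ_N x` is a quotient of two holomorphic functions in the cusp ring of level `N`
(functions `f` with `f * q_N ^ M` holomorphic in `q_N` on the unit disc). -/
theorem exists_cuspSub_frac (N : ℕ) [NeZero N] (δ : SL(2, ℤ)) (x : FN N) :
    ∃ a b : Hol, a ∈ cuspSub N ∧ b ∈ cuspSub N ∧ b ≠ 0 ∧
      δ • phi N x * algebraMap Hol Mer b = algebraMap Hol Mer a := by
  obtain ⟨a, ha, b, hb, hb0, hx⟩ := phi_isFrac N x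
  have ha' := Mod.Aux16.act_mem_adjoin act Jd N δ ha
  have hb' := Mod.Aux16.act_mem_adjoin act Jd N δ hb
  obtain ⟨fa, hfa, hfa'⟩ := exists_of_mem_adjoin ha'
  obtain ⟨fb, hfb, hfb'⟩ := exists_of_mem_adjoin hb'
  have hδb0 : δ • b ≠ 0 := by
    intro h
    apply hb0
    have := congrArg (fun y => δ⁻¹ • y) h
    simpa using this
  refine ⟨fa, fb, hfa, hfb, ?_, ?_⟩
  · intro h
    apply hδb0
    rw [← act_apply, ← hfb', h, map_zero]
  · rw [hfa', hfb', act_apply, act_apply, hx, smul_div₀']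
    field_simp

end Fermat.Agent.S24.TowerPhi
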